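import Mathlib

/-!
# Tier 2, [T2-W] (abstract part): an automorphism of a generated field from symmetric relations

Let `Ω / L` be a field extension, `g : ι → Ω` a family of elements and `w : ι → ι` an involution
of the index set such that every polynomial relation `R(g) = 0` over `L` implies the renamed
relation `R(g ∘ w) = 0`.  Then there is a unique `L`-algebra automorphism `W` of the field
`L(g i : i)` with `W (g i) = g (w i)`, and `W ∘ W = id`.

Main statements (namespace `Fermat.Agent.T2.helper36`):

* `relAlgHom g w hrel hinj : L(g) →ₐ[L] L(g)` and `relAlgHom_gen`;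
* `relAlgEquiv g w hw hrel : L(g) ≃ₐ[L] L(g)` and `relAlgEquiv_gen`, `relAlgEquiv_relAlgEquiv`.
-/

set_option autoImplicit false

noncomputable section

namespace Fermat.Agent.T2.helper36

open IntermediateField MvPolynomial
open scoped IntermediateField.algebraAdjoinAdjoin

section AutOfRel

variable {L Ω : Type*} [Field L] [Field Ω] [Algebra L Ω] {ι : Type*}

/-- The generator `g i` as an element of `L(g)`. -/
def relGen (g : ι → Ω) (i : ι) : adjoin L (Set.range g) :=
  ⟨g i, subset_adjoin L _ ⟨i, rfl⟩⟩

@[simp]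
theorem coe_relGen (g : ι → Ω) (i : ι) : ((relGen (L := L) g i : adjoin L (Set.range g)) : Ω) = g i :=
  rfl

/-- Evaluation of polynomials at the renamed generators, with values in `L(g)`. -/
def relAeval (g : ι → Ω) (w : ι → ι) : MvPolynomial ι L →ₐ[L] adjoin L (Set.range g) :=
  MvPolynomial.aeval (fun i => relGen (L := L) g (w i))

theorem coe_relAeval (g : ι → Ω) (w : ι → ι) (R : MvPolynomial ι L) :
    ((relAeval g w R : adjoin L (Set.range g)) : Ω) = MvPolynomial.aeval g (rename w R) := by
  have h1 : ((adjoin L (Set.range g)).val.comp (relAeval g w)) R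
      = MvPolynomial.aeval (fun i => g (w i)) R := by
    unfold relAeval
    rw [MvPolynomial.comp_aeval]
    rfl
  rw [MvPolynomial.aeval_rename]
  exact h1

theorem relAeval_eq_of_aeval_eq (g : ι → Ω) (w : ι → ι)
    (hrel : ∀ R : MvPolynomial ι L, MvPolynomial.aeval g R = 0 →
      MvPolynomial.aeval g (rename w R) = 0)
    {R R' : MvPolynomial ι L} (h : MvPolynomial.aeval g R = MvPolynomial.aeval g R') :
    relAeval g w R = relAeval g w R' := by
  have h0 : MvPolynomial.aeval g (R - R') = 0 := by rw [map_sub, h, sub_self]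
  have h1 := hrel _ h0
  have h2 : relAeval g w (R - R') = 0 := by
    apply Subtype.ext
    rw [coe_relAeval, h1]
    rfl
  rw [map_sub] at h2
  exact sub_eq_zero.mp h2

theorem exists_aeval_eq (g : ι → Ω) (a : Algebra.adjoin L (Set.range g)) :
    ∃ R : MvPolynomial ι L, MvPolynomial.aeval g R = (a : Ω) := by
  obtain ⟨x, hx⟩ := a
  have h : x ∈ (MvPolynomial.aeval g : MvPolynomial ι L →ₐ[L] Ω).range := by
    rw [← Algebra.adjoin_range_eq_range_aeval]
    exact hx
  exact h

/-- A polynomial representing an element of `L[g]`. -/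
def relRepr (g : ι → Ω) (a : Algebra.adjoin L (Set.range g)) : MvPolynomial ι L :=
  (exists_aeval_eq g a).choose

theorem aeval_relRepr (g : ι → Ω) (a : Algebra.adjoin L (Set.range g)) :
    MvPolynomial.aeval g (relRepr g a) = (a : Ω) :=
  (exists_aeval_eq g a).choose_spec

variable (g : ι → Ω) (w : ι → ι)
  (hrel : ∀ R : MvPolynomial ι L, MvPolynomial.aeval g R = 0 →
    MvPolynomial.aeval g (rename w R) = 0)

/-- The homomorphism `L[g] → L(g)` induced by the renaming. -/
def relAlgHom₀ : Algebra.adjoin L (Set.range g) →ₐ[L] adjoin L (Set.range g) where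
  toFun a := relAeval g w (relRepr g a)
  map_one' := by
    rw [← map_one (relAeval g w)]
    refine relAeval_eq_of_aeval_eq g w hrel ?_
    rw [aeval_relRepr, map_one]
    rfl
  map_mul' a b := by
    rw [← map_mul (relAeval g w)]
    refine relAeval_eq_of_aeval_eq g w hrel ?_
    rw [aeval_relRepr, map_mul, aeval_relRepr, aeval_relRepr]
    rfl
  map_zero' := by
    rw [← map_zero (relAeval g w)]
    refine relAeval_eq_of_aeval_eq g w hrel ?_
    rw [aeval_relRepr, map_zero]
    rfl
  map_add' a b := by
    rw [← map_add (relAeval g w)]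
    refine relAeval_eq_of_aeval_eq g w hrel ?_
    rw [aeval_relRepr, map_add, aeval_relRepr, aeval_relRepr]
    rfl
  commutes' c := by
    rw [← (relAeval g w).commutes c]
    refine relAeval_eq_of_aeval_eq g w hrel ?_
    rw [aeval_relRepr, AlgHom.commutes]
    rfl

theorem relAlgHom₀_apply (a : Algebra.adjoin L (Set.range g)) (R : MvPolynomial ι L)
    (hR : MvPolynomial.aeval g R = (a : Ω)) :
    relAlgHom₀ g w hrel a = relAeval g w R :=
  relAeval_eq_of_aeval_eq g w hrel ((aeval_relRepr g a).trans hR.symm)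

theorem relAlgHom₀_injective
    (hinj : ∀ R : MvPolynomial ι L, MvPolynomial.aeval g (rename w R) = 0 →
      MvPolynomial.aeval g R = 0) :
    Function.Injective (relAlgHom₀ g w hrel) := by
  rw [injective_iff_map_eq_zero]
  intro a ha
  have h1 : ((relAlgHom₀ g w hrel a : adjoin L (Set.range g)) : Ω) = 0 := by rw [ha]; rfl
  have h2 : ((relAlgHom₀ g w hrel a : adjoin L (Set.range g)) : Ω)
      = MvPolynomial.aeval g (rename w (relRepr g a)) := coe_relAeval g w _
  rw [h2] at h1
  have h3 := hinj _ h1
  rw [aeval_relRepr] at h3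
  exact Subtype.ext h3

variable (hinj : ∀ R : MvPolynomial ι L, MvPolynomial.aeval g (rename w R) = 0 →
      MvPolynomial.aeval g R = 0)

/-- **The endomorphism of `L(g)` induced by the renaming `w`.** -/
def relAlgHom : adjoin L (Set.range g) →ₐ[L] adjoin L (Set.range g) :=
  IsFractionRing.liftAlgHom (K := adjoin L (Set.range g))
    (relAlgHom₀_injective g w hrel hinj)

theorem relAlgHom_algebraMap (a : Algebra.adjoin L (Set.range g)) :
    relAlgHom g w hrel hinj (algebraMap _ (adjoin L (Set.range g)) a) = relAlgHom₀ g w hrel a := by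
  unfold relAlgHom
  rw [IsFractionRing.liftAlgHom_apply]
  exact IsFractionRing.lift_algebraMap _ a

theorem relAlgHom_gen (i : ι) :
    relAlgHom g w hrel hinj (relGen g i) = relGen g (w i) := by
  have hi : g i ∈ Algebra.adjoin L (Set.range g) := Algebra.subset_adjoin ⟨i, rfl⟩
  have e : relGen (L := L) g i = algebraMap (Algebra.adjoin L (Set.range g))
      (adjoin L (Set.range g)) ⟨g i, hi⟩ := rfl
  rw [e, relAlgHom_algebraMap, relAlgHom₀_apply g w hrel ⟨g i, hi⟩ (X i) (by rw [aeval_X])]
  unfold relAeval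
  rw [aeval_X]

/-- Two `L`-algebra homomorphisms out of `L(g)` which agree on the generators are equal. -/
theorem algHom_ext_relGen {K : Type*} [Semiring K] [Algebra L K]
    {φ₁ φ₂ : adjoin L (Set.range g) →ₐ[L] K}
    (h : ∀ i, φ₁ (relGen g i) = φ₂ (relGen g i)) : φ₁ = φ₂ := by
  apply adjoin_algHom_ext
  rintro x ⟨i, rfl⟩
  exact h i

end AutOfRel

section Involution

variable {L Ω : Type*} [Field L] [Field Ω] [Algebra L Ω] {ι : Type*}
  (g : ι → Ω) (w : ι → ι) (hw : ∀ i, w (w i) = i)
  (hrel : ∀ R : MvPolynomial ι L, MvPolynomial.aeval g R = 0 →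
    MvPolynomial.aeval g (rename w R) = 0)

include hw hrel in
theorem rel_inj_of_involution (R : MvPolynomial ι L)
    (h : MvPolynomial.aeval g (rename w R) = 0) : MvPolynomial.aeval g R = 0 := by
  have h1 := hrel _ h
  rw [rename_rename] at h1
  have e : (w ∘ w) = id := funext hw
  rw [e, rename_id_apply] at h1
  exact h1

/-- The endomorphism attached to an involution `w`. -/
def relAlgHomInv : adjoin L (Set.range g) →ₐ[L] adjoin L (Set.range g) :=
  relAlgHom g w hrel (rel_inj_of_involution g w hw hrel)

theorem relAlgHomInv_gen (i : ι) :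
    relAlgHomInv g w hw hrel (relGen g i) = relGen g (w i) :=
  relAlgHom_gen g w hrel _ i

theorem relAlgHomInv_comp_self :
    (relAlgHomInv g w hw hrel).comp (relAlgHomInv g w hw hrel) = AlgHom.id L _ := by
  apply algHom_ext_relGen
  intro i
  rw [AlgHom.comp_apply, relAlgHomInv_gen, relAlgHomInv_gen, hw]
  rfl

/-- **The automorphism of `L(g)` attached to an involution `w` of the generators preserving the
relations.** -/
def relAlgEquiv : adjoin L (Set.range g) ≃ₐ[L] adjoin L (Set.range g) :=
  AlgEquiv.ofAlgHom (relAlgHomInv g w hw hrel) (relAlgHomInv g w hw hrel)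
    (relAlgHomInv_comp_self g w hw hrel) (relAlgHomInv_comp_self g w hw hrel)

theorem relAlgEquiv_gen (i : ι) :
    relAlgEquiv g w hw hrel (relGen g i) = relGen g (w i) :=
  relAlgHomInv_gen g w hw hrel i

theorem coe_relAlgEquiv_gen (i : ι) (hi : g i ∈ adjoin L (Set.range g)) :
    ((relAlgEquiv g w hw hrel ⟨g i, hi⟩ : adjoin L (Set.range g)) : Ω) = g (w i) := by
  have := relAlgEquiv_gen g w hw hrel i
  exact congrArg Subtype.val this

theorem relAlgEquiv_relAlgEquiv (x : adjoin L (Set.range g)) :
    relAlgEquiv g w hw hrel (relAlgEquiv g w hw hrel x) = x := by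
  have := congrArg (fun φ : adjoin L (Set.range g) →ₐ[L] adjoin L (Set.range g) => φ x)
    (relAlgHomInv_comp_self g w hw hrel)
  exact this

include hw hrel in
/-- **Existence form, for an intermediate field presented as `L(g)`**: the automorphism
attached to an involution `w` of the generators preserving the relations. -/
theorem exists_algEquiv_of_eq_adjoin {S : IntermediateField L Ω}
    (hS : S = adjoin L (Set.range g)) :
    ∃ W : S ≃ₐ[L] S, (∀ (i : ι) (hi : g i ∈ S), ((W ⟨g i, hi⟩ : S) : Ω) = g (w i)) ∧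
      ∀ x : S, W (W x) = x := by
  subst hS
  exact ⟨relAlgEquiv g w hw hrel, fun i hi => coe_relAlgEquiv_gen g w hw hrel i hi,
    relAlgEquiv_relAlgEquiv g w hw hrel⟩

end Involution

section RingHomExt

variable {L Ω : Type*} [Field L] [Field Ω] [Algebra L Ω] {ι : Type*}

/-- Two ring homomorphisms from `S = L(g)` to a field which agree on the constants and on the
generators are equal. -/
theorem ringHom_ext_of_eq_adjoin {g : ι → Ω} {S : IntermediateField L Ω}
    (hS : S = adjoin L (Set.range g)) {K : Type*} [DivisionRing K] {f₁ f₂ : S →+* K}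
    (hc : ∀ c : L, f₁ (algebraMap L S c) = f₂ (algebraMap L S c))
    (hg : ∀ (i : ι) (hi : g i ∈ S), f₁ ⟨g i, hi⟩ = f₂ ⟨g i, hi⟩) : f₁ = f₂ := by
  subst hS
  refine RingHom.ext fun x => ?_
  obtain ⟨x, hx⟩ := x
  induction hx using IntermediateField.adjoin_induction with
  | mem x hx =>
    obtain ⟨i, rfl⟩ := hx
    exact hg i _
  | algebraMap c => exact hc c
  | add x y hx hy h₁ h₂ =>
    have e : (⟨x + y, add_mem hx hy⟩ : adjoin L (Set.range g)) = ⟨x, hx⟩ + ⟨y, hy⟩ := rfl
    rw [e, map_add, map_add, h₁, h₂]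
  | inv x hx h₁ =>
    have e : (⟨x⁻¹, inv_mem hx⟩ : adjoin L (Set.range g)) = (⟨x, hx⟩ : adjoin L (Set.range g))⁻¹ :=
      rfl
    rw [e, map_inv₀, map_inv₀, h₁]
  | mul x y hx hy h₁ h₂ =>
    have e : (⟨x * y, mul_mem hx hy⟩ : adjoin L (Set.range g)) = ⟨x, hx⟩ * ⟨y, hy⟩ := rfl
    rw [e, map_mul, map_mul, h₁, h₂]

end RingHomExt

end Fermat.Agent.T2.helper36

end
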