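import Mathlib
import Fermat.Agent.P3.helper80_Represents
import Fermat.Agent.S24.helper24_FieldGen
import Fermat.Agent.S24.helper77_Hermite
import Fermat.Agent.T2.helper36_AutOfRel
import Fermat.Prelude.Def_ModularCurve_HeckeOperator

/-!
# Tier 2, [T2-W]: the Atkin–Lehner automorphism of the function field of `X₀(N q)`

For a prime `q ∤ N` the function field `F_{Nq} = ℚ̄(j(dτ) : d ∣ N q)` has a `ℚ̄`-automorphism `W`
with `W (j_d) = j_{w d}`, where `w d = d q` if `q ∤ d` and `w d = d / q` otherwise.  It exchanges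
the two degeneracy maps `α, β : F_N → F_{Nq}` of the Prelude, is an involution, and commutes with
the arithmetic Galois action.
-/

set_option autoImplicit false

noncomputable section

open UpperHalfPlane ModularForm Filter Topology CongruenceSubgroup ModularCurve
  IntermediateField AlgebraicCurve
open scoped MatrixGroups Manifold

namespace Fermat.Agent.T2.helper36

open Fermat.Agent.S24 Fermat.Agent.S24.helper24 Fermat.Agent.P3.helper80

/-! ### The involution of the divisors -/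

/-- `d ↦ d q` if `q ∤ d`, `d ↦ d / q` if `q ∣ d`. -/
def alNat (q d : ℕ) : ℕ := if q ∣ d then d / q else d * q

theorem alNat_of_dvd {q d : ℕ} (h : q ∣ d) : alNat q d = d / q := if_pos h

theorem alNat_of_not_dvd {q d : ℕ} (h : ¬ q ∣ d) : alNat q d = d * q := if_neg h

theorem dvd_of_dvd_mul_of_not_dvd {N q d : ℕ} (hq : q.Prime) (hd : d ∣ N * q) (h : ¬ q ∣ d) :
    d ∣ N :=
  (Nat.Coprime.symm ((Nat.Prime.coprime_iff_not_dvd hq).mpr h)).dvd_of_dvd_mul_right hd

theorem alNat_mem_divisors {N q d : ℕ} (hq : q.Prime) (hd : d ∈ (N * q).divisors) :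
    alNat q d ∈ (N * q).divisors := by
  obtain ⟨hd1, hd2⟩ := Nat.mem_divisors.mp hd
  refine Nat.mem_divisors.mpr ⟨?_, hd2⟩
  by_cases h : q ∣ d
  · rw [alNat_of_dvd h]
    exact (Nat.div_dvd_of_dvd h).trans hd1
  · rw [alNat_of_not_dvd h]
    exact Nat.mul_dvd_mul (dvd_of_dvd_mul_of_not_dvd hq hd1 h) dvd_rfl

theorem alNat_alNat {N q d : ℕ} (hq : q.Prime) (hqN : ¬ q ∣ N) (hd : d ∈ (N * q).divisors) :
    alNat q (alNat q d) = d := by
  obtain ⟨hd1, hd2⟩ := Nat.mem_divisors.mp hd
  by_cases h : q ∣ d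
  · obtain ⟨e, rfl⟩ := h
    rw [alNat_of_dvd (dvd_mul_right q e), Nat.mul_div_cancel_left e hq.pos]
    have he : ¬ q ∣ e := by
      rintro ⟨f, rfl⟩
      have h1 : q * (q * f) ∣ N * q := hd1
      have h2 : q * f ∣ N := by
        have : q * (q * f) ∣ q * N := by rwa [mul_comm N q] at h1
        exact (Nat.mul_dvd_mul_iff_left hq.pos).mp this
      exact hqN ((dvd_mul_right q f).trans h2)
    rw [alNat_of_not_dvd he, mul_comm]
  · rw [alNat_of_not_dvd h, alNat_of_dvd (dvd_mul_left q d), Nat.mul_div_cancel d hq.pos]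

/-- The involution on the index type of the generators. -/
def alIdx {N q : ℕ} (hq : q.Prime) (d : (N * q).divisors) : (N * q).divisors :=
  ⟨alNat q d.1, alNat_mem_divisors hq d.2⟩

@[simp]
theorem coe_alIdx {N q : ℕ} (hq : q.Prime) (d : (N * q).divisors) :
    ((alIdx hq d : (N * q).divisors) : ℕ) = alNat q d.1 := rfl

theorem alIdx_alIdx {N q : ℕ} (hq : q.Prime) (hqN : ¬ q ∣ N) (d : (N * q).divisors) :
    alIdx hq (alIdx hq d) = d :=
  Subtype.ext (alNat_alNat hq hqN d.2)

/-! ### The analytic involution -/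

theorem scaleH_scaleH (d e : ℕ) [NeZero d] [NeZero e] [NeZero (d * e)] (τ : ℍ) :
    scaleH d (scaleH e τ) = scaleH (d * e) τ := by
  apply UpperHalfPlane.ext
  rw [helper77.coe_scaleH, helper77.coe_scaleH, helper77.coe_scaleH]
  push_cast
  ring

/-- **The Atkin–Lehner substitution**: there is a map `ω : ℍ → ℍ` with
`j_d ∘ ω = j_{w d}` for all `d ∣ N q`. -/
theorem exists_atkinLehner_subst (N q : ℕ) (hq : q.Prime) (hqN : ¬ q ∣ N) :
    ∃ ω : ℍ → ℍ, ∀ d ∈ (N * q).divisors, ∀ τ : ℍ, jfunDT (alNat q d) τ = jfunDT d (ω τ) := by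
  have hq0 : q ≠ 0 := hq.ne_zero
  haveI : NeZero q := ⟨hq0⟩
  -- Bezout
  have hcop : IsCoprime (q : ℤ) (N : ℤ) := by
    rw [Int.isCoprime_iff_gcd_eq_one]
    have : Nat.Coprime q N := (Nat.Prime.coprime_iff_not_dvd hq).mpr hqN
    simpa [Int.gcd_natCast_natCast] using this
  obtain ⟨u, v, huv⟩ := hcop
  -- `γ₀ = [[1, -v], [N, q u]]`
  let γ₀ : SL(2, ℤ) := ⟨!![1, -v; (N : ℤ), (q : ℤ) * u], by
    rw [Matrix.det_fin_two_of]; linear_combination huv⟩
  have hγ₀ : γ₀ ∈ Gamma0 N := by
    rw [CongruenceSubgroup.Gamma0_mem]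
    show (((N : ℤ) : ℤ) : ZMod N) = 0
    simp
  refine ⟨fun τ => γ₀ • scaleH q τ, fun d hd τ => ?_⟩
  obtain ⟨hd1, hd2⟩ := Nat.mem_divisors.mp hd
  have hd0 : d ≠ 0 := fun h => hd2 (by rw [h] at hd1; exact Nat.eq_zero_of_zero_dvd hd1)
  haveI : NeZero d := ⟨hd0⟩
  by_cases h : q ∣ d
  · -- `d = q e`, `e ∣ N`
    obtain ⟨e, rfl⟩ := h
    have he0 : e ≠ 0 := fun h0 => hd0 (by rw [h0, mul_zero])
    haveI : NeZero e := ⟨he0⟩
    have heN : e ∣ N := by
      have : q * e ∣ q * N := by rwa [mul_comm N q] at hd1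
      exact (Nat.mul_dvd_mul_iff_left hq.pos).mp this
    obtain ⟨n', hn'⟩ := heN
    rw [alNat_of_dvd (dvd_mul_right q e), Nat.mul_div_cancel_left e hq.pos]
    rw [helper24.jfunDT_of_ne_zero, helper24.jfunDT_of_ne_zero]
    let γ' : SL(2, ℤ) := ⟨!![(q : ℤ), (e : ℤ) * (-v); (n' : ℤ), u], by
      rw [Matrix.det_fin_two_of]
      have : (N : ℤ) = e * n' := by exact_mod_cast hn'
      rw [this] at huv
      linear_combination huv⟩
    have key : scaleH (q * e) (γ₀ • scaleH q τ) = γ' • scaleH e τ := by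
      apply UpperHalfPlane.ext
      rw [helper77.coe_scaleH, helper77.coe_SL_smul, helper77.coe_SL_smul, helper77.coe_scaleH,
        helper77.coe_scaleH]
      have h1 := helper77.SL_denom_ne_zero γ₀ (scaleH q τ)
      have h2 := helper77.SL_denom_ne_zero γ' (scaleH e τ)
      rw [helper77.coe_scaleH] at h1 h2
      have e00 : (γ₀ 0 0 : ℤ) = 1 := rfl
      have e01 : (γ₀ 0 1 : ℤ) = -v := rfl
      have e10 : (γ₀ 1 0 : ℤ) = N := rfl
      have e11 : (γ₀ 1 1 : ℤ) = q * u := rfl
      have f00 : (γ' 0 0 : ℤ) = q := rfl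
      have f01 : (γ' 0 1 : ℤ) = e * (-v) := rfl
      have f10 : (γ' 1 0 : ℤ) = n' := rfl
      have f11 : (γ' 1 1 : ℤ) = u := rfl
      rw [e10, e11] at h1
      rw [f10, f11] at h2
      rw [e00, e01, e10, e11, f00, f01, f10, f11]
      have hNC : (N : ℂ) = (e : ℂ) * (n' : ℂ) := by
        rw [hn']; push_cast; ring
      have hqC : (q : ℂ) ≠ 0 := by exact_mod_cast hq0
      push_cast at h1 h2 ⊢
      rw [hNC] at h1 ⊢
      have h1' : (e : ℂ) * n' * τ + u ≠ 0 := by
        intro h0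
        apply h1
        have : (e : ℂ) * n' * (q * τ) + q * u = q * ((e : ℂ) * n' * τ + u) := by ring
        rw [this, h0, mul_zero]
      have h2' : (n' : ℂ) * (e * τ) + u = (e : ℂ) * n' * τ + u := by ring
      rw [h2']
      have h3 : (e : ℂ) * n' * (q * τ) + q * u = q * ((e : ℂ) * n' * τ + u) := by ring
      rw [h3]
      field_simp
    show jfun (scaleH e τ) = jfun (scaleH (q * e) (γ₀ • scaleH q τ))
    rw [key, helper24.jfun_smul]
  · -- `d ∣ N`
    have hdN : d ∣ N := dvd_of_dvd_mul_of_not_dvd hq hd1 h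
    rw [alNat_of_not_dvd h]
    haveI : NeZero (d * q) := ⟨Nat.mul_ne_zero hd0 hq0⟩
    rw [helper24.jfunDT_of_ne_zero, helper24.jfunDT_of_ne_zero,
      helper77.jfunD_smul_of_mem_Gamma0 hdN hγ₀]
    show jfun (scaleH (d * q) τ) = jfun (scaleH d (scaleH q τ))
    rw [scaleH_scaleH]

/-! ### Relations between the generators are preserved: over `ℂ` -/

section RelC

variable {M : ℕ} [NeZero M]

/-- A polynomial relation between the generators of `F_ℂ` holds pointwise on `ℍ`. -/
theorem evPC0_eq_zero_of_aeval_eq_zero (R : MvPolynomial M.divisors ℂ)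
    (h : MvPolynomial.aeval (genJC M) R = 0) (τ : ℍ) : evPC0 M R τ = 0 := by
  have H0 : Represents M (0 : FC M) (fun z => evPC0 M R (ofComplex z)) :=
    represents_aeval R 0 (by rw [h]; rfl)
  have hev := H0.eventuallyEq (represents_zero (N := M)) τ
  have hcont : ContinuousAt (fun z => evPC0 M R (ofComplex z)) (τ : ℂ) :=
    (helper48.analyticAt_comp_ofComplex (mdiff_evPC0 M R) τ).continuousAt
  have h1 : Tendsto (fun z => evPC0 M R (ofComplex z)) (𝓝[≠] (τ : ℂ))
      (𝓝 (evPC0 M R (ofComplex (τ : ℂ)))) :=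
    hcont.tendsto.mono_left nhdsWithin_le_nhds
  have h2 : Tendsto (fun z => evPC0 M R (ofComplex z)) (𝓝[≠] (τ : ℂ)) (𝓝 0) :=
    (tendsto_const_nhds (x := (0 : ℂ))).congr' (hev.mono fun z hz => hz.symm)
  have h3 := tendsto_nhds_unique h1 h2
  rwa [ofComplex_apply] at h3

/-- Conversely, a polynomial in the generators which vanishes on `ℍ` is zero in `F_ℂ`. -/
theorem aeval_eq_zero_of_evPC0_eq_zero (R : MvPolynomial M.divisors ℂ)
    (h : ∀ τ : ℍ, evPC0 M R τ = 0) : MvPolynomial.aeval (genJC M) R = 0 := by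
  have hmem : MvPolynomial.aeval (genJC M) R ∈ FCfield M := by
    rw [FCfield_eq_adjoin]
    exact helper24.aeval_mem_adjoin _ R
  have H1 : Represents M (⟨_, hmem⟩ : FC M) (fun z => evPC0 M R (ofComplex z)) :=
    represents_aeval R ⟨_, hmem⟩ rfl
  have e : (fun z : ℂ => evPC0 M R (ofComplex z)) = fun _ => 0 := funext fun z => h _
  rw [e] at H1
  have := H1.unique (represents_zero (N := M))
  exact congrArg Subtype.val this

end RelC

section Rel

variable {N q : ℕ}

theorem evPC0_rename_alIdx (hq : q.Prime) {ω : ℍ → ℍ}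
    (hω : ∀ d ∈ (N * q).divisors, ∀ τ : ℍ, jfunDT (alNat q d) τ = jfunDT d (ω τ))
    (R : MvPolynomial (N * q).divisors ℂ) (τ : ℍ) :
    evPC0 (N * q) (MvPolynomial.rename (alIdx hq) R) τ = evPC0 (N * q) R (ω τ) := by
  unfold evPC0
  rw [MvPolynomial.eval_rename]
  have e : ((fun d : (N * q).divisors => jfunDT d.1 τ) ∘ alIdx hq)
      = fun d : (N * q).divisors => jfunDT d.1 (ω τ) := by
    funext d
    exact hω d.1 d.2 τ
  rw [e]

variable [NeZero N]

/-- **Relations are preserved by the Atkin–Lehner renaming (over `ℂ`).** -/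
theorem rel_alIdx_C (hq : q.Prime) (hqN : ¬ q ∣ N) (R : MvPolynomial (N * q).divisors ℂ)
    (h : MvPolynomial.aeval (genJC (N * q)) R = 0) :
    haveI : NeZero q := ⟨hq.ne_zero⟩
    MvPolynomial.aeval (genJC (N * q)) (MvPolynomial.rename (alIdx hq) R) = 0 := by
  haveI : NeZero q := ⟨hq.ne_zero⟩
  obtain ⟨ω, hω⟩ := exists_atkinLehner_subst N q hq hqN
  apply aeval_eq_zero_of_evPC0_eq_zero
  intro τ
  rw [evPC0_rename_alIdx hq hω]
  exact evPC0_eq_zero_of_aeval_eq_zero R h _

/-! ### Relations between the generators are preserved: over `ℚ̄` -/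

theorem toC_aeval_genJ (M : ℕ) (R : MvPolynomial M.divisors Kbar) :
    helper17.toC (MvPolynomial.aeval (genJ M) R)
      = MvPolynomial.aeval (genJC M) (MvPolynomial.map (iotaC : Kbar →+* ℂ) R) := by
  rw [MvPolynomial.aeval_def, MvPolynomial.aeval_def, MvPolynomial.eval₂_map,
    MvPolynomial.hom_eval₂]
  congr 1
  · refine RingHom.ext fun c => ?_
    exact helper17.toC_algebraMap c
  · funext d
    exact helper17.toC_JdT d.1

/-- **Relations are preserved by the Atkin–Lehner renaming (over `ℚ̄`).** -/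
theorem rel_alIdx (hq : q.Prime) (hqN : ¬ q ∣ N) (R : MvPolynomial (N * q).divisors Kbar)
    (h : MvPolynomial.aeval (genJ (N * q)) R = 0) :
    MvPolynomial.aeval (genJ (N * q)) (MvPolynomial.rename (alIdx hq) R) = 0 := by
  haveI : NeZero q := ⟨hq.ne_zero⟩
  apply helper17.toC_injective
  rw [map_zero, toC_aeval_genJ, MvPolynomial.map_rename]
  apply rel_alIdx_C hq hqN
  rw [← toC_aeval_genJ, h, map_zero]

end Rel

/-! ### The automorphism -/

section W

/-- The generator `j_d` of `F_M`. -/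
def genBar (M : ℕ) [NeZero M] (d : M.divisors) : modularFunctionFieldBar M :=
  ⟨genJ M d, by
    rw [modularFunctionFieldBar_eq_adjoin]
    exact IntermediateField.subset_adjoin _ _ ⟨d, rfl⟩⟩

@[simp]
theorem coe_genBar (M : ℕ) [NeZero M] (d : M.divisors) :
    ((genBar M d : modularFunctionFieldBar M) : LaurentSeries Kbar) = genJ M d := rfl

/-- Two `ℚ̄`-algebra homomorphisms out of `F_M` which agree on the generators are equal. -/
theorem algHom_ext_genBar {M : ℕ} [NeZero M] {K : Type*} [Semiring K] [Algebra Kbar K]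
    {φ₁ φ₂ : modularFunctionFieldBar M →ₐ[Kbar] K}
    (h : ∀ d : M.divisors, φ₁ (genBar M d) = φ₂ (genBar M d)) : φ₁ = φ₂ := by
  apply IntermediateField.algHom_ext_of_eq_adjoin Kbar (modularFunctionFieldBar_eq_adjoin M)
  rintro x ⟨d, rfl⟩
  exact h d

variable (N q : ℕ) [NeZero N] [NeZero q]

theorem exists_atkinLehner_gen (hq : q.Prime) (hqN : ¬ q ∣ N) :
    ∃ W : modularFunctionFieldBar (N * q) ≃ₐ[Kbar] modularFunctionFieldBar (N * q),
      (∀ d : (N * q).divisors, W (genBar (N * q) d) = genBar (N * q) (alIdx hq d)) ∧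
      ∀ x, W (W x) = x := by
  obtain ⟨W, h1, h2⟩ := exists_algEquiv_of_eq_adjoin (genJ (N * q)) (alIdx hq)
    (alIdx_alIdx hq hqN) (rel_alIdx hq hqN) (modularFunctionFieldBar_eq_adjoin (N * q))
  exact ⟨W, fun d => Subtype.ext (h1 d _), h2⟩

/-- **The Atkin–Lehner automorphism `W` of the function field of `X₀(N q)` over `ℚ̄`.** -/
def atkinLehner (hq : q.Prime) (hqN : ¬ q ∣ N) :
    modularFunctionFieldBar (N * q) ≃ₐ[Kbar] modularFunctionFieldBar (N * q) :=
  (exists_atkinLehner_gen N q hq hqN).choose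

/-- `W (j_d) = j_{w d}`. -/
theorem atkinLehner_genBar (hq : q.Prime) (hqN : ¬ q ∣ N) (d : (N * q).divisors) :
    atkinLehner N q hq hqN (genBar (N * q) d) = genBar (N * q) (alIdx hq d) :=
  (exists_atkinLehner_gen N q hq hqN).choose_spec.1 d

/-- `W` is an involution. -/
theorem atkinLehner_atkinLehner (hq : q.Prime) (hqN : ¬ q ∣ N)
    (x : modularFunctionFieldBar (N * q)) :
    atkinLehner N q hq hqN (atkinLehner N q hq hqN x) = x :=
  (exists_atkinLehner_gen N q hq hqN).choose_spec.2 x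

/-! ### `W` exchanges the two degeneracy maps -/

theorem qExpand_JdT (d : ℕ) (hd : d ≠ 0) :
    qExpand Kbar q (JdT d) = JdT (d * q) := by
  haveI : NeZero d := ⟨hd⟩
  haveI : NeZero (d * q) := ⟨Nat.mul_ne_zero hd (NeZero.ne q)⟩
  haveI : NeZero (q * d) := ⟨Nat.mul_ne_zero (NeZero.ne q) hd⟩
  rw [JdT_eq_coeffEmb, JdT_eq_coeffEmb, coeffEmb, ← ModularCurve.coeffMap_qExpand,
    qExpand_qExpand]
  have e : q * d = d * q := mul_comm q d
  congr 2
  simp only [e]

theorem not_dvd_of_mem_divisors {N q d : ℕ} (hqN : ¬ q ∣ N) (hd : d ∈ N.divisors) : ¬ q ∣ d :=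
  fun h => hqN (h.trans (Nat.mem_divisors.mp hd).1)

theorem mem_divisors_mul {N q d : ℕ} [NeZero q] (hd : d ∈ N.divisors) : d ∈ (N * q).divisors :=
  Nat.mem_divisors.mpr ⟨(Nat.mem_divisors.mp hd).1.mul_right q,
    Nat.mul_ne_zero (Nat.mem_divisors.mp hd).2 (NeZero.ne q)⟩

theorem mul_mem_divisors_mul {N q d : ℕ} [NeZero q] (hd : d ∈ N.divisors) :
    d * q ∈ (N * q).divisors :=
  Nat.mem_divisors.mpr ⟨Nat.mul_dvd_mul (Nat.mem_divisors.mp hd).1 dvd_rfl,
    Nat.mul_ne_zero (Nat.mem_divisors.mp hd).2 (NeZero.ne q)⟩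

/-- `α (j_d) = j_d`. -/
theorem heckeAlphaBar_genBar (d : N.divisors) :
    heckeAlphaBar Kbar N q (genBar N d) = genBar (N * q) ⟨d.1, mem_divisors_mul d.2⟩ :=
  Subtype.ext rfl

/-- `β (j_d) = j_{d q}`. -/
theorem heckeBetaBar_genBar (d : N.divisors) :
    heckeBetaBar Kbar N q (genBar N d) = genBar (N * q) ⟨d.1 * q, mul_mem_divisors_mul d.2⟩ := by
  apply Subtype.ext
  rw [coe_heckeBetaBar, coe_genBar, coe_genBar]
  exact qExpand_JdT q d.1 (Nat.pos_of_mem_divisors d.2).ne'

omit [NeZero N] in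
theorem alIdx_of_mem_divisors (hq : q.Prime) (hqN : ¬ q ∣ N) (d : N.divisors) :
    alIdx hq (⟨d.1, mem_divisors_mul d.2⟩ : (N * q).divisors)
      = ⟨d.1 * q, mul_mem_divisors_mul d.2⟩ :=
  Subtype.ext (alNat_of_not_dvd (not_dvd_of_mem_divisors hqN d.2))

/-- **`W ∘ α = β`.** -/
theorem atkinLehner_heckeAlphaBar (hq : q.Prime) (hqN : ¬ q ∣ N)
    (x : modularFunctionFieldBar N) :
    atkinLehner N q hq hqN (heckeAlphaBar Kbar N q x) = heckeBetaBar Kbar N q x := by
  have h : ((atkinLehner N q hq hqN : modularFunctionFieldBar (N * q) →ₐ[Kbar]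
      modularFunctionFieldBar (N * q)).comp (heckeAlphaBar Kbar N q)) = heckeBetaBar Kbar N q := by
    apply algHom_ext_genBar
    intro d
    rw [AlgHom.comp_apply, heckeAlphaBar_genBar, heckeBetaBar_genBar]
    show atkinLehner N q hq hqN _ = _
    rw [atkinLehner_genBar, alIdx_of_mem_divisors N q hq hqN]
  exact congrArg (fun φ : modularFunctionFieldBar N →ₐ[Kbar] modularFunctionFieldBar (N * q) =>
    φ x) h

/-- **`W ∘ β = α`.** -/
theorem atkinLehner_heckeBetaBar (hq : q.Prime) (hqN : ¬ q ∣ N)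
    (x : modularFunctionFieldBar N) :
    atkinLehner N q hq hqN (heckeBetaBar Kbar N q x) = heckeAlphaBar Kbar N q x := by
  rw [← atkinLehner_heckeAlphaBar N q hq hqN x, atkinLehner_atkinLehner]

/-! ### `W` commutes with the arithmetic Galois action -/

theorem arithmeticRingAut_genBar (M : ℕ) [NeZero M] (σ : Kbar ≃ₐ[ℚ] Kbar) (d : M.divisors) :
    arithmeticRingAut (modularFunctionFieldFull M) σ (genBar M d) = genBar M d := by
  apply Subtype.ext
  rw [coe_arithmeticRingAut_apply, coe_genBar]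
  haveI : NeZero d.1 := ⟨(Nat.pos_of_mem_divisors d.2).ne'⟩
  show coeffMap (σ : Kbar →+* Kbar) (JdT d.1) = JdT d.1
  rw [JdT_eq_coeffEmb, coeffMap_coeffEmb]

/-- **`W` commutes with the arithmetic Galois action.** -/
theorem atkinLehner_arithmeticRingAut (hq : q.Prime) (hqN : ¬ q ∣ N) (σ : Kbar ≃ₐ[ℚ] Kbar)
    (x : modularFunctionFieldBar (N * q)) :
    atkinLehner N q hq hqN (arithmeticRingAut (modularFunctionFieldFull (N * q)) σ x)
      = arithmeticRingAut (modularFunctionFieldFull (N * q)) σ (atkinLehner N q hq hqN x) := by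
  have h : ((atkinLehner N q hq hqN : modularFunctionFieldBar (N * q) ≃ₐ[Kbar]
        modularFunctionFieldBar (N * q)) : modularFunctionFieldBar (N * q) →+*
          modularFunctionFieldBar (N * q)).comp
        ((arithmeticRingAut (modularFunctionFieldFull (N * q)) σ : _ ≃+* _) :
          modularFunctionFieldBar (N * q) →+* modularFunctionFieldBar (N * q))
      = ((arithmeticRingAut (modularFunctionFieldFull (N * q)) σ : _ ≃+* _) :
          modularFunctionFieldBar (N * q) →+* modularFunctionFieldBar (N * q)).comp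
        ((atkinLehner N q hq hqN : modularFunctionFieldBar (N * q) ≃ₐ[Kbar]
        modularFunctionFieldBar (N * q)) : modularFunctionFieldBar (N * q) →+*
          modularFunctionFieldBar (N * q)) := by
    apply ringHom_ext_of_eq_adjoin (modularFunctionFieldBar_eq_adjoin (N * q))
    · intro c
      show atkinLehner N q hq hqN (arithmeticRingAut _ σ (algebraMap Kbar _ c))
        = arithmeticRingAut _ σ (atkinLehner N q hq hqN (algebraMap Kbar _ c))
      rw [arithmeticRingAut_algebraMap, AlgEquiv.commutes, AlgEquiv.commutes,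
        arithmeticRingAut_algebraMap]
    · intro d hd
      show atkinLehner N q hq hqN (arithmeticRingAut _ σ (genBar (N * q) d))
        = arithmeticRingAut _ σ (atkinLehner N q hq hqN (genBar (N * q) d))
      rw [arithmeticRingAut_genBar, atkinLehner_genBar, arithmeticRingAut_genBar]
  exact congrArg (fun φ : modularFunctionFieldBar (N * q) →+* modularFunctionFieldBar (N * q) =>
    φ x) h

/-! ### Uniqueness and the packaged statement -/

/-- `W` is the only `ℚ̄`-algebra endomorphism exchanging `α` and `β`. -/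
theorem atkinLehner_unique (hq : q.Prime) (hqN : ¬ q ∣ N)
    (W' : modularFunctionFieldBar (N * q) →ₐ[Kbar] modularFunctionFieldBar (N * q))
    (hα : ∀ x, W' (heckeAlphaBar Kbar N q x) = heckeBetaBar Kbar N q x)
    (hβ : ∀ x, W' (heckeBetaBar Kbar N q x) = heckeAlphaBar Kbar N q x) :
    W' = (atkinLehner N q hq hqN : modularFunctionFieldBar (N * q) →ₐ[Kbar]
      modularFunctionFieldBar (N * q)) := by
  apply algHom_ext_genBar
  intro d
  obtain ⟨d, hd⟩ := d
  obtain ⟨hd1, hd2⟩ := Nat.mem_divisors.mp hd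
  have hN0 : N ≠ 0 := NeZero.ne N
  by_cases h : q ∣ d
  · obtain ⟨e, rfl⟩ := h
    have heN : e ∣ N := by
      have : q * e ∣ q * N := by rwa [mul_comm N q] at hd1
      exact (Nat.mul_dvd_mul_iff_left hq.pos).mp this
    have he : e ∈ N.divisors := Nat.mem_divisors.mpr ⟨heN, hN0⟩
    have e1 : genBar (N * q) ⟨q * e, hd⟩ = heckeBetaBar Kbar N q (genBar N ⟨e, he⟩) := by
      rw [heckeBetaBar_genBar]
      exact congrArg (genBar (N * q)) (Subtype.ext (mul_comm q e))
    rw [e1, hβ]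
    exact (atkinLehner_heckeBetaBar N q hq hqN _).symm
  · have hdN : d ∈ N.divisors :=
      Nat.mem_divisors.mpr ⟨dvd_of_dvd_mul_of_not_dvd hq hd1 h, hN0⟩
    have e1 : genBar (N * q) ⟨d, hd⟩ = heckeAlphaBar Kbar N q (genBar N ⟨d, hdN⟩) := by
      rw [heckeAlphaBar_genBar]
    rw [e1, hα]
    exact (atkinLehner_heckeAlphaBar N q hq hqN _).symm

/-- **[T2-W]** The Atkin–Lehner automorphism of the function field of `X₀(N q)` over `ℚ̄`,
`q` a prime not dividing `N`: it exchanges the two degeneracy maps, is an involution and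
commutes with the arithmetic Galois action. -/
theorem exists_atkinLehner (hq : q.Prime) (hqN : ¬ q ∣ N) :
    ∃ W : modularFunctionFieldBar (N * q) ≃ₐ[Kbar] modularFunctionFieldBar (N * q),
      (∀ x, W (heckeAlphaBar Kbar N q x) = heckeBetaBar Kbar N q x) ∧
      (∀ x, W (heckeBetaBar Kbar N q x) = heckeAlphaBar Kbar N q x) ∧
      (∀ x, W (W x) = x) ∧
      (∀ (σ : Kbar ≃ₐ[ℚ] Kbar) (x : modularFunctionFieldBar (N * q)),
        W (arithmeticRingAut (modularFunctionFieldFull (N * q)) σ x)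
          = arithmeticRingAut (modularFunctionFieldFull (N * q)) σ (W x)) :=
  ⟨atkinLehner N q hq hqN, atkinLehner_heckeAlphaBar N q hq hqN,
    atkinLehner_heckeBetaBar N q hq hqN, atkinLehner_atkinLehner N q hq hqN,
    atkinLehner_arithmeticRingAut N q hq hqN⟩

end W

end Fermat.Agent.T2.helper36

end
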