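import Mathlib
import Fermat.Agent.T2.helper36_AtkinLehner

/-!
# Tier 2, [T2-W] (general form): Atkin–Lehner automorphisms for exact divisors

* `exists_algEquiv_of_subst` : GENERIC construction.  If `w` is an involution of the divisors of
  `M` and `ω : ℍ → ℍ` satisfies `j_{w d} = j_d ∘ ω` for all `d ∣ M`, then there is a
  `ℚ̄`-automorphism `W` of `F_M` with `W (j_d) = j_{w d}`; it is an involution and commutes with
  the arithmetic Galois action.
* `exists_atkinLehnerExact` : for coprime `N`, `Q` the Atkin–Lehner automorphism `W_Q` of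
  `F_{N Q}`: `W_Q (j_d) = j_{(Q / gcd(d,Q)) · gcd(d,N)}`; it exchanges the two degeneracy maps
  `α, β : F_N → F_{N Q}` (`β = (q ↦ q^Q)`).
  `Q = q` prime gives `W_q` (as in `helper36_AtkinLehner`), and for `M = M' q` the pair
  `(N, Q) = (q, M')` gives the Fricke-type automorphism `W_{M'}` of `F_{q M'}`.
-/

set_option autoImplicit false

noncomputable section

open UpperHalfPlane ModularForm Filter Topology CongruenceSubgroup ModularCurve
  IntermediateField AlgebraicCurve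
open scoped MatrixGroups Manifold

namespace Fermat.Agent.T2.helper36

open Fermat.Agent.S24 Fermat.Agent.S24.helper24 Fermat.Agent.P3.helper80

/-! ### The generic construction -/

section Generic

variable {M : ℕ}

theorem evPC0_rename_of_subst (w : M.divisors → M.divisors) {ω : ℍ → ℍ}
    (hω : ∀ (d : M.divisors) (τ : ℍ), jfunDT (w d).1 τ = jfunDT d.1 (ω τ))
    (R : MvPolynomial M.divisors ℂ) (τ : ℍ) :
    evPC0 M (MvPolynomial.rename w R) τ = evPC0 M R (ω τ) := by
  unfold evPC0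
  rw [MvPolynomial.eval_rename]
  have e : ((fun d : M.divisors => jfunDT d.1 τ) ∘ w)
      = fun d : M.divisors => jfunDT d.1 (ω τ) := by
    funext d
    exact hω d τ
  rw [e]

variable [NeZero M]

theorem rel_of_subst_C (w : M.divisors → M.divisors) {ω : ℍ → ℍ}
    (hω : ∀ (d : M.divisors) (τ : ℍ), jfunDT (w d).1 τ = jfunDT d.1 (ω τ))
    (R : MvPolynomial M.divisors ℂ) (h : MvPolynomial.aeval (genJC M) R = 0) :
    MvPolynomial.aeval (genJC M) (MvPolynomial.rename w R) = 0 := by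
  apply aeval_eq_zero_of_evPC0_eq_zero
  intro τ
  rw [evPC0_rename_of_subst w hω]
  exact evPC0_eq_zero_of_aeval_eq_zero R h _

theorem rel_of_subst (w : M.divisors → M.divisors) {ω : ℍ → ℍ}
    (hω : ∀ (d : M.divisors) (τ : ℍ), jfunDT (w d).1 τ = jfunDT d.1 (ω τ))
    (R : MvPolynomial M.divisors Kbar) (h : MvPolynomial.aeval (genJ M) R = 0) :
    MvPolynomial.aeval (genJ M) (MvPolynomial.rename w R) = 0 := by
  apply helper17.toC_injective
  rw [map_zero, toC_aeval_genJ, MvPolynomial.map_rename]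
  apply rel_of_subst_C w hω
  rw [← toC_aeval_genJ, h, map_zero]

/-- **Generic construction of automorphisms of `F_M` from analytic substitutions.** -/
theorem exists_algEquiv_of_subst (w : M.divisors → M.divisors) (hw : ∀ d, w (w d) = d)
    (ω : ℍ → ℍ) (hω : ∀ (d : M.divisors) (τ : ℍ), jfunDT (w d).1 τ = jfunDT d.1 (ω τ)) :
    ∃ W : modularFunctionFieldBar M ≃ₐ[Kbar] modularFunctionFieldBar M,
      (∀ d : M.divisors, W (genBar M d) = genBar M (w d)) ∧
      (∀ x, W (W x) = x) ∧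
      (∀ (σ : Kbar ≃ₐ[ℚ] Kbar) (x : modularFunctionFieldBar M),
        W (arithmeticRingAut (modularFunctionFieldFull M) σ x)
          = arithmeticRingAut (modularFunctionFieldFull M) σ (W x)) := by
  obtain ⟨W, h1, h2⟩ := exists_algEquiv_of_eq_adjoin (genJ M) w hw (rel_of_subst w hω)
    (modularFunctionFieldBar_eq_adjoin M)
  have hgen : ∀ d : M.divisors, W (genBar M d) = genBar M (w d) :=
    fun d => Subtype.ext (h1 d _)
  refine ⟨W, hgen, h2, fun σ x => ?_⟩
  have h : ((W : modularFunctionFieldBar M ≃ₐ[Kbar] modularFunctionFieldBar M) :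
        modularFunctionFieldBar M →+* modularFunctionFieldBar M).comp
        ((arithmeticRingAut (modularFunctionFieldFull M) σ : _ ≃+* _) :
          modularFunctionFieldBar M →+* modularFunctionFieldBar M)
      = ((arithmeticRingAut (modularFunctionFieldFull M) σ : _ ≃+* _) :
          modularFunctionFieldBar M →+* modularFunctionFieldBar M).comp
        ((W : modularFunctionFieldBar M ≃ₐ[Kbar] modularFunctionFieldBar M) :
          modularFunctionFieldBar M →+* modularFunctionFieldBar M) := by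
    apply ringHom_ext_of_eq_adjoin (modularFunctionFieldBar_eq_adjoin M)
    · intro c
      show W (arithmeticRingAut _ σ (algebraMap Kbar _ c))
        = arithmeticRingAut _ σ (W (algebraMap Kbar _ c))
      rw [arithmeticRingAut_algebraMap, AlgEquiv.commutes, AlgEquiv.commutes,
        arithmeticRingAut_algebraMap]
    · intro d hd
      show W (arithmeticRingAut _ σ (genBar M d)) = arithmeticRingAut _ σ (W (genBar M d))
      rw [arithmeticRingAut_genBar, hgen, arithmeticRingAut_genBar]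
  exact congrArg (fun φ : modularFunctionFieldBar M →+* modularFunctionFieldBar M => φ x) h

/-- Two automorphisms of `F_M` permuting the generators commute if the permutations commute. -/
theorem algEquiv_comm_of_gen (W₁ W₂ : modularFunctionFieldBar M ≃ₐ[Kbar] modularFunctionFieldBar M)
    (w₁ w₂ : M.divisors → M.divisors)
    (h₁ : ∀ d, W₁ (genBar M d) = genBar M (w₁ d)) (h₂ : ∀ d, W₂ (genBar M d) = genBar M (w₂ d))
    (hcomm : ∀ d, w₁ (w₂ d) = w₂ (w₁ d)) (x : modularFunctionFieldBar M) :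
    W₁ (W₂ x) = W₂ (W₁ x) := by
  have h : (W₁ : modularFunctionFieldBar M →ₐ[Kbar] modularFunctionFieldBar M).comp
      (W₂ : modularFunctionFieldBar M →ₐ[Kbar] modularFunctionFieldBar M)
      = (W₂ : modularFunctionFieldBar M →ₐ[Kbar] modularFunctionFieldBar M).comp
      (W₁ : modularFunctionFieldBar M →ₐ[Kbar] modularFunctionFieldBar M) := by
    apply algHom_ext_genBar
    intro d
    show W₁ (W₂ (genBar M d)) = W₂ (W₁ (genBar M d))
    rw [h₂, h₁, h₁, h₂, hcomm]
  exact congrArg (fun φ : modularFunctionFieldBar M →ₐ[Kbar] modularFunctionFieldBar M => φ x) h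

end Generic

/-! ### The involution of the divisors attached to an exact divisor -/

/-- `d ↦ (Q / gcd(d, Q)) · gcd(d, N)`. -/
def alExact (N Q d : ℕ) : ℕ := (Q / Nat.gcd d Q) * Nat.gcd d N

theorem eq_gcd_mul_gcd {N Q d : ℕ} (hcop : Nat.Coprime N Q) (hd : d ∣ N * Q) :
    d = Nat.gcd d Q * Nat.gcd d N := by
  have h1 : Nat.gcd d (N * Q) = d := Nat.gcd_eq_left hd
  have h2 := Nat.Coprime.gcd_mul d hcop
  rw [h1] at h2
  exact h2.trans (mul_comm _ _)

theorem alExact_dvd {N Q d : ℕ} : alExact N Q d ∣ N * Q := by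
  unfold alExact
  rw [mul_comm N Q]
  exact Nat.mul_dvd_mul (Nat.div_dvd_of_dvd (Nat.gcd_dvd_right d Q)) (Nat.gcd_dvd_right d N)

theorem alExact_mem_divisors {N Q d : ℕ} (hd : d ∈ (N * Q).divisors) :
    alExact N Q d ∈ (N * Q).divisors :=
  Nat.mem_divisors.mpr ⟨alExact_dvd, (Nat.mem_divisors.mp hd).2⟩

theorem gcd_alExact_right {N Q d : ℕ} (hcop : Nat.Coprime N Q) :
    Nat.gcd (alExact N Q d) Q = Q / Nat.gcd d Q := by
  unfold alExact
  have h1 : Nat.Coprime (Nat.gcd d N) Q :=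
    Nat.Coprime.coprime_dvd_left (Nat.gcd_dvd_right d N) hcop
  rw [Nat.Coprime.gcd_mul_right_cancel _ h1]
  exact Nat.gcd_eq_left (Nat.div_dvd_of_dvd (Nat.gcd_dvd_right d Q))

theorem gcd_alExact_left {N Q d : ℕ} (hcop : Nat.Coprime N Q) :
    Nat.gcd (alExact N Q d) N = Nat.gcd d N := by
  unfold alExact
  have h1 : Nat.Coprime (Q / Nat.gcd d Q) N :=
    Nat.Coprime.coprime_dvd_left (Nat.div_dvd_of_dvd (Nat.gcd_dvd_right d Q)) hcop.symm
  rw [Nat.Coprime.gcd_mul_left_cancel _ h1]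
  exact Nat.gcd_eq_left (Nat.gcd_dvd_right d N)

theorem alExact_alExact {N Q d : ℕ} (hcop : Nat.Coprime N Q) (hQ : Q ≠ 0)
    (hd : d ∣ N * Q) : alExact N Q (alExact N Q d) = d := by
  have hg : Nat.gcd d Q ∣ Q := Nat.gcd_dvd_right d Q
  have hg0 : 0 < Nat.gcd d Q := Nat.gcd_pos_of_pos_right d (Nat.pos_of_ne_zero hQ)
  have e : alExact N Q (alExact N Q d)
      = (Q / Nat.gcd (alExact N Q d) Q) * Nat.gcd (alExact N Q d) N := rfl
  rw [e, gcd_alExact_right hcop, gcd_alExact_left hcop, Nat.div_div_self hg hQ]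
  exact (eq_gcd_mul_gcd hcop hd).symm

/-- The involution on the index type of the generators. -/
def alExactIdx (N Q : ℕ) (d : (N * Q).divisors) : (N * Q).divisors :=
  ⟨alExact N Q d.1, alExact_mem_divisors d.2⟩

@[simp]
theorem coe_alExactIdx (N Q : ℕ) (d : (N * Q).divisors) :
    ((alExactIdx N Q d : (N * Q).divisors) : ℕ) = alExact N Q d.1 := rfl

theorem alExactIdx_alExactIdx {N Q : ℕ} (hcop : Nat.Coprime N Q) (hQ : Q ≠ 0)
    (d : (N * Q).divisors) : alExactIdx N Q (alExactIdx N Q d) = d :=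
  Subtype.ext (alExact_alExact hcop hQ (Nat.mem_divisors.mp d.2).1)

/-! ### The analytic substitution for an exact divisor -/

/-- **The Atkin–Lehner substitution for the exact divisor `Q` of `N Q`.** -/
theorem exists_atkinLehnerExact_subst (N Q : ℕ) (hN : N ≠ 0) (hQ : Q ≠ 0)
    (hcop : Nat.Coprime N Q) :
    ∃ ω : ℍ → ℍ, ∀ d ∈ (N * Q).divisors, ∀ τ : ℍ,
      jfunDT (alExact N Q d) τ = jfunDT d (ω τ) := by
  haveI : NeZero Q := ⟨hQ⟩
  have hcopZ : IsCoprime (Q : ℤ) (N : ℤ) := by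
    rw [Int.isCoprime_iff_gcd_eq_one]
    simpa [Int.gcd_natCast_natCast] using hcop.symm
  obtain ⟨u, v, huv⟩ := hcopZ
  let γ₀ : SL(2, ℤ) := ⟨!![1, -v; (N : ℤ), (Q : ℤ) * u], by
    rw [Matrix.det_fin_two_of]; linear_combination huv⟩
  refine ⟨fun τ => γ₀ • scaleH Q τ, fun d hd τ => ?_⟩
  obtain ⟨hd1, hd2⟩ := Nat.mem_divisors.mp hd
  have hd0 : d ≠ 0 := fun h => hd2 (by rw [h] at hd1; exact Nat.eq_zero_of_zero_dvd hd1)
  haveI : NeZero d := ⟨hd0⟩
  -- the decomposition `d = g₁ g₂`, `Q = g₁ q₁`, `N = g₂ n₂`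
  obtain ⟨q₁, hq₁⟩ : Nat.gcd d Q ∣ Q := Nat.gcd_dvd_right d Q
  obtain ⟨n₂, hn₂⟩ : Nat.gcd d N ∣ N := Nat.gcd_dvd_right d N
  have hdg : d = Nat.gcd d Q * Nat.gcd d N := eq_gcd_mul_gcd hcop hd1
  have hg₁0 : Nat.gcd d Q ≠ 0 := fun h => hQ (by rw [hq₁, h, zero_mul])
  have hg₂0 : Nat.gcd d N ≠ 0 := fun h => hN (by rw [hn₂, h, zero_mul])
  have hq₁0 : q₁ ≠ 0 := fun h => hQ (by rw [hq₁, h, mul_zero])
  have he : alExact N Q d = q₁ * Nat.gcd d N := by
    unfold alExact
    congr 1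
    exact Nat.div_eq_of_eq_mul_right (Nat.pos_of_ne_zero hg₁0) hq₁
  have he0 : alExact N Q d ≠ 0 := by rw [he]; exact Nat.mul_ne_zero hq₁0 hg₂0
  haveI : NeZero (alExact N Q d) := ⟨he0⟩
  rw [helper24.jfunDT_of_ne_zero, helper24.jfunDT_of_ne_zero]
  set g₁ := Nat.gcd d Q with hg₁
  set g₂ := Nat.gcd d N with hg₂
  have hQZ : (Q : ℤ) = g₁ * q₁ := by exact_mod_cast hq₁
  have hNZ : (N : ℤ) = g₂ * n₂ := by exact_mod_cast hn₂
  let γ' : SL(2, ℤ) := ⟨!![(g₁ : ℤ), (g₂ : ℤ) * (-v); (n₂ : ℤ), (q₁ : ℤ) * u], by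
    rw [Matrix.det_fin_two_of]
    rw [hQZ, hNZ] at huv
    linear_combination huv⟩
  have key : scaleH d (γ₀ • scaleH Q τ) = γ' • scaleH (alExact N Q d) τ := by
    apply UpperHalfPlane.ext
    rw [helper77.coe_scaleH, helper77.coe_SL_smul, helper77.coe_SL_smul, helper77.coe_scaleH,
      helper77.coe_scaleH]
    have h1 := helper77.SL_denom_ne_zero γ₀ (scaleH Q τ)
    rw [helper77.coe_scaleH] at h1
    have e00 : (γ₀ 0 0 : ℤ) = 1 := rfl
    have e01 : (γ₀ 0 1 : ℤ) = -v := rfl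
    have e10 : (γ₀ 1 0 : ℤ) = N := rfl
    have e11 : (γ₀ 1 1 : ℤ) = Q * u := rfl
    have f00 : (γ' 0 0 : ℤ) = g₁ := rfl
    have f01 : (γ' 0 1 : ℤ) = g₂ * (-v) := rfl
    have f10 : (γ' 1 0 : ℤ) = n₂ := rfl
    have f11 : (γ' 1 1 : ℤ) = q₁ * u := rfl
    rw [e10, e11] at h1
    rw [e00, e01, e10, e11, f00, f01, f10, f11]
    have hdC : (d : ℂ) = (g₁ : ℂ) * (g₂ : ℂ) := by
      have := congrArg (Nat.cast : ℕ → ℂ) hdg
      simpa using this
    have hQC : (Q : ℂ) = (g₁ : ℂ) * (q₁ : ℂ) := by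
      have := congrArg (Nat.cast : ℕ → ℂ) hq₁
      simpa using this
    have hNC : (N : ℂ) = (g₂ : ℂ) * (n₂ : ℂ) := by
      have := congrArg (Nat.cast : ℕ → ℂ) hn₂
      simpa using this
    have heC : ((alExact N Q d : ℕ) : ℂ) = (q₁ : ℂ) * (g₂ : ℂ) := by
      have := congrArg (Nat.cast : ℕ → ℂ) he
      simpa using this
    have hg₁C : (g₁ : ℂ) ≠ 0 := by exact_mod_cast hg₁0
    have hq₁C : (q₁ : ℂ) ≠ 0 := by exact_mod_cast hq₁0
    push_cast at h1 ⊢
    rw [hdC, heC]
    rw [hQC, hNC] at h1 ⊢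
    have h3 : (g₂ : ℂ) * n₂ * (g₁ * q₁ * τ) + g₁ * q₁ * u
        = g₁ * q₁ * ((g₂ : ℂ) * n₂ * τ + u) := by ring
    rw [h3] at h1 ⊢
    have h1' : (g₂ : ℂ) * n₂ * τ + u ≠ 0 := fun h0 => h1 (by rw [h0, mul_zero])
    have h4 : (n₂ : ℂ) * (q₁ * g₂ * τ) + q₁ * u = q₁ * ((g₂ : ℂ) * n₂ * τ + u) := by ring
    rw [h4]
    field_simp
  show jfun (scaleH (alExact N Q d) τ) = jfun (scaleH d (γ₀ • scaleH Q τ))
  rw [key, helper24.jfun_smul]

/-! ### The automorphism `W_Q` -/

section WExact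

variable (N Q : ℕ) [NeZero N] [NeZero Q]

theorem alExact_of_mem_divisors {N Q d : ℕ} (hcop : Nat.Coprime N Q) (hd : d ∈ N.divisors) :
    alExact N Q d = d * Q := by
  have hdN : d ∣ N := (Nat.mem_divisors.mp hd).1
  have h1 : Nat.gcd d Q = 1 := Nat.Coprime.coprime_dvd_left hdN hcop
  have h2 : Nat.gcd d N = d := Nat.gcd_eq_left hdN
  unfold alExact
  rw [h1, h2, Nat.div_one, mul_comm]

/-- **[T2-W], general form.** The Atkin–Lehner automorphism `W_Q` of the function field of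
`X₀(N Q)` over `ℚ̄` for coprime `N`, `Q`. -/
theorem exists_atkinLehnerExact (hcop : Nat.Coprime N Q) :
    ∃ W : modularFunctionFieldBar (N * Q) ≃ₐ[Kbar] modularFunctionFieldBar (N * Q),
      (∀ d : (N * Q).divisors, W (genBar (N * Q) d) = genBar (N * Q) (alExactIdx N Q d)) ∧
      (∀ x, W (W x) = x) ∧
      (∀ (σ : Kbar ≃ₐ[ℚ] Kbar) (x : modularFunctionFieldBar (N * Q)),
        W (arithmeticRingAut (modularFunctionFieldFull (N * Q)) σ x)
          = arithmeticRingAut (modularFunctionFieldFull (N * Q)) σ (W x)) ∧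
      (∀ x, W (heckeAlphaBar Kbar N Q x) = heckeBetaBar Kbar N Q x) ∧
      (∀ x, W (heckeBetaBar Kbar N Q x) = heckeAlphaBar Kbar N Q x) := by
  obtain ⟨ω, hω⟩ := exists_atkinLehnerExact_subst N Q (NeZero.ne N) (NeZero.ne Q) hcop
  obtain ⟨W, hgen, hinv, hgal⟩ := exists_algEquiv_of_subst (M := N * Q) (alExactIdx N Q)
    (alExactIdx_alExactIdx hcop (NeZero.ne Q)) ω (fun d τ => hω d.1 d.2 τ)
  have hα : ∀ x, W (heckeAlphaBar Kbar N Q x) = heckeBetaBar Kbar N Q x := by
    intro x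
    have h : ((W : modularFunctionFieldBar (N * Q) →ₐ[Kbar]
        modularFunctionFieldBar (N * Q)).comp (heckeAlphaBar Kbar N Q))
        = heckeBetaBar Kbar N Q := by
      apply algHom_ext_genBar
      intro d
      rw [AlgHom.comp_apply, heckeAlphaBar_genBar, heckeBetaBar_genBar]
      show W _ = _
      rw [hgen]
      exact congrArg (genBar (N * Q)) (Subtype.ext (alExact_of_mem_divisors hcop d.2))
    exact congrArg (fun φ : modularFunctionFieldBar N →ₐ[Kbar]
      modularFunctionFieldBar (N * Q) => φ x) h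
  refine ⟨W, hgen, hinv, hgal, hα, fun x => ?_⟩
  rw [← hα x, hinv]

end WExact

/-! ### The second Atkin–Lehner automorphism `W_N` of `F_{N Q}` and commutation -/

section Pair

theorem alExact_swap_mem_divisors {N Q d : ℕ} (hd : d ∈ (N * Q).divisors) :
    alExact Q N d ∈ (N * Q).divisors := by
  have h : d ∈ (Q * N).divisors := by rwa [mul_comm Q N]
  have := alExact_mem_divisors (N := Q) (Q := N) h
  rwa [mul_comm Q N] at this

/-- The involution `d ↦ (N / gcd(d, N)) · gcd(d, Q)` on the divisors of `N Q`. -/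
def alExactIdx' (N Q : ℕ) (d : (N * Q).divisors) : (N * Q).divisors :=
  ⟨alExact Q N d.1, alExact_swap_mem_divisors d.2⟩

@[simp]
theorem coe_alExactIdx' (N Q : ℕ) (d : (N * Q).divisors) :
    ((alExactIdx' N Q d : (N * Q).divisors) : ℕ) = alExact Q N d.1 := rfl

theorem alExactIdx'_alExactIdx' {N Q : ℕ} (hcop : Nat.Coprime N Q) (hN : N ≠ 0)
    (d : (N * Q).divisors) : alExactIdx' N Q (alExactIdx' N Q d) = d := by
  apply Subtype.ext
  have hd : d.1 ∣ Q * N := (mul_comm N Q) ▸ (Nat.mem_divisors.mp d.2).1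
  exact alExact_alExact (N := Q) (Q := N) hcop.symm hN hd

theorem alExact_alExact_swap {N Q : ℕ} (hcop : Nat.Coprime N Q) (d : ℕ) :
    alExact N Q (alExact Q N d) = alExact Q N (alExact N Q d) := by
  have e1 : alExact N Q (alExact Q N d)
      = (Q / Nat.gcd (alExact Q N d) Q) * Nat.gcd (alExact Q N d) N := rfl
  have e2 : alExact Q N (alExact N Q d)
      = (N / Nat.gcd (alExact N Q d) N) * Nat.gcd (alExact N Q d) Q := rfl
  rw [e1, e2, gcd_alExact_left (N := Q) (Q := N) hcop.symm,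
    gcd_alExact_right (N := Q) (Q := N) hcop.symm, gcd_alExact_left hcop,
    gcd_alExact_right hcop, mul_comm]

theorem alExactIdx_alExactIdx'_comm {N Q : ℕ} (hcop : Nat.Coprime N Q)
    (d : (N * Q).divisors) :
    alExactIdx N Q (alExactIdx' N Q d) = alExactIdx' N Q (alExactIdx N Q d) :=
  Subtype.ext (alExact_alExact_swap hcop d.1)

variable (N Q : ℕ) [NeZero N] [NeZero Q]

/-- **[T2-W], pair form.** For coprime `N`, `Q` the two Atkin–Lehner automorphisms `W_Q`, `W_N`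
of the function field of `X₀(N Q)` over `ℚ̄`: both are involutions, commute with the arithmetic
Galois action and with each other; `W_Q` exchanges the degeneracy maps `α, β : F_N → F_{N Q}`.
(For `N = M'`, `Q = q` prime: `W_Q = W_q` and `W_N` is the Fricke-type automorphism `W_{M'}`.) -/
theorem exists_atkinLehnerPair (hcop : Nat.Coprime N Q) :
    ∃ WQ WN : modularFunctionFieldBar (N * Q) ≃ₐ[Kbar] modularFunctionFieldBar (N * Q),
      (∀ d : (N * Q).divisors, WQ (genBar (N * Q) d) = genBar (N * Q) (alExactIdx N Q d)) ∧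
      (∀ d : (N * Q).divisors, WN (genBar (N * Q) d) = genBar (N * Q) (alExactIdx' N Q d)) ∧
      (∀ x, WQ (WQ x) = x) ∧ (∀ x, WN (WN x) = x) ∧ (∀ x, WQ (WN x) = WN (WQ x)) ∧
      (∀ (σ : Kbar ≃ₐ[ℚ] Kbar) (x : modularFunctionFieldBar (N * Q)),
        WQ (arithmeticRingAut (modularFunctionFieldFull (N * Q)) σ x)
          = arithmeticRingAut (modularFunctionFieldFull (N * Q)) σ (WQ x)) ∧
      (∀ (σ : Kbar ≃ₐ[ℚ] Kbar) (x : modularFunctionFieldBar (N * Q)),
        WN (arithmeticRingAut (modularFunctionFieldFull (N * Q)) σ x)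
          = arithmeticRingAut (modularFunctionFieldFull (N * Q)) σ (WN x)) ∧
      (∀ x, WQ (heckeAlphaBar Kbar N Q x) = heckeBetaBar Kbar N Q x) ∧
      (∀ x, WQ (heckeBetaBar Kbar N Q x) = heckeAlphaBar Kbar N Q x) := by
  obtain ⟨WQ, hgenQ, hinvQ, hgalQ, hα, hβ⟩ := exists_atkinLehnerExact N Q hcop
  obtain ⟨ω, hω⟩ := exists_atkinLehnerExact_subst Q N (NeZero.ne Q) (NeZero.ne N) hcop.symm
  have hω' : ∀ (d : (N * Q).divisors) (τ : ℍ),
      jfunDT (alExactIdx' N Q d).1 τ = jfunDT d.1 (ω τ) := by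
    intro d τ
    have hd : d.1 ∈ (Q * N).divisors := (mul_comm N Q) ▸ d.2
    exact hω d.1 hd τ
  obtain ⟨WN, hgenN, hinvN, hgalN⟩ := exists_algEquiv_of_subst (M := N * Q) (alExactIdx' N Q)
    (alExactIdx'_alExactIdx' hcop (NeZero.ne N)) ω hω'
  exact ⟨WQ, WN, hgenQ, hgenN, hinvQ, hinvN,
    algEquiv_comm_of_gen WQ WN _ _ hgenQ hgenN (alExactIdx_alExactIdx'_comm hcop),
    hgalQ, hgalN, hα, hβ⟩

end Pair

end Fermat.Agent.T2.helper36

end
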