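import Mathlib
import Fermat.Agent.T2.helper36_AtkinLehnerExact
import Fermat.Agent.P2.helper93_ESDegree

/-!
# Tier 2, [T2-UOP] part 1 (helper48): degrees of `F_{Mq}` over `α F_M` and `β F_M` for `q ∣ M`

For a prime `q ∣ M`:

* `finrank_alpha_of_dvd` : `[F_{Mq} : α F_M] = q`  (tower law over `ℚ̄(j)` + `ψ(Mq) = q ψ(M)`);
* `exists_fricke` : the Fricke automorphism `W_K` of `F_K`, `W_K (j_d) = j_{K/d}`;
* `fricke_alpha` : `W_{Mq} ∘ α = β ∘ W_M`;
* `finrank_beta_of_dvd` : `[F_{Mq} : β F_M] = q`.
-/

set_option autoImplicit false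
set_option linter.unusedSectionVars false
set_option linter.unusedVariables false
set_option linter.style.haveILetI false

noncomputable section

open UpperHalfPlane ModularCurve AlgebraicCurve IntermediateField CongruenceSubgroup
open scoped MatrixGroups

namespace Fermat.Agent.T2.helper48

open Fermat.Agent.S24 Fermat.Agent.T2.helper36 Fermat.Agent.P2.helper93

/-! ### The degree along `α` -/

section Alpha

variable (M q : ℕ) [NeZero M] [NeZero q]

theorem card_X0_mul_prime_of_dvd (hq : q.Prime) (hqM : q ∣ M) :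
    Nat.card (SL(2, ℤ) ⧸ CongruenceSubgroup.Gamma0 (M * q))
      = q * Nat.card (SL(2, ℤ) ⧸ CongruenceSubgroup.Gamma0 M) := by
  rw [helper37.card_quotient_Gamma0, helper37.card_quotient_Gamma0,
    helper37.dedekindPsi_mul_prime_of_dvd hq (NeZero.ne M) hqM]

/-- **Degree of `F_{Mq}` over `α F_M`** for a prime `q ∣ M`. -/
theorem finrank_alpha_of_dvd (hq : q.Prime) (hqM : q ∣ M) :
    letI := algebraAlong (heckeAlphaBar Kbar M q)
    Module.finrank (FN M) (FN (M * q)) = q := by
  have tower := finrank_tower_along (heckeAlphaBar Kbar M q) (xJ M)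
  rw [alpha_xJ, helper77.an_finrank, helper77.an_finrank,
    card_X0_mul_prime_of_dvd M q hq hqM] at tower
  have hpos : 0 < Nat.card (SL(2, ℤ) ⧸ CongruenceSubgroup.Gamma0 M) := by
    rw [helper37.card_quotient_Gamma0]
    exact helper37.dedekindPsi_pos M (NeZero.ne M)
  exact Nat.eq_of_mul_eq_mul_left hpos (tower.trans (mul_comm _ _))

end Alpha

/-! ### The Fricke automorphism -/

section Fricke

/-- The involution `d ↦ K / d` of the divisors of `K`. -/
def frickeIdx (K : ℕ) (d : K.divisors) : K.divisors :=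
  ⟨K / d.1, Nat.mem_divisors.mpr ⟨Nat.div_dvd_of_dvd (Nat.mem_divisors.mp d.2).1,
    (Nat.mem_divisors.mp d.2).2⟩⟩

@[simp]
theorem coe_frickeIdx (K : ℕ) (d : K.divisors) : ((frickeIdx K d : K.divisors) : ℕ) = K / d.1 :=
  rfl

theorem frickeIdx_frickeIdx (K : ℕ) (d : K.divisors) : frickeIdx K (frickeIdx K d) = d := by
  apply Subtype.ext
  obtain ⟨h1, h2⟩ := Nat.mem_divisors.mp d.2
  show K / (K / d.1) = d.1
  exact Nat.div_div_self h1 h2

/-- The Fricke substitution. -/
theorem exists_fricke_subst (K : ℕ) (hK : K ≠ 0) :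
    ∃ ω : ℍ → ℍ, ∀ (d : K.divisors) (τ : ℍ), jfunDT (frickeIdx K d).1 τ = jfunDT d.1 (ω τ) := by
  obtain ⟨ω, hω⟩ := exists_atkinLehnerExact_subst 1 K one_ne_zero hK (Nat.coprime_one_left K)
  refine ⟨ω, fun d τ => ?_⟩
  obtain ⟨h1, h2⟩ := Nat.mem_divisors.mp d.2
  have hd : d.1 ∈ (1 * K).divisors := by rw [one_mul]; exact d.2
  have := hω d.1 hd τ
  have e : alExact 1 K d.1 = K / d.1 := by
    unfold alExact
    rw [Nat.gcd_eq_left h1, Nat.gcd_one_right, mul_one]
  rw [e] at this
  exact this

variable (K : ℕ) [NeZero K]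

/-- **The Fricke automorphism `W_K` of `F_K`.** -/
theorem exists_fricke :
    ∃ W : modularFunctionFieldBar K ≃ₐ[Kbar] modularFunctionFieldBar K,
      (∀ d : K.divisors, W (genBar K d) = genBar K (frickeIdx K d)) ∧
      (∀ x, W (W x) = x) ∧
      (∀ (σ : Kbar ≃ₐ[ℚ] Kbar) (x : modularFunctionFieldBar K),
        W (arithmeticRingAut (modularFunctionFieldFull K) σ x)
          = arithmeticRingAut (modularFunctionFieldFull K) σ (W x)) := by
  obtain ⟨ω, hω⟩ := exists_fricke_subst K (NeZero.ne K)
  exact exists_algEquiv_of_subst (M := K) (frickeIdx K) (frickeIdx_frickeIdx K) ω hω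

/-- The Fricke automorphism of `F_K`. -/
def fricke : modularFunctionFieldBar K ≃ₐ[Kbar] modularFunctionFieldBar K :=
  (exists_fricke K).choose

theorem fricke_genBar (d : K.divisors) : fricke K (genBar K d) = genBar K (frickeIdx K d) :=
  (exists_fricke K).choose_spec.1 d

theorem fricke_fricke (x : modularFunctionFieldBar K) : fricke K (fricke K x) = x :=
  (exists_fricke K).choose_spec.2.1 x

theorem fricke_arithmeticRingAut (σ : Kbar ≃ₐ[ℚ] Kbar) (x : modularFunctionFieldBar K) :
    fricke K (arithmeticRingAut (modularFunctionFieldFull K) σ x)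
      = arithmeticRingAut (modularFunctionFieldFull K) σ (fricke K x) :=
  (exists_fricke K).choose_spec.2.2 σ x

end Fricke

/-! ### `W ∘ α = β ∘ W` and the degree along `β` -/

section Beta

variable (M q : ℕ) [NeZero M] [NeZero q]

instance neZero_mul' : NeZero (M * q) := ⟨Nat.mul_ne_zero (NeZero.ne M) (NeZero.ne q)⟩

/-- **`W_{Mq} ∘ α = β ∘ W_M`.** -/
theorem fricke_alpha (x : modularFunctionFieldBar M) :
    fricke (M * q) (heckeAlphaBar Kbar M q x) = heckeBetaBar Kbar M q (fricke M x) := by
  have h : ((fricke (M * q) : modularFunctionFieldBar (M * q) →ₐ[Kbar]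
      modularFunctionFieldBar (M * q)).comp (heckeAlphaBar Kbar M q))
      = (heckeBetaBar Kbar M q).comp
        (fricke M : modularFunctionFieldBar M →ₐ[Kbar] modularFunctionFieldBar M) := by
    apply algHom_ext_genBar
    intro d
    rw [AlgHom.comp_apply, AlgHom.comp_apply, heckeAlphaBar_genBar]
    show fricke (M * q) _ = heckeBetaBar Kbar M q (fricke M (genBar M d))
    rw [fricke_genBar, fricke_genBar, heckeBetaBar_genBar]
    congr 1
    apply Subtype.ext
    obtain ⟨h1, h2⟩ := Nat.mem_divisors.mp d.2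
    show M * q / d.1 = M / d.1 * q
    rw [mul_comm M q, Nat.mul_div_assoc q h1, mul_comm]
  exact congrArg (fun φ : modularFunctionFieldBar M →ₐ[Kbar] modularFunctionFieldBar (M * q) =>
    φ x) h

/-- **`W_{Mq} ∘ β = α ∘ W_M`.** -/
theorem fricke_beta (x : modularFunctionFieldBar M) :
    fricke (M * q) (heckeBetaBar Kbar M q x) = heckeAlphaBar Kbar M q (fricke M x) := by
  have := fricke_alpha M q (fricke M x)
  rw [fricke_fricke] at this
  rw [← this, fricke_fricke]

/-- The degrees along `α` and `β` agree. -/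
theorem finrank_beta_eq_finrank_alpha :
    @Module.finrank (FN M) (FN (M * q)) _ _ (algebraAlong (heckeBetaBar Kbar M q)).toModule
      = @Module.finrank (FN M) (FN (M * q)) _ _ (algebraAlong (heckeAlphaBar Kbar M q)).toModule := by
  refine @Algebra.finrank_eq_of_equiv_equiv (FN M) (FN (M * q)) _ _
    (algebraAlong (heckeBetaBar Kbar M q)) (FN M) (FN (M * q)) _ _
    (algebraAlong (heckeAlphaBar Kbar M q))
    (fricke M).toRingEquiv (fricke (M * q)).toRingEquiv ?_
  refine RingHom.ext fun x => ?_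
  show heckeAlphaBar Kbar M q (fricke M x) = fricke (M * q) (heckeBetaBar Kbar M q x)
  rw [fricke_beta]

/-- **Degree of `F_{Mq}` over `β F_M`** for a prime `q ∣ M`. -/
theorem finrank_beta_of_dvd (hq : q.Prime) (hqM : q ∣ M) :
    letI := algebraAlong (heckeBetaBar Kbar M q)
    Module.finrank (FN M) (FN (M * q)) = q := by
  have h1 := finrank_beta_eq_finrank_alpha M q
  have h2 := finrank_alpha_of_dvd M q hq hqM
  exact h1.trans h2

end Beta

end Fermat.Agent.T2.helper48

end
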