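/-
TIER 2 (helper72): the operator form of S34-CORE (statement only; light imports).
-/
import Fermat.Agent.P3.Defs

set_option autoImplicit false

noncomputable section

namespace Fermat.Agent.T2

open Fermat.Agent.P3

/-- **S34-CORE** (operator form): for every place `A` of `ℚ̄` over `q` and every `σ` in the
inertia group of `A`, `(σ - 1)² = 0` on the `p`-power torsion of `J₀(M)`. -/
def UnipCoreStatement (M q p : ℕ) [NeZero M] : Prop :=
  ∀ A : ValuationSubring Qbar, A.LiesOverPrime q → ∀ σ ∈ A.inertiaSubgroupIn ℚ,
    ∀ x : ModularCurve.JZero M, (∃ n : ℕ, p ^ n • x = 0) → σ • σ • x - 2 • (σ • x) + x = 0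

end Fermat.Agent.T2

end
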