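/-
TIER 2 (S34 / S35), helper72: INTERFACE of the function-field side (BLUEPRINT TIER2 v0).

Setting: `M` a level, `A` a valuation subring of `ℚ̄` over a prime `q` with `q ∥ M`, `W` the
Atkin-Lehner involution `w_q` of `F_M` (helper36: `atkinLehner M' q hq hqN` for `M = M' * q`),
`n = p ^ k`, `p ≠ q`.  Everything here is a definition or a `Prop`; the packages of the
blueprint prove the `...Statement`s.

Vocabulary = P2 (`helper19_Wiring`, `helper29_Interface`, `helper93_CoreWire`):
`Kb`, `kA A`, `FF M`, `IsGood`, `incl A`, `red A`, `IsRedOne`, `IsInfty`, `galF`.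

* `IsInftyW W P`            : `P` is the second cusp `∞₂ = W(∞)` (its order is the `q`-order of `W f`).
* `IsA0One M W A H`         : `H` is regular off `{∞, ∞₂}`, has `A`-integral expansions at both
                              cusps, and both reductions are `1`.
* `UnipCoreStatement M q p` (in `helper72_Defs`) : **S34-CORE** `(σ - 1)² = 0` on `J₀(M)[p^∞]` for `σ` in an inertia
                              group over `q` (operator form, consumed by the Tate wiring).
* `PairScaleStatement`      : **[T2-VAL]** every function can be changed by an `n`-th power so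
                              that it is a unit for BOTH Gauss valuations `w₁`, `w₂ = w₁ ∘ W`
                              up to ONE constant.
* `T0InertStatement`        : **[T0-INERT]** inertia acts trivially on the classes `[u]`,
                              `u ≡ 1` for `w₁` and `w₂`.
* `PairIdealStatement`      : **[T2-IDEAL-INST]** output of the ideal step: a multiplier `G` with
                              `G ^ n * u / σ u` regular off the two cusps, integral, reduction `(1,1)`.
* `RootEndStatement`        : **[ROOT-END]** (INJ) for the pair of cusps.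
-/
import Fermat.Agent.P2.helper29_Interface
import Fermat.Agent.P2.helper93_CoreWire
import Fermat.Agent.T2.helper72_Defs

set_option autoImplicit false

noncomputable section

open HahnSeries IntermediateField AlgebraicCurve ModularCurve
open Fermat.Agent.S18.helper19 Fermat.Agent.P2.helper29 Fermat.Agent.P2.helper93

namespace Fermat.Agent.T2

/-- the second cusp `∞₂ = W(∞)`: the order function of `P` is the `q`-order of `W f` -/
def IsInftyW {M : ℕ} (W : FF M ≃ₐ[Kb] FF M) (P : Place Kb (FF M)) : Prop :=
  ∀ f : FF M, f ≠ 0 → P.ord f = ((W f : FF M) : LaurentSeries Kb).order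

/-- `H` is regular off the two cusps `∞`, `∞₂`, its expansions at both cusps are `A`-integral
and both reductions are `1`. -/
def IsA0One (M : ℕ) (W : FF M ≃ₐ[Kb] FF M) (A : ValuationSubring Kb) (H : FF M) : Prop :=
  (∀ P : Place Kb (FF M), ¬ IsInfty P → ¬ IsInftyW W P → 0 ≤ P.ord H) ∧
    ∃ Y₁ Y₂ : LaurentSeries A, incl A Y₁ = (H : LaurentSeries Kb) ∧
      incl A Y₂ = ((W H : FF M) : LaurentSeries Kb) ∧ red A Y₁ = 1 ∧ red A Y₂ = 1

/-- **[T2-VAL] pair scaling**: every nonzero `h` can be multiplied by an `n`-th power `g ^ n`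
such that `g ^ n * h = c * Y₁ / Y₂` and `W (g ^ n * h) = c * Z₁ / Z₂` with good integral series
`Y₁, Y₂, Z₁, Z₂` and ONE constant `c` (i.e. `w₁ = w₂ = v(c)` on `g ^ n * h`). -/
def PairScaleStatement (M : ℕ) (W : FF M ≃ₐ[Kb] FF M) (A : ValuationSubring Kb) (n : ℕ) :
    Prop :=
  ∀ h : FF M, h ≠ 0 → ∃ (g : FF M) (c : Kb) (Y₁ Y₂ Z₁ Z₂ : LaurentSeries A),
    g ≠ 0 ∧ c ≠ 0 ∧ IsGood A M Y₁ ∧ IsGood A M Y₂ ∧ IsGood A M Z₁ ∧ IsGood A M Z₂ ∧
      algebraMap Kb (LaurentSeries Kb) c * incl A Y₁ =
        ((g ^ n * h : FF M) : LaurentSeries Kb) * incl A Y₂ ∧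
      algebraMap Kb (LaurentSeries Kb) c * incl A Z₁ =
        ((W (g ^ n * h) : FF M) : LaurentSeries Kb) * incl A Z₂

/-- **[T0-INERT]**: if `n ∣ div u` and `u ≡ 1` for both Gauss valuations, then `σ u / u` is a
constant times an `n`-th power for every `σ` in the inertia group of `A`. -/
def T0InertStatement (M : ℕ) (W : FF M ≃ₐ[Kb] FF M) (A : ValuationSubring Kb) (n : ℕ) : Prop :=
  ∀ u : FF M, u ≠ 0 → (∀ P : Place Kb (FF M), (n : ℤ) ∣ P.ord u) →
    IsRedOne A M (u : LaurentSeries Kb) → IsRedOne A M ((W u : FF M) : LaurentSeries Kb) →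
    ∀ σ ∈ A.inertiaSubgroupIn ℚ,
      ∃ (c : Kb) (v : FF M), galF M σ u = algebraMap Kb (FF M) c * v ^ n * u

/-- **[T2-IDEAL-INST]** (output of the ideal step, #1050 items 2-3): for `u` as in
`T0InertStatement` and `σ` in inertia there is a multiplier `G` such that
`H = G ^ n * u / σ u` is regular off the two cusps, integral at both, with reduction `(1,1)`. -/
def PairIdealStatement (M : ℕ) (W : FF M ≃ₐ[Kb] FF M) (A : ValuationSubring Kb) (n : ℕ) :
    Prop :=
  ∀ u : FF M, u ≠ 0 → (∀ P : Place Kb (FF M), (n : ℤ) ∣ P.ord u) →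
    IsRedOne A M (u : LaurentSeries Kb) → IsRedOne A M ((W u : FF M) : LaurentSeries Kb) →
    ∀ σ ∈ A.inertiaSubgroupIn ℚ,
      ∃ G : FF M, G ≠ 0 ∧ IsA0One M W A (G ^ n * u * (galF M σ u)⁻¹)

/-- **[ROOT-END]** (INJ) for the pair of cusps: a function which is regular off `{∞, ∞₂}`,
integral at both cusps with reduction `(1,1)`, and whose divisor is divisible by `n`, is a
constant times an `n`-th power. -/
def RootEndStatement (M : ℕ) (W : FF M ≃ₐ[Kb] FF M) (A : ValuationSubring Kb) (n : ℕ) : Prop :=
  ∀ H : FF M, IsA0One M W A H → (∀ P : Place Kb (FF M), (n : ℤ) ∣ P.ord H) →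
    ∃ (c : Kb) (v : FF M), H = algebraMap Kb (FF M) c * v ^ n

end Fermat.Agent.T2

end
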