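/-
T2-VAL-A (helper96): the Atkin–Lehner automorphism `W` on expansions.

* `atkinLehner_alpha`, `atkinLehner_beta` : `W` in terms of expansions: `W f = f(t^q)` and
  `W (f(t^q)) = f` for `f ∈ F_N`.
* `atkinLehner_f0` : `W f₀ = g₀` for the separating element `f₀ = β j - (α j)^q`.
* `sepE'` : the element `e' = f₀ / β (j - j^(q^2))` with `(ρ₁, ρ₂)(e') = (0, 1)`:
  `sepE'_mul` (numerator/denominator at `w₁`), `atkinLehner_sepE'_mul` (at `w₂`).
-/
import Mathlib
import Fermat.Agent.T2.helper96_ValBase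
import Fermat.Agent.T2.helper36_AtkinLehner

set_option autoImplicit false
set_option synthInstance.maxHeartbeats 400000
set_option linter.style.haveILetI false
set_option linter.unusedSectionVars false

noncomputable section

open HahnSeries IntermediateField ModularCurve
open Fermat.Agent.S18.helper19 Fermat.Agent.P2.helper29 Fermat.Agent.T2.helper36

namespace Fermat.Agent.T2.helper96

section W

variable (N q : ℕ) [NeZero N] [NeZero q] (hq : q.Prime) (hqN : ¬ q ∣ N)

/-- `W (α f) = β f` on expansions. -/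
theorem atkinLehner_alpha {f : LaurentSeries Kb} (hf : f ∈ FF N) :
    atkinLehner N q hq hqN ⟨f, mem_FF_mul N q hf⟩ = ⟨qExpand Kb q f, qExpand_mem_FF_mul N q hf⟩ := by
  have h := atkinLehner_heckeAlphaBar N q hq hqN ⟨f, hf⟩
  have e1 : heckeAlphaBar Kb N q ⟨f, hf⟩ = ⟨f, mem_FF_mul N q hf⟩ := Subtype.ext rfl
  have e2 : heckeBetaBar Kb N q ⟨f, hf⟩ = ⟨qExpand Kb q f, qExpand_mem_FF_mul N q hf⟩ :=
    Subtype.ext rfl
  rw [← e1, ← e2]
  exact h

/-- `W (β f) = α f` on expansions. -/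
theorem atkinLehner_beta {f : LaurentSeries Kb} (hf : f ∈ FF N) :
    atkinLehner N q hq hqN ⟨qExpand Kb q f, qExpand_mem_FF_mul N q hf⟩ =
      ⟨f, mem_FF_mul N q hf⟩ := by
  rw [← atkinLehner_alpha N q hq hqN hf, atkinLehner_atkinLehner]

variable (A : ValuationSubring Kb)

/-- `W f₀ = g₀`. -/
theorem atkinLehner_f0 :
    atkinLehner N q hq hqN ⟨incl A (f0 q A), incl_f0_mem N q A⟩ =
      ⟨incl A (g0 q A), incl_g0_mem N q A⟩ := by
  have hj : jqModC Kb ∈ FF N := jqModC_mem_FF N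
  have e1 : (⟨incl A (f0 q A), incl_f0_mem N q A⟩ : FF (N * q)) =
      ⟨qExpand Kb q (jqModC Kb), qExpand_mem_FF_mul N q hj⟩ -
        ⟨jqModC Kb, mem_FF_mul N q hj⟩ ^ q := by
    apply Subtype.ext
    show incl A (f0 q A) = _
    rw [incl_f0]
    rfl
  have e2 : (⟨incl A (g0 q A), incl_g0_mem N q A⟩ : FF (N * q)) =
      ⟨jqModC Kb, mem_FF_mul N q hj⟩ -
        ⟨qExpand Kb q (jqModC Kb), qExpand_mem_FF_mul N q hj⟩ ^ q := by
    apply Subtype.ext
    show incl A (g0 q A) = _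
    rw [incl_g0]
    rfl
  rw [e1, e2, map_sub, map_pow, atkinLehner_beta N q hq hqN hj, atkinLehner_alpha N q hq hqN hj]

/-- `W (β (j - j^(q^2))) = α (j - j^(q^2))`. -/
theorem atkinLehner_beta_h0 :
    atkinLehner N q hq hqN
        ⟨incl A (qExpand A q (h0 q A)), by
          rw [incl_qExpand]; exact qExpand_mem_FF_mul N q (incl_h0_mem N q A)⟩ =
      ⟨incl A (h0 q A), mem_FF_mul N q (incl_h0_mem N q A)⟩ := by
  have e1 : (⟨incl A (qExpand A q (h0 q A)), by
      rw [incl_qExpand]; exact qExpand_mem_FF_mul N q (incl_h0_mem N q A)⟩ : FF (N * q)) =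
      ⟨qExpand Kb q (incl A (h0 q A)), qExpand_mem_FF_mul N q (incl_h0_mem N q A)⟩ :=
    Subtype.ext (incl_qExpand q A _)
  rw [e1]
  exact atkinLehner_beta N q hq hqN (incl_h0_mem N q A)

/-- the element `e' = f₀ / β (j - j^(q^2))` of `F_{N q}`: `ρ₁(e') = 0`, `ρ₂(e') = 1`. -/
def sepE' : FF (N * q) :=
  ⟨incl A (f0 q A), incl_f0_mem N q A⟩ /
    ⟨incl A (qExpand A q (h0 q A)), by
      rw [incl_qExpand]; exact qExpand_mem_FF_mul N q (incl_h0_mem N q A)⟩

theorem incl_h0_ne_zero (hq1 : 1 < q) : incl A (h0 q A) ≠ 0 := by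
  intro h
  have h1 : red A (h0 q A) ≠ 0 := by
    rw [red_h0]
    exact jBar_sub_pow_ne_zero q A hq1
  apply h1
  have hinj : Function.Injective (incl A) := by
    intro x y hxy
    ext n
    have := congrArg (fun z => z.coeff n) hxy
    simp only [coeffMap_coeff] at this
    exact this
  rw [hinj (h.trans (map_zero _).symm), map_zero]

/-- `e' * β (j - j^(q^2)) = f₀` (expansions at `∞`) -/
theorem sepE'_mul (hq1 : 1 < q) :
    ((sepE' N q A : FF (N * q)) : LaurentSeries Kb) * incl A (qExpand A q (h0 q A)) =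
      incl A (f0 q A) := by
  have hne : incl A (qExpand A q (h0 q A)) ≠ 0 := by
    rw [incl_qExpand]
    intro h
    exact incl_h0_ne_zero q A hq1 (qExpand_injective q (h.trans (map_zero _).symm))
  show (incl A (f0 q A) / incl A (qExpand A q (h0 q A))) * _ = _
  field_simp

/-- `W e' * α (j - j^(q^2)) = g₀ = W f₀` (expansions at `∞` of `W e'`) -/
theorem atkinLehner_sepE'_mul :
    ((atkinLehner N q hq hqN (sepE' N q A) : FF (N * q)) : LaurentSeries Kb) *
      incl A (h0 q A) = incl A (g0 q A) := by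
  have hne : incl A (h0 q A) ≠ 0 := incl_h0_ne_zero q A hq.one_lt
  rw [sepE', map_div₀, atkinLehner_f0, atkinLehner_beta_h0]
  show (incl A (g0 q A) / incl A (h0 q A)) * _ = _
  field_simp

/-- the element `e = 1 - e'` with `(ρ₁, ρ₂)(e) = (1, 0)`. -/
def sepE : FF (N * q) := 1 - sepE' N q A

variable {q} (hA : A.LiesOverPrime q)
include hA hq

/-- `ρ₁(e) = 1`: `e` is a quotient of two good series with the same reduction. -/
theorem isRedOne_sepE : IsRedOne A (N * q) ((sepE N q A : FF (N * q)) : LaurentSeries Kb) := by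
  have hY2 : IsGood A (N * q) (qExpand A q (h0 q A)) := isGood_beta_h0 N A hq hA
  have hred : red A (qExpand A q (h0 q A) - f0 q A) = red A (qExpand A q (h0 q A)) := by
    rw [map_sub, red_f0 A hq hA, sub_zero]
  refine ⟨qExpand A q (h0 q A) - f0 q A, qExpand A q (h0 q A), ⟨?_, ?_, ?_⟩, hY2, ?_, hred⟩
  · rw [map_sub]
    exact sub_mem hY2.1 (incl_f0_mem N q A)
  · show red A (qExpand A q (h0 q A) - f0 q A) ∈ FFb A (N * q)
    rw [hred]
    exact hY2.2.1
  · show red A (qExpand A q (h0 q A) - f0 q A) ≠ 0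
    rw [hred]
    exact hY2.2.2
  · rw [map_sub, ← sepE'_mul N q A hq.one_lt]
    show _ = ((1 : LaurentSeries Kb) - ((sepE' N q A : FF (N * q)) : LaurentSeries Kb)) * _
    ring

/-- `ρ₂(e) = 0`: `W e` is a quotient (integral series with reduction `0`) / (good series). -/
theorem isRedZero_atkinLehner_sepE :
    ∃ Y₁ Y₂ : LaurentSeries A, incl A Y₁ ∈ FF (N * q) ∧ IsGood A (N * q) Y₂ ∧
      incl A Y₁ = ((atkinLehner N q hq hqN (sepE N q A) : FF (N * q)) : LaurentSeries Kb) *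
        incl A Y₂ ∧ red A Y₁ = 0 := by
  have hY2 : IsGood A (N * q) (h0 q A) := isGood_alpha_h0 N A hq hA
  refine ⟨h0 q A - g0 q A, h0 q A, ?_, hY2, ?_, ?_⟩
  · rw [map_sub]
    exact sub_mem hY2.1 (incl_g0_mem N q A)
  · rw [map_sub, ← atkinLehner_sepE'_mul N q hq hqN A, sepE, map_sub, map_one]
    show _ = ((1 : LaurentSeries Kb) -
      ((atkinLehner N q hq hqN (sepE' N q A) : FF (N * q)) : LaurentSeries Kb)) * _
    ring
  · rw [map_sub, red_g0_eq_red_h0 A hq hA, sub_self]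

/-- **(SEP)** there is `e ∈ F_{N q}` with `ρ₁(e) = 1` and `ρ₂(e) = 0`. -/
theorem exists_sep :
    ∃ e : FF (N * q), IsRedOne A (N * q) (e : LaurentSeries Kb) ∧
      ∃ Y₁ Y₂ : LaurentSeries A, incl A Y₁ ∈ FF (N * q) ∧ IsGood A (N * q) Y₂ ∧
        incl A Y₁ = ((atkinLehner N q hq hqN e : FF (N * q)) : LaurentSeries Kb) * incl A Y₂ ∧
        red A Y₁ = 0 :=
  ⟨sepE N q A, isRedOne_sepE N hq A hA, isRedZero_atkinLehner_sepE N hq hqN A hA⟩

end W

end Fermat.Agent.T2.helper96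

end
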