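/-
TIER 2, [T2-KUM] (helper20, task 767): the S34 core WITHOUT pair scaling.

`unipCore_of_scale` : `UnipCoreStatement (N * q) q p` (helper72_Defs), i.e. `(σ - 1)² = 0` on
the `p`-power torsion of `J₀(N q)` for every `σ` in an inertia group over `q`, from

* `helper29.ScaleStatement (N * q) A`        (scaling for the Gauss valuation `w₁` only),
* `T0InertStatement (N * q) W A (p ^ k)`     (helper72_Interface, `W = helper36.atkinLehner`),

for all places `A` over `q`.  The separating function is helper96's `exists_sep`.  Compared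
with `helper72.unipCore_of` no `PairScaleStatement` (value group of `w₂ - w₁`) is needed: for
`x = [D]`, `p^n D = div h`, scaling of `h` and of `W h` gives constants `c₁`, `c₂`; for `σ` in
the inertia group `U = σ h / h` is `≡ σ c₁ / c₁` for `w₁` and `≡ σ c₂ / c₂` for `w₂`; with
`d ^ (p^n) = c₁ / c₂` and the unit `t = σ d / d` the function `G = W e + t e` is `≡ t` for `w₁`
and `≡ 1` for `w₂`, so `(σ c₂ / c₂)⁻¹ U / G ^ (p^n)` is `≡ 1` for both and `T0Inert` applies.

* `div_mem_of_mem_decomp` : `σ d / d ∈ A` for `σ` in the decomposition group (the valuation of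
  `A` is Galois invariant; finite orbits).
* `RedC A M f c` : `f = c · Y₁ / Y₂` with good integral series `Y₁ ≡ Y₂`, and its calculus.
* `redC_gal_div` : **(F1)** in this language.
* `kum_of` : the statement for one place `A`.
-/
import Mathlib
import Fermat.Agent.P2.helper93_CoreWire
import Fermat.Agent.P2.helper29_Interface
import Fermat.Agent.T2.helper36_AtkinLehner
import Fermat.Agent.T2.helper72_Interface
import Fermat.Agent.T2.helper96_ValW

set_option autoImplicit false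

noncomputable section

open HahnSeries IntermediateField AlgebraicCurve ModularCurve

namespace Fermat.Agent.T2.helper20

open Fermat.Agent.S18.helper19 Fermat.Agent.P2.helper29 Fermat.Agent.P2.helper93
open Fermat.Agent.T2

/-! ## The decomposition group preserves the valuation -/

section Unit

open scoped Pointwise

variable {A : ValuationSubring Kb}

theorem mem_iff_of_mem_decomp {σ : Kb ≃ₐ[ℚ] Kb} (hσ : σ ∈ A.decompositionSubgroup ℚ) (x : Kb) :
    σ x ∈ A ↔ x ∈ A := by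
  have h1 : σ • A = A := hσ
  have h2 : σ • x ∈ σ • A ↔ x ∈ A := ValuationSubring.smul_mem_pointwise_smul_iff
  rw [h1] at h2
  exact h2

/-- some positive power of `σ` fixes `d` -/
theorem exists_pow_fix (σ : Kb ≃ₐ[ℚ] Kb) (d : Kb) : ∃ m : ℕ, 0 < m ∧ (σ ^ m) d = d := by
  classical
  have hd : IsIntegral ℚ d := ((AlgebraicClosure.isAlgebraic ℚ).isAlgebraic d).isIntegral
  have hfin : ((minpoly ℚ d).rootSet Kb).Finite := Polynomial.rootSet_finite _ _
  have hmem : ∀ k : ℕ, (σ ^ k) d ∈ (minpoly ℚ d).rootSet Kb := by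
    intro k
    rw [Polynomial.mem_rootSet]
    refine ⟨minpoly.ne_zero hd, ?_⟩
    rw [Polynomial.aeval_algHom_apply, minpoly.aeval, map_zero]
  have : Finite ((minpoly ℚ d).rootSet Kb) := hfin
  obtain ⟨i, j, hij, e⟩ := Finite.exists_ne_map_eq_of_infinite
    (fun k : ℕ => (⟨(σ ^ k) d, hmem k⟩ : (minpoly ℚ d).rootSet Kb))
  have e' : (σ ^ i) d = (σ ^ j) d := congrArg Subtype.val e
  -- wlog i < j
  have key : ∀ i j : ℕ, i < j → (σ ^ i) d = (σ ^ j) d → ∃ m : ℕ, 0 < m ∧ (σ ^ m) d = d := by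
    intro i j hlt h
    refine ⟨j - i, Nat.sub_pos_of_lt hlt, ?_⟩
    have hj : j = i + (j - i) := by omega
    rw [hj, _root_.pow_add, AlgEquiv.mul_apply] at h
    exact ((σ ^ i).injective h).symm
  rcases lt_or_gt_of_ne hij with h | h
  · exact key i j h e'
  · exact key j i h e'.symm

/-- the valuation of `A` is invariant under the decomposition group: `σ d / d` is a unit. -/
theorem div_mem_of_mem_decomp {σ : Kb ≃ₐ[ℚ] Kb} (hσ : σ ∈ A.decompositionSubgroup ℚ) (d : Kb)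
    (hd : d ≠ 0) : σ d / d ∈ A := by
  by_contra hr
  obtain ⟨m, hm, hfix⟩ := exists_pow_fix σ d
  -- valuation > 1 is preserved
  have hv : ∀ k : ℕ, (σ ^ k) (σ d / d) ∉ A := fun k h =>
    hr ((mem_iff_of_mem_decomp (pow_mem hσ k) _).mp h)
  -- product of the conjugates is 1
  have hprod : ∏ k ∈ Finset.range m, (σ ^ k) (σ d / d) = 1 := by
    have h1 : ∀ k : ℕ, (σ ^ k) (σ d / d) = (σ ^ (k + 1)) d / (σ ^ k) d := by
      intro k
      rw [map_div₀, pow_succ, AlgEquiv.mul_apply]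
    have h2 : ∀ n : ℕ, ∏ k ∈ Finset.range n, (σ ^ k) (σ d / d) = (σ ^ n) d / d := by
      intro n
      induction n with
      | zero => rw [Finset.prod_range_zero, pow_zero, AlgEquiv.one_apply, div_self hd]
      | succ n ih =>
        have hne : (σ ^ n) d ≠ 0 := (map_ne_zero (σ ^ n)).mpr hd
        rw [Finset.prod_range_succ, ih, h1 n]
        field_simp
    rw [h2 m, hfix, div_self hd]
  -- but a product of elements outside `A` is outside `A`
  have hout : ∀ n : ℕ, 0 < n → ∏ k ∈ Finset.range n, (σ ^ k) (σ d / d) ∉ A := by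
    intro n hn
    induction n with
    | zero => exact absurd hn (lt_irrefl 0)
    | succ n ih =>
      rw [Finset.prod_range_succ]
      rcases Nat.eq_zero_or_pos n with rfl | hn'
      · rw [Finset.prod_range_zero, one_mul]
        exact hv 0
      · intro hmem
        have h2 := ih hn'
        have h3 := hv n
        -- inverses are in A
        have i2 : (∏ k ∈ Finset.range n, (σ ^ k) (σ d / d))⁻¹ ∈ A :=
          (A.mem_or_inv_mem _).resolve_left h2
        have : (σ ^ n) (σ d / d) ∈ A := by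
          have h4 := A.mul_mem _ _ hmem i2
          have hne : ∏ k ∈ Finset.range n, (σ ^ k) (σ d / d) ≠ 0 := by
            rintro h0
            rw [h0] at h2
            exact h2 A.zero_mem
          rwa [mul_comm (∏ k ∈ Finset.range n, (σ ^ k) (σ d / d)), mul_assoc,
            mul_inv_cancel₀ hne, mul_one] at h4
        exact h3 this
  exact hout m hm (hprod ▸ A.one_mem)

theorem div_mem_of_mem_decomp' {σ : Kb ≃ₐ[ℚ] Kb} (hσ : σ ∈ A.decompositionSubgroup ℚ) (d : Kb)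
    (hd : d ≠ 0) : d / σ d ∈ A := by
  have h := div_mem_of_mem_decomp (A := A) (inv_mem hσ) (σ d) ((map_ne_zero σ).mpr hd)
  have e : σ⁻¹ (σ d) = d := by
    show σ.symm (σ d) = d
    exact σ.symm_apply_apply d
  rwa [e] at h

end Unit


/-! ## Functions with constant reduction -/

section RedC

variable {A : ValuationSubring Kb} {M : ℕ}

/-- `w(f) > 0`: `f` is a quotient (integral series of `F` with reduction `0`) / (good series). -/
def IsRedZero (A : ValuationSubring Kb) (M : ℕ) (f : LaurentSeries Kb) : Prop :=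
  ∃ Y₁ Y₂ : LaurentSeries A, incl A Y₁ ∈ FF M ∧ IsGood A M Y₂ ∧
    incl A Y₁ = f * incl A Y₂ ∧ red A Y₁ = 0

/-- `f = c · Y₁ / Y₂` with good integral series `Y₁ ≡ Y₂`: `f ≡ c` modulo `c 𝔪_w`. -/
def RedC (A : ValuationSubring Kb) (M : ℕ) (f : FF M) (c : Kb) : Prop :=
  ∃ Y₁ Y₂ : LaurentSeries A, IsGood A M Y₁ ∧ IsGood A M Y₂ ∧
    algebraMap Kb (LaurentSeries Kb) c * incl A Y₁ = (f : LaurentSeries Kb) * incl A Y₂ ∧
    red A Y₁ = red A Y₂

theorem incl_ne_zero_of_isGood {Y : LaurentSeries A} (h : IsGood A M Y) : incl A Y ≠ 0 := by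
  intro h0
  have h1 : Y = 0 := coeffMap_subtype_injective (h0.trans (map_zero (incl A)).symm)
  exact h.2.2 (by rw [h1, map_zero])

theorem redC_one_iff {f : FF M} : RedC A M f 1 ↔ IsRedOne A M (f : LaurentSeries Kb) := by
  constructor
  · rintro ⟨Y₁, Y₂, g₁, g₂, e, r⟩
    exact ⟨Y₁, Y₂, g₁, g₂, by rwa [map_one, one_mul] at e, r⟩
  · rintro ⟨Y₁, Y₂, g₁, g₂, e, r⟩
    exact ⟨Y₁, Y₂, g₁, g₂, by rwa [map_one, one_mul], r⟩

theorem RedC.ne_zero {f : FF M} {c : Kb} (h : RedC A M f c) (hc : c ≠ 0) : f ≠ 0 := by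
  obtain ⟨Y₁, Y₂, g₁, g₂, e, r⟩ := h
  rintro rfl
  rw [ZeroMemClass.coe_zero, zero_mul] at e
  have hc' : algebraMap Kb (LaurentSeries Kb) c ≠ 0 := (map_ne_zero _).mpr hc
  exact mul_ne_zero hc' (incl_ne_zero_of_isGood g₁) e

theorem redC_const (c : Kb) : RedC A M (algebraMap Kb (FF M) c) c :=
  ⟨1, 1, isGood_one, isGood_one, by rw [map_one, mul_one, mul_one]; rfl, rfl⟩

theorem RedC.mul {f f' : FF M} {c c' : Kb} (h : RedC A M f c) (h' : RedC A M f' c') :
    RedC A M (f * f') (c * c') := by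
  obtain ⟨Y₁, Y₂, g₁, g₂, e, r⟩ := h
  obtain ⟨Y₁', Y₂', g₁', g₂', e', r'⟩ := h'
  refine ⟨Y₁ * Y₁', Y₂ * Y₂', g₁.mul g₁', g₂.mul g₂', ?_, by rw [map_mul, map_mul, r, r']⟩
  rw [map_mul, map_mul, map_mul, MulMemClass.coe_mul, mul_mul_mul_comm, e, e',
    mul_mul_mul_comm]

theorem RedC.inv {f : FF M} {c : Kb} (h : RedC A M f c) (hc : c ≠ 0) :
    RedC A M f⁻¹ c⁻¹ := by
  have hf := h.ne_zero hc
  obtain ⟨Y₁, Y₂, g₁, g₂, e, r⟩ := h
  refine ⟨Y₂, Y₁, g₂, g₁, ?_, r.symm⟩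
  have hc' : algebraMap Kb (LaurentSeries Kb) c ≠ 0 := (map_ne_zero _).mpr hc
  have hf' : (f : LaurentSeries Kb) ≠ 0 := fun h0 => hf (Subtype.ext h0)
  have e2 : ((f⁻¹ : FF M) : LaurentSeries Kb) = (f : LaurentSeries Kb)⁻¹ := rfl
  rw [map_inv₀, e2]
  field_simp
  rw [e, mul_comm]

theorem RedC.div {f f' : FF M} {c c' : Kb} (h : RedC A M f c) (h' : RedC A M f' c')
    (hc' : c' ≠ 0) : RedC A M (f / f') (c / c') := by
  rw [div_eq_mul_inv, div_eq_mul_inv]
  exact h.mul (h'.inv hc')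

theorem RedC.pow {f : FF M} {c : Kb} (h : RedC A M f c) (m : ℕ) :
    RedC A M (f ^ m) (c ^ m) := by
  induction m with
  | zero =>
    rw [pow_zero, pow_zero]
    have := redC_const (A := A) (M := M) 1
    rwa [map_one] at this
  | succ m ih =>
    rw [pow_succ, pow_succ]
    exact ih.mul h

theorem RedC.const_mul {f : FF M} {c : Kb} (h : RedC A M f c) (d : Kb) :
    RedC A M (algebraMap Kb (FF M) d * f) (d * c) :=
  (redC_const d).mul h

theorem RedC.congr {f : FF M} {c c' : Kb} (h : RedC A M f c) (e : c = c') : RedC A M f c' :=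
  e ▸ h

/-- a `w`-unit with reduction `1` plus an integral multiple of an element with reduction `0`. -/
theorem RedC.add_redZero {e z : FF M} (he : RedC A M e 1)
    (hz : IsRedZero A M (z : LaurentSeries Kb)) (s : Kb) (hs : s ∈ A) :
    RedC A M (e + algebraMap Kb (FF M) s * z) 1 := by
  obtain ⟨Y₁, Y₂, g₁, g₂, E, r⟩ := he
  obtain ⟨Z₁, Z₂, hZ₁, gZ₂, EZ, rZ⟩ := hz
  rw [map_one, one_mul] at E
  have hnum_incl : incl A (Y₁ * Z₂ + constA (⟨s, hs⟩ : A) * Z₁ * Y₂)
      = incl A Y₁ * incl A Z₂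
        + algebraMap Kb (LaurentSeries Kb) s * incl A Z₁ * incl A Y₂ := by
    rw [map_add, map_mul, map_mul, map_mul, coeffMap_subtype_constA]
  have hnum_red : red A (Y₁ * Z₂ + constA (⟨s, hs⟩ : A) * Z₁ * Y₂) = red A Y₁ * red A Z₂ := by
    rw [map_add, map_mul, map_mul, map_mul, rZ, mul_zero, zero_mul, add_zero]
  refine ⟨Y₁ * Z₂ + constA (⟨s, hs⟩ : A) * Z₁ * Y₂, Y₂ * Z₂, ⟨?_, ?_, ?_⟩, g₂.mul gZ₂, ?_, ?_⟩
  · have h1 : coeffMap A.subtype (Y₁ * Z₂ + constA (⟨s, hs⟩ : A) * Z₁ * Y₂)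
        = incl A (Y₁ * Z₂ + constA (⟨s, hs⟩ : A) * Z₁ * Y₂) := rfl
    rw [h1, hnum_incl]
    exact add_mem (mul_mem g₁.1 gZ₂.1)
      (mul_mem (mul_mem ((FF M).algebraMap_mem s) hZ₁) g₂.1)
  · have h1 : coeffMap (IsLocalRing.residue A) (Y₁ * Z₂ + constA (⟨s, hs⟩ : A) * Z₁ * Y₂)
        = red A (Y₁ * Z₂ + constA (⟨s, hs⟩ : A) * Z₁ * Y₂) := rfl
    rw [h1, hnum_red]
    exact mul_mem g₁.2.1 gZ₂.2.1
  · have h1 : coeffMap (IsLocalRing.residue A) (Y₁ * Z₂ + constA (⟨s, hs⟩ : A) * Z₁ * Y₂)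
        = red A (Y₁ * Z₂ + constA (⟨s, hs⟩ : A) * Z₁ * Y₂) := rfl
    rw [h1, hnum_red]
    exact mul_ne_zero g₁.2.2 gZ₂.2.2
  · rw [map_one, one_mul, hnum_incl, map_mul, E, EZ]
    have e1 : ((e + algebraMap Kb (FF M) s * z : FF M) : LaurentSeries Kb)
        = (e : LaurentSeries Kb) + algebraMap Kb (LaurentSeries Kb) s * (z : LaurentSeries Kb) :=
      rfl
    rw [e1]
    ring
  · rw [hnum_red, map_mul, r]

end RedC


/-! ## Orders of products -/

section Ord

variable {K F : Type*} [Field K] [Field F] [Algebra K F]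

theorem ord_div' (P : Place K F) {a b : F} (ha : a ≠ 0) (hb : b ≠ 0) :
    P.ord (a / b) = P.ord a - P.ord b := by
  rw [div_eq_mul_inv, P.ord_mul ha (inv_ne_zero hb), P.ord_inv]
  ring

theorem ord_pow' (P : Place K F) (a : F) (m : ℕ) : P.ord (a ^ m) = (m : ℤ) * P.ord a := by
  rw [← zpow_natCast, P.ord_zpow]

theorem ord_const_mul' (P : Place K F) {c : K} (hc : c ≠ 0) {a : F} (ha : a ≠ 0) :
    P.ord (algebraMap K F c * a) = P.ord a := by
  rw [P.ord_mul ((map_ne_zero _).mpr hc) ha, Fermat.Agent.S24.helper75.place_ord_algebraMap,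
    zero_add]

/-- the order computation behind the main theorem -/
theorem ord_of_inv_eq (P : Place K F) {a b c : K} {S u T G g : F} {m : ℕ}
    (ha : a ≠ 0) (hb : b ≠ 0) (hc : c ≠ 0) (hS : S ≠ 0) (hu : u ≠ 0) (hT : T ≠ 0) (hG : G ≠ 0)
    (hg : g ≠ 0)
    (h : algebraMap K F a * S / T ^ m = algebraMap K F c * g ^ m * (algebraMap K F b * u / G ^ m)) :
    P.ord S - P.ord u = (m : ℤ) * P.ord (g * T / G) := by
  have ha' : algebraMap K F a ≠ 0 := (map_ne_zero _).mpr ha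
  have hb' : algebraMap K F b ≠ 0 := (map_ne_zero _).mpr hb
  have o1 := congrArg P.ord h
  rw [ord_div' P (mul_ne_zero ha' hS) (pow_ne_zero _ hT), ord_const_mul' P ha hS, ord_pow',
    P.ord_mul (mul_ne_zero ((map_ne_zero _).mpr hc) (pow_ne_zero _ hg))
      (div_ne_zero (mul_ne_zero hb' hu) (pow_ne_zero _ hG)),
    ord_const_mul' P hc (pow_ne_zero _ hg), ord_pow',
    ord_div' P (mul_ne_zero hb' hu) (pow_ne_zero _ hG), ord_const_mul' P hb hu, ord_pow'] at o1
  rw [ord_div' P (mul_ne_zero hg hT) hG, P.ord_mul hg hT]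
  linear_combination o1

theorem dvd_ord_of_rootDiv (P : Place K F) {b : K} {s h G : F} {m : ℕ} {d1 d : ℤ}
    (hb : b ≠ 0) (hs : s ≠ 0) (hh : h ≠ 0) (hG : G ≠ 0)
    (h1 : (m : ℤ) * d1 = P.ord s) (h0 : (m : ℤ) * d = P.ord h) :
    (m : ℤ) ∣ P.ord (algebraMap K F b * (s / h) / G ^ m) := by
  rw [ord_div' P (mul_ne_zero ((map_ne_zero _).mpr hb) (div_ne_zero hs hh)) (pow_ne_zero _ hG),
    ord_const_mul' P hb (div_ne_zero hs hh), ord_div' P hs hh, ord_pow', ← h1, ← h0]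
  exact ⟨d1 - d - P.ord G, by ring⟩

end Ord

/-! ## The Galois action -/

section Gal

variable {A : ValuationSubring Kb} {M : ℕ}

theorem isGood_actA {σ : Kb ≃ₐ[ℚ] Kb} (hσ : σ ∈ A.decompositionSubgroup ℚ)
    {Y : LaurentSeries A} (h : IsGood A M Y) : IsGood A M (actA σ hσ Y) := by
  refine ⟨?_, ?_, ?_⟩
  · rw [coeffMap_subtype_actA]
    exact (galF M σ ⟨_, h.1⟩).2
  · rw [coeffMap_residue_actA]
    exact coeffMap_mem_fullC _ M h.2.1
  · rw [coeffMap_residue_actA]
    intro h0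
    exact h.2.2 (cw_coeffMap_injective _ (decK σ hσ).injective (h0.trans (map_zero _).symm))

theorem red_actA_of_mem_inertia {σ : Kb ≃ₐ[ℚ] Kb} (hσ : σ ∈ A.inertiaSubgroupIn ℚ)
    (hσ' : σ ∈ A.decompositionSubgroup ℚ) (Y : LaurentSeries A) :
    red A (actA σ hσ' Y) = red A Y := by
  obtain ⟨hσ'', hid⟩ := decK_eq_id_of_mem_inertia hσ
  have h1 : red A (actA σ hσ' Y) = coeffMap (decK σ hσ') (red A Y) :=
    coeffMap_residue_actA σ hσ' Y
  rw [h1, hid, coeffMap_id]

/-- **(F1)** for `σ` in the inertia group and `f = c · (good) / (good)`, the function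
`σ f / f` is `≡ σ c / c`. -/
theorem redC_gal_div {f : FF M} {c : Kb} {Y₁ Y₂ : LaurentSeries A} (hc : c ≠ 0)
    (g₁ : IsGood A M Y₁) (g₂ : IsGood A M Y₂)
    (e : algebraMap Kb (LaurentSeries Kb) c * incl A Y₁ = (f : LaurentSeries Kb) * incl A Y₂)
    {σ : Kb ≃ₐ[ℚ] Kb} (hσ : σ ∈ A.inertiaSubgroupIn ℚ) :
    RedC A M (galF M σ f / f) (σ c / c) := by
  obtain ⟨hσ', -⟩ := decK_eq_id_of_mem_inertia hσ
  have hf : (f : LaurentSeries Kb) ≠ 0 := by
    intro h0
    rw [h0, zero_mul] at e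
    exact mul_ne_zero ((map_ne_zero _).mpr hc) (incl_ne_zero_of_isGood g₁) e
  have hc' : algebraMap Kb (LaurentSeries Kb) c ≠ 0 := (map_ne_zero _).mpr hc
  -- apply `σ` to the equation
  have e' := congrArg (coeffMap (σ : Kb →+* Kb)) e
  rw [map_mul, map_mul] at e'
  have hconst : coeffMap (σ : Kb →+* Kb) (algebraMap Kb (LaurentSeries Kb) c)
      = algebraMap Kb (LaurentSeries Kb) (σ c) := by
    rw [algebraMap_laurentSeries_eq_single, coeffMap_single,
      ← algebraMap_laurentSeries_eq_single]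
    rfl
  rw [hconst] at e'
  refine ⟨actA σ hσ' Y₁ * Y₂, Y₁ * actA σ hσ' Y₂, (isGood_actA hσ' g₁).mul g₂,
    g₁.mul (isGood_actA hσ' g₂), ?_, ?_⟩
  · have i1 : incl A (actA σ hσ' Y₁) = coeffMap (σ : Kb →+* Kb) (incl A Y₁) :=
      coeffMap_subtype_actA σ hσ' Y₁
    have i2 : incl A (actA σ hσ' Y₂) = coeffMap (σ : Kb →+* Kb) (incl A Y₂) :=
      coeffMap_subtype_actA σ hσ' Y₂
    have e1 : ((galF M σ f / f : FF M) : LaurentSeries Kb)
        = coeffMap (σ : Kb →+* Kb) (f : LaurentSeries Kb) / (f : LaurentSeries Kb) := rfl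
    rw [map_mul, map_mul, i1, i2, e1, map_div₀]
    generalize coeffMap (σ : Kb →+* Kb) (incl A Y₁) = a' at e' ⊢
    generalize coeffMap (σ : Kb →+* Kb) (incl A Y₂) = b' at e' ⊢
    generalize coeffMap (σ : Kb →+* Kb) (f : LaurentSeries Kb) = F' at e' ⊢
    generalize algebraMap Kb (LaurentSeries Kb) (σ c) = C' at e' ⊢
    generalize incl A Y₁ = a at e ⊢
    generalize incl A Y₂ = b at e ⊢
    generalize algebraMap Kb (LaurentSeries Kb) c = C at e hc' ⊢
    generalize (f : LaurentSeries Kb) = F at e hf ⊢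
    have key : C' * (a' * b) * F = F' * (a * b') * C := by
      linear_combination (b * F) * e' - (F' * b') * e
    calc C' / C * (a' * b) = (C' * (a' * b) * F) / (C * F) := by field_simp
      _ = (F' * (a * b') * C) / (C * F) := by rw [key]
      _ = F' / F * (a * b') := by field_simp
  · rw [map_mul, map_mul, red_actA_of_mem_inertia hσ hσ', red_actA_of_mem_inertia hσ hσ',
      mul_comm]

end Gal

/-! ## The statements and the main theorem -/

section Main

variable (N q : ℕ) [NeZero N] [NeZero q] (hq : q.Prime) (hqN : ¬ q ∣ N)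
  (A : ValuationSubring Kb)

/-- **(SEP)** there is a function which is `≡ 1` for `w₁` and `≡ 0` for `w₂ = w₁ ∘ W`. -/
def SepStatement : Prop :=
  ∃ e : FF (N * q), IsRedOne A (N * q) (e : LaurentSeries Kb) ∧
    IsRedZero A (N * q) ((Fermat.Agent.T2.helper36.atkinLehner N q hq hqN e : FF (N * q)) :
      LaurentSeries Kb)

open Fermat.Agent.T2.helper36 in
/-- **[T2-KUM]** the S34 core at level `N q`: on the `p`-power torsion of `J₀(N q)` every
element `σ` of the inertia group at `A` satisfies `(σ - 1)² = 0`, given the scaling statement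
at level `N q`, a separating function and `T0InertStatement`. -/
theorem kum_of (p : ℕ) (hp : p ≠ 0)
    (hSC : ScaleStatement (N * q) A)
    (hSEP : SepStatement N q hq hqN A)
    (hINV : ∀ n : ℕ, T0InertStatement (N * q) (atkinLehner N q hq hqN) A (p ^ n)) :
    ∀ σ ∈ A.inertiaSubgroupIn ℚ, ∀ x : JZero (N * q), (∃ n : ℕ, p ^ n • x = 0) →
      σ • σ • x - 2 • (σ • x) + x = 0 := by
  rintro σ hσ x ⟨n, hx⟩
  have hm0 : p ^ n ≠ 0 := pow_ne_zero n hp
  obtain ⟨hσ', -⟩ := decK_eq_id_of_mem_inertia hσ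
  obtain ⟨D, rfl⟩ := Pic0.mk_surjective x
  obtain ⟨h, H⟩ := kum_exists_root hx
  obtain ⟨D1, e1, H1⟩ := kum_galois (N * q) σ H
  obtain ⟨D2, e2, H2⟩ := kum_galois (N * q) σ H1
  have hh : h ≠ 0 := H.1
  have hσh : galF (N * q) σ h ≠ 0 := H1.1
  -- scaling of `h` and of `W h`
  obtain ⟨c₁, Y₁, Y₂, hc₁, g₁, g₂, E₁⟩ :=
    hSC (h : LaurentSeries Kb) h.2 (fun h0 => hh (Subtype.ext h0))
  have hWh : atkinLehner N q hq hqN h ≠ 0 := (map_ne_zero _).mpr hh
  obtain ⟨c₂, Z₁, Z₂, hc₂, k₁, k₂, E₂⟩ :=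
    hSC ((atkinLehner N q hq hqN h : FF (N * q)) : LaurentSeries Kb)
      (atkinLehner N q hq hqN h).2 (fun h0 => hWh (Subtype.ext h0))
  have R1 : RedC A (N * q) (galF (N * q) σ h / h) (σ c₁ / c₁) :=
    redC_gal_div hc₁ g₁ g₂ E₁ hσ
  have hWu : atkinLehner N q hq hqN (galF (N * q) σ h / h)
      = galF (N * q) σ (atkinLehner N q hq hqN h) / atkinLehner N q hq hqN h := by
    rw [map_div₀]
    congr 1
    exact atkinLehner_arithmeticRingAut N q hq hqN σ h
  have R2 : RedC A (N * q) (atkinLehner N q hq hqN (galF (N * q) σ h / h)) (σ c₂ / c₂) := by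
    rw [hWu]
    exact redC_gal_div hc₂ k₁ k₂ E₂ hσ
  -- the root `d` of `c₁ / c₂` and the unit `t = σ d / d`
  obtain ⟨d, hd⟩ := IsAlgClosed.exists_pow_nat_eq (c₁ / c₂) (Nat.pos_of_ne_zero hm0)
  have hd0 : d ≠ 0 := by
    rintro rfl
    rw [zero_pow hm0] at hd
    exact div_ne_zero hc₁ hc₂ hd.symm
  have hσd : σ d ≠ 0 := (map_ne_zero σ).mpr hd0
  have ht : σ d / d ∈ A := div_mem_of_mem_decomp hσ' d hd0
  have ht' : (σ d / d)⁻¹ ∈ A := by
    rw [inv_div]
    exact div_mem_of_mem_decomp' hσ' d hd0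
  have ht0 : σ d / d ≠ 0 := div_ne_zero hσd hd0
  have hσc₂ : σ c₂ ≠ 0 := (map_ne_zero σ).mpr hc₂
  have hz₂ : σ c₂ / c₂ ≠ 0 := div_ne_zero hσc₂ hc₂
  have hz : σ c₁ / c₁ = σ c₂ / c₂ * (σ d / d) ^ (p ^ n) := by
    have h1 : c₁ = c₂ * d ^ (p ^ n) := by
      rw [hd]
      field_simp
    rw [h1, map_mul, map_pow, div_pow]
    field_simp
  -- the separating function
  obtain ⟨e, he1, he0⟩ := hSEP
  have he1' : RedC A (N * q) e 1 := redC_one_iff.mpr he1
  have hGt : RedC A (N * q)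
      (atkinLehner N q hq hqN e + algebraMap Kb (FF (N * q)) (σ d / d) * e) (σ d / d) := by
    have h1 := (he1'.add_redZero he0 (σ d / d)⁻¹ ht').const_mul (σ d / d)
    rw [mul_one] at h1
    have e3 : algebraMap Kb (FF (N * q)) (σ d / d) *
        (e + algebraMap Kb (FF (N * q)) (σ d / d)⁻¹ * atkinLehner N q hq hqN e)
        = atkinLehner N q hq hqN e + algebraMap Kb (FF (N * q)) (σ d / d) * e := by
      rw [mul_add, ← mul_assoc, ← map_mul, mul_inv_cancel₀ ht0, map_one, one_mul, add_comm]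
    rwa [e3] at h1
  have hWG : RedC A (N * q) (atkinLehner N q hq hqN
      (atkinLehner N q hq hqN e + algebraMap Kb (FF (N * q)) (σ d / d) * e)) 1 := by
    have e4 : atkinLehner N q hq hqN
        (atkinLehner N q hq hqN e + algebraMap Kb (FF (N * q)) (σ d / d) * e)
        = e + algebraMap Kb (FF (N * q)) (σ d / d) * atkinLehner N q hq hqN e := by
      rw [map_add, map_mul, atkinLehner_atkinLehner, AlgEquiv.commutes]
    rw [e4]
    exact he1'.add_redZero he0 (σ d / d) ht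
  generalize hGdef : atkinLehner N q hq hqN e + algebraMap Kb (FF (N * q)) (σ d / d) * e = G
    at hGt hWG
  have hG0 : G ≠ 0 := hGt.ne_zero ht0
  -- the normalised function `u'`
  have hu0 : galF (N * q) σ h / h ≠ 0 := div_ne_zero hσh hh
  generalize hudef : galF (N * q) σ h / h = u at R1 R2 hu0
  have hcz : algebraMap Kb (FF (N * q)) (σ c₂ / c₂)⁻¹ ≠ 0 :=
    (map_ne_zero _).mpr (inv_ne_zero hz₂)
  have hu'0 : algebraMap Kb (FF (N * q)) (σ c₂ / c₂)⁻¹ * u / G ^ (p ^ n) ≠ 0 :=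
    div_ne_zero (mul_ne_zero hcz hu0) (pow_ne_zero _ hG0)
  have Ru' : RedC A (N * q) (algebraMap Kb (FF (N * q)) (σ c₂ / c₂)⁻¹ * u / G ^ (p ^ n)) 1 := by
    refine ((R1.const_mul (σ c₂ / c₂)⁻¹).div (hGt.pow (p ^ n)) (pow_ne_zero _ ht0)).congr ?_
    rw [hz]
    field_simp
  have RWu' : RedC A (N * q) (atkinLehner N q hq hqN
      (algebraMap Kb (FF (N * q)) (σ c₂ / c₂)⁻¹ * u / G ^ (p ^ n))) 1 := by
    have e5 : atkinLehner N q hq hqN
        (algebraMap Kb (FF (N * q)) (σ c₂ / c₂)⁻¹ * u / G ^ (p ^ n))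
        = algebraMap Kb (FF (N * q)) (σ c₂ / c₂)⁻¹ * atkinLehner N q hq hqN u
          / (atkinLehner N q hq hqN G) ^ (p ^ n) := by
      rw [map_div₀, map_mul, map_pow, AlgEquiv.commutes]
    rw [e5]
    refine ((R2.const_mul (σ c₂ / c₂)⁻¹).div (hWG.pow (p ^ n)) (pow_ne_zero _ one_ne_zero)).congr
      ?_
    rw [one_pow, div_one, inv_mul_cancel₀ hz₂]
  -- divisibility of the divisor of `u'`
  have hdiv : ∀ P : Place Kb (FF (N * q)),
      ((p ^ n : ℕ) : ℤ) ∣ P.ord (algebraMap Kb (FF (N * q)) (σ c₂ / c₂)⁻¹ * u / G ^ (p ^ n)) := by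
    intro P
    rw [← hudef]
    exact dvd_ord_of_rootDiv P (inv_ne_zero hz₂) hσh hh hG0 (H1.2 P) (H.2 P)
  -- apply (INV)
  obtain ⟨c, g, hcg⟩ := hINV n _ hu'0 hdiv (redC_one_iff.mp Ru') (redC_one_iff.mp RWu') σ hσ
  have hlhs : galF (N * q) σ (algebraMap Kb (FF (N * q)) (σ c₂ / c₂)⁻¹ * u / G ^ (p ^ n)) ≠ 0 :=
    (map_ne_zero _).mpr hu'0
  have hc0 : algebraMap Kb (FF (N * q)) c ≠ 0 := by
    intro h0
    rw [h0, zero_mul, zero_mul] at hcg
    exact hlhs hcg
  have hg0 : g ≠ 0 := by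
    rintro rfl
    rw [zero_pow hm0, mul_zero, zero_mul] at hcg
    exact hlhs hcg
  have hσu0 : galF (N * q) σ u ≠ 0 := (map_ne_zero _).mpr hu0
  have hσG0 : galF (N * q) σ G ≠ 0 := (map_ne_zero _).mpr hG0
  have hσcz : algebraMap Kb (FF (N * q)) (σ (σ c₂ / c₂)⁻¹) ≠ 0 :=
    (map_ne_zero _).mpr ((map_ne_zero σ).mpr (inv_ne_zero hz₂))
  have hcg' : algebraMap Kb (FF (N * q)) (σ (σ c₂ / c₂)⁻¹) * galF (N * q) σ u
        / (galF (N * q) σ G) ^ (p ^ n)
      = algebraMap Kb (FF (N * q)) c * g ^ (p ^ n)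
        * (algebraMap Kb (FF (N * q)) (σ c₂ / c₂)⁻¹ * u / G ^ (p ^ n)) := by
    rw [← hcg, map_div₀, map_mul, map_pow, galF_algebraMap]
  -- the divisor class
  have Hu : IsRootDiv (p ^ n) ((D1 : Divisor Kb (FF (N * q))) - (D : Divisor Kb (FF (N * q)))) u := by
    rw [← hudef]
    exact H1.div H
  have Hσu : IsRootDiv (p ^ n) ((D2 : Divisor Kb (FF (N * q))) - (D1 : Divisor Kb (FF (N * q)))) (galF (N * q) σ u) := by
    rw [← hudef, map_div₀]
    exact H2.div H1
  have hG'0 : g * galF (N * q) σ G / G ≠ 0 := div_ne_zero (mul_ne_zero hg0 hσG0) hG0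
  have key : Pic0.mk (D2 - D1 - (D1 - D) : Divisor.degZero (K := Kb) (F := FF (N * q))) = 0 := by
    refine kum_mk_eq_zero_of_ord hG'0 (fun P => ?_)
    have o1 := ord_of_inv_eq P ((map_ne_zero σ).mpr (inv_ne_zero hz₂)) (inv_ne_zero hz₂)
      (fun h0 => hc0 (by rw [h0, map_zero])) hσu0 hu0 hσG0 hG0 hg0 hcg'
    have o2 := Hu.2 P
    have o3 := Hσu.2 P
    have hm' : ((p ^ n : ℕ) : ℤ) ≠ 0 := Nat.cast_ne_zero.mpr hm0
    have e6 : ((D2 - D1 - (D1 - D) : Divisor.degZero (K := Kb) (F := FF (N * q))) :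
        Divisor Kb (FF (N * q))) P
        = ((D2 : Divisor Kb (FF (N * q))) - (D1 : Divisor Kb (FF (N * q)))) P
          - ((D1 : Divisor Kb (FF (N * q))) - (D : Divisor Kb (FF (N * q)))) P := by
      rw [AddSubgroup.coe_sub, AddSubgroup.coe_sub, AddSubgroup.coe_sub, Finsupp.sub_apply]
    rw [e6]
    apply mul_left_cancel₀ hm'
    linear_combination o1 + o3 - o2
  rw [e1, e2]
  have key' : Pic0.mk D2 - Pic0.mk D1 - (Pic0.mk D1 - Pic0.mk D) = 0 := key
  rw [two_nsmul, ← key']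
  abel


/-- helper96's separating function in the shape of `SepStatement`. -/
theorem sepStatement (hA : A.LiesOverPrime q) : SepStatement N q hq hqN A :=
  Fermat.Agent.T2.helper96.exists_sep N hq hqN A hA

open Fermat.Agent.T2.helper36 in
/-- **[T2-KUM]** `UnipCoreStatement (N q) q p` from the scaling statement for `w₁` and
`T0InertStatement` at all places over `q`; no pair scaling. -/
theorem unipCore_of_scale (p : ℕ) (hp : p ≠ 0)
    (hSC : ∀ A : ValuationSubring Kb, A.LiesOverPrime q → ScaleStatement (N * q) A)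
    (hT : ∀ A : ValuationSubring Kb, A.LiesOverPrime q → ∀ k : ℕ,
      T0InertStatement (N * q) (atkinLehner N q hq hqN) A (p ^ k)) :
    UnipCoreStatement (N * q) q p :=
  fun A hA σ hσ x hx =>
    kum_of N q hq hqN A p hp (hSC A hA) (sepStatement N q hq hqN A hA) (hT A hA) σ hσ x hx

end Main

end Fermat.Agent.T2.helper20
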