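import Mathlib
import Fermat.Prelude.Def_ModularCurve_X0
import Fermat.Prelude.Def_ModularCurve_X0ModL
import Fermat.Prelude.Def_ModularCurve_LaurentCoeff
import Fermat.Agent.S28.helper81_Laurent
import Fermat.Agent.P2.helper94_ESFormal

/-!
# T2 / VAL-SCALE (helper58), part 1: the independence lemma

Over a field `k` of characteristic `r` (a prime), with `j = jqModC k` and `Fr = qExpand k r`
(`f(q) ↦ f(q^r)`):

* `sum_ne_zero_of_order_injOn` : a finite sum of Laurent series whose nonzero terms have pairwise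
  distinct orders is nonzero as soon as one term is nonzero;
* `frob_indep` : `∑_{i<r} Fr(x_i) j^i = 0 ⟹ x_i = 0`;
* `pair_indep` : `∑_{i≤r} c_i Fr(j)^i = 0` and `∑_{i≤r} Fr(c_i) j^i = 0` imply `c_i = 0` for all
  `i ≤ r`.  (The reductions `(Fr(j)^i, j^i)`, `i ≤ r`, of the powers of `j(q^r)` at the two
  valuations `w₁, w₂ = w₁ ∘ W` are linearly independent over the residue field of `F'`, acting by
  `c ↦ (c, Fr c)`: Kronecker's congruence in valuation form.)
-/

set_option autoImplicit false

open ModularCurve HahnSeries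

namespace Fermat.Agent.T2.helper58

section Order

variable {k : Type*} [Field k]

theorem order_mul' {x y : LaurentSeries k} (hx : x ≠ 0) (hy : y ≠ 0) :
    (x * y).order = x.order + y.order := by
  have h := HahnSeries.orderTop_mul x y
  rw [← order_eq_orderTop_of_ne_zero (mul_ne_zero hx hy), ← order_eq_orderTop_of_ne_zero hx,
    ← order_eq_orderTop_of_ne_zero hy, ← WithTop.coe_add] at h
  exact WithTop.coe_injective h

theorem order_pow' {x : LaurentSeries k} (hx : x ≠ 0) (n : ℕ) :
    (x ^ n).order = n * x.order := by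
  induction n with
  | zero => simp
  | succ n ih =>
    rw [pow_succ, order_mul' (pow_ne_zero n hx) hx, ih]
    push_cast
    ring

theorem order_qExpand (r : ℕ) [NeZero r] {x : LaurentSeries k} (hx : x ≠ 0) :
    (qExpand k r x).order = r * x.order := by
  apply Fermat.Agent.S28.helper81.order_eq_of_coeff
  · rw [qExpand_coeff_mul]
    exact fun h => hx (HahnSeries.coeff_order_eq_zero.mp h)
  · intro m hm
    by_cases hd : (r : ℤ) ∣ m
    · obtain ⟨c, rfl⟩ := hd
      rw [qExpand_coeff_mul]
      apply HahnSeries.coeff_eq_zero_of_lt_order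
      have hr : (0 : ℤ) < r := by exact_mod_cast Nat.pos_of_ne_zero (NeZero.ne r)
      exact lt_of_mul_lt_mul_left hm hr.le
    · exact qExpand_coeff_of_not_dvd r _ hd

/-- A finite sum of Laurent series whose nonzero terms have pairwise distinct orders is nonzero
as soon as one of the terms is nonzero. -/
theorem sum_ne_zero_of_order_injOn {ι : Type*} (s : Finset ι) (t : ι → LaurentSeries k)
    (h0 : ∃ i ∈ s, t i ≠ 0)
    (hdist : ∀ i ∈ s, ∀ j ∈ s, t i ≠ 0 → t j ≠ 0 → (t i).order = (t j).order → i = j) :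
    ∑ i ∈ s, t i ≠ 0 := by
  classical
  obtain ⟨i₁, hi₁, hi₁0⟩ := h0
  have hne : (s.filter fun i => t i ≠ 0).Nonempty := ⟨i₁, Finset.mem_filter.mpr ⟨hi₁, hi₁0⟩⟩
  obtain ⟨i₀, hi₀, hmin⟩ := Finset.exists_min_image _ (fun i => (t i).order) hne
  rw [Finset.mem_filter] at hi₀
  intro hsum
  have hc : (∑ i ∈ s, t i).coeff (t i₀).order = (t i₀).coeff (t i₀).order := by
    have : (∑ i ∈ s, t i).coeff (t i₀).order = ∑ i ∈ s, (t i).coeff (t i₀).order := by
      induction s using Finset.induction_on with
      | empty => simp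
      | insert a s ha ih => rw [Finset.sum_insert ha, Finset.sum_insert ha]; simp
    rw [this]
    refine Finset.sum_eq_single i₀ (fun i hi hii₀ => ?_) (fun h => absurd hi₀.1 h)
    by_cases hti : t i = 0
    · rw [hti]; rfl
    · have hle := hmin i (Finset.mem_filter.mpr ⟨hi, hti⟩)
      have hne' : (t i₀).order ≠ (t i).order := fun h =>
        hii₀ (hdist i hi i₀ hi₀.1 hti hi₀.2 h.symm)
      exact HahnSeries.coeff_eq_zero_of_lt_order (lt_of_le_of_ne hle hne')
  rw [hsum] at hc
  exact hi₀.2 (HahnSeries.coeff_order_eq_zero.mp hc.symm)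

end Order

section Indep

variable {k : Type*} [Field k] (r : ℕ) [hr : Fact r.Prime]

/-- `1, g, …, g^(r-1)` are linearly independent over `k((q^r))` when `g` has order `-1`. -/
theorem frob_indep_of_order (g : LaurentSeries k) (hg : g.order = -1) (x : ℕ → LaurentSeries k)
    (h : haveI : NeZero r := ⟨hr.out.ne_zero⟩
      ∑ i ∈ Finset.range r, qExpand k r (x i) * g ^ i = 0) :
    ∀ i ∈ Finset.range r, x i = 0 := by
  haveI : NeZero r := ⟨hr.out.ne_zero⟩
  have hg0 : g ≠ 0 := by
    rintro rfl
    rw [HahnSeries.order_zero] at hg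
    omega
  have hrpos : (0 : ℤ) < r := by exact_mod_cast hr.out.pos
  by_contra hcon
  push Not at hcon
  obtain ⟨i₁, hi₁, hi₁0⟩ := hcon
  have hterm : ∀ i, x i ≠ 0 → qExpand k r (x i) * g ^ i ≠ 0 := fun i hi =>
    mul_ne_zero (fun h0 => hi (qExpand_injective r (h0.trans (map_zero _).symm)))
      (pow_ne_zero i hg0)
  have hord : ∀ i, x i ≠ 0 → (qExpand k r (x i) * g ^ i).order = r * (x i).order - i := by
    intro i hi
    rw [order_mul' (fun h0 => hi (qExpand_injective r (h0.trans (map_zero _).symm)))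
      (pow_ne_zero i hg0), order_qExpand r hi, order_pow' hg0, hg]
    ring
  have hxi : ∀ i, qExpand k r (x i) * g ^ i ≠ 0 → x i ≠ 0 := by
    intro i hi h0
    rw [h0, map_zero, zero_mul] at hi
    exact hi rfl
  refine sum_ne_zero_of_order_injOn (Finset.range r) (fun i => qExpand k r (x i) * g ^ i)
    ⟨i₁, hi₁, hterm i₁ hi₁0⟩ ?_ h
  intro i hi j hj hti htj he
  rw [hord i (hxi i hti), hord j (hxi j htj)] at he
  rw [Finset.mem_range] at hi hj
  have hdvd : (r : ℤ) ∣ (i : ℤ) - j := ⟨(x i).order - (x j).order, by linear_combination -he⟩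
  have habs : |(i : ℤ) - j| < r := by
    rw [abs_lt]
    constructor <;> omega
  have := Int.eq_zero_of_abs_lt_dvd hdvd habs
  omega

variable [CharP k r]

theorem jqModC_pow_char : jqModC k ^ r = (haveI : NeZero r := ⟨hr.out.ne_zero⟩;
    qExpand k r (jqModC k)) := by
  rw [Fermat.Agent.P2.helper94.laurent_pow_char r, coeffMap_jqModC]

/-- **Kronecker independence.**  If `∑_{i ≤ r} c_i Fr(j)^i = 0` and `∑_{i ≤ r} Fr(c_i) j^i = 0`
then all `c_i` vanish. -/
theorem pair_indep (c : ℕ → LaurentSeries k)
    (h1 : haveI : NeZero r := ⟨hr.out.ne_zero⟩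
      ∑ i ∈ Finset.range (r + 1), c i * qExpand k r (jqModC k) ^ i = 0)
    (h2 : haveI : NeZero r := ⟨hr.out.ne_zero⟩
      ∑ i ∈ Finset.range (r + 1), qExpand k r (c i) * jqModC k ^ i = 0) :
    ∀ i ∈ Finset.range (r + 1), c i = 0 := by
  haveI : NeZero r := ⟨hr.out.ne_zero⟩
  have hj := Fermat.Agent.S28.helper81.order_jqModC k
  have hj0 : jqModC k ≠ 0 := jqModC_ne_zero_of_nontrivial k
  have hrpos : 0 < r := hr.out.pos
  -- merge the terms `i = 0` and `i = r` of the second relation
  let x : ℕ → LaurentSeries k := fun i => if i = 0 then c 0 + c r * jqModC k else c i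
  have hx : ∑ i ∈ Finset.range r, qExpand k r (x i) * jqModC k ^ i = 0 := by
    rw [Finset.sum_range_succ] at h2
    rw [← h2]
    obtain ⟨m, rfl⟩ : ∃ m, r = m + 1 := ⟨r - 1, by omega⟩
    rw [Finset.sum_range_succ', Finset.sum_range_succ' _ m]
    have e0 : x 0 = c 0 + c (m + 1) * jqModC k := if_pos rfl
    have es : ∀ i, x (i + 1) = c (i + 1) := fun i => if_neg (Nat.succ_ne_zero i)
    simp only [es, e0, pow_zero, mul_one, map_add, map_mul]
    rw [← jqModC_pow_char (m + 1)]
    ring
  have hx0 := frob_indep_of_order r (jqModC k) hj x hx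
  have hmid : ∀ i, 0 < i → i < r → c i = 0 := by
    intro i hi hir
    have := hx0 i (Finset.mem_range.mpr hir)
    rwa [show x i = c i from if_neg hi.ne'] at this
  have hc0 : c 0 + c r * jqModC k = 0 := by
    have := hx0 0 (Finset.mem_range.mpr hrpos)
    rwa [show x 0 = c 0 + c r * jqModC k from if_pos rfl] at this
  -- the first relation now reads `c_r (Fr(j)^r - j) = 0`
  have h1' : c 0 + c r * qExpand k r (jqModC k) ^ r = 0 := by
    rw [← h1, Finset.sum_range_succ, Finset.sum_eq_single 0]
    · rw [pow_zero, mul_one]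
    · intro i hi hi0
      rw [hmid i (Nat.pos_of_ne_zero hi0) (Finset.mem_range.mp hi), zero_mul]
    · intro h
      exact absurd (Finset.mem_range.mpr hrpos) h
  have hdiff : qExpand k r (jqModC k) ^ r - jqModC k ≠ 0 := by
    intro h0
    have e : qExpand k r (jqModC k) ^ r = jqModC k := sub_eq_zero.mp h0
    have ho := congrArg HahnSeries.order e
    rw [order_pow' (fun h => hj0 (qExpand_injective r (h.trans (map_zero _).symm))),
      order_qExpand r hj0, hj] at ho
    have h2r : (2 : ℤ) ≤ r := by exact_mod_cast hr.out.two_le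
    nlinarith
  have hcr : c r = 0 := by
    have : c r * (qExpand k r (jqModC k) ^ r - jqModC k) = 0 := by
      linear_combination h1' - hc0
    exact (mul_eq_zero.mp this).resolve_right hdiff
  intro i hi
  rcases Nat.eq_zero_or_pos i with rfl | hipos
  · rw [hcr, zero_mul, add_zero] at hc0
    exact hc0
  · rcases Nat.lt_or_ge i r with hlt | hge
    · exact hmid i hipos hlt
    · have : i = r := by
        rw [Finset.mem_range] at hi
        omega
      rw [this]; exact hcr

end Indep

end Fermat.Agent.T2.helper58
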