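import Mathlib
import Fermat.Agent.T2.helper58_Indep
import Fermat.Agent.P2.helper29_Interface

/-!
# T2 / VAL-SCALE (helper58), part 2: the core scaling lemma at the bad prime

Setting: `r` a prime, `M'` a level, `A` a valuation subring of `ℚ̄` with residue field `k` of
characteristic `r`, `y = j(q^r)`, `j = j(q)`.  For a family `c_0, …, c_r ∈ F_{M'}`, not all zero,
the two series
  `f₁ = ∑ c_i y^i`           (the expansion of `f = ∑ α(c_i) y^i ∈ F_{M' r}` at `∞`)
  `f₂ = ∑ c_i(q^r) j^i`      (the expansion of `W f`)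
can be scaled SIMULTANEOUSLY: `f₁ D = γ N₁`, `f₂ D(q^r) = γ N₂` with `D` a good series, `N₁, N₂`
integral series, and NOT BOTH reductions `red N₁`, `red N₂` zero (`core_scale`).
Inputs: `helper29.ScaleStatement M' A` (scaling at the good level `M'`) and the independence
lemma `pair_indep`.
-/

set_option autoImplicit false
set_option linter.unusedSectionVars false
set_option linter.style.haveILetI false

noncomputable section

open HahnSeries IntermediateField ModularCurve
open Fermat.Agent.S18.helper19 Fermat.Agent.P2.helper29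

namespace Fermat.Agent.T2.helper58

/-! ### Vocabulary: integral series -/

section Vocabulary

variable {A : ValuationSubring Kb} {N : ℕ}

/-- `Y` is an integral series representing an element of `F_N` whose reduction lies in the
special fibre field (the reduction may vanish). -/
def IsInt (A : ValuationSubring Kb) (N : ℕ) (Y : LaurentSeries A) : Prop :=
  incl A Y ∈ FF N ∧ red A Y ∈ FFb A N

theorem IsInt.of_isGood {Y : LaurentSeries A} (h : IsGood A N Y) : IsInt A N Y := ⟨h.1, h.2.1⟩

theorem IsInt.isGood {Y : LaurentSeries A} (h : IsInt A N Y) (h0 : red A Y ≠ 0) :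
    IsGood A N Y := ⟨h.1, h.2, h0⟩

theorem isInt_zero : IsInt A N (0 : LaurentSeries A) := by
  refine ⟨?_, ?_⟩
  · rw [map_zero]; exact zero_mem _
  · rw [map_zero]; exact zero_mem _

theorem isInt_one : IsInt A N (1 : LaurentSeries A) := IsInt.of_isGood isGood_one

theorem IsInt.add {Y Y' : LaurentSeries A} (h : IsInt A N Y) (h' : IsInt A N Y') :
    IsInt A N (Y + Y') := by
  refine ⟨?_, ?_⟩
  · rw [map_add]; exact add_mem h.1 h'.1
  · rw [map_add]; exact add_mem h.2 h'.2

theorem IsInt.mul {Y Y' : LaurentSeries A} (h : IsInt A N Y) (h' : IsInt A N Y') :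
    IsInt A N (Y * Y') := by
  refine ⟨?_, ?_⟩
  · rw [map_mul]; exact mul_mem h.1 h'.1
  · rw [map_mul]; exact mul_mem h.2 h'.2

theorem IsInt.pow {Y : LaurentSeries A} (h : IsInt A N Y) (n : ℕ) : IsInt A N (Y ^ n) := by
  induction n with
  | zero => rw [pow_zero]; exact isInt_one
  | succ n ih => rw [pow_succ]; exact ih.mul h

theorem isInt_sum {ι : Type*} (s : Finset ι) (Y : ι → LaurentSeries A)
    (h : ∀ i ∈ s, IsInt A N (Y i)) : IsInt A N (∑ i ∈ s, Y i) := by
  classical
  induction s using Finset.induction_on with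
  | empty => rw [Finset.sum_empty]; exact isInt_zero
  | insert a s ha ih =>
    rw [Finset.sum_insert ha]
    exact (h a (Finset.mem_insert_self a s)).add
      (ih fun i hi => h i (Finset.mem_insert_of_mem hi))

theorem isGood_prod {ι : Type*} (s : Finset ι) (Y : ι → LaurentSeries A)
    (h : ∀ i ∈ s, IsGood A N (Y i)) : IsGood A N (∏ i ∈ s, Y i) := by
  classical
  induction s using Finset.induction_on with
  | empty => rw [Finset.prod_empty]; exact isGood_one
  | insert a s ha ih =>
    rw [Finset.prod_insert ha]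
    exact (h a (Finset.mem_insert_self a s)).mul
      (ih fun i hi => h i (Finset.mem_insert_of_mem hi))

theorem isInt_constA (a : A) : IsInt A N (constA a) := by
  refine ⟨?_, ?_⟩
  · show coeffMap A.subtype (constA a) ∈ FF N
    rw [coeffMap_subtype_constA]; exact (FF N).algebraMap_mem _
  · show coeffMap (IsLocalRing.residue A) (constA a) ∈ FFb A N
    rw [coeffMap_residue_constA]; exact (FFb A N).algebraMap_mem _

theorem FF_mono {N M : ℕ} [NeZero N] [NeZero M] (h : N ∣ M) : FF N ≤ FF M := by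
  show laurentBaseChange Kb (modularFunctionFieldFull N) ≤
    laurentBaseChange Kb (modularFunctionFieldFull M)
  rw [laurentBaseChange, IntermediateField.adjoin_le_iff]
  rintro _ ⟨y, hy, rfl⟩
  exact coeffEmb_mem_laurentBaseChange Kb (full_degeneracy_le h hy)

theorem IsInt.of_dvd {N M : ℕ} [NeZero N] [NeZero M] (h : N ∣ M) {Y : LaurentSeries A}
    (hY : IsInt A N Y) : IsInt A M Y :=
  ⟨FF_mono h hY.1, full_degeneracyC_le (kA A) h hY.2⟩

theorem IsGood.of_dvd' {N M : ℕ} [NeZero N] [NeZero M] (h : N ∣ M) {Y : LaurentSeries A}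
    (hY : IsGood A N Y) : IsGood A M Y :=
  ⟨FF_mono h hY.1, full_degeneracyC_le (kA A) h hY.2.1, hY.2.2⟩

theorem incl_injective : Function.Injective (incl A) := by
  intro x y h
  ext n
  have := congrArg (fun z => HahnSeries.coeff z n) h
  simp only [coeffMap_coeff] at this
  exact this

theorem incl_constA_mul (a : A) (Y : LaurentSeries A) :
    incl A (constA a * Y) = algebraMap Kb (LaurentSeries Kb) (a : Kb) * incl A Y := by
  rw [map_mul]
  congr 1
  exact coeffMap_subtype_constA a

theorem red_constA_mul (a : A) (Y : LaurentSeries A) :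
    red A (constA a * Y) =
      algebraMap (kA A) (LaurentSeries (kA A)) (IsLocalRing.residue A a) * red A Y := by
  rw [map_mul]
  congr 1
  exact coeffMap_residue_constA a

end Vocabulary

section Vocabulary

section QExpand

variable {A : ValuationSubring Kb} {N : ℕ} [NeZero N] (r : ℕ) [NeZero r]

theorem qExpand_mem_FF {x : LaurentSeries Kb} (hx : x ∈ FF N) : qExpand Kb r x ∈ FF (N * r) :=
  (heckeBetaBar Kb N r ⟨x, hx⟩).2

theorem qExpand_mem_FFb {x : LaurentSeries (kA A)} (hx : x ∈ FFb A N) :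
    qExpand (kA A) r x ∈ FFb A (N * r) :=
  full_degeneracyC_map_le (kA A) N r ⟨x, hx, rfl⟩

theorem incl_qExpand (Y : LaurentSeries A) : incl A (qExpand A r Y) = qExpand Kb r (incl A Y) :=
  coeffMap_qExpand _ r Y

theorem red_qExpand (Y : LaurentSeries A) :
    red A (qExpand A r Y) = qExpand (kA A) r (red A Y) :=
  coeffMap_qExpand _ r Y

theorem IsInt.qExpand {Y : LaurentSeries A} (h : IsInt A N Y) :
    IsInt A (N * r) (qExpand A r Y) := by
  refine ⟨?_, ?_⟩
  · rw [incl_qExpand]; exact qExpand_mem_FF r h.1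
  · rw [red_qExpand]; exact qExpand_mem_FFb r h.2

theorem IsGood.qExpand {Y : LaurentSeries A} (h : IsGood A N Y) :
    IsGood A (N * r) (qExpand A r Y) := by
  refine (IsInt.qExpand r (IsInt.of_isGood h)).isGood ?_
  rw [red_qExpand]
  exact fun h0 => h.2.2 (qExpand_injective r (h0.trans (map_zero _).symm))

theorem qExpand_algebraMap_mul {K : Type*} [Field K] (c : K) (x : LaurentSeries K) :
    qExpand K r (algebraMap K (LaurentSeries K) c * x) =
      algebraMap K (LaurentSeries K) c * qExpand K r x := by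
  rw [map_mul, algebraMap_laurentSeries_eq_single, qExpand_single, mul_zero]

theorem incl_jqNModC : incl A (jqNModC A r) = qExpand Kb r (jqModC Kb) := by
  show coeffMap A.subtype (jqNModC A r) = _
  rw [coeffMap_jqNModC]
  rfl

theorem red_jqNModC : red A (jqNModC A r) = qExpand (kA A) r (jqModC (kA A)) := by
  show coeffMap (IsLocalRing.residue A) (jqNModC A r) = _
  rw [coeffMap_jqNModC]
  rfl

theorem incl_jqModC : incl A (jqModC A) = jqModC Kb := coeffMap_jqModC _

theorem red_jqModC : red A (jqModC A) = jqModC (kA A) := coeffMap_jqModC _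

theorem isGood_jqModC : IsGood A N (jqModC A) := by
  have h := isGood_jqNModC (A := A) (N := N) (d := 1) (one_dvd N)
  rwa [jqNModC_one] at h

end QExpand

end Vocabulary

/-! ### The core lemma -/

section Core

variable {A : ValuationSubring Kb} (M' r : ℕ) [NeZero M'] [hr : Fact r.Prime] [CharP (kA A) r]

/-- Scaling of a single coefficient: either it vanishes or it is `γ P / Q` with good `P, Q`. -/
theorem exists_scale_coeff (hSc : ScaleStatement M' A) (c : LaurentSeries Kb) (hc : c ∈ FF M') :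
    ∃ (γ : Kb) (P Q : LaurentSeries A), IsInt A M' P ∧ IsGood A M' Q ∧
      algebraMap Kb (LaurentSeries Kb) γ * incl A P = c * incl A Q ∧
      (c ≠ 0 → γ ≠ 0 ∧ red A P ≠ 0) ∧ (c = 0 → P = 0) := by
  by_cases h0 : c = 0
  · exact ⟨1, 0, 1, isInt_zero, isGood_one, by rw [h0, map_zero, mul_zero, zero_mul],
      fun h => absurd h0 h, fun _ => rfl⟩
  · obtain ⟨γ, P, Q, hγ, hP, hQ, h⟩ := hSc c hc h0
    exact ⟨γ, P, Q, IsInt.of_isGood hP, hQ, h, fun _ => ⟨hγ, hP.2.2⟩, fun h => absurd h h0⟩

/-- **Core scaling lemma.** -/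
theorem core_scale (hSc : ScaleStatement M' A) (c : ℕ → LaurentSeries Kb)
    (hc : ∀ i, c i ∈ FF M') (hne : ∃ i ∈ Finset.range (r + 1), c i ≠ 0) :
    haveI : NeZero r := ⟨hr.out.ne_zero⟩
    haveI : NeZero (M' * r) := ⟨Nat.mul_ne_zero (NeZero.ne M') hr.out.ne_zero⟩
    ∃ (γ : Kb) (N₁ D N₂ : LaurentSeries A), γ ≠ 0 ∧ IsInt A (M' * r) N₁ ∧ IsGood A M' D ∧
      IsInt A (M' * r) N₂ ∧
      (∑ i ∈ Finset.range (r + 1), c i * qExpand Kb r (jqModC Kb) ^ i) * incl A D =
        algebraMap Kb (LaurentSeries Kb) γ * incl A N₁ ∧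
      (∑ i ∈ Finset.range (r + 1), qExpand Kb r (c i) * jqModC Kb ^ i) *
          incl A (qExpand A r D) =
        algebraMap Kb (LaurentSeries Kb) γ * incl A N₂ ∧
      (red A N₁ ≠ 0 ∨ red A N₂ ≠ 0) := by
  classical
  haveI : NeZero r := ⟨hr.out.ne_zero⟩
  haveI : NeZero (M' * r) := ⟨Nat.mul_ne_zero (NeZero.ne M') hr.out.ne_zero⟩
  have hM : M' ∣ M' * r := dvd_mul_right M' r
  choose γ P Q hP hQ hrel hnz hz using fun i => exists_scale_coeff M' hSc (c i) (hc i)
  -- the index of maximal valuation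
  have hsne : ((Finset.range (r + 1)).filter fun i => c i ≠ 0).Nonempty := by
    obtain ⟨i, hi, hci⟩ := hne
    exact ⟨i, Finset.mem_filter.mpr ⟨hi, hci⟩⟩
  obtain ⟨i₀, hi₀, hmax⟩ := Finset.exists_max_image _ (fun i => A.valuation (γ i)) hsne
  rw [Finset.mem_filter] at hi₀
  have hγ₀ : γ i₀ ≠ 0 := (hnz i₀ hi₀.2).1
  -- rescaled numerators
  have hZ' : ∀ i, i ∈ Finset.range (r + 1) → ∃ Z' : LaurentSeries A, IsInt A M' Z' ∧
      algebraMap Kb (LaurentSeries Kb) (γ i₀) * incl A Z' = c i * incl A (Q i) ∧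
      (i = i₀ → red A Z' ≠ 0) := by
    intro i hir
    by_cases hci : c i = 0
    · refine ⟨0, isInt_zero, by rw [map_zero, mul_zero, hci, zero_mul], fun h => ?_⟩
      rw [h] at hci
      exact absurd hci hi₀.2
    · have hle : A.valuation (γ i) ≤ A.valuation (γ i₀) :=
        hmax i (Finset.mem_filter.mpr ⟨hir, hci⟩)
      have hmem : γ i / γ i₀ ∈ A := by
        rw [← A.valuation_le_one_iff, map_div₀]
        exact div_le_one_of_le₀ hle zero_le
      refine ⟨constA ⟨γ i / γ i₀, hmem⟩ * P i, (isInt_constA _).mul (hP i), ?_, fun h => ?_⟩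
      · rw [incl_constA_mul, ← mul_assoc, ← map_mul]
        show algebraMap Kb (LaurentSeries Kb) (γ i₀ * (γ i / γ i₀)) * _ = _
        rw [mul_div_cancel₀ _ hγ₀]
        exact hrel i
      · subst h
        rw [red_constA_mul]
        have h1 : (⟨γ i / γ i, hmem⟩ : A) = 1 := Subtype.ext (div_self hγ₀)
        rw [h1, map_one, map_one, one_mul]
        exact (hnz i hci).2
  choose! Z' hZ'int hZ'rel hZ'red using hZ'
  -- common denominator
  set s : Finset ℕ := Finset.range (r + 1) with hs
  set D : LaurentSeries A := ∏ l ∈ s, Q l with hD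
  have hDgood : IsGood A M' D := isGood_prod s Q fun l _ => hQ l
  set Z : ℕ → LaurentSeries A := fun i => Z' i * ∏ l ∈ s.erase i, Q l with hZ
  have hZint : ∀ i ∈ s, IsInt A M' (Z i) := fun i hi =>
    (hZ'int i hi).mul (IsInt.of_isGood (isGood_prod _ Q fun l _ => hQ l))
  have hZrel : ∀ i ∈ s, c i * incl A D = algebraMap Kb (LaurentSeries Kb) (γ i₀) * incl A (Z i) := by
    intro i hi
    have h1 : D = Q i * ∏ l ∈ s.erase i, Q l := (Finset.mul_prod_erase s Q hi).symm
    rw [h1, map_mul, ← mul_assoc, ← hZ'rel i hi, hZ, map_mul, mul_assoc]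
  have hZred : red A (Z i₀) ≠ 0 := by
    rw [hZ]
    simp only [map_mul]
    refine mul_ne_zero (hZ'red i₀ hi₀.1 rfl) ?_
    rw [map_prod]
    exact Finset.prod_ne_zero_iff.mpr fun l _ => (hQ l).2.2
  refine ⟨γ i₀, ∑ i ∈ s, Z i * jqNModC A r ^ i, D, ∑ i ∈ s, qExpand A r (Z i) * jqModC A ^ i,
    hγ₀, ?_, hDgood, ?_, ?_, ?_, ?_⟩
  · exact isInt_sum s _ fun i hi => (IsInt.of_dvd hM (hZint i hi)).mul
      ((IsInt.of_isGood (isGood_jqNModC (dvd_mul_left r M'))).pow i)
  · exact isInt_sum s _ fun i hi => (IsInt.qExpand r (hZint i hi)).mul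
      ((IsInt.of_isGood isGood_jqModC).pow i)
  · rw [Finset.sum_mul, map_sum, Finset.mul_sum]
    refine Finset.sum_congr rfl fun i hi => ?_
    rw [map_mul, map_pow, incl_jqNModC, mul_right_comm, hZrel i hi, mul_assoc]
  · rw [Finset.sum_mul, map_sum, Finset.mul_sum]
    refine Finset.sum_congr rfl fun i hi => ?_
    rw [map_mul, map_pow, incl_jqModC, incl_qExpand, incl_qExpand, mul_right_comm, ← map_mul,
      hZrel i hi, qExpand_algebraMap_mul, mul_assoc]
  · by_contra hcon
    push Not at hcon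
    obtain ⟨h1, h2⟩ := hcon
    have e1 : ∑ i ∈ Finset.range (r + 1), red A (Z i) * qExpand (kA A) r (jqModC (kA A)) ^ i
        = 0 := by
      rw [← h1, map_sum]
      refine Finset.sum_congr rfl fun i _ => ?_
      rw [map_mul (red A) (Z i), map_pow, red_jqNModC]
    have e2 : ∑ i ∈ Finset.range (r + 1), qExpand (kA A) r (red A (Z i)) * jqModC (kA A) ^ i
        = 0 := by
      rw [← h2, map_sum]
      refine Finset.sum_congr rfl fun i _ => ?_
      rw [map_mul (red A) (qExpand A r (Z i)), map_pow, red_jqModC, red_qExpand]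
    exact hZred (pair_indep r (fun i => red A (Z i)) e1 e2 i₀ hi₀.1)

end Core

end Fermat.Agent.T2.helper58
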