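import Mathlib
import Fermat.Agent.T2.helper58_ScaleCore
import Fermat.Agent.T2.helper96_ValW
import Fermat.Agent.P2.helper93_ESDegree
import Fermat.Agent.P2.helper81_ValScale

/-!
# T2 / VAL-SCALE (helper58), part 3: `ScaleStatement` at the BAD prime

Setting (conventions of helper36 / helper96): `q` prime, `q ∤ N`, `A` a valuation subring of `ℚ̄`
over `q`, level `N q`, `W = helper36.atkinLehner N q`.

* `exists_comb` : `1, y, …, y^q` (`y = β j = j(t^q)`) is a basis of `F_{N q}` over `α F_N`
  (independence from `core_scale`, spanning from `helper93.finrank_alpha`).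
* `pair_scale` : simultaneous normalisation of `f` and `W f`: `f D = γ N₁`,
  `(W f) D(t^q) = γ N₂` with `D` good of level `N`, `N₁, N₂` integral, not both reductions zero.
* `scaleStatement_bad : helper29.ScaleStatement (N * q) A`  (the P2 interface statement VERBATIM
  at the bad prime).
* `red_mem_FFb_of_scale`, `red_mem_FFb_bad` : the residue field of the Gauss valuation is the
  special fibre field: `incl Y ∈ F`, `red Y ≠ 0` implies `red Y ∈ F̃`.
-/

set_option autoImplicit false
set_option linter.unusedSectionVars false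
set_option linter.style.haveILetI false

noncomputable section

open HahnSeries IntermediateField ModularCurve
open Fermat.Agent.S18.helper19 Fermat.Agent.P2.helper29 Fermat.Agent.T2.helper36

namespace Fermat.Agent.T2.helper58

section Basis

variable (N q : ℕ) [NeZero N] [NeZero q]

/-- `β j = j(t^q)` as an element of `F_{N q}` -/
def yB : FF (N * q) :=
  ⟨qExpand Kb q (jqModC Kb), helper96.qExpand_mem_FF_mul N q (helper96.jqModC_mem_FF N)⟩

/-- `α j = j` as an element of `F_{N q}` -/
def yA : FF (N * q) := ⟨jqModC Kb, helper96.mem_FF_mul N q (helper96.jqModC_mem_FF N)⟩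

/-- a coefficient family, extended by zero -/
def cN (g : Fin (q + 1) → FF N) (i : ℕ) : LaurentSeries Kb :=
  if h : i < q + 1 then (g ⟨i, h⟩ : LaurentSeries Kb) else 0

theorem cN_mem (g : Fin (q + 1) → FF N) (i : ℕ) : cN N q g i ∈ FF N := by
  unfold cN
  split_ifs
  · exact (g _).2
  · exact zero_mem _

theorem cN_coe (g : Fin (q + 1) → FF N) (i : Fin (q + 1)) :
    cN N q g (i : ℕ) = (g i : LaurentSeries Kb) := by
  unfold cN
  rw [dif_pos i.2]

/-- the combination `∑ α(g_i) y^i` -/
def comb (g : Fin (q + 1) → FF N) : FF (N * q) :=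
  ∑ i, heckeAlphaBar Kb N q (g i) * yB N q ^ (i : ℕ)

theorem coe_comb (g : Fin (q + 1) → FF N) :
    ((comb N q g : FF (N * q)) : LaurentSeries Kb) =
      ∑ i ∈ Finset.range (q + 1), cN N q g i * qExpand Kb q (jqModC Kb) ^ i := by
  rw [Finset.sum_range]
  unfold comb
  rw [IntermediateField.coe_sum]
  refine Finset.sum_congr rfl fun i _ => ?_
  rw [cN_coe]
  rfl

theorem coe_atkinLehner_comb (hq : q.Prime) (hqN : ¬ q ∣ N) (g : Fin (q + 1) → FF N) :
    ((atkinLehner N q hq hqN (comb N q g) : FF (N * q)) : LaurentSeries Kb) =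
      ∑ i ∈ Finset.range (q + 1), qExpand Kb q (cN N q g i) * jqModC Kb ^ i := by
  have hy : atkinLehner N q hq hqN (yB N q) = yA N q :=
    helper96.atkinLehner_beta N q hq hqN (helper96.jqModC_mem_FF N)
  unfold comb
  rw [map_sum, Finset.sum_range, IntermediateField.coe_sum]
  refine Finset.sum_congr rfl fun i _ => ?_
  rw [map_mul, map_pow, atkinLehner_heckeAlphaBar, hy, cN_coe]
  rfl

variable {N q}

theorem exists_cN_ne_zero {g : Fin (q + 1) → FF N} (hg : g ≠ 0) :
    ∃ i ∈ Finset.range (q + 1), cN N q g i ≠ 0 := by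
  have : ∃ i, g i ≠ 0 := by
    by_contra h
    push Not at h
    exact hg (funext h)
  obtain ⟨i, hi⟩ := this
  refine ⟨(i : ℕ), Finset.mem_range.mpr i.2, ?_⟩
  rw [cN_coe]
  exact fun h => hi (Subtype.ext h)

end Basis

section Bad

variable (N q : ℕ) [NeZero N] [NeZero q] (hq : q.Prime) (hqN : ¬ q ∣ N)
  (A : ValuationSubring Kb) (hA : A.LiesOverPrime q)

include hq hqN hA in
/-- **Pair normalisation on combinations.** -/
theorem pair_scale_comb (g : Fin (q + 1) → FF N) (hg : g ≠ 0) :
    ∃ (γ : Kb) (N₁ D N₂ : LaurentSeries A), γ ≠ 0 ∧ IsInt A (N * q) N₁ ∧ IsGood A N D ∧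
      IsInt A (N * q) N₂ ∧
      ((comb N q g : FF (N * q)) : LaurentSeries Kb) * incl A D =
        algebraMap Kb (LaurentSeries Kb) γ * incl A N₁ ∧
      ((atkinLehner N q hq hqN (comb N q g) : FF (N * q)) : LaurentSeries Kb) *
          incl A (qExpand A q D) =
        algebraMap Kb (LaurentSeries Kb) γ * incl A N₂ ∧
      (red A N₁ ≠ 0 ∨ red A N₂ ≠ 0) := by
  haveI : Fact q.Prime := ⟨hq⟩
  haveI : CharP (kA A) q := Fermat.Agent.P2.helper93.charP_residueField hq hA
  have hSc : ScaleStatement N A := Fermat.Agent.P2.helper81.scaleStatement N A ⟨q, hq, hqN, hA⟩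
  obtain ⟨γ, N₁, D, N₂, hγ, hN₁, hD, hN₂, h1, h2, hor⟩ :=
    core_scale N q hSc (cN N q g) (cN_mem N q g) (exists_cN_ne_zero hg)
  refine ⟨γ, N₁, D, N₂, hγ, hN₁, hD, hN₂, ?_, ?_, hor⟩
  · rw [coe_comb]; exact h1
  · rw [coe_atkinLehner_comb]; exact h2

include hq hqN hA in
theorem comb_ne_zero (g : Fin (q + 1) → FF N) (hg : g ≠ 0) : comb N q g ≠ 0 := by
  intro h0
  obtain ⟨γ, N₁, D, N₂, hγ, -, -, -, h1, h2, hor⟩ := pair_scale_comb N q hq hqN A hA g hg
  have hγ' : algebraMap Kb (LaurentSeries Kb) γ ≠ 0 :=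
    (map_ne_zero (algebraMap Kb (LaurentSeries Kb))).mpr hγ
  rw [h0] at h1 h2
  rw [map_zero] at h2
  have e1 : incl A N₁ = 0 := by
    have : algebraMap Kb (LaurentSeries Kb) γ * incl A N₁ = 0 := by
      rw [← h1]
      show (0 : LaurentSeries Kb) * _ = 0
      rw [zero_mul]
    exact (mul_eq_zero.mp this).resolve_left hγ'
  have e2 : incl A N₂ = 0 := by
    have : algebraMap Kb (LaurentSeries Kb) γ * incl A N₂ = 0 := by
      rw [← h2]
      show (0 : LaurentSeries Kb) * _ = 0
      rw [zero_mul]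
    exact (mul_eq_zero.mp this).resolve_left hγ'
  have f1 : N₁ = 0 := incl_injective (e1.trans (map_zero _).symm)
  have f2 : N₂ = 0 := incl_injective (e2.trans (map_zero _).symm)
  rcases hor with h | h
  · exact h (by rw [f1, map_zero])
  · exact h (by rw [f2, map_zero])

include hq hqN hA in
/-- `1, y, …, y^q` span `F_{N q}` over `α F_N`. -/
theorem exists_comb (f : FF (N * q)) : ∃ g : Fin (q + 1) → FF N, comb N q g = f := by
  letI alg : Algebra (FF N) (FF (N * q)) := AlgebraicCurve.algebraAlong (heckeAlphaBar Kb N q)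
  letI : Module (FF N) (FF (N * q)) := alg.toModule
  have hsmul : ∀ (a : FF N) (x : FF (N * q)), a • x = heckeAlphaBar Kb N q a * x := fun a x =>
    rfl
  set v : Fin (q + 1) → FF (N * q) := fun i => yB N q ^ (i : ℕ) with hv
  have hcomb : ∀ g : Fin (q + 1) → FF N, ∑ i, g i • v i = comb N q g := fun g => rfl
  have hli : LinearIndependent (FF N) v := by
    rw [Fintype.linearIndependent_iff]
    intro g hg0
    by_contra hcon
    have hg : g ≠ 0 := by
      intro h
      apply hcon
      intro i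
      rw [h]
      rfl
    rw [hcomb g] at hg0
    exact comb_ne_zero N q hq hqN A hA g hg hg0
  have hfr : Fintype.card (Fin (q + 1)) = Module.finrank (FF N) (FF (N * q)) := by
    rw [Fintype.card_fin]
    exact (Fermat.Agent.P2.helper93.finrank_alpha N q hq hqN).symm
  have hspan := hli.span_eq_top_of_card_eq_finrank hfr
  have hf : f ∈ Submodule.span (FF N) (Set.range v) := by
    rw [hspan]
    exact Submodule.mem_top
  obtain ⟨g, hg⟩ := (Submodule.mem_span_range_iff_exists_fun (FF N)).mp hf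
  exact ⟨g, (hcomb g).symm.trans hg⟩

include hq hqN hA in
/-- **Pair normalisation** (`(V2)`): `f` and `W f` are scaled simultaneously by one constant
`γ`; both become integral and at least one of them is a unit. -/
theorem pair_scale (f : FF (N * q)) (hf : f ≠ 0) :
    ∃ (γ : Kb) (N₁ D N₂ : LaurentSeries A), γ ≠ 0 ∧ IsInt A (N * q) N₁ ∧ IsGood A N D ∧
      IsInt A (N * q) N₂ ∧
      (f : LaurentSeries Kb) * incl A D = algebraMap Kb (LaurentSeries Kb) γ * incl A N₁ ∧
      ((atkinLehner N q hq hqN f : FF (N * q)) : LaurentSeries Kb) * incl A (qExpand A q D) =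
        algebraMap Kb (LaurentSeries Kb) γ * incl A N₂ ∧
      (red A N₁ ≠ 0 ∨ red A N₂ ≠ 0) := by
  obtain ⟨g, rfl⟩ := exists_comb N q hq hqN A hA f
  have hg : g ≠ 0 := by
    rintro rfl
    apply hf
    unfold comb
    refine Finset.sum_eq_zero fun i _ => ?_
    rw [Pi.zero_apply, map_zero, zero_mul]
  exact pair_scale_comb N q hq hqN A hA g hg

/-- the residue of `δ⁻¹` vanishes when `δ ∉ A` -/
theorem residue_inv_eq_zero {δ : Kb} (hδ : δ ∉ A) (hinv : δ⁻¹ ∈ A) :
    IsLocalRing.residue A ⟨δ⁻¹, hinv⟩ = 0 := by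
  rw [IsLocalRing.residue_eq_zero_iff, IsLocalRing.mem_maximalIdeal, mem_nonunits_iff]
  intro hu
  obtain ⟨u, hu⟩ := hu
  apply hδ
  have h1 : ((u⁻¹ : (↥A)ˣ) : Kb) * δ⁻¹ = 1 := by
    have h2 : ((u⁻¹ : (↥A)ˣ) : ↥A) * (u : ↥A) = 1 := Units.inv_mul u
    have h3 := congrArg (Subtype.val) h2
    rw [hu] at h3
    exact h3
  have h0 : δ ≠ 0 := by
    rintro rfl
    rw [inv_zero, mul_zero] at h1
    exact zero_ne_one h1
  have h4 : ((u⁻¹ : (↥A)ˣ) : Kb) = δ := by
    field_simp at h1
    exact h1
  rw [← h4]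
  exact ((u⁻¹ : (↥A)ˣ) : ↥A).2

include hq hqN hA in
/-- **[T2-VAL-SCALE]** `helper29.ScaleStatement` at the bad prime, VERBATIM. -/
theorem scaleStatement_bad : ScaleStatement (N * q) A := by
  intro f hf hf0
  have hF0 : (⟨f, hf⟩ : FF (N * q)) ≠ 0 := fun h => hf0 (congrArg Subtype.val h)
  obtain ⟨γ, N₁, D, N₂, hγ, hN₁, hD, hN₂, h1, h2, hor⟩ :=
    pair_scale N q hq hqN A hA ⟨f, hf⟩ hF0
  obtain ⟨γ', N₁', D', N₂', hγ', hN₁', hD', hN₂', h1', h2', hor'⟩ :=
    pair_scale N q hq hqN A hA (⟨f, hf⟩⁻¹) (inv_ne_zero hF0)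
  have hDg : IsGood A (N * q) D := helper96.isGood_alpha N A hq hA hD
  have hDg' : IsGood A (N * q) D' := helper96.isGood_alpha N A hq hA hD'
  have hEg : IsGood A (N * q) (qExpand A q D) := helper96.isGood_beta N A hq hA hD
  have hEg' : IsGood A (N * q) (qExpand A q D') := helper96.isGood_beta N A hq hA hD'
  have h1s : f * incl A D = algebraMap Kb (LaurentSeries Kb) γ * incl A N₁ := h1
  have h1s' : f⁻¹ * incl A D' = algebraMap Kb (LaurentSeries Kb) γ' * incl A N₁' := h1'
  by_cases c1 : red A N₁ ≠ 0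
  · exact ⟨γ, N₁, D, hγ, hN₁.isGood c1, hDg, h1s.symm⟩
  by_cases c2 : red A N₁' ≠ 0
  · refine ⟨γ'⁻¹, D', N₁', inv_ne_zero hγ', hDg', hN₁'.isGood c2, ?_⟩
    have hγs : algebraMap Kb (LaurentSeries Kb) γ' ≠ 0 :=
      (map_ne_zero (algebraMap Kb (LaurentSeries Kb))).mpr hγ'
    have e : incl A D' = f * (algebraMap Kb (LaurentSeries Kb) γ' * incl A N₁') := by
      rw [← h1s', ← mul_assoc, mul_inv_cancel₀ hf0, one_mul]
    rw [e, map_inv₀]
    field_simp
  · exfalso
    rw [not_not] at c1 c2
    have r2 : red A N₂ ≠ 0 := hor.resolve_left (fun h => h c1)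
    have r2' : red A N₂' ≠ 0 := hor'.resolve_left (fun h => h c2)
    set Wf : LaurentSeries Kb :=
      ((atkinLehner N q hq hqN ⟨f, hf⟩ : FF (N * q)) : LaurentSeries Kb) with hWf
    have hWf0 : Wf ≠ 0 := by
      intro h
      have h3 : atkinLehner N q hq hqN ⟨f, hf⟩ = 0 := Subtype.ext h
      exact hF0 ((map_eq_zero_iff _ (atkinLehner N q hq hqN).injective).mp h3)
    have h2s : Wf * incl A (qExpand A q D) = algebraMap Kb (LaurentSeries Kb) γ * incl A N₂ := h2
    have h2s' : Wf⁻¹ * incl A (qExpand A q D') =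
        algebraMap Kb (LaurentSeries Kb) γ' * incl A N₂' := by
      rw [← h2', map_inv₀]
      rfl
    have e1 : incl A (D * D') =
        algebraMap Kb (LaurentSeries Kb) (γ * γ') * incl A (N₁ * N₁') := by
      have : (f * incl A D) * (f⁻¹ * incl A D') = incl A (D * D') := by
        rw [map_mul]
        field_simp
      rw [← this, h1s, h1s', map_mul, map_mul]
      ring
    have e2 : incl A (qExpand A q D * qExpand A q D') =
        algebraMap Kb (LaurentSeries Kb) (γ * γ') * incl A (N₂ * N₂') := by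
      have : (Wf * incl A (qExpand A q D)) * (Wf⁻¹ * incl A (qExpand A q D')) =
          incl A (qExpand A q D * qExpand A q D') := by
        rw [map_mul]
        field_simp
      rw [← this, h2s, h2s', map_mul, map_mul]
      ring
    by_cases hmem : γ * γ' ∈ A
    · have e3 : D * D' = constA ⟨γ * γ', hmem⟩ * (N₁ * N₁') :=
        incl_injective (by rw [e1, incl_constA_mul])
      have e4 : red A (D * D') = 0 := by
        rw [e3, red_constA_mul, map_mul, c1, zero_mul, mul_zero]
      exact (hD.mul hD').2.2 e4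
    · have hinv : (γ * γ')⁻¹ ∈ A := (A.mem_or_inv_mem (γ * γ')).resolve_left hmem
      have hδ0 : γ * γ' ≠ 0 := mul_ne_zero hγ hγ'
      have e3 : N₂ * N₂' = constA ⟨(γ * γ')⁻¹, hinv⟩ * (qExpand A q D * qExpand A q D') := by
        apply incl_injective
        rw [incl_constA_mul, e2, ← mul_assoc, ← map_mul]
        show _ = algebraMap Kb (LaurentSeries Kb) ((γ * γ')⁻¹ * (γ * γ')) * _
        rw [inv_mul_cancel₀ hδ0, map_one, one_mul]
      have e4 : red A (N₂ * N₂') = 0 := by
        rw [e3, red_constA_mul, residue_inv_eq_zero A hmem hinv, map_zero, zero_mul]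
      rw [map_mul] at e4
      rcases mul_eq_zero.mp e4 with h | h
      · exact r2 h
      · exact r2' h

end Bad

section Residue

variable {M : ℕ} [NeZero M] {A : ValuationSubring Kb}

/-- **Residue field of the Gauss valuation.**  If every nonzero function of level `M` can be
scaled, then the reduction of an integral expansion of a function of level `M` lies in the special
fibre field. -/
theorem red_mem_FFb_of_scale (hSc : ScaleStatement M A) {Y : LaurentSeries A}
    (hY : incl A Y ∈ FF M) : red A Y ∈ FFb A M := by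
  by_cases h0 : red A Y = 0
  · rw [h0]; exact zero_mem _
  have hY0 : incl A Y ≠ 0 := by
    intro h
    apply h0
    rw [incl_injective (h.trans (map_zero _).symm), map_zero]
  obtain ⟨c, Y₁, Y₂, hc, hY₁, hY₂, hrel⟩ := hSc _ hY hY0
  by_cases hmem : c ∈ A
  · have e3 : constA ⟨c, hmem⟩ * Y₁ = Y * Y₂ :=
      incl_injective (by rw [incl_constA_mul, map_mul]; exact hrel)
    have e4 := congrArg (red A) e3
    rw [red_constA_mul, map_mul] at e4
    have e5 : red A Y = algebraMap (kA A) (LaurentSeries (kA A))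
        (IsLocalRing.residue A ⟨c, hmem⟩) * red A Y₁ * (red A Y₂)⁻¹ := by
      rw [e4, mul_assoc, mul_inv_cancel₀ hY₂.2.2, mul_one]
    rw [e5]
    exact mul_mem (mul_mem ((FFb A M).algebraMap_mem _) hY₁.2.1) (inv_mem hY₂.2.1)
  · exfalso
    have hinv : c⁻¹ ∈ A := (A.mem_or_inv_mem c).resolve_left hmem
    have e3 : Y₁ = constA ⟨c⁻¹, hinv⟩ * (Y * Y₂) := by
      apply incl_injective
      rw [incl_constA_mul, map_mul, ← hrel, ← mul_assoc, ← map_mul]
      show _ = algebraMap Kb (LaurentSeries Kb) (c⁻¹ * c) * _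
      rw [inv_mul_cancel₀ hc, map_one, one_mul]
    have e4 : red A Y₁ = 0 := by
      rw [e3, red_constA_mul, residue_inv_eq_zero A hmem hinv, map_zero, zero_mul]
    exact hY₁.2.2 e4

theorem isGood_of_scale (hSc : ScaleStatement M A) {Y : LaurentSeries A}
    (hY : incl A Y ∈ FF M) (h0 : red A Y ≠ 0) : IsGood A M Y :=
  ⟨hY, red_mem_FFb_of_scale hSc hY, h0⟩

theorem isInt_of_scale (hSc : ScaleStatement M A) {Y : LaurentSeries A}
    (hY : incl A Y ∈ FF M) : IsInt A M Y :=
  ⟨hY, red_mem_FFb_of_scale hSc hY⟩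

end Residue

section BadResidue

variable (N q : ℕ) [NeZero N] [NeZero q] (hq : q.Prime) (hqN : ¬ q ∣ N)
  (A : ValuationSubring Kb) (hA : A.LiesOverPrime q)

include hq hqN hA in
/-- the reduction of an integral expansion of a function of level `N q` lies in `F̃_N`
(`= F̃_{N q}`, `helper96.FFb_mul_eq`). -/
theorem red_mem_FFb_bad {Y : LaurentSeries A} (hY : incl A Y ∈ FF (N * q)) :
    red A Y ∈ FFb A N := by
  rw [← helper96.FFb_mul_eq N A hq hA]
  exact red_mem_FFb_of_scale (scaleStatement_bad N q hq hqN A hA) hY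

include hq hqN hA in
theorem isGood_bad {Y : LaurentSeries A} (hY : incl A Y ∈ FF (N * q)) (h0 : red A Y ≠ 0) :
    IsGood A (N * q) Y :=
  isGood_of_scale (scaleStatement_bad N q hq hqN A hA) hY h0

end BadResidue


end Fermat.Agent.T2.helper58
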