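/-
TIER 2, [T2-KUM] (helper72): S34-CORE from the function-field statements.

* `t0Inert_of`  : `PairIdealStatement` + `RootEndStatement` ⟹ `T0InertStatement`.
* `unipCore_of` : `PairScaleStatement` + `T0InertStatement` (at all places over `q`, all powers
  of `p`) ⟹ `UnipCoreStatement M q p`, i.e. `(σ - 1)² = 0` on `J₀(M)[p^∞]`.
-/
import Fermat.Agent.T2.helper72_Interface

set_option autoImplicit false

noncomputable section

open HahnSeries IntermediateField AlgebraicCurve ModularCurve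
open Fermat.Agent.S18.helper19 Fermat.Agent.P2.helper29 Fermat.Agent.P2.helper93

namespace Fermat.Agent.T2.helper72

open Fermat.Agent.T2

variable {M : ℕ}

/-- `[T0-INERT]` from the ideal step and the root end. -/
theorem t0Inert_of {W : FF M ≃ₐ[Kb] FF M} {A : ValuationSubring Kb} {n : ℕ}
    (hI : PairIdealStatement M W A n) (hR : RootEndStatement M W A n) :
    T0InertStatement M W A n := by
  intro u hu hdiv h1 h2 σ hσ
  obtain ⟨G, hG, hA0⟩ := hI u hu hdiv h1 h2 σ hσ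
  have hσu : galF M σ u ≠ 0 := (map_ne_zero (galF M σ)).mpr hu
  have hσdiv : ∀ P : Place Kb (FF M), (n : ℤ) ∣ P.ord (galF M σ u) := by
    intro P
    have h := SemilinearAut.ord_smul (arithmeticGalois (modularFunctionFieldFull M) σ)
      ((arithmeticGalois (modularFunctionFieldFull M) σ)⁻¹ • P) u
    rw [smul_inv_smul] at h
    have h' : P.ord (galF M σ u) =
        ((arithmeticGalois (modularFunctionFieldFull M) σ)⁻¹ • P).ord u := h
    rw [h']
    exact hdiv _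
  have hHdiv : ∀ P : Place Kb (FF M), (n : ℤ) ∣ P.ord (G ^ n * u * (galF M σ u)⁻¹) := by
    intro P
    rw [P.ord_mul (mul_ne_zero (pow_ne_zero n hG) hu) (inv_ne_zero hσu),
      P.ord_mul (pow_ne_zero n hG) hu, P.ord_inv, ← zpow_natCast, P.ord_zpow]
    exact dvd_add (dvd_add (dvd_mul_right _ _) (hdiv P)) ((dvd_neg).mpr (hσdiv P))
  obtain ⟨c, v, hcv⟩ := hR _ hA0 hHdiv
  have hH0 : G ^ n * u * (galF M σ u)⁻¹ ≠ 0 :=
    mul_ne_zero (mul_ne_zero (pow_ne_zero n hG) hu) (inv_ne_zero hσu)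
  have hc : algebraMap Kb (FF M) c ≠ 0 := by
    intro h0
    rw [h0, zero_mul] at hcv
    exact hH0 hcv
  have hv : v ^ n ≠ 0 := by
    intro h0
    rw [h0, mul_zero] at hcv
    exact hH0 hcv
  have hc' : c ≠ 0 := by
    rintro rfl
    exact hc (map_zero _)
  refine ⟨c⁻¹, G * v⁻¹, ?_⟩
  have e1 : G ^ n * u = algebraMap Kb (FF M) c * v ^ n * galF M σ u := by
    rw [← hcv]
    field_simp
  rw [map_inv₀, mul_pow, inv_pow]
  field_simp
  rw [e1]
  ring

/-- a root function which is a constant times an `n`-th power has trivial class -/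
theorem mk_eq_zero_of_eq_const_mul_pow [NeZero M] {n : ℕ} (hn : n ≠ 0)
    {E : Divisor.degZero (K := Kb) (F := FF M)} {f : FF M}
    (H : IsRootDiv n (E : Divisor Kb (FF M)) f) {c : Kb} {w : FF M}
    (hcw : f = algebraMap Kb (FF M) c * w ^ n) : Pic0.mk E = 0 := by
  have hf := H.1
  have hc : algebraMap Kb (FF M) c ≠ 0 := by
    rintro h0
    rw [h0, zero_mul] at hcw
    exact hf hcw
  have hw : w ≠ 0 := by
    rintro rfl
    rw [zero_pow hn, mul_zero] at hcw
    exact hf hcw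
  refine kum_mk_eq_zero_of_ord hw (fun P => ?_)
  have h1 := H.2 P
  rw [hcw, P.ord_mul hc (pow_ne_zero n hw), Fermat.Agent.S24.helper75.place_ord_algebraMap,
    zero_add, ← zpow_natCast, P.ord_zpow] at h1
  exact mul_left_cancel₀ (Nat.cast_ne_zero.mpr hn) h1

/-- pure algebra: the second difference of `h` in terms of `σ u / u`. -/
theorem second_diff_eq {F : Type*} [Field F] (s : F ≃+* F) {n : ℕ} {h g κ γ v u : F}
    (hh : h ≠ 0) (hg : g ≠ 0) (hκ : κ ≠ 0)
    (hu : u = κ * s (g ^ n * h) * (g ^ n * h)⁻¹)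
    (hT : s u = γ * v ^ n * u) :
    s (s h) / (s h) ^ 2 * h = (γ * κ * (s κ)⁻¹) * (v * (s g) ^ 2 * (s (s g) * g)⁻¹) ^ n := by
  have h1 : s h ≠ 0 := (map_ne_zero s).mpr hh
  have h2 : s (s h) ≠ 0 := (map_ne_zero s).mpr h1
  have g1 : s g ≠ 0 := (map_ne_zero s).mpr hg
  have g2 : s (s g) ≠ 0 := (map_ne_zero s).mpr g1
  have k1 : s κ ≠ 0 := (map_ne_zero s).mpr hκ
  rw [hu] at hT
  simp only [map_mul, map_pow, map_inv₀] at hT
  have gn : g ^ n ≠ 0 := pow_ne_zero n hg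
  have g1n : s g ^ n ≠ 0 := pow_ne_zero n g1
  have g2n : s (s g) ^ n ≠ 0 := pow_ne_zero n g2
  rw [mul_pow, mul_pow, inv_pow, mul_pow, ← pow_mul, mul_comm 2 n, pow_mul]
  field_simp
  field_simp at hT
  linear_combination hT

/-- **[T2-KUM]** S34-CORE from pair scaling and `[T0-INERT]`. -/
theorem unipCore_of (M q p : ℕ) [NeZero M] (W : FF M ≃ₐ[Kb] FF M)
    (hWgal : ∀ (σ : Kb ≃ₐ[ℚ] Kb) (x : FF M), W (galF M σ x) = galF M σ (W x))
    (hp : p ≠ 0)
    (hS : ∀ A : ValuationSubring Kb, A.LiesOverPrime q → ∀ k : ℕ,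
      PairScaleStatement M W A (p ^ k))
    (hT : ∀ A : ValuationSubring Kb, A.LiesOverPrime q → ∀ k : ℕ,
      T0InertStatement M W A (p ^ k)) :
    UnipCoreStatement M q p := by
  rintro A hA σ hσ x ⟨k, hx⟩
  obtain ⟨D, rfl⟩ := Pic0.mk_surjective x
  obtain ⟨h, H⟩ := kum_exists_root hx
  obtain ⟨D1, e1, H1⟩ := kum_galois M σ H
  obtain ⟨D2, e2, H2⟩ := kum_galois M σ H1
  obtain ⟨hσ', hid⟩ := decK_eq_id_of_mem_inertia hσ
  set n := p ^ k with hn
  have hn0 : n ≠ 0 := pow_ne_zero k hp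
  obtain ⟨g, c, Y₁, Y₂, Z₁, Z₂, hg, hc, gY₁, gY₂, gZ₁, gZ₂, eY, eZ⟩ := hS A hA k h H.1
  have hh := H.1
  have hh' : g ^ n * h ≠ 0 := mul_ne_zero (pow_ne_zero n hg) hh
  -- the normalised function
  set κ : FF M := algebraMap Kb (FF M) (c * (σ c)⁻¹) with hκ
  have hκ0 : κ ≠ 0 := by
    rw [hκ]
    exact (map_ne_zero _).mpr (mul_ne_zero hc (inv_ne_zero ((map_ne_zero σ).mpr hc)))
  set u : FF M := κ * galF M σ (g ^ n * h) * (g ^ n * h)⁻¹ with hu
  have hσh' : galF M σ (g ^ n * h) ≠ 0 := (map_ne_zero (galF M σ)).mpr hh'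
  have hu0 : u ≠ 0 := mul_ne_zero (mul_ne_zero hκ0 hσh') (inv_ne_zero hh')
  -- divisibility of the divisor of `u`
  have hdivh : ∀ P : Place Kb (FF M), (n : ℤ) ∣ P.ord h := fun P => ⟨_, (H.2 P).symm⟩
  have hdivσh : ∀ P : Place Kb (FF M), (n : ℤ) ∣ P.ord (galF M σ h) :=
    fun P => ⟨_, (H1.2 P).symm⟩
  have hdivu : ∀ P : Place Kb (FF M), (n : ℤ) ∣ P.ord u := by
    intro P
    have hσg : galF M σ g ≠ 0 := (map_ne_zero (galF M σ)).mpr hg
    have hσh : galF M σ h ≠ 0 := H1.1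
    rw [hu, P.ord_mul (mul_ne_zero hκ0 hσh') (inv_ne_zero hh'), P.ord_mul hκ0 hσh', hκ,
      Fermat.Agent.S24.helper75.place_ord_algebraMap, zero_add, P.ord_inv, map_mul, map_pow,
      P.ord_mul (pow_ne_zero n hσg) hσh, P.ord_mul (pow_ne_zero n hg) hh, ← zpow_natCast,
      P.ord_zpow, ← zpow_natCast, P.ord_zpow]
    exact dvd_add (dvd_add (dvd_mul_right _ _) (hdivσh P))
      ((dvd_neg).mpr (dvd_add (dvd_mul_right _ _) (hdivh P)))
  -- the Galois action on good series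
  have good_act : ∀ Y : LaurentSeries A, IsGood A M Y →
      IsGood A M (actA σ hσ' Y) ∧ red A (actA σ hσ' Y) = red A Y := by
    intro Y hY
    have hr : red A (actA σ hσ' Y) = red A Y := by
      change coeffMap (IsLocalRing.residue A) (actA σ hσ' Y) = _
      rw [coeffMap_residue_actA, hid, coeffMap_id]
    refine ⟨⟨?_, ?_, ?_⟩, hr⟩
    · rw [coeffMap_subtype_actA]
      exact (galF M σ ⟨_, hY.1⟩).2
    · change red A (actA σ hσ' Y) ∈ _
      rw [hr]
      exact hY.2.1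
    · change red A (actA σ hσ' Y) ≠ 0
      rw [hr]
      exact hY.2.2
  -- `u ≡ 1` at a cusp, from a representation `c * Y₁ = f * Y₂`
  have red_one : ∀ (f : FF M) (Y₁ Y₂ : LaurentSeries A), f ≠ 0 → IsGood A M Y₁ →
      IsGood A M Y₂ →
      algebraMap Kb (LaurentSeries Kb) c * incl A Y₁ = (f : LaurentSeries Kb) * incl A Y₂ →
      IsRedOne A M ((κ * galF M σ f * f⁻¹ : FF M) : LaurentSeries Kb) := by
    intro f Y₁ Y₂ hf hY₁ hY₂ e
    obtain ⟨a1, r1⟩ := good_act Y₁ hY₁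
    obtain ⟨a2, r2⟩ := good_act Y₂ hY₂
    refine ⟨actA σ hσ' Y₁ * Y₂, actA σ hσ' Y₂ * Y₁, a1.mul hY₂, a2.mul hY₁, ?_, ?_⟩
    · have e' := congrArg (coeffMap (σ : Kb →+* Kb)) e
      rw [map_mul, map_mul] at e'
      have ec : coeffMap (σ : Kb →+* Kb) (algebraMap Kb (LaurentSeries Kb) c) =
          algebraMap Kb (LaurentSeries Kb) (σ c) := by
        have := galF_algebraMap M σ c
        have h3 := congrArg (fun z : FF M => (z : LaurentSeries Kb)) this
        simpa [coe_galF] using h3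
      rw [ec, ← coe_galF, ← coeffMap_subtype_actA σ hσ', ← coeffMap_subtype_actA σ hσ'] at e'
      have hfL : (f : LaurentSeries Kb) ≠ 0 := fun h0 => hf (Subtype.ext h0)
      have hσfL : ((galF M σ f : FF M) : LaurentSeries Kb) ≠ 0 :=
        fun h0 => (map_ne_zero (galF M σ)).mpr hf (Subtype.ext h0)
      have hcL : algebraMap Kb (LaurentSeries Kb) c ≠ 0 := (map_ne_zero _).mpr hc
      have hσcL : algebraMap Kb (LaurentSeries Kb) (σ c) ≠ 0 :=
        (map_ne_zero _).mpr ((map_ne_zero σ).mpr hc)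
      have hκL : ((κ : FF M) : LaurentSeries Kb) =
          algebraMap Kb (LaurentSeries Kb) c * (algebraMap Kb (LaurentSeries Kb) (σ c))⁻¹ := by
        rw [hκ, map_mul, map_inv₀]
        rfl
      change incl A (actA σ hσ' Y₁ * Y₂) = _ * incl A (actA σ hσ' Y₂ * Y₁)
      rw [map_mul, map_mul]
      change coeffMap A.subtype (actA σ hσ' Y₁) * incl A Y₂ =
        ((κ : FF M) : LaurentSeries Kb) * ((galF M σ f : FF M) : LaurentSeries Kb) *
          ((f : FF M) : LaurentSeries Kb)⁻¹ * (coeffMap A.subtype (actA σ hσ' Y₂) * incl A Y₁)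
      rw [hκL]
      have e1' : incl A Y₁ = (algebraMap Kb (LaurentSeries Kb) c)⁻¹ *
          ((f : LaurentSeries Kb) * incl A Y₂) := by
        rw [← e, ← mul_assoc, inv_mul_cancel₀ hcL, one_mul]
      have e2' : coeffMap A.subtype (actA σ hσ' Y₁) =
          (algebraMap Kb (LaurentSeries Kb) (σ c))⁻¹ *
            (((galF M σ f : FF M) : LaurentSeries Kb) *
              coeffMap A.subtype (actA σ hσ' Y₂)) := by
        rw [← e', ← mul_assoc, inv_mul_cancel₀ hσcL, one_mul]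
      rw [e1', e2']
      field_simp
    · change red A (actA σ hσ' Y₁ * Y₂) = red A (actA σ hσ' Y₂ * Y₁)
      rw [map_mul, map_mul, r1, r2, mul_comm]
  have hu1 : IsRedOne A M (u : LaurentSeries Kb) := red_one _ Y₁ Y₂ hh' gY₁ gY₂ eY
  have hWh' : W (g ^ n * h) ≠ 0 := (map_ne_zero W).mpr hh'
  have hu2 : IsRedOne A M ((W u : FF M) : LaurentSeries Kb) := by
    have e : W u = κ * galF M σ (W (g ^ n * h)) * (W (g ^ n * h))⁻¹ := by
      rw [hu, map_mul, map_mul, map_inv₀, hWgal, hκ, AlgEquiv.commutes]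
    rw [e]
    exact red_one _ Z₁ Z₂ hWh' gZ₁ gZ₂ eZ
  obtain ⟨c', v, hcv⟩ := hT A hA k u hu0 hdivu hu1 hu2 σ hσ
  -- conclusion
  have key := second_diff_eq (galF M σ) hh hg hκ0 hu hcv
  have E4 : IsRootDiv n ((D2 - 2 • D1 + D : Divisor.degZero (K := Kb) (F := FF M)) :
      Divisor Kb (FF M)) (galF M σ (galF M σ h) / (galF M σ h) ^ 2 * h) := by
    rw [AddSubgroup.coe_add, AddSubgroup.coe_sub, AddSubgroup.coe_nsmul]
    exact (H2.div (H1.pow 2)).mul H
  have hconst : algebraMap Kb (FF M) c' * κ * (galF M σ κ)⁻¹ =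
      algebraMap Kb (FF M) (c' * (c * (σ c)⁻¹) * (σ (c * (σ c)⁻¹))⁻¹) := by
    rw [hκ, galF_algebraMap]
    simp only [map_mul, map_inv₀]
  rw [hconst] at key
  have fin := mk_eq_zero_of_eq_const_mul_pow hn0 E4 key
  rw [e1, e2]
  exact fin

end Fermat.Agent.T2.helper72

end
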