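import Fermat.Agent.T2.helper34_WireS34
import Fermat.Agent.T2.helper20_Kum
import Fermat.Agent.T2.helper72_Kum
import Fermat.Agent.T2.helper58_ScaleBad
import Fermat.Agent.P2.helper29_Core3
import Fermat.Agent.P2.helper81_CuspReg

/-!
# Tier 2, [T2-ASM-34] (helper34): S34 from the open boxes of the tier-2 chain

P2-CORE is unconditional at the good levels (`p2Core_goodLevel`), hence so are the geometric Tate
data (`tateGeom_goodLevel`).  The frozen statement S34 (`helper34.S34Statement`) follows from

* `UnipCoreBadStatement` : `UnipCoreStatement (N' * q) q p` for `q ∤ N'`, `N'` a good level,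
  `p ≠ q` primes (`s34Statement_of_unipCore`), or from
* `T0InertBadStatement` (`s34Statement_of_t0Inert`, via `helper20.unipCore_of_scale` and
  `helper58.scaleStatement_bad`), or from
* `PairIdealBadStatement` + `RootEndBadStatement` (`s34Statement_of_boxes`, via
  `helper72.t0Inert_of`).
-/

set_option autoImplicit false
set_option linter.unusedSectionVars false
set_option linter.style.haveILetI false

namespace Fermat.Agent.T2.helper34

open Fermat.Agent.P3 Fermat.Agent.P3.helper1 ModularCurve
open Fermat.Agent.S18.helper19 Fermat.Agent.P2.helper29 Fermat.Agent.T2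

/-! ## The unconditional inputs -/

/-- **P2-CORE** at the good levels, unconditional. -/
theorem p2Core_goodLevel (M p : ℕ) [NeZero M] (hM : GoodLevel M) (hp : p.Prime) :
    P2CoreStatement M p :=
  Fermat.Agent.P2.helper29.p2Core_of_cuspReg M p hM hp
    (fun A hA => Fermat.Agent.P2.helper81.cuspRegStatement_of_goodPair M A hA)

/-- The geometric Tate data at the good levels, unconditional. -/
theorem tateGeom_goodLevel : TateGeomAtGoodLevels :=
  tateGeomAtGoodLevels_of_p2core fun M p _ hM hp => p2Core_goodLevel M p hM hp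

/-- S34 from the torsion core alone. -/
theorem s34Statement_of_core' (hcore : S34CoreStatement) : S34Statement :=
  s34Statement_of_core hcore tateGeom_goodLevel

/-! ## The boxes at the bad prime -/

/-- **S34-CORE** in helper72's / helper20's shape: the level is written as `N' * q`. -/
def UnipCoreBadStatement : Prop :=
  ∀ (N' q p : ℕ) [NeZero N'] [NeZero q], q.Prime → ¬ q ∣ N' → GoodLevel N' → p.Prime → q ≠ p →
    UnipCoreStatement (N' * q) q p

/-- **[T2-VAL-SCALE]** the scaling statement at the bad prime. -/
def ScaleBadStatement : Prop :=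
  ∀ (N' q : ℕ) [NeZero N'] [NeZero q], q.Prime → ¬ q ∣ N' → GoodLevel N' →
    ∀ A : ValuationSubring Kb, A.LiesOverPrime q → ScaleStatement (N' * q) A

/-- **[T0-INERT]** at the bad prime, for the Atkin-Lehner automorphism of helper36. -/
def T0InertBadStatement : Prop :=
  ∀ (N' q p : ℕ) [NeZero N'] [NeZero q] (hq : q.Prime) (hqN : ¬ q ∣ N'), GoodLevel N' →
    p.Prime → q ≠ p → ∀ A : ValuationSubring Kb, A.LiesOverPrime q → ∀ k : ℕ,
      T0InertStatement (N' * q) (helper36.atkinLehner N' q hq hqN) A (p ^ k)

/-- **[T2-IDEAL-INST]** at the bad prime. -/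
def PairIdealBadStatement : Prop :=
  ∀ (N' q p : ℕ) [NeZero N'] [NeZero q] (hq : q.Prime) (hqN : ¬ q ∣ N'), GoodLevel N' →
    p.Prime → q ≠ p → ∀ A : ValuationSubring Kb, A.LiesOverPrime q → ∀ k : ℕ,
      PairIdealStatement (N' * q) (helper36.atkinLehner N' q hq hqN) A (p ^ k)

/-- **[ROOT-END]** at the bad prime. -/
def RootEndBadStatement : Prop :=
  ∀ (N' q p : ℕ) [NeZero N'] [NeZero q] (hq : q.Prime) (hqN : ¬ q ∣ N'), GoodLevel N' →
    p.Prime → q ≠ p → ∀ A : ValuationSubring Kb, A.LiesOverPrime q → ∀ k : ℕ,
      RootEndStatement (N' * q) (helper36.atkinLehner N' q hq hqN) A (p ^ k)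

/-- [T0-INERT] from the ideal step and the root end. -/
theorem t0InertBad_of (hPI : PairIdealBadStatement) (hRE : RootEndBadStatement) :
    T0InertBadStatement :=
  fun N' q p _ _ hq hqN hN' hp hqp A hA k =>
    Fermat.Agent.T2.helper72.t0Inert_of (hPI N' q p hq hqN hN' hp hqp A hA k)
      (hRE N' q p hq hqN hN' hp hqp A hA k)

/-- **[T2-KUM]** the core from the scaling statement and [T0-INERT]. -/
theorem unipCoreBad_of (hSC : ScaleBadStatement) (hT : T0InertBadStatement) :
    UnipCoreBadStatement :=
  fun N' q p _ _ hq hqN hN' hp hqp =>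
    Fermat.Agent.T2.helper20.unipCore_of_scale N' q hq hqN p hp.ne_zero
      (fun A hA => hSC N' q hq hqN hN' A hA)
      (fun A hA k => hT N' q p hq hqN hN' hp hqp A hA k)

/-- **[T2-VAL-SCALE]** (helper58), unconditional. -/
theorem scaleBad : ScaleBadStatement :=
  fun N' q _ _ hq hqN _ A hA => Fermat.Agent.T2.helper58.scaleStatement_bad N' q hq hqN A hA

/-- **[T2-KUM]** the core from [T0-INERT] alone. -/
theorem unipCoreBad_of_t0Inert (hT : T0InertBadStatement) : UnipCoreBadStatement :=
  unipCoreBad_of scaleBad hT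

/-! ## The level cast -/

/-- The torsion core in the shape of the wiring from the core at the levels `N' * q`. -/
theorem s34Core_of_unipCoreBad (h : UnipCoreBadStatement) : S34CoreStatement := by
  intro M q p _ hq hp hqp hqM hq2M hM'
  obtain ⟨N', rfl⟩ : ∃ N' : ℕ, M = N' * q := ⟨M / q, (Nat.div_mul_cancel hqM).symm⟩
  have hN'0 : N' ≠ 0 := by
    rintro rfl
    exact NeZero.ne (0 * q) (zero_mul q)
  haveI : NeZero N' := ⟨hN'0⟩
  haveI : NeZero q := ⟨hq.ne_zero⟩
  have hqN' : ¬ q ∣ N' := by
    intro hd
    apply hq2M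
    rw [pow_two]
    exact Nat.mul_dvd_mul_right hd q
  rw [Nat.mul_div_cancel N' hq.pos] at hM'
  exact h N' q p hq hqN' hM' hp hqp

/-! ## S34 -/

/-- **S34** from the core at the levels `N' * q`. -/
theorem s34Statement_of_unipCore (h : UnipCoreBadStatement) : S34Statement :=
  s34Statement_of_core' (s34Core_of_unipCoreBad h)

/-- **S34** from [T0-INERT] at the bad prime. -/
theorem s34Statement_of_t0Inert (hT : T0InertBadStatement) : S34Statement :=
  s34Statement_of_unipCore (unipCoreBad_of_t0Inert hT)

/-- **S34** from the two open boxes: the ideal step and the root end. -/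
theorem s34Statement_of_boxes (hPI : PairIdealBadStatement) (hRE : RootEndBadStatement) :
    S34Statement :=
  s34Statement_of_t0Inert (t0InertBad_of hPI hRE)

end Fermat.Agent.T2.helper34
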