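import Fermat.Prelude.Def_GaloisRep_LocalConditions
import Fermat.Agent.P3.helper32_P3Final
import Fermat.Agent.P3.helper67_TateGeom
import Fermat.Agent.P3.helper16_AnUncond
import Fermat.Agent.LEF.helper99_DescUncond
import Fermat.Agent.P3.helper48_FinC

/-!
# Tier 2, [T2-WIRE-34] (helper34): S34 from the torsion core + the P3 Tate machinery

`S34CoreStatement` is the geometric core of S34 in torsion form (item 4 of the tier-2 route):
for `q ‖ M`, `M / q` a good level and `p ≠ q`, every `s` in an inertia group at `q` satisfies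
`(s - 1)² = 0` on the `p`-power torsion of `J₀(M)`.

* `charpoly_eq_of_trace_eq_two` : on a free module of rank two over a ring in which `2` is a
  non-zero-divisor, `tr f = 2 = tr (f * f)` forces `charpoly f = (X - 1) ^ 2`;
* `univTrace_eq_two` : on a geometric Tate datum of level `M`, the universal trace of an element
  `s` with `(s - 1)² = 0` on the `p`-power torsion and `d s = 1` is `2`;
* `unipotent_aux` : the characteristic polynomial of `ρ(σ)`, `σ` in an inertia group at `q`, for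
  every Hecke-Galois datum of level `N ∣ M`, from the core at level `M`;
* `s34Statement_of_core` : the frozen statement S34 (in `Prop` form `S34Statement`) from
  `S34CoreStatement` and the geometric Tate data at the levels `4N`, `9N`;
* `s34Statement_of_core_of_p2core` : the same from `S34CoreStatement` and P2-CORE at good levels.
-/

set_option autoImplicit false
set_option linter.unusedSectionVars false
set_option linter.style.haveILetI false

open Polynomial

namespace Fermat.Agent.T2.helper34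

open Fermat.Agent.P3 Fermat.Agent.P3.helper1 Fermat.Agent.P3.helper64 Fermat.Agent.P3.helper98
  ModularCurve

/-! ## The core statement -/

/-- **S34-CORE at `(M, q, p)`**: every element of an inertia group at `q` satisfies
`(s - 1)² = 0` on the `p`-power torsion of `J₀(M)`. -/
def S34CoreAt (M q p : ℕ) [NeZero M] : Prop :=
  ∀ A : ValuationSubring Qbar, A.LiesOverPrime q → ∀ s ∈ A.inertiaSubgroupIn ℚ,
    ∀ x : JZero M, IsPTors p x → s • s • x - 2 • (s • x) + x = 0

/-- **S34-CORE**: `S34CoreAt M q p` for all primes `q ≠ p` with `q ‖ M` and `M / q` a good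
level. -/
def S34CoreStatement : Prop :=
  ∀ (M q p : ℕ) [NeZero M], q.Prime → p.Prime → q ≠ p → q ∣ M → ¬ q ^ 2 ∣ M →
    GoodLevel (M / q) → S34CoreAt M q p

/-- The frozen statement S34, as a `Prop`. -/
def S34Statement : Prop :=
  ∀ {𝒪 : Type} [CommRing 𝒪] [IsDomain 𝒪] [IsDiscreteValuationRing 𝒪]
    [IsAdicComplete (IsLocalRing.maximalIdeal 𝒪) 𝒪] [Finite (IsLocalRing.ResidueField 𝒪)]
    [CharZero 𝒪]
    {p : ℕ} (_hp : p.Prime) (_hp𝒪 : (p : 𝒪) ∈ IsLocalRing.maximalIdeal 𝒪)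
    {N : ℕ} [NeZero N] {S : Finset ℕ} (_hpS : p ∈ S)
    (_hNS : ∀ q : ℕ, q.Prime → q ∣ N → q ∈ S)
    {θ : CuspForm.heckeAlgebra N 2 (↑S : Set ℕ) →+* IsLocalRing.ResidueField 𝒪}
    {T : Type} [CommRing T] [IsLocalRing T] [IsNoetherianRing T]
    [IsAdicComplete (IsLocalRing.maximalIdeal T) T] [Algebra 𝒪 T] [IsLocalHom (algebraMap 𝒪 T)]
    [Module.Finite 𝒪 T] [Module.Free 𝒪 T]
    (H : CuspForm.HeckeGaloisRepDatum N (↑S : Set ℕ) 𝒪 θ T)
    (q : ℕ) (_hq : q.Prime) (_hqp : q ≠ p) (_hqN : q ∣ N) (_hq2 : ¬ q ^ 2 ∣ N),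
    H.ρ.IsUnipotentOnInertiaAt q

/-! ## Linear algebra -/

section LinAlg

variable {R : Type*} [CommRing R] [Nontrivial R] {V : Type*} [AddCommGroup V] [Module R V]
  [Module.Free R V] [Module.Finite R V]

/-- On a free module of rank two, an endomorphism `f` with `tr f = 2 = tr (f * f)` has
characteristic polynomial `(X - 1) ^ 2`, as soon as `2` is a non-zero-divisor. -/
theorem charpoly_eq_of_trace_eq_two (hV : Module.finrank R V = 2) (f : Module.End R V)
    (h2 : ∀ x : R, 2 * x = 0 → x = 0)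
    (htr : LinearMap.trace R V f = 2) (htr2 : LinearMap.trace R V (f * f) = 2) :
    LinearMap.charpoly f = (X - 1) ^ 2 := by
  classical
  let b : Module.Basis (Fin 2) R V := Module.finBasisOfFinrankEq R V hV
  have e1 : LinearMap.trace R V f = (LinearMap.toMatrix b b f).trace :=
    LinearMap.trace_eq_matrix_trace R b f
  have e2 : LinearMap.trace R V (f * f) =
      (LinearMap.toMatrix b b f * LinearMap.toMatrix b b f).trace := by
    rw [LinearMap.trace_eq_matrix_trace R b (f * f), LinearMap.toMatrix_mul]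
  set A : Matrix (Fin 2) (Fin 2) R := LinearMap.toMatrix b b f with hA
  rw [htr] at e1
  rw [htr2] at e2
  rw [Matrix.trace_fin_two] at e1 e2
  simp only [Matrix.mul_apply, Fin.sum_univ_two] at e2
  have hdet : A.det = 1 := by
    rw [Matrix.det_fin_two]
    have h3 : 2 * (A 0 0 * A 1 1 - A 0 1 * A 1 0 - 1) = 0 := by
      have h4 : 2 * (A 0 0 * A 1 1 - A 0 1 * A 1 0 - 1) =
          (A 0 0 + A 1 1) * (A 0 0 + A 1 1) -
            (A 0 0 * A 0 0 + A 0 1 * A 1 0 + (A 1 0 * A 0 1 + A 1 1 * A 1 1)) - 2 := by ring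
      rw [h4, ← e1, ← e2]
      ring
    exact sub_eq_zero.mp (h2 _ h3)
  rw [← LinearMap.charpoly_toMatrix f b, ← hA, Matrix.charpoly_fin_two, hdet,
    Matrix.trace_fin_two, ← e1]
  simp only [map_one, map_ofNat]
  ring

/-- In a free module over a domain of characteristic zero, `2` is a non-zero-divisor. -/
theorem eq_zero_of_two_mul_eq_zero (𝒪 : Type*) [CommRing 𝒪] [IsDomain 𝒪] [CharZero 𝒪]
    {T : Type*} [CommRing T] [Algebra 𝒪 T] [Module.Free 𝒪 T] (x : T) (h : 2 * x = 0) :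
    x = 0 := by
  have h1 : (2 : 𝒪) • x = 0 := by
    rw [Algebra.smul_def, map_ofNat]
    exact h
  have h2 : (2 : 𝒪) ≠ 0 := two_ne_zero
  rcases smul_eq_zero.mp h1 with h3 | h3
  · exact absurd h3 h2
  · exact h3

end LinAlg

/-! ## The universal trace on inertia -/

section Core

variable {p : ℕ} [Fact p.Prime] {N : ℕ} [NeZero N] {S : Finset ℕ} {M : ℕ} [NeZero M]
  {hNM : N ∣ M} (D : helper67.TateGeom p N S M hNM) (d : GQ →* ℤ_[p]ˣ)
  (t : GQ → D.𝔸)
  (ht : ∀ (s : GQ) (v : D.Λ), D.r s (D.r s v) - t s • D.r s v + (d s : ℤ_[p]) • v = 0)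

include ht in
/-- If `(s - 1)² = 0` on the `p`-power torsion of `J₀(M)` and `d s = 1`, then the universal
trace of `s` is `2`. -/
theorem univTrace_eq_two (s : GQ) (hds : d s = 1)
    (hs : ∀ x : JZero M, IsPTors p x → s • s • x - 2 • (s • x) + x = 0) : t s = 2 := by
  have hu : (D.r s - 1) * (D.r s - 1) = 0 := helper67.TateGeom.sq_eq_zero_of_torsion D s hs
  have h1 : ∀ v : D.Λ, D.r s (D.r s v) - t s • D.r s v + v = 0 := by
    intro v
    have h := ht s v
    rw [hds, Units.val_one, one_smul] at h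
    exact h
  have h2 : ∀ v : D.Λ, D.r s (D.r s v) - (2 : D.𝔸) • D.r s v + v = 0 := by
    intro v
    have h := congrArg (fun f : Module.End ℤ_[p] D.Λ => f v) hu
    simp only [Module.End.mul_apply, LinearMap.sub_apply, Module.End.one_apply, map_sub,
      LinearMap.zero_apply] at h
    rw [← h, two_smul]
    abel
  have h3 : ∀ w : D.Λ, (t s - 2) • w = 0 := by
    intro w
    have hw : w = D.r s (D.r s⁻¹ w) := (r_inv_apply D.toTateDatum s w).symm
    rw [hw, sub_smul]
    have e1 := h1 (D.r s⁻¹ w)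
    have e2 := h2 (D.r s⁻¹ w)
    have e3 : t s • D.r s (D.r s⁻¹ w) - (2 : D.𝔸) • D.r s (D.r s⁻¹ w) =
        (D.r s (D.r s (D.r s⁻¹ w)) - (2 : D.𝔸) • D.r s (D.r s⁻¹ w) + D.r s⁻¹ w) -
          (D.r s (D.r s (D.r s⁻¹ w)) - t s • D.r s (D.r s⁻¹ w) + D.r s⁻¹ w) := by abel
    rw [e3, e1, e2, sub_self]
  exact sub_eq_zero.mp (D.smul_faithful (t s - 2) h3)

end Core

/-! ## The characteristic polynomial on inertia -/

section Wrapper

/-- **[T2-WIRE-34] at one auxiliary level**: if a geometric Tate datum of level `M` (`N ∣ M`)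
exists and the core holds at `(M, q, p)`, then for every Hecke-Galois datum of level `N` away
from `S` the characteristic polynomial of `ρ(σ)` is `(X - 1) ^ 2` for `σ` in an inertia group
at `q ≠ p`. -/
theorem unipotent_aux (hPU : PseudoUnivStatement) (hCheb : ChebStatement)
    (hCyc : CycloStatement) (hZp : ZpAlgebraStatement)
    (p : ℕ) [Fact p.Prime] (N : ℕ) [NeZero N] (S : Finset ℕ) (M : ℕ) [NeZero M] (hNM : N ∣ M)
    (hTate : Nonempty (helper67.TateGeom p N S M hNM))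
    (𝒪 : Type) [CommRing 𝒪] [IsDomain 𝒪] [IsDiscreteValuationRing 𝒪]
    [IsAdicComplete (IsLocalRing.maximalIdeal 𝒪) 𝒪] [CharZero 𝒪]
    (hp𝒪 : (p : 𝒪) ∈ IsLocalRing.maximalIdeal 𝒪)
    (θ : CuspForm.heckeAlgebra N 2 (↑S : Set ℕ) →+* IsLocalRing.ResidueField 𝒪)
    (T : Type) [CommRing T] [IsLocalRing T] [IsNoetherianRing T]
    [IsAdicComplete (IsLocalRing.maximalIdeal T) T] [Algebra 𝒪 T]
    [IsLocalHom (algebraMap 𝒪 T)] [Module.Finite 𝒪 T] [Module.Free 𝒪 T]
    (H : CuspForm.HeckeGaloisRepDatum N (↑S : Set ℕ) 𝒪 θ T)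
    (q : ℕ) (hq : q.Prime) (hqp : q ≠ p) (hcore : S34CoreAt M q p)
    (A : ValuationSubring Qbar) (hA : A.LiesOverPrime q) (σ : GQ)
    (hσ : σ ∈ A.inertiaSubgroupIn ℚ) :
    LinearMap.charpoly (H.ρ.ρ σ) = (X - 1) ^ 2 := by
  obtain ⟨DG⟩ := hTate
  set D : TateDatum p N S M hNM := DG.toTateDatum with hD
  -- `p` lies in the maximal ideal of `T`
  have hpT : (p : T) ∈ IsLocalRing.maximalIdeal T := by
    rw [IsLocalRing.mem_maximalIdeal, mem_nonunits_iff]
    intro hu
    have h1 : IsUnit (algebraMap 𝒪 T (p : 𝒪)) := by rw [map_natCast]; exact hu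
    have h2 : IsUnit (p : 𝒪) := IsUnit.of_map (algebraMap 𝒪 T) _ h1
    exact (IsLocalRing.mem_maximalIdeal _).mp hp𝒪 h2
  -- the cyclotomic character
  have hpZ : (p : ℤ_[p]) ∈ IsLocalRing.maximalIdeal ℤ_[p] := by
    rw [PadicInt.maximalIdeal_eq_span_p]
    exact Ideal.mem_span_singleton_self _
  obtain ⟨d, hd, hdc, hdloc, -⟩ := hCyc p ℤ_[p] hpZ
  -- the universal trace
  obtain ⟨t, ht⟩ := hPU p N S M hNM D d hd hdc
  -- `T` is a `ℤ_p`-algebra
  obtain ⟨ι⟩ := hZp p T hpT
  letI : Algebra ℤ_[p] T := ι.toAlgebra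
  -- the map `𝔸 → T`
  let f : MvPolynomial (GoodPrime p M S) ℤ_[p] →ₐ[ℤ_[p]] D.𝔸 := MvPolynomial.aeval D.τ
  let g : MvPolynomial (GoodPrime p M S) ℤ_[p] →ₐ[ℤ_[p]] T :=
    MvPolynomial.aeval (fun ℓ => H.π (goodT hNM ℓ))
  have hsurj : Function.Surjective f := by
    rw [← AlgHom.range_eq_top]
    change (MvPolynomial.aeval D.τ).range = ⊤
    rw [← Algebra.adjoin_range_eq_range_aeval]
    exact D.adjoin_τ
  have hker : ∀ P ∈ RingHom.ker (f : MvPolynomial (GoodPrime p M S) ℤ_[p] →+* D.𝔸), g P = 0 := by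
    intro P hP
    exact D.faithful T H.π P hP
  let Θ : D.𝔸 →ₐ[ℤ_[p]] T :=
    (Ideal.Quotient.liftₐ (RingHom.ker (f : MvPolynomial (GoodPrime p M S) ℤ_[p] →+* D.𝔸)) g
      hker).comp (Ideal.quotientKerAlgEquivOfSurjective hsurj).symm.toAlgHom
  have hΘ : ∀ ℓ : GoodPrime p M S, Θ (D.τ ℓ) = H.π (goodT hNM ℓ) := by
    intro ℓ
    have h1 : (Ideal.quotientKerAlgEquivOfSurjective hsurj).symm (D.τ ℓ) =
        Ideal.Quotient.mk _ (MvPolynomial.X ℓ) := by
      rw [AlgEquiv.symm_apply_eq]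
      change D.τ ℓ = f (MvPolynomial.X ℓ)
      exact (MvPolynomial.aeval_X D.τ ℓ).symm
    change Ideal.Quotient.liftₐ _ g hker ((Ideal.quotientKerAlgEquivOfSurjective hsurj).symm
      (D.τ ℓ)) = _
    rw [h1]
    change g (MvPolynomial.X ℓ) = _
    exact MvPolynomial.aeval_X _ ℓ
  -- the trace formula
  have htr : ∀ s : GQ, LinearMap.trace T H.ρ.V (H.ρ.ρ s) = Θ (t s) := by
    refine trace_eq_of_tateDatum D d t ht hCheb hd hdc hpT Θ H.ρ ?_
    intro ℓ A' hA' φ hφ
    rw [hΘ]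
    exact H.charpoly_frob ℓ.1 ℓ.2.1 (fun h => ℓ.2.2.1 (Dvd.dvd.mul_right (h.trans hNM) p))
      (fun h => ℓ.2.2.2 (Finset.mem_coe.mp h)) A' hA' φ hφ
  -- the universal trace is `2` on the inertia group
  have htwo : ∀ τ ∈ A.inertiaSubgroupIn ℚ, t τ = 2 := by
    intro τ hτ
    exact univTrace_eq_two DG d t ht τ ((hdloc q hq hqp A hA).1 τ hτ) (hcore A hA τ hτ)
  have e1 : LinearMap.trace T H.ρ.V (H.ρ.ρ σ) = 2 := by
    rw [htr, htwo σ hσ, map_ofNat]
  have e2 : LinearMap.trace T H.ρ.V (H.ρ.ρ σ * H.ρ.ρ σ) = 2 := by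
    rw [← map_mul, htr, htwo (σ * σ) (mul_mem hσ hσ), map_ofNat]
  exact charpoly_eq_of_trace_eq_two H.ρ.finrank_eq (H.ρ.ρ σ)
    (fun x hx => eq_zero_of_two_mul_eq_zero 𝒪 x hx) e1 e2

end Wrapper

/-! ## The final wiring -/

section Final

/-- The geometric Tate data at all good levels. -/
def TateGeomAtGoodLevels : Prop :=
  ∀ (p : ℕ) [Fact p.Prime] (N : ℕ) [NeZero N] (S : Finset ℕ) (M : ℕ) [NeZero M] (hNM : N ∣ M),
    p ∈ S → GoodLevel M → Nonempty (helper67.TateGeom p N S M hNM)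

/-- The geometric Tate data at the good levels from P2-CORE at the good levels (all the other
inputs of [TATE-GEOM] are unconditional). -/
theorem tateGeomAtGoodLevels_of_p2core
    (hP2 : ∀ (M p : ℕ) [NeZero M], GoodLevel M → p.Prime → P2CoreStatement M p) :
    TateGeomAtGoodLevels := by
  intro p _ N _ S M _ hNM hpS hM
  have hp : p.Prime := Fact.out
  exact helper67.tateGeom_of p N S M hNM hpS (hP2 M p hM hp)
    (Fermat.Agent.P3.helper10.galHeckeComm M) (Fermat.Agent.P3.helper85.torsionContinuity M)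
    (Fermat.Agent.P3.helper32.finiteTorsion_of_desc M p
      (Fermat.Agent.LEF.helper99.descStatement_uncond M)
      (Fermat.Agent.P3.helper48.finiteTorsionC M p hp.pos))
    (Fermat.Agent.P3.helper16.kappaStatement M p N S hNM hp.pos)

/-- The auxiliary level of S34: `9 N` for `q = 2`, `4 N` for odd `q`. -/
theorem exists_auxLevel {N q : ℕ} [NeZero N] (hq : q.Prime) (hqN : q ∣ N) (hq2 : ¬ q ^ 2 ∣ N) :
    ∃ M : ℕ, M ≠ 0 ∧ N ∣ M ∧ GoodLevel M ∧ q ∣ M ∧ ¬ q ^ 2 ∣ M ∧ GoodLevel (M / q) := by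
  by_cases h2 : q = 2
  · refine ⟨9 * N, Nat.mul_ne_zero (by norm_num) (NeZero.ne N), Dvd.intro_left 9 rfl,
      Or.inr (Dvd.intro N rfl), Dvd.dvd.mul_left hqN 9, ?_, ?_⟩
    · intro h
      apply hq2
      rw [h2] at h ⊢
      have hc : Nat.Coprime (2 ^ 2) 9 := by norm_num
      exact hc.dvd_of_dvd_mul_left h
    · refine Or.inr ?_
      rw [Nat.mul_div_assoc 9 hqN]
      exact Dvd.intro _ rfl
  · refine ⟨4 * N, Nat.mul_ne_zero (by norm_num) (NeZero.ne N), Dvd.intro_left 4 rfl,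
      Or.inl (Dvd.intro N rfl), Dvd.dvd.mul_left hqN 4, ?_, ?_⟩
    · intro h
      apply hq2
      have hc0 : Nat.Coprime q 2 := (Nat.coprime_primes hq Nat.prime_two).mpr h2
      have hc : Nat.Coprime (q ^ 2) 4 := by
        have : Nat.Coprime (q ^ 2) (2 ^ 2) := Nat.Coprime.pow 2 2 hc0
        norm_num at this ⊢
        exact this
      exact hc.dvd_of_dvd_mul_left h
    · refine Or.inl ?_
      rw [Nat.mul_div_assoc 4 hqN]
      exact Dvd.intro _ rfl

/-- **[T2-WIRE-34]** the frozen statement S34 from the torsion core and the geometric Tate data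
at the good levels. -/
theorem s34Statement_of_core (hcore : S34CoreStatement) (hTate : TateGeomAtGoodLevels) :
    S34Statement := by
  intro 𝒪 _ _ _ _ _ _ p hp hp𝒪 N _ S hpS _ θ T _ _ _ _ _ _ _ _ H q hq hqp hqN hq2 A hA σ hσ
  haveI : Fact p.Prime := ⟨hp⟩
  obtain ⟨M, hM0, hNM, hM, hqM, hq2M, hM'⟩ := exists_auxLevel hq hqN hq2
  haveI : NeZero M := ⟨hM0⟩
  exact unipotent_aux (Fermat.Agent.P3.helper98.pseudoUniv Fermat.Agent.P3.helper91.cheb)
    Fermat.Agent.P3.helper91.cheb Fermat.Agent.P3.helper26.cycloStatement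
    Fermat.Agent.P3.helper24.zpAlgebra p N S M hNM (hTate p N S M hNM hpS hM) 𝒪 hp𝒪 θ T H q hq
    hqp (hcore M q p hq hp hqp hqM hq2M hM') A hA σ hσ

/-- **[T2-WIRE-34]** the frozen statement S34 from the torsion core and P2-CORE at the good
levels. -/
theorem s34Statement_of_core_of_p2core (hcore : S34CoreStatement)
    (hP2 : ∀ (M p : ℕ) [NeZero M], GoodLevel M → p.Prime → P2CoreStatement M p) :
    S34Statement :=
  s34Statement_of_core hcore (tateGeomAtGoodLevels_of_p2core hP2)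

end Final

end Fermat.Agent.T2.helper34
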