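import Mathlib
import Fermat.Agent.P2.helper22_IdealStep
import Fermat.Agent.P2.helper22_LatCountFam
import Fermat.Agent.P2.helper29_Infty

/-!
# Tier 2 (helper22): vocabulary and input statements of the tier-2 ideal step

Setting: a level `M` (in the application `M = N * q`, `q` a prime not dividing `N`),
`A : ValuationSubring Kb` (lying over `q`), `W : FF M ≃ₐ[Kb] FF M` an involution of the function
field (the Atkin-Lehner automorphism).  Every function `f ∈ F = FF M` has the PAIR of expansions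
`(f, W f)`.  `w₁` is the Gauss valuation of the first expansion and `w₂ = w₁ ∘ W`; both are only
used in the quotient form of P2 (`helper29.IsWInt`, `helper29.IsRedOne`, `helper19.IsGood`).

* `IsInfty2 W P` : `P` is the second cusp `∞₂` (its order is the `q`-order of `W f`);
* `IsReg2 W f`   : `f` is regular off `{∞, ∞₂}`;
* `IsRep A W f Y₁ Y₂` : `(Y₁, Y₂)` is the (integral) pair of expansions of `f`;
* `Bt A M` : the functions of the special fibre regular off infinity (a subalgebra of `k((q))`);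
* `Rt A W` : the ring of pairs of reductions of the regular functions with integral pair;
* `Integrality2Statement`, `RegRed2Statement`, `Sat2Statement` : the input statements of the
  tier-2 ideal step (to be proved by the owners of [T2-VAL] and [T2-SAT]);
* `IdealStep2Statement` : the output of the tier-2 ideal step.
-/

set_option autoImplicit false
set_option linter.unusedSectionVars false

noncomputable section

namespace Fermat.Agent.T2.helper22

open HahnSeries IntermediateField AlgebraicCurve ModularCurve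
open Fermat.Agent.S18.helper19 Fermat.Agent.P2.helper29 Fermat.Agent.P2.helper22
open Fermat.Agent.S24

variable {M : ℕ} [NeZero M]

/-! ### Vocabulary -/

/-- the second cusp `∞₂ = W⁻¹ ∞`: its order function is the `q`-order of `W f`. -/
def IsInfty2 (W : FF M ≃ₐ[Kb] FF M) (P : Place Kb (FF M)) : Prop :=
  ∀ f : FF M, f ≠ 0 → P.ord f = ((W f : FF M) : LaurentSeries Kb).order

/-- `f` is regular at every place different from the two cusps `∞`, `∞₂`. -/
def IsReg2 (W : FF M ≃ₐ[Kb] FF M) (f : FF M) : Prop :=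
  ∀ P : Place Kb (FF M), ¬ IsInfty P → ¬ IsInfty2 W P → 0 ≤ P.ord f

/-- the pair `(Y₁, Y₂)` of integral series is the pair of expansions `(f, W f)` of `f`. -/
def IsRep (A : ValuationSubring Kb) (W : FF M ≃ₐ[Kb] FF M) (f : FF M)
    (Y₁ Y₂ : LaurentSeries A) : Prop :=
  incl A Y₁ = (f : LaurentSeries Kb) ∧ incl A Y₂ = ((W f : FF M) : LaurentSeries Kb)

/-! ### Basic lemmas -/

section Basic

variable (W : FF M ≃ₐ[Kb] FF M)

theorem coe_ne_zero' {f : FF M} (hf : f ≠ 0) : (f : LaurentSeries Kb) ≠ 0 :=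
  fun h => hf (Subtype.ext h)

theorem ord_map (P : Place Kb (FF M)) (f : FF M) : P.ord (W f) = (W.symm • P).ord f := by
  have h1 := Place.ord_smul W.symm P (W f)
  rw [AlgEquiv.symm_apply_apply] at h1
  exact h1.symm

/-- the second cusp exists -/
theorem isInfty2_symm_smul {P : Place Kb (FF M)} (hP : IsInfty P) :
    IsInfty2 W (W.symm • P) := by
  intro f hf
  rw [← ord_map]
  exact hP (W f) (by simpa using hf)

/-- the second cusp is unique -/
theorem isInfty2_iff_eq {P2 : Place Kb (FF M)} (h : IsInfty2 W P2) (P : Place Kb (FF M)) :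
    IsInfty2 W P ↔ P = P2 := by
  constructor
  · intro hP
    apply Place.ext
    ext f
    rw [helper82.mem_iff_ord_nonneg, helper82.mem_iff_ord_nonneg]
    rcases eq_or_ne f 0 with rfl | hf
    · simp
    · rw [hP f hf, h f hf]
  · rintro rfl
    exact h

variable {W}

theorem isInfty2_of_isInfty_smul (hWW : ∀ f, W (W f) = f) {P : Place Kb (FF M)}
    (h : IsInfty (W.symm • P)) : IsInfty2 W P := by
  intro f hf
  have h1 := ord_map W P (W f)
  rw [hWW] at h1
  rw [h1]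
  exact h (W f) (by simpa using hf)

theorem isInfty_of_isInfty2_smul (hWW : ∀ f, W (W f) = f) {P : Place Kb (FF M)}
    (h : IsInfty2 W (W.symm • P)) : IsInfty P := by
  intro f hf
  have h1 := ord_map W P (W f)
  rw [hWW] at h1
  rw [h1, h (W f) (by simpa using hf), hWW]

theorem IsReg2.map (hWW : ∀ f, W (W f) = f) {f : FF M} (hf : IsReg2 W f) : IsReg2 W (W f) := by
  intro P hP hP2
  rw [ord_map]
  exact hf _ (fun h => hP2 (isInfty2_of_isInfty_smul hWW h))
    (fun h => hP (isInfty_of_isInfty2_smul hWW h))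

theorem isReg2_zero : IsReg2 W (0 : FF M) := fun P _ _ => (Place.ord_zero P).ge

theorem isReg2_one : IsReg2 W (1 : FF M) := fun P _ _ => (Place.ord_one P).ge

theorem isReg2_algebraMap (c : Kb) : IsReg2 W (algebraMap Kb (FF M) c) := fun P _ _ =>
  (helper82.ord_algebraMap P c).ge

theorem IsReg2.add {f g : FF M} (hf : IsReg2 W f) (hg : IsReg2 W g) : IsReg2 W (f + g) := by
  intro P hP hP2
  have h1 := hf P hP hP2
  have h2 := hg P hP hP2
  rw [← helper82.mem_iff_ord_nonneg] at h1 h2 ⊢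
  exact P.toValuationSubring.add_mem _ _ h1 h2

theorem IsReg2.mul {f g : FF M} (hf : IsReg2 W f) (hg : IsReg2 W g) : IsReg2 W (f * g) := by
  intro P hP hP2
  have h1 := hf P hP hP2
  have h2 := hg P hP hP2
  rw [← helper82.mem_iff_ord_nonneg] at h1 h2 ⊢
  exact P.toValuationSubring.mul_mem _ _ h1 h2

theorem IsReg2.neg {f : FF M} (hf : IsReg2 W f) : IsReg2 W (-f) := by
  intro P hP hP2
  have h1 := hf P hP hP2
  rw [← helper82.mem_iff_ord_nonneg] at h1 ⊢
  exact P.toValuationSubring.neg_mem _ h1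

theorem IsReg2.sub {f g : FF M} (hf : IsReg2 W f) (hg : IsReg2 W g) : IsReg2 W (f - g) := by
  rw [sub_eq_add_neg]
  exact hf.add hg.neg

theorem IsReg2.smul {f : FF M} (hf : IsReg2 W f) (c : Kb) : IsReg2 W (c • f) := by
  rw [Algebra.smul_def]
  exact (isReg2_algebraMap c).mul hf

theorem IsReg2.pow {f : FF M} (hf : IsReg2 W f) (m : ℕ) : IsReg2 W (f ^ m) := by
  induction m with
  | zero => rw [pow_zero]; exact isReg2_one
  | succ k ih => rw [pow_succ]; exact ih.mul hf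

variable {A : ValuationSubring Kb}

theorem isRep_zero : IsRep A W (0 : FF M) 0 0 := by
  refine ⟨?_, ?_⟩
  · rw [map_zero]; rfl
  · rw [map_zero, map_zero]; rfl

theorem IsRep.add {f g : FF M} {Y₁ Y₂ Z₁ Z₂ : LaurentSeries A} (hf : IsRep A W f Y₁ Y₂)
    (hg : IsRep A W g Z₁ Z₂) : IsRep A W (f + g) (Y₁ + Z₁) (Y₂ + Z₂) := by
  refine ⟨?_, ?_⟩
  · rw [map_add, hf.1, hg.1]; rfl
  · rw [map_add, map_add, hf.2, hg.2]; rfl

theorem IsRep.mul {f g : FF M} {Y₁ Y₂ Z₁ Z₂ : LaurentSeries A} (hf : IsRep A W f Y₁ Y₂)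
    (hg : IsRep A W g Z₁ Z₂) : IsRep A W (f * g) (Y₁ * Z₁) (Y₂ * Z₂) := by
  refine ⟨?_, ?_⟩
  · rw [map_mul, hf.1, hg.1]; rfl
  · rw [map_mul, map_mul, hf.2, hg.2]; rfl

theorem IsRep.pow {f : FF M} {Y₁ Y₂ : LaurentSeries A} (hf : IsRep A W f Y₁ Y₂) (m : ℕ) :
    IsRep A W (f ^ m) (Y₁ ^ m) (Y₂ ^ m) := by
  refine ⟨?_, ?_⟩
  · rw [map_pow, hf.1]; rfl
  · rw [map_pow, map_pow, hf.2]; rfl

theorem IsRep.swap (hWW : ∀ f, W (W f) = f) {f : FF M} {Y₁ Y₂ : LaurentSeries A}
    (hf : IsRep A W f Y₁ Y₂) : IsRep A W (W f) Y₂ Y₁ :=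
  ⟨hf.2, by rw [hWW]; exact hf.1⟩

/-- the pair of expansions of a constant -/
theorem isRep_algebraMap (a : A) :
    IsRep A W (algebraMap Kb (FF M) (a : Kb)) (HahnSeries.C a) (HahnSeries.C a) := by
  have h : incl A (HahnSeries.C a) = algebraMap Kb (LaurentSeries Kb) (a : Kb) := by
    rw [algebraMap_laurentSeries_eq_single]
    exact coeffMap_single A.subtype 0 a
  refine ⟨h, ?_⟩
  rw [AlgEquiv.commutes]
  exact h

theorem red_C (a : A) :
    red A (HahnSeries.C a) =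
      algebraMap (kA A) (LaurentSeries (kA A)) (IsLocalRing.residue A a) := by
  rw [algebraMap_laurentSeries_eq_single]
  exact coeffMap_single (IsLocalRing.residue A) 0 a

end Basic

/-! ### The special fibre -/

/-- the functions of the special fibre which are regular off infinity, as a subalgebra of
`k((q))`. -/
def Bt (A : ValuationSubring Kb) (M : ℕ) [NeZero M] :
    Subalgebra (kA A) (LaurentSeries (kA A)) where
  carrier := {y | ∃ n : ℤ, InL (FFb A M) n y}
  mul_mem' := by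
    rintro x y ⟨n, hx⟩ ⟨n', hy⟩
    exact ⟨n + n', hx.mul hy⟩
  add_mem' := by
    rintro x y ⟨n, hx⟩ ⟨n', hy⟩
    exact ⟨max n n', (hx.mono (le_max_left _ _)).add (hy.mono (le_max_right _ _))⟩
  algebraMap_mem' := fun c => ⟨0, inL_algebraMap c⟩

theorem mem_Bt {A : ValuationSubring Kb} {y : LaurentSeries (kA A)} :
    y ∈ Bt A M ↔ ∃ n : ℤ, InL (FFb A M) n y := Iff.rfl

/-- the ring of reductions: the pairs `(red Y₁, red Y₂)` for the functions regular off the two
cusps with integral pair of expansions `(Y₁, Y₂)` (whose reductions lie in `Bt`). -/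
def Rt (A : ValuationSubring Kb) (W : FF M ≃ₐ[Kb] FF M) :
    Subalgebra (kA A) (Bt A M × Bt A M) where
  carrier := {y | ∃ (f : FF M) (Y₁ Y₂ : LaurentSeries A), IsReg2 W f ∧ IsRep A W f Y₁ Y₂ ∧
    red A Y₁ = (y.1 : LaurentSeries (kA A)) ∧ red A Y₂ = (y.2 : LaurentSeries (kA A))}
  mul_mem' := by
    rintro x y ⟨f, Y₁, Y₂, hf, hY, h1, h2⟩ ⟨g, Z₁, Z₂, hg, hZ, h3, h4⟩
    refine ⟨f * g, Y₁ * Z₁, Y₂ * Z₂, hf.mul hg, hY.mul hZ, ?_, ?_⟩
    · rw [map_mul, h1, h3]; rfl
    · rw [map_mul, h2, h4]; rfl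
  add_mem' := by
    rintro x y ⟨f, Y₁, Y₂, hf, hY, h1, h2⟩ ⟨g, Z₁, Z₂, hg, hZ, h3, h4⟩
    refine ⟨f + g, Y₁ + Z₁, Y₂ + Z₂, hf.add hg, hY.add hZ, ?_, ?_⟩
    · rw [map_add, h1, h3]; rfl
    · rw [map_add, h2, h4]; rfl
  algebraMap_mem' := by
    intro c
    obtain ⟨a, rfl⟩ := IsLocalRing.residue_surjective c
    exact ⟨algebraMap Kb (FF M) (a : Kb), HahnSeries.C a, HahnSeries.C a, isReg2_algebraMap _,
      isRep_algebraMap a, red_C a, red_C a⟩

theorem mem_Rt {A : ValuationSubring Kb} {W : FF M ≃ₐ[Kb] FF M} {y : Bt A M × Bt A M} :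
    y ∈ Rt A W ↔ ∃ (f : FF M) (Y₁ Y₂ : LaurentSeries A), IsReg2 W f ∧ IsRep A W f Y₁ Y₂ ∧
      red A Y₁ = (y.1 : LaurentSeries (kA A)) ∧ red A Y₂ = (y.2 : LaurentSeries (kA A)) :=
  Iff.rfl

/-! ### Input statements -/

/-- **[T2-VAL-INT]** a function regular off the two cusps with `w₁ ≥ 0` and `w₂ ≥ 0` (quotient
form) has an integral expansion. -/
def Integrality2Statement (M : ℕ) [NeZero M] (A : ValuationSubring Kb)
    (W : FF M ≃ₐ[Kb] FF M) : Prop :=
  ∀ f : FF M, IsReg2 W f → IsWInt A M (f : LaurentSeries Kb) →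
    IsWInt A M ((W f : FF M) : LaurentSeries Kb) →
    ∃ Y : LaurentSeries A, incl A Y = (f : LaurentSeries Kb)

/-- **[T2-VAL-UE]** the reduction of (the first expansion of) a function regular off the two
cusps with integral pair of expansions lies in the special fibre field and is regular off
infinity. -/
def RegRed2Statement (M : ℕ) [NeZero M] (A : ValuationSubring Kb)
    (W : FF M ≃ₐ[Kb] FF M) : Prop :=
  ∀ (f : FF M) (Y₁ Y₂ : LaurentSeries A), IsReg2 W f → IsRep A W f Y₁ Y₂ →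
    ∃ n : ℤ, InL (FFb A M) n (red A Y₁)

/-- **[T2-SAT]** saturation: for large `N`, a pair of reductions of a function regular off the
two cusps with pole orders at most `N` is the pair of reductions of an element of
`L(N (∞ + ∞₂))` with integral pair of expansions. -/
def Sat2Statement (M : ℕ) [NeZero M] (A : ValuationSubring Kb)
    (W : FF M ≃ₐ[Kb] FF M) : Prop :=
  ∃ N₀ : ℤ, ∀ N : ℤ, N₀ ≤ N → ∀ (f : FF M) (Y₁ Y₂ : LaurentSeries A),
    IsReg2 W f → IsRep A W f Y₁ Y₂ →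
    (∀ k : ℤ, k < -N → (red A Y₁).coeff k = 0) → (∀ k : ℤ, k < -N → (red A Y₂).coeff k = 0) →
    ∃ (f' : FF M) (Z₁ Z₂ : LaurentSeries A), IsReg2 W f' ∧ IsRep A W f' Z₁ Z₂ ∧
      (∀ k : ℤ, k < -N → Z₁.coeff k = 0) ∧ (∀ k : ℤ, k < -N → Z₂.coeff k = 0) ∧
      red A Z₁ = red A Y₁ ∧ red A Z₂ = red A Y₂

/-- **[T2-SN]**, instance form: the Frobenius `Fr` of `Bt`, whose graph and transposed graph lie
in `Rt`; `Fr ∘ Fr` takes values in the `ℓ`-th powers and the ideal generated by the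
`Fr (Fr f) - f` has finite codimension. -/
def SN2Statement (M : ℕ) [NeZero M] (A : ValuationSubring Kb)
    (W : FF M ≃ₐ[Kb] FF M) : Prop :=
  ∃ (Fr : Bt A M → Bt A M) (ℓ : ℕ), 2 ≤ ℓ ∧ (∀ f, ∃ h, Fr (Fr f) = h ^ ℓ) ∧
    Module.Finite (kA A) (Bt A M ⧸ Ideal.span (Set.range fun f : Bt A M => Fr (Fr f) - f)) ∧
    (∀ f : Bt A M, (f, Fr f) ∈ Rt A W) ∧ (∀ f : Bt A M, (Fr f, f) ∈ Rt A W)

/-! ### Output statement -/

/-- the "ideal" of a function `u` whose divisor is divisible by `n`, with denominator `Q`: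
`G / Q` has divisor at least `div(u) / n` off the two cusps. -/
def InIdeal (W : FF M ≃ₐ[Kb] FF M) (n : ℕ) (u Q G : FF M) : Prop :=
  G = 0 ∨ ∀ P : Place Kb (FF M), ¬ IsInfty P → ¬ IsInfty2 W P →
    P.ord u ≤ (n : ℤ) * (P.ord G - P.ord Q)

/-- **[T2-IDEAL2]** the tier-2 ideal step: for `u ≡ 1` at both `w₁`, `w₂` whose divisor is
divisible by `n`, there are functions `G₁, G₂` in `Q · a` and `B₁, B₂` in `Q' · a⁻¹`
(`a` = the ideal of `div(u) / n` off the two cusps), with integral pairs of expansions, such that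
`G₁ B₁ + G₂ B₂ ≡ Q Q'` at both `w₁` and `w₂`; the multipliers `Q`, `Q'` are units at both. -/
def IdealStep2Statement (M : ℕ) [NeZero M] (A : ValuationSubring Kb)
    (W : FF M ≃ₐ[Kb] FF M) (n : ℕ) : Prop :=
  ∀ u : FF M, u ≠ 0 → (∀ P : Place Kb (FF M), (n : ℤ) ∣ P.ord u) →
    IsRedOne A M (u : LaurentSeries Kb) → IsRedOne A M ((W u : FF M) : LaurentSeries Kb) →
    ∃ (Q Q' G₁ G₂ B₁ B₂ : FF M) (YQ YQ' YG₁ YG₂ YB₁ YB₂ : Fin 2 → LaurentSeries A),
      IsRep A W Q (YQ 0) (YQ 1) ∧ IsRep A W Q' (YQ' 0) (YQ' 1) ∧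
      IsRep A W G₁ (YG₁ 0) (YG₁ 1) ∧ IsRep A W G₂ (YG₂ 0) (YG₂ 1) ∧
      IsRep A W B₁ (YB₁ 0) (YB₁ 1) ∧ IsRep A W B₂ (YB₂ 0) (YB₂ 1) ∧
      (∀ i, IsGood A M (YQ i)) ∧ (∀ i, IsGood A M (YQ' i)) ∧
      InIdeal W n u Q G₁ ∧ InIdeal W n u Q G₂ ∧
      InIdeal W n u⁻¹ Q' B₁ ∧ InIdeal W n u⁻¹ Q' B₂ ∧
      ∀ i, red A (YG₁ i) * red A (YB₁ i) + red A (YG₂ i) * red A (YB₂ i) =
        red A (YQ i) * red A (YQ' i)

end Fermat.Agent.T2.helper22
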