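import Mathlib
import Fermat.Agent.T2.helper22_CoreDefs

/-!
# Tier 2 (helper22): scaled pairs and integral bases for pairs of expansions

* `exists_scaled_pair` : a nonzero function regular off the two cusps has a scalar multiple with
  integral pair of expansions, one of which has nonzero reduction (from `ScaleStatement` and
  `Integrality2Statement`).
* `exists_pair_basis` : integral bases of the lattice of integral pairs in a finite dimensional
  space of functions regular off the two cusps.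
-/

set_option autoImplicit false
set_option linter.unusedSectionVars false

noncomputable section

namespace Fermat.Agent.T2.helper22

open HahnSeries IntermediateField AlgebraicCurve ModularCurve
open Fermat.Agent.S18.helper19 Fermat.Agent.P2.helper29 Fermat.Agent.P2.helper22
open Fermat.Agent.S24

variable {M : ℕ} [NeZero M] {A : ValuationSubring Kb} {W : FF M ≃ₐ[Kb] FF M}

/-! ### Scaling -/

/-- `h` is a `w₁`-unit: a quotient of two good series. -/
def IsWUnit (A : ValuationSubring Kb) (M : ℕ) (h : LaurentSeries Kb) : Prop :=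
  ∃ Y₁ Y₂ : LaurentSeries A, IsGood A M Y₁ ∧ IsGood A M Y₂ ∧ incl A Y₁ = h * incl A Y₂

theorem incl_C_mul (a : A) (Y : LaurentSeries A) :
    incl A (HahnSeries.C a * Y) = algebraMap Kb (LaurentSeries Kb) (a : Kb) * incl A Y := by
  rw [map_mul, algebraMap_laurentSeries_eq_single]
  congr 1
  exact coeffMap_single A.subtype 0 a

theorem scale_pair_aux1 {f g : LaurentSeries Kb} {c₁ c₂ : Kb} (hc₁ : c₁ ≠ 0)
    {Y₁ Y₂ Z₁ Z₂ : LaurentSeries A} (hY₁ : IsGood A M Y₁) (hY₂ : IsGood A M Y₂)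
    (hZ₁ : IsGood A M Z₁) (hZ₂ : IsGood A M Z₂)
    (he : algebraMap Kb (LaurentSeries Kb) c₁ * incl A Y₁ = f * incl A Y₂)
    (he' : algebraMap Kb (LaurentSeries Kb) c₂ * incl A Z₁ = g * incl A Z₂)
    (ha : c₂ / c₁ ∈ A) :
    IsWInt A M (c₁⁻¹ • f) ∧ IsWInt A M (c₁⁻¹ • g) ∧ IsWUnit A M (c₁⁻¹ • f) := by
  have e1 : incl A Y₁ = (c₁⁻¹ • f) * incl A Y₂ := by
    rw [← algebraMap_mul_eq_smul, mul_assoc, ← he, ← mul_assoc, ← map_mul, inv_mul_cancel₀ hc₁,
      map_one, one_mul]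
  refine ⟨⟨Y₁, Y₂, hY₁.1, hY₂, e1⟩, ⟨HahnSeries.C ⟨c₂ / c₁, ha⟩ * Z₁, Z₂, ?_, hZ₂, ?_⟩,
    ⟨Y₁, Y₂, hY₁, hY₂, e1⟩⟩
  · rw [incl_C_mul]
    exact mul_mem ((FF M).algebraMap_mem _) hZ₁.1
  · rw [incl_C_mul, ← algebraMap_mul_eq_smul, mul_assoc, ← he', ← mul_assoc, ← map_mul]
    congr 2
    change c₂ / c₁ = c₁⁻¹ * c₂
    rw [div_eq_mul_inv, mul_comm]

/-- two nonzero functions can be scaled simultaneously: both become `w₁`-integral and one of
them a `w₁`-unit. -/
theorem scale_pair_aux (hSc : ScaleStatement M A) {f g : LaurentSeries Kb} (hf : f ∈ FF M)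
    (hg : g ∈ FF M) (hf0 : f ≠ 0) (hg0 : g ≠ 0) :
    ∃ c : Kb, c ≠ 0 ∧ IsWInt A M (c • f) ∧ IsWInt A M (c • g) ∧
      (IsWUnit A M (c • f) ∨ IsWUnit A M (c • g)) := by
  obtain ⟨c₁, Y₁, Y₂, hc₁, hY₁, hY₂, he⟩ := hSc f hf hf0
  obtain ⟨c₂, Z₁, Z₂, hc₂, hZ₁, hZ₂, he'⟩ := hSc g hg hg0
  rcases A.mem_or_inv_mem (c₂ / c₁) with ha | ha
  · obtain ⟨h1, h2, h3⟩ := scale_pair_aux1 hc₁ hY₁ hY₂ hZ₁ hZ₂ he he' ha
    exact ⟨c₁⁻¹, inv_ne_zero hc₁, h1, h2, Or.inl h3⟩
  · rw [inv_div] at ha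
    obtain ⟨h1, h2, h3⟩ := scale_pair_aux1 hc₂ hZ₁ hZ₂ hY₁ hY₂ he' he ha
    exact ⟨c₂⁻¹, inv_ne_zero hc₂, h2, h1, Or.inr h3⟩

theorem red_ne_zero_of_isWUnit {h : LaurentSeries Kb} (hu : IsWUnit A M h) {Y : LaurentSeries A}
    (hY : incl A Y = h) : red A Y ≠ 0 := by
  obtain ⟨U₁, U₂, hU₁, hU₂, he⟩ := hu
  have hmul : Y * U₂ = U₁ := incl_injective (by rw [map_mul, hY, he])
  intro h0
  apply hU₁.2.2
  rw [← hmul, map_mul]
  change red A Y * red A U₂ = 0
  rw [h0, zero_mul]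

theorem W_smul (W : FF M ≃ₐ[Kb] FF M) (c : Kb) (f : FF M) : W (c • f) = c • W f := by
  rw [Algebra.smul_def, map_mul, AlgEquiv.commutes, ← Algebra.smul_def]

/-- **scaled pairs**: a nonzero function regular off the two cusps has a scalar multiple with
integral pair of expansions one of whose reductions is nonzero. -/
theorem exists_scaled_pair (hWW : ∀ f, W (W f) = f) (hSc : ScaleStatement M A)
    (hInt : Integrality2Statement M A W) {f : FF M} (hf : IsReg2 W f) (hf0 : f ≠ 0) :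
    ∃ (c : Kb) (Y₁ Y₂ : LaurentSeries A), c ≠ 0 ∧ IsRep A W (c • f) Y₁ Y₂ ∧
      (red A Y₁ ≠ 0 ∨ red A Y₂ ≠ 0) := by
  have hWf0 : W f ≠ 0 := by simpa using hf0
  obtain ⟨c, hc, h1, h2, h3⟩ := scale_pair_aux hSc f.2 (W f).2 (coe_ne_zero' hf0)
    (coe_ne_zero' hWf0)
  have e1 : ((c • f : FF M) : LaurentSeries Kb) = c • (f : LaurentSeries Kb) := coe_smul_eq c f
  have e2 : ((W (c • f) : FF M) : LaurentSeries Kb) = c • ((W f : FF M) : LaurentSeries Kb) := by
    rw [W_smul]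
    exact coe_smul_eq c (W f)
  have e3 : ((W (W (c • f)) : FF M) : LaurentSeries Kb) = c • (f : LaurentSeries Kb) := by
    rw [hWW]
    exact e1
  have hreg : IsReg2 W (c • f) := hf.smul c
  obtain ⟨Y₁, hY₁⟩ := hInt (c • f) hreg (by rw [e1]; exact h1) (by rw [e2]; exact h2)
  obtain ⟨Y₂, hY₂⟩ := hInt (W (c • f)) (hreg.map hWW) (by rw [e2]; exact h2)
    (by rw [e3]; exact h1)
  refine ⟨c, Y₁, Y₂, hc, ⟨hY₁, hY₂⟩, ?_⟩
  rcases h3 with h3 | h3
  · exact Or.inl (red_ne_zero_of_isWUnit h3 (by rw [hY₁, e1]))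
  · exact Or.inr (red_ne_zero_of_isWUnit h3 (by rw [hY₂, e2]))

/-! ### The pair map -/

/-- the pair of expansions `f ↦ (f, W f)` -/
def pairLin (W : FF M ≃ₐ[Kb] FF M) : FF M →ₗ[Kb] (Fin 2 → LaurentSeries Kb) where
  toFun f := ![(f : LaurentSeries Kb), ((W f : FF M) : LaurentSeries Kb)]
  map_add' f g := by
    funext i
    fin_cases i
    · rfl
    · simp [map_add]
  map_smul' c f := by
    funext i
    fin_cases i
    · exact coe_smul_eq c f
    · change ((W (c • f) : FF M) : LaurentSeries Kb) = c • ((W f : FF M) : LaurentSeries Kb)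
      rw [W_smul]
      exact coe_smul_eq c (W f)

@[simp] theorem pairLin_zero (f : FF M) : pairLin W f 0 = (f : LaurentSeries Kb) := rfl

@[simp] theorem pairLin_one (f : FF M) :
    pairLin W f 1 = ((W f : FF M) : LaurentSeries Kb) := rfl

theorem pairLin_injective : Function.Injective (pairLin W) := by
  intro f g h
  apply Subtype.ext
  have := congrFun h 0
  simpa using this

theorem famMap_eq_pairLin_iff {f : FF M} {Y : Fin 2 → LaurentSeries A} :
    famMap A.subtype Y = pairLin W f ↔ IsRep A W f (Y 0) (Y 1) := by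
  constructor
  · intro h
    exact ⟨congrFun h 0, congrFun h 1⟩
  · rintro ⟨h0, h1⟩
    funext i
    fin_cases i
    · exact h0
    · exact h1

theorem sum_smul_apply {R : Type*} [CommRing R] {n : ℕ} (a : Fin n → R)
    (Y : Fin n → Fin 2 → LaurentSeries R) (i : Fin 2) :
    (∑ j, a j • Y j) i = ∑ j, a j • Y j i := by
  rw [Finset.sum_apply]
  rfl

/-- **integral bases for pairs**: the lattice of integral pairs of expansions in a finite
dimensional space `V` of functions regular off the two cusps has a basis `(F j, Y j)` whose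
reductions are linearly independent. -/
theorem exists_pair_basis (hWW : ∀ f, W (W f) = f) (hSc : ScaleStatement M A)
    (hInt : Integrality2Statement M A W) (V : Submodule Kb (FF M)) [FiniteDimensional Kb V]
    (hV : ∀ f ∈ V, IsReg2 W f) :
    ∃ (r : ℕ) (F : Fin r → FF M) (Y : Fin r → Fin 2 → LaurentSeries A),
      r = Module.finrank Kb V ∧ (∀ j, F j ∈ V) ∧ (∀ j, IsRep A W (F j) (Y j 0) (Y j 1)) ∧
      (∀ (f : FF M) (Z : Fin 2 → LaurentSeries A), f ∈ V → IsRep A W f (Z 0) (Z 1) →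
        ∃ a : Fin r → A, Z = ∑ j, a j • Y j) ∧
      (∀ a : Fin r → A, famMap (IsLocalRing.residue A) (∑ j, a j • Y j) = 0 →
        ∀ j, IsLocalRing.residue A (a j) = 0) := by
  classical
  have hH : ∀ u ∈ V.map (pairLin W), u ≠ 0 → ∃ c : Kb, c ≠ 0 ∧ ∃ Y : Fin 2 → LaurentSeries A,
      famMap A.subtype Y = c • u ∧ famMap (IsLocalRing.residue A) Y ≠ 0 := by
    rintro _ ⟨f, hfV, rfl⟩ hu
    have hf0 : f ≠ 0 := by
      rintro rfl
      exact hu (map_zero _)
    obtain ⟨c, Y₁, Y₂, hc, hrep, hred⟩ := exists_scaled_pair hWW hSc hInt (hV f hfV) hf0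
    refine ⟨c, hc, ![Y₁, Y₂], ?_, ?_⟩
    · rw [← map_smul]
      exact famMap_eq_pairLin_iff.2 hrep
    · intro h0
      rcases hred with h | h
      · exact h (congrFun h0 0)
      · exact h (congrFun h0 1)
  have hfr : Module.finrank Kb (V.map (pairLin W)) = Module.finrank Kb V :=
    (Submodule.equivMapOfInjective (pairLin W) pairLin_injective V).finrank_eq.symm
  obtain ⟨Y, hYV, -, hspan, hind⟩ := exists_integral_basis_fam A (IsLocalRing.residue A)
    isUnit_of_residue_ne_zero (V.map (pairLin W)) hH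
  choose F hFV hF using hYV
  refine ⟨_, F, Y, hfr, hFV, fun j => famMap_eq_pairLin_iff.1 (hF j).symm, ?_, hind⟩
  intro f Z hf hZ
  exact hspan Z ⟨f, hf, (famMap_eq_pairLin_iff.2 hZ).symm⟩

end Fermat.Agent.T2.helper22
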