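import Mathlib
import Fermat.Agent.T2.helper22_PairLat

/-!
# Tier 2 (helper22): the modules `ã`, `b̃` of the ideal step and their products

For a function `u ≡ 1` (at `w₁` and `w₂`) whose divisor is divisible by `n` and a multiplier `Q`
(a unit at `w₁` and `w₂`), `aMod A W n u Q YQ ⊆ Bt × Bt` is the module of the pairs
`red(Z) / red(Q)`, `Z` in the ideal of `div(u)/n` (times `Q`) with integral pair of expansions.

* `aMod_pow_mem` : `y ∈ ã → y ^ n ∈ Rt`;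
* `aMod_mul_mem` : `y ∈ ã → y' ∈ b̃ → y * y' ∈ Rt`.
-/

set_option autoImplicit false
set_option linter.unusedSectionVars false

noncomputable section

namespace Fermat.Agent.T2.helper22

open HahnSeries IntermediateField AlgebraicCurve ModularCurve
open Fermat.Agent.S18.helper19 Fermat.Agent.P2.helper29 Fermat.Agent.P2.helper22
open Fermat.Agent.S24

variable {M : ℕ} [NeZero M] {A : ValuationSubring Kb} {W : FF M ≃ₐ[Kb] FF M}

/-! ### Integrality for componentwise quotients -/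

/-- a function regular off the two cusps whose two expansions are quotients
(integral series) / (good series) has an integral pair of expansions. -/
theorem exists_rep_of_wint (hWW : ∀ f, W (W f) = f) (hInt : Integrality2Statement M A W)
    {f : FF M} (hf : IsReg2 W f) {N₀ D₀ N₁ D₁ : LaurentSeries A} (hD₀ : IsGood A M D₀)
    (hD₁ : IsGood A M D₁) (h₀ : incl A N₀ = (f : LaurentSeries Kb) * incl A D₀)
    (h₁ : incl A N₁ = ((W f : FF M) : LaurentSeries Kb) * incl A D₁) :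
    ∃ Y₀ Y₁ : LaurentSeries A, IsRep A W f Y₀ Y₁ ∧ Y₀ * D₀ = N₀ ∧ Y₁ * D₁ = N₁ := by
  have hw0 : IsWInt A M (f : LaurentSeries Kb) :=
    ⟨N₀, D₀, by rw [h₀]; exact mul_mem f.2 hD₀.1, hD₀, h₀⟩
  have hw1 : IsWInt A M ((W f : FF M) : LaurentSeries Kb) :=
    ⟨N₁, D₁, by rw [h₁]; exact mul_mem (W f).2 hD₁.1, hD₁, h₁⟩
  obtain ⟨Y₀, hY₀⟩ := hInt f hf hw0 hw1
  obtain ⟨Y₁, hY₁⟩ := hInt (W f) (hf.map hWW) hw1 (by rw [hWW]; exact hw0)
  refine ⟨Y₀, Y₁, ⟨hY₀, hY₁⟩, incl_injective ?_, incl_injective ?_⟩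
  · rw [map_mul, hY₀, h₀]
  · rw [map_mul, hY₁, h₁]

/-- membership in `Rt` for componentwise quotients -/
theorem mem_Rt_of_quot (hWW : ∀ f, W (W f) = f) (hInt : Integrality2Statement M A W)
    {f : FF M} (hf : IsReg2 W f) {N₀ D₀ N₁ D₁ : LaurentSeries A} (hD₀ : IsGood A M D₀)
    (hD₁ : IsGood A M D₁) (h₀ : incl A N₀ = (f : LaurentSeries Kb) * incl A D₀)
    (h₁ : incl A N₁ = ((W f : FF M) : LaurentSeries Kb) * incl A D₁)
    {y : Bt A M × Bt A M} (e₀ : red A N₀ = red A D₀ * (y.1 : LaurentSeries (kA A)))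
    (e₁ : red A N₁ = red A D₁ * (y.2 : LaurentSeries (kA A))) : y ∈ Rt A W := by
  obtain ⟨Y₀, Y₁, hrep, hm₀, hm₁⟩ := exists_rep_of_wint hWW hInt hf hD₀ hD₁ h₀ h₁
  refine ⟨f, Y₀, Y₁, hf, hrep, ?_, ?_⟩
  · have h : red A Y₀ * red A D₀ = red A D₀ * (y.1 : LaurentSeries (kA A)) := by
      rw [← map_mul, hm₀, e₀]
    rw [mul_comm (red A D₀)] at h
    exact mul_right_cancel₀ hD₀.2.2 h
  · have h : red A Y₁ * red A D₁ = red A D₁ * (y.2 : LaurentSeries (kA A)) := by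
      rw [← map_mul, hm₁, e₁]
    rw [mul_comm (red A D₁)] at h
    exact mul_right_cancel₀ hD₁.2.2 h

/-! ### The ideal condition -/

theorem InIdeal.add {n : ℕ} {u Q G G' : FF M} (h : InIdeal W n u Q G)
    (h' : InIdeal W n u Q G') : InIdeal W n u Q (G + G') := by
  by_cases h0 : G + G' = 0
  · exact Or.inl h0
  rcases h with rfl | h
  · rwa [zero_add]
  rcases h' with rfl | h'
  · rw [add_zero]; exact Or.inr h
  refine Or.inr fun P hP hP2 => ?_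
  have h1 := h P hP hP2
  have h2 := h' P hP hP2
  have h3 := Fermat.Agent.P2.helper74.ord_add_ge P h0
  have hn : (0 : ℤ) ≤ n := Int.natCast_nonneg n
  rcases min_le_iff.1 h3 with h4 | h4
  · calc P.ord u ≤ (n : ℤ) * (P.ord G - P.ord Q) := h1
      _ ≤ (n : ℤ) * (P.ord (G + G') - P.ord Q) := by gcongr
  · calc P.ord u ≤ (n : ℤ) * (P.ord G' - P.ord Q) := h2
      _ ≤ (n : ℤ) * (P.ord (G + G') - P.ord Q) := by gcongr

theorem InIdeal.smul {n : ℕ} {u Q G : FF M} (h : InIdeal W n u Q G) (c : Kb) :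
    InIdeal W n u Q (c • G) := by
  rcases eq_or_ne c 0 with rfl | hc
  · exact Or.inl (zero_smul _ _)
  rcases h with rfl | h
  · exact Or.inl (smul_zero _)
  refine Or.inr fun P hP hP2 => ?_
  rw [ord_smul_eq P hc]
  exact h P hP hP2

theorem red_C_mul (a : A) (Y : LaurentSeries A) :
    red A (HahnSeries.C a * Y) =
      algebraMap (kA A) (LaurentSeries (kA A)) (IsLocalRing.residue A a) * red A Y := by
  rw [map_mul, red_C]

theorem IsRep.smulA {f : FF M} {Y₁ Y₂ : LaurentSeries A} (hf : IsRep A W f Y₁ Y₂) (a : A) :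
    IsRep A W ((a : Kb) • f) (HahnSeries.C a * Y₁) (HahnSeries.C a * Y₂) := by
  refine ⟨?_, ?_⟩
  · rw [incl_C_mul, hf.1, algebraMap_mul_eq_smul]
    exact (coe_smul_eq _ f).symm
  · rw [incl_C_mul, hf.2, algebraMap_mul_eq_smul, W_smul]
    exact (coe_smul_eq _ (W f)).symm

theorem coe_smul_Bt (c : kA A) (y : Bt A M) :
    ((c • y : Bt A M) : LaurentSeries (kA A)) =
      algebraMap (kA A) (LaurentSeries (kA A)) c * (y : LaurentSeries (kA A)) := by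
  rw [Algebra.smul_def]
  rfl

/-! ### The module `ã` -/

/-- the module `ã ⊆ Bt × Bt` attached to `u` (with `n ∣ div u`) and the multiplier `Q`. -/
def aMod (A : ValuationSubring Kb) (W : FF M ≃ₐ[Kb] FF M) (n : ℕ) (u Q : FF M)
    (YQ : Fin 2 → LaurentSeries A) : Submodule (kA A) (Bt A M × Bt A M) where
  carrier := {y | ∃ (Z : FF M) (YZ : Fin 2 → LaurentSeries A), InIdeal W n u Q Z ∧
    IsRep A W Z (YZ 0) (YZ 1) ∧
    red A (YZ 0) = red A (YQ 0) * (y.1 : LaurentSeries (kA A)) ∧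
    red A (YZ 1) = red A (YQ 1) * (y.2 : LaurentSeries (kA A))}
  zero_mem' := ⟨0, 0, Or.inl rfl, isRep_zero, by simp, by simp⟩
  add_mem' := by
    rintro y y' ⟨Z, YZ, hI, hZ, e0, e1⟩ ⟨Z', YZ', hI', hZ', e0', e1'⟩
    refine ⟨Z + Z', YZ + YZ', hI.add hI', hZ.add hZ', ?_, ?_⟩
    · change red A (YZ 0 + YZ' 0) = _
      rw [map_add, e0, e0', ← mul_add]
      rfl
    · change red A (YZ 1 + YZ' 1) = _
      rw [map_add, e1, e1', ← mul_add]
      rfl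
  smul_mem' := by
    rintro c y ⟨Z, YZ, hI, hZ, e0, e1⟩
    obtain ⟨a, rfl⟩ := IsLocalRing.residue_surjective c
    refine ⟨(a : Kb) • Z, fun i => HahnSeries.C a * YZ i, hI.smul _, hZ.smulA a, ?_, ?_⟩
    · change red A (HahnSeries.C a * YZ 0) = red A (YQ 0) * ((IsLocalRing.residue A a • y.1 :
        Bt A M) : LaurentSeries (kA A))
      rw [red_C_mul, e0, coe_smul_Bt]
      ring
    · change red A (HahnSeries.C a * YZ 1) = red A (YQ 1) * ((IsLocalRing.residue A a • y.2 :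
        Bt A M) : LaurentSeries (kA A))
      rw [red_C_mul, e1, coe_smul_Bt]
      ring

theorem mem_aMod {n : ℕ} {u Q : FF M} {YQ : Fin 2 → LaurentSeries A} {y : Bt A M × Bt A M} :
    y ∈ aMod A W n u Q YQ ↔ ∃ (Z : FF M) (YZ : Fin 2 → LaurentSeries A), InIdeal W n u Q Z ∧
      IsRep A W Z (YZ 0) (YZ 1) ∧
      red A (YZ 0) = red A (YQ 0) * (y.1 : LaurentSeries (kA A)) ∧
      red A (YZ 1) = red A (YQ 1) * (y.2 : LaurentSeries (kA A)) := Iff.rfl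

theorem ne_zero_of_isRep_good {Q : FF M} {Y₁ Y₂ : LaurentSeries A} (hQ : IsRep A W Q Y₁ Y₂)
    (hg : IsGood A M Y₁) : Q ≠ 0 := by
  rintro rfl
  exact isGood_incl_ne_zero hg hQ.1

theorem isRedOne_inv {f : LaurentSeries Kb} (h : IsRedOne A M f) : IsRedOne A M f⁻¹ := by
  obtain ⟨Y₁, Y₂, hY₁, hY₂, he, hr⟩ := h
  have hf0 : f ≠ 0 := by
    rintro rfl
    rw [zero_mul] at he
    exact isGood_incl_ne_zero hY₁ he
  refine ⟨Y₂, Y₁, hY₂, hY₁, ?_, hr.symm⟩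
  rw [he, ← mul_assoc, inv_mul_cancel₀ hf0, one_mul]

theorem ord_pow_div_mul_inv (P : Place Kb (FF M)) {n : ℕ} {u Q Z : FF M} (hu0 : u ≠ 0)
    (hQ0 : Q ≠ 0) (hZ0 : Z ≠ 0) :
    P.ord ((Z / Q) ^ n * u⁻¹) = (n : ℤ) * (P.ord Z - P.ord Q) - P.ord u := by
  rw [P.ord_mul (pow_ne_zero _ (div_ne_zero hZ0 hQ0)) (inv_ne_zero hu0), ord_npow,
    ord_div P hZ0 hQ0, P.ord_inv]
  ring

/-- the function `(Z / Q) ^ n / u` is regular off the two cusps for `Z` in the ideal. -/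
theorem isReg2_pow_div {n : ℕ} (hn : 0 < n) {u Q Z : FF M} (hu0 : u ≠ 0) (hQ0 : Q ≠ 0)
    (hI : InIdeal W n u Q Z) : IsReg2 W ((Z / Q) ^ n * u⁻¹) := by
  by_cases hZ0 : Z = 0
  · rw [hZ0, zero_div, zero_pow hn.ne', zero_mul]
    exact isReg2_zero
  intro P hP hP2
  rw [ord_pow_div_mul_inv P hu0 hQ0 hZ0]
  have := (hI.resolve_left hZ0) P hP hP2
  linarith

/-- **`ã ^ n ⊆ Rt`.** -/
theorem aMod_pow_mem (hWW : ∀ f, W (W f) = f) (hInt : Integrality2Statement M A W) {n : ℕ}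
    (hn : 0 < n) {u Q : FF M} {YQ : Fin 2 → LaurentSeries A} (hu0 : u ≠ 0)
    (hu1 : IsRedOne A M (u : LaurentSeries Kb))
    (hu2 : IsRedOne A M ((W u : FF M) : LaurentSeries Kb))
    (hQ : IsRep A W Q (YQ 0) (YQ 1)) (hQg : ∀ i, IsGood A M (YQ i))
    {y : Bt A M × Bt A M} (hy : y ∈ aMod A W n u Q YQ) : y ^ n ∈ Rt A W := by
  obtain ⟨Z, YZ, hI, hZ, e0, e1⟩ := hy
  have hQ0 : Q ≠ 0 := ne_zero_of_isRep_good hQ (hQg 0)
  have hWu0 : W u ≠ 0 := by simpa using hu0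
  have hWQ0 : W Q ≠ 0 := by simpa using hQ0
  obtain ⟨U₁, U₂, hU₁, hU₂, heU, hrU⟩ := hu1
  obtain ⟨V₁, V₂, hV₁, hV₂, heV, hrV⟩ := hu2
  have hreg := isReg2_pow_div hn hu0 hQ0 hI
  refine mem_Rt_of_quot hWW hInt hreg (N₀ := YZ 0 ^ n * U₂) (D₀ := YQ 0 ^ n * U₁)
    (N₁ := YZ 1 ^ n * V₂) (D₁ := YQ 1 ^ n * V₁) ((isGood_pow (hQg 0) n).mul hU₁)
    ((isGood_pow (hQg 1) n).mul hV₁) ?_ ?_ ?_ ?_
  · have e : (((Z / Q) ^ n * u⁻¹ : FF M) : LaurentSeries Kb) =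
        ((Z : LaurentSeries Kb) / (Q : LaurentSeries Kb)) ^ n * (u : LaurentSeries Kb)⁻¹ := rfl
    rw [e, map_mul, map_mul, map_pow, map_pow, hZ.1, hQ.1, heU, div_pow]
    have h1 : (Q : LaurentSeries Kb) ≠ 0 := coe_ne_zero' hQ0
    have h2 : (u : LaurentSeries Kb) ≠ 0 := coe_ne_zero' hu0
    field_simp
  · have e : ((W ((Z / Q) ^ n * u⁻¹) : FF M) : LaurentSeries Kb) =
        (((W Z : FF M) : LaurentSeries Kb) / ((W Q : FF M) : LaurentSeries Kb)) ^ n *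
          ((W u : FF M) : LaurentSeries Kb)⁻¹ := by
      rw [map_mul, map_pow, map_div₀, map_inv₀]
      rfl
    rw [e, map_mul, map_mul, map_pow, map_pow, hZ.2, hQ.2, heV, div_pow]
    have h1 : ((W Q : FF M) : LaurentSeries Kb) ≠ 0 := coe_ne_zero' hWQ0
    have h2 : ((W u : FF M) : LaurentSeries Kb) ≠ 0 := coe_ne_zero' hWu0
    field_simp
  · change red A (YZ 0 ^ n * U₂) = red A (YQ 0 ^ n * U₁) * ((y.1 : LaurentSeries (kA A)) ^ n)
    rw [map_mul, map_mul, map_pow, map_pow, e0, hrU]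
    ring
  · change red A (YZ 1 ^ n * V₂) = red A (YQ 1 ^ n * V₁) * ((y.2 : LaurentSeries (kA A)) ^ n)
    rw [map_mul, map_mul, map_pow, map_pow, e1, hrV]
    ring

/-- **`ã · b̃ ⊆ Rt`.** -/
theorem aMod_mul_mem (hWW : ∀ f, W (W f) = f) (hInt : Integrality2Statement M A W) {n : ℕ}
    (hn : 0 < n) {u Q Q' : FF M} {YQ YQ' : Fin 2 → LaurentSeries A}
    (hQ : IsRep A W Q (YQ 0) (YQ 1)) (hQg : ∀ i, IsGood A M (YQ i))
    (hQ' : IsRep A W Q' (YQ' 0) (YQ' 1)) (hQg' : ∀ i, IsGood A M (YQ' i))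
    {y y' : Bt A M × Bt A M} (hy : y ∈ aMod A W n u Q YQ)
    (hy' : y' ∈ aMod A W n u⁻¹ Q' YQ') : y * y' ∈ Rt A W := by
  obtain ⟨Z, YZ, hI, hZ, e0, e1⟩ := hy
  obtain ⟨Z', YZ', hI', hZ', e0', e1'⟩ := hy'
  have hQ0 : Q ≠ 0 := ne_zero_of_isRep_good hQ (hQg 0)
  have hQ0' : Q' ≠ 0 := ne_zero_of_isRep_good hQ' (hQg' 0)
  have hWQ0 : W Q ≠ 0 := by simpa using hQ0
  have hWQ0' : W Q' ≠ 0 := by simpa using hQ0'
  have hreg : IsReg2 W ((Z / Q) * (Z' / Q')) := by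
    by_cases hZ0 : Z = 0
    · rw [hZ0, zero_div, zero_mul]
      exact isReg2_zero
    by_cases hZ0' : Z' = 0
    · rw [hZ0', zero_div, mul_zero]
      exact isReg2_zero
    intro P hP hP2
    have h1 := (hI.resolve_left hZ0) P hP hP2
    have h2 := (hI'.resolve_left hZ0') P hP hP2
    rw [P.ord_inv] at h2
    rw [P.ord_mul (div_ne_zero hZ0 hQ0) (div_ne_zero hZ0' hQ0'), ord_div P hZ0 hQ0,
      ord_div P hZ0' hQ0']
    have hn' : (0 : ℤ) < n := by exact_mod_cast hn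
    by_contra hlt
    push Not at hlt
    nlinarith
  refine mem_Rt_of_quot hWW hInt hreg (N₀ := YZ 0 * YZ' 0) (D₀ := YQ 0 * YQ' 0)
    (N₁ := YZ 1 * YZ' 1) (D₁ := YQ 1 * YQ' 1) ((hQg 0).mul (hQg' 0))
    ((hQg 1).mul (hQg' 1)) ?_ ?_ ?_ ?_
  · have e : (((Z / Q) * (Z' / Q') : FF M) : LaurentSeries Kb) =
        ((Z : LaurentSeries Kb) / (Q : LaurentSeries Kb)) *
          ((Z' : LaurentSeries Kb) / (Q' : LaurentSeries Kb)) := rfl
    rw [e, map_mul, map_mul, hZ.1, hQ.1, hZ'.1, hQ'.1]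
    have h1 : (Q : LaurentSeries Kb) ≠ 0 := coe_ne_zero' hQ0
    have h2 : (Q' : LaurentSeries Kb) ≠ 0 := coe_ne_zero' hQ0'
    field_simp
  · have e : ((W ((Z / Q) * (Z' / Q')) : FF M) : LaurentSeries Kb) =
        (((W Z : FF M) : LaurentSeries Kb) / ((W Q : FF M) : LaurentSeries Kb)) *
          (((W Z' : FF M) : LaurentSeries Kb) / ((W Q' : FF M) : LaurentSeries Kb)) := by
      rw [map_mul, map_div₀, map_div₀]
      rfl
    rw [e, map_mul, map_mul, hZ.2, hQ.2, hZ'.2, hQ'.2]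
    have h1 : ((W Q : FF M) : LaurentSeries Kb) ≠ 0 := coe_ne_zero' hWQ0
    have h2 : ((W Q' : FF M) : LaurentSeries Kb) ≠ 0 := coe_ne_zero' hWQ0'
    field_simp
  · change red A (YZ 0 * YZ' 0) = red A (YQ 0 * YQ' 0) *
      ((y.1 : LaurentSeries (kA A)) * (y'.1 : LaurentSeries (kA A)))
    rw [map_mul, map_mul, e0, e0']
    ring
  · change red A (YZ 1 * YZ' 1) = red A (YQ 1 * YQ' 1) *
      ((y.2 : LaurentSeries (kA A)) * (y'.2 : LaurentSeries (kA A)))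
    rw [map_mul, map_mul, e1, e1']
    ring

end Fermat.Agent.T2.helper22
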