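import Mathlib
import Fermat.Agent.T2.helper22_IdealAlg

/-!
# Tier 2 (helper22): the filtration of the special fibre

* `LtLS A M N` : the space `L̃(N ∞̃)` inside `k((q))`; `LMod A M N ⊆ Bt × Bt` the pairs with both
  components in `L̃(N ∞̃)`;
* `iotaLin` : the embedding of `Bt × Bt` into the pairs of Laurent series;
* `red_inL` : reductions of regular functions lie in `L̃(N ∞̃)`.
-/

set_option autoImplicit false
set_option linter.unusedSectionVars false

noncomputable section

namespace Fermat.Agent.T2.helper22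

open HahnSeries IntermediateField AlgebraicCurve ModularCurve
open Fermat.Agent.S18.helper19 Fermat.Agent.P2.helper29 Fermat.Agent.P2.helper22
open Fermat.Agent.S24
open Fermat.Agent.P2

variable {M : ℕ} [NeZero M] {A : ValuationSubring Kb} {W : FF M ≃ₐ[Kb] FF M}

/-- shortcut instance (the instance found by synthesis, which is slow to find) -/
local instance algebraFFb2 : Algebra (kA A) (FFb A M) := SubalgebraClass.toAlgebra (FFb A M)

/-! ### The filtration of the special fibre -/

/-- `L̃(N ∞̃)` as a subspace of `k((q))` -/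
def LtLS (A : ValuationSubring Kb) (M : ℕ) [NeZero M] (N : ℤ) :
    Submodule (kA A) (LaurentSeries (kA A)) where
  carrier := {y | InL (FFb A M) N y}
  add_mem' := fun hx hy => hx.add hy
  zero_mem' := inL_zero N
  smul_mem' := fun c x hx => by
    have := InL.smul hx c
    rwa [algebraMap_mul_eq_smul] at this

theorem mem_LtLS {N : ℤ} {y : LaurentSeries (kA A)} : y ∈ LtLS A M N ↔ InL (FFb A M) N y :=
  Iff.rfl

theorem LtLS_eq_map {Qinf : Place (kA A) (FFb A M)} (hQinf : IsInfty Qinf) (N : ℤ) :
    LtLS A M N = (riemannRochSpace (Finsupp.single Qinf N)).map (valLin (FFb A M)) := by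
  ext y
  rw [mem_LtLS, mem_map_valLin_iff hQinf]

theorem finiteDimensional_LtLS (hSb : helper74.RiemannSetting (kA A) (FFb A M))
    {Qinf : Place (kA A) (FFb A M)} (hQinf : IsInfty Qinf) (N : ℤ) :
    FiniteDimensional (kA A) (LtLS A M N) := by
  rw [LtLS_eq_map hQinf]
  have : FiniteDimensional (kA A) (riemannRochSpace (Finsupp.single Qinf N)) :=
    helper74.finiteDimensional_L hSb _
  infer_instance

theorem finrank_LtLS_le (hSb : helper74.RiemannSetting (kA A) (FFb A M))
    {Qinf : Place (kA A) (FFb A M)} (hQinf : IsInfty Qinf) {N : ℤ} (hN : 0 ≤ N) :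
    (Module.finrank (kA A) (LtLS A M N) : ℤ) ≤ N + 1 := by
  rw [LtLS_eq_map hQinf, finrank_map_valLin]
  by_cases h0 : 0 < helper74.ell (Finsupp.single Qinf N)
  · have := helper74.ell_le_degree_add_one hSb _ h0
    rw [degree_single_of hSb] at this
    exact this
  · have h1 : helper74.ell (Finsupp.single Qinf N) = 0 := by omega
    unfold helper74.ell at h1
    rw [h1]
    push_cast
    linarith

/-- the pairs with both components in `L̃(N ∞̃)` -/
def LMod (A : ValuationSubring Kb) (M : ℕ) [NeZero M] (N : ℤ) :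
    Submodule (kA A) (Bt A M × Bt A M) where
  carrier := {y | (y.1 : LaurentSeries (kA A)) ∈ LtLS A M N ∧
    (y.2 : LaurentSeries (kA A)) ∈ LtLS A M N}
  add_mem' := fun hx hy => ⟨(LtLS A M N).add_mem hx.1 hy.1, (LtLS A M N).add_mem hx.2 hy.2⟩
  zero_mem' := ⟨(LtLS A M N).zero_mem, (LtLS A M N).zero_mem⟩
  smul_mem' := fun c x hx => by
    refine ⟨?_, ?_⟩
    · change ((c • x.1 : Bt A M) : LaurentSeries (kA A)) ∈ LtLS A M N
      rw [coe_smul_Bt, algebraMap_mul_eq_smul]
      exact (LtLS A M N).smul_mem c hx.1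
    · change ((c • x.2 : Bt A M) : LaurentSeries (kA A)) ∈ LtLS A M N
      rw [coe_smul_Bt, algebraMap_mul_eq_smul]
      exact (LtLS A M N).smul_mem c hx.2

theorem mem_LMod {N : ℤ} {y : Bt A M × Bt A M} :
    y ∈ LMod A M N ↔ InL (FFb A M) N (y.1 : LaurentSeries (kA A)) ∧
      InL (FFb A M) N (y.2 : LaurentSeries (kA A)) := Iff.rfl

theorem LMod_mono {N N' : ℤ} (h : N ≤ N') : LMod A M N ≤ LMod A M N' :=
  fun _ hy => ⟨InL.mono hy.1 h, InL.mono hy.2 h⟩

theorem exists_mem_LMod (y : Bt A M × Bt A M) : ∃ N : ℕ, y ∈ LMod A M N := by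
  obtain ⟨n₁, h₁⟩ := y.1.2
  obtain ⟨n₂, h₂⟩ := y.2.2
  refine ⟨(max n₁ n₂).toNat, InL.mono h₁ ?_, InL.mono h₂ ?_⟩
  · exact le_trans (le_max_left _ _) (Int.self_le_toNat _)
  · exact le_trans (le_max_right _ _) (Int.self_le_toNat _)

/-- the embedding of `Bt × Bt` into the pairs of Laurent series -/
def iotaLin (A : ValuationSubring Kb) (M : ℕ) [NeZero M] :
    (Bt A M × Bt A M) →ₗ[kA A] (Fin 2 → LaurentSeries (kA A)) where
  toFun y := ![(y.1 : LaurentSeries (kA A)), (y.2 : LaurentSeries (kA A))]
  map_add' y y' := by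
    funext i
    fin_cases i <;> rfl
  map_smul' c y := by
    funext i
    fin_cases i
    · change ((c • y.1 : Bt A M) : LaurentSeries (kA A)) = c • (y.1 : LaurentSeries (kA A))
      rw [coe_smul_Bt, algebraMap_mul_eq_smul]
    · change ((c • y.2 : Bt A M) : LaurentSeries (kA A)) = c • (y.2 : LaurentSeries (kA A))
      rw [coe_smul_Bt, algebraMap_mul_eq_smul]

@[simp] theorem iotaLin_zero (y : Bt A M × Bt A M) :
    iotaLin A M y 0 = (y.1 : LaurentSeries (kA A)) := rfl

@[simp] theorem iotaLin_one (y : Bt A M × Bt A M) :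
    iotaLin A M y 1 = (y.2 : LaurentSeries (kA A)) := rfl

theorem iotaLin_injective : Function.Injective (iotaLin A M) := by
  intro y y' h
  have h0 := congrFun h 0
  have h1 := congrFun h 1
  exact Prod.ext (Subtype.ext h0) (Subtype.ext h1)

/-- `L_N` is finite dimensional -/
theorem finiteDimensional_LMod (hSb : helper74.RiemannSetting (kA A) (FFb A M))
    {Qinf : Place (kA A) (FFb A M)} (hQinf : IsInfty Qinf) (N : ℤ) :
    FiniteDimensional (kA A) (LMod A M N) := by
  have := finiteDimensional_LtLS hSb hQinf N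
  let φ : LMod A M N →ₗ[kA A] (LtLS A M N × LtLS A M N) :=
    { toFun := fun y => (⟨(y.1.1 : LaurentSeries (kA A)), y.2.1⟩,
        ⟨(y.1.2 : LaurentSeries (kA A)), y.2.2⟩)
      map_add' := fun y y' => rfl
      map_smul' := fun c y => by
        apply Prod.ext
        · apply Subtype.ext
          change ((c • y.1.1 : Bt A M) : LaurentSeries (kA A)) =
            c • (y.1.1 : LaurentSeries (kA A))
          rw [coe_smul_Bt, algebraMap_mul_eq_smul]
        · apply Subtype.ext
          change ((c • y.1.2 : Bt A M) : LaurentSeries (kA A)) =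
            c • (y.1.2 : LaurentSeries (kA A))
          rw [coe_smul_Bt, algebraMap_mul_eq_smul] }
  have hφ : Function.Injective φ := by
    intro y y' h
    have h1 := congrArg (fun z => (z.1 : LaurentSeries (kA A))) h
    have h2 := congrArg (fun z => (z.2 : LaurentSeries (kA A))) h
    exact Subtype.ext (Prod.ext (Subtype.ext h1) (Subtype.ext h2))
  exact FiniteDimensional.of_injective φ hφ

/-! ### Reductions of regular functions -/

theorem coeff_eq_zero_of_incl {Y : LaurentSeries A} {f : LaurentSeries Kb} (h : incl A Y = f)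
    {k : ℤ} (hk : f.coeff k = 0) : Y.coeff k = 0 := by
  have h1 : (incl A Y).coeff k = ((Y.coeff k : A) : Kb) := coeffMap_coeff A.subtype Y k
  rw [h, hk] at h1
  exact Subtype.ext h1.symm

theorem red_coeff_eq_zero {Y : LaurentSeries A} {k : ℤ} (h : Y.coeff k = 0) :
    (red A Y).coeff k = 0 := by
  have h1 : (red A Y).coeff k = IsLocalRing.residue A (Y.coeff k) :=
    coeffMap_coeff (IsLocalRing.residue A) Y k
  rw [h1, h, map_zero]

/-- the reduction of a function regular off the two cusps with pole order at most `N` at `∞`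
lies in `L̃(N ∞̃)`. -/
theorem red_inL (hReg : RegRed2Statement M A W) {f : FF M} {Y₁ Y₂ : LaurentSeries A}
    (hf : IsReg2 W f) (hrep : IsRep A W f Y₁ Y₂) {N : ℤ}
    (hord : ∀ k : ℤ, k < -N → (f : LaurentSeries Kb).coeff k = 0) :
    InL (FFb A M) N (red A Y₁) := by
  obtain ⟨n', hn'⟩ := hReg f Y₁ Y₂ hf hrep
  exact ⟨hn'.1, hn'.2.1, fun k hk => red_coeff_eq_zero (coeff_eq_zero_of_incl hrep.1 (hord k hk))⟩

theorem coeff_eq_zero_of_le_order {K : Type*} [Field K] {f : LaurentSeries K} {N : ℤ}
    (h : f = 0 ∨ -N ≤ f.order) : ∀ k : ℤ, k < -N → f.coeff k = 0 := by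
  intro k hk
  rcases h with rfl | h
  · rfl
  · exact HahnSeries.coeff_eq_zero_of_lt_order (lt_of_lt_of_le hk h)

end Fermat.Agent.T2.helper22
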