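import Mathlib
import Fermat.Agent.T2.helper22_Filt

/-!
# Tier 2 (helper22): the counts of the ideal step

* `exists_both_ne_zero` : linear algebra for the multiplier;
* `exists_multiplier2` : multipliers which are units at both `w₁` and `w₂`;
* `count_upper` : `dim (Rt ∩ L_N) ≤ 2 N + 1 - g` for large `N` (from saturation);
* `count_lower` : `dim (ã ∩ L_N) ≥ 2 N + 1 - g`.
-/

set_option autoImplicit false
set_option linter.unusedSectionVars false

noncomputable section

namespace Fermat.Agent.T2.helper22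

open HahnSeries IntermediateField AlgebraicCurve ModularCurve
open Fermat.Agent.S18.helper19 Fermat.Agent.P2.helper29 Fermat.Agent.P2.helper22
open Fermat.Agent.S24
open Fermat.Agent.P2

variable {M : ℕ} [NeZero M] {A : ValuationSubring Kb} {W : FF M ≃ₐ[Kb] FF M}

/-- shortcut instance (the instance found by synthesis, which is slow to find) -/
local instance algebraFFb3 : Algebra (kA A) (FFb A M) := SubalgebraClass.toAlgebra (FFb A M)

/-! ### Linear algebra -/

/-- a linearly independent family of `r` pairs whose components lie in a space of dimension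
`< r` has a linear combination with both components nonzero. -/
theorem exists_both_ne_zero {k V : Type*} [Field k] [AddCommGroup V] [Module k V]
    (L : Submodule k V) [FiniteDimensional k L] {r : ℕ} (v : Fin r → Fin 2 → V)
    (hv : LinearIndependent k v) (hL : ∀ j i, v j i ∈ L) (hr : Module.finrank k L < r) :
    ∃ c : Fin r → k, (∑ j, c j • v j) 0 ≠ 0 ∧ (∑ j, c j • v j) 1 ≠ 0 := by
  have key : ∀ i i' : Fin 2, (∀ x : Fin 2 → V, x i = 0 → x i' = 0 → x = 0) →
      ∃ c : Fin r → k, (∑ j, c j • v j) i ≠ 0 := by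
    intro i i' hii'
    by_contra hall
    push Not at hall
    let ψ : (Fin r → k) →ₗ[k] V :=
      (LinearMap.proj i').comp (Fintype.linearCombination k v)
    have hψ : ∀ c, ψ c = (∑ j, c j • v j) i' := fun c => by
      simp [ψ, Fintype.linearCombination_apply]
    have hψL : ∀ c, ψ c ∈ L := by
      intro c
      rw [hψ, Finset.sum_apply]
      exact L.sum_mem fun j _ => L.smul_mem _ (hL j i')
    have hinj : Function.Injective (LinearMap.codRestrict L ψ hψL) := by
      rw [← LinearMap.ker_eq_bot, LinearMap.ker_eq_bot']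
      intro c hc
      have h1 : ψ c = 0 := congrArg Subtype.val hc
      rw [hψ] at h1
      have h2 : ∑ j, c j • v j = 0 := hii' _ (hall c) h1
      funext j
      exact (Fintype.linearIndependent_iff.1 hv) c h2 j
    have := LinearMap.finrank_le_finrank_of_injective hinj
    rw [Module.finrank_fin_fun] at this
    omega
  have h01 : ∀ x : Fin 2 → V, x 0 = 0 → x 1 = 0 → x = 0 := by
    intro x h0 h1
    funext i
    fin_cases i
    · exact h0
    · exact h1
  obtain ⟨c, hc⟩ := key 0 1 h01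
  obtain ⟨c', hc'⟩ := key 1 0 (fun x h1 h0 => h01 x h0 h1)
  by_cases h1 : (∑ j, c j • v j) 1 = 0
  · by_cases h2 : (∑ j, c' j • v j) 0 = 0
    · refine ⟨c + c', ?_, ?_⟩
      · simp only [Pi.add_apply, add_smul, Finset.sum_add_distrib]
        rw [h2, add_zero]
        exact hc
      · simp only [Pi.add_apply, add_smul, Finset.sum_add_distrib]
        rw [h1, zero_add]
        exact hc'
    · exact ⟨c', h2, hc'⟩
  · exact ⟨c, hc, h1⟩

/-! ### The cusp divisor -/

section Cusps

variable {Pinf P2 : Place Kb (FF M)}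

/-- the divisor `N (∞ + ∞₂)` -/
def cuspDiv (Pinf P2 : Place Kb (FF M)) (N : ℤ) : Divisor Kb (FF M) :=
  Finsupp.single Pinf N + Finsupp.single P2 N

theorem cuspDiv_inf (hne : Pinf ≠ P2) (N : ℤ) : cuspDiv Pinf P2 N Pinf = N := by
  classical
  rw [cuspDiv, Finsupp.add_apply, Finsupp.single_eq_same, Finsupp.single_eq_of_ne hne, add_zero]

theorem cuspDiv_inf2 (hne : Pinf ≠ P2) (N : ℤ) : cuspDiv Pinf P2 N P2 = N := by
  classical
  rw [cuspDiv, Finsupp.add_apply, Finsupp.single_eq_same, Finsupp.single_eq_of_ne hne.symm,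
    zero_add]

theorem cuspDiv_of_ne {v : Place Kb (FF M)} (h1 : v ≠ Pinf) (h2 : v ≠ P2) (N : ℤ) :
    cuspDiv Pinf P2 N v = 0 := by
  classical
  rw [cuspDiv, Finsupp.add_apply, Finsupp.single_eq_of_ne h1, Finsupp.single_eq_of_ne h2,
    add_zero]

theorem degree_cuspDiv (hS : helper74.RiemannSetting Kb (FF M)) (N : ℤ) :
    Divisor.degree (cuspDiv Pinf P2 N) = 2 * N := by
  rw [cuspDiv, map_add, degree_single_of hS, degree_single_of hS]
  ring

/-- membership in `L(N (∞ + ∞₂) - D)` -/
theorem mem_L_cusp (hne : Pinf ≠ P2) (N : ℤ) (D : Divisor Kb (FF M)) {f : FF M}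
    (hf0 : f ≠ 0) :
    f ∈ riemannRochSpace (cuspDiv Pinf P2 N - D) ↔
      (∀ v : Place Kb (FF M), v ≠ Pinf → v ≠ P2 → D v ≤ v.ord f) ∧
        D Pinf - N ≤ Pinf.ord f ∧ D P2 - N ≤ P2.ord f := by
  rw [helper74.mem_L_iff' hf0]
  constructor
  · intro h
    refine ⟨fun v h1 h2 => ?_, ?_, ?_⟩
    · have := h v
      rw [Finsupp.sub_apply, cuspDiv_of_ne h1 h2] at this
      linarith
    · have := h Pinf
      rw [Finsupp.sub_apply, cuspDiv_inf hne] at this
      linarith
    · have := h P2
      rw [Finsupp.sub_apply, cuspDiv_inf2 hne] at this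
      linarith
  · rintro ⟨h1, h2, h3⟩ v
    rw [Finsupp.sub_apply]
    by_cases hv1 : v = Pinf
    · subst hv1
      rw [cuspDiv_inf hne]
      linarith
    by_cases hv2 : v = P2
    · subst hv2
      rw [cuspDiv_inf2 hne]
      linarith
    rw [cuspDiv_of_ne hv1 hv2]
    have := h1 v hv1 hv2
    linarith

theorem ne_of_not_isInfty (hPinf : IsInfty Pinf) {P : Place Kb (FF M)} (hP : ¬ IsInfty P) :
    P ≠ Pinf := fun h => hP (h ▸ hPinf)

theorem ne_of_not_isInfty2 (hP2 : IsInfty2 W P2) {P : Place Kb (FF M)}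
    (hP : ¬ IsInfty2 W P) : P ≠ P2 := fun h => hP (h ▸ hP2)

/-- the elements of `L(N (∞ + ∞₂) - D)` are regular off the two cusps if `D ≥ 0` there -/
theorem isReg2_of_mem_L (hPinf : IsInfty Pinf) (hP2 : IsInfty2 W P2) (hne : Pinf ≠ P2)
    (N : ℤ) (D : Divisor Kb (FF M))
    (hD : ∀ P : Place Kb (FF M), ¬ IsInfty P → ¬ IsInfty2 W P → 0 ≤ D P) {f : FF M}
    (hf : f ∈ riemannRochSpace (cuspDiv Pinf P2 N - D)) : IsReg2 W f := by
  by_cases hf0 : f = 0
  · rw [hf0]; exact isReg2_zero
  intro P hP hP'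
  have := ((mem_L_cusp hne N D hf0).1 hf).1 P (ne_of_not_isInfty hPinf hP)
    (ne_of_not_isInfty2 hP2 hP')
  linarith [hD P hP hP']

/-- the coefficient bound at `∞` for the elements of `L(N (∞ + ∞₂) - D)` -/
theorem coeff_of_mem_L (hPinf : IsInfty Pinf) (hne : Pinf ≠ P2)
    (N : ℤ) (D : Divisor Kb (FF M)) {N' : ℤ} (hN' : N - D Pinf ≤ N') {f : FF M}
    (hf : f ∈ riemannRochSpace (cuspDiv Pinf P2 N - D)) :
    ∀ k : ℤ, k < -N' → (f : LaurentSeries Kb).coeff k = 0 := by
  apply coeff_eq_zero_of_le_order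
  by_cases hf0 : f = 0
  · left; rw [hf0]; rfl
  right
  have := ((mem_L_cusp hne N D hf0).1 hf).2.1
  rw [hPinf f hf0] at this
  linarith

/-- the coefficient bound at `∞₂` for the elements of `L(N (∞ + ∞₂) - D)` -/
theorem coeff_of_mem_L2 (hP2 : IsInfty2 W P2) (hne : Pinf ≠ P2)
    (N : ℤ) (D : Divisor Kb (FF M)) {N' : ℤ} (hN' : N - D P2 ≤ N') {f : FF M}
    (hf : f ∈ riemannRochSpace (cuspDiv Pinf P2 N - D)) :
    ∀ k : ℤ, k < -N' → ((W f : FF M) : LaurentSeries Kb).coeff k = 0 := by
  apply coeff_eq_zero_of_le_order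
  by_cases hf0 : f = 0
  · left; rw [hf0, map_zero]; rfl
  right
  have := ((mem_L_cusp hne N D hf0).1 hf).2.2
  rw [hP2 f hf0] at this
  linarith

end Cusps

end Fermat.Agent.T2.helper22
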