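import Mathlib
import Fermat.Agent.T2.helper22_Count

/-!
# Tier 2 (helper22): multipliers which are units at both `w₁` and `w₂`

`exists_multiplier2` : for every divisor `D` there is a function `Q`, regular off the two cusps,
with `ord_P Q ≥ -D(P)` off the two cusps, with integral pair of expansions both of whose
reductions are nonzero elements of the special fibre field.
-/

set_option autoImplicit false
set_option linter.unusedSectionVars false

noncomputable section

namespace Fermat.Agent.T2.helper22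

open HahnSeries IntermediateField AlgebraicCurve ModularCurve
open Fermat.Agent.S18.helper19 Fermat.Agent.P2.helper29 Fermat.Agent.P2.helper22
open Fermat.Agent.S24
open Fermat.Agent.P2

variable {M : ℕ} [NeZero M] {A : ValuationSubring Kb} {W : FF M ≃ₐ[Kb] FF M}

/-- shortcut instance (the instance found by synthesis, which is slow to find) -/
local instance algebraFFb4 : Algebra (kA A) (FFb A M) := SubalgebraClass.toAlgebra (FFb A M)

variable {Pinf P2 : Place Kb (FF M)}

/-- the pair of expansions of an `A`-linear combination -/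
theorem isRep_sum {r : ℕ} {F : Fin r → FF M} {Y : Fin r → Fin 2 → LaurentSeries A}
    (hrep : ∀ j, IsRep A W (F j) (Y j 0) (Y j 1)) (a : Fin r → A) :
    IsRep A W (∑ j, ((a j : A) : Kb) • F j) ((∑ j, a j • Y j) 0) ((∑ j, a j • Y j) 1) := by
  rw [← famMap_eq_pairLin_iff, famMap_subtype_sum, map_sum]
  refine Finset.sum_congr rfl fun j _ => ?_
  rw [map_smul, famMap_eq_pairLin_iff.2 (hrep j)]

/-- goodness of both expansions of a regular function with nonzero reductions -/
theorem isGood_of_isRep (hWW : ∀ f, W (W f) = f) (hReg : RegRed2Statement M A W) {f : FF M}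
    {Y₁ Y₂ : LaurentSeries A} (hf : IsReg2 W f) (hrep : IsRep A W f Y₁ Y₂)
    (h1 : red A Y₁ ≠ 0) (h2 : red A Y₂ ≠ 0) : IsGood A M Y₁ ∧ IsGood A M Y₂ := by
  obtain ⟨n, hn⟩ := hReg f Y₁ Y₂ hf hrep
  obtain ⟨n', hn'⟩ := hReg (W f) Y₂ Y₁ (hf.map hWW) (hrep.swap hWW)
  refine ⟨⟨?_, hn.1, h1⟩, ⟨?_, hn'.1, h2⟩⟩
  · change incl A Y₁ ∈ FF M
    rw [hrep.1]; exact f.2
  · change incl A Y₂ ∈ FF M
    rw [hrep.2]; exact (W f).2

/-- **multipliers**: for every divisor `D` there is a function `Q`, regular off the two cusps,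
with `ord_P Q ≥ -D(P)` off the two cusps, which is a unit at both `w₁` and `w₂`. -/
theorem exists_multiplier2 (hWW : ∀ f, W (W f) = f) (hSc : ScaleStatement M A)
    (hInt : Integrality2Statement M A W) (hReg : RegRed2Statement M A W) {g : ℕ}
    (hineq : ∀ D : Divisor Kb (FF M), Divisor.degree D + 1 ≤ (helper74.ell D : ℤ) + g)
    (hSb : helper74.RiemannSetting (kA A) (FFb A M)) (hPinf : IsInfty Pinf)
    (hP2 : IsInfty2 W P2) (hne : Pinf ≠ P2) {Qinf : Place (kA A) (FFb A M)}
    (hQinf : IsInfty Qinf) (D : Divisor Kb (FF M)) :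
    ∃ (Q : FF M) (YQ : Fin 2 → LaurentSeries A), IsRep A W Q (YQ 0) (YQ 1) ∧
      (∀ i, IsGood A M (YQ i)) ∧
      ∀ P : Place Kb (FF M), ¬ IsInfty P → ¬ IsInfty2 W P → 0 ≤ P.ord Q ∧ -D P ≤ P.ord Q := by
  classical
  have hS := riemannSetting_FF M
  obtain ⟨Dneg, hDneg⟩ : ∃ Dneg : Divisor Kb (FF M),
      Dneg = D.mapRange (fun x => max 0 (-x)) (by simp) := ⟨_, rfl⟩
  have hDn0 : ∀ v, 0 ≤ Dneg v := fun v => by
    rw [hDneg, Finsupp.mapRange_apply]; exact le_max_left _ _
  have hDnD : ∀ v, -D v ≤ Dneg v := fun v => by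
    rw [hDneg, Finsupp.mapRange_apply]; exact le_max_right _ _
  obtain ⟨n₀, hn₀⟩ : ∃ n₀ : ℤ, n₀ = max 0 (Divisor.degree Dneg + g + 1) := ⟨_, rfl⟩
  have hn₀0 : 0 ≤ n₀ := hn₀ ▸ le_max_left _ _
  have hn₀1 : Divisor.degree Dneg + g + 1 ≤ n₀ := hn₀ ▸ le_max_right _ _
  have hfinV : FiniteDimensional Kb (riemannRochSpace (cuspDiv Pinf P2 n₀ - Dneg)) :=
    helper74.finiteDimensional_L hS _
  have hV : ∀ f ∈ riemannRochSpace (cuspDiv Pinf P2 n₀ - Dneg), IsReg2 W f := fun f hf =>
    isReg2_of_mem_L hPinf hP2 hne n₀ Dneg (fun P _ _ => hDn0 P) hf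
  obtain ⟨r, F, Y, hr, hFV, hrep, -, hind⟩ := exists_pair_basis hWW hSc hInt _ hV
  -- the count
  have hcount : (n₀ : ℤ) + 1 < r := by
    have h1 := hineq (cuspDiv Pinf P2 n₀ - Dneg)
    rw [map_sub, degree_cuspDiv hS] at h1
    unfold helper74.ell at h1
    rw [← hr] at h1
    linarith
  have hfinL := finiteDimensional_LtLS hSb hQinf n₀
  have hLle := finrank_LtLS_le hSb hQinf hn₀0
  have hlt : Module.finrank (kA A) (LtLS A M n₀) < r := by
    have : (Module.finrank (kA A) (LtLS A M n₀) : ℤ) < r := by linarith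
    exact_mod_cast this
  -- the reductions of the basis
  have hli : LinearIndependent (kA A) (fun j => famMap (IsLocalRing.residue A) (Y j)) :=
    linearIndependent_famMap_of_forall A (IsLocalRing.residue A)
      IsLocalRing.residue_surjective Y hind
  have hmem : ∀ j i, famMap (IsLocalRing.residue A) (Y j) i ∈ LtLS A M n₀ := by
    intro j i
    fin_cases i
    · exact red_inL hReg (hV _ (hFV j)) (hrep j)
        (coeff_of_mem_L hPinf hne n₀ Dneg (by linarith [hDn0 Pinf]) (hFV j))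
    · exact red_inL hReg ((hV _ (hFV j)).map hWW) ((hrep j).swap hWW)
        (coeff_of_mem_L2 hP2 hne n₀ Dneg (by linarith [hDn0 P2]) (hFV j))
  obtain ⟨c, hc0, hc1⟩ := exists_both_ne_zero (LtLS A M n₀) _ hli hmem hlt
  choose a ha using fun j => IsLocalRing.residue_surjective (c j)
  have hred : famMap (IsLocalRing.residue A) (∑ j, a j • Y j) =
      ∑ j, c j • famMap (IsLocalRing.residue A) (Y j) := by
    rw [famMap_sum]
    exact Finset.sum_congr rfl fun j _ => by rw [ha j]
  have hQV : (∑ j, ((a j : A) : Kb) • F j) ∈ riemannRochSpace (cuspDiv Pinf P2 n₀ - Dneg) :=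
    Submodule.sum_mem _ fun j _ => Submodule.smul_mem _ _ (hFV j)
  have hQrep := isRep_sum (W := W) hrep a
  have h0 : red A ((∑ j, a j • Y j) 0) ≠ 0 := by
    have := congrFun hred 0
    rw [famMap_apply] at this
    rw [this]; exact hc0
  have h1 : red A ((∑ j, a j • Y j) 1) ≠ 0 := by
    have := congrFun hred 1
    rw [famMap_apply] at this
    rw [this]; exact hc1
  have hQreg := hV _ hQV
  obtain ⟨hg0, hg1⟩ := isGood_of_isRep hWW hReg hQreg hQrep h0 h1
  have hQ0 : (∑ j, ((a j : A) : Kb) • F j) ≠ 0 := ne_zero_of_isRep_good hQrep hg0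
  refine ⟨_, _, hQrep, ?_, fun P hP hP' => ?_⟩
  · intro i
    fin_cases i
    · exact hg0
    · exact hg1
  · have := ((mem_L_cusp hne n₀ Dneg hQ0).1 hQV).1 P (ne_of_not_isInfty hPinf hP)
      (ne_of_not_isInfty2 hP2 hP')
    exact ⟨le_trans (hDn0 P) this, le_trans (hDnD P) this⟩

end Fermat.Agent.T2.helper22
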