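import Mathlib
import Fermat.Agent.T2.helper22_Mult

/-!
# Tier 2 (helper22): the two counts of the ideal step

* `count_lower` : `dim (ã ∩ L_N) ≥ 2 N + 1 - g`;
* `count_upper` : `dim (Rt ∩ L_N) ≤ 2 N + 1 - g` for large `N` (from saturation).
-/

set_option autoImplicit false
set_option linter.unusedSectionVars false

noncomputable section

namespace Fermat.Agent.T2.helper22

open HahnSeries IntermediateField AlgebraicCurve ModularCurve
open Fermat.Agent.S18.helper19 Fermat.Agent.P2.helper29 Fermat.Agent.P2.helper22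
open Fermat.Agent.S24
open Fermat.Agent.P2

variable {M : ℕ} [NeZero M] {A : ValuationSubring Kb} {W : FF M ≃ₐ[Kb] FF M}

/-- shortcut instance (the instance found by synthesis, which is slow to find) -/
local instance algebraFFb5 : Algebra (kA A) (FFb A M) := SubalgebraClass.toAlgebra (FFb A M)

variable {Pinf P2 : Place Kb (FF M)}

/-- componentwise multiplication by a pair of Laurent series -/
def mulFam {K : Type*} [Field K] (q : Fin 2 → LaurentSeries K) :
    (Fin 2 → LaurentSeries K) →ₗ[K] (Fin 2 → LaurentSeries K) where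
  toFun x := fun i => q i * x i
  map_add' x y := by
    funext i
    simp [mul_add]
  map_smul' c x := by
    funext i
    simp only [Pi.smul_apply, RingHom.id_apply]
    rw [← algebraMap_mul_eq_smul, ← algebraMap_mul_eq_smul]
    ring

@[simp] theorem mulFam_apply {K : Type*} [Field K] (q x : Fin 2 → LaurentSeries K) (i : Fin 2) :
    mulFam q x i = q i * x i := rfl

/-- the pair of expansions of `(Z / Q) ^ n / u` -/
theorem exists_rep_pow_div (hWW : ∀ f, W (W f) = f) (hInt : Integrality2Statement M A W)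
    {n : ℕ} (hn : 0 < n) {u Q : FF M} {YQ : Fin 2 → LaurentSeries A} (hu0 : u ≠ 0)
    (hu1 : IsRedOne A M (u : LaurentSeries Kb))
    (hu2 : IsRedOne A M ((W u : FF M) : LaurentSeries Kb))
    (hQ : IsRep A W Q (YQ 0) (YQ 1)) (hQg : ∀ i, IsGood A M (YQ i))
    {Z : FF M} {YZ : Fin 2 → LaurentSeries A} (hI : InIdeal W n u Q Z)
    (hZ : IsRep A W Z (YZ 0) (YZ 1)) :
    ∃ Y₀ Y₁ : LaurentSeries A, IsRep A W ((Z / Q) ^ n * u⁻¹) Y₀ Y₁ ∧
      red A Y₀ * red A (YQ 0) ^ n = red A (YZ 0) ^ n ∧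
      red A Y₁ * red A (YQ 1) ^ n = red A (YZ 1) ^ n := by
  have hQ0 : Q ≠ 0 := ne_zero_of_isRep_good hQ (hQg 0)
  have hWu0 : W u ≠ 0 := by simpa using hu0
  have hWQ0 : W Q ≠ 0 := by simpa using hQ0
  obtain ⟨U₁, U₂, hU₁, hU₂, heU, hrU⟩ := hu1
  obtain ⟨V₁, V₂, hV₁, hV₂, heV, hrV⟩ := hu2
  have hreg := isReg2_pow_div hn hu0 hQ0 hI
  obtain ⟨Y₀, Y₁, hrep, hm₀, hm₁⟩ := exists_rep_of_wint hWW hInt hreg (N₀ := YZ 0 ^ n * U₂)
    (D₀ := YQ 0 ^ n * U₁) (N₁ := YZ 1 ^ n * V₂) (D₁ := YQ 1 ^ n * V₁)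
    ((isGood_pow (hQg 0) n).mul hU₁) ((isGood_pow (hQg 1) n).mul hV₁)
    (by
      have e : (((Z / Q) ^ n * u⁻¹ : FF M) : LaurentSeries Kb) =
          ((Z : LaurentSeries Kb) / (Q : LaurentSeries Kb)) ^ n *
            (u : LaurentSeries Kb)⁻¹ := rfl
      rw [e, map_mul, map_mul, map_pow, map_pow, hZ.1, hQ.1, heU, div_pow]
      have h1 : (Q : LaurentSeries Kb) ≠ 0 := coe_ne_zero' hQ0
      have h2 : (u : LaurentSeries Kb) ≠ 0 := coe_ne_zero' hu0
      field_simp)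
    (by
      have e : ((W ((Z / Q) ^ n * u⁻¹) : FF M) : LaurentSeries Kb) =
          (((W Z : FF M) : LaurentSeries Kb) / ((W Q : FF M) : LaurentSeries Kb)) ^ n *
            ((W u : FF M) : LaurentSeries Kb)⁻¹ := by
        rw [map_mul, map_pow, map_div₀, map_inv₀]
        rfl
      rw [e, map_mul, map_mul, map_pow, map_pow, hZ.2, hQ.2, heV, div_pow]
      have h1 : ((W Q : FF M) : LaurentSeries Kb) ≠ 0 := coe_ne_zero' hWQ0
      have h2 : ((W u : FF M) : LaurentSeries Kb) ≠ 0 := coe_ne_zero' hWu0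
      field_simp)
  refine ⟨Y₀, Y₁, hrep, ?_, ?_⟩
  · have h : red A Y₀ * (red A (YQ 0) ^ n * red A U₁) = red A (YZ 0) ^ n * red A U₂ := by
      rw [← map_pow, ← map_pow, ← map_mul, ← map_mul, ← map_mul, hm₀]
    rw [hrU, ← mul_assoc] at h
    exact mul_right_cancel₀ hU₂.2.2 h
  · have h : red A Y₁ * (red A (YQ 1) ^ n * red A V₁) = red A (YZ 1) ^ n * red A V₂ := by
      rw [← map_pow, ← map_pow, ← map_mul, ← map_mul, ← map_mul, hm₁]
    rw [hrV, ← mul_assoc] at h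
    exact mul_right_cancel₀ hV₂.2.2 h

/-- a quotient whose `n`-th power lies in `L̃(n N ∞̃)` lies in `L̃(N ∞̃)` -/
theorem inL_div_of_pow {n : ℕ} (hn : 0 < n) {N : ℤ} {z q h : LaurentSeries (kA A)}
    (hz : z ∈ FFb A M) (hq : q ∈ FFb A M) (hq0 : q ≠ 0) (hh : InL (FFb A M) ((n : ℤ) * N) h)
    (he : h * q ^ n = z ^ n) : InL (FFb A M) N (z / q) := by
  refine InL.of_pow (div_mem hz hq) hn ?_
  have : (z / q) ^ n = h := by
    rw [div_pow, div_eq_iff (pow_ne_zero _ hq0)]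
    exact he.symm
  rw [this]
  exact hh

/-- the element of `ã ∩ L_N` attached to an element of `L(N (∞ + ∞₂) - D - div Q)` -/
theorem exists_mem_aMod_LMod (hWW : ∀ f, W (W f) = f) (hInt : Integrality2Statement M A W)
    (hReg : RegRed2Statement M A W) (hPinf : IsInfty Pinf) (hP2 : IsInfty2 W P2)
    (hne : Pinf ≠ P2) {n : ℕ} (hn : 0 < n) {u Q : FF M} {YQ : Fin 2 → LaurentSeries A}
    (hu0 : u ≠ 0) (hu1 : IsRedOne A M (u : LaurentSeries Kb))
    (hu2 : IsRedOne A M ((W u : FF M) : LaurentSeries Kb))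
    (hQ : IsRep A W Q (YQ 0) (YQ 1)) (hQg : ∀ i, IsGood A M (YQ i))
    {D DQ : Divisor Kb (FF M)} (hD : ∀ v : Place Kb (FF M), (n : ℤ) * D v = v.ord u)
    (hDQ : ∀ v : Place Kb (FF M), DQ v = v.ord Q)
    (hQm : ∀ P : Place Kb (FF M), ¬ IsInfty P → ¬ IsInfty2 W P → -D P ≤ P.ord Q)
    (N : ℤ) {Z : FF M} {YZ : Fin 2 → LaurentSeries A}
    (hZV : Z ∈ riemannRochSpace (cuspDiv Pinf P2 N - (D + DQ)))
    (hZ : IsRep A W Z (YZ 0) (YZ 1)) :
    ∃ y : Bt A M × Bt A M, y ∈ aMod A W n u Q YQ ⊓ LMod A M N ∧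
      red A (YZ 0) = red A (YQ 0) * (y.1 : LaurentSeries (kA A)) ∧
      red A (YZ 1) = red A (YQ 1) * (y.2 : LaurentSeries (kA A)) := by
  have hQ0 : Q ≠ 0 := ne_zero_of_isRep_good hQ (hQg 0)
  have hn' : (0 : ℤ) < n := by exact_mod_cast hn
  have hI : InIdeal W n u Q Z := by
    by_cases hZ0 : Z = 0
    · exact Or.inl hZ0
    refine Or.inr fun P hP hP' => ?_
    have := ((mem_L_cusp hne N (D + DQ) hZ0).1 hZV).1 P (ne_of_not_isInfty hPinf hP)
      (ne_of_not_isInfty2 hP2 hP')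
    rw [Finsupp.add_apply, hDQ] at this
    rw [← hD P]
    have h2 : D P ≤ P.ord Z - P.ord Q := by linarith
    gcongr
  have hZreg : IsReg2 W Z := by
    refine isReg2_of_mem_L hPinf hP2 hne N (D + DQ) (fun P hP hP' => ?_) hZV
    rw [Finsupp.add_apply, hDQ]
    linarith [hQm P hP hP']
  obtain ⟨Y₀, Y₁, hHrep, hr₀, hr₁⟩ := exists_rep_pow_div hWW hInt hn hu0 hu1 hu2 hQ hQg hI hZ
  have hHreg := isReg2_pow_div hn hu0 hQ0 hI
  -- the coefficient bounds for `H`
  have hb0 : ∀ k : ℤ, k < -((n : ℤ) * N) →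
      (((Z / Q) ^ n * u⁻¹ : FF M) : LaurentSeries Kb).coeff k = 0 := by
    apply coeff_eq_zero_of_le_order
    by_cases hZ0 : Z = 0
    · left
      rw [hZ0, zero_div, zero_pow hn.ne', zero_mul]
      rfl
    right
    have hH0 : (Z / Q) ^ n * u⁻¹ ≠ 0 :=
      mul_ne_zero (pow_ne_zero _ (div_ne_zero hZ0 hQ0)) (inv_ne_zero hu0)
    rw [← hPinf _ hH0, ord_pow_div_mul_inv Pinf hu0 hQ0 hZ0, ← hD Pinf]
    have := ((mem_L_cusp hne N (D + DQ) hZ0).1 hZV).2.1
    rw [Finsupp.add_apply, hDQ] at this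
    nlinarith
  have hb1 : ∀ k : ℤ, k < -((n : ℤ) * N) →
      ((W ((Z / Q) ^ n * u⁻¹) : FF M) : LaurentSeries Kb).coeff k = 0 := by
    apply coeff_eq_zero_of_le_order
    by_cases hZ0 : Z = 0
    · left
      rw [hZ0, zero_div, zero_pow hn.ne', zero_mul, map_zero]
      rfl
    right
    have hH0 : (Z / Q) ^ n * u⁻¹ ≠ 0 :=
      mul_ne_zero (pow_ne_zero _ (div_ne_zero hZ0 hQ0)) (inv_ne_zero hu0)
    rw [← hP2 _ hH0, ord_pow_div_mul_inv P2 hu0 hQ0 hZ0, ← hD P2]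
    have := ((mem_L_cusp hne N (D + DQ) hZ0).1 hZV).2.2
    rw [Finsupp.add_apply, hDQ] at this
    nlinarith
  have hL0 : InL (FFb A M) ((n : ℤ) * N) (red A Y₀) := red_inL hReg hHreg hHrep hb0
  have hL1 : InL (FFb A M) ((n : ℤ) * N) (red A Y₁) :=
    red_inL hReg (hHreg.map hWW) (hHrep.swap hWW) hb1
  obtain ⟨m₀, hm₀⟩ := hReg Z (YZ 0) (YZ 1) hZreg hZ
  obtain ⟨m₁, hm₁⟩ := hReg (W Z) (YZ 1) (YZ 0) (hZreg.map hWW) (hZ.swap hWW)
  have ht0 : InL (FFb A M) N (red A (YZ 0) / red A (YQ 0)) :=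
    inL_div_of_pow hn hm₀.1 (hQg 0).2.1 (hQg 0).2.2 hL0 hr₀
  have ht1 : InL (FFb A M) N (red A (YZ 1) / red A (YQ 1)) :=
    inL_div_of_pow hn hm₁.1 (hQg 1).2.1 (hQg 1).2.2 hL1 hr₁
  refine ⟨(⟨_, ⟨N, ht0⟩⟩, ⟨_, ⟨N, ht1⟩⟩), ⟨⟨Z, YZ, hI, hZ, ?_, ?_⟩, ⟨ht0, ht1⟩⟩, ?_, ?_⟩
  · exact (mul_div_cancel₀ _ (hQg 0).2.2).symm
  · exact (mul_div_cancel₀ _ (hQg 1).2.2).symm
  · exact (mul_div_cancel₀ _ (hQg 0).2.2).symm
  · exact (mul_div_cancel₀ _ (hQg 1).2.2).symm

/-- **the lower count**: `dim (ã ∩ L_N) ≥ 2 N + 1 - g`. -/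
theorem count_lower (hWW : ∀ f, W (W f) = f) (hSc : ScaleStatement M A)
    (hInt : Integrality2Statement M A W) (hReg : RegRed2Statement M A W) {g : ℕ}
    (hineq : ∀ D : Divisor Kb (FF M), Divisor.degree D + 1 ≤ (helper74.ell D : ℤ) + g)
    (hPinf : IsInfty Pinf) (hP2 : IsInfty2 W P2)
    (hne : Pinf ≠ P2) {n : ℕ} (hn : 0 < n) {u Q : FF M} {YQ : Fin 2 → LaurentSeries A}
    (hu0 : u ≠ 0) (hu1 : IsRedOne A M (u : LaurentSeries Kb))
    (hu2 : IsRedOne A M ((W u : FF M) : LaurentSeries Kb))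
    (hQ : IsRep A W Q (YQ 0) (YQ 1)) (hQg : ∀ i, IsGood A M (YQ i))
    {D : Divisor Kb (FF M)} (hD : ∀ v : Place Kb (FF M), (n : ℤ) * D v = v.ord u)
    (hDdeg : Divisor.degree D = 0)
    (hQm : ∀ P : Place Kb (FF M), ¬ IsInfty P → ¬ IsInfty2 W P → -D P ≤ P.ord Q)
    (N : ℤ) (hfin : FiniteDimensional (kA A) (LMod A M N)) :
    2 * N + 1 - g ≤ (Module.finrank (kA A) ↥(aMod A W n u Q YQ ⊓ LMod A M N) : ℤ) := by
  classical
  have hS := riemannSetting_FF M
  have hQ0 : Q ≠ 0 := ne_zero_of_isRep_good hQ (hQg 0)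
  obtain ⟨DQ, hDQ, hDQdeg⟩ := hS.principal.exists_divisor Q hQ0
  have hfinV : FiniteDimensional Kb (riemannRochSpace (cuspDiv Pinf P2 N - (D + DQ))) :=
    helper74.finiteDimensional_L hS _
  have hV : ∀ f ∈ riemannRochSpace (cuspDiv Pinf P2 N - (D + DQ)), IsReg2 W f := by
    intro f hf
    refine isReg2_of_mem_L hPinf hP2 hne N (D + DQ) (fun P hP hP' => ?_) hf
    rw [Finsupp.add_apply, hDQ]
    linarith [hQm P hP hP']
  obtain ⟨r, F, Y, hr, hFV, hrep, -, hind⟩ := exists_pair_basis hWW hSc hInt _ hV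
  have hcount : 2 * N + 1 ≤ (r : ℤ) + g := by
    have h1 := hineq (cuspDiv Pinf P2 N - (D + DQ))
    rw [map_sub, map_add, degree_cuspDiv hS, hDdeg, hDQdeg] at h1
    unfold helper74.ell at h1
    rw [← hr] at h1
    linarith
  choose y hy using fun j => exists_mem_aMod_LMod hWW hInt hReg hPinf hP2 hne hn hu0 hu1 hu2
    hQ hQg hD hDQ hQm N (hFV j) (hrep j)
  have hli : LinearIndependent (kA A) (fun j => famMap (IsLocalRing.residue A) (Y j)) :=
    linearIndependent_famMap_of_forall A (IsLocalRing.residue A)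
      IsLocalRing.residue_surjective Y hind
  have hfinS : FiniteDimensional (kA A) ↥(aMod A W n u Q YQ ⊓ LMod A M N) :=
    Submodule.finiteDimensional_of_le inf_le_right
  have hli' : LinearIndependent (kA A)
      (fun j => (⟨y j, (hy j).1⟩ : ↥(aMod A W n u Q YQ ⊓ LMod A M N))) := by
    apply LinearIndependent.of_comp
      (((mulFam (fun i => red A (YQ i))).comp (iotaLin A M)).comp
        (aMod A W n u Q YQ ⊓ LMod A M N).subtype)
    convert hli using 1
    funext j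
    funext i
    fin_cases i
    · exact (hy j).2.1.symm
    · exact (hy j).2.2.symm
  have := hli'.fintype_card_le_finrank
  rw [Fintype.card_fin] at this
  have h2 : (r : ℤ) ≤ (Module.finrank (kA A) ↥(aMod A W n u Q YQ ⊓ LMod A M N) : ℤ) := by
    exact_mod_cast this
  linarith

/-- **the upper count**: `dim (Rt ∩ L_N) ≤ 2 N + 1 - g` for large `N`. -/
theorem count_upper (hWW : ∀ f, W (W f) = f) (hSc : ScaleStatement M A)
    (hInt : Integrality2Statement M A W) (hSat : Sat2Statement M A W) {g : ℕ}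
    (hg : HasRiemannGenus Kb (FF M) g) (hPinf : IsInfty Pinf) (hP2 : IsInfty2 W P2)
    (hne : Pinf ≠ P2) :
    ∃ N₁ : ℤ, ∀ N : ℤ, N₁ ≤ N →
      (Module.finrank (kA A) ↥(Subalgebra.toSubmodule (Rt A W) ⊓ LMod A M N) : ℤ) ≤
        2 * N + 1 - g := by
  classical
  have hS := riemannSetting_FF M
  obtain ⟨N₀, hN₀⟩ := hSat
  obtain ⟨-, c, hc⟩ := hg
  refine ⟨max (max N₀ c) 0, fun N hN => ?_⟩
  have hN0 : N₀ ≤ N := le_trans (le_trans (le_max_left _ _) (le_max_left _ _)) hN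
  have hNc : c ≤ N := le_trans (le_trans (le_max_right _ _) (le_max_left _ _)) hN
  have hNn : 0 ≤ N := le_trans (le_max_right _ _) hN
  have hfinV : FiniteDimensional Kb (riemannRochSpace (cuspDiv Pinf P2 N - (0 : Divisor Kb (FF M)))) :=
    helper74.finiteDimensional_L hS _
  have hV : ∀ f ∈ riemannRochSpace (cuspDiv Pinf P2 N - (0 : Divisor Kb (FF M))), IsReg2 W f := fun f hf =>
    isReg2_of_mem_L hPinf hP2 hne N 0 (fun P _ _ => le_rfl) hf
  obtain ⟨r, F, Y, hr, hFV, hrep, hspan, -⟩ := exists_pair_basis hWW hSc hInt _ hV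
  have hcount : (r : ℤ) + g = 2 * N + 1 := by
    have h1 := hc (cuspDiv Pinf P2 N - (0 : Divisor Kb (FF M))) (by
      rw [map_sub, degree_cuspDiv hS, map_zero]; linarith)
    rw [map_sub, degree_cuspDiv hS, map_zero] at h1
    unfold helper74.ell at h1
    rw [← hr] at h1
    linarith
  -- every element of `Rt ∩ L_N` is a combination of the reductions of the basis
  have hle : (Subalgebra.toSubmodule (Rt A W) ⊓ LMod A M N).map (iotaLin A M) ≤
      Submodule.span (kA A) (Set.range fun j => famMap (IsLocalRing.residue A) (Y j)) := by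
    rintro _ ⟨y, ⟨hyR, hyL⟩, rfl⟩
    obtain ⟨f, Y₁, Y₂, hf, hfrep, e1, e2⟩ := hyR
    obtain ⟨f', Z₁, Z₂, hf', hfrep', hb1, hb2, hr1, hr2⟩ := hN₀ N hN0 f Y₁ Y₂ hf hfrep
      (by rw [e1]; exact hyL.1.2.2) (by rw [e2]; exact hyL.2.2.2)
    have hf'V : f' ∈ riemannRochSpace (cuspDiv Pinf P2 N - (0 : Divisor Kb (FF M))) := by
      by_cases hf0 : f' = 0
      · rw [hf0]; exact Submodule.zero_mem _
      rw [mem_L_cusp hne N 0 hf0]
      have hWf0 : W f' ≠ 0 := by simpa using hf0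
      refine ⟨fun v h1 h2 => ?_, ?_, ?_⟩
      · exact hf' v (fun h => h1 ((isInfty_iff_eq hPinf v).1 h))
          (fun h => h2 ((isInfty2_iff_eq W hP2 v).1 h))
      · rw [hPinf f' hf0, Finsupp.zero_apply, zero_sub]
        rw [← forall_coeff_eq_zero_iff (coe_ne_zero' hf0)]
        intro k hk
        rw [← hfrep'.1]
        have h1 : (incl A Z₁).coeff k = ((Z₁.coeff k : A) : Kb) := coeffMap_coeff A.subtype Z₁ k
        rw [h1, hb1 k hk]
        rfl
      · rw [hP2 f' hf0, Finsupp.zero_apply, zero_sub]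
        rw [← forall_coeff_eq_zero_iff (coe_ne_zero' hWf0)]
        intro k hk
        rw [← hfrep'.2]
        have h1 : (incl A Z₂).coeff k = ((Z₂.coeff k : A) : Kb) := coeffMap_coeff A.subtype Z₂ k
        rw [h1, hb2 k hk]
        rfl
    obtain ⟨a, ha⟩ := hspan f' ![Z₁, Z₂] hf'V hfrep'
    have e : iotaLin A M y = famMap (IsLocalRing.residue A) ![Z₁, Z₂] := by
      funext i
      fin_cases i
      · exact (hr1.trans e1).symm
      · exact (hr2.trans e2).symm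
    rw [e, ha, famMap_sum]
    exact Submodule.sum_mem _ fun j _ =>
      Submodule.smul_mem _ _ (Submodule.subset_span ⟨j, rfl⟩)
  have h1 : Module.finrank (kA A) ↥(Subalgebra.toSubmodule (Rt A W) ⊓ LMod A M N) =
      Module.finrank (kA A)
        ↥((Subalgebra.toSubmodule (Rt A W) ⊓ LMod A M N).map (iotaLin A M)) :=
    (Submodule.equivMapOfInjective (iotaLin A M) iotaLin_injective _).finrank_eq
  have hfinSp : FiniteDimensional (kA A) ↥(Submodule.span (kA A)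
      (Set.range fun j => famMap (IsLocalRing.residue A) (Y j))) :=
    FiniteDimensional.span_of_finite _ (Set.finite_range _)
  have h2 := Submodule.finrank_mono hle
  have h3 := finrank_range_le_card (R := kA A)
    (fun j => famMap (IsLocalRing.residue A) (Y j))
  rw [Fintype.card_fin] at h3
  have h4 : (Module.finrank (kA A) ↥(Subalgebra.toSubmodule (Rt A W) ⊓ LMod A M N) : ℤ) ≤
      r := by
    rw [h1]
    exact_mod_cast le_trans h2 h3
  linarith

end Fermat.Agent.T2.helper22
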