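/-
TIER 2, package [T2-IDEAL] (helper51): the abstract ideal step of the S34 route
(finding #1050, step 2).

`R ⊆ B` a `k`-subalgebra containing the common kernel `I` of finitely many `k`-points
`ev i : B →ₐ[k] k`; `a b ⊆ B` two `R`-submodules with `x ^ n ∈ R` for `x ∈ a`, for `x ∈ b`,
and `a * b ⊆ R`; an exhausting chain `L N` of finite dimensional subspaces with
`2 dim (R ∩ L N) ≤ dim (a ∩ L N) + dim (b ∩ L N)` for all large `N`.
Then `1 = x₁ y₁ + x₂ y₂` with `x₁ x₂ ∈ a`, `y₁ y₂ ∈ b`; moreover `I ⊆ a`, `I ⊆ b`.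
-/
import Mathlib

set_option autoImplicit false

namespace Fermat.Agent.T2.helper51

open Module

noncomputable section

variable {k B ι : Type*} [Field k] [CommRing B] [Algebra k B]

/-- two points are equivalent if they agree on `R` -/
def evSetoid (R : Subalgebra k B) (ev : ι → B →ₐ[k] k) : Setoid ι where
  r i j := ∀ r ∈ R, ev i r = ev j r
  iseqv := ⟨fun _ _ _ => rfl, fun h r hr => (h r hr).symm,
    fun h₁ h₂ r hr => (h₁ r hr).trans (h₂ r hr)⟩

/-- evaluation at all points -/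
def evAll (ev : ι → B →ₐ[k] k) : B →ₗ[k] (ι → k) :=
  LinearMap.pi fun i => (ev i).toLinearMap

/-- evaluation at one representative of each class -/
def evRep (R : Subalgebra k B) (ev : ι → B →ₐ[k] k) :
    B →ₗ[k] (Quotient (evSetoid R ev) → k) :=
  LinearMap.pi fun c => (ev c.out).toLinearMap

@[simp] lemma evAll_apply (ev : ι → B →ₐ[k] k) (x : B) (i : ι) : evAll ev x i = ev i x := rfl

@[simp] lemma evRep_apply (R : Subalgebra k B) (ev : ι → B →ₐ[k] k) (x : B)
    (c : Quotient (evSetoid R ev)) : evRep R ev x c = ev c.out x := rfl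

lemma mem_ker_evAll (ev : ι → B →ₐ[k] k) (x : B) :
    x ∈ LinearMap.ker (evAll ev) ↔ ∀ i, ev i x = 0 := by
  rw [LinearMap.mem_ker]
  constructor
  · intro h i
    have := congrFun h i
    simpa using this
  · intro h
    funext i
    simpa using h i

lemma ker_evAll_le_ker_evRep (R : Subalgebra k B) (ev : ι → B →ₐ[k] k) :
    LinearMap.ker (evAll ev) ≤ LinearMap.ker (evRep R ev) := by
  intro x hx
  rw [mem_ker_evAll] at hx
  rw [LinearMap.mem_ker]
  funext c
  simpa using hx c.out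

/-- the representative of the class of `j` agrees with `j` on `R` -/
lemma ev_out_eq (R : Subalgebra k B) (ev : ι → B →ₐ[k] k) (j : ι) {r : B} (hr : r ∈ R) :
    ev (Quotient.out (s := evSetoid R ev) ⟦j⟧) r = ev j r := by
  have h : (evSetoid R ev).r (Quotient.out (s := evSetoid R ev) ⟦j⟧) j :=
    Quotient.exact (Quotient.out_eq _)
  exact h r hr

/-- **vanishing propagates along classes**: if `x ^ n ∈ R` and `x` vanishes at the
representatives, then `x` vanishes at all points. -/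
lemma ev_eq_zero_of_evRep_eq_zero (R : Subalgebra k B) (ev : ι → B →ₐ[k] k) {n : ℕ}
    (hn : n ≠ 0) {x : B} (hx : x ^ n ∈ R) (h0 : evRep R ev x = 0) (j : ι) : ev j x = 0 := by
  have h1 : ev (Quotient.out (s := evSetoid R ev) ⟦j⟧) x = 0 := by
    have := congrFun h0 ⟦j⟧
    simpa using this
  have h2 := ev_out_eq R ev j hx
  rw [map_pow, map_pow, h1, zero_pow hn] at h2
  exact (pow_eq_zero_iff hn).1 h2.symm

/-- for `x` with `x ^ n ∈ R`: `x` is killed by the representatives iff it is killed by all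
points -/
lemma mem_ker_evRep_iff (R : Subalgebra k B) (ev : ι → B →ₐ[k] k) {n : ℕ}
    (hn : n ≠ 0) {x : B} (hx : x ^ n ∈ R) :
    x ∈ LinearMap.ker (evRep R ev) ↔ x ∈ LinearMap.ker (evAll ev) := by
  constructor
  · intro h
    rw [mem_ker_evAll]
    exact ev_eq_zero_of_evRep_eq_zero R ev hn hx (LinearMap.mem_ker.1 h)
  · exact fun h => ker_evAll_le_ker_evRep R ev h

/-- rank-nullity for the restriction of a linear map to a finite dimensional subspace -/
lemma finrank_eq_inf_ker_add_map {W : Type*} [AddCommGroup W] [Module k W] (f : B →ₗ[k] W)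
    (V : Submodule k B) [FiniteDimensional k V] :
    finrank k V = finrank k ↥(V ⊓ LinearMap.ker f) + finrank k ↥(V.map f) := by
  have h := LinearMap.finrank_range_add_finrank_ker (f.domRestrict V)
  rw [LinearMap.range_domRestrict, LinearMap.ker_domRestrict,
    ← Submodule.finrank_map_subtype_eq V ((LinearMap.ker f).comap V.subtype),
    Submodule.map_comap_subtype] at h
  omega

section StoneWeierstrass

variable [Finite ι]

/-- finite Stone-Weierstrass: `R` contains the indicator function of every class. -/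
lemma exists_mem_evRep_eq_single (R : Subalgebra k B) (ev : ι → B →ₐ[k] k)
    (c : Quotient (evSetoid R ev)) :
    ∃ r ∈ R, evRep R ev r c = 1 ∧ ∀ c', c' ≠ c → evRep R ev r c' = 0 := by
  classical
  have : Fintype (Quotient (evSetoid R ev)) := Fintype.ofFinite _
  -- separating elements
  have hsep : ∀ c' : Quotient (evSetoid R ev), c' ≠ c →
      ∃ r ∈ R, ev c.out r ≠ ev c'.out r := by
    intro c' hc'
    by_contra hcon
    push Not at hcon
    apply hc'
    have h : (evSetoid R ev).r c'.out c.out := fun r hr => (hcon r hr).symm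
    have := Quotient.sound (s := evSetoid R ev) h
    rwa [Quotient.out_eq, Quotient.out_eq] at this
  choose! s hsR hs using hsep
  refine ⟨∏ c' ∈ Finset.univ.erase c,
    (s c' - algebraMap k B (ev c'.out (s c'))) *
      algebraMap k B ((ev c.out (s c') - ev c'.out (s c'))⁻¹), ?_, ?_, ?_⟩
  · refine Subalgebra.prod_mem _ fun c' hc' => ?_
    have hc'' : c' ≠ c := (Finset.mem_erase.1 hc').1
    exact R.mul_mem (R.sub_mem (hsR c' hc'') (R.algebraMap_mem _)) (R.algebraMap_mem _)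
  · rw [evRep_apply, map_prod]
    refine Finset.prod_eq_one fun c' hc' => ?_
    have hc'' : c' ≠ c := (Finset.mem_erase.1 hc').1
    have hne : ev c.out (s c') - ev c'.out (s c') ≠ 0 := sub_ne_zero.2 (hs c' hc'')
    rw [map_mul, map_sub, AlgHom.commutes, AlgHom.commutes]
    simp only [Algebra.algebraMap_self, RingHom.id_apply]
    exact mul_inv_cancel₀ hne
  · intro c₁ h1
    rw [evRep_apply, map_prod]
    refine Finset.prod_eq_zero (Finset.mem_erase.2 ⟨h1, Finset.mem_univ c₁⟩) ?_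
    rw [map_mul, map_sub, AlgHom.commutes]
    simp

/-- every function on the classes is realised by an element of `R`. -/
lemma exists_mem_evRep_eq (R : Subalgebra k B) (ev : ι → B →ₐ[k] k) :
    ∃ r : Quotient (evSetoid R ev) → B, (∀ c, r c ∈ R) ∧
      (∀ c, evRep R ev (r c) c = 1) ∧ ∀ c c', c' ≠ c → evRep R ev (r c) c' = 0 := by
  choose r hrR hr1 hr0 using exists_mem_evRep_eq_single R ev
  exact ⟨r, hrR, hr1, hr0⟩

end StoneWeierstrass

section Count

variable [Finite ι]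

/-- for large `N` the subspace `R ∩ L N` maps ONTO the functions on the classes. -/
lemma exists_forall_map_evRep_eq_top (R : Subalgebra k B) (ev : ι → B →ₐ[k] k)
    (L : ℕ → Submodule k B) (hLmono : Monotone L) (hLtop : ∀ x, ∃ N, x ∈ L N) :
    ∃ N₀, ∀ N, N₀ ≤ N →
      (Subalgebra.toSubmodule R ⊓ L N).map (evRep R ev) = ⊤ := by
  classical
  have : Fintype (Quotient (evSetoid R ev)) := Fintype.ofFinite _
  obtain ⟨r, hrR, hr1, hr0⟩ := exists_mem_evRep_eq R ev
  choose Nc hNc using fun c => hLtop (r c)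
  refine ⟨Finset.univ.sup Nc, fun N hN => ?_⟩
  rw [eq_top_iff]
  intro φ _
  refine ⟨∑ c, φ c • r c, ⟨?_, ?_⟩, ?_⟩
  · exact Submodule.sum_mem _ fun c _ => Submodule.smul_mem _ _ (hrR c)
  · refine Submodule.sum_mem _ fun c _ => Submodule.smul_mem _ _ ?_
    exact hLmono ((Finset.le_sup (Finset.mem_univ c)).trans hN) (hNc c)
  · funext c
    rw [map_sum, Finset.sum_apply, Finset.sum_eq_single c]
    · rw [map_smul, Pi.smul_apply, hr1 c, smul_eq_mul, mul_one]
    · intro c' _ hc'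
      rw [map_smul, Pi.smul_apply, hr0 c' c (Ne.symm hc'), smul_zero]
    · intro h
      exact absurd (Finset.mem_univ c) h

/-- the dimension of `R ∩ L N` for large `N`. -/
lemma finrank_R_inf (R : Subalgebra k B) (ev : ι → B →ₐ[k] k)
    (hIR : ∀ x, (∀ i, ev i x = 0) → x ∈ R)
    (L : ℕ → Submodule k B) (hLfin : ∀ N, FiniteDimensional k (L N)) {N : ℕ}
    (hN : (Subalgebra.toSubmodule R ⊓ L N).map (evRep R ev) = ⊤) :
    finrank k ↥(Subalgebra.toSubmodule R ⊓ L N) =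
      finrank k ↥(LinearMap.ker (evAll ev) ⊓ L N) +
        Nat.card (Quotient (evSetoid R ev)) := by
  classical
  have : Fintype (Quotient (evSetoid R ev)) := Fintype.ofFinite _
  have := hLfin N
  have hset : (Subalgebra.toSubmodule R ⊓ L N) ⊓ LinearMap.ker (evRep R ev) =
      LinearMap.ker (evAll ev) ⊓ L N := by
    ext x
    simp only [Submodule.mem_inf, Subalgebra.mem_toSubmodule]
    constructor
    · rintro ⟨⟨hxR, hxL⟩, hx⟩
      exact ⟨(mem_ker_evRep_iff R ev one_ne_zero (by simpa using hxR)).1 hx, hxL⟩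
    · rintro ⟨hx, hxL⟩
      exact ⟨⟨hIR x ((mem_ker_evAll ev x).1 hx), hxL⟩, ker_evAll_le_ker_evRep R ev hx⟩
  rw [finrank_eq_inf_ker_add_map (evRep R ev) (Subalgebra.toSubmodule R ⊓ L N), hN, hset,
    finrank_top, Module.finrank_fintype_fun_eq_card, Nat.card_eq_fintype_card]

omit [Finite ι] in
/-- upper bound for the dimension of `a ∩ L N`, with the two defects made explicit. -/
lemma finrank_a_inf (R : Subalgebra k B) (ev : ι → B →ₐ[k] k) {n : ℕ} (hn : n ≠ 0)
    (a : Submodule k B) (han : ∀ x ∈ a, x ^ n ∈ R)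
    (L : ℕ → Submodule k B) (hLfin : ∀ N, FiniteDimensional k (L N)) (N : ℕ) :
    finrank k ↥(a ⊓ L N) =
      finrank k ↥(a ⊓ (LinearMap.ker (evAll ev) ⊓ L N)) +
        finrank k ↥((a ⊓ L N).map (evRep R ev)) := by
  have := hLfin N
  have hset : (a ⊓ L N) ⊓ LinearMap.ker (evRep R ev) =
      a ⊓ (LinearMap.ker (evAll ev) ⊓ L N) := by
    ext x
    simp only [Submodule.mem_inf]
    constructor
    · rintro ⟨⟨hxa, hxL⟩, hx⟩
      exact ⟨hxa, (mem_ker_evRep_iff R ev hn (han x hxa)).1 hx, hxL⟩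
    · rintro ⟨hxa, hx, hxL⟩
      exact ⟨⟨hxa, hxL⟩, ker_evAll_le_ker_evRep R ev hx⟩
  rw [finrank_eq_inf_ker_add_map (evRep R ev) (a ⊓ L N), hset]

/-- consequences of the count at one level `N` at which `R ∩ L N` maps onto the functions on
the classes. -/
lemma count_step (R : Subalgebra k B) (ev : ι → B →ₐ[k] k)
    (hIR : ∀ x, (∀ i, ev i x = 0) → x ∈ R) {n : ℕ} (hn : n ≠ 0)
    (a b : Submodule k B) (han : ∀ x ∈ a, x ^ n ∈ R) (hbn : ∀ x ∈ b, x ^ n ∈ R)
    (L : ℕ → Submodule k B) (hLfin : ∀ N, FiniteDimensional k (L N)) {N : ℕ}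
    (hN : (Subalgebra.toSubmodule R ⊓ L N).map (evRep R ev) = ⊤)
    (hcount : 2 * finrank k ↥(Subalgebra.toSubmodule R ⊓ L N) ≤
      finrank k ↥(a ⊓ L N) + finrank k ↥(b ⊓ L N)) :
    (LinearMap.ker (evAll ev) ⊓ L N ≤ a) ∧ (LinearMap.ker (evAll ev) ⊓ L N ≤ b) ∧
      (a ⊓ L N).map (evRep R ev) = ⊤ ∧ (b ⊓ L N).map (evRep R ev) = ⊤ := by
  classical
  have : Fintype (Quotient (evSetoid R ev)) := Fintype.ofFinite _
  have := hLfin N
  have hR := finrank_R_inf R ev hIR L hLfin hN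
  have ha := finrank_a_inf R ev hn a han L hLfin N
  have hb := finrank_a_inf R ev hn b hbn L hLfin N
  have hcard : finrank k (Quotient (evSetoid R ev) → k) =
      Nat.card (Quotient (evSetoid R ev)) := by
    rw [Module.finrank_fintype_fun_eq_card, Nat.card_eq_fintype_card]
  have ha1 : finrank k ↥(a ⊓ (LinearMap.ker (evAll ev) ⊓ L N)) ≤
      finrank k ↥(LinearMap.ker (evAll ev) ⊓ L N) := Submodule.finrank_mono inf_le_right
  have hb1 : finrank k ↥(b ⊓ (LinearMap.ker (evAll ev) ⊓ L N)) ≤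
      finrank k ↥(LinearMap.ker (evAll ev) ⊓ L N) := Submodule.finrank_mono inf_le_right
  have ha2 : finrank k ↥((a ⊓ L N).map (evRep R ev)) ≤
      Nat.card (Quotient (evSetoid R ev)) := hcard ▸ Submodule.finrank_le _
  have hb2 : finrank k ↥((b ⊓ L N).map (evRep R ev)) ≤
      Nat.card (Quotient (evSetoid R ev)) := hcard ▸ Submodule.finrank_le _
  have ea1 : finrank k ↥(a ⊓ (LinearMap.ker (evAll ev) ⊓ L N)) =
      finrank k ↥(LinearMap.ker (evAll ev) ⊓ L N) := by omega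
  have eb1 : finrank k ↥(b ⊓ (LinearMap.ker (evAll ev) ⊓ L N)) =
      finrank k ↥(LinearMap.ker (evAll ev) ⊓ L N) := by omega
  have ea2 : finrank k ↥((a ⊓ L N).map (evRep R ev)) =
      finrank k (Quotient (evSetoid R ev) → k) := by omega
  have eb2 : finrank k ↥((b ⊓ L N).map (evRep R ev)) =
      finrank k (Quotient (evSetoid R ev) → k) := by omega
  refine ⟨?_, ?_, Submodule.eq_top_of_finrank_eq ea2, Submodule.eq_top_of_finrank_eq eb2⟩
  · have h := Submodule.eq_of_le_of_finrank_eq (inf_le_right :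
      a ⊓ (LinearMap.ker (evAll ev) ⊓ L N) ≤ LinearMap.ker (evAll ev) ⊓ L N) ea1
    exact h ▸ inf_le_left
  · have h := Submodule.eq_of_le_of_finrank_eq (inf_le_right :
      b ⊓ (LinearMap.ker (evAll ev) ⊓ L N) ≤ LinearMap.ker (evAll ev) ⊓ L N) eb1
    exact h ▸ inf_le_left

end Count

section Main

variable [Finite ι]

/-- **[T2-IDEAL], structural form.** Under the hypotheses of the ideal step: the common kernel
`I` of the points lies in `a` and in `b`, and there are `x ∈ a`, `y ∈ b` taking the value `1`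
at all representatives. -/
theorem ideal_step_structure (R : Subalgebra k B) (ev : ι → B →ₐ[k] k)
    (hIR : ∀ x, (∀ i, ev i x = 0) → x ∈ R) {n : ℕ} (hn : n ≠ 0)
    (a b : Submodule k B) (han : ∀ x ∈ a, x ^ n ∈ R) (hbn : ∀ x ∈ b, x ^ n ∈ R)
    (L : ℕ → Submodule k B) (hLfin : ∀ N, FiniteDimensional k (L N)) (hLmono : Monotone L)
    (hLtop : ∀ x, ∃ N, x ∈ L N)
    (hcount : ∀ᶠ N in Filter.atTop, 2 * finrank k ↥(Subalgebra.toSubmodule R ⊓ L N) ≤
      finrank k ↥(a ⊓ L N) + finrank k ↥(b ⊓ L N)) :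
    (∀ x, (∀ i, ev i x = 0) → x ∈ a) ∧ (∀ x, (∀ i, ev i x = 0) → x ∈ b) ∧
      (∃ x ∈ a, evRep R ev x = 1) ∧ ∃ y ∈ b, evRep R ev y = 1 := by
  obtain ⟨N₀, hN₀⟩ := exists_forall_map_evRep_eq_top R ev L hLmono hLtop
  obtain ⟨N₁, hN₁⟩ := Filter.eventually_atTop.1 hcount
  have key : ∀ N, N₀ ≤ N → N₁ ≤ N → _ := fun N h0 h1 =>
    count_step R ev hIR hn a b han hbn L hLfin (hN₀ N h0) (hN₁ N h1)
  refine ⟨fun x hx => ?_, fun x hx => ?_, ?_, ?_⟩
  · obtain ⟨Nx, hNx⟩ := hLtop x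
    have hle0 : N₀ ≤ max (max N₀ N₁) Nx := (le_max_left _ _).trans (le_max_left _ _)
    have hle1 : N₁ ≤ max (max N₀ N₁) Nx := (le_max_right _ _).trans (le_max_left _ _)
    exact (key _ hle0 hle1).1 ⟨(mem_ker_evAll ev x).2 hx, hLmono (le_max_right _ _) hNx⟩
  · obtain ⟨Nx, hNx⟩ := hLtop x
    have hle0 : N₀ ≤ max (max N₀ N₁) Nx := (le_max_left _ _).trans (le_max_left _ _)
    have hle1 : N₁ ≤ max (max N₀ N₁) Nx := (le_max_right _ _).trans (le_max_left _ _)
    exact (key _ hle0 hle1).2.1 ⟨(mem_ker_evAll ev x).2 hx, hLmono (le_max_right _ _) hNx⟩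
  · have h := (key (max N₀ N₁) (le_max_left _ _) (le_max_right _ _)).2.2.1
    have h1 : (1 : Quotient (evSetoid R ev) → k) ∈ (a ⊓ L (max N₀ N₁)).map (evRep R ev) := by
      rw [h]; trivial
    obtain ⟨x, hx, hx1⟩ := h1
    exact ⟨x, hx.1, hx1⟩
  · have h := (key (max N₀ N₁) (le_max_left _ _) (le_max_right _ _)).2.2.2
    have h1 : (1 : Quotient (evSetoid R ev) → k) ∈ (b ⊓ L (max N₀ N₁)).map (evRep R ev) := by
      rw [h]; trivial
    obtain ⟨y, hy, hy1⟩ := h1
    exact ⟨y, hy.1, hy1⟩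

/-- **[T2-IDEAL]** (finding #1050, step 2): `1 ∈ a * b`, with two terms. -/
theorem exists_mul_add_mul_eq_one (R : Subalgebra k B) (ev : ι → B →ₐ[k] k)
    (hIR : ∀ x, (∀ i, ev i x = 0) → x ∈ R) (n : ℕ) (hn : n ≠ 0)
    (a b : Submodule k B)
    (han : ∀ x ∈ a, x ^ n ∈ R) (hbn : ∀ x ∈ b, x ^ n ∈ R)
    (hab : ∀ x ∈ a, ∀ y ∈ b, x * y ∈ R)
    (L : ℕ → Submodule k B) (hLfin : ∀ N, FiniteDimensional k (L N)) (hLmono : Monotone L)
    (hLtop : ∀ x, ∃ N, x ∈ L N)
    (hcount : ∀ᶠ N in Filter.atTop, 2 * finrank k ↥(Subalgebra.toSubmodule R ⊓ L N) ≤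
      finrank k ↥(a ⊓ L N) + finrank k ↥(b ⊓ L N)) :
    ∃ x₁ ∈ a, ∃ y₁ ∈ b, ∃ x₂ ∈ a, ∃ y₂ ∈ b, x₁ * y₁ + x₂ * y₂ = 1 := by
  obtain ⟨hIa, hIb, ⟨x, hxa, hx1⟩, ⟨y, hyb, hy1⟩⟩ :=
    ideal_step_structure R ev hIR hn a b han hbn L hLfin hLmono hLtop hcount
  -- `i₀ := x y - 1` is killed by all points
  have hxyR : x * y - 1 ∈ R := R.sub_mem (hab x hxa y hyb) R.one_mem
  have hrep : evRep R ev (x * y - 1) = 0 := by
    funext c
    have e1 : ev c.out x = 1 := by simpa using congrFun hx1 c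
    have e2 : ev c.out y = 1 := by simpa using congrFun hy1 c
    simp [e1, e2]
  have hi₀ : ∀ i, ev i (x * y - 1) = 0 :=
    ev_eq_zero_of_evRep_eq_zero R ev one_ne_zero (by simpa using hxyR) hrep
  have hker : ∀ z : B, ∀ i, ev i ((x * y - 1) * z) = 0 := fun z i => by
    rw [map_mul, hi₀ i, zero_mul]
  refine ⟨x - (x * y - 1) * x, a.sub_mem hxa (hIa _ (hker x)), y, hyb,
    x * y - 1, hIa _ hi₀, x * y - 1, hIb _ hi₀, ?_⟩
  ring

end Main

section Radical

/-- the `k`-points of a radical ideal of finite codimension over an algebraically closed field: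
there are finitely many `k`-points whose common kernel is `I`. -/
theorem exists_points_of_isRadical [IsAlgClosed k] (I : Ideal B) (hrad : I.IsRadical)
    [Module.Finite k (B ⧸ I)] :
    ∃ (ev : MaximalSpectrum (B ⧸ I) → B →ₐ[k] k), Finite (MaximalSpectrum (B ⧸ I)) ∧
      ∀ x, (∀ i, ev i x = 0) ↔ x ∈ I := by
  have hArt : IsArtinianRing (B ⧸ I) := IsArtinianRing.of_finite k (B ⧸ I)
  have hred : IsReduced (B ⧸ I) := (Ideal.isRadical_iff_quotient_reduced I).1 hrad
  -- the residue fields are `k`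
  have hbij : ∀ 𝔪 : MaximalSpectrum (B ⧸ I),
      Function.Bijective (algebraMap k ((B ⧸ I) ⧸ 𝔪.asIdeal)) := by
    intro 𝔪
    have := 𝔪.isMaximal
    let _ : Field ((B ⧸ I) ⧸ 𝔪.asIdeal) := Ideal.Quotient.field _
    have : Module.Finite k ((B ⧸ I) ⧸ 𝔪.asIdeal) :=
      Module.Finite.of_surjective (Ideal.Quotient.mkₐ k 𝔪.asIdeal).toLinearMap
        (Ideal.Quotient.mkₐ_surjective k _)
    have : Algebra.IsIntegral k ((B ⧸ I) ⧸ 𝔪.asIdeal) := Algebra.IsIntegral.of_finite k _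
    exact IsAlgClosed.algebraMap_bijective_of_isIntegral
  let e : ∀ 𝔪 : MaximalSpectrum (B ⧸ I), k ≃ₐ[k] ((B ⧸ I) ⧸ 𝔪.asIdeal) := fun 𝔪 =>
    AlgEquiv.ofBijective (Algebra.ofId k _) (hbij 𝔪)
  let ev : MaximalSpectrum (B ⧸ I) → B →ₐ[k] k := fun 𝔪 =>
    ((e 𝔪).symm : ((B ⧸ I) ⧸ 𝔪.asIdeal) →ₐ[k] k).comp
      ((Ideal.Quotient.mkₐ k 𝔪.asIdeal).comp (Ideal.Quotient.mkₐ k I))
  have hev : ∀ 𝔪 x, ev 𝔪 x = 0 ↔ Ideal.Quotient.mk I x ∈ 𝔪.asIdeal := by
    intro 𝔪 x
    change (e 𝔪).symm (Ideal.Quotient.mk 𝔪.asIdeal (Ideal.Quotient.mk I x)) = 0 ↔ _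
    rw [map_eq_zero_iff _ (e 𝔪).symm.injective, Ideal.Quotient.eq_zero_iff_mem]
  refine ⟨ev, inferInstance, fun x => ⟨fun h => ?_, fun h 𝔪 => ?_⟩⟩
  · -- `mk x` lies in the Jacobson radical, which is zero
    have h1 : Ideal.Quotient.mk I x ∈ Ideal.jacobson (⊥ : Ideal (B ⧸ I)) := by
      rw [Ideal.jacobson, Ideal.mem_sInf]
      rintro J ⟨-, hJ⟩
      exact (hev ⟨J, hJ⟩ x).1 (h ⟨J, hJ⟩)
    rw [IsArtinianRing.jacobson_eq_radical] at h1
    have h2 : Ideal.Quotient.mk I x ∈ nilradical (B ⧸ I) := h1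
    rw [nilradical_eq_zero, Ideal.zero_eq_bot, Ideal.mem_bot] at h2
    exact Ideal.Quotient.eq_zero_iff_mem.1 h2
  · rw [hev, Ideal.Quotient.eq_zero_iff_mem.2 h]
    exact zero_mem _

/-- **[T2-IDEAL], radical form**: the shape delivered by (SN) of finding #1050
(`I = J × J` a radical ideal of finite codimension contained in `R`, `k` algebraically
closed). -/
theorem exists_mul_add_mul_eq_one_of_isRadical [IsAlgClosed k] (R : Subalgebra k B)
    (I : Ideal B) (hrad : I.IsRadical) [Module.Finite k (B ⧸ I)] (hIR : ∀ x ∈ I, x ∈ R)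
    (n : ℕ) (hn : n ≠ 0) (a b : Submodule k B)
    (han : ∀ x ∈ a, x ^ n ∈ R) (hbn : ∀ x ∈ b, x ^ n ∈ R)
    (hab : ∀ x ∈ a, ∀ y ∈ b, x * y ∈ R)
    (L : ℕ → Submodule k B) (hLfin : ∀ N, FiniteDimensional k (L N)) (hLmono : Monotone L)
    (hLtop : ∀ x, ∃ N, x ∈ L N)
    (hcount : ∀ᶠ N in Filter.atTop, 2 * finrank k ↥(Subalgebra.toSubmodule R ⊓ L N) ≤
      finrank k ↥(a ⊓ L N) + finrank k ↥(b ⊓ L N)) :
    (∀ x ∈ I, x ∈ a) ∧ (∀ x ∈ I, x ∈ b) ∧
      ∃ x₁ ∈ a, ∃ y₁ ∈ b, ∃ x₂ ∈ a, ∃ y₂ ∈ b, x₁ * y₁ + x₂ * y₂ = 1 := by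
  obtain ⟨ev, hfin, hev⟩ := exists_points_of_isRadical (k := k) I hrad
  have hIR' : ∀ x, (∀ i, ev i x = 0) → x ∈ R := fun x hx => hIR x ((hev x).1 hx)
  obtain ⟨hIa, hIb, -, -⟩ :=
    ideal_step_structure R ev hIR' hn a b han hbn L hLfin hLmono hLtop hcount
  exact ⟨fun x hx => hIa x ((hev x).2 hx), fun x hx => hIb x ((hev x).2 hx),
    exists_mul_add_mul_eq_one R ev hIR' n hn a b han hbn hab L hLfin hLmono hLtop hcount⟩

end Radical

end

end Fermat.Agent.T2.helper51
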