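/-
TIER 2, abstract part of (SN) (finding #1050, item 1), Mathlib only (helper51).

`B'` a commutative `k`-algebra, `Fr : B' → B'` a map (in the application the `k`-linear
Frobenius `f(q) ↦ f(q^ℓ)` of the special fibre), `R ⊆ B' × B'` a `k`-subalgebra containing the
two graphs `(f, Fr f)` and `(Fr f, f)`.  `J` := the ideal generated by the `Fr (Fr f) - f`.

* `prod_span_le`  : `J × J ⊆ R`.
* `isRadical_of_pow` : if every `Fr (Fr f)` is an `ℓ`-th power (`ℓ ≥ 2`) and `B' ⧸ J` is finite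
  dimensional, then `J` is a radical ideal.
* `ideal_step_of_graphs` : [T2-IDEAL] in this setting.
-/
import Mathlib
import Fermat.Agent.T2.helper51_Ideal

set_option autoImplicit false

namespace Fermat.Agent.T2.helper51

open Module

noncomputable section

variable {k B' : Type*} [Field k] [CommRing B'] [Algebra k B']

/-- the ideal generated by the `Fr (Fr f) - f` -/
def frobIdeal (Fr : B' → B') : Ideal B' :=
  Ideal.span (Set.range fun f : B' => Fr (Fr f) - f)

lemma sub_mem_frobIdeal (Fr : B' → B') (f : B') : Fr (Fr f) - f ∈ frobIdeal Fr :=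
  Ideal.subset_span ⟨f, rfl⟩

/-- `0 × J ⊆ R` -/
lemma zero_prod_mem (Fr : B' → B') (R : Subalgebra k (B' × B'))
    (h1 : ∀ f, (f, Fr f) ∈ R) (h2 : ∀ f, (Fr f, f) ∈ R) {x : B'} (hx : x ∈ frobIdeal Fr) :
    ((0 : B'), x) ∈ R := by
  induction hx using Submodule.span_induction with
  | mem x hx =>
    obtain ⟨f, rfl⟩ := hx
    have h := R.sub_mem (h1 (Fr f)) (h2 f)
    simpa using h
  | zero => exact R.zero_mem
  | add x y _ _ hx hy =>
    have := R.add_mem hx hy
    simpa using this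
  | smul a x _ hx =>
    have := R.mul_mem (h2 a) hx
    simpa using this

/-- `J × 0 ⊆ R` -/
lemma prod_zero_mem (Fr : B' → B') (R : Subalgebra k (B' × B'))
    (h1 : ∀ f, (f, Fr f) ∈ R) (h2 : ∀ f, (Fr f, f) ∈ R) {x : B'} (hx : x ∈ frobIdeal Fr) :
    (x, (0 : B')) ∈ R := by
  induction hx using Submodule.span_induction with
  | mem x hx =>
    obtain ⟨f, rfl⟩ := hx
    have h := R.sub_mem (h2 (Fr f)) (h1 f)
    simpa using h
  | zero => exact R.zero_mem
  | add x y _ _ hx hy =>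
    have := R.add_mem hx hy
    simpa using this
  | smul a x _ hx =>
    have := R.mul_mem (h1 a) hx
    simpa using this

/-- **(SN), containment**: `J × J ⊆ R`. -/
theorem prod_span_le (Fr : B' → B') (R : Subalgebra k (B' × B'))
    (h1 : ∀ f, (f, Fr f) ∈ R) (h2 : ∀ f, (Fr f, f) ∈ R) (x : B' × B')
    (hx : x ∈ Ideal.prod (frobIdeal Fr) (frobIdeal Fr)) : x ∈ R := by
  have hx' := (Ideal.mem_prod _ _).1 hx
  have := R.add_mem (prod_zero_mem Fr R h1 h2 hx'.1) (zero_prod_mem Fr R h1 h2 hx'.2)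
  have e : ((x.1, (0 : B')) + ((0 : B'), x.2)) = x := by ext <;> simp
  rwa [e] at this

/-- a commutative Artinian ring in which every element is an `ℓ`-th power (`ℓ ≥ 2`) is
reduced. -/
theorem isReduced_of_forall_exists_pow {A : Type*} [CommRing A] [IsArtinianRing A] (ℓ : ℕ)
    (hℓ : 2 ≤ ℓ) (hpow : ∀ a : A, ∃ h, a = h ^ ℓ) : IsReduced A := by
  obtain ⟨N, hN⟩ := IsArtinianRing.isNilpotent_nilradical (R := A)
  refine ⟨fun x hx => ?_⟩
  -- `x` is an `ℓ ^ r`-th power of a nilpotent element, for every `r`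
  have key : ∀ r : ℕ, ∃ h : A, IsNilpotent h ∧ x = h ^ (ℓ ^ r) := by
    intro r
    induction r with
    | zero => exact ⟨x, hx, by simp⟩
    | succ r ih =>
      obtain ⟨h, hh, hxh⟩ := ih
      obtain ⟨g, hg⟩ := hpow h
      refine ⟨g, ?_, ?_⟩
      · rw [hg] at hh
        exact IsNilpotent.of_pow hh
      · rw [hxh, hg, ← pow_mul, pow_succ']
  obtain ⟨h, hh, hxh⟩ := key N
  have hmem : h ∈ nilradical A := mem_nilradical.2 hh
  have h0 : h ^ N = 0 := by
    have : h ^ N ∈ nilradical A ^ N := Ideal.pow_mem_pow hmem N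
    rw [hN] at this
    simpa using this
  have hle : N ≤ ℓ ^ N := (Nat.lt_pow_self (by omega : 1 < ℓ)).le
  rw [hxh, ← Nat.sub_add_cancel hle, pow_add, h0, mul_zero]

/-- **(SN), radical part**: if every `Fr (Fr f)` is an `ℓ`-th power, `ℓ ≥ 2`, and the quotient
by `J` is finite dimensional, then `J` is radical. -/
theorem isRadical_frobIdeal (k : Type*) {B' : Type*} [Field k] [CommRing B'] [Algebra k B']
    (Fr : B' → B') (ℓ : ℕ) (hℓ : 2 ≤ ℓ)
    (hpow : ∀ f, ∃ h, Fr (Fr f) = h ^ ℓ) [Module.Finite k (B' ⧸ frobIdeal Fr)] :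
    (frobIdeal Fr).IsRadical := by
  have hArt : IsArtinianRing (B' ⧸ frobIdeal Fr) := IsArtinianRing.of_finite k _
  rw [Ideal.isRadical_iff_quotient_reduced]
  refine isReduced_of_forall_exists_pow ℓ hℓ fun a => ?_
  obtain ⟨f, rfl⟩ := Ideal.Quotient.mk_surjective a
  obtain ⟨h, hh⟩ := hpow f
  refine ⟨Ideal.Quotient.mk _ h, ?_⟩
  rw [← map_pow, ← hh, eq_comm, Ideal.Quotient.eq]
  exact sub_mem_frobIdeal Fr f

section Combined

variable [IsAlgClosed k]

/-- the points of `B' × B'` attached to the points of `B'` -/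
def prodPoints {ι : Type*} (ev : ι → B' →ₐ[k] k) : ι ⊕ ι → (B' × B') →ₐ[k] k
  | Sum.inl i => (ev i).comp (AlgHom.fst k B' B')
  | Sum.inr i => (ev i).comp (AlgHom.snd k B' B')

/-- **[T2-IDEAL] for two components glued along Frobenius** (finding #1050, items 1 + 2):
`R ⊆ B' × B'` contains the graphs of `Fr` and of its transpose, every `Fr (Fr f)` is an
`ℓ`-th power, `B' ⧸ J` is finite dimensional; `a`, `b` satisfy the power conditions and the
count.  Then `J × J ⊆ a`, `J × J ⊆ b` and `1 = x₁ y₁ + x₂ y₂`. -/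
theorem ideal_step_of_graphs (Fr : B' → B') (ℓ : ℕ) (hℓ : 2 ≤ ℓ)
    (hpow : ∀ f, ∃ h, Fr (Fr f) = h ^ ℓ) [Module.Finite k (B' ⧸ frobIdeal Fr)]
    (R : Subalgebra k (B' × B')) (h1 : ∀ f, (f, Fr f) ∈ R) (h2 : ∀ f, (Fr f, f) ∈ R)
    (n : ℕ) (hn : n ≠ 0) (a b : Submodule k (B' × B'))
    (han : ∀ x ∈ a, x ^ n ∈ R) (hbn : ∀ x ∈ b, x ^ n ∈ R)
    (hab : ∀ x ∈ a, ∀ y ∈ b, x * y ∈ R)
    (L : ℕ → Submodule k (B' × B')) (hLfin : ∀ N, FiniteDimensional k (L N))
    (hLmono : Monotone L) (hLtop : ∀ x, ∃ N, x ∈ L N)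
    (hcount : ∀ᶠ N in Filter.atTop, 2 * finrank k ↥(Subalgebra.toSubmodule R ⊓ L N) ≤
      finrank k ↥(a ⊓ L N) + finrank k ↥(b ⊓ L N)) :
    (∀ x ∈ Ideal.prod (frobIdeal Fr) (frobIdeal Fr), x ∈ a) ∧
      (∀ x ∈ Ideal.prod (frobIdeal Fr) (frobIdeal Fr), x ∈ b) ∧
      ∃ x₁ ∈ a, ∃ y₁ ∈ b, ∃ x₂ ∈ a, ∃ y₂ ∈ b, x₁ * y₁ + x₂ * y₂ = 1 := by
  obtain ⟨ev, hfin, hev⟩ :=
    exists_points_of_isRadical (k := k) (frobIdeal Fr) (isRadical_frobIdeal k Fr ℓ hℓ hpow)
  have hker : ∀ x : B' × B', (∀ i, prodPoints ev i x = 0) ↔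
      x ∈ Ideal.prod (frobIdeal Fr) (frobIdeal Fr) := by
    intro x
    rw [Ideal.mem_prod, ← hev, ← hev]
    constructor
    · intro h
      exact ⟨fun i => h (Sum.inl i), fun i => h (Sum.inr i)⟩
    · rintro ⟨ha, hb⟩ (i | i)
      · exact ha i
      · exact hb i
  have hIR : ∀ x, (∀ i, prodPoints ev i x = 0) → x ∈ R := fun x hx =>
    prod_span_le Fr R h1 h2 x ((hker x).1 hx)
  obtain ⟨hIa, hIb, -, -⟩ :=
    ideal_step_structure R (prodPoints ev) hIR hn a b han hbn L hLfin hLmono hLtop hcount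
  exact ⟨fun x hx => hIa x ((hker x).2 hx), fun x hx => hIb x ((hker x).2 hx),
    exists_mul_add_mul_eq_one R (prodPoints ev) hIR n hn a b han hbn hab L hLfin hLmono hLtop
      hcount⟩

end Combined

end

end Fermat.Agent.T2.helper51
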