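import Mathlib
import Fermat.Agent.T2.helper22_Count2
import Fermat.Agent.T2.helper51_SN
import Fermat.Agent.P2.helper74_RieInst

/-!
# Tier 2 (helper22): the ideal step for pairs of expansions

`idealStep2 : IdealStep2Statement M A W n` from the input statements of `helper22_CoreDefs`:
`ScaleStatement`, `Integrality2Statement`, `RegRed2Statement`, `Sat2Statement`, `SN2Statement`,
the Riemann setting of the special fibre field and a function separating the two cusps.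
-/

set_option autoImplicit false
set_option linter.unusedSectionVars false

noncomputable section

namespace Fermat.Agent.T2.helper22

open HahnSeries IntermediateField AlgebraicCurve ModularCurve
open Fermat.Agent.S18.helper19 Fermat.Agent.P2.helper29 Fermat.Agent.P2.helper22
open Fermat.Agent.S24
open Fermat.Agent.P2

variable {M : ℕ} [NeZero M] {A : ValuationSubring Kb} {W : FF M ≃ₐ[Kb] FF M}

/-- shortcut instance (the instance found by synthesis, which is slow to find) -/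
local instance algebraFFb6 : Algebra (kA A) (FFb A M) := SubalgebraClass.toAlgebra (FFb A M)

/-- the two cusps are different if some function has different orders at them -/
theorem cusps_ne {Pinf P2 : Place Kb (FF M)} (hPinf : IsInfty Pinf) (hP2 : IsInfty2 W P2)
    (hsep : ∃ f : FF M, f ≠ 0 ∧
      (f : LaurentSeries Kb).order ≠ ((W f : FF M) : LaurentSeries Kb).order) :
    Pinf ≠ P2 := by
  obtain ⟨f, hf0, hf⟩ := hsep
  intro h
  apply hf
  rw [← hPinf f hf0, ← hP2 f hf0, h]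

/-- the divisor `div(u) / n` -/
theorem exists_div_quot (hS : helper74.RiemannSetting Kb (FF M)) {n : ℕ} (hn : 0 < n)
    {u : FF M} (hu0 : u ≠ 0) (hdiv : ∀ P : Place Kb (FF M), (n : ℤ) ∣ P.ord u) :
    ∃ D : Divisor Kb (FF M), (∀ v : Place Kb (FF M), (n : ℤ) * D v = v.ord u) ∧
      Divisor.degree D = 0 := by
  classical
  obtain ⟨Dh, hDh, hDhdeg⟩ := hS.principal.exists_divisor u hu0
  obtain ⟨D, hDdef⟩ : ∃ D : Divisor Kb (FF M), D = Dh.mapRange (fun x => x / (n : ℤ)) (by simp) :=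
    ⟨_, rfl⟩
  have hD : ∀ v : Place Kb (FF M), (n : ℤ) * D v = v.ord u := by
    intro v
    rw [hDdef, Finsupp.mapRange_apply, hDh]
    exact Int.mul_ediv_cancel' (hdiv v)
  refine ⟨D, hD, ?_⟩
  have hmD : (n : ℤ) • D = Dh := by
    ext v
    rw [Finsupp.smul_apply, smul_eq_mul, hD, hDh]
  have := congrArg Divisor.degree hmD
  rw [map_zsmul, hDhdeg, smul_eq_mul] at this
  rcases mul_eq_zero.1 this with h0 | h0
  · exact absurd (by exact_mod_cast h0) hn.ne'
  · exact h0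

/-- **[T2-IDEAL2] the tier-2 ideal step.** -/
theorem idealStep2 (hWW : ∀ f, W (W f) = f) (hSc : ScaleStatement M A)
    (hInt : Integrality2Statement M A W) (hReg : RegRed2Statement M A W)
    (hSat : Sat2Statement M A W) (hSN : SN2Statement M A W)
    (hSb : helper74.RiemannSetting (kA A) (FFb A M))
    (hsep : ∃ f : FF M, f ≠ 0 ∧
      (f : LaurentSeries Kb).order ≠ ((W f : FF M) : LaurentSeries Kb).order)
    {n : ℕ} (hn : 0 < n) : IdealStep2Statement M A W n := by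
  classical
  intro u hu0 hdiv hu1 hu2
  obtain ⟨⟨Pinf, hPinf⟩, ⟨Qinf, hQinf⟩⟩ := inftyStatement M A
  have hP2 : IsInfty2 W (W.symm • Pinf) := isInfty2_symm_smul W hPinf
  have hne : Pinf ≠ W.symm • Pinf := cusps_ne hPinf hP2 hsep
  have hS := riemannSetting_FF M
  obtain ⟨g, hg⟩ := helper74.riemannStatement M
  have hineq := hg.1
  have : IsAlgClosed (kA A) := helper74.isAlgClosed_residueField A
  -- the divisor of `u`
  obtain ⟨D, hD, hDdeg⟩ := exists_div_quot hS hn hu0 hdiv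
  have hu0' : u⁻¹ ≠ 0 := inv_ne_zero hu0
  have hD' : ∀ v : Place Kb (FF M), (n : ℤ) * (-D) v = v.ord u⁻¹ := by
    intro v
    rw [Finsupp.neg_apply, v.ord_inv, ← hD v]
    ring
  have hDdeg' : Divisor.degree (-D) = 0 := by rw [map_neg, hDdeg, neg_zero]
  have hu1' : IsRedOne A M ((u⁻¹ : FF M) : LaurentSeries Kb) := isRedOne_inv hu1
  have hu2' : IsRedOne A M ((W u⁻¹ : FF M) : LaurentSeries Kb) := by
    rw [map_inv₀]
    exact isRedOne_inv hu2
  -- the multipliers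
  obtain ⟨Q, YQ, hQ, hQg, hQm⟩ :=
    exists_multiplier2 hWW hSc hInt hReg hineq hSb hPinf hP2 hne hQinf D
  obtain ⟨Q', YQ', hQ', hQg', hQm'⟩ :=
    exists_multiplier2 hWW hSc hInt hReg hineq hSb hPinf hP2 hne hQinf (-D)
  -- the Frobenius structure
  obtain ⟨Fr, ℓ, hℓ, hpow, hfinJ, hg1, hg2⟩ := hSN
  have : Module.Finite (kA A) (Bt A M ⧸ helper51.frobIdeal Fr) := hfinJ
  -- the count
  obtain ⟨N₁, hN₁⟩ := count_upper hWW hSc hInt hSat hg hPinf hP2 hne
  have hLfin : ∀ N : ℕ, FiniteDimensional (kA A) (LMod A M (N : ℤ)) := fun N =>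
    finiteDimensional_LMod hSb hQinf N
  have hcount : ∀ᶠ N : ℕ in Filter.atTop,
      2 * Module.finrank (kA A) ↥(Subalgebra.toSubmodule (Rt A W) ⊓ LMod A M (N : ℤ)) ≤
        Module.finrank (kA A) ↥(aMod A W n u Q YQ ⊓ LMod A M (N : ℤ)) +
          Module.finrank (kA A) ↥(aMod A W n u⁻¹ Q' YQ' ⊓ LMod A M (N : ℤ)) := by
    rw [Filter.eventually_atTop]
    refine ⟨N₁.toNat, fun N hN => ?_⟩
    have h1 := hN₁ N (by
      have := Int.self_le_toNat N₁
      have h2 : (N₁.toNat : ℤ) ≤ N := by exact_mod_cast hN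
      linarith)
    have h2 := count_lower hWW hSc hInt hReg hineq hPinf hP2 hne hn hu0 hu1 hu2 hQ hQg hD
      hDdeg (fun P hP hP' => (hQm P hP hP').2) (N : ℤ) (hLfin N)
    have h3 := count_lower hWW hSc hInt hReg hineq hPinf hP2 hne hn hu0' hu1' hu2' hQ' hQg' hD'
      hDdeg' (fun P hP hP' => (hQm' P hP hP').2) (N : ℤ) (hLfin N)
    have h4 : (2 * Module.finrank (kA A)
        ↥(Subalgebra.toSubmodule (Rt A W) ⊓ LMod A M (N : ℤ)) : ℤ) ≤
        (Module.finrank (kA A) ↥(aMod A W n u Q YQ ⊓ LMod A M (N : ℤ)) : ℤ) +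
          (Module.finrank (kA A) ↥(aMod A W n u⁻¹ Q' YQ' ⊓ LMod A M (N : ℤ)) : ℤ) := by
      linarith
    exact_mod_cast h4
  obtain ⟨-, -, x₁, hx₁, y₁, hy₁, x₂, hx₂, y₂, hy₂, hsum⟩ :=
    helper51.ideal_step_of_graphs Fr ℓ hℓ hpow (Rt A W) hg1 hg2 n hn.ne'
      (aMod A W n u Q YQ) (aMod A W n u⁻¹ Q' YQ')
      (fun x hx => aMod_pow_mem hWW hInt hn hu0 hu1 hu2 hQ hQg hx)
      (fun x hx => aMod_pow_mem hWW hInt hn hu0' hu1' hu2' hQ' hQg' hx)
      (fun x hx y hy => aMod_mul_mem hWW hInt hn hQ hQg hQ' hQg' hx hy)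
      (fun N : ℕ => LMod A M (N : ℤ)) hLfin
      (fun N N' h => LMod_mono (by exact_mod_cast h)) exists_mem_LMod hcount
  obtain ⟨G₁, YG₁, hI₁, hG₁, e₁0, e₁1⟩ := hx₁
  obtain ⟨G₂, YG₂, hI₂, hG₂, e₂0, e₂1⟩ := hx₂
  obtain ⟨B₁, YB₁, hJ₁, hB₁, f₁0, f₁1⟩ := hy₁
  obtain ⟨B₂, YB₂, hJ₂, hB₂, f₂0, f₂1⟩ := hy₂
  refine ⟨Q, Q', G₁, G₂, B₁, B₂, YQ, YQ', YG₁, YG₂, YB₁, YB₂, hQ, hQ', hG₁, hG₂, hB₁, hB₂, hQg,
    hQg', hI₁, hI₂, hJ₁, hJ₂, fun i => ?_⟩
  have hs1 : (x₁.1 : LaurentSeries (kA A)) * (y₁.1 : LaurentSeries (kA A)) +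
      (x₂.1 : LaurentSeries (kA A)) * (y₂.1 : LaurentSeries (kA A)) = 1 :=
    congrArg (fun z : Bt A M × Bt A M => (z.1 : LaurentSeries (kA A))) hsum
  have hs2 : (x₁.2 : LaurentSeries (kA A)) * (y₁.2 : LaurentSeries (kA A)) +
      (x₂.2 : LaurentSeries (kA A)) * (y₂.2 : LaurentSeries (kA A)) = 1 :=
    congrArg (fun z : Bt A M × Bt A M => (z.2 : LaurentSeries (kA A))) hsum
  fin_cases i
  · change red A (YG₁ 0) * red A (YB₁ 0) + red A (YG₂ 0) * red A (YB₂ 0) =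
      red A (YQ 0) * red A (YQ' 0)
    rw [e₁0, e₂0, f₁0, f₂0]
    linear_combination (red A (YQ 0) * red A (YQ' 0)) * hs1
  · change red A (YG₁ 1) * red A (YB₁ 1) + red A (YG₂ 1) * red A (YB₂ 1) =
      red A (YQ 1) * red A (YQ' 1)
    rw [e₁1, e₂1, f₁1, f₂1]
    linear_combination (red A (YQ 1) * red A (YQ' 1)) * hs2

end Fermat.Agent.T2.helper22
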