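import Mathlib
import Fermat.Agent.T2.helper22_Count2
import Fermat.Agent.T2.helper20_Kum
import Fermat.Agent.P2.helper44_RootLaurent

/-!
# Tier 2 (helper22): the consumer of the ideal step

`pairIdeal_of_idealStep2` : `IdealStep2Statement M A W n → PairIdealStatement M W A n`
(`helper72_Interface`, verbatim), for an involution `W` commuting with the coefficientwise Galois
action: for `σ` in the inertia group, `G := (σ G₁ · B₁ + σ G₂ · B₂) / (σ Q · Q')` and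
`H := G ^ n · u / σ u` is regular off the two cusps, integral at both, with reduction `(1, 1)`.
-/

set_option autoImplicit false
set_option linter.unusedSectionVars false

noncomputable section

namespace Fermat.Agent.T2.helper22

open HahnSeries IntermediateField AlgebraicCurve ModularCurve
open Fermat.Agent.S18.helper19 Fermat.Agent.P2.helper29 Fermat.Agent.P2.helper22
open Fermat.Agent.P2.helper93
open Fermat.Agent.S24
open Fermat.Agent.P2

variable {M : ℕ} [NeZero M] {A : ValuationSubring Kb} {W : FF M ≃ₐ[Kb] FF M}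

/-! ### The Galois action on places -/

theorem ord_galF (σ : Kb ≃ₐ[ℚ] Kb) (P : Place Kb (FF M)) (x : FF M) :
    P.ord (galF M σ x) =
      ((arithmeticGalois (modularFunctionFieldFull M) σ)⁻¹ • P).ord x := by
  have h := SemilinearAut.ord_smul (arithmeticGalois (modularFunctionFieldFull M) σ)
    ((arithmeticGalois (modularFunctionFieldFull M) σ)⁻¹ • P) x
  rw [smul_inv_smul] at h
  exact h

theorem order_galF (σ : Kb ≃ₐ[ℚ] Kb) (x : FF M) :
    ((galF M σ x : FF M) : LaurentSeries Kb).order = (x : LaurentSeries Kb).order :=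
  Fermat.Agent.P2.helper44.order_coeffMap_of_injective (σ : Kb →+* Kb) σ.injective _

theorem exists_galF_eq (σ : Kb ≃ₐ[ℚ] Kb) (f : FF M) (hf : f ≠ 0) :
    ∃ f' : FF M, f' ≠ 0 ∧ galF M σ f' = f := by
  refine ⟨(galF M σ).symm f, ?_, (galF M σ).apply_symm_apply f⟩
  intro h
  apply hf
  have := congrArg (galF M σ) h
  rwa [(galF M σ).apply_symm_apply, map_zero] at this

theorem isInfty_of_gal (σ : Kb ≃ₐ[ℚ] Kb) {P : Place Kb (FF M)}
    (h : IsInfty ((arithmeticGalois (modularFunctionFieldFull M) σ)⁻¹ • P)) : IsInfty P := by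
  intro f hf
  obtain ⟨f', hf', rfl⟩ := exists_galF_eq σ f hf
  rw [ord_galF, h f' hf', order_galF]

theorem isInfty2_of_gal
    (hWgal : ∀ (σ : Kb ≃ₐ[ℚ] Kb) (x : FF M), W (galF M σ x) = galF M σ (W x))
    (σ : Kb ≃ₐ[ℚ] Kb) {P : Place Kb (FF M)}
    (h : IsInfty2 W ((arithmeticGalois (modularFunctionFieldFull M) σ)⁻¹ • P)) :
    IsInfty2 W P := by
  intro f hf
  obtain ⟨f', hf', rfl⟩ := exists_galF_eq σ f hf
  rw [ord_galF, h f' hf', hWgal, order_galF]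

/-! ### The ideal condition under Galois and products -/

theorem InIdeal.gal (hWgal : ∀ (σ : Kb ≃ₐ[ℚ] Kb) (x : FF M), W (galF M σ x) = galF M σ (W x))
    (σ : Kb ≃ₐ[ℚ] Kb) {n : ℕ} {u Q G : FF M} (h : InIdeal W n u Q G) :
    InIdeal W n (galF M σ u) (galF M σ Q) (galF M σ G) := by
  rcases h with rfl | h
  · exact Or.inl (map_zero _)
  · refine Or.inr fun P hP hP2 => ?_
    rw [ord_galF, ord_galF, ord_galF]
    exact h _ (fun h' => hP (isInfty_of_gal σ h'))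
      (fun h' => hP2 (isInfty2_of_gal hWgal σ h'))

theorem InIdeal.mul {n : ℕ} {u u' Q Q' G G' : FF M} (hu : u ≠ 0) (hu' : u' ≠ 0) (hQ : Q ≠ 0)
    (hQ' : Q' ≠ 0) (h : InIdeal W n u Q G) (h' : InIdeal W n u' Q' G') :
    InIdeal W n (u * u') (Q * Q') (G * G') := by
  by_cases hG : G = 0
  · exact Or.inl (by rw [hG, zero_mul])
  by_cases hG' : G' = 0
  · exact Or.inl (by rw [hG', mul_zero])
  refine Or.inr fun P hP hP2 => ?_
  have h1 := (h.resolve_left hG) P hP hP2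
  have h2 := (h'.resolve_left hG') P hP hP2
  rw [P.ord_mul hu hu', P.ord_mul hG hG', P.ord_mul hQ hQ']
  linarith

theorem IsRep.gal (hWgal : ∀ (σ : Kb ≃ₐ[ℚ] Kb) (x : FF M), W (galF M σ x) = galF M σ (W x))
    {σ : Kb ≃ₐ[ℚ] Kb} (hσ : σ ∈ A.decompositionSubgroup ℚ) {X : FF M}
    {Y₁ Y₂ : LaurentSeries A} (h : IsRep A W X Y₁ Y₂) :
    IsRep A W (galF M σ X) (actA σ hσ Y₁) (actA σ hσ Y₂) := by
  refine ⟨?_, ?_⟩
  · change coeffMap A.subtype (actA σ hσ Y₁) = _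
    rw [coeffMap_subtype_actA]
    change coeffMap (σ : Kb →+* Kb) (incl A Y₁) = _
    rw [h.1]
    rfl
  · change coeffMap A.subtype (actA σ hσ Y₂) = _
    rw [coeffMap_subtype_actA, hWgal]
    change coeffMap (σ : Kb →+* Kb) (incl A Y₂) = _
    rw [h.2]
    rfl

/-- `σ u / u ≡ 1` for `σ` in the inertia group and `u ≡ 1` -/
theorem isRedOne_gal_div {u : FF M} (hu1 : IsRedOne A M (u : LaurentSeries Kb))
    {σ : Kb ≃ₐ[ℚ] Kb} (hσ : σ ∈ A.inertiaSubgroupIn ℚ) :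
    IsRedOne A M ((galF M σ u * u⁻¹ : FF M) : LaurentSeries Kb) := by
  obtain ⟨U₁, U₂, hU₁, hU₂, heU, hrU⟩ := hu1
  have h := Fermat.Agent.T2.helper20.redC_gal_div (f := u) (c := 1) one_ne_zero hU₁ hU₂
    (by rw [map_one, one_mul]; exact heU) hσ
  rw [map_one, div_one] at h
  have h2 := Fermat.Agent.T2.helper20.redC_one_iff.1 h
  rwa [div_eq_mul_inv] at h2

/-- **[T2-IDEAL-INST]** `PairIdealStatement` (helper72's interface, verbatim) from the ideal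
step. -/
theorem pairIdeal_of_idealStep2 (hWW : ∀ f, W (W f) = f)
    (hWgal : ∀ (σ : Kb ≃ₐ[ℚ] Kb) (x : FF M), W (galF M σ x) = galF M σ (W x))
    (hInt : Integrality2Statement M A W) {n : ℕ} (hn : 0 < n)
    (hI : IdealStep2Statement M A W n) : Fermat.Agent.T2.PairIdealStatement M W A n := by
  intro u hu0 hdiv hu1 hu2 σ hσ
  obtain ⟨Q, Q', G₁, G₂, B₁, B₂, YQ, YQ', YG₁, YG₂, YB₁, YB₂, hQ, hQ', hG₁, hG₂, hB₁, hB₂, hQg,
    hQg', hI₁, hI₂, hJ₁, hJ₂, hrel⟩ := hI u hu0 hdiv hu1 hu2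
  obtain ⟨hσ', -⟩ := decK_eq_id_of_mem_inertia hσ
  have hQ0 : Q ≠ 0 := ne_zero_of_isRep_good hQ (hQg 0)
  have hQ0' : Q' ≠ 0 := ne_zero_of_isRep_good hQ' (hQg' 0)
  have hsu0 : galF M σ u ≠ 0 := (map_ne_zero (galF M σ)).mpr hu0
  have hsQ0 : galF M σ Q ≠ 0 := (map_ne_zero (galF M σ)).mpr hQ0
  have hu0' : u⁻¹ ≠ 0 := inv_ne_zero hu0
  have hv0 : galF M σ u * u⁻¹ ≠ 0 := mul_ne_zero hsu0 hu0'
  have hv1 : IsRedOne A M ((galF M σ u * u⁻¹ : FF M) : LaurentSeries Kb) :=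
    isRedOne_gal_div hu1 hσ
  have hv2 : IsRedOne A M ((W (galF M σ u * u⁻¹) : FF M) : LaurentSeries Kb) := by
    rw [map_mul, map_inv₀, hWgal]
    exact isRedOne_gal_div hu2 hσ
  -- the denominator and the numerator
  have hDrep : IsRep A W (galF M σ Q * Q') (actA σ hσ' (YQ 0) * YQ' 0)
      (actA σ hσ' (YQ 1) * YQ' 1) := (hQ.gal hWgal hσ').mul hQ'
  have hNrep : IsRep A W (galF M σ G₁ * B₁ + galF M σ G₂ * B₂)
      (actA σ hσ' (YG₁ 0) * YB₁ 0 + actA σ hσ' (YG₂ 0) * YB₂ 0)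
      (actA σ hσ' (YG₁ 1) * YB₁ 1 + actA σ hσ' (YG₂ 1) * YB₂ 1) :=
    ((hG₁.gal hWgal hσ').mul hB₁).add ((hG₂.gal hWgal hσ').mul hB₂)
  obtain ⟨YD, hYD⟩ : ∃ YD : Fin 2 → LaurentSeries A,
      YD = fun i => actA σ hσ' (YQ i) * YQ' i := ⟨_, rfl⟩
  obtain ⟨YN, hYN⟩ : ∃ YN : Fin 2 → LaurentSeries A,
      YN = fun i => actA σ hσ' (YG₁ i) * YB₁ i + actA σ hσ' (YG₂ i) * YB₂ i := ⟨_, rfl⟩
  have hDrep' : IsRep A W (galF M σ Q * Q') (YD 0) (YD 1) := by rw [hYD]; exact hDrep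
  have hNrep' : IsRep A W (galF M σ G₁ * B₁ + galF M σ G₂ * B₂) (YN 0) (YN 1) := by
    rw [hYN]; exact hNrep
  have hDg : ∀ i, IsGood A M (YD i) := fun i => by
    rw [hYD]
    exact (Fermat.Agent.T2.helper20.isGood_actA hσ' (hQg i)).mul (hQg' i)
  have hred : ∀ i, red A (YN i) = red A (YD i) := fun i => by
    rw [hYN, hYD]
    simp only [map_add, map_mul]
    rw [Fermat.Agent.T2.helper20.red_actA_of_mem_inertia hσ hσ',
      Fermat.Agent.T2.helper20.red_actA_of_mem_inertia hσ hσ',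
      Fermat.Agent.T2.helper20.red_actA_of_mem_inertia hσ hσ']
    exact hrel i
  have hDen0 : galF M σ Q * Q' ≠ 0 := mul_ne_zero hsQ0 hQ0'
  have hIN : InIdeal W n (galF M σ u * u⁻¹) (galF M σ Q * Q')
      (galF M σ G₁ * B₁ + galF M σ G₂ * B₂) :=
    ((hI₁.gal hWgal σ).mul hsu0 hu0' hsQ0 hQ0' hJ₁).add
      ((hI₂.gal hWgal σ).mul hsu0 hu0' hsQ0 hQ0' hJ₂)
  obtain ⟨Y₀, Y₁, hHrep, hr₀, hr₁⟩ :=
    exists_rep_pow_div hWW hInt hn hv0 hv1 hv2 hDrep' hDg hIN hNrep'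
  have h0 : red A Y₀ = 1 := by
    rw [hred 0] at hr₀
    have : red A Y₀ * red A (YD 0) ^ n = 1 * red A (YD 0) ^ n := by rw [hr₀, one_mul]
    exact mul_right_cancel₀ (pow_ne_zero _ (hDg 0).2.2) this
  have h1 : red A Y₁ = 1 := by
    rw [hred 1] at hr₁
    have : red A Y₁ * red A (YD 1) ^ n = 1 * red A (YD 1) ^ n := by rw [hr₁, one_mul]
    exact mul_right_cancel₀ (pow_ne_zero _ (hDg 1).2.2) this
  have hHreg := isReg2_pow_div hn hv0 hDen0 hIN
  have hNum0 : galF M σ G₁ * B₁ + galF M σ G₂ * B₂ ≠ 0 := by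
    intro h
    have h2 : incl A (YN 0) = 0 := by rw [hNrep'.1, h]; rfl
    have h3 : YN 0 = 0 := incl_injective (by rw [h2, map_zero])
    apply (hDg 0).2.2
    rw [← hred 0, h3, map_zero]
  have hH : ((galF M σ G₁ * B₁ + galF M σ G₂ * B₂) / (galF M σ Q * Q')) ^ n *
      (galF M σ u * u⁻¹)⁻¹ =
      ((galF M σ G₁ * B₁ + galF M σ G₂ * B₂) / (galF M σ Q * Q')) ^ n * u *
        (galF M σ u)⁻¹ := by
    rw [mul_inv, inv_inv, mul_assoc, mul_comm (galF M σ u)⁻¹ u]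
  refine ⟨(galF M σ G₁ * B₁ + galF M σ G₂ * B₂) / (galF M σ Q * Q'),
    div_ne_zero hNum0 hDen0, ?_⟩
  rw [← hH]
  exact ⟨hHreg, Y₀, Y₁, hHrep.1, hHrep.2, h0, h1⟩

end Fermat.Agent.T2.helper22
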