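import Mathlib
import Fermat.Agent.T2.helper22_IdealStep2
import Fermat.Agent.T2.helper22_PairIdeal
import Fermat.Agent.T2.helper58_ScaleBad
import Fermat.Agent.P2.helper95_FFlInst

/-!
# Tier 2 (helper22): `PairIdealStatement` for the Atkin-Lehner involution

* `pairIdeal` : `PairIdealStatement M W A n` (helper72's interface) from the input statements of
  `helper22_CoreDefs`, for an abstract involution `W` commuting with Galois;
* `pairIdeal_atkinLehner` : the instance `M = N * q`, `W = helper36.atkinLehner N q`, `A | q`;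
  the remaining hypotheses are `Integrality2Statement`, `RegRed2Statement`, `Sat2Statement`,
  `SN2Statement`.
-/

set_option autoImplicit false
set_option linter.unusedSectionVars false

noncomputable section

namespace Fermat.Agent.T2.helper22

open HahnSeries IntermediateField AlgebraicCurve ModularCurve
open Fermat.Agent.S18.helper19 Fermat.Agent.P2.helper29 Fermat.Agent.P2.helper22
open Fermat.Agent.P2.helper93
open Fermat.Agent.S24
open Fermat.Agent.P2

/-- **[T2-IDEAL-INST]** for an abstract involution `W` commuting with Galois. -/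
theorem pairIdeal {M : ℕ} [NeZero M] {A : ValuationSubring Kb} {W : FF M ≃ₐ[Kb] FF M}
    (hWW : ∀ f, W (W f) = f)
    (hWgal : ∀ (σ : Kb ≃ₐ[ℚ] Kb) (x : FF M), W (galF M σ x) = galF M σ (W x))
    (hSc : ScaleStatement M A) (hInt : Integrality2Statement M A W)
    (hReg : RegRed2Statement M A W) (hSat : Sat2Statement M A W) (hSN : SN2Statement M A W)
    (hsep : ∃ f : FF M, f ≠ 0 ∧
      (f : LaurentSeries Kb).order ≠ ((W f : FF M) : LaurentSeries Kb).order)
    {n : ℕ} (hn : 0 < n) : Fermat.Agent.T2.PairIdealStatement M W A n :=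
  pairIdeal_of_idealStep2 hWW hWgal hInt hn
    (idealStep2 hWW hSc hInt hReg hSat hSN (helper95.riemannSetting_FFb M A) hsep hn)

section Inst

variable (N q : ℕ) [NeZero N] [NeZero q] (hq : q.Prime) (hqN : ¬ q ∣ N)

/-- `j` separates the two cusps: its orders are `-1` and `-q`. -/
theorem exists_sep_atkinLehner :
    ∃ f : FF (N * q), f ≠ 0 ∧ (f : LaurentSeries Kb).order ≠
      ((Fermat.Agent.T2.helper36.atkinLehner N q hq hqN f : FF (N * q)) :
        LaurentSeries Kb).order := by
  have hj : jqModC Kb ∈ FF N := Fermat.Agent.T2.helper96.jqModC_mem_FF N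
  have hj0 : jqModC Kb ≠ 0 := by
    intro h
    have := order_jqModC Kb
    rw [h, HahnSeries.order_zero] at this
    omega
  refine ⟨⟨jqModC Kb, Fermat.Agent.T2.helper96.mem_FF_mul N q hj⟩, ?_, ?_⟩
  · intro h
    exact hj0 (congrArg Subtype.val h)
  · rw [Fermat.Agent.T2.helper96.atkinLehner_alpha N q hq hqN hj]
    change (jqModC Kb).order ≠ (qExpand Kb q (jqModC Kb)).order
    rw [Fermat.Agent.T2.helper96.order_qExpand q hj0, order_jqModC]
    have := hq.two_le
    intro h
    have h2 : (q : ℤ) = 1 := by linarith
    have h3 : q = 1 := by exact_mod_cast h2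
    omega

/-- **[T2-IDEAL-INST]** `PairIdealStatement` at level `N * q` for the Atkin-Lehner involution. -/
theorem pairIdeal_atkinLehner (A : ValuationSubring Kb) (hA : A.LiesOverPrime q)
    (hInt : Integrality2Statement (N * q) A (Fermat.Agent.T2.helper36.atkinLehner N q hq hqN))
    (hReg : RegRed2Statement (N * q) A (Fermat.Agent.T2.helper36.atkinLehner N q hq hqN))
    (hSat : Sat2Statement (N * q) A (Fermat.Agent.T2.helper36.atkinLehner N q hq hqN))
    (hSN : SN2Statement (N * q) A (Fermat.Agent.T2.helper36.atkinLehner N q hq hqN))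
    {n : ℕ} (hn : 0 < n) :
    Fermat.Agent.T2.PairIdealStatement (N * q)
      (Fermat.Agent.T2.helper36.atkinLehner N q hq hqN) A n :=
  pairIdeal (Fermat.Agent.T2.helper36.atkinLehner_atkinLehner N q hq hqN)
    (fun σ x => Fermat.Agent.T2.helper36.atkinLehner_arithmeticRingAut N q hq hqN σ x)
    (Fermat.Agent.T2.helper58.scaleStatement_bad N q hq hqN A hA) hInt hReg hSat hSN
    (exists_sep_atkinLehner N q hq hqN) hn

end Inst

end Fermat.Agent.T2.helper22
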