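/-
T2-VAL (helper36), part 1: the calculus of reductions of `w₁`-integral functions.

Vocabulary of `P2/helper29_Interface` (`incl`, `red`, `IsGood`), all levels `M`, all `A`.

* `IsInt A M Y`  : `Y` is an integral series of `F_M` whose reduction lies in the special fibre
                   field (the reduction may vanish).
* `RhoIs A M f r`: `f` is `w₁`-integral with reduction `r` (`f = Y₁ / Y₂`, `Y₂` good,
                   `red Y₁ = r red Y₂`).
* closure of `RhoIs` under `+`, `*`, `-`, finite sums, powers, inverses of units; uniqueness of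
  the reduction; constants.
* `frob_indep`: `1, j̄, …, j̄^(ℓ-1)` are linearly independent over `k((q^ℓ))`.
-/
import Mathlib
import Fermat.Agent.P2.helper29_Interface
import Fermat.Agent.P2.helper94_ESFormal

set_option autoImplicit false

noncomputable section

open HahnSeries ModularCurve
open Fermat.Agent.S18.helper19 Fermat.Agent.P2.helper29

namespace Fermat.Agent.T2.helper36

variable {A : ValuationSubring Kb} {M : ℕ}

/-! ### Integral series -/

theorem incl_injective_val (A : ValuationSubring Kb) : Function.Injective (incl A) := by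
  intro x y h
  ext k
  have := congrArg (fun z : LaurentSeries Kb => z.coeff k) h
  simpa using this

theorem incl_ne_zero_of_red_ne_zero {Y : LaurentSeries A} (h : red A Y ≠ 0) : incl A Y ≠ 0 := by
  intro h0
  apply h
  have : Y = 0 := incl_injective_val A (h0.trans (map_zero _).symm)
  rw [this, map_zero]

/-- `Y` is an integral series of `F_M` whose reduction lies in the special fibre field. -/
def IsInt (A : ValuationSubring Kb) (M : ℕ) (Y : LaurentSeries A) : Prop :=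
  incl A Y ∈ FF M ∧ red A Y ∈ FFb A M

theorem isInt_of_isGood {Y : LaurentSeries A} (h : IsGood A M Y) : IsInt A M Y := ⟨h.1, h.2.1⟩

theorem IsInt.isGood {Y : LaurentSeries A} (h : IsInt A M Y) (h0 : red A Y ≠ 0) :
    IsGood A M Y := ⟨h.1, h.2, h0⟩

theorem isInt_zero : IsInt A M (0 : LaurentSeries A) := by
  refine ⟨?_, ?_⟩
  · rw [map_zero]; exact zero_mem _
  · rw [map_zero]; exact zero_mem _

theorem isInt_one : IsInt A M (1 : LaurentSeries A) := isInt_of_isGood isGood_one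

theorem IsInt.add {Y Z : LaurentSeries A} (hY : IsInt A M Y) (hZ : IsInt A M Z) :
    IsInt A M (Y + Z) := by
  refine ⟨?_, ?_⟩
  · rw [map_add]; exact add_mem hY.1 hZ.1
  · rw [map_add]; exact add_mem hY.2 hZ.2

theorem IsInt.mul {Y Z : LaurentSeries A} (hY : IsInt A M Y) (hZ : IsInt A M Z) :
    IsInt A M (Y * Z) := by
  refine ⟨?_, ?_⟩
  · rw [map_mul]; exact mul_mem hY.1 hZ.1
  · rw [map_mul]; exact mul_mem hY.2 hZ.2

theorem IsInt.neg {Y : LaurentSeries A} (hY : IsInt A M Y) : IsInt A M (-Y) := by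
  refine ⟨?_, ?_⟩
  · rw [map_neg]; exact neg_mem hY.1
  · rw [map_neg]; exact neg_mem hY.2

theorem IsInt.sub {Y Z : LaurentSeries A} (hY : IsInt A M Y) (hZ : IsInt A M Z) :
    IsInt A M (Y - Z) := by
  rw [sub_eq_add_neg]; exact hY.add hZ.neg

theorem IsInt.pow {Y : LaurentSeries A} (hY : IsInt A M Y) (n : ℕ) : IsInt A M (Y ^ n) := by
  induction n with
  | zero => rw [pow_zero]; exact isInt_one
  | succ n ih => rw [pow_succ]; exact ih.mul hY

theorem isInt_constA (a : A) : IsInt A M (constA a) := by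
  refine ⟨?_, ?_⟩
  · show coeffMap A.subtype (constA a) ∈ FF M
    rw [coeffMap_subtype_constA]; exact (FF M).algebraMap_mem _
  · show coeffMap (IsLocalRing.residue A) (constA a) ∈ FFb A M
    rw [coeffMap_residue_constA]; exact (FFb A M).algebraMap_mem _

/-! ### Reductions of `w₁`-integral functions -/

/-- `f` is `w₁`-integral with reduction `r`. -/
def RhoIs (A : ValuationSubring Kb) (M : ℕ) (f : LaurentSeries Kb)
    (r : LaurentSeries (kA A)) : Prop :=
  ∃ Y₁ Y₂ : LaurentSeries A, IsInt A M Y₁ ∧ IsGood A M Y₂ ∧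
    incl A Y₁ = f * incl A Y₂ ∧ red A Y₁ = r * red A Y₂

theorem RhoIs.mem {f : LaurentSeries Kb} {r : LaurentSeries (kA A)} (h : RhoIs A M f r) :
    f ∈ FF M := by
  obtain ⟨Y₁, Y₂, h1, h2, h3, -⟩ := h
  have h0 : incl A Y₂ ≠ 0 := incl_ne_zero_of_red_ne_zero h2.2.2
  have : f = incl A Y₁ * (incl A Y₂)⁻¹ := by
    rw [h3, mul_assoc, mul_inv_cancel₀ h0, mul_one]
  rw [this]
  exact mul_mem h1.1 (inv_mem h2.1)

theorem RhoIs.red_mem {f : LaurentSeries Kb} {r : LaurentSeries (kA A)} (h : RhoIs A M f r) :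
    r ∈ FFb A M := by
  obtain ⟨Y₁, Y₂, h1, h2, -, h4⟩ := h
  have h0 : red A Y₂ ≠ 0 := h2.2.2
  have : r = red A Y₁ * (red A Y₂)⁻¹ := by
    rw [h4, mul_assoc, mul_inv_cancel₀ h0, mul_one]
  rw [this]
  exact mul_mem h1.2 (inv_mem h2.2.1)

theorem rhoIs_incl {Y : LaurentSeries A} (h : IsInt A M Y) : RhoIs A M (incl A Y) (red A Y) :=
  ⟨Y, 1, h, isGood_one, by rw [map_one, mul_one], by rw [map_one, mul_one]⟩

theorem rhoIs_zero : RhoIs A M 0 0 := by
  have := rhoIs_incl (A := A) (M := M) isInt_zero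
  rwa [map_zero, map_zero] at this

theorem rhoIs_one : RhoIs A M 1 1 := by
  have := rhoIs_incl (A := A) (M := M) isInt_one
  rwa [map_one, map_one] at this

theorem rhoIs_quot {Y₁ Y₂ : LaurentSeries A} (h1 : IsInt A M Y₁) (h2 : IsGood A M Y₂) :
    RhoIs A M (incl A Y₁ / incl A Y₂) (red A Y₁ / red A Y₂) :=
  ⟨Y₁, Y₂, h1, h2, by rw [div_mul_cancel₀ _ (incl_ne_zero_of_red_ne_zero h2.2.2)],
    by rw [div_mul_cancel₀ _ h2.2.2]⟩

theorem RhoIs.add {f g : LaurentSeries Kb} {r s : LaurentSeries (kA A)}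
    (hf : RhoIs A M f r) (hg : RhoIs A M g s) : RhoIs A M (f + g) (r + s) := by
  obtain ⟨Y₁, Y₂, h1, h2, h3, h4⟩ := hf
  obtain ⟨Z₁, Z₂, k1, k2, k3, k4⟩ := hg
  refine ⟨Y₁ * Z₂ + Z₁ * Y₂, Y₂ * Z₂, (h1.mul (isInt_of_isGood k2)).add
    (k1.mul (isInt_of_isGood h2)), h2.mul k2, ?_, ?_⟩
  · rw [map_add, map_mul, map_mul, map_mul, h3, k3]; ring
  · rw [map_add, map_mul, map_mul, map_mul, h4, k4]; ring

theorem RhoIs.mul {f g : LaurentSeries Kb} {r s : LaurentSeries (kA A)}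
    (hf : RhoIs A M f r) (hg : RhoIs A M g s) : RhoIs A M (f * g) (r * s) := by
  obtain ⟨Y₁, Y₂, h1, h2, h3, h4⟩ := hf
  obtain ⟨Z₁, Z₂, k1, k2, k3, k4⟩ := hg
  refine ⟨Y₁ * Z₁, Y₂ * Z₂, h1.mul k1, h2.mul k2, ?_, ?_⟩
  · rw [map_mul, map_mul, h3, k3]; ring
  · rw [map_mul, map_mul, h4, k4]; ring

theorem RhoIs.neg {f : LaurentSeries Kb} {r : LaurentSeries (kA A)}
    (hf : RhoIs A M f r) : RhoIs A M (-f) (-r) := by
  obtain ⟨Y₁, Y₂, h1, h2, h3, h4⟩ := hf
  refine ⟨-Y₁, Y₂, h1.neg, h2, ?_, ?_⟩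
  · rw [map_neg, h3]; ring
  · rw [map_neg, h4]; ring

theorem RhoIs.sub {f g : LaurentSeries Kb} {r s : LaurentSeries (kA A)}
    (hf : RhoIs A M f r) (hg : RhoIs A M g s) : RhoIs A M (f - g) (r - s) := by
  rw [sub_eq_add_neg, sub_eq_add_neg]; exact hf.add hg.neg

theorem RhoIs.pow {f : LaurentSeries Kb} {r : LaurentSeries (kA A)}
    (hf : RhoIs A M f r) (n : ℕ) : RhoIs A M (f ^ n) (r ^ n) := by
  induction n with
  | zero => rw [pow_zero, pow_zero]; exact rhoIs_one
  | succ n ih => rw [pow_succ, pow_succ]; exact ih.mul hf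

theorem RhoIs.sum {ι : Type*} (s : Finset ι) {f : ι → LaurentSeries Kb}
    {r : ι → LaurentSeries (kA A)} (h : ∀ i ∈ s, RhoIs A M (f i) (r i)) :
    RhoIs A M (∑ i ∈ s, f i) (∑ i ∈ s, r i) := by
  classical
  induction s using Finset.induction_on with
  | empty => rw [Finset.sum_empty, Finset.sum_empty]; exact rhoIs_zero
  | insert a s ha ih =>
    rw [Finset.sum_insert ha, Finset.sum_insert ha]
    exact (h a (Finset.mem_insert_self a s)).add
      (ih fun i hi => h i (Finset.mem_insert_of_mem hi))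

/-- the reduction is unique -/
theorem RhoIs.unique {f : LaurentSeries Kb} {r s : LaurentSeries (kA A)}
    (hr : RhoIs A M f r) (hs : RhoIs A M f s) : r = s := by
  obtain ⟨Y₁, Y₂, -, h2, h3, h4⟩ := hr
  obtain ⟨Z₁, Z₂, -, k2, k3, k4⟩ := hs
  have e : Y₁ * Z₂ = Z₁ * Y₂ := by
    apply incl_injective_val A
    rw [map_mul, map_mul, h3, k3]; ring
  have e' := congrArg (red A) e
  rw [map_mul, map_mul, h4, k4] at e'
  have hne : red A Y₂ * red A Z₂ ≠ 0 := mul_ne_zero h2.2.2 k2.2.2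
  apply mul_right_cancel₀ hne
  rw [← mul_assoc, e']; ring

theorem RhoIs.eq_zero {r : LaurentSeries (kA A)} (h : RhoIs A M 0 r) : r = 0 :=
  h.unique rhoIs_zero

/-- inverse of a `w₁`-unit -/
theorem RhoIs.inv {f : LaurentSeries Kb} {r : LaurentSeries (kA A)}
    (hf : RhoIs A M f r) (hr : r ≠ 0) : RhoIs A M f⁻¹ r⁻¹ := by
  obtain ⟨Y₁, Y₂, h1, h2, h3, h4⟩ := hf
  have hY₁ : red A Y₁ ≠ 0 := by rw [h4]; exact mul_ne_zero hr h2.2.2
  have h0 : incl A Y₁ ≠ 0 := incl_ne_zero_of_red_ne_zero hY₁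
  have hf0 : f ≠ 0 := by
    rintro rfl
    rw [zero_mul] at h3
    exact h0 h3
  refine ⟨Y₂, Y₁, isInt_of_isGood h2, h1.isGood hY₁, ?_, ?_⟩
  · rw [h3, ← mul_assoc, inv_mul_cancel₀ hf0, one_mul]
  · rw [h4, ← mul_assoc, inv_mul_cancel₀ hr, one_mul]

theorem RhoIs.ne_zero {f : LaurentSeries Kb} {r : LaurentSeries (kA A)}
    (hf : RhoIs A M f r) (hr : r ≠ 0) : f ≠ 0 := by
  rintro rfl
  exact hr hf.eq_zero

/-- constants of `A` -/
theorem rhoIs_algebraMap (a : A) :
    RhoIs A M (algebraMap Kb (LaurentSeries Kb) (a : Kb))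
      (algebraMap (kA A) (LaurentSeries (kA A)) (IsLocalRing.residue A a)) := by
  have := rhoIs_incl (A := A) (M := M) (isInt_constA a)
  have e1 : incl A (constA a) = algebraMap Kb (LaurentSeries Kb) (a : Kb) :=
    coeffMap_subtype_constA a
  have e2 : red A (constA a) =
      algebraMap (kA A) (LaurentSeries (kA A)) (IsLocalRing.residue A a) :=
    coeffMap_residue_constA a
  rwa [e1, e2] at this

/-- a constant which is `w₁`-integral lies in `A` -/
theorem RhoIs.algebraMap_mem {c : Kb} {r : LaurentSeries (kA A)}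
    (h : RhoIs A M (algebraMap Kb (LaurentSeries Kb) c) r) : c ∈ A := by
  by_contra hc
  have hc0 : c ≠ 0 := fun h0 => hc (h0 ▸ A.zero_mem)
  have hinv : c⁻¹ ∈ A := (A.mem_or_inv_mem c).resolve_left hc
  have hnu : ¬ IsUnit (⟨c⁻¹, hinv⟩ : A) := by
    intro hu
    obtain ⟨u, hu⟩ := hu
    have h1 : ((u⁻¹ : Aˣ) : A) * ⟨c⁻¹, hinv⟩ = 1 := by rw [← hu]; exact u.inv_mul
    have h2 : (((u⁻¹ : Aˣ) : A) : Kb) * c⁻¹ = 1 := by
      have := congrArg (fun x : A => (x : Kb)) h1
      simpa using this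
    have h3 : (((u⁻¹ : Aˣ) : A) : Kb) = c := by
      field_simp at h2
      exact h2
    exact hc (h3 ▸ ((u⁻¹ : Aˣ) : A).2)
  have hres : IsLocalRing.residue A ⟨c⁻¹, hinv⟩ = 0 := by
    rw [IsLocalRing.residue_eq_zero_iff]
    exact (IsLocalRing.mem_maximalIdeal _).2 hnu
  have h' := (rhoIs_algebraMap (M := M) (⟨c⁻¹, hinv⟩ : A)).mul h
  rw [hres, map_zero, zero_mul] at h'
  have e : algebraMap Kb (LaurentSeries Kb) ((⟨c⁻¹, hinv⟩ : A) : Kb) *
      algebraMap Kb (LaurentSeries Kb) c = 1 := by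
    rw [← map_mul]
    show algebraMap Kb (LaurentSeries Kb) (c⁻¹ * c) = 1
    rw [inv_mul_cancel₀ hc0, map_one]
  rw [e] at h'
  exact one_ne_zero (h'.unique rhoIs_one).symm

theorem RhoIs.algebraMap_eq {c : Kb} {r : LaurentSeries (kA A)}
    (h : RhoIs A M (algebraMap Kb (LaurentSeries Kb) c) r) :
    r = algebraMap (kA A) (LaurentSeries (kA A)) (IsLocalRing.residue A ⟨c, h.algebraMap_mem⟩) :=
  h.unique (rhoIs_algebraMap (M := M) (⟨c, h.algebraMap_mem⟩ : A))

/-- a `w₁`-unit constant is a unit of `A` -/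
theorem RhoIs.algebraMap_residue_ne_zero {c : Kb} {r : LaurentSeries (kA A)}
    (h : RhoIs A M (algebraMap Kb (LaurentSeries Kb) c) r) (hr : r ≠ 0) :
    IsLocalRing.residue A ⟨c, h.algebraMap_mem⟩ ≠ 0 := by
  intro h0
  apply hr
  rw [h.algebraMap_eq, h0, map_zero]

/-- scaling by a constant of `A` -/
theorem RhoIs.smul_const {f : LaurentSeries Kb} {r : LaurentSeries (kA A)}
    (hf : RhoIs A M f r) (a : A) :
    RhoIs A M (algebraMap Kb (LaurentSeries Kb) (a : Kb) * f)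
      (algebraMap (kA A) (LaurentSeries (kA A)) (IsLocalRing.residue A a) * r) :=
  (rhoIs_algebraMap a).mul hf

end Fermat.Agent.T2.helper36

end
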