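/-
T2-VAL (helper36), part 2: Frobenius independence and change of level.

* `frob_indep`: `1, j̄, …, j̄^(ℓ-1)` are linearly independent over `k((q^ℓ))`.
* `RhoIs.of_level`, `RhoIs.qExpand_level`: a `w'`-integral function of level `N` with reduction
  `r` is `w₁`-integral at level `N ℓ` with reduction `r`, and its image under `β : f ↦ f(q^ℓ)`
  is `w₁`-integral with reduction `r(q^ℓ)`  (Kronecker in valuation form).
-/
import Mathlib
import Fermat.Prelude.Def_ModularCurve_HeckeOperator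
import Fermat.Agent.T2.helper36_ValCore

set_option autoImplicit false
set_option linter.unusedSectionVars false
set_option linter.style.haveILetI false

noncomputable section

open HahnSeries ModularCurve
open Fermat.Agent.S18.helper19 Fermat.Agent.P2.helper29

namespace Fermat.Agent.T2.helper36

/-! ### Orders -/

theorem order_jqModC_val (k : Type*) [Field k] : (jqModC k).order = -1 := by
  have hne : jqModC k ≠ 0 := jqModC_ne_zero_of_nontrivial k
  apply le_antisymm
  · apply HahnSeries.order_le_of_coeff_ne_zero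
    rw [coeff_jqModC_neg_one]
    exact one_ne_zero
  · rw [HahnSeries.le_order_iff_forall hne]
    intro j hj
    exact coeff_jqModC_of_lt k hj

theorem order_qExpand_val {k : Type*} [Field k] (n : ℕ) [NeZero n] (x : LaurentSeries k) :
    (qExpand k n x).order = (n : ℤ) * x.order := by
  by_cases hx : x = 0
  · rw [hx, map_zero, HahnSeries.order_zero, mul_zero]
  have hne : qExpand k n x ≠ 0 := fun h => hx (qExpand_injective n (h.trans (map_zero _).symm))
  have hn : (0 : ℤ) < n := by exact_mod_cast Nat.pos_of_ne_zero (NeZero.ne n)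
  apply le_antisymm
  · apply HahnSeries.order_le_of_coeff_ne_zero
    rw [qExpand_coeff_mul]
    exact fun h => hx (HahnSeries.coeff_order_eq_zero.1 h)
  · rw [HahnSeries.le_order_iff_forall hne]
    intro j hj
    by_cases hd : (n : ℤ) ∣ j
    · obtain ⟨m, rfl⟩ := hd
      rw [qExpand_coeff_mul]
      apply HahnSeries.coeff_eq_zero_of_lt_order
      exact lt_of_mul_lt_mul_left hj hn.le
    · exact qExpand_coeff_of_not_dvd n x hd

/-- `1, j̄, …, j̄^(ℓ-1)` are linearly independent over `k((q^ℓ))`. -/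
theorem frob_indep {k : Type*} [Field k] (ℓ : ℕ) [NeZero ℓ] (r : Fin ℓ → LaurentSeries k)
    (h : ∑ i, qExpand k ℓ (r i) * jqModC k ^ (i : ℕ) = 0) : ∀ i, r i = 0 := by
  classical
  by_contra hcon
  rw [not_forall] at hcon
  set t : Fin ℓ → LaurentSeries k := fun i => qExpand k ℓ (r i) * jqModC k ^ (i : ℕ) with ht
  have hj : jqModC k ≠ 0 := jqModC_ne_zero_of_nontrivial k
  have hq : ∀ i, r i ≠ 0 → qExpand k ℓ (r i) ≠ 0 := fun i hi h0 =>
    hi (qExpand_injective ℓ (h0.trans (map_zero _).symm))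
  have htne : ∀ i, r i ≠ 0 → t i ≠ 0 := fun i hi => mul_ne_zero (hq i hi) (pow_ne_zero _ hj)
  have hord : ∀ i, r i ≠ 0 → (t i).order = (ℓ : ℤ) * (r i).order - (i : ℕ) := by
    intro i hi
    rw [ht]
    simp only
    rw [HahnSeries.order_mul (hq i hi) (pow_ne_zero _ hj), HahnSeries.order_pow,
      order_jqModC_val, order_qExpand_val]
    simp
    ring
  set S : Finset (Fin ℓ) := Finset.univ.filter fun i => r i ≠ 0 with hS
  have hSne : S.Nonempty := by
    obtain ⟨i, hi⟩ := hcon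
    exact ⟨i, by simp [hS, hi]⟩
  obtain ⟨i₀, hi₀S, hmin⟩ := Finset.exists_min_image S (fun i => (t i).order) hSne
  have hi₀ : r i₀ ≠ 0 := by simpa [hS] using hi₀S
  have hc := congrArg (fun z : LaurentSeries k => z.coeff (t i₀).order) h
  simp only [HahnSeries.coeff_sum, HahnSeries.coeff_zero] at hc
  rw [Finset.sum_eq_single i₀] at hc
  · exact htne i₀ hi₀ (HahnSeries.coeff_order_eq_zero.1 hc)
  · intro i _ hne
    by_cases hi : r i = 0
    · show (t i).coeff _ = 0
      rw [ht]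
      simp only
      rw [hi, map_zero, zero_mul, HahnSeries.coeff_zero]
    · apply HahnSeries.coeff_eq_zero_of_lt_order
      have hle := hmin i (by simp [hS, hi])
      refine lt_of_le_of_ne hle ?_
      intro heq
      rw [hord i hi, hord i₀ hi₀] at heq
      apply hne
      have h1 : (ℓ : ℤ) * ((r i₀).order - (r i).order) = (i₀ : ℕ) - (i : ℕ) := by linarith
      have h2 : ((i₀ : ℕ) : ℤ) < ℓ := by exact_mod_cast i₀.2
      have h3 : ((i : ℕ) : ℤ) < ℓ := by exact_mod_cast i.2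
      have h4 : (0 : ℤ) ≤ (i₀ : ℕ) := by positivity
      have h5 : (0 : ℤ) ≤ (i : ℕ) := by positivity
      have h6 : (r i₀).order - (r i).order = 0 := by
        by_contra hne0
        rcases lt_or_gt_of_ne hne0 with hlt | hgt
        · have : (ℓ : ℤ) * ((r i₀).order - (r i).order) ≤ (ℓ : ℤ) * (-1) := by
            apply mul_le_mul_of_nonneg_left _ (by positivity)
            linarith
          linarith
        · have : (ℓ : ℤ) * 1 ≤ (ℓ : ℤ) * ((r i₀).order - (r i).order) := by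
            apply mul_le_mul_of_nonneg_left _ (by positivity)
            linarith
          linarith
      rw [h6, mul_zero] at h1
      apply Fin.ext
      have : ((i : ℕ) : ℤ) = (i₀ : ℕ) := by linarith
      exact_mod_cast this
  · intro hn
    exact absurd (Finset.mem_univ i₀) hn

/-! ### Change of level -/

section Level

variable {A : ValuationSubring Kb} (N ℓ : ℕ) [NeZero N] [NeZero ℓ]

theorem mem_FF_mul {f : LaurentSeries Kb} (hf : f ∈ FF N) : f ∈ FF (N * ℓ) := by
  have := (heckeAlphaBar Kb N ℓ ⟨f, hf⟩).2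
  rwa [coe_heckeAlphaBar] at this

theorem qExpand_mem_FF_mul {f : LaurentSeries Kb} (hf : f ∈ FF N) :
    qExpand Kb ℓ f ∈ FF (N * ℓ) := by
  have := (heckeBetaBar Kb N ℓ ⟨f, hf⟩).2
  rwa [coe_heckeBetaBar] at this

theorem mem_FFb_mul {x : LaurentSeries (kA A)} (hx : x ∈ FFb A N) : x ∈ FFb A (N * ℓ) :=
  full_degeneracyC_le (kA A) (Dvd.intro _ rfl) hx

theorem qExpand_mem_FFb_mul {x : LaurentSeries (kA A)} (hx : x ∈ FFb A N) :
    qExpand (kA A) ℓ x ∈ FFb A (N * ℓ) := by
  have hle : FFb A N ≤ (FFb A (N * ℓ)).comap (qExpandAlgHomC (kA A) ℓ) := by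
    show modularFunctionFieldFullC (kA A) N ≤ _
    rw [modularFunctionFieldFullC, IntermediateField.adjoin_le_iff]
    rintro y ⟨d, hne, hdvd, rfl⟩
    haveI := hne
    show qExpand (kA A) ℓ (qExpand (kA A) d (jqModC (kA A))) ∈ FFb A (N * ℓ)
    rw [qExpand_qExpand]
    exact jqModCd_mem_full (kA A) (N * ℓ) (by rw [mul_comm]; exact mul_dvd_mul_right hdvd ℓ)
  exact hle hx

variable {N}

theorem IsInt.of_level {Y : LaurentSeries A} (h : IsInt A N Y) : IsInt A (N * ℓ) Y :=
  ⟨mem_FF_mul N ℓ h.1, mem_FFb_mul N ℓ h.2⟩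

theorem IsInt.qExpand_level {Y : LaurentSeries A} (h : IsInt A N Y) :
    IsInt A (N * ℓ) (qExpand A ℓ Y) := by
  refine ⟨?_, ?_⟩
  · show coeffMap A.subtype (qExpand A ℓ Y) ∈ FF (N * ℓ)
    rw [Fermat.Agent.P2.helper94.coeffMap_qExpand]
    exact qExpand_mem_FF_mul N ℓ h.1
  · show coeffMap (IsLocalRing.residue A) (qExpand A ℓ Y) ∈ FFb A (N * ℓ)
    rw [Fermat.Agent.P2.helper94.coeffMap_qExpand]
    exact qExpand_mem_FFb_mul N ℓ h.2

theorem isGood_of_level {Y : LaurentSeries A} (h : IsGood A N Y) : IsGood A (N * ℓ) Y :=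
  (IsInt.of_level ℓ (isInt_of_isGood h)).isGood h.2.2

theorem isGood_qExpand_level {Y : LaurentSeries A} (h : IsGood A N Y) :
    IsGood A (N * ℓ) (qExpand A ℓ Y) := by
  refine (IsInt.qExpand_level ℓ (isInt_of_isGood h)).isGood ?_
  show coeffMap (IsLocalRing.residue A) (qExpand A ℓ Y) ≠ 0
  rw [Fermat.Agent.P2.helper94.coeffMap_qExpand]
  intro h0
  exact h.2.2 (qExpand_injective ℓ (h0.trans (map_zero _).symm))

/-- **Kronecker, first half**: `ρ₁(α f) = f̄`. -/
theorem RhoIs.of_level {f : LaurentSeries Kb} {r : LaurentSeries (kA A)}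
    (h : RhoIs A N f r) : RhoIs A (N * ℓ) f r := by
  obtain ⟨Y₁, Y₂, h1, h2, h3, h4⟩ := h
  exact ⟨Y₁, Y₂, h1.of_level ℓ, isGood_of_level ℓ h2, h3, h4⟩

/-- **Kronecker, second half**: `ρ₁(β f) = f̄(q^ℓ)`. -/
theorem RhoIs.qExpand_level {f : LaurentSeries Kb} {r : LaurentSeries (kA A)}
    (h : RhoIs A N f r) : RhoIs A (N * ℓ) (qExpand Kb ℓ f) (qExpand (kA A) ℓ r) := by
  obtain ⟨Y₁, Y₂, h1, h2, h3, h4⟩ := h
  refine ⟨qExpand A ℓ Y₁, qExpand A ℓ Y₂, h1.qExpand_level ℓ, isGood_qExpand_level ℓ h2, ?_, ?_⟩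
  · show coeffMap A.subtype (qExpand A ℓ Y₁) = _ * coeffMap A.subtype (qExpand A ℓ Y₂)
    rw [Fermat.Agent.P2.helper94.coeffMap_qExpand, Fermat.Agent.P2.helper94.coeffMap_qExpand,
      ← map_mul]
    exact congrArg _ h3
  · show coeffMap (IsLocalRing.residue A) (qExpand A ℓ Y₁) =
      _ * coeffMap (IsLocalRing.residue A) (qExpand A ℓ Y₂)
    rw [Fermat.Agent.P2.helper94.coeffMap_qExpand, Fermat.Agent.P2.helper94.coeffMap_qExpand,
      ← map_mul]
    exact congrArg _ h4

end Level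

/-! ### `Scale` in terms of `RhoIs` -/

section Scale

variable {A : ValuationSubring Kb} {M : ℕ} [NeZero M]

theorem exists_rhoIs_of_scale (hS : ScaleStatement M A) {f : LaurentSeries Kb} (hf : f ∈ FF M)
    (hf0 : f ≠ 0) :
    ∃ (c : Kb) (r : LaurentSeries (kA A)), c ≠ 0 ∧ r ≠ 0 ∧
      RhoIs A M (algebraMap Kb (LaurentSeries Kb) c⁻¹ * f) r := by
  obtain ⟨c, Y₁, Y₂, hc, h1, h2, h3⟩ := hS f hf hf0
  refine ⟨c, red A Y₁ / red A Y₂, hc, div_ne_zero h1.2.2 h2.2.2, Y₁, Y₂, isInt_of_isGood h1, h2,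
    ?_, by rw [div_mul_cancel₀ _ h2.2.2]⟩
  rw [mul_assoc, ← h3, ← mul_assoc, ← map_mul, inv_mul_cancel₀ hc, map_one, one_mul]

theorem scale_of_exists_rhoIs
    (h : ∀ f : LaurentSeries Kb, f ∈ FF M → f ≠ 0 →
      ∃ (c : Kb) (r : LaurentSeries (kA A)), c ≠ 0 ∧ r ≠ 0 ∧
        RhoIs A M (algebraMap Kb (LaurentSeries Kb) c⁻¹ * f) r) :
    ScaleStatement M A := by
  intro f hf hf0
  obtain ⟨c, r, hc, hr, Y₁, Y₂, h1, h2, h3, h4⟩ := h f hf hf0
  have hY₁ : red A Y₁ ≠ 0 := by rw [h4]; exact mul_ne_zero hr h2.2.2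
  refine ⟨c, Y₁, Y₂, hc, h1.isGood hY₁, h2, ?_⟩
  rw [h3, ← mul_assoc, ← mul_assoc, ← map_mul, mul_inv_cancel₀ hc, map_one, one_mul]

end Scale

end Fermat.Agent.T2.helper36

end
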