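import Mathlib

/-!
# T2-INT (helper45), abstract part: primes of `R⟦X⟧` and valuation rings

* `dvd_iff_coeff_mem_of_dvd_C` : for a local principal ideal domain `R` and a prime `P` of `R⟦X⟧`
  dividing a nonzero constant, `P ∣ G` iff all coefficients of `G` lie in the maximal ideal.
* `exists_valuationSubring_of_prime` : a prime `P` of a domain `U` with an embedding `φ` into a
  field `L`, and a field `F` inside `L`: there is a valuation subring `V` of `F` containing the
  quotients `a / b ∈ F` with `P ∤ b` and whose maximal ideal contains those with `P ∣ a`.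
* `exists_pow_mul_of_forall_prime` : the divisibility induction in a UFD.
-/

set_option autoImplicit false
set_option linter.unusedSectionVars false
set_option linter.style.haveILetI false
set_option linter.unusedVariables false

noncomputable section

namespace Fermat.Agent.T2.helper45

open PowerSeries

/-! ### Vertical primes -/

section Vertical

variable {R : Type*} [CommRing R] [IsDomain R] [IsPrincipalIdealRing R] [IsLocalRing R]

/-- all coefficients lie in the ideal generated by `π` iff `C π` divides the series -/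
theorem C_dvd_iff_forall_coeff_mem (π : R) (G : PowerSeries R) :
    C π ∣ G ↔ ∀ n, coeff n G ∈ Ideal.span {π} := by
  constructor
  · rintro ⟨G', rfl⟩ n
    rw [coeff_C_mul]
    exact Ideal.mul_mem_right _ _ (Ideal.subset_span rfl)
  · intro h
    have h' : ∀ n, ∃ c, coeff n G = π * c := fun n => by
      have := h n
      rw [Ideal.mem_span_singleton'] at this
      obtain ⟨c, hc⟩ := this
      exact ⟨c, by rw [← hc, mul_comm]⟩
    choose c hc using h'
    refine ⟨PowerSeries.mk c, ?_⟩
    ext n
    rw [coeff_C_mul, coeff_mk, hc]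

/-- `C π` behaves like a prime when `π` generates the maximal ideal -/
theorem C_dvd_or_dvd_of_span_eq {π : R} (hπ : IsLocalRing.maximalIdeal R = Ideal.span {π})
    {G H : PowerSeries R} (h : C π ∣ G * H) : C π ∣ G ∨ C π ∣ H := by
  set ρ : R →+* IsLocalRing.ResidueField R := IsLocalRing.residue R with hρ
  have key : ∀ G : PowerSeries R, C π ∣ G ↔ PowerSeries.map ρ G = 0 := by
    intro G
    rw [C_dvd_iff_forall_coeff_mem, ← hπ]
    constructor
    · intro h
      ext n
      rw [coeff_map, map_zero]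
      exact (IsLocalRing.residue_eq_zero_iff _).mpr (h n)
    · intro h n
      have := congrArg (coeff n) h
      rw [coeff_map, map_zero] at this
      exact (IsLocalRing.residue_eq_zero_iff _).mp this
  rw [key, map_mul] at h
  rcases mul_eq_zero.mp h with h1 | h1
  · exact Or.inl ((key G).mpr h1)
  · exact Or.inr ((key H).mpr h1)

/-- a prime of `R⟦X⟧` dividing a nonzero constant is associated to `C π`, `π` a generator of the
maximal ideal -/
theorem associated_C_of_dvd_C {π : R} (hπ : IsLocalRing.maximalIdeal R = Ideal.span {π})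
    {P : PowerSeries R} (hP : Prime P) :
    ∀ r : R, r ≠ 0 → P ∣ C r → Associated P (C π) := by
  have hπnu : ¬ IsUnit π := by
    have : π ∈ IsLocalRing.maximalIdeal R := by rw [hπ]; exact Ideal.subset_span rfl
    exact (IsLocalRing.mem_maximalIdeal π).mp this
  have hCπnu : ¬ IsUnit (C π : PowerSeries R) := by
    intro h
    rw [PowerSeries.isUnit_iff_constantCoeff] at h
    simp only [constantCoeff_C] at h
    exact hπnu h
  intro r
  induction r using WellFounded.induction (wellFounded_dvdNotUnit (α := R)) with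
  | _ r ih =>
    intro hr hPr
    by_cases hru : IsUnit r
    · exact absurd (isUnit_of_dvd_unit hPr (hru.map (C : R →+* PowerSeries R))) hP.not_isUnit
    have hrm : r ∈ Ideal.span {π} := by
      rw [← hπ]; exact (IsLocalRing.mem_maximalIdeal r).mpr hru
    obtain ⟨r₁, hr₁⟩ := Ideal.mem_span_singleton'.mp hrm
    have hπ0 : π ≠ 0 := by
      rintro rfl
      rw [mul_zero] at hr₁
      exact hr hr₁.symm
    have hCπ0 : (C π : PowerSeries R) ≠ 0 := by
      intro h
      have := congrArg (coeff 0) h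
      simp at this
      exact hπ0 this
    obtain ⟨Q, hQ⟩ := hPr
    have h1 : C π ∣ P * Q := by
      rw [← hQ, ← hr₁, map_mul]
      exact dvd_mul_left _ _
    rcases C_dvd_or_dvd_of_span_eq hπ h1 with h2 | h2
    · -- `C π ∣ P`
      obtain ⟨P', hP'⟩ := h2
      have h3 : P ∣ C π * P' := by rw [← hP']
      rcases hP.dvd_or_dvd h3 with h4 | h4
      · exact associated_of_dvd_dvd h4 ⟨P', hP'⟩
      · exfalso
        obtain ⟨P'', hP''⟩ := h4
        have hP0 : P ≠ 0 := hP.ne_zero
        have h5 : P * 1 = P * (C π * P'') := by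
          rw [mul_one]
          calc P = C π * P' := hP'
            _ = C π * (P * P'') := by rw [hP'']
            _ = P * (C π * P'') := by ring
        have h6 := mul_left_cancel₀ hP0 h5
        exact hCπnu (IsUnit.of_mul_eq_one _ h6.symm)
    · -- `C π ∣ Q`
      obtain ⟨Q₁, hQ₁⟩ := h2
      have hr₁0 : r₁ ≠ 0 := by
        rintro rfl
        rw [zero_mul] at hr₁
        exact hr hr₁.symm
      have h3 : C π * (P * Q₁) = C π * C r₁ := by
        calc C π * (P * Q₁) = P * (C π * Q₁) := by ring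
          _ = P * Q := by rw [hQ₁]
          _ = C r := hQ.symm
          _ = C (r₁ * π) := by rw [hr₁]
          _ = C π * C r₁ := by rw [map_mul]; ring
      have h4 := mul_left_cancel₀ hCπ0 h3
      refine ih r₁ ⟨hr₁0, π, hπnu, hr₁.symm⟩ hr₁0 ⟨Q₁, h4.symm⟩

/-- **vertical primes**: for a prime `P` of `R⟦X⟧` dividing a nonzero constant, `P ∣ G` iff all
coefficients of `G` are non-units. -/
theorem dvd_iff_coeff_mem_of_dvd_C {P : PowerSeries R} (hP : Prime P) {r : R} (hr : r ≠ 0)
    (hPr : P ∣ C r) (G : PowerSeries R) :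
    P ∣ G ↔ ∀ n, ¬ IsUnit (coeff n G) := by
  obtain ⟨π, hπ⟩ := (IsPrincipalIdealRing.principal (IsLocalRing.maximalIdeal R)).principal
  have hπ' : IsLocalRing.maximalIdeal R = Ideal.span {π} := hπ
  have hass := associated_C_of_dvd_C hπ' hP r hr hPr
  rw [hass.dvd_iff_dvd_left, C_dvd_iff_forall_coeff_mem, ← hπ']
  exact forall_congr' fun n => IsLocalRing.mem_maximalIdeal _

end Vertical

/-! ### The local ring of a prime and Chevalley -/

section Chevalley

variable {U : Type*} [CommRing U] [IsDomain U] {L : Type*} [Field L] (φ : U →+* L)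
  {F : Type*} [Field F] (ι : F →+* L) (P : U)

/-- the quotients `a / b` in `F` with `P ∤ b` -/
def locSubring (hP : Prime P) : Subring F where
  carrier := {x | ∃ a b : U, ¬ P ∣ b ∧ ι x * φ b = φ a}
  mul_mem' := by
    rintro x y ⟨a, b, hb, hab⟩ ⟨c, d, hd, hcd⟩
    refine ⟨a * c, b * d, fun h => (hP.dvd_or_dvd h).elim hb hd, ?_⟩
    rw [map_mul, map_mul, map_mul, ← hab, ← hcd]
    ring
  one_mem' := ⟨1, 1, fun h => hP.not_isUnit (isUnit_of_dvd_one h), by simp⟩
  add_mem' := by
    rintro x y ⟨a, b, hb, hab⟩ ⟨c, d, hd, hcd⟩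
    refine ⟨a * d + c * b, b * d, fun h => (hP.dvd_or_dvd h).elim hb hd, ?_⟩
    rw [map_add, map_add, map_mul, map_mul, map_mul, ← hab, ← hcd]
    ring
  zero_mem' := ⟨0, 1, fun h => hP.not_isUnit (isUnit_of_dvd_one h), by simp⟩
  neg_mem' := by
    rintro x ⟨a, b, hb, hab⟩
    refine ⟨-a, b, hb, ?_⟩
    rw [map_neg, map_neg, ← hab]
    ring

variable {φ ι P}

theorem mem_locSubring (hP : Prime P) {x : F} :
    x ∈ locSubring φ ι P hP ↔ ∃ a b : U, ¬ P ∣ b ∧ ι x * φ b = φ a := Iff.rfl

theorem isUnit_locSubring_of_not_dvd (hφ : Function.Injective φ) (hP : Prime P)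
    (x : locSubring φ ι P hP) {a b : U} (hb : ¬ P ∣ b) (ha : ¬ P ∣ a)
    (hab : ι (x : F) * φ b = φ a) : IsUnit x := by
  have ha0 : a ≠ 0 := fun h => ha (h ▸ dvd_zero P)
  have hφa : φ a ≠ 0 := (map_ne_zero_iff φ hφ).mpr ha0
  have hx0 : (x : F) ≠ 0 := by
    intro h
    rw [h, map_zero, zero_mul] at hab
    exact hφa hab.symm
  have hιx : ι (x : F) ≠ 0 := (map_ne_zero ι).mpr hx0
  have hmem : (x : F)⁻¹ ∈ locSubring φ ι P hP := by
    refine ⟨b, a, ha, ?_⟩
    rw [map_inv₀, ← hab]
    field_simp
  refine isUnit_iff_exists_inv.mpr ⟨⟨(x : F)⁻¹, hmem⟩, ?_⟩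
  apply Subtype.ext
  show (x : F) * (x : F)⁻¹ = 1
  exact mul_inv_cancel₀ hx0

theorem not_isUnit_locSubring_of_dvd (hφ : Function.Injective φ) (hP : Prime P)
    (x : locSubring φ ι P hP) {a b : U} (hb : ¬ P ∣ b) (ha : P ∣ a)
    (hab : ι (x : F) * φ b = φ a) : ¬ IsUnit x := by
  intro hu
  obtain ⟨y, hy⟩ := isUnit_iff_exists_inv.mp hu
  obtain ⟨c, d, hd, hcd⟩ := y.2
  have h1 : (x : F) * (y : F) = 1 := congrArg Subtype.val hy
  have h2 : φ (b * d) = φ (a * c) := by
    rw [map_mul, map_mul, ← hab, ← hcd]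
    have : ι (x : F) * ι (y : F) = 1 := by rw [← map_mul, h1, map_one]
    calc φ b * φ d = (ι (x : F) * ι (y : F)) * (φ b * φ d) := by rw [this, one_mul]
      _ = ι (x : F) * φ b * (ι (y : F) * φ d) := by ring
  have h3 : b * d = a * c := hφ h2
  have h4 : P ∣ b * d := by rw [h3]; exact dvd_mul_of_dvd_left ha c
  exact (hP.dvd_or_dvd h4).elim hb hd

theorem isLocalRing_locSubring (hφ : Function.Injective φ) (hP : Prime P) :
    IsLocalRing (locSubring φ ι P hP) := by
  refine IsLocalRing.of_isUnit_or_isUnit_one_sub_self fun x => ?_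
  obtain ⟨a, b, hb, hab⟩ := x.2
  by_cases ha : P ∣ a
  · right
    refine isUnit_locSubring_of_not_dvd hφ hP (1 - x) (a := b - a) (b := b) hb ?_ ?_
    · intro h
      apply hb
      have := dvd_add h ha
      rwa [sub_add_cancel] at this
    · show ι ((1 : F) - (x : F)) * φ b = φ (b - a)
      rw [map_sub, map_sub, map_one, ← hab]
      ring
  · left
    exact isUnit_locSubring_of_not_dvd hφ hP x hb ha hab

/-- **Chevalley for the local ring of a prime**: there is a valuation subring `V` of `F`
containing all quotients `a / b ∈ F` with `P ∤ b`, in which the quotients with `P ∣ a` are not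
units. -/
theorem exists_valuationSubring_of_prime (hφ : Function.Injective φ) (hP : Prime P) :
    ∃ V : ValuationSubring F,
      (∀ (x : F) (a b : U), ¬ P ∣ b → ι x * φ b = φ a → x ∈ V) ∧
      (∀ (x : F) (a b : U), ¬ P ∣ b → P ∣ a → ι x * φ b = φ a → x⁻¹ ∈ V → x = 0) := by
  haveI := isLocalRing_locSubring (ι := ι) hφ hP
  obtain ⟨V, hle, hloc⟩ := (LocalSubring.mk (locSubring φ ι P hP)).exists_le_valuationSubring
  refine ⟨V, fun x a b hb hab => hle ⟨a, b, hb, hab⟩, fun x a b hb ha hab hinv => ?_⟩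
  by_contra hx0
  have hxO : x ∈ locSubring φ ι P hP := ⟨a, b, hb, hab⟩
  have hxV : x ∈ V := hle hxO
  have hunit : IsUnit (Subring.inclusion hle ⟨x, hxO⟩) := by
    refine isUnit_iff_exists_inv.mpr ⟨⟨x⁻¹, hinv⟩, ?_⟩
    apply Subtype.ext
    show x * x⁻¹ = 1
    exact mul_inv_cancel₀ hx0
  have := hloc.map_nonunit _ hunit
  exact not_isUnit_locSubring_of_dvd hφ hP ⟨x, hxO⟩ hb ha hab this

end Chevalley

/-! ### Divisibility induction in a UFD -/

section UFD

variable {U : Type*} [CommRing U] [IsDomain U] [UniqueFactorizationMonoid U]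

/-- if every prime factor of `b` not associated to `X₀` can be cancelled from any relation
`x * (X₀ ^ s * b) = a`, then `x` is a quotient `a' / X₀ ^ r`.  (`T` is any domain containing
`U`, `x` any element of `T`.) -/
theorem exists_pow_mul_of_forall_prime {T : Type*} [CommRing T] [IsDomain T] (φ : U →+* T)
    (hφ : Function.Injective φ) (X₀ : U) (hX₀ : X₀ ≠ 0) (x : T)
    (key : ∀ (P a b : U), Prime P → ¬ Associated P X₀ → P ∣ b → b ≠ 0 → x * φ b = φ a → P ∣ a) :
    ∀ b : U, b ≠ 0 → ∀ a : U, x * φ b = φ a → ∃ (r : ℕ) (a' : U), x * φ (X₀ ^ r) = φ a' := by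
  suffices h : ∀ b : U, b ≠ 0 → ∀ (s : ℕ) (a : U), x * φ (X₀ ^ s * b) = φ a →
      ∃ (r : ℕ) (a' : U), x * φ (X₀ ^ r) = φ a' by
    intro b hb a hab
    exact h b hb 0 a (by simpa using hab)
  intro b
  induction b using UniqueFactorizationMonoid.induction_on_prime with
  | h₁ => intro h; exact absurd rfl h
  | h₂ u hu =>
    intro _ s a hab
    obtain ⟨v, rfl⟩ := hu
    refine ⟨s, a * ((v⁻¹ : Uˣ) : U), ?_⟩
    rw [map_mul, ← hab, map_mul, mul_assoc, mul_assoc, ← map_mul, Units.mul_inv, map_one, mul_one]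
  | h₃ b p hb0 hp ih =>
    intro _ s a hab
    by_cases hass : Associated p X₀
    · obtain ⟨v, hv⟩ := hass
      -- `p * v = X₀`
      refine ih hb0 (s + 1) (a * (v : U)) ?_
      have h1 : X₀ ^ (s + 1) * b = X₀ ^ s * (p * b) * (v : U) := by
        rw [pow_succ, ← hv]
        ring
      rw [h1, map_mul, ← mul_assoc, hab, map_mul]
    · have hX0 : X₀ ^ s * (p * b) ≠ 0 :=
        mul_ne_zero (pow_ne_zero _ hX₀) (mul_ne_zero hp.ne_zero hb0)
      have hpa : p ∣ a :=
        key p a (X₀ ^ s * (p * b)) hp hass (dvd_mul_of_dvd_right (dvd_mul_right p b) _) hX0 hab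
      obtain ⟨a₁, rfl⟩ := hpa
      refine ih hb0 s a₁ ?_
      have hφp : φ p ≠ 0 := (map_ne_zero_iff φ hφ).mpr hp.ne_zero
      apply mul_left_cancel₀ hφp
      rw [← map_mul, ← hab, ← mul_assoc, mul_comm (φ p) x, mul_assoc, ← map_mul]
      congr 2
      ring

end UFD

end Fermat.Agent.T2.helper45
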