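import Mathlib
import Fermat.Agent.T2.helper45_IntAbs
import Fermat.Agent.P2.helper23_DiscDefs
import Fermat.Agent.P2.helper73_DiscRatio
import Fermat.Agent.P2.helper89_DiscPID
import Fermat.Agent.P2.helper62_DiscPlace
import Fermat.Agent.S24.helper77_Degree
import Fermat.Agent.S24.helper17_Bridge

/-!
# T2-INT (helper45): integrality of `q`-expansions at EVERY level and for EVERY valuation ring

`integrality_of_regular` : let `f ∈ F_N` be regular at all places where `j` is regular, and
assume that `f` is a quotient `Y₁ / Y₂` of `A`-integral Laurent series such that the reduction of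
`Y₂` is nonzero.  Then `f` has an `A`-integral `q`-expansion.

No hypothesis on the level or on `A` (in particular: the level may be divisible by the residue
characteristic).  The proof uses the unique factorisation domain `R₀⟦X⟧`, `R₀ = A ∩ K₀`
(design U of helper23): vertical primes are excluded by reduction, horizontal primes give places
of `F_N` (Chevalley + D5) at which `j` is regular.
-/

set_option autoImplicit false
set_option linter.unusedSectionVars false
set_option linter.unusedVariables false
set_option linter.style.haveILetI false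
set_option linter.style.longLine false

noncomputable section

open HahnSeries IntermediateField AlgebraicCurve ModularCurve
open Fermat.Agent.P2.helper23

namespace Fermat.Agent.T2.helper45

section Cap

variable (A : ValuationSubring Kb) (K₀ : IntermediateField ℚ Kb)

/-- the inclusion `A ∩ K₀ → A` -/
def capToA : capSubring A K₀ →+* A where
  toFun x := ⟨(x : Kb), x.2.1⟩
  map_one' := rfl
  map_mul' _ _ := rfl
  map_zero' := rfl
  map_add' _ _ := rfl

theorem coe_capToA (x : capSubring A K₀) : ((capToA A K₀ x : A) : Kb) = (x : Kb) := rfl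

theorem subtype_comp_capToA : A.subtype.comp (capToA A K₀) = (capSubring A K₀).subtype := rfl

theorem isUnit_capToA_iff (x : capSubring A K₀) : IsUnit (capToA A K₀ x) ↔ IsUnit x := by
  constructor
  · intro h
    obtain ⟨y, hy⟩ := isUnit_iff_exists_inv.mp h
    have hxy : (x : Kb) * (y : Kb) = 1 := congrArg Subtype.val hy
    have hx0 : (x : Kb) ≠ 0 := left_ne_zero_of_mul_eq_one hxy
    have hyinv : (y : Kb) = (x : Kb)⁻¹ := eq_inv_of_mul_eq_one_right hxy
    have hyK : (y : Kb) ∈ K₀ := by
      rw [hyinv]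
      exact inv_mem x.2.2
    refine isUnit_iff_exists_inv.mpr ⟨⟨(y : Kb), ⟨y.2, hyK⟩⟩, ?_⟩
    exact Subtype.ext hxy
  · intro h
    exact h.map (capToA A K₀)

theorem isLocalRing_capSubring : IsLocalRing (capSubring A K₀) := by
  refine IsLocalRing.of_isUnit_or_isUnit_one_sub_self fun x => ?_
  rcases IsLocalRing.isUnit_or_isUnit_one_sub_self (capToA A K₀ x) with h | h
  · exact Or.inl ((isUnit_capToA_iff A K₀ x).mp h)
  · refine Or.inr ((isUnit_capToA_iff A K₀ (1 - x)).mp ?_)
    rwa [map_sub, map_one]

/-- power series over `A ∩ K₀` as `A`-integral Laurent series -/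
def phiA : PowerSeries (capSubring A K₀) →+* LaurentSeries A :=
  (HahnSeries.ofPowerSeries ℤ A).comp (PowerSeries.map (capToA A K₀))

theorem incl_phiA (G : PowerSeries (capSubring A K₀)) :
    coeffMap A.subtype (phiA A K₀ G) = phi (capSubring A K₀) G := by
  rw [phiA, RingHom.comp_apply, coeffMap_ofPowerSeries, phi_apply]
  congr 1

theorem red_phiA_eq_zero_iff (G : PowerSeries (capSubring A K₀)) :
    coeffMap (IsLocalRing.residue A) (phiA A K₀ G) = 0 ↔ ∀ n, ¬ IsUnit (PowerSeries.coeff n G) := by
  rw [phiA, RingHom.comp_apply, coeffMap_ofPowerSeries]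
  constructor
  · intro h n hu
    have h1 := congrArg (fun Y : LaurentSeries (IsLocalRing.ResidueField A) => Y.coeff (n : ℤ)) h
    simp only [HahnSeries.ofPowerSeries_apply_coeff, PowerSeries.coeff_map,
      HahnSeries.coeff_zero] at h1
    have h2 : ¬ IsUnit (capToA A K₀ (PowerSeries.coeff n G)) :=
      (IsLocalRing.mem_maximalIdeal _).mp ((IsLocalRing.residue_eq_zero_iff _).mp h1)
    exact h2 ((isUnit_capToA_iff A K₀ _).mpr hu)
  · intro h
    have h0 : PowerSeries.map (IsLocalRing.residue A) (PowerSeries.map (capToA A K₀) G) = 0 := by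
      ext n
      rw [PowerSeries.coeff_map, PowerSeries.coeff_map, map_zero,
        IsLocalRing.residue_eq_zero_iff, IsLocalRing.mem_maximalIdeal, mem_nonunits_iff,
        isUnit_capToA_iff]
      exact h n
    rw [h0, map_zero]

end Cap


/-! ### Constants in a valuation ring -/

section Const

theorem exists_int_smul_isIntegral (c : Kb) : ∃ m : ℤ, m ≠ 0 ∧ IsIntegral ℤ (m • c) := by
  have h1 : Algebra.IsAlgebraic ℚ (AlgebraicClosure ℚ) := AlgebraicClosure.isAlgebraic ℚ
  have h2 : IsAlgebraic ℚ c := h1.isAlgebraic c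
  have h3 : IsAlgebraic ℤ c := (IsFractionRing.isAlgebraic_iff ℤ ℚ (AlgebraicClosure ℚ)).mpr h2
  exact h3.exists_integral_multiple

variable {F : Type*} [Field F] [Algebra Kb F]

/-- a valuation subring containing the inverses of the nonzero integers contains `ℚ̄` -/
theorem algebraMap_mem_of_inv_intCast_mem (V : ValuationSubring F)
    (h : ∀ n : ℤ, n ≠ 0 → ((n : F))⁻¹ ∈ V) (c : Kb) : algebraMap Kb F c ∈ V := by
  obtain ⟨m, hm0, hm⟩ := exists_int_smul_isIntegral c
  have h1 : IsIntegral ℤ (algebraMap Kb F (m • c)) :=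
    hm.map (Algebra.ofId Kb F |>.restrictScalars ℤ)
  have h2 : IsIntegral V (algebraMap Kb F (m • c)) := h1.tower_top
  obtain ⟨z, hz⟩ := IsIntegrallyClosed.isIntegral_iff.mp h2
  have h3 : algebraMap Kb F (m • c) ∈ V := hz ▸ z.2
  have hchar : CharZero F := charZero_of_injective_algebraMap (algebraMap Kb F).injective
  have hmF : (m : F) ≠ 0 := by exact_mod_cast hm0
  have h5 : algebraMap Kb F c = ((m : F))⁻¹ * algebraMap Kb F (m • c) := by
    rw [zsmul_eq_mul, map_mul, map_intCast, ← mul_assoc, inv_mul_cancel₀ hmF, one_mul]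
  rw [h5]
  exact V.mul_mem _ _ (h m hm0) h3

end Const

/-! ### The `j`-function as a quotient -/

section JQuot

variable (R₀ : Subring Kb)

/-- `j * X = J`, `J` a power series with integer coefficients -/
theorem jq_mul_phi_X :
    jqModC Kb * phi R₀ PowerSeries.X = phi R₀ (jNum.map (Int.castRingHom R₀)) := by
  rw [phi_apply, phi_apply, PowerSeries.map_X, HahnSeries.ofPowerSeries_X, jqModC]
  have h1 : PowerSeries.map R₀.subtype (PowerSeries.map (Int.castRingHom R₀) jNum) =
      PowerSeries.map (Int.castRingHom Kb) jNum := by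
    ext n
    simp
  rw [h1, mul_comm (HahnSeries.single (-1 : ℤ) (1 : Kb)), mul_assoc, HahnSeries.single_mul_single]
  simp

theorem coe_xJ (N : ℕ) : ((Fermat.Agent.S24.xJ N : Fermat.Agent.S24.FN N) : LaurentSeries Kb) =
    jqModC Kb := by
  show Fermat.Agent.S24.Jd 1 = jqModC Kb
  rw [Fermat.Agent.S24.Jd, qExpand_one_apply]
  exact Fermat.Agent.S24.helper17.coeffEmb_jq Kb

end JQuot

/-! ### The key divisibility lemma -/

section Key

open Fermat.Agent.S24

variable (N : ℕ) [NeZero N] (A : ValuationSubring Kb) (K₀ : IntermediateField ℚ Kb)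

/-- **vertical primes**: if `f = Y₁ / Y₂` with `Y₂` of nonzero reduction and `f * b = a`, then a
prime dividing a nonzero constant and `b` divides `a`. -/
theorem vertical_key [FiniteDimensional ℚ K₀] (f : LaurentSeries Kb)
    (hw : ∃ Y₁ Y₂ : LaurentSeries A, coeffMap (IsLocalRing.residue A) Y₂ ≠ 0 ∧
      coeffMap A.subtype Y₁ = f * coeffMap A.subtype Y₂)
    (P a b : PowerSeries (capSubring A K₀)) (hP : Prime P) (r : capSubring A K₀) (hr : r ≠ 0)
    (hPr : P ∣ PowerSeries.C r) (hPb : P ∣ b)
    (hab : f * phi (capSubring A K₀) b = phi (capSubring A K₀) a) : P ∣ a := by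
  haveI := Fermat.Agent.P2.helper89.isPrincipalIdealRing_capSubring A K₀
  haveI := isLocalRing_capSubring A K₀
  obtain ⟨Y₁, Y₂, hY₂, hY⟩ := hw
  rw [dvd_iff_coeff_mem_of_dvd_C hP hr hPr, ← red_phiA_eq_zero_iff] at hPb ⊢
  -- `Y₁ * b = a * Y₂` over `A`
  have hinj : Function.Injective (coeffMap A.subtype) :=
    fun x y h => by
      ext n
      have := congrArg (fun Z : LaurentSeries Kb => Z.coeff n) h
      simp only [coeffMap_coeff] at this
      exact this
  have h1 : Y₁ * phiA A K₀ b = phiA A K₀ a * Y₂ := by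
    apply hinj
    rw [map_mul, map_mul, incl_phiA, incl_phiA, hY, ← hab]
    ring
  have h2 := congrArg (coeffMap (IsLocalRing.residue A)) h1
  rw [map_mul, map_mul, hPb, mul_zero] at h2
  exact (mul_eq_zero.mp h2.symm).resolve_right hY₂

/-- **horizontal primes**: if `f ∈ F_N` is regular where `j` is regular and `f * b = a`, then a
prime of `R₀⟦X⟧` not dividing any nonzero constant, not associated to `X` and dividing `b`
divides `a`. -/
theorem horizontal_key (f : FN N)
    (hreg : ∀ Q : Place Kb (FN N), 0 ≤ Q.ord (xJ N) → 0 ≤ Q.ord f)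
    (P a b : PowerSeries (capSubring A K₀)) (hP : Prime P)
    (hX : ¬ Associated P PowerSeries.X)
    (hhor : ∀ r : capSubring A K₀, r ≠ 0 → ¬ P ∣ PowerSeries.C r) (hPb : P ∣ b)
    (hab : (f : LaurentSeries Kb) * phi (capSubring A K₀) b = phi (capSubring A K₀) a) :
    P ∣ a := by
  by_contra ha
  set φ := phi (capSubring A K₀) with hφdef
  have hφ : Function.Injective φ := phi_injective _
  set ι : FN N →+* LaurentSeries Kb := (algebraMap (FN N) (LaurentSeries Kb)) with hι
  have hιcoe : ∀ x : FN N, ι x = (x : LaurentSeries Kb) := fun _ => rfl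
  obtain ⟨V, hV1, hV2⟩ := exists_valuationSubring_of_prime (φ := φ) (ι := ι) (P := P) hφ hP
  have ha0 : a ≠ 0 := fun h => ha (h ▸ dvd_zero P)
  have hφa : φ a ≠ 0 := (map_ne_zero_iff φ hφ).mpr ha0
  have hf0 : f ≠ 0 := by
    rintro rfl
    apply hφa
    rw [← hab]
    simp
  have hfL : (f : LaurentSeries Kb) ≠ 0 := fun h => hf0 (Subtype.ext h)
  -- `f ∉ V`
  have hfV : f ∉ V := by
    intro hmem
    have h1 : ι f⁻¹ * φ a = φ b := by
      rw [map_inv₀, hιcoe, ← hab]
      field_simp
    have h2 := hV2 f⁻¹ b a ha hPb h1 (by rwa [inv_inv])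
    exact hf0 (inv_eq_zero.mp h2)
  -- constants
  have hK : ∀ c : Kb, algebraMap Kb (FN N) c ∈ V := by
    refine algebraMap_mem_of_inv_intCast_mem V fun n hn => ?_
    refine hV1 _ 1 (PowerSeries.C ((n : ℤ) : capSubring A K₀)) (hhor _ ?_) ?_
    · intro h0
      have h1 : (((n : ℤ) : capSubring A K₀) : Kb) = 0 := by rw [h0]; rfl
      rw [Subring.coe_intCast] at h1
      exact hn (by exact_mod_cast h1)
    · have : PowerSeries.C ((n : ℤ) : capSubring A K₀) = ((n : ℤ) : PowerSeries (capSubring A K₀)) := by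
        simp
      rw [this, map_intCast, map_one, map_inv₀, map_intCast]
      have hnL : ((n : ℤ) : LaurentSeries Kb) ≠ 0 := by
        intro h0
        have h1 : algebraMap Kb (LaurentSeries Kb) ((n : ℤ) : Kb) = 0 := by
          rw [map_intCast]; exact h0
        have h2 : ((n : ℤ) : Kb) = 0 := (map_eq_zero _).mp h1
        exact hn (by exact_mod_cast h2)
      exact inv_mul_cancel₀ hnL
  have hVtop : V ≠ ⊤ := fun h => hfV (h ▸ ValuationSubring.mem_top f)
  haveI : FiniteDimensional Kb⟮xJ N⟯ (FN N) := helper77.an_finiteDimensional N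
  obtain ⟨Q, hQ⟩ := Fermat.Agent.P2.helper62.exists_place_of_valuationSubring (xJ N)
    (helper77.an_transcendental N) V hK hVtop
  -- `j ∈ V`
  have hPX : ¬ P ∣ PowerSeries.X := fun h => hX (hP.associated_of_dvd PowerSeries.X_prime h)
  have hjV : xJ N ∈ V := by
    refine hV1 (xJ N) (jNum.map (Int.castRingHom (capSubring A K₀))) PowerSeries.X hPX ?_
    rw [hιcoe, coe_xJ]
    exact jq_mul_phi_X _
  have hj : 0 ≤ Q.ord (xJ N) := Fermat.Agent.S24.helper82.ord_nonneg_of_mem Q (hQ ▸ hjV)
  have hf := Fermat.Agent.S24.helper82.mem_of_ord_nonneg Q (hreg Q hj)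
  rw [hQ] at hf
  exact hfV hf

end Key

/-! ### The main theorem -/

section Main

open Fermat.Agent.S24

theorem phi_X_pow (R₀ : Subring Kb) (r : ℕ) :
    phi R₀ (PowerSeries.X ^ r) = HahnSeries.single (r : ℤ) (1 : Kb) := by
  rw [map_pow, phi_apply, PowerSeries.map_X, HahnSeries.ofPowerSeries_X, HahnSeries.single_pow]
  simp

/-- **[T2-INT]** integrality of `q`-expansions, at every level and for every valuation ring:
a function `f ∈ F_N` which is regular at all places where `j` is regular and which is a quotient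
of `A`-integral Laurent series with a denominator of nonzero reduction has an `A`-integral
`q`-expansion. -/
theorem integrality_of_regular (N : ℕ) [NeZero N] (A : ValuationSubring Kb)
    (f : LaurentSeries Kb) (hf : f ∈ FF N)
    (hreg : ∀ Q : Place Kb (FN N), 0 ≤ Q.ord (xJ N) → 0 ≤ Q.ord (⟨f, hf⟩ : FN N))
    (hw : ∃ Y₁ Y₂ : LaurentSeries A, coeffMap (IsLocalRing.residue A) Y₂ ≠ 0 ∧
      coeffMap A.subtype Y₁ = f * coeffMap A.subtype Y₂) :
    ∃ Y : LaurentSeries A, coeffMap A.subtype Y = f := by
  classical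
  obtain ⟨S, hS⟩ := Fermat.Agent.P2.helper73.exists_finset_isRatio N A f hf
  set K₀ : IntermediateField ℚ Kb := IntermediateField.adjoin ℚ (S : Set Kb) with hK₀
  have halg : Algebra.IsAlgebraic ℚ (AlgebraicClosure ℚ) := AlgebraicClosure.isAlgebraic ℚ
  haveI : FiniteDimensional ℚ K₀ :=
    IntermediateField.finiteDimensional_adjoin fun x _ => (halg.isAlgebraic x).isIntegral
  obtain ⟨G₁, G₂, hG₂, hG⟩ := hS K₀ (IntermediateField.subset_adjoin ℚ _)
  haveI := Fermat.Agent.P2.helper89.isPrincipalIdealRing_capSubring A K₀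
  haveI := isLocalRing_capSubring A K₀
  obtain ⟨r, a', ha'⟩ := exists_pow_mul_of_forall_prime (phi (capSubring A K₀))
    (phi_injective _) PowerSeries.X PowerSeries.X_ne_zero f
    (fun P a b hP hX hPb hb0 hab => by
      by_cases hvert : ∃ r : capSubring A K₀, r ≠ 0 ∧ P ∣ PowerSeries.C r
      · obtain ⟨r, hr, hPr⟩ := hvert
        exact vertical_key A K₀ f hw P a b hP r hr hPr hPb hab
      · simp only [not_exists, not_and] at hvert
        exact horizontal_key N A K₀ ⟨f, hf⟩ hreg P a b hP hX hvert hPb hab)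
    G₂ hG₂ G₁ hG
  refine ⟨HahnSeries.single (-(r : ℤ)) (1 : A) * phiA A K₀ a', ?_⟩
  rw [map_mul, incl_phiA, ← ha', phi_X_pow, coeffMap_single, map_one, mul_comm f, ← mul_assoc,
    HahnSeries.single_mul_single]
  simp

end Main

end Fermat.Agent.T2.helper45
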