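import Mathlib
import Fermat.Agent.T2.helper45_Integrality
import Fermat.Agent.P2.helper29_Interface
import Fermat.Agent.P2.helper81_ValInt

/-!
# T2-INT (helper45): `helper29.IntegralityStatement M A` for ALL levels `M` and ALL valuation
rings `A` (no `PrimeToLevel` hypothesis)

Verbatim P2 interface statement, deduced from `integrality_of_regular`.
-/

set_option autoImplicit false
set_option linter.unusedSectionVars false
set_option linter.unusedVariables false
set_option linter.style.longLine false

noncomputable section

open HahnSeries IntermediateField AlgebraicCurve ModularCurve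
open Fermat.Agent.S18.helper19

namespace Fermat.Agent.T2.helper45

/-- weak `w`-integrality: `f` is a quotient of `A`-integral Laurent series, the denominator
having nonzero reduction (no membership in the function field is required). -/
def IsQuotInt (A : ValuationSubring Kb) (f : LaurentSeries Kb) : Prop :=
  ∃ Y₁ Y₂ : LaurentSeries A, coeffMap (IsLocalRing.residue A) Y₂ ≠ 0 ∧
    coeffMap A.subtype Y₁ = f * coeffMap A.subtype Y₂

theorem isQuotInt_of_isWInt {A : ValuationSubring Kb} {M : ℕ} {f : LaurentSeries Kb}
    (h : Fermat.Agent.P2.helper29.IsWInt A M f) : IsQuotInt A f := by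
  obtain ⟨Y₁, Y₂, -, hY₂, hY⟩ := h
  exact ⟨Y₁, Y₂, hY₂.2.2, hY⟩

/-- `integrality_of_regular` with the hypothesis `IsQuotInt`. -/
theorem integrality_of_isQuotInt (M : ℕ) [NeZero M] (A : ValuationSubring Kb)
    (f : LaurentSeries Kb) (hf : f ∈ FF M)
    (hreg : ∀ Q : Place Kb (FF M), 0 ≤ Q.ord (Fermat.Agent.S24.xJ M) →
      0 ≤ Q.ord (⟨f, hf⟩ : FF M))
    (hw : IsQuotInt A f) : ∃ Y : LaurentSeries A, Fermat.Agent.P2.helper29.incl A Y = f :=
  integrality_of_regular M A f hf hreg hw

/-- **[VAL-INT] at every level, for every valuation ring**: `helper29.IntegralityStatement`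
verbatim, without `PrimeToLevel`. -/
theorem integralityStatement_all (M : ℕ) [NeZero M] (A : ValuationSubring Kb) :
    Fermat.Agent.P2.helper29.IntegralityStatement M A := by
  intro n f hInL hw
  obtain ⟨hf, hreg, -⟩ := hInL
  exact integrality_of_regular M A f hf
    (fun Q hQ => hreg Q (Fermat.Agent.P2.helper81.not_isInfty_of_ord_xJ_nonneg M Q hQ))
    (isQuotInt_of_isWInt hw)

end Fermat.Agent.T2.helper45
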