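import Mathlib
import Fermat.Agent.T2.helper45_IntegralityAll
import Fermat.Agent.T2.helper22_CoreDefs
import Fermat.Agent.T2.helper36_AtkinLehner
import Fermat.Agent.T2.helper36_ValFrob

/-!
# T2-INT (helper45): `helper22.Integrality2Statement` for the Atkin-Lehner automorphism

* `integrality2_of_pole` : for ANY automorphism `W` of `F_M` such that `W j` has a pole at `∞`
  (and any valuation ring `A`), `helper22.Integrality2Statement M A W` holds; the hypothesis
  `w₂(f) ≥ 0` is not used.
* `integrality2Statement` : the instance `W = helper36.atkinLehner N q hq hqN` at level `N * q`,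
  for EVERY valuation subring `A` of `ℚ̄`.
-/

set_option autoImplicit false
set_option linter.unusedSectionVars false
set_option linter.unusedVariables false
set_option linter.style.longLine false

noncomputable section

open HahnSeries IntermediateField AlgebraicCurve ModularCurve
open Fermat.Agent.S18.helper19 Fermat.Agent.P2.helper29 Fermat.Agent.S24

namespace Fermat.Agent.T2.helper45

/-- a place at which `j` is regular is not the second cusp, if `W j` has a pole at `∞` -/
theorem not_isInfty2_of_ord_xJ_nonneg {M : ℕ} [NeZero M] (W : FF M ≃ₐ[Kb] FF M)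
    (hW : ((W (xJ M) : FF M) : LaurentSeries Kb).order < 0)
    (Q : Place Kb (FF M)) (hQ : 0 ≤ Q.ord (xJ M)) : ¬ Fermat.Agent.T2.helper22.IsInfty2 W Q := by
  intro h2
  have hx0 : xJ M ≠ 0 := by
    intro h0
    rw [h0, map_zero] at hW
    simp at hW
  have := h2 (xJ M) hx0
  omega

/-- **[T2-VAL-INT]** for any automorphism `W` such that `W j` has a pole at `∞`. -/
theorem integrality2_of_pole (M : ℕ) [NeZero M] (A : ValuationSubring Kb)
    (W : FF M ≃ₐ[Kb] FF M)
    (hW : ((W (xJ M) : FF M) : LaurentSeries Kb).order < 0) :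
    Fermat.Agent.T2.helper22.Integrality2Statement M A W := by
  intro f hreg hw₁ _
  exact integrality_of_regular M A (f : LaurentSeries Kb) f.2
    (fun Q hQ => hreg Q (Fermat.Agent.P2.helper81.not_isInfty_of_ord_xJ_nonneg M Q hQ)
      (not_isInfty2_of_ord_xJ_nonneg W hW Q hQ))
    (isQuotInt_of_isWInt hw₁)

section AL

variable (N q : ℕ) [NeZero N] [NeZero q]

theorem xJ_eq_genBar : xJ (N * q) =
    Fermat.Agent.T2.helper36.genBar (N * q) ⟨1, Nat.one_mem_divisors.mpr (NeZero.ne (N * q))⟩ := by
  apply Subtype.ext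
  show Jd 1 = JdT 1
  rw [helper24.JdT_eq_coeffEmb]
  rfl

theorem order_atkinLehner_xJ (hq : q.Prime) (hqN : ¬ q ∣ N) :
    ((Fermat.Agent.T2.helper36.atkinLehner N q hq hqN (xJ (N * q)) : FF (N * q)) :
      LaurentSeries Kb).order = -(q : ℤ) := by
  rw [xJ_eq_genBar, Fermat.Agent.T2.helper36.atkinLehner_genBar,
    Fermat.Agent.T2.helper36.coe_genBar]
  show (JdT (Fermat.Agent.T2.helper36.alNat q 1)).order = -(q : ℤ)
  have h1 : ¬ q ∣ 1 := fun h => hq.one_lt.ne' (Nat.dvd_one.mp h)
  rw [Fermat.Agent.T2.helper36.alNat_of_not_dvd h1, one_mul, helper24.JdT_eq_coeffEmb,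
    ← Jd, helper17.Jd_eq, Fermat.Agent.T2.helper36.order_qExpand_val,
    Fermat.Agent.T2.helper36.order_jqModC_val]
  ring

/-- **[T2-VAL-INT] = (I2) of the tier-2 ideal step**, for the Atkin-Lehner automorphism at level
`N * q` and EVERY valuation subring `A` of `ℚ̄`: `helper22.Integrality2Statement` verbatim. -/
theorem integrality2Statement (hq : q.Prime) (hqN : ¬ q ∣ N) (A : ValuationSubring Kb) :
    Fermat.Agent.T2.helper22.Integrality2Statement (N * q) A
      (Fermat.Agent.T2.helper36.atkinLehner N q hq hqN) := by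
  apply integrality2_of_pole
  rw [order_atkinLehner_xJ N q hq hqN]
  have : (0 : ℤ) < q := by exact_mod_cast hq.pos
  omega

end AL

end Fermat.Agent.T2.helper45
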