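/-
T2-VAL-A (helper96): base layer of "Kronecker in valuation form" at a prime `q ∥ N * q`.

Setting: `N` a level, `q` a prime, `k` a field of characteristic `q` (later `k = kA A` for a
valuation subring `A` of `ℚ̄` lying over `q`).

* `frobC k q` : coefficientwise Frobenius of `k((t))`; it fixes `j̄` and commutes with `qExpand`.
* `pow_char_eq` : `x ^ q = qExpand q (frobC x)`.
* `frobC_mem`, `exists_frobC_eq` : the special fibre field `F̃_N` is stable under the
  coefficientwise Frobenius, and the latter is surjective on it (`k` algebraically closed).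
* `qExpand_mem_fullC`, `exists_pow_eq_qExpand` : `y ∈ F̃_N → y(t^q) ∈ F̃_N`, and `y(t^q) = z ^ q`
  with `z ∈ F̃_N`.
* `fullC_mul_eq` : **(A1)** `F̃_{N q} = F̃_N`.
* `frobenius_independence` : **(A4)** `∑_{i<q} y_i(t^q) j̄^i = 0 → y_i = 0`.
-/
import Mathlib
import Fermat.Agent.P2.helper29_Interface
import Fermat.Agent.P2.helper94_ESFormal
import Fermat.Agent.P2.helper95_FFlInst
import Fermat.Agent.P2.helper93_ESRed

set_option autoImplicit false
set_option synthInstance.maxHeartbeats 400000
set_option linter.style.haveILetI false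
set_option linter.unusedSectionVars false

noncomputable section

open HahnSeries IntermediateField ModularCurve
open Fermat.Agent.S18.helper19 Fermat.Agent.P2.helper29

namespace Fermat.Agent.T2.helper96

/-! ### The coefficientwise Frobenius -/

section Twist

variable (k : Type*) [Field k] (q : ℕ) [hq : Fact q.Prime] [CharP k q]

/-- coefficientwise Frobenius of `k((t))` -/
abbrev frobC : LaurentSeries k →+* LaurentSeries k := coeffMap (frobenius k q)

theorem frobC_jqModC : frobC k q (jqModC k) = jqModC k := coeffMap_jqModC _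

theorem frobC_qExpand (d : ℕ) [NeZero d] (x : LaurentSeries k) :
    frobC k q (qExpand k d x) = qExpand k d (frobC k q x) :=
  Fermat.Agent.P2.helper94.coeffMap_qExpand _ d x

theorem frobC_algebraMap (c : k) :
    frobC k q (algebraMap k (LaurentSeries k) c) = algebraMap k (LaurentSeries k) (c ^ q) := by
  rw [algebraMap_laurentSeries_eq_single, coeffMap_single, algebraMap_laurentSeries_eq_single]
  rfl

theorem frobC_injective : Function.Injective (frobC k q) := by
  intro x y h
  ext n
  have := congrArg (fun z => z.coeff n) h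
  simp only [coeffMap_coeff] at this
  exact frobenius_inj k q this

variable [NeZero q]

/-- `x ^ q = (frobC x)(t^q)` -/
theorem pow_char_eq (x : LaurentSeries k) : x ^ q = qExpand k q (frobC k q x) :=
  Fermat.Agent.P2.helper94.laurent_pow_char q x

theorem jqNModC_char : qExpand k q (jqModC k) = jqModC k ^ q := by
  rw [pow_char_eq, frobC_jqModC]

variable (N : ℕ) [NeZero N]

theorem frobC_mem {y : LaurentSeries k} (hy : y ∈ modularFunctionFieldFullC k N) :
    frobC k q y ∈ modularFunctionFieldFullC k N := by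
  unfold modularFunctionFieldFullC at hy
  induction hy using IntermediateField.adjoin_induction with
  | mem x hx =>
    obtain ⟨d, hd0, hd, rfl⟩ := hx
    haveI := hd0
    rw [frobC_qExpand, frobC_jqModC]
    exact jqModCd_mem_full k N hd
  | algebraMap c =>
    rw [frobC_algebraMap]
    exact (modularFunctionFieldFullC k N).algebraMap_mem _
  | add x y _ _ hx hy => rw [map_add]; exact add_mem hx hy
  | inv x _ hx => rw [map_inv₀]; exact inv_mem hx
  | mul x y _ _ hx hy => rw [map_mul]; exact mul_mem hx hy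

theorem exists_frobC_eq [IsAlgClosed k] {y : LaurentSeries k}
    (hy : y ∈ modularFunctionFieldFullC k N) :
    ∃ z ∈ modularFunctionFieldFullC k N, frobC k q z = y := by
  unfold modularFunctionFieldFullC at hy
  induction hy using IntermediateField.adjoin_induction with
  | mem x hx =>
    obtain ⟨d, hd0, hd, rfl⟩ := hx
    haveI := hd0
    exact ⟨_, jqModCd_mem_full k N hd, by rw [frobC_qExpand, frobC_jqModC]⟩
  | algebraMap c =>
    obtain ⟨c', hc'⟩ := IsAlgClosed.exists_pow_nat_eq c hq.out.pos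
    exact ⟨_, (modularFunctionFieldFullC k N).algebraMap_mem c', by rw [frobC_algebraMap, hc']⟩
  | add x y _ _ hx hy =>
    obtain ⟨x', hx', rfl⟩ := hx
    obtain ⟨y', hy', rfl⟩ := hy
    exact ⟨_, add_mem hx' hy', map_add _ _ _⟩
  | inv x _ hx =>
    obtain ⟨x', hx', rfl⟩ := hx
    exact ⟨_, inv_mem hx', map_inv₀ _ _⟩
  | mul x y _ _ hx hy =>
    obtain ⟨x', hx', rfl⟩ := hx
    obtain ⟨y', hy', rfl⟩ := hy
    exact ⟨_, mul_mem hx' hy', map_mul _ _ _⟩

/-- `y(t^q)` is a `q`-th power in the special fibre field. -/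
theorem exists_pow_eq_qExpand [IsAlgClosed k] {y : LaurentSeries k}
    (hy : y ∈ modularFunctionFieldFullC k N) :
    ∃ z ∈ modularFunctionFieldFullC k N, qExpand k q y = z ^ q := by
  obtain ⟨z, hz, rfl⟩ := exists_frobC_eq k q N hy
  exact ⟨z, hz, (pow_char_eq k q z).symm⟩

/-- **(A2)** the special fibre field is stable under `t ↦ t^q`. -/
theorem qExpand_mem_fullC [IsAlgClosed k] {y : LaurentSeries k}
    (hy : y ∈ modularFunctionFieldFullC k N) :
    qExpand k q y ∈ modularFunctionFieldFullC k N := by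
  obtain ⟨z, hz, e⟩ := exists_pow_eq_qExpand k q N hy
  rw [e]
  exact pow_mem hz q

/-- conversely every `q`-th power is of the form `y(t^q)`. -/
theorem exists_qExpand_eq_pow {z : LaurentSeries k}
    (hz : z ∈ modularFunctionFieldFullC k N) :
    ∃ y ∈ modularFunctionFieldFullC k N, qExpand k q y = z ^ q :=
  ⟨_, frobC_mem k q N hz, (pow_char_eq k q z).symm⟩

/-- **(A1)** in characteristic `q` the special fibre fields of levels `N q` and `N` coincide. -/
theorem fullC_mul_eq [IsAlgClosed k] :
    modularFunctionFieldFullC k (N * q) = modularFunctionFieldFullC k N := by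
  apply le_antisymm
  · rw [modularFunctionFieldFullC, adjoin_le_iff]
    rintro x ⟨d, hd0, hd, rfl⟩
    haveI := hd0
    by_cases hqd : q ∣ d
    · obtain ⟨e, rfl⟩ := hqd
      have he0 : e ≠ 0 := by
        rintro rfl
        exact hd0.out (mul_zero q)
      haveI : NeZero e := ⟨he0⟩
      have heN : e ∣ N := by
        have h1 : q * e ∣ q * N := by rwa [mul_comm N q] at hd
        exact (Nat.mul_dvd_mul_iff_left hq.out.pos).mp h1
      have e1 : qExpand k (q * e) (jqModC k) = qExpand k q (qExpand k e (jqModC k)) :=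
        (qExpand_qExpand e q (jqModC k)).symm
      show qExpand k (q * e) (jqModC k) ∈ modularFunctionFieldFullC k N
      rw [e1]
      exact qExpand_mem_fullC k q N (jqModCd_mem_full k N heN)
    · have hdN : d ∣ N :=
        (Nat.Coprime.dvd_of_dvd_mul_right
          ((Nat.Prime.coprime_iff_not_dvd hq.out).mpr hqd).symm hd)
      exact jqModCd_mem_full k N hdN
  · exact full_degeneracyC_le k (dvd_mul_right N q)

end Twist

/-! ### Frobenius independence -/

section Indep

variable {k : Type*} [Field k] (q : ℕ) [NeZero q]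

theorem order_qExpand {y : LaurentSeries k} (hy : y ≠ 0) :
    (qExpand k q y).order = (q : ℤ) * y.order := by
  apply Fermat.Agent.S28.helper81.order_eq_of_coeff
  · rw [qExpand_coeff_mul]
    exact HahnSeries.coeff_order_eq_zero.not.mpr hy
  · intro m hm
    by_cases hd : (q : ℤ) ∣ m
    · obtain ⟨m', rfl⟩ := hd
      rw [qExpand_coeff_mul]
      apply HahnSeries.coeff_eq_zero_of_lt_order
      have hq0 : (0 : ℤ) < q := by exact_mod_cast Nat.pos_of_ne_zero (NeZero.ne q)
      exact lt_of_mul_lt_mul_left hm hq0.le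
    · exact qExpand_coeff_of_not_dvd q y hd

/-- **(A4), general form**: if `θ` has order `-1` then `1, θ, …, θ^(q-1)` are linearly independent
over the subfield `k((t^q))` of `k((t))`. -/
theorem indep_of_order_neg_one (θ : LaurentSeries k) (hθ : θ.order = -1)
    (y : Fin q → LaurentSeries k)
    (h : ∑ i : Fin q, qExpand k q (y i) * θ ^ (i : ℕ) = 0) : ∀ i, y i = 0 := by
  classical
  by_contra hne
  push Not at hne
  have hθ0 : θ ≠ 0 := by
    rintro rfl
    rw [HahnSeries.order_zero] at hθ
    exact absurd hθ (by norm_num)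
  -- the order of the `i`-th term
  have hterm : ∀ i : Fin q, y i ≠ 0 →
      (qExpand k q (y i) * θ ^ (i : ℕ)) ≠ 0 ∧
      (qExpand k q (y i) * θ ^ (i : ℕ)).order = (q : ℤ) * (y i).order - (i : ℕ) := by
    intro i hi
    have h1 : qExpand k q (y i) ≠ 0 := fun h0 =>
      hi (qExpand_injective q (h0.trans (map_zero _).symm))
    have h2 : θ ^ (i : ℕ) ≠ 0 := pow_ne_zero _ hθ0
    refine ⟨mul_ne_zero h1 h2, ?_⟩
    rw [HahnSeries.order_mul h1 h2, order_qExpand q hi, HahnSeries.order_pow, hθ]
    simp only [nsmul_eq_mul]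
    ring
  set S : Finset (Fin q) := Finset.univ.filter (fun i => y i ≠ 0) with hS
  have hSne : S.Nonempty := by
    obtain ⟨i, hi⟩ := hne
    exact ⟨i, by rw [hS, Finset.mem_filter]; exact ⟨Finset.mem_univ _, hi⟩⟩
  obtain ⟨i₀, hi₀S, hmin⟩ := S.exists_min_image
    (fun i => (q : ℤ) * (y i).order - ((i : ℕ) : ℤ)) hSne
  have hi₀ : y i₀ ≠ 0 := (Finset.mem_filter.mp hi₀S).2
  set m : ℤ := (q : ℤ) * (y i₀).order - ((i₀ : ℕ) : ℤ) with hm
  have hcoeff := congrArg (fun z : LaurentSeries k => z.coeff m) h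
  simp only [HahnSeries.coeff_zero] at hcoeff
  have hsum : (∑ i : Fin q, qExpand k q (y i) * θ ^ (i : ℕ)).coeff m
      = (qExpand k q (y i₀) * θ ^ (i₀ : ℕ)).coeff m := by
    rw [← HahnSeries.coeff.addMonoidHom_apply, map_sum]
    rw [Finset.sum_eq_single i₀]
    · rfl
    · intro i _ hii
      show (qExpand k q (y i) * θ ^ (i : ℕ)).coeff m = 0
      by_cases hi : y i = 0
      · rw [hi, map_zero, zero_mul, HahnSeries.coeff_zero]
      · apply HahnSeries.coeff_eq_zero_of_lt_order
        rw [(hterm i hi).2]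
        have hle := hmin i (by rw [hS, Finset.mem_filter]; exact ⟨Finset.mem_univ _, hi⟩)
        rcases hle.lt_or_eq with hlt | heq
        · exact hlt
        · exfalso
          -- equal orders force `i = i₀`
          have hdiv : (q : ℤ) ∣ ((i : ℕ) : ℤ) - ((i₀ : ℕ) : ℤ) :=
            ⟨(y i).order - (y i₀).order, by linarith⟩
          have hi1 := i.2
          have hi2 := i₀.2
          have habs : |((i : ℕ) : ℤ) - ((i₀ : ℕ) : ℤ)| < (q : ℤ) := by
            rw [abs_lt]
            constructor <;> omega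
          have h0 := Int.eq_zero_of_abs_lt_dvd hdiv habs
          exact hii (Fin.ext (by omega))
    · intro hni
      exact absurd (Finset.mem_univ _) hni
  rw [hsum] at hcoeff
  have := (hterm i₀ hi₀)
  have hm' : m = (qExpand k q (y i₀) * θ ^ (i₀ : ℕ)).order := this.2.symm
  rw [hm'] at hcoeff
  exact (HahnSeries.coeff_order_eq_zero.not.mpr this.1) hcoeff

/-- **(A4)** Frobenius independence: `∑_{i<q} y_i(t^q) j̄^i = 0` implies `y_i = 0`. -/
theorem frobenius_independence (y : Fin q → LaurentSeries k)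
    (h : ∑ i : Fin q, qExpand k q (y i) * jqModC k ^ (i : ℕ) = 0) : ∀ i, y i = 0 :=
  indep_of_order_neg_one q (jqModC k) (Fermat.Agent.S28.helper81.order_jqModC k) y h

end Indep

/-! ### Good series at level `N q` -/

section Good

variable (N q : ℕ) [NeZero N] [NeZero q] (A : ValuationSubring Kb)

theorem red_qExpand (Y : LaurentSeries A) :
    red A (qExpand A q Y) = qExpand (kA A) q (red A Y) :=
  Fermat.Agent.P2.helper94.coeffMap_qExpand _ q Y

theorem incl_qExpand (Y : LaurentSeries A) :
    incl A (qExpand A q Y) = qExpand Kb q (incl A Y) :=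
  Fermat.Agent.P2.helper94.coeffMap_qExpand _ q Y

/-- `α F_N ⊆ F_{N q}` -/
theorem mem_FF_mul {f : LaurentSeries Kb} (hf : f ∈ FF N) : f ∈ FF (N * q) := by
  have h := (heckeAlphaBar Kb N q ⟨f, hf⟩).2
  rwa [coe_heckeAlphaBar] at h

/-- `β F_N ⊆ F_{N q}` -/
theorem qExpand_mem_FF_mul {f : LaurentSeries Kb} (hf : f ∈ FF N) :
    qExpand Kb q f ∈ FF (N * q) :=
  (heckeBetaBar Kb N q ⟨f, hf⟩).2

variable {q} (hq : q.Prime) (hA : A.LiesOverPrime q)
include hq hA

/-- **(A1)** `F̃_{N q} = F̃_N` for `A` over `q`. -/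
theorem FFb_mul_eq : FFb A (N * q) = FFb A N := by
  haveI : Fact q.Prime := ⟨hq⟩
  haveI : CharP (kA A) q := Fermat.Agent.P2.helper93.charP_residueField hq hA
  haveI : IsAlgClosed (kA A) := Fermat.Agent.P2.helper95.isAlgClosed_residueField A
  exact fullC_mul_eq (kA A) q N

/-- **(A2)** `F̃_N` is stable under `t ↦ t^q`. -/
theorem qExpand_mem_FFb {y : LaurentSeries (kA A)} (hy : y ∈ FFb A N) :
    qExpand (kA A) q y ∈ FFb A N := by
  haveI : Fact q.Prime := ⟨hq⟩
  haveI : CharP (kA A) q := Fermat.Agent.P2.helper93.charP_residueField hq hA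
  haveI : IsAlgClosed (kA A) := Fermat.Agent.P2.helper95.isAlgClosed_residueField A
  exact qExpand_mem_fullC (kA A) q N hy

/-- `y(t^q)` is the `q`-th power of an element of `F̃_N`. -/
theorem exists_pow_eq_qExpand_FFb {y : LaurentSeries (kA A)} (hy : y ∈ FFb A N) :
    ∃ z ∈ FFb A N, qExpand (kA A) q y = z ^ q := by
  haveI : Fact q.Prime := ⟨hq⟩
  haveI : CharP (kA A) q := Fermat.Agent.P2.helper93.charP_residueField hq hA
  haveI : IsAlgClosed (kA A) := Fermat.Agent.P2.helper95.isAlgClosed_residueField A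
  exact exists_pow_eq_qExpand (kA A) q N hy

/-- every `q`-th power in `F̃_N` is of the form `y(t^q)`, `y ∈ F̃_N`. -/
theorem exists_qExpand_eq_pow_FFb {z : LaurentSeries (kA A)} (hz : z ∈ FFb A N) :
    ∃ y ∈ FFb A N, qExpand (kA A) q y = z ^ q := by
  haveI : Fact q.Prime := ⟨hq⟩
  haveI : CharP (kA A) q := Fermat.Agent.P2.helper93.charP_residueField hq hA
  exact exists_qExpand_eq_pow (kA A) q N hz

/-- `j̄(t^q) = j̄^q` -/
theorem jBar_qExpand : qExpand (kA A) q (jqModC (kA A)) = jqModC (kA A) ^ q := by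
  haveI : Fact q.Prime := ⟨hq⟩
  haveI : CharP (kA A) q := Fermat.Agent.P2.helper93.charP_residueField hq hA
  exact jqNModC_char (kA A) q

/-- `IsGood` at the level `N q` with the special fibre field of level `N`. -/
theorem isGood_mul_iff (Y : LaurentSeries A) :
    IsGood A (N * q) Y ↔ incl A Y ∈ FF (N * q) ∧ red A Y ∈ FFb A N ∧ red A Y ≠ 0 := by
  unfold IsGood
  rw [FFb_mul_eq N A hq hA]

/-- **(A3, α)** a good series of level `N` is good at level `N q`. -/
theorem isGood_alpha {Y : LaurentSeries A} (hY : IsGood A N Y) : IsGood A (N * q) Y :=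
  (isGood_mul_iff N A hq hA Y).mpr ⟨mem_FF_mul N q hY.1, hY.2.1, hY.2.2⟩

/-- **(A3, β)** if `Y` is good of level `N` then `Y(t^q)` is good at level `N q`. -/
theorem isGood_beta {Y : LaurentSeries A} (hY : IsGood A N Y) :
    IsGood A (N * q) (qExpand A q Y) := by
  refine (isGood_mul_iff N A hq hA _).mpr ⟨?_, ?_, ?_⟩
  · rw [incl_qExpand]
    exact qExpand_mem_FF_mul N q hY.1
  · rw [red_qExpand]
    exact qExpand_mem_FFb N A hq hA hY.2.1
  · rw [red_qExpand]
    intro h0
    exact hY.2.2 (qExpand_injective q (h0.trans (map_zero _).symm))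

end Good

/-! ### The separating element `f₀ = β j - (α j)^q` -/

section Sep

variable (N q : ℕ) [NeZero N] [NeZero q] (A : ValuationSubring Kb)

/-- the expansion of `f₀ = β j - (α j)^q` -/
def f0 : LaurentSeries A := jqNModC A q - jqModC A ^ q

/-- the expansion of `W f₀ = α j - (β j)^q` -/
def g0 : LaurentSeries A := jqModC A - jqNModC A q ^ q

/-- the expansion of `j - j^(q^2)` (level `1`) -/
def h0 : LaurentSeries A := jqModC A - jqModC A ^ (q ^ 2)

theorem incl_f0 : incl A (f0 q A) = jqNModC Kb q - jqModC Kb ^ q := by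
  rw [f0, map_sub, map_pow, coeffMap_jqNModC, coeffMap_jqModC]

theorem incl_g0 : incl A (g0 q A) = jqModC Kb - jqNModC Kb q ^ q := by
  rw [g0, map_sub, map_pow, coeffMap_jqNModC, coeffMap_jqModC]

theorem incl_h0 : incl A (h0 q A) = jqModC Kb - jqModC Kb ^ (q ^ 2) := by
  rw [h0, map_sub, map_pow, coeffMap_jqModC]

theorem jqModC_mem_FF (M : ℕ) [NeZero M] : jqModC Kb ∈ FF M := by
  have h := jqNModC_mem_FF (N := M) (d := 1) (one_dvd M)
  rwa [jqNModC_one] at h

theorem incl_f0_mem : incl A (f0 q A) ∈ FF (N * q) := by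
  rw [incl_f0]
  exact sub_mem (jqNModC_mem_FF (dvd_mul_left q N)) (pow_mem (jqModC_mem_FF _) q)

theorem incl_g0_mem : incl A (g0 q A) ∈ FF (N * q) := by
  rw [incl_g0]
  exact sub_mem (jqModC_mem_FF _) (pow_mem (jqNModC_mem_FF (dvd_mul_left q N)) q)

theorem incl_h0_mem : incl A (h0 q A) ∈ FF N := by
  rw [incl_h0]
  exact sub_mem (jqModC_mem_FF _) (pow_mem (jqModC_mem_FF _) _)

theorem red_h0 : red A (h0 q A) = jqModC (kA A) - jqModC (kA A) ^ (q ^ 2) := by
  rw [h0, map_sub, map_pow, coeffMap_jqModC]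

theorem jBar_sub_pow_ne_zero (hq1 : 1 < q) :
    jqModC (kA A) - jqModC (kA A) ^ (q ^ 2) ≠ 0 := by
  intro h
  have h1 : jqModC (kA A) = jqModC (kA A) ^ (q ^ 2) := sub_eq_zero.mp h
  have h2 := congrArg HahnSeries.order h1
  rw [HahnSeries.order_pow, Fermat.Agent.S28.helper81.order_jqModC] at h2
  simp only [nsmul_eq_mul] at h2
  have h3 : (1 : ℤ) < ((q ^ 2 : ℕ) : ℤ) := by
    have : 1 < q ^ 2 := Nat.one_lt_pow (by norm_num) hq1
    exact_mod_cast this
  linarith

theorem isGood_h0 (hq1 : 1 < q) : IsGood A N (h0 q A) := by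
  refine ⟨incl_h0_mem N q A, ?_, ?_⟩
  · show red A (h0 q A) ∈ FFb A N
    rw [red_h0]
    exact sub_mem (jqModC_mem_full (kA A) N) (pow_mem (jqModC_mem_full (kA A) N) _)
  · show red A (h0 q A) ≠ 0
    rw [red_h0]
    exact jBar_sub_pow_ne_zero q A hq1

variable {q} (hq : q.Prime) (hA : A.LiesOverPrime q)
include hq hA

/-- `w₁(f₀) > 0` -/
theorem red_f0 : red A (f0 q A) = 0 := by
  rw [f0, map_sub, map_pow, coeffMap_jqNModC, coeffMap_jqModC, jqNModC,
    jBar_qExpand A hq hA, sub_self]

/-- the reduction of `W f₀` is `j̄ - j̄^(q^2)` -/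
theorem red_g0 : red A (g0 q A) = jqModC (kA A) - jqModC (kA A) ^ (q ^ 2) := by
  rw [g0, map_sub, map_pow, coeffMap_jqNModC, coeffMap_jqModC, jqNModC,
    jBar_qExpand A hq hA, ← pow_mul, pow_two]

theorem red_g0_eq_red_h0 : red A (g0 q A) = red A (h0 q A) := by
  rw [red_g0 A hq hA, red_h0]

/-- `w₁(W f₀) = 0` -/
theorem isGood_g0 : IsGood A (N * q) (g0 q A) := by
  refine (isGood_mul_iff N A hq hA _).mpr ⟨incl_g0_mem N q A, ?_, ?_⟩
  · rw [red_g0 A hq hA]
    exact sub_mem (jqModC_mem_full (kA A) N) (pow_mem (jqModC_mem_full (kA A) N) _)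
  · rw [red_g0 A hq hA]
    exact jBar_sub_pow_ne_zero q A hq.one_lt

/-- the denominator `β (j - j^(q^2))` of the idempotent-like element `e' = f₀ / β(j - j^(q^2))`:
it is good at level `N q`, with reduction `(j̄ - j̄^(q^2))^q`. -/
theorem isGood_beta_h0 : IsGood A (N * q) (qExpand A q (h0 q A)) :=
  isGood_beta N A hq hA (isGood_h0 N q A hq.one_lt)

/-- the denominator `α (j - j^(q^2))` of `W e' = W f₀ / α(j - j^(q^2))`. -/
theorem isGood_alpha_h0 : IsGood A (N * q) (h0 q A) :=
  isGood_alpha N A hq hA (isGood_h0 N q A hq.one_lt)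

end Sep

end Fermat.Agent.T2.helper96

end
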