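/-
TIER 2, [T2-SN-INST] part 1 (helper72): the Frobenius side of the (SN) instance.

`k` algebraically closed of characteristic `q`, `E = modularFunctionFieldFullC k N` the special
fibre field inside `k((t))`.

* `frobSemi k q N`      : the coefficientwise Frobenius `frobC` as a semilinear automorphism of
                          `E / k`.
* `isInfty_frobSemi_smul_iff` : it fixes the place at infinity.
* `inL_frobC`, `inL_frobC_symm` : `frobC` and its inverse preserve `L(n ∞)`.
* `inL_qExpand`         : `Fr = (t ↦ t^q)` maps `L(n ∞)` to `L(q n ∞)`.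
* `exists_pow_eq_qExpand_qExpand` : `Fr (Fr y) = h ^ q` with `h ∈ L(q n ∞)`.
-/
import Mathlib
import Fermat.Agent.T2.helper96_ValBase
import Fermat.Agent.P2.helper22_InL
import Fermat.Agent.P2.helper29_Infty

set_option autoImplicit false

noncomputable section

open HahnSeries IntermediateField AlgebraicCurve ModularCurve
open Fermat.Agent.S18.helper19 Fermat.Agent.P2.helper29

namespace Fermat.Agent.T2.helper72

section Twist

variable (k : Type*) [Field k] (q : ℕ) [hq : Fact q.Prime] [CharP k q] [IsAlgClosed k]
variable (N : ℕ) [NeZero N]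

open Fermat.Agent.T2.helper96

/-- `frobC` as a ring automorphism of the special fibre field -/
def frobE : (modularFunctionFieldFullC k N) ≃+* (modularFunctionFieldFullC k N) where
  toFun x := ⟨frobC k q x, frobC_mem k q N x.2⟩
  invFun y := ⟨(exists_frobC_eq k q N y.2).choose, (exists_frobC_eq k q N y.2).choose_spec.1⟩
  left_inv x := Subtype.ext (frobC_injective k q
    (exists_frobC_eq k q N (frobC_mem k q N x.2)).choose_spec.2)
  right_inv y := Subtype.ext (exists_frobC_eq k q N y.2).choose_spec.2
  map_mul' _ _ := Subtype.ext (map_mul (frobC k q) _ _)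
  map_add' _ _ := Subtype.ext (map_add (frobC k q) _ _)

@[simp]
theorem coe_frobE (x : modularFunctionFieldFullC k N) :
    ((frobE k q N x : modularFunctionFieldFullC k N) : LaurentSeries k) = frobC k q x := rfl

theorem frobC_coe_frobE_symm (y : modularFunctionFieldFullC k N) :
    frobC k q (((frobE k q N).symm y : modularFunctionFieldFullC k N) : LaurentSeries k) = y := by
  have h := (frobE k q N).apply_symm_apply y
  exact congrArg Subtype.val h

/-- the coefficientwise Frobenius as a semilinear automorphism of `E / k` -/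
def frobSemi : SemilinearAut k (modularFunctionFieldFullC k N) :=
  ⟨(frobE k q N, frobeniusEquiv k q), fun a => by
    apply Subtype.ext
    show frobC k q (algebraMap k (LaurentSeries k) a) = algebraMap k (LaurentSeries k) _
    rw [frobC_algebraMap]
    rfl⟩

@[simp]
theorem frobSemi_smul (x : modularFunctionFieldFullC k N) :
    frobSemi k q N • x = frobE k q N x := rfl

theorem frobSemi_inv_smul (x : modularFunctionFieldFullC k N) :
    (frobSemi k q N)⁻¹ • x = (frobE k q N).symm x := rfl

omit [IsAlgClosed k] in
/-- a coefficientwise injective map preserves the order -/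
theorem order_frobC (x : LaurentSeries k) : (frobC k q x).order = x.order := by
  rcases eq_or_ne x 0 with rfl | hx
  · simp
  have hx' : frobC k q x ≠ 0 := fun h => hx (frobC_injective k q (h.trans (map_zero _).symm))
  apply le_antisymm
  · apply HahnSeries.order_le_of_coeff_ne_zero
    rw [coeffMap_coeff]
    intro h
    have h0 : x.coeff x.order = 0 := frobenius_inj k q (h.trans (map_zero _).symm)
    exact hx (HahnSeries.coeff_order_eq_zero.1 h0)
  · apply HahnSeries.order_le_of_coeff_ne_zero
    intro h
    have h1 : (frobC k q x).coeff (frobC k q x).order = 0 := by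
      rw [coeffMap_coeff, h, map_zero]
    exact hx' (HahnSeries.coeff_order_eq_zero.1 h1)

variable {k q N}

/-- the Frobenius twist fixes the place at infinity -/
theorem isInfty_frobSemi_smul {P : Place k (modularFunctionFieldFullC k N)} (hP : IsInfty P) :
    IsInfty (frobSemi k q N • P) := by
  intro f hf
  have h := SemilinearAut.ord_smul (frobSemi k q N) P ((frobE k q N).symm f)
  rw [frobSemi_smul, RingEquiv.apply_symm_apply] at h
  rw [h, hP _ ((map_ne_zero _).mpr hf), ← order_frobC k q, frobC_coe_frobE_symm]

theorem isInfty_frobSemi_inv_smul {P : Place k (modularFunctionFieldFullC k N)}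
    (hP : IsInfty P) : IsInfty ((frobSemi k q N)⁻¹ • P) := by
  intro f hf
  have h := SemilinearAut.ord_smul (frobSemi k q N)⁻¹ P (frobE k q N f)
  rw [frobSemi_inv_smul, RingEquiv.symm_apply_apply] at h
  rw [h, hP _ ((map_ne_zero _).mpr hf), coe_frobE, order_frobC]

theorem isInfty_frobSemi_smul_iff (P : Place k (modularFunctionFieldFullC k N)) :
    IsInfty (frobSemi k q N • P) ↔ IsInfty P := by
  refine ⟨fun h => ?_, isInfty_frobSemi_smul⟩
  have := isInfty_frobSemi_inv_smul h
  rwa [inv_smul_smul] at this

theorem isInfty_frobSemi_inv_smul_iff (P : Place k (modularFunctionFieldFullC k N)) :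
    IsInfty ((frobSemi k q N)⁻¹ • P) ↔ IsInfty P := by
  refine ⟨fun h => ?_, isInfty_frobSemi_inv_smul⟩
  have := isInfty_frobSemi_smul h
  rwa [smul_inv_smul] at this

/-- `frobC` preserves `L(n ∞)` -/
theorem inL_frobC {n : ℤ} {y : LaurentSeries k} (hy : InL (modularFunctionFieldFullC k N) n y) :
    InL (modularFunctionFieldFullC k N) n (frobC k q y) := by
  obtain ⟨hyE, hreg, hco⟩ := hy
  refine ⟨frobC_mem k q N hyE, fun P hP => ?_, fun j hj => ?_⟩
  · have h := SemilinearAut.ord_smul (frobSemi k q N) ((frobSemi k q N)⁻¹ • P) ⟨y, hyE⟩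
    rw [smul_inv_smul] at h
    have e : frobSemi k q N • (⟨y, hyE⟩ : modularFunctionFieldFullC k N) =
        ⟨frobC k q y, frobC_mem k q N hyE⟩ := rfl
    rw [e] at h
    rw [h]
    exact hreg _ (fun hI => hP ((isInfty_frobSemi_inv_smul_iff P).1 hI))
  · rw [coeffMap_coeff, hco j hj, map_zero]

/-- the inverse of `frobC` preserves `L(n ∞)` -/
theorem inL_frobC_symm {n : ℤ} {y z : LaurentSeries k}
    (hy : InL (modularFunctionFieldFullC k N) n y) (hz : z ∈ modularFunctionFieldFullC k N)
    (hzy : frobC k q z = y) : InL (modularFunctionFieldFullC k N) n z := by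
  obtain ⟨hyE, hreg, hco⟩ := hy
  refine ⟨hz, fun P hP => ?_, fun j hj => ?_⟩
  · have h := SemilinearAut.ord_smul (frobSemi k q N) P ⟨z, hz⟩
    have e : frobSemi k q N • (⟨z, hz⟩ : modularFunctionFieldFullC k N) = ⟨y, hyE⟩ :=
      Subtype.ext hzy
    rw [e] at h
    rw [← h]
    exact hreg _ (fun hI => hP ((isInfty_frobSemi_smul_iff P).1 hI))
  · have h := hco j hj
    rw [← hzy, coeffMap_coeff] at h
    exact frobenius_inj k q (h.trans (map_zero _).symm)

end Twist



section Fr

variable {k : Type*} [Field k] {q : ℕ} [hq : Fact q.Prime] [CharP k q] [IsAlgClosed k]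
variable {N : ℕ} [NeZero N]

open Fermat.Agent.T2.helper96

/-- `Fr = (t ↦ t ^ q)` maps `L(n ∞)` to `L(q n ∞)` -/
theorem inL_qExpand {n : ℤ} {y : LaurentSeries k}
    (hy : InL (modularFunctionFieldFullC k N) n y) :
    InL (modularFunctionFieldFullC k N) (q * n) (qExpand k q y) := by
  have : NeZero q := ⟨hq.out.ne_zero⟩
  obtain ⟨z, hz, hzy⟩ := exists_frobC_eq k q N hy.1
  have h1 := inL_frobC_symm hy hz hzy
  have h2 := h1.pow q
  rwa [pow_char_eq k q z, hzy] at h2

/-- **(SN), power condition**: `Fr (Fr y)` is the `q`-th power of an element of `L(q n ∞)`. -/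
theorem exists_pow_eq_qExpand_qExpand {n : ℤ} {y : LaurentSeries k}
    (hy : InL (modularFunctionFieldFullC k N) n y) :
    ∃ h : LaurentSeries k, InL (modularFunctionFieldFullC k N) (q * n) h ∧
      qExpand k q (qExpand k q y) = h ^ q := by
  have : NeZero q := ⟨hq.out.ne_zero⟩
  obtain ⟨z, hz, hzy⟩ := exists_frobC_eq k q N hy.1
  have h1 := inL_frobC_symm hy hz hzy
  refine ⟨qExpand k q z, inL_qExpand h1, ?_⟩
  rw [pow_char_eq k q (qExpand k q z), frobC_qExpand, hzy]

end Fr

end Fermat.Agent.T2.helper72

end
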