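/-
TIER 2, [T2-SN-INST] part 2 (helper72): the ring `B̃` of functions of the special fibre field
which are regular off `∞̃`, its Frobenius `Fr = (t ↦ t ^ q)`, and the finiteness of
`B̃ ⧸ frobIdeal Fr`.

Generic part (`E` an intermediate field of `K((t))` with a place at infinity, Riemann's theorem):

* `exists_inL_order_eq`   : functions with exact pole order `m` at `∞` for all large `m`;
* `exists_eq_add_mul_of_inL` : division with remainder by a non-constant `g`:
                               `B = L(n₀ ∞) + g B`;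
* `regAlg E`              : the subalgebra `B = ⋃ L(n ∞)`;
* `finite_quotient_of_mem`: `B ⧸ I` is finite dimensional if `I` contains a non-constant element.

Instance (special fibre field, characteristic `q`):

* `frReg`                 : `Fr` as a `k`-algebra endomorphism of `B̃`;
* `frReg_frReg_eq_pow`    : `Fr (Fr f) = h ^ q`, `h ∈ B̃`;
* `finite_quotient_frobIdeal` : `Module.Finite k (B̃ ⧸ frobIdeal Fr)`.
-/
import Mathlib
import Fermat.Agent.P2.helper74_NonSpecial
import Fermat.Agent.T2.helper51_SN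
import Fermat.Agent.T2.helper72_SNFrob

set_option autoImplicit false

noncomputable section

open HahnSeries IntermediateField AlgebraicCurve ModularCurve
open Fermat.Agent.S18.helper19 Fermat.Agent.P2.helper29 Fermat.Agent.P2

namespace Fermat.Agent.T2.helper72

section Generic

variable {K : Type*} [Field K] {E : IntermediateField K (LaurentSeries K)}

/-- functions with exact pole order `m` at infinity, for all large `m` -/
theorem exists_inL_order_eq (hS : helper74.RiemannSetting K E) {g₀ : ℕ}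
    (hR : HasRiemannGenus K E g₀) {Pinf : Place K E} (hP : IsInfty Pinf) :
    ∃ m₀ : ℤ, ∀ m : ℤ, m₀ ≤ m →
      ∃ z : LaurentSeries K, InL E m z ∧ z ≠ 0 ∧ z.order = -m := by
  obtain ⟨c, hc⟩ := hR.2
  refine ⟨c + 1, fun m hm => ?_⟩
  have hD : c + 1 ≤ Divisor.degree (Finsupp.single Pinf m) := by
    rw [Divisor.degree_single, hS.deg_one]
    simpa using hm
  obtain ⟨f, hf0, hfL, hford⟩ := helper74.exists_mem_L_ord_eq hS hc hD Pinf
  refine ⟨(f : LaurentSeries K), (helper22.inL_iff_mem hP m _).2 ⟨f.2, hfL⟩,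
    fun h => hf0 (Subtype.ext h), ?_⟩
  rw [← hP f hf0, hford, Finsupp.single_eq_same]

theorem coeff_algebraMap_mul (c : K) (f : LaurentSeries K) (j : ℤ) :
    (algebraMap K (LaurentSeries K) c * f).coeff j = c * f.coeff j := by
  rw [helper22.algebraMap_mul_eq_smul, HahnSeries.coeff_smul, smul_eq_mul]

/-- division with remainder by a non-constant function regular off infinity -/
theorem exists_eq_add_mul_of_inL (hS : helper74.RiemannSetting K E) {g₀ : ℕ}
    (hR : HasRiemannGenus K E g₀) {Pinf : Place K E} (hP : IsInfty Pinf)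
    {g : LaurentSeries K} {d : ℤ} (hg : InL E d g) (hd : 0 < d) (hgo : g.order = -d) :
    ∃ n₀ : ℤ, ∀ (m : ℤ) (y : LaurentSeries K), InL E m y →
      ∃ v y' : LaurentSeries K, InL E n₀ v ∧ (∃ m' : ℤ, InL E m' y') ∧ y = v + g * y' := by
  obtain ⟨m₀, hm₀⟩ := exists_inL_order_eq hS hR hP
  refine ⟨m₀ + d, ?_⟩
  have hg0 : g ≠ 0 := by
    rintro rfl
    rw [HahnSeries.order_zero] at hgo
    omega
  have key : ∀ r : ℕ, ∀ (m : ℤ) (y : LaurentSeries K), m ≤ m₀ + d + r → InL E m y →
      ∃ v y' : LaurentSeries K, InL E (m₀ + d) v ∧ (∃ m' : ℤ, InL E m' y') ∧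
        y = v + g * y' := by
    intro r
    induction r with
    | zero =>
      intro m y hm hy
      exact ⟨y, 0, hy.mono (by simpa using hm), ⟨0, inL_zero 0⟩, by simp⟩
    | succ r ih =>
      intro m y hm hy
      obtain ⟨M, hM⟩ : ∃ M : ℤ, M = m₀ + d + r + 1 := ⟨_, rfl⟩
      have hy' : InL E M y := hy.mono (by push_cast at hm; omega)
      obtain ⟨z, hz, hz0, hzo⟩ := hm₀ (M - d) (by omega)
      have hgz0 : g * z ≠ 0 := mul_ne_zero hg0 hz0
      have hgz : (g * z).order = -M := by
        rw [order_mul_field hg0 hz0, hgo, hzo]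
        ring
      have hlead : (g * z).coeff (-M) ≠ 0 := by
        rw [← hgz]
        exact fun h => hgz0 (HahnSeries.coeff_order_eq_zero.1 h)
      obtain ⟨c, hc⟩ : ∃ c : K, c = y.coeff (-M) / (g * z).coeff (-M) := ⟨_, rfl⟩
      have hgzL : InL E M (g * z) := (hg.mul hz).mono (by omega)
      have h1 : InL E M (y - algebraMap K (LaurentSeries K) c * (g * z)) :=
        hy'.sub (hgzL.smul c)
      have h2 : (y - algebraMap K (LaurentSeries K) c * (g * z)).coeff (-M) = 0 := by
        rw [HahnSeries.coeff_sub, coeff_algebraMap_mul, hc]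
        field_simp
        ring
      have h3 : InL E (M - 1) (y - algebraMap K (LaurentSeries K) c * (g * z)) := by
        refine ⟨h1.1, h1.2.1, fun j hj => ?_⟩
        rcases eq_or_ne j (-M) with rfl | hne
        · exact h2
        · exact h1.2.2 j (by omega)
      obtain ⟨v, y'', hv, ⟨m', hy''⟩, e⟩ := ih (M - 1) _ (by omega) h3
      refine ⟨v, y'' + algebraMap K (LaurentSeries K) c * z, hv,
        ⟨max m' (M - d), (hy''.mono (le_max_left _ _)).add
          ((hz.smul c).mono (le_max_right _ _))⟩, ?_⟩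
      have e' : y = (y - algebraMap K (LaurentSeries K) c * (g * z)) +
          algebraMap K (LaurentSeries K) c * (g * z) := by ring
      rw [e', e]
      ring
  intro m y hy
  exact key (m - (m₀ + d)).toNat m y (by omega) hy

variable (E) in
/-- the ring of functions of `E` regular off the place at infinity -/
def regAlg : Subalgebra K (LaurentSeries K) where
  carrier := {y | ∃ n : ℤ, InL E n y}
  mul_mem' := fun ⟨n, h⟩ ⟨n', h'⟩ => ⟨n + n', h.mul h'⟩
  add_mem' := fun ⟨n, h⟩ ⟨n', h'⟩ =>
    ⟨max n n', (h.mono (le_max_left _ _)).add (h'.mono (le_max_right _ _))⟩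
  algebraMap_mem' := fun a => ⟨0, inL_algebraMap a⟩

theorem mem_regAlg {y : LaurentSeries K} : y ∈ regAlg E ↔ ∃ n : ℤ, InL E n y := Iff.rfl

theorem InL.mem_regAlg' {n : ℤ} {y : LaurentSeries K} (h : InL E n y) : y ∈ regAlg E := ⟨n, h⟩

/-- `B ⧸ I` is finite dimensional as soon as `I` contains a non-constant element. -/
theorem finite_quotient_of_mem (hS : helper74.RiemannSetting K E) {g₀ : ℕ}
    (hR : HasRiemannGenus K E g₀) {Pinf : Place K E} (hP : IsInfty Pinf)
    (I : Ideal (regAlg E)) {g : regAlg E} (hgI : g ∈ I) {d : ℤ}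
    (hg : InL E d (g : LaurentSeries K)) (hd : 0 < d)
    (hgo : (g : LaurentSeries K).order = -d) :
    Module.Finite K (regAlg E ⧸ I) := by
  obtain ⟨n₀, hn₀⟩ := exists_eq_add_mul_of_inL hS hR hP hg hd hgo
  haveI : FiniteDimensional K (riemannRochSpace (Finsupp.single Pinf n₀)) :=
    helper74.finiteDimensional_L hS _
  -- the map `L(n₀ ∞) → B`
  let ψ : riemannRochSpace (Finsupp.single Pinf n₀) →ₗ[K] regAlg E :=
    { toFun := fun f => ⟨((f : E) : LaurentSeries K),
        ⟨n₀, (helper22.inL_iff_mem hP n₀ _).2 ⟨f.1.2, f.2⟩⟩⟩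
      map_add' := fun _ _ => rfl
      map_smul' := fun c f => by
        apply Subtype.ext
        rw [RingHom.id_apply, Algebra.smul_def]
        show (((c • f : riemannRochSpace (Finsupp.single Pinf n₀)) : E) : LaurentSeries K) =
          algebraMap K (LaurentSeries K) c * ((f : E) : LaurentSeries K)
        rw [Submodule.coe_smul, Algebra.smul_def]
        rfl }
  let φ : riemannRochSpace (Finsupp.single Pinf n₀) →ₗ[K] (regAlg E ⧸ I) :=
    (Ideal.Quotient.mkₐ K I).toLinearMap.comp ψ
  refine Module.Finite.of_surjective φ ?_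
  intro b
  obtain ⟨y, rfl⟩ := Ideal.Quotient.mk_surjective b
  obtain ⟨m, hy⟩ := y.2
  obtain ⟨v, y', hv, ⟨m', hy'⟩, e⟩ := hn₀ m y hy
  obtain ⟨hvE, hvL⟩ := (helper22.inL_iff_mem hP n₀ v).1 hv
  refine ⟨⟨⟨v, hvE⟩, hvL⟩, ?_⟩
  show Ideal.Quotient.mk I (ψ ⟨⟨v, hvE⟩, hvL⟩) = Ideal.Quotient.mk I y
  rw [Ideal.Quotient.eq]
  have e2 : ψ ⟨⟨v, hvE⟩, hvL⟩ - y = -(g * ⟨y', ⟨m', hy'⟩⟩) := by
    apply Subtype.ext
    show v - (y : LaurentSeries K) = -((g : LaurentSeries K) * y')
    rw [e]
    ring
  rw [e2]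
  exact I.neg_mem (I.mul_mem_right _ hgI)

end Generic

section Fr

variable (k : Type*) [Field k] (q : ℕ) [hq : Fact q.Prime] [CharP k q] [IsAlgClosed k]
variable (N : ℕ) [NeZero N]

open Fermat.Agent.T2.helper96

/-- `Fr = (t ↦ t ^ q)` as a `k`-algebra endomorphism of the ring of functions regular off
infinity of the special fibre field. -/
def frReg : regAlg (modularFunctionFieldFullC k N) →ₐ[k] regAlg (modularFunctionFieldFullC k N) :=
  haveI : NeZero q := ⟨hq.out.ne_zero⟩
  { toFun := fun y => ⟨qExpand k q y, ⟨_, inL_qExpand y.2.choose_spec⟩⟩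
    map_one' := Subtype.ext (map_one (qExpand k q))
    map_mul' := fun _ _ => Subtype.ext (map_mul (qExpand k q) _ _)
    map_zero' := Subtype.ext (map_zero (qExpand k q))
    map_add' := fun _ _ => Subtype.ext (map_add (qExpand k q) _ _)
    commutes' := fun r => Subtype.ext (by
      show qExpand k q (algebraMap k (LaurentSeries k) r) = algebraMap k (LaurentSeries k) r
      rw [algebraMap_laurentSeries_eq_single, qExpand_single, mul_zero]) }

@[simp]
theorem coe_frReg (y : regAlg (modularFunctionFieldFullC k N)) :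
    haveI : NeZero q := ⟨hq.out.ne_zero⟩
    ((frReg k q N y : regAlg (modularFunctionFieldFullC k N)) : LaurentSeries k) =
      qExpand k q y := rfl

/-- **(SN), power condition** in the ring `B̃`. -/
theorem frReg_frReg_eq_pow (f : regAlg (modularFunctionFieldFullC k N)) :
    ∃ h : regAlg (modularFunctionFieldFullC k N), frReg k q N (frReg k q N f) = h ^ q := by
  obtain ⟨n, hn⟩ := f.2
  obtain ⟨h, hh, e⟩ := exists_pow_eq_qExpand_qExpand (q := q) hn
  exact ⟨⟨h, ⟨_, hh⟩⟩, Subtype.ext e⟩

/-- **(SN), finiteness**: `B̃ ⧸ frobIdeal Fr` is finite dimensional. -/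
theorem finite_quotient_frobIdeal
    (hS : helper74.RiemannSetting k (modularFunctionFieldFullC k N)) {g₀ : ℕ}
    (hR : HasRiemannGenus k (modularFunctionFieldFullC k N) g₀)
    {Pinf : Place k (modularFunctionFieldFullC k N)} (hP : IsInfty Pinf) :
    Module.Finite k (regAlg (modularFunctionFieldFullC k N) ⧸
      helper51.frobIdeal (frReg k q N)) := by
  have : NeZero q := ⟨hq.out.ne_zero⟩
  obtain ⟨m₀, hm₀⟩ := exists_inL_order_eq hS hR hP
  obtain ⟨z, hz, hz0, hzo⟩ := hm₀ (max m₀ 1) (le_max_left _ _)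
  obtain ⟨m, hm⟩ : ∃ m : ℤ, m = max m₀ 1 := ⟨_, rfl⟩
  rw [← hm] at hz hzo
  have hm1 : 1 ≤ m := hm ▸ le_max_right _ _
  have hq2 : (2 : ℤ) ≤ q := by exact_mod_cast hq.out.two_le
  -- the element `g = Fr (Fr z) - z`
  have hFz : InL (modularFunctionFieldFullC k N) (q * (q * m))
      (qExpand k q (qExpand k q z)) := inL_qExpand (inL_qExpand hz)
  have hFz0 : qExpand k q (qExpand k q z) ≠ 0 := by
    intro h
    have h1 := (map_eq_zero_iff _ (qExpand_injective q)).1 h
    exact hz0 ((map_eq_zero_iff _ (qExpand_injective q)).1 h1)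
  have hFq0 : qExpand k q z ≠ 0 := fun h =>
    hz0 ((map_eq_zero_iff _ (qExpand_injective q)).1 h)
  have hFzo : (qExpand k q (qExpand k q z)).order = -(q * (q * m)) := by
    rw [order_qExpand q hFq0, order_qExpand q hz0, hzo]
    ring
  have hqm : 2 * m ≤ (q : ℤ) * m := by nlinarith
  have hqqm : 2 * ((q : ℤ) * m) ≤ q * (q * m) := by nlinarith
  have hlt : -((q : ℤ) * (q * m)) < -m := by omega
  have hgL : InL (modularFunctionFieldFullC k N) (q * (q * m))
      (qExpand k q (qExpand k q z) - z) := hFz.sub (hz.mono (by omega))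
  have hcoeff : (qExpand k q (qExpand k q z) - z).coeff (-(q * (q * m))) ≠ 0 := by
    rw [HahnSeries.coeff_sub, HahnSeries.coeff_eq_zero_of_lt_order (x := z) (by rw [hzo]; exact hlt),
      sub_zero, ← hFzo]
    exact fun h => hFz0 (HahnSeries.coeff_order_eq_zero.1 h)
  have hg0 : qExpand k q (qExpand k q z) - z ≠ 0 := by
    intro h
    rw [h] at hcoeff
    exact hcoeff rfl
  have hgo : (qExpand k q (qExpand k q z) - z).order = -(q * (q * m)) := by
    apply le_antisymm
    · exact HahnSeries.order_le_of_coeff_ne_zero hcoeff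
    · exact (helper22.forall_coeff_eq_zero_iff hg0 _).1 hgL.2.2
  have hmem : (⟨qExpand k q (qExpand k q z) - z, ⟨_, hgL⟩⟩ :
      regAlg (modularFunctionFieldFullC k N)) ∈ helper51.frobIdeal (frReg k q N) := by
    have := helper51.sub_mem_frobIdeal (frReg k q N)
      (⟨z, ⟨_, hz⟩⟩ : regAlg (modularFunctionFieldFullC k N))
    exact this
  exact finite_quotient_of_mem hS hR hP _ hmem hgL (by omega) hgo

end Fr

end Fermat.Agent.T2.helper72

end
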