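/-
TIER 2, [T2-SN-INST] part 3 (helper72): `helper22.SN2Statement (N * q) A W` for
`W = helper36.atkinLehner N q hq hqN`, `A` over `q`.

* the Frobenius `Fr`, the power condition and the finiteness are UNCONDITIONAL
  (`helper72_SNFrob`, `helper72_SNFin`);
* the two graphs `(f, Fr f)`, `(Fr f, f) ∈ Rt` use
  - `helper29.SurjRedStatement N A` (P2 at the level `N` prime to `q`), and
  - `RegAlphaStatement N q W` : `x` regular off `∞` at level `N` ⟹ `α x` regular off `{∞, ∞₂}`.
-/
import Mathlib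
import Fermat.Agent.T2.helper72_SNFin
import Fermat.Agent.T2.helper22_CoreDefs
import Fermat.Agent.T2.helper96_ValW
import Fermat.Agent.P2.helper95_FFlInst

set_option autoImplicit false

noncomputable section

open HahnSeries IntermediateField AlgebraicCurve ModularCurve
open Fermat.Agent.S18.helper19 Fermat.Agent.P2.helper29 Fermat.Agent.P2
open Fermat.Agent.T2.helper36 Fermat.Agent.T2.helper96

namespace Fermat.Agent.T2.helper72

/-- **[REG-alpha]** a function of level `N` which is regular off `∞` is, as a function of level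
`N * q`, regular off the two cusps `∞`, `∞₂`. -/
def RegAlphaStatement (N q : ℕ) [NeZero N] [NeZero q] (W : FF (N * q) ≃ₐ[Kb] FF (N * q)) :
    Prop :=
  ∀ (x : LaurentSeries Kb) (n : ℤ), InL (FF N) n x → ∀ hx : x ∈ FF (N * q),
    helper22.IsReg2 W (⟨x, hx⟩ : FF (N * q))

variable (N q : ℕ) [NeZero N] [NeZero q] (hq : q.Prime) (hqN : ¬ q ∣ N)
variable (A : ValuationSubring Kb) (hA : A.LiesOverPrime q)

include hA in
/-- the first graph: `(f, Fr f)` is the pair of reductions of `α x`, `x` a lift of `f`. -/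
theorem exists_rep_graph (hSurj : SurjRedStatement N A)
    (hReg : RegAlphaStatement N q (atkinLehner N q hq hqN))
    {f : LaurentSeries (kA A)} {n : ℤ} (hf : InL (FFb A (N * q)) n f) :
    ∃ (g : FF (N * q)) (Y₁ Y₂ : LaurentSeries A),
      helper22.IsReg2 (atkinLehner N q hq hqN) g ∧
      helper22.IsRep A (atkinLehner N q hq hqN) g Y₁ Y₂ ∧
      red A Y₁ = f ∧ red A Y₂ = qExpand (kA A) q f := by
  rw [FFb_mul_eq N A hq hA] at hf
  obtain ⟨c, hc⟩ := hSurj
  obtain ⟨Y, hY, hYf⟩ := hc (max n c) (le_max_right _ _) f (hf.mono (le_max_left _ _))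
  have hx : incl A Y ∈ FF N := hY.1
  refine ⟨⟨incl A Y, mem_FF_mul N q hx⟩, Y, qExpand A q Y, hReg _ _ hY _, ⟨rfl, ?_⟩, hYf, ?_⟩
  · rw [atkinLehner_alpha N q hq hqN hx]
    exact incl_qExpand q A Y
  · rw [red_qExpand, hYf]

include hA in
/-- **[T2-SN-INST]** the (SN) instance at the level `N * q`. -/
theorem sn2Statement (hSurj : SurjRedStatement N A)
    (hReg : RegAlphaStatement N q (atkinLehner N q hq hqN)) :
    helper22.SN2Statement (N * q) A (atkinLehner N q hq hqN) := by
  haveI : Fact q.Prime := ⟨hq⟩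
  haveI : CharP (kA A) q := helper93.charP_residueField hq hA
  haveI : IsAlgClosed (kA A) := helper95.isAlgClosed_residueField A
  obtain ⟨g₀, hR⟩ := helper95.riemannBar (N * q) A
  obtain ⟨Pinf, hP⟩ := (inftyStatement (N * q) A).2
  have hWW : ∀ f, atkinLehner N q hq hqN (atkinLehner N q hq hqN f) = f :=
    atkinLehner_atkinLehner N q hq hqN
  refine ⟨frReg (kA A) q (N * q), q, hq.two_le, frReg_frReg_eq_pow (kA A) q (N * q),
    finite_quotient_frobIdeal (kA A) q (N * q) (helper95.riemannSetting_FFb (N * q) A) hR hP,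
    fun f => ?_, fun f => ?_⟩
  · obtain ⟨n, hn⟩ := f.2
    obtain ⟨g, Y₁, Y₂, hg, hrep, h1, h2⟩ := exists_rep_graph N q hq hqN A hA hSurj hReg hn
    exact ⟨g, Y₁, Y₂, hg, hrep, h1, h2⟩
  · obtain ⟨n, hn⟩ := f.2
    obtain ⟨g, Y₁, Y₂, hg, hrep, h1, h2⟩ := exists_rep_graph N q hq hqN A hA hSurj hReg hn
    exact ⟨atkinLehner N q hq hqN g, Y₂, Y₁, hg.map hWW, hrep.swap hWW, h2, h1⟩

end Fermat.Agent.T2.helper72

end
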