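/-
TIER 2, [T2-SN-INST] part 4 (helper72): the (SN) instance UNCONDITIONALLY at a good level.

* `regAlphaStatement`  : `RegAlphaStatement N q W` from helper74's `regOff2_alpha`.
* `surjRed_good`       : `helper29.SurjRedStatement N A` at a good pair (P2, all leaves closed).
* `sn2Statement_good`  : `helper22.SN2Statement (N * q) A W` for `N` good, `q ∤ N`, `A | q`.
* `exists_sep_order`   : the separating function `j` (orders `-1` and `-q` at the two cusps).
-/
import Fermat.Agent.T2.helper72_SNInst
import Fermat.Agent.T2.helper74_RegAlpha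
import Fermat.Agent.P2.helper29_Core2
import Fermat.Agent.P2.helper28_CuspReg

set_option autoImplicit false
set_option synthInstance.maxHeartbeats 400000

noncomputable section

open HahnSeries IntermediateField AlgebraicCurve ModularCurve
open Fermat.Agent.S18.helper19 Fermat.Agent.P2.helper29 Fermat.Agent.P2
open Fermat.Agent.T2.helper36 Fermat.Agent.T2.helper96

namespace Fermat.Agent.T2.helper72

variable (N q : ℕ) [NeZero N] [NeZero q] (hq : q.Prime) (hqN : ¬ q ∣ N)

/-- **[REG-alpha]** (helper74), in the shape consumed by `sn2Statement`. -/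
theorem regAlphaStatement : RegAlphaStatement N q (atkinLehner N q hq hqN) := by
  intro x n hx hx'
  have h := helper74.regOff2_alpha N q hq hqN (x := ⟨x, hx.1⟩) hx.2.1
  have e : heckeAlphaBar Kb N q ⟨x, hx.1⟩ = (⟨x, hx'⟩ : FF (N * q)) := Subtype.ext rfl
  rw [e] at h
  exact fun P h1 h2 => h P h1 h2

variable {N q} (A : ValuationSubring Kb) (hA : A.LiesOverPrime q)

include hq hqN hA in
/-- **[SURJ]** at a good pair, unconditional. -/
theorem surjRed_good (hN : 4 ∣ N ∨ 9 ∣ N) : SurjRedStatement N A := by
  have hPL : PrimeToLevel N A := ⟨q, hq, hqN, hA⟩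
  exact surjRed_of_leaves hN hq hqN hA (helper28.regRedStatement N A hPL)
    (helper28.cuspBarStatement hPL) (helper43.tameBase N A ⟨hN, hPL⟩)

include hA in
/-- **[T2-SN-INST]**, unconditional at a good level. -/
theorem sn2Statement_good (hN : 4 ∣ N ∨ 9 ∣ N) :
    helper22.SN2Statement (N * q) A (atkinLehner N q hq hqN) :=
  sn2Statement N q hq hqN A hA (surjRed_good hq hqN A hA hN) (regAlphaStatement N q hq hqN)

end Fermat.Agent.T2.helper72

end
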