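import Fermat.Agent.T2.helper87_RegRed2
import Fermat.Agent.T2.helper58_ScaleBad

/-!
# Tier 2, [T2-REGRED2] (helper87): unconditional form

`regRed2_holds` : `helper22.RegRed2Statement (N * q) A (atkinLehner N q hq hqN)` for a prime
`q ∤ N` and `A` over `q`, from `helper87.regRed2` and `helper58.scaleStatement_bad`.
Also the symmetric statement for the second expansion.
-/

set_option autoImplicit false

noncomputable section

open HahnSeries IntermediateField AlgebraicCurve ModularCurve
open Fermat.Agent.S18.helper19 Fermat.Agent.P2.helper29 Fermat.Agent.T2.helper36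
open Fermat.Agent.T2.helper22

namespace Fermat.Agent.T2.helper87

variable (N q : ℕ) [NeZero N] [NeZero q] (hq : q.Prime) (hqN : ¬ q ∣ N)
variable (A : ValuationSubring Kb)

/-- **[T2-REGRED2]**, unconditional: (I3) of the tier-2 ideal step at the level `N * q`. -/
theorem regRed2_holds (hA : A.LiesOverPrime q) :
    RegRed2Statement (N * q) A (atkinLehner N q hq hqN) :=
  regRed2 N q hq hqN A hA (Fermat.Agent.T2.helper58.scaleStatement_bad N q hq hqN A hA)

/-- the same for the second expansion: the reduction of the expansion of `W f` is regular off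
infinity. -/
theorem regRed2_snd (hA : A.LiesOverPrime q) (f : FF (N * q)) (Y₁ Y₂ : LaurentSeries A)
    (hreg : IsReg2 (atkinLehner N q hq hqN) f)
    (hrep : IsRep A (atkinLehner N q hq hqN) f Y₁ Y₂) :
    ∃ n : ℤ, InL (FFb A (N * q)) n (red A Y₂) :=
  regRed2_holds N q hq hqN A hA _ Y₂ Y₁
    (hreg.map (atkinLehner_atkinLehner N q hq hqN))
    (hrep.swap (atkinLehner_atkinLehner N q hq hqN))

end Fermat.Agent.T2.helper87

end
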