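/-
T2-SAT (helper96), part 1: the places of `F_{N q}` over the place `∞'` of `F_N` along `α` are
exactly `∞` (unramified) and `∞₂ = W⁻¹ ∞` (ramification index `q`).

* `ord_alpha_nonneg` : if `x ∈ F_N` is regular off `∞'` then `α x` is regular off `{∞, ∞₂}`.
* `isReg2_alpha`, `isReg2_beta` : the same in helper22's vocabulary `IsReg2 W`.
-/
import Mathlib
import Fermat.Agent.T2.helper22_CoreDefs
import Fermat.Agent.T2.helper96_ValW
import Fermat.Agent.P3.helper58_HeckeInputs
import Fermat.Agent.P2.helper93_ESDegree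

set_option autoImplicit false
set_option synthInstance.maxHeartbeats 400000
set_option maxHeartbeats 1000000
set_option linter.style.haveILetI false
set_option linter.unusedSectionVars false

noncomputable section

open HahnSeries IntermediateField ModularCurve AlgebraicCurve
open Fermat.Agent.S18.helper19 Fermat.Agent.P2.helper29 Fermat.Agent.T2.helper36
open Fermat.Agent.T2.helper22 Fermat.Agent.S24

namespace Fermat.Agent.T2.helper96

section Abstract

variable {K F F' : Type*} [Field K] [Field F] [Field F'] [Algebra K F] [Algebra K F']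
  [Algebra F F'] [IsScalarTower K F F'] [Algebra.IsIntegral F F']

/-- a place has a uniformiser -/
theorem exists_ord_eq_one' (v : Place K F) : ∃ f : F, f ≠ 0 ∧ v.ord f = 1 := by
  obtain ⟨π, hπ⟩ := IsDiscreteValuationRing.exists_irreducible v.toValuationSubring
  refine ⟨(π : F), ?_, v.ord_coe_irreducible hπ⟩
  simpa [ne_eq, ZeroMemClass.coe_eq_zero] using hπ.ne_zero

/-- if the order of `w` on `F` is `c` times a function `o` which takes the value `1`, then the
restriction of `w` has order function `o` and ramification index `c`. -/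
theorem restrict_ord_of_mul (w : Place K F') (c : ℤ) (hc : 0 < c) (o : F → ℤ)
    (ho : ∀ f : F, f ≠ 0 → w.ord (algebraMap F F' f) = c * o f)
    (h1 : ∃ f : F, f ≠ 0 ∧ o f = 1) :
    (w.ramificationIndex F : ℤ) = c ∧ ∀ f : F, f ≠ 0 → (w.restrict F).ord f = o f := by
  have he : (0 : ℤ) < (w.ramificationIndex F : ℤ) := by
    exact_mod_cast w.ramificationIndex_pos (F := F)
  obtain ⟨f₁, hf₁, hof₁⟩ := h1
  obtain ⟨π, hπ, hπ1⟩ := exists_ord_eq_one' (w.restrict F)
  -- `e ∣ c`
  have h2 : (w.ramificationIndex F : ℤ) * (w.restrict F).ord f₁ = c := by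
    rw [← w.ord_restrict f₁, ho f₁ hf₁, hof₁, mul_one]
  -- `c ∣ e`
  have h3 : (w.ramificationIndex F : ℤ) = c * o π := by
    rw [← ho π hπ, w.ord_restrict π, hπ1, mul_one]
  have hoπ : 0 < o π := by
    by_contra hcon
    push Not at hcon
    have : c * o π ≤ 0 := mul_nonpos_of_nonneg_of_nonpos hc.le hcon
    omega
  have hord₁ : 0 < (w.restrict F).ord f₁ := by
    by_contra hcon
    push Not at hcon
    have : (w.ramificationIndex F : ℤ) * (w.restrict F).ord f₁ ≤ 0 :=
      mul_nonpos_of_nonneg_of_nonpos he.le hcon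
    omega
  have hec : (w.ramificationIndex F : ℤ) = c := by
    have h4 : c * (o π * (w.restrict F).ord f₁) = c * 1 := by
      rw [← mul_assoc, ← h3, h2, mul_one]
    have h5 : o π * (w.restrict F).ord f₁ = 1 := mul_left_cancel₀ hc.ne' h4
    have h6 : o π = 1 := by
      rcases Int.eq_one_or_neg_one_of_mul_eq_one h5 with h | h
      · exact h
      · omega
    rw [h3, h6, mul_one]
  refine ⟨hec, fun f hf => ?_⟩
  have h7 := w.ord_restrict f
  rw [ho f hf, hec] at h7
  exact (mul_left_cancel₀ hc.ne' h7).symm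

/-- three distinct places over the same place: `e₁ + e₂ + 1 ≤ [F' : F]` (all degrees one). -/
theorem add_add_one_le_finrank [HasPrincipalDivisors K F'] [FundamentalIdentity K F F']
    (w w₁ w₂ : Place K F') (h1 : w₁.restrict F = w.restrict F)
    (h2 : w₂.restrict F = w.restrict F) (hne1 : w ≠ w₁) (hne2 : w ≠ w₂) (hne12 : w₁ ≠ w₂)
    (hdeg : ∀ u : Place K F', u.deg = 1) (hdeg' : (w.restrict F).deg = 1) :
    (w₁.ramificationIndex F : ℤ) + (w₂.ramificationIndex F : ℤ) + 1 ≤
      (Module.finrank F F' : ℤ) := by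
  classical
  have hsum := FundamentalIdentity.sum_ramificationIndex_mul_deg (K := K) (F := F)
    (F' := F') (w.restrict F)
  rw [hdeg', Nat.cast_one, mul_one] at hsum
  have hsub : ({w, w₁, w₂} : Finset (Place K F')) ⊆ (w.restrict F).fiber F' := by
    intro u hu
    simp only [Finset.mem_insert, Finset.mem_singleton] at hu
    rw [Place.mem_fiber]
    rcases hu with hu | hu | hu
    · rw [hu]
    · rw [hu]; exact h1
    · rw [hu]; exact h2
  have hle := Finset.sum_le_sum_of_subset_of_nonneg hsub
    (f := fun u : Place K F' => (u.ramificationIndex F : ℤ) * (u.deg : ℤ))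
    (fun u _ _ => mul_nonneg (Nat.cast_nonneg _) (Nat.cast_nonneg _))
  rw [hsum] at hle
  rw [Finset.sum_insert (by
      simp only [Finset.mem_insert, Finset.mem_singleton, not_or]
      exact ⟨hne1, hne2⟩),
    Finset.sum_insert (by
      simp only [Finset.mem_singleton]
      exact hne12),
    Finset.sum_singleton, hdeg, hdeg, hdeg] at hle
  have heP : (0 : ℤ) < (w.ramificationIndex F : ℤ) := by
    exact_mod_cast w.ramificationIndex_pos (F := F)
  simp only [Nat.cast_one, mul_one] at hle
  linarith

end Abstract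

section Modular

variable (N q : ℕ) [NeZero N] [NeZero q] (hq : q.Prime) (hqN : ¬ q ∣ N)

theorem coe_alpha_ne_zero {f : FF N} (hf : f ≠ 0) : heckeAlphaBar Kb N q f ≠ 0 :=
  (map_ne_zero (heckeAlphaBar Kb N q)).mpr hf

/-- **the fibre of `α` over `∞'` is `{∞, ∞₂}`**: if `x ∈ F_N` is regular off `∞'`, then `α x` is
regular off the two cusps `∞`, `∞₂` of `F_{N q}`. -/
theorem ord_alpha_nonneg (x : FF N) (hx : ∀ v : Place Kb (FF N), ¬ IsInfty v → 0 ≤ v.ord x)
    (P : Place Kb (FF (N * q))) (hP : ¬ IsInfty P)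
    (hP2 : ¬ IsInfty2 (atkinLehner N q hq hqN) P) :
    0 ≤ P.ord (heckeAlphaBar Kb N q x) := by
  classical
  letI := algebraAlong (heckeAlphaBar Kb N q)
  haveI := isScalarTower_along (heckeAlphaBar Kb N q)
  haveI := helper77.an_finiteDimensional N
  haveI := helper77.an_finiteDimensional (N * q)
  obtain ⟨hαint, _, hpd, hfin, hFI, _⟩ := Fermat.Agent.P3.helper58.heckeInputs_of_ff
    (heckeAlphaBar Kb N q) (heckeAlphaBar Kb N q) (xJ N) (helper77.an_transcendental N)
    (xJ (N * q)) (helper77.an_transcendental (N * q))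
  haveI : Algebra.IsIntegral (FF N) (FF (N * q)) := isIntegral_along _ hαint
  haveI := hpd
  haveI : FundamentalIdentity Kb (FF N) (FF (N * q)) := hFI
  have hord : P.ord (heckeAlphaBar Kb N q x) =
      (P.ramificationIndex (FF N) : ℤ) * (P.restrict (FF N)).ord x := P.ord_restrict x
  by_cases hvinf : IsInfty (P.restrict (FF N))
  · exfalso
    have hq0 : (0 : ℤ) < q := by exact_mod_cast hq.pos
    -- the two cusps
    have hP1 : IsInfty (inftyBar (N * q)) := isInfty_inftyBar _
    have hP2' : IsInfty2 (atkinLehner N q hq hqN) ((atkinLehner N q hq hqN).symm • inftyBar (N * q)) :=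
      isInfty2_symm_smul _ hP1
    have hj : (jInv N : FF N) ≠ 0 := by
      intro h0
      have := order_jInv N
      rw [h0] at this
      simp at this
    -- restrictions
    have ho1 : ∀ f : FF N, f ≠ 0 → (inftyBar (N * q)).ord (algebraMap (FF N) (FF (N * q)) f) =
        1 * (f : LaurentSeries Kb).order := by
      intro f hf
      rw [one_mul]
      have h2 : algebraMap (FF N) (FF (N * q)) f = heckeAlphaBar Kb N q f := rfl
      rw [h2, hP1 _ (coe_alpha_ne_zero N q hf), coe_heckeAlphaBar]
    have hr1 := restrict_ord_of_mul (K := Kb) (F := FF N) (F' := FF (N * q)) (inftyBar (N * q))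
      1 one_pos (fun f : FF N => (f : LaurentSeries Kb).order) ho1 ⟨jInv N, hj, order_jInv N⟩
    have ho2 : ∀ f : FF N, f ≠ 0 →
        ((atkinLehner N q hq hqN).symm • inftyBar (N * q)).ord
          (algebraMap (FF N) (FF (N * q)) f) = (q : ℤ) * (f : LaurentSeries Kb).order := by
      intro f hf
      have h1 := hP2' _ (coe_alpha_ne_zero N q hf)
      have h2 : algebraMap (FF N) (FF (N * q)) f = heckeAlphaBar Kb N q f := rfl
      rw [h2, h1, atkinLehner_heckeAlphaBar, coe_heckeBetaBar]
      exact order_qExpand q (coe_ne_zero' hf)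
    have hr2 := restrict_ord_of_mul (K := Kb) (F := FF N) (F' := FF (N * q))
      ((atkinLehner N q hq hqN).symm • inftyBar (N * q)) q hq0
      (fun f : FF N => (f : LaurentSeries Kb).order) ho2 ⟨jInv N, hj, order_jInv N⟩
    have e1 : (inftyBar (N * q)).restrict (FF N) = P.restrict (FF N) :=
      IsInfty.unique (FF N) (fun f hf => hr1.2 f hf) hvinf
    have e2 : ((atkinLehner N q hq hqN).symm • inftyBar (N * q)).restrict (FF N) =
        P.restrict (FF N) :=
      IsInfty.unique (FF N) (fun f hf => hr2.2 f hf) hvinf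
    -- distinctness
    have hne1 : P ≠ inftyBar (N * q) := fun h => hP (h ▸ hP1)
    have hne2 : P ≠ (atkinLehner N q hq hqN).symm • inftyBar (N * q) := fun h => hP2 (h ▸ hP2')
    have hne12 : inftyBar (N * q) ≠ (atkinLehner N q hq hqN).symm • inftyBar (N * q) := by
      intro h
      have h1 := hr1.1
      have h2 := hr2.1
      rw [← h] at h2
      have : (1 : ℤ) = q := h1.symm.trans h2
      have := hq.one_lt
      omega
    -- the fundamental identity
    have hdeg : ∀ w : Place Kb (FF (N * q)), w.deg = 1 := fun w =>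
      helper82.ff_deg_eq_one (xJ (N * q)) (helper77.an_transcendental (N * q)) w
    have hdeg' : (P.restrict (FF N)).deg = 1 :=
      helper82.ff_deg_eq_one (xJ N) (helper77.an_transcendental N) _
    have hfr : Module.finrank (FF N) (FF (N * q)) = q + 1 :=
      Fermat.Agent.P2.helper93.finrank_alpha N q hq hqN
    have hle := add_add_one_le_finrank (K := Kb) (F := FF N) (F' := FF (N * q)) P
      (inftyBar (N * q)) ((atkinLehner N q hq hqN).symm • inftyBar (N * q)) e1 e2 hne1 hne2
      hne12 hdeg hdeg'
    rw [hr1.1, hr2.1, hfr] at hle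
    push_cast at hle
    linarith
  · rw [hord]
    exact mul_nonneg (Nat.cast_nonneg _) (hx _ hvinf)

/-- `α x` is regular off the two cusps if `x` is regular off `∞'`. -/
theorem isReg2_alpha {x : LaurentSeries Kb} {m : ℤ} (hx : InL (FF N) m x) :
    IsReg2 (atkinLehner N q hq hqN) (⟨x, mem_FF_mul N q hx.1⟩ : FF (N * q)) := by
  intro P hP hP2
  obtain ⟨hxF, hreg, -⟩ := hx
  have h := ord_alpha_nonneg N q hq hqN ⟨x, hxF⟩ hreg P hP hP2
  have e : heckeAlphaBar Kb N q ⟨x, hxF⟩ = (⟨x, mem_FF_mul N q hxF⟩ : FF (N * q)) :=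
    Subtype.ext rfl
  rwa [e] at h

/-- `β x` is regular off the two cusps if `x` is regular off `∞'`. -/
theorem isReg2_beta {x : LaurentSeries Kb} {m : ℤ} (hx : InL (FF N) m x) :
    IsReg2 (atkinLehner N q hq hqN)
      (⟨qExpand Kb q x, qExpand_mem_FF_mul N q hx.1⟩ : FF (N * q)) := by
  rw [← atkinLehner_alpha N q hq hqN hx.1]
  exact (isReg2_alpha N q hq hqN hx).map (atkinLehner_atkinLehner N q hq hqN)

end Modular

end Fermat.Agent.T2.helper96

end
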