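/-
T2-SAT (helper96), part 2: saturation by peeling of polar parts.

* `HasPeelers M A W a₀` : for every `a ≥ a₀` there is a function `E`, regular off the two cusps,
  with integral pair of expansions `(E₁, E₂)`, `E₁ = t^(-a) + …` and `E₂` of pole order `< a`.
* `sat2_of_hasPeelers` : `HasPeelers → Sat2Statement` (helper22's shape).
* `ExactPole N A m₀` : for every `m ≥ m₀` there is an integral series `X = t^(-m) + …` in
  `L(m ∞)` at level `N`.
* `hasPeelers_of_exactPole` : peelers `α(x_i) β(x_j)` at level `N q`.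
* `exactPole_of_surjRed` : exact-pole elements from P2 (`SurjRedStatement N A`).
* `sat2` : **[T2-SAT]** `SurjRedStatement N A → Sat2Statement (N * q) A W`.
-/
import Mathlib
import Fermat.Agent.T2.helper96_SatPlaces
import Fermat.Agent.P2.helper96_Gen
import Fermat.Agent.P2.helper95_FFlInst

set_option autoImplicit false
set_option synthInstance.maxHeartbeats 400000
set_option maxHeartbeats 1000000
set_option linter.style.haveILetI false
set_option linter.unusedSectionVars false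

noncomputable section

open HahnSeries IntermediateField ModularCurve AlgebraicCurve
open Fermat.Agent.S18.helper19 Fermat.Agent.P2.helper29 Fermat.Agent.T2.helper36
open Fermat.Agent.T2.helper22 Fermat.Agent.S24

namespace Fermat.Agent.T2.helper96

/-! ### Abstract peeling -/

section Peel

variable {M : ℕ} [NeZero M] {A : ValuationSubring Kb} {W : FF M ≃ₐ[Kb] FF M}

/-- peelers: for every `a ≥ a₀` a function regular off the two cusps with integral pair of
expansions `(t^(-a) + …, pole order < a)`. -/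
def HasPeelers (M : ℕ) [NeZero M] (A : ValuationSubring Kb) (W : FF M ≃ₐ[Kb] FF M) (a₀ : ℤ) :
    Prop :=
  ∀ a : ℤ, a₀ ≤ a → ∃ (E : FF M) (E₁ E₂ : LaurentSeries A), IsReg2 W E ∧ IsRep A W E E₁ E₂ ∧
    E₁.coeff (-a) = 1 ∧ (∀ k : ℤ, k < -a → E₁.coeff k = 0) ∧ (∀ k : ℤ, k ≤ -a → E₂.coeff k = 0)

theorem IsRep.sub' {f g : FF M} {Y₁ Y₂ Z₁ Z₂ : LaurentSeries A} (hf : IsRep A W f Y₁ Y₂)
    (hg : IsRep A W g Z₁ Z₂) : IsRep A W (f - g) (Y₁ - Z₁) (Y₂ - Z₂) := by
  refine ⟨?_, ?_⟩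
  · rw [map_sub, hf.1, hg.1]; rfl
  · rw [map_sub, map_sub, hf.2, hg.2]; rfl

theorem coeff_C_mul (c : A) (Y : LaurentSeries A) (k : ℤ) :
    (HahnSeries.C c * Y).coeff k = c * Y.coeff k := by
  rw [HahnSeries.C_mul_eq_smul, HahnSeries.coeff_smul, smul_eq_mul]

theorem red_C_mul_of_residue_eq_zero {c : A} (hc : IsLocalRing.residue A c = 0)
    (Y : LaurentSeries A) : red A (HahnSeries.C c * Y) = 0 := by
  rw [map_mul, helper22.red_C, hc, map_zero, zero_mul]

/-- one peeling step -/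
theorem peel_step (hWW : ∀ f, W (W f) = f) {a₀ : ℤ} (h : HasPeelers M A W a₀) (a : ℤ)
    (ha : a₀ ≤ a) (f : FF M) (Y₁ Y₂ : LaurentSeries A) (hf : IsReg2 W f)
    (hY : IsRep A W f Y₁ Y₂) (h1 : ∀ k : ℤ, k < -a → Y₁.coeff k = 0)
    (h2 : ∀ k : ℤ, k < -a → Y₂.coeff k = 0)
    (hr1 : (red A Y₁).coeff (-a) = 0) (hr2 : (red A Y₂).coeff (-a) = 0) :
    ∃ (f' : FF M) (Z₁ Z₂ : LaurentSeries A), IsReg2 W f' ∧ IsRep A W f' Z₁ Z₂ ∧
      (∀ k : ℤ, k < -(a - 1) → Z₁.coeff k = 0) ∧ (∀ k : ℤ, k < -(a - 1) → Z₂.coeff k = 0) ∧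
      red A Z₁ = red A Y₁ ∧ red A Z₂ = red A Y₂ := by
  obtain ⟨E, E₁, E₂, hE, hEr, hE1, hE1', hE2⟩ := h a ha
  set c₁ : A := Y₁.coeff (-a) with hc₁
  set c₂ : A := Y₂.coeff (-a) with hc₂
  have hc₁0 : IsLocalRing.residue A c₁ = 0 := by
    rw [← hr1, coeffMap_coeff]
  have hc₂0 : IsLocalRing.residue A c₂ = 0 := by
    rw [← hr2, coeffMap_coeff]
  refine ⟨f - algebraMap Kb (FF M) (c₁ : Kb) * E - algebraMap Kb (FF M) (c₂ : Kb) * W E,
    Y₁ - HahnSeries.C c₁ * E₁ - HahnSeries.C c₂ * E₂,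
    Y₂ - HahnSeries.C c₁ * E₂ - HahnSeries.C c₂ * E₁, ?_, ?_, ?_, ?_, ?_, ?_⟩
  · exact (hf.sub ((isReg2_algebraMap _).mul hE)).sub
      ((isReg2_algebraMap _).mul (hE.map hWW))
  · exact IsRep.sub' (IsRep.sub' hY ((isRep_algebraMap c₁).mul hEr))
      ((isRep_algebraMap c₂).mul (hEr.swap hWW))
  · intro k hk
    rw [HahnSeries.coeff_sub, HahnSeries.coeff_sub, coeff_C_mul, coeff_C_mul]
    rcases (show k < -a ∨ k = -a by omega) with hlt | rfl
    · rw [h1 k hlt, hE1' k hlt, hE2 k hlt.le]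
      ring
    · rw [hE1, hE2 (-a) le_rfl]
      ring
  · intro k hk
    rw [HahnSeries.coeff_sub, HahnSeries.coeff_sub, coeff_C_mul, coeff_C_mul]
    rcases (show k < -a ∨ k = -a by omega) with hlt | rfl
    · rw [h2 k hlt, hE1' k hlt, hE2 k hlt.le]
      ring
    · rw [hE1, hE2 (-a) le_rfl]
      ring
  · rw [map_sub, map_sub, red_C_mul_of_residue_eq_zero hc₁0, red_C_mul_of_residue_eq_zero hc₂0,
      sub_zero, sub_zero]
  · rw [map_sub, map_sub, red_C_mul_of_residue_eq_zero hc₁0, red_C_mul_of_residue_eq_zero hc₂0,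
      sub_zero, sub_zero]

/-- iterated peeling -/
theorem peel_iter (hWW : ∀ f, W (W f) = f) {a₀ : ℤ} (h : HasPeelers M A W a₀) (N : ℤ)
    (hN : a₀ ≤ N) (n : ℕ) :
    ∀ (f : FF M) (Y₁ Y₂ : LaurentSeries A), IsReg2 W f → IsRep A W f Y₁ Y₂ →
      (∀ k : ℤ, k < -(N + n) → Y₁.coeff k = 0) → (∀ k : ℤ, k < -(N + n) → Y₂.coeff k = 0) →
      (∀ k : ℤ, k < -N → (red A Y₁).coeff k = 0) → (∀ k : ℤ, k < -N → (red A Y₂).coeff k = 0) →
      ∃ (f' : FF M) (Z₁ Z₂ : LaurentSeries A), IsReg2 W f' ∧ IsRep A W f' Z₁ Z₂ ∧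
        (∀ k : ℤ, k < -N → Z₁.coeff k = 0) ∧ (∀ k : ℤ, k < -N → Z₂.coeff k = 0) ∧
        red A Z₁ = red A Y₁ ∧ red A Z₂ = red A Y₂ := by
  induction n with
  | zero =>
    intro f Y₁ Y₂ hf hY h1 h2 _ _
    refine ⟨f, Y₁, Y₂, hf, hY, ?_, ?_, rfl, rfl⟩
    · intro k hk
      exact h1 k (by simpa using hk)
    · intro k hk
      exact h2 k (by simpa using hk)
  | succ n ih =>
    intro f Y₁ Y₂ hf hY h1 h2 hr1 hr2
    have ha : a₀ ≤ N + (n + 1 : ℕ) := by
      have : (0 : ℤ) ≤ ((n + 1 : ℕ) : ℤ) := Nat.cast_nonneg _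
      omega
    have hlt : -(N + (n + 1 : ℕ)) < -N := by
      have : (0 : ℤ) < ((n + 1 : ℕ) : ℤ) := by exact_mod_cast Nat.succ_pos n
      omega
    obtain ⟨f', Z₁, Z₂, hf', hZ, hz1, hz2, e1, e2⟩ := peel_step hWW h (N + (n + 1 : ℕ)) ha f
      Y₁ Y₂ hf hY h1 h2 (hr1 _ hlt) (hr2 _ hlt)
    have e : N + ((n + 1 : ℕ) : ℤ) - 1 = N + (n : ℤ) := by push_cast; ring
    rw [e] at hz1 hz2
    obtain ⟨f'', U₁, U₂, hf'', hU, hu1, hu2, e1', e2'⟩ := ih f' Z₁ Z₂ hf' hZ hz1 hz2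
      (by rw [e1]; exact hr1) (by rw [e2]; exact hr2)
    exact ⟨f'', U₁, U₂, hf'', hU, hu1, hu2, e1'.trans e1, e2'.trans e2⟩

/-- **saturation from peelers** -/
theorem sat2_of_hasPeelers (hWW : ∀ f, W (W f) = f) {a₀ : ℤ} (h : HasPeelers M A W a₀) :
    Sat2Statement M A W := by
  refine ⟨a₀, fun N hN f Y₁ Y₂ hf hY hr1 hr2 => ?_⟩
  -- a bound for the pole orders
  set n : ℕ := (max (-Y₁.order - N) (-Y₂.order - N)).toNat with hn
  have hn1 : -Y₁.order - N ≤ n := by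
    rw [hn]
    exact le_trans (le_max_left _ _) (Int.self_le_toNat _)
  have hn2 : -Y₂.order - N ≤ n := by
    rw [hn]
    exact le_trans (le_max_right _ _) (Int.self_le_toNat _)
  refine peel_iter hWW h N hN n f Y₁ Y₂ hf hY ?_ ?_ hr1 hr2
  · intro k hk
    exact HahnSeries.coeff_eq_zero_of_lt_order (by omega)
  · intro k hk
    exact HahnSeries.coeff_eq_zero_of_lt_order (by omega)

end Peel

/-! ### Series with exact pole order -/

section Exact

variable {A : ValuationSubring Kb}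

/-- `X = t^(-m) + (higher terms)` -/
def IsMonicAt (X : LaurentSeries A) (m : ℤ) : Prop :=
  X.coeff (-m) = 1 ∧ ∀ k : ℤ, k < -m → X.coeff k = 0

theorem IsMonicAt.ne_zero {X : LaurentSeries A} {m : ℤ} (h : IsMonicAt X m) : X ≠ 0 := by
  intro h0
  have := h.1
  rw [h0, HahnSeries.coeff_zero] at this
  exact zero_ne_one this

theorem IsMonicAt.order_eq {X : LaurentSeries A} {m : ℤ} (h : IsMonicAt X m) : X.order = -m :=
  Fermat.Agent.S28.helper81.order_eq_of_coeff X (-m) (by rw [h.1]; exact one_ne_zero) h.2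

theorem IsMonicAt.leadingCoeff_eq {X : LaurentSeries A} {m : ℤ} (h : IsMonicAt X m) :
    X.leadingCoeff = 1 := by
  rw [HahnSeries.leadingCoeff_eq, h.order_eq, h.1]

theorem IsMonicAt.mul {X Y : LaurentSeries A} {m n : ℤ} (hX : IsMonicAt X m)
    (hY : IsMonicAt Y n) : IsMonicAt (X * Y) (m + n) := by
  have h1 : (X * Y).coeff (-(m + n)) = 1 := by
    have := HahnSeries.coeff_mul_order_add_order X Y
    rw [hX.order_eq, hY.order_eq, hX.leadingCoeff_eq, hY.leadingCoeff_eq, mul_one] at this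
    rw [neg_add]
    exact this
  have hne : X * Y ≠ 0 := by
    intro h0
    rw [h0, HahnSeries.coeff_zero] at h1
    exact zero_ne_one h1
  refine ⟨h1, fun k hk => ?_⟩
  apply HahnSeries.coeff_eq_zero_of_lt_order
  rw [HahnSeries.order_mul hX.ne_zero hY.ne_zero, hX.order_eq, hY.order_eq]
  omega

theorem IsMonicAt.qExpand (q : ℕ) [NeZero q] {X : LaurentSeries A} {m : ℤ}
    (hX : IsMonicAt X m) : IsMonicAt (qExpand A q X) ((q : ℤ) * m) := by
  refine ⟨?_, fun k hk => ?_⟩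
  · rw [show -((q : ℤ) * m) = (q : ℤ) * (-m) by ring, qExpand_coeff_mul, hX.1]
  · by_cases hd : (q : ℤ) ∣ k
    · obtain ⟨k', rfl⟩ := hd
      rw [qExpand_coeff_mul]
      apply hX.2
      have hq0 : (0 : ℤ) < q := by exact_mod_cast Nat.pos_of_ne_zero (NeZero.ne q)
      have : (q : ℤ) * k' < (q : ℤ) * (-m) := by linarith
      exact lt_of_mul_lt_mul_left this hq0.le
    · exact qExpand_coeff_of_not_dvd q X hd

theorem incl_injective' : Function.Injective (incl A) := by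
  intro x y hxy
  ext n
  have := congrArg (fun z => z.coeff n) hxy
  simp only [coeffMap_coeff] at this
  exact this

theorem isMonicAt_of_inL {N : ℕ} {X : LaurentSeries A} {m : ℤ} (h : InL (FF N) m (incl A X))
    (h1 : X.coeff (-m) = 1) : IsMonicAt X m := by
  refine ⟨h1, fun k hk => ?_⟩
  have := h.2.2 k hk
  rw [coeffMap_coeff] at this
  exact Subtype.ext this

end Exact

/-! ### Peelers at level `N q` -/

section Peelers

variable (N q : ℕ) [NeZero N] [NeZero q] (hq : q.Prime) (hqN : ¬ q ∣ N) (A : ValuationSubring Kb)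

/-- for every `m ≥ m₀` there is an integral series `X = t^(-m) + …` in `L(m ∞)` at level `N`. -/
def ExactPole (N : ℕ) [NeZero N] (A : ValuationSubring Kb) (m₀ : ℕ) : Prop :=
  ∀ m : ℕ, m₀ ≤ m → ∃ X : LaurentSeries A, InL (FF N) m (incl A X) ∧ X.coeff (-(m : ℤ)) = 1

/-- the peeler `α(x_i) β(x_j)` -/
theorem exists_peeler {i j : ℕ} (hij : i < j) {Xi Xj : LaurentSeries A}
    (hXi : InL (FF N) i (incl A Xi)) (hXi1 : Xi.coeff (-(i : ℤ)) = 1)
    (hXj : InL (FF N) j (incl A Xj)) (hXj1 : Xj.coeff (-(j : ℤ)) = 1) :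
    ∃ (E : FF (N * q)) (E₁ E₂ : LaurentSeries A), IsReg2 (atkinLehner N q hq hqN) E ∧
      IsRep A (atkinLehner N q hq hqN) E E₁ E₂ ∧
      E₁.coeff (-((i : ℤ) + q * j)) = 1 ∧ (∀ k : ℤ, k < -((i : ℤ) + q * j) → E₁.coeff k = 0) ∧
      (∀ k : ℤ, k ≤ -((i : ℤ) + q * j) → E₂.coeff k = 0) := by
  have hmi : IsMonicAt Xi i := isMonicAt_of_inL hXi hXi1
  have hmj : IsMonicAt Xj j := isMonicAt_of_inL hXj hXj1
  have hE1 : IsMonicAt (Xi * qExpand A q Xj) ((i : ℤ) + q * j) := hmi.mul (hmj.qExpand q)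
  have hE2 : IsMonicAt (qExpand A q Xi * Xj) ((q : ℤ) * i + j) := (hmi.qExpand q).mul hmj
  refine ⟨(⟨incl A Xi, mem_FF_mul N q hXi.1⟩ : FF (N * q)) *
      ⟨qExpand Kb q (incl A Xj), qExpand_mem_FF_mul N q hXj.1⟩,
    Xi * qExpand A q Xj, qExpand A q Xi * Xj, ?_, ⟨?_, ?_⟩, hE1.1, hE1.2, ?_⟩
  · exact (isReg2_alpha N q hq hqN hXi).mul (isReg2_beta N q hq hqN hXj)
  · rw [map_mul, incl_qExpand]
    rfl
  · have hW : atkinLehner N q hq hqN ((⟨incl A Xi, mem_FF_mul N q hXi.1⟩ : FF (N * q)) *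
        ⟨qExpand Kb q (incl A Xj), qExpand_mem_FF_mul N q hXj.1⟩) =
        (⟨qExpand Kb q (incl A Xi), qExpand_mem_FF_mul N q hXi.1⟩ : FF (N * q)) *
          ⟨incl A Xj, mem_FF_mul N q hXj.1⟩ := by
      rw [map_mul, atkinLehner_alpha N q hq hqN hXi.1, atkinLehner_beta N q hq hqN hXj.1]
    rw [hW, map_mul, incl_qExpand]
    rfl
  · intro k hk
    apply hE2.2
    have hq2 : (2 : ℤ) ≤ q := by exact_mod_cast hq.two_le
    have hij' : (i : ℤ) + 1 ≤ j := by exact_mod_cast hij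
    nlinarith

/-- peelers from exact-pole elements at level `N` -/
theorem hasPeelers_of_exactPole {m₀ : ℕ} (hE : ExactPole N A m₀) :
    HasPeelers (N * q) A (atkinLehner N q hq hqN) (((q + 1) * (m₀ + q) : ℕ) : ℤ) := by
  intro a ha
  have ha0 : 0 ≤ a := le_trans (Nat.cast_nonneg _) ha
  obtain ⟨a', rfl⟩ := Int.eq_ofNat_of_zero_le ha0
  have ha' : (q + 1) * (m₀ + q) ≤ a' := by exact_mod_cast ha
  have hq0 : 0 < q := hq.pos
  have hm₀a : m₀ ≤ a' := by nlinarith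
  have key := Nat.mod_add_div (a' - m₀) q
  have hr_lt : (a' - m₀) % q < q := Nat.mod_lt _ hq0
  have hjge : m₀ + q + 1 ≤ (a' - m₀) / q := by
    rw [Nat.le_div_iff_mul_le hq0]
    have : (m₀ + q + 1) * q + m₀ ≤ a' := by nlinarith
    omega
  generalize (a' - m₀) % q = r at key hr_lt
  generalize (a' - m₀) / q = j at key hjge
  obtain ⟨i, hi⟩ : ∃ i : ℕ, i = m₀ + r := ⟨_, rfl⟩
  have hij_sum : i + q * j = a' := by omega
  obtain ⟨Xi, hXi, hXi1⟩ := hE i (by omega)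
  obtain ⟨Xj, hXj, hXj1⟩ := hE j (by omega)
  obtain ⟨E, E₁, E₂, h1, h2, h3, h4, h5⟩ := exists_peeler N q hq hqN A (show i < j by omega)
    hXi hXi1 hXj hXj1
  have e : ((i : ℤ) + q * j) = (a' : ℤ) := by exact_mod_cast hij_sum
  rw [e] at h3 h4 h5
  exact ⟨E, E₁, E₂, h1, h2, h3, h4, h5⟩

end Peelers

/-! ### Exact-pole elements from P2 -/

section FromP2

open Fermat.Agent.P2.helper96

variable (N q : ℕ) [NeZero N] [NeZero q] (hq : q.Prime) (hqN : ¬ q ∣ N) (A : ValuationSubring Kb)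

/-- on the special fibre there is, for large `m`, a function of exact pole order `m` at infinity
which is regular elsewhere. -/
theorem exists_exact_bar :
    ∃ cb : ℤ, ∀ m : ℤ, cb ≤ m → ∃ y : LaurentSeries (kA A), InL (FFb A N) m y ∧
      y.coeff (-m) ≠ 0 := by
  have hSb : Fermat.Agent.P2.helper74.RiemannSetting (kA A) (FFb A N) :=
    Fermat.Agent.P2.helper95.riemannSetting_FFb N A
  obtain ⟨gb, hgb⟩ : RiemannBarStatement N A := Fermat.Agent.P2.helper95.riemannBar N A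
  have hQ : IsInfty (inftyC (kA A) N) := isInfty_inftyC (kA A) N
  obtain ⟨cb, hcb⟩ := exists_finrank_LSub hSb hgb (inftyC (kA A) N)
  refine ⟨cb + 1, fun m hm => ?_⟩
  by_contra hcon
  push Not at hcon
  have h1 := hcb m (by omega)
  have h2 := hcb (m - 1) (by omega)
  have hle : LSub (inftyC (kA A) N) m ≤ LSub (inftyC (kA A) N) (m - 1) := by
    intro y hy
    rw [mem_LSub_iff hQ] at hy ⊢
    refine ⟨hy.1, hy.2.1, fun k hk => ?_⟩
    rcases (show k < -m ∨ k = -m by omega) with hlt | rfl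
    · exact hy.2.2 k hlt
    · exact hcon y hy
  haveI := finite_LSub hSb (inftyC (kA A) N) (m - 1)
  have hfr := Submodule.finrank_mono hle
  omega

/-- **exact-pole elements at level `N`** from `SurjRedStatement N A`. -/
theorem exactPole_of_surjRed (hS : SurjRedStatement N A) : ∃ m₀ : ℕ, ExactPole N A m₀ := by
  obtain ⟨c, hc⟩ := hS
  obtain ⟨cb, hcb⟩ := exists_exact_bar N A
  refine ⟨(max c cb).toNat, fun m hm => ?_⟩
  have hm' : max c cb ≤ (m : ℤ) := by
    have := Int.self_le_toNat (max c cb)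
    have h2 : ((max c cb).toNat : ℤ) ≤ (m : ℤ) := by exact_mod_cast hm
    omega
  obtain ⟨y, hy, hy0⟩ := hcb m (le_trans (le_max_right _ _) hm')
  obtain ⟨Y, hY, hYy⟩ := hc m (le_trans (le_max_left _ _) hm') y hy
  have hres : IsLocalRing.residue A (Y.coeff (-(m : ℤ))) ≠ 0 := by
    have : (red A Y).coeff (-(m : ℤ)) = y.coeff (-(m : ℤ)) := by rw [hYy]
    rw [coeffMap_coeff] at this
    rw [this]
    exact hy0
  obtain ⟨u, hu⟩ := isUnit_of_residue_ne_zero (Y.coeff (-(m : ℤ))) hres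
  refine ⟨HahnSeries.C ((u⁻¹ : (↥A)ˣ) : ↥A) * Y, ?_, ?_⟩
  · have e : incl A (HahnSeries.C ((u⁻¹ : (↥A)ˣ) : ↥A) * Y) =
        algebraMap Kb (LaurentSeries Kb) ((((u⁻¹ : (↥A)ˣ) : ↥A) : Kb)) * incl A Y := by
      rw [map_mul]
      congr 1
      rw [algebraMap_laurentSeries_eq_single]
      exact coeffMap_single A.subtype 0 _
    rw [e]
    exact hY.smul _
  · rw [coeff_C_mul, ← hu]
    exact u.inv_mul

/-- **[T2-SAT]** saturation at level `N q` (Atkin–Lehner pair of cusps) from `SurjRed` at level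
`N`, in helper22's shape. -/
theorem sat2 (hS : SurjRedStatement N A) :
    Sat2Statement (N * q) A (atkinLehner N q hq hqN) := by
  obtain ⟨m₀, hE⟩ := exactPole_of_surjRed N A hS
  exact sat2_of_hasPeelers (atkinLehner_atkinLehner N q hq hqN)
    (hasPeelers_of_exactPole N q hq hqN A hE)

end FromP2

end Fermat.Agent.T2.helper96

end
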