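/-
TIER 2, abstract valuation theory for [T2-VAL] (helper51), Mathlib only.

`L / K` a finite (or algebraic) field extension, `V` a valuation subring of `K`,
`W` valuation subrings of `L` lying over `V` (`W.comap (algebraMap K L) = V`).

* `eq_of_le_of_liesOver` : two extensions of `V` to an algebraic extension are incomparable.
-/
import Mathlib

set_option autoImplicit false

namespace Fermat.Agent.T2.helper51

open Polynomial

noncomputable section

variable {K L : Type*} [Field K] [Field L] [Algebra K L]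

/-- `W` lies over `V` -/
def LiesOverVS (V : ValuationSubring K) (W : ValuationSubring L) : Prop :=
  W.comap (algebraMap K L) = V

lemma LiesOverVS.mem_iff {V : ValuationSubring K} {W : ValuationSubring L}
    (h : LiesOverVS V W) (a : K) : algebraMap K L a ∈ W ↔ a ∈ V := by
  rw [← h, ValuationSubring.mem_comap]

lemma LiesOverVS.mem_nonunits_iff {V : ValuationSubring K} {W : ValuationSubring L}
    (h : LiesOverVS V W) (a : K) : algebraMap K L a ∈ W.nonunits ↔ a ∈ V.nonunits := by
  rw [ValuationSubring.mem_nonunits_iff_or, ValuationSubring.mem_nonunits_iff_or, ← map_inv₀,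
    h.mem_iff, map_eq_zero]

lemma mul_mem_nonunits_of_mem {W : ValuationSubring L} {a b : L} (ha : a ∈ W)
    (hb : b ∈ W.nonunits) : a * b ∈ W.nonunits := by
  rw [ValuationSubring.mem_nonunits_iff] at hb ⊢
  rw [map_mul]
  have h1 : W.valuation a ≤ 1 := (W.valuation_le_one_iff a).2 ha
  calc W.valuation a * W.valuation b ≤ 1 * W.valuation b := by gcongr
    _ = W.valuation b := one_mul _
    _ < 1 := hb

lemma pow_mem_nonunits {W : ValuationSubring L} {b : L} (hb : b ∈ W.nonunits) {n : ℕ}
    (hn : n ≠ 0) : b ^ n ∈ W.nonunits := by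
  rw [ValuationSubring.mem_nonunits_iff] at hb ⊢
  rw [map_pow]
  exact pow_lt_one₀ zero_le hb hn

lemma sum_mem_nonunits {W : ValuationSubring L} {ι : Type*} (s : Finset ι) (f : ι → L)
    (h : ∀ i ∈ s, f i ∈ W.nonunits) : ∑ i ∈ s, f i ∈ W.nonunits :=
  W.nonunits.sum_mem h

/-- **Incomparability**: two valuation subrings of an algebraic extension lying over the same
valuation subring and contained in each other are equal. -/
theorem eq_of_le_of_liesOver [Algebra.IsAlgebraic K L] {V : ValuationSubring K}
    {W₁ W₂ : ValuationSubring L} (h₁ : LiesOverVS V W₁) (h₂ : LiesOverVS V W₂)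
    (hle : W₁ ≤ W₂) : W₁ = W₂ := by
  classical
  refine le_antisymm hle fun x hx2 => ?_
  by_contra hx1
  have hx0 : x ≠ 0 := fun h => hx1 (h ▸ W₁.zero_mem)
  -- `y = x⁻¹` is a nonunit of `W₁`
  set y : L := x⁻¹ with hy
  have hy0 : y ≠ 0 := inv_ne_zero hx0
  have hy1 : y ∈ W₁.nonunits := W₁.inv_mem_nonunits_iff.2 (Or.inr hx1)
  have hyx : y * x = 1 := inv_mul_cancel₀ hx0
  have hyint : IsIntegral K y := (Algebra.IsAlgebraic.isAlgebraic y).isIntegral
  set p := minpoly K y with hp
  have hmonic : p.Monic := minpoly.monic hyint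
  set S := Finset.range (p.natDegree + 1) with hS
  have hsum : ∑ t ∈ S, algebraMap K L (p.coeff t) * y ^ t = 0 := by
    have := minpoly.aeval K y
    rw [aeval_eq_sum_range] at this
    simpa [Algebra.smul_def] using this
  -- a coefficient of maximal valuation
  obtain ⟨ts, hts, hmax⟩ := Finset.exists_max_image S (fun t => V.valuation (p.coeff t))
    ⟨0, Finset.mem_range.2 (Nat.succ_pos _)⟩
  have hdS : p.natDegree ∈ S := Finset.mem_range.2 (Nat.lt_succ_self _)
  have hcs : p.coeff ts ≠ 0 := by
    intro h0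
    have := hmax _ hdS
    rw [h0, map_zero, coeff_natDegree, hmonic.leadingCoeff, map_one] at this
    exact absurd this (by simp)
  -- normalised coefficients
  set a : ℕ → K := fun t => p.coeff t / p.coeff ts with ha
  have haV : ∀ t ∈ S, a t ∈ V := by
    intro t ht
    rw [← V.valuation_le_one_iff, ha, map_div₀]
    exact div_le_one_of_le₀ (hmax t ht) zero_le
  have hats : a ts = 1 := div_self hcs
  have hsum' : ∑ t ∈ S, algebraMap K L (a t) * y ^ t = 0 := by
    have hc : algebraMap K L (p.coeff ts) ≠ 0 := (_root_.map_ne_zero _).2 hcs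
    have : ∑ t ∈ S, algebraMap K L (a t) * y ^ t =
        (algebraMap K L (p.coeff ts))⁻¹ * ∑ t ∈ S, algebraMap K L (p.coeff t) * y ^ t := by
      rw [Finset.mul_sum]
      refine Finset.sum_congr rfl fun t _ => ?_
      rw [ha, map_div₀]
      field_simp
    rw [this, hsum, mul_zero]
  -- the first index with a unit coefficient
  have hex : ∃ t, t ∈ S ∧ a t ∉ V.nonunits := ⟨ts, hts, by
    rw [hats, ValuationSubring.mem_nonunits_iff, map_one]; exact lt_irrefl _⟩
  set t₀ := Nat.find hex with ht₀
  obtain ⟨ht₀S, hat₀⟩ := Nat.find_spec hex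
  have hmin : ∀ t, t ∈ S → t < t₀ → a t ∈ V.nonunits := by
    intro t htS hlt
    by_contra hcon
    exact Nat.find_min hex hlt ⟨htS, hcon⟩
  -- multiply the relation by `x ^ t₀`
  have hrel : ∑ t ∈ S, algebraMap K L (a t) * y ^ t * x ^ t₀ = 0 := by
    rw [← Finset.sum_mul, hsum', zero_mul]
  have hyxpow : ∀ n : ℕ, y ^ n * x ^ n = 1 := fun n => by rw [← mul_pow, hyx, one_pow]
  rw [← Finset.add_sum_erase S _ ht₀S] at hrel
  have hmain : algebraMap K L (a t₀) * y ^ t₀ * x ^ t₀ = algebraMap K L (a t₀) := by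
    rw [mul_assoc, hyxpow, mul_one]
  have hrest : ∑ t ∈ S.erase t₀, algebraMap K L (a t) * y ^ t * x ^ t₀ ∈ W₁.nonunits := by
    refine sum_mem_nonunits _ _ fun t ht => ?_
    obtain ⟨hne, htS⟩ := Finset.mem_erase.1 ht
    rcases lt_or_gt_of_ne hne with hlt | hgt
    · -- `t < t₀`
      have h1 : algebraMap K L (a t) ∈ W₂.nonunits :=
        (h₂.mem_nonunits_iff _).2 (hmin t htS hlt)
      have h2 : y ^ t * x ^ t₀ = x ^ (t₀ - t) := by
        have : x ^ t₀ = x ^ t * x ^ (t₀ - t) := by
          rw [← pow_add, Nat.add_sub_cancel' hlt.le]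
        rw [this, ← mul_assoc, hyxpow, one_mul]
      have h3 : x ^ (t₀ - t) ∈ W₂ := W₂.pow_mem hx2 _
      have h4 : x ^ (t₀ - t) * algebraMap K L (a t) ∈ W₂.nonunits :=
        mul_mem_nonunits_of_mem h3 h1
      have h5 : algebraMap K L (a t) * y ^ t * x ^ t₀ = x ^ (t₀ - t) * algebraMap K L (a t) := by
        rw [mul_assoc, h2, mul_comm]
      rw [h5]
      exact (ValuationSubring.nonunits_le_nonunits.2 hle) h4
    · -- `t₀ < t`
      have h1 : algebraMap K L (a t) ∈ W₁ := (h₁.mem_iff _).2 (haV t htS)
      have h2 : y ^ t * x ^ t₀ = y ^ (t - t₀) := by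
        have : y ^ t = y ^ (t - t₀) * y ^ t₀ := by
          rw [← pow_add, Nat.sub_add_cancel hgt.le]
        rw [this, mul_assoc, hyxpow, mul_one]
      have h3 : y ^ (t - t₀) ∈ W₁.nonunits := pow_mem_nonunits hy1 (by omega)
      rw [mul_assoc, h2]
      exact mul_mem_nonunits_of_mem h1 h3
  rw [hmain] at hrel
  have hfin : algebraMap K L (a t₀) ∈ W₁.nonunits := by
    have : algebraMap K L (a t₀) =
        -∑ t ∈ S.erase t₀, algebraMap K L (a t) * y ^ t * x ^ t₀ :=
      eq_neg_of_add_eq_zero_left hrel
    rw [this]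
    exact W₁.nonunits.neg_mem hrest
  exact hat₀ ((h₁.mem_nonunits_iff _).1 hfin)

/-! ### The key lemma (Matsumura, Theorem 12.2) -/

section KeyLemma

open Finset

/-- geometric sums of an element outside a valuation ring -/
lemma valuation_geom_sum_of_notMem (W : ValuationSubring L) {a : L} (ha : a ∉ W) (n : ℕ) :
    W.valuation (∑ t ∈ range (n + 1), a ^ t) = W.valuation a ^ n := by
  have h1 : 1 < W.valuation a := by
    by_contra h
    exact ha ((W.valuation_le_one_iff a).1 (not_lt.1 h))
  induction n with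
  | zero => simp
  | succ n ih =>
    rw [sum_range_succ, Valuation.map_add_eq_of_lt_right, map_pow]
    rw [ih, map_pow]
    exact pow_lt_pow_right₀ h1 (Nat.lt_succ_self n)

/-- if `a ∉ W`, then `u⁻¹` and `a u⁻¹` lie in `W` for `u = 1 + a + ⋯ + a ^ (n + 1)`. -/
lemma inv_geom_sum_mem_of_notMem (W : ValuationSubring L) {a : L} (ha : a ∉ W) (n : ℕ) :
    (∑ t ∈ range (n + 2), a ^ t)⁻¹ ∈ W ∧ a * (∑ t ∈ range (n + 2), a ^ t)⁻¹ ∈ W := by
  have h1 : 1 < W.valuation a := by
    by_contra h
    exact ha ((W.valuation_le_one_iff a).1 (not_lt.1 h))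
  have h0 : W.valuation a ≠ 0 := (lt_trans zero_lt_one h1).ne'
  have hv := valuation_geom_sum_of_notMem W ha (n + 1)
  constructor
  · rw [← W.valuation_le_one_iff, map_inv₀, hv]
    exact inv_le_one_of_one_le₀ (one_le_pow₀ h1.le)
  · rw [← W.valuation_le_one_iff, map_mul, map_inv₀, hv, pow_succ, mul_inv_rev,
      ← mul_assoc, mul_inv_cancel₀ h0, one_mul]
    exact inv_le_one_of_one_le₀ (one_le_pow₀ h1.le)

/-- for `a ∈ W` at most one prime `p` makes `1 + a + ⋯ + a ^ (p - 1)` a nonunit. -/
lemma geom_sum_bad_unique (W : ValuationSubring L) {a : L} (ha : a ∈ W) {p p' : ℕ}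
    (hp : p.Prime) (hp' : p'.Prime) (hne : p ≠ p')
    (hb : ∑ t ∈ range p, a ^ t ∈ W.nonunits) (hb' : ∑ t ∈ range p', a ^ t ∈ W.nonunits) :
    False := by
  -- work in the residue field
  let κ := IsLocalRing.ResidueField W
  let r : W →+* κ := IsLocalRing.residue W
  set α : κ := r ⟨a, ha⟩ with hα
  have key : ∀ n : ℕ, ∑ t ∈ range n, a ^ t ∈ W.nonunits → ∑ t ∈ range n, α ^ t = 0 := by
    intro n hn
    have hmem : ∑ t ∈ range n, a ^ t ∈ W := W.sum_mem fun t _ => W.pow_mem ha t
    have h1 : (⟨∑ t ∈ range n, a ^ t, hmem⟩ : W) ∈ IsLocalRing.maximalIdeal W :=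
      (W.coe_mem_nonunits_iff).1 hn
    have h2 : r ⟨∑ t ∈ range n, a ^ t, hmem⟩ = 0 := (IsLocalRing.residue_eq_zero_iff _).2 h1
    have h3 : (⟨∑ t ∈ range n, a ^ t, hmem⟩ : W) = ∑ t ∈ range n, (⟨a, ha⟩ : W) ^ t := by
      apply Subtype.ext
      simp
    rw [h3, map_sum] at h2
    simp only [map_pow] at h2
    exact h2
  have e1 := key p hb
  have e2 := key p' hb'
  have f1 : α ^ p = 1 := by
    have := geom_sum_mul α p
    rw [e1, zero_mul] at this
    exact (sub_eq_zero.1 this.symm)
  have f2 : α ^ p' = 1 := by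
    have := geom_sum_mul α p'
    rw [e2, zero_mul] at this
    exact (sub_eq_zero.1 this.symm)
  have hcop : Nat.gcd p p' = 1 := (Nat.coprime_primes hp hp').2 hne
  have f3 : α = 1 := by
    have := pow_gcd_eq_one.2 ⟨f1, f2⟩
    rwa [hcop, pow_one] at this
  have g1 : (p : κ) = 0 := by
    rw [f3] at e1
    simpa using e1
  have g2 : (p' : κ) = 0 := by
    rw [f3] at e2
    simpa using e2
  have d1 := (ringChar.spec κ p).1 g1
  have d2 := (ringChar.spec κ p').1 g2
  have d3 : ringChar κ ∣ 1 := hcop ▸ Nat.dvd_gcd d1 d2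
  exact CharP.ringChar_ne_one (Nat.dvd_one.1 d3)

variable {ι : Type*} [Finite ι]

/-- **Key lemma.** For finitely many valuation rings `W j` and `a : L` there is `s` in all `W j`
with `a s` in all `W j` and `s` a unit of every `W j` containing `a`. -/
theorem exists_denominator (W : ι → ValuationSubring L) (a : L) :
    ∃ s : L, (∀ j, s ∈ W j) ∧ (∀ j, a * s ∈ W j) ∧ ∀ j, a ∈ W j → s ∉ (W j).nonunits := by
  classical
  have : Fintype ι := Fintype.ofFinite ι
  -- the bad prime of `j`
  let q : ι → ℕ := fun j =>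
    if h : ∃ p : ℕ, p.Prime ∧ ∑ t ∈ range p, a ^ t ∈ (W j).nonunits then h.choose else 0
  obtain ⟨p, hpge, hp⟩ := Nat.exists_infinite_primes (Finset.univ.sup q + 1)
  have hgood : ∀ j, a ∈ W j → ∑ t ∈ range p, a ^ t ∉ (W j).nonunits := by
    intro j haj hbad
    have hex : ∃ p : ℕ, p.Prime ∧ ∑ t ∈ range p, a ^ t ∈ (W j).nonunits := ⟨p, hp, hbad⟩
    have hq : q j = hex.choose := dif_pos hex
    have hqle : q j ≤ Finset.univ.sup q := Finset.le_sup (Finset.mem_univ j)
    have hne : p ≠ hex.choose := by
      intro h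
      rw [← h] at hq
      omega
    exact geom_sum_bad_unique (W j) haj hp hex.choose_spec.1 hne hbad hex.choose_spec.2
  obtain ⟨n, rfl⟩ : ∃ n, p = n + 2 := ⟨p - 2, by have := hp.two_le; omega⟩
  refine ⟨(∑ t ∈ range (n + 2), a ^ t)⁻¹, fun j => ?_, fun j => ?_, fun j haj => ?_⟩
  · by_cases haj : a ∈ W j
    · have hmem : ∑ t ∈ range (n + 2), a ^ t ∈ W j := (W j).sum_mem fun t _ => (W j).pow_mem haj t
      have hnu := hgood j haj
      rw [ValuationSubring.mem_nonunits_iff_or, not_or, not_not] at hnu
      exact hnu.2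
    · exact (inv_geom_sum_mem_of_notMem (W j) haj n).1
  · by_cases haj : a ∈ W j
    · have hnu := hgood j haj
      rw [ValuationSubring.mem_nonunits_iff_or, not_or, not_not] at hnu
      exact (W j).mul_mem _ _ haj hnu.2
    · exact (inv_geom_sum_mem_of_notMem (W j) haj n).2
  · have hmem : ∑ t ∈ range (n + 2), a ^ t ∈ W j := (W j).sum_mem fun t _ => (W j).pow_mem haj t
    have hnu := hgood j haj
    intro hcon
    rw [ValuationSubring.mem_nonunits_iff_or, inv_inv] at hcon
    rcases hcon with h0 | h1
    · rw [inv_eq_zero] at h0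
      exact hnu (h0 ▸ (W j).nonunits.zero_mem)
    · exact h1 hmem

end KeyLemma

/-! ### Approximation for pairwise incomparable valuation rings -/

section Approximation

set_option linter.unusedSectionVars false

variable {ι : Type*} [Finite ι]

lemma mem_nonunits_of_mul_mem_nonunits {W : ValuationSubring L} {x y : L} (hx : x ∈ W)
    (hy : y ∈ W) (hxy : x * y ∈ W.nonunits) : x ∈ W.nonunits ∨ y ∈ W.nonunits := by
  rw [ValuationSubring.mem_nonunits_iff] at hxy ⊢
  rw [ValuationSubring.mem_nonunits_iff]
  by_contra hcon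
  push Not at hcon
  have h1 : W.valuation x = 1 := le_antisymm ((W.valuation_le_one_iff x).2 hx) hcon.1
  have h2 : W.valuation y = 1 := le_antisymm ((W.valuation_le_one_iff y).2 hy) hcon.2
  rw [map_mul, h1, h2, one_mul] at hxy
  exact lt_irrefl _ hxy

lemma inv_mem_of_notMem_nonunits {W : ValuationSubring L} {s : L}
    (hs : s ∉ W.nonunits) : s ≠ 0 ∧ s⁻¹ ∈ W := by
  rw [ValuationSubring.mem_nonunits_iff_or, not_or, not_not] at hs
  exact hs

/-- the intersection of the `W j` -/
def interRing (W : ι → ValuationSubring L) : Subring L := ⨅ j, (W j).toSubring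

lemma mem_interRing (W : ι → ValuationSubring L) (x : L) :
    x ∈ interRing W ↔ ∀ j, x ∈ W j := by
  simp [interRing, Subring.mem_iInf]

/-- the prime ideal of the intersection ring cut out by `W j` -/
def interPrime (W : ι → ValuationSubring L) (j : ι) : Ideal (interRing W) where
  carrier := {r | (r : L) ∈ (W j).nonunits}
  add_mem' := fun ha hb => (W j).nonunits.add_mem ha hb
  zero_mem' := (W j).nonunits.zero_mem
  smul_mem' := fun c _ hr =>
    mul_mem_nonunits_of_mem ((mem_interRing W _).1 c.2 j) hr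

lemma mem_interPrime (W : ι → ValuationSubring L) (j : ι) (r : interRing W) :
    r ∈ interPrime W j ↔ (r : L) ∈ (W j).nonunits := Iff.rfl

instance interPrime_isPrime (W : ι → ValuationSubring L) (j : ι) :
    (interPrime W j).IsPrime where
  ne_top' := by
    intro h
    have h1 : (1 : interRing W) ∈ interPrime W j := h ▸ Submodule.mem_top
    rw [mem_interPrime, ValuationSubring.mem_nonunits_iff] at h1
    simp at h1
  mem_or_mem' := by
    intro x y hxy
    rw [mem_interPrime] at hxy
    exact mem_nonunits_of_mul_mem_nonunits ((mem_interRing W _).1 x.2 j)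
      ((mem_interRing W _).1 y.2 j) (by simpa using hxy)

/-- Step 1: for incomparable `W i`, `W j` there is `t` in all `W l`, a nonunit of `W j` and a
unit of `W i`. -/
lemma exists_separator (W : ι → ValuationSubring L) {i j : ι} (hij : ¬ W i ≤ W j) :
    ∃ t : L, (∀ l, t ∈ W l) ∧ t ∈ (W j).nonunits ∧ t ∉ (W i).nonunits := by
  by_contra hcon
  push Not at hcon
  apply hij
  intro x hx
  obtain ⟨s, hs, hxs, hsu⟩ := exists_denominator W x
  have hsi : s ∉ (W i).nonunits := hsu i hx
  have hsj : s ∉ (W j).nonunits := fun h => hsi (hcon s hs h)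
  obtain ⟨hs0, hsinv⟩ := inv_mem_of_notMem_nonunits hsj
  have : x = x * s * s⁻¹ := by field_simp
  rw [this]
  exact (W j).mul_mem _ _ (hxs j) hsinv

/-- Step 2: units of `W i` in the intersection ring are invertible modulo the maximal ideal of
`W i` inside the intersection ring. -/
lemma exists_inverse_mod (W : ι → ValuationSubring L)
    (hinc : ∀ i j, i ≠ j → ¬ W i ≤ W j) (i : ι) {s : L} (hs : ∀ j, s ∈ W j)
    (hsi : s ∉ (W i).nonunits) :
    ∃ y : L, (∀ j, y ∈ W j) ∧ s * y - 1 ∈ (W i).nonunits := by
  classical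
  have : Fintype ι := Fintype.ofFinite ι
  let R := interRing W
  let s' : R := ⟨s, (mem_interRing W s).2 hs⟩
  let I : Ideal R := Ideal.span {s'} ⊔ interPrime W i
  -- `I` is not contained in the union of the primes
  have hI : ¬ ((I : Set R) ⊆ ⋃ j ∈ ((Finset.univ : Finset ι) : Set ι), interPrime W j) := by
    rw [Ideal.subset_union_prime i i (fun j _ _ _ => interPrime_isPrime W j)]
    rintro ⟨j, -, hj⟩
    have hsj : s' ∈ interPrime W j := hj (Ideal.mem_sup_left (Ideal.subset_span rfl))
    by_cases hji : j = i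
    · subst hji
      exact hsi hsj
    · obtain ⟨t, ht, hti, htj⟩ := exists_separator W (hinc j i hji)
      have : (⟨t, (mem_interRing W t).2 ht⟩ : R) ∈ interPrime W j :=
        hj (Ideal.mem_sup_right hti)
      exact htj this
  rw [Set.not_subset] at hI
  obtain ⟨x, hxI, hxU⟩ := hI
  -- `x` is a unit of every `W j`, hence of `R`
  have hxu : ∀ j, (x : L) ∉ (W j).nonunits := by
    intro j hj
    apply hxU
    simp only [Finset.coe_univ, Set.mem_univ, Set.iUnion_true, Set.mem_iUnion, SetLike.mem_coe]
    exact ⟨j, hj⟩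
  have hxinv : ∀ j, (x : L)⁻¹ ∈ W j := fun j => (inv_mem_of_notMem_nonunits (hxu j)).2
  have hx0 : (x : L) ≠ 0 := (inv_mem_of_notMem_nonunits (hxu i)).1
  let xinv : R := ⟨(x : L)⁻¹, (mem_interRing W _).2 hxinv⟩
  have h1 : (1 : R) ∈ I := by
    have : (1 : R) = xinv * x := by
      apply Subtype.ext
      simp [xinv, hx0]
    rw [this]
    exact I.mul_mem_left _ hxI
  obtain ⟨a, b, hb, hab⟩ := Ideal.mem_span_singleton_sup.1 h1
  refine ⟨(a : L), (mem_interRing W _).1 a.2, ?_⟩
  have hab' : (a : L) * s + (b : L) = 1 := by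
    have := congrArg (Subtype.val) hab
    simpa [s'] using this
  have : s * (a : L) - 1 = -(b : L) := by
    rw [← hab']; ring
  rw [this]
  exact (W i).nonunits.neg_mem hb

/-- **Approximation theorem** for finitely many pairwise incomparable valuation rings: every
residue class of `W i` is represented by an element of the intersection which is a nonunit of
all the other `W j`. -/
theorem exists_approx (W : ι → ValuationSubring L)
    (hinc : ∀ i j, i ≠ j → ¬ W i ≤ W j) (i : ι) {x : L} (hx : x ∈ W i) :
    ∃ e : L, (∀ j, e ∈ W j) ∧ e - x ∈ (W i).nonunits ∧ ∀ j, j ≠ i → e ∈ (W j).nonunits := by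
  classical
  have : Fintype ι := Fintype.ofFinite ι
  -- separators
  have hsep : ∀ j, j ≠ i → ∃ t : L, (∀ l, t ∈ W l) ∧ t ∈ (W j).nonunits ∧
      t ∉ (W i).nonunits := fun j hj => exists_separator W (hinc i j (Ne.symm hj))
  choose! t ht htj hti using hsep
  set T : L := ∏ j ∈ Finset.univ.erase i, t j with hT
  have hTmem : ∀ l, T ∈ W l := fun l =>
    (W l).prod_mem fun j hj => ht j (Finset.ne_of_mem_erase hj) l
  have hTj : ∀ j, j ≠ i → T ∈ (W j).nonunits := by
    intro j hj
    have hjm : j ∈ Finset.univ.erase i := Finset.mem_erase.2 ⟨hj, Finset.mem_univ j⟩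
    rw [hT, ← Finset.mul_prod_erase _ _ hjm, mul_comm]
    refine mul_mem_nonunits_of_mem ((W j).prod_mem fun l hl => ?_) (htj j hj)
    exact ht l (Finset.ne_of_mem_erase (Finset.mem_of_mem_erase hl)) j
  have hTi : T ∉ (W i).nonunits := by
    rw [ValuationSubring.mem_nonunits_iff, hT, map_prod, not_lt]
    refine le_of_eq (Finset.prod_eq_one fun j hj => ?_).symm
    have hji := Finset.ne_of_mem_erase hj
    have h1 := hti j hji
    rw [ValuationSubring.mem_nonunits_iff, not_lt] at h1
    exact le_antisymm (((W i).valuation_le_one_iff _).2 (ht j hji i)) h1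
  obtain ⟨s, hs, hxs, hsu⟩ := exists_denominator W x
  obtain ⟨y, hy, hsy⟩ := exists_inverse_mod W hinc i hs (hsu i hx)
  obtain ⟨y', hy', hTy⟩ := exists_inverse_mod W hinc i hTmem hTi
  refine ⟨x * s * y * (T * y'), fun j => ?_, ?_, fun j hj => ?_⟩
  · exact (W j).mul_mem _ _ ((W j).mul_mem _ _ (hxs j) (hy j))
      ((W j).mul_mem _ _ (hTmem j) (hy' j))
  · have e : x * s * y * (T * y') - x =
        x * (T * y') * (s * y - 1) + x * (T * y' - 1) := by ring
    rw [e]
    refine (W i).nonunits.add_mem ?_ ?_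
    · exact mul_mem_nonunits_of_mem
        ((W i).mul_mem _ _ hx ((W i).mul_mem _ _ (hTmem i) (hy' i))) hsy
    · exact mul_mem_nonunits_of_mem hx hTy
  · have e : x * s * y * (T * y') = x * s * y * y' * T := by ring
    rw [e]
    exact mul_mem_nonunits_of_mem
      ((W j).mul_mem _ _ ((W j).mul_mem _ _ (hxs j) (hy j)) (hy' j)) (hTj j hj)

end Approximation

/-! ### The fundamental inequality (residue degrees only) -/

section Inequality

open Module

/-- the residues of the `b k` are linearly independent over the residue field of `V`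
(elementary form). -/
def ResIndep (V : ValuationSubring K) (W : ValuationSubring L) {m : ℕ} (b : Fin m → L) : Prop :=
  (∀ k, b k ∈ W) ∧ ∀ a : Fin m → K, (∀ k, a k ∈ V) →
    (∑ k, algebraMap K L (a k) * b k) ∈ W.nonunits → ∀ k, a k ∈ V.nonunits

/-- **Fundamental inequality**, residue degrees: the sum of the residue degrees of distinct
extensions of `V` to a finite extension `L / K` is at most `[L : K]`. -/
theorem sum_le_finrank [FiniteDimensional K L] {ι : Type*} [Fintype ι]
    (V : ValuationSubring K) (W : ι → ValuationSubring L) (hW : ∀ i, LiesOverVS V (W i))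
    (hinj : Function.Injective W) (f : ι → ℕ) (b : ∀ i, Fin (f i) → L)
    (hb : ∀ i, ResIndep V (W i) (b i)) : ∑ i, f i ≤ finrank K L := by
  classical
  have hinc : ∀ i j, i ≠ j → ¬ W i ≤ W j := fun i j hij hle =>
    hij (hinj (eq_of_le_of_liesOver (hW i) (hW j) hle))
  have happ : ∀ i (k : Fin (f i)), ∃ e : L, (∀ j, e ∈ W j) ∧ e - b i k ∈ (W i).nonunits ∧
      ∀ j, j ≠ i → e ∈ (W j).nonunits := fun i k => exists_approx W hinc i ((hb i).1 k)
  choose c hc hcb hcj using happ
  let C : (Σ i, Fin (f i)) → L := fun x => c x.1 x.2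
  have hli : LinearIndependent K C := by
    rw [Fintype.linearIndependent_iff]
    intro g hg
    by_contra hne
    push Not at hne
    obtain ⟨x₁, hx₁⟩ := hne
    obtain ⟨x₀, -, hmax⟩ := Finset.exists_max_image (Finset.univ : Finset (Σ i, Fin (f i)))
      (fun x => V.valuation (g x)) ⟨x₁, Finset.mem_univ _⟩
    have hg0 : g x₀ ≠ 0 := by
      intro h0
      have := hmax x₁ (Finset.mem_univ _)
      rw [h0, map_zero] at this
      exact hx₁ ((map_eq_zero _).1 (le_antisymm this zero_le))
    set a : (Σ i, Fin (f i)) → K := fun x => g x / g x₀ with ha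
    have haV : ∀ x, a x ∈ V := by
      intro x
      rw [← V.valuation_le_one_iff, ha, map_div₀]
      exact div_le_one_of_le₀ (hmax x (Finset.mem_univ _)) zero_le
    have ha0 : a x₀ = 1 := div_self hg0
    have hsum : ∑ x, algebraMap K L (a x) * C x = 0 := by
      have hc0 : algebraMap K L (g x₀) ≠ 0 := (_root_.map_ne_zero _).2 hg0
      have : ∑ x, algebraMap K L (a x) * C x = (algebraMap K L (g x₀))⁻¹ * ∑ x, g x • C x := by
        rw [Finset.mul_sum]
        refine Finset.sum_congr rfl fun x _ => ?_
        rw [ha, map_div₀, Algebra.smul_def]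
        field_simp
      rw [this, hg, mul_zero]
    set i₀ := x₀.1 with hi₀
    -- comparison family
    let B : (Σ i, Fin (f i)) → L := fun x => if x.1 = i₀ then b x.1 x.2 else 0
    have hdiff : ∀ x, algebraMap K L (a x) * (C x - B x) ∈ (W i₀).nonunits := by
      intro x
      refine mul_mem_nonunits_of_mem (((hW i₀).mem_iff _).2 (haV x)) ?_
      by_cases hx : x.1 = i₀
      · simp only [B, if_pos hx, C]
        rw [← hx]
        exact hcb x.1 x.2
      · simp only [B, if_neg hx, C, sub_zero]
        exact hcj x.1 x.2 i₀ (Ne.symm hx)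
    have hB : ∑ x, algebraMap K L (a x) * B x ∈ (W i₀).nonunits := by
      have e : ∑ x, algebraMap K L (a x) * B x =
          -∑ x, algebraMap K L (a x) * (C x - B x) := by
        rw [← Finset.sum_neg_distrib]
        have : ∑ x, -(algebraMap K L (a x) * (C x - B x)) =
            ∑ x, (algebraMap K L (a x) * B x - algebraMap K L (a x) * C x) :=
          Finset.sum_congr rfl fun x _ => by ring
        rw [this, Finset.sum_sub_distrib, hsum, sub_zero]
      rw [e]
      exact (W i₀).nonunits.neg_mem (sum_mem_nonunits _ _ fun x _ => hdiff x)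
    have hB' : ∑ x, algebraMap K L (a x) * B x =
        ∑ k : Fin (f i₀), algebraMap K L (a ⟨i₀, k⟩) * b i₀ k := by
      rw [Fintype.sum_sigma]
      rw [Finset.sum_eq_single i₀]
      · refine Finset.sum_congr rfl fun k _ => ?_
        simp [B]
      · intro i _ hi
        refine Finset.sum_eq_zero fun k _ => ?_
        simp [B, hi]
      · intro h
        exact absurd (Finset.mem_univ _) h
    rw [hB'] at hB
    have hres := (hb i₀).2 (fun k => a ⟨i₀, k⟩) (fun k => haV _) hB x₀.2
    have hx₀ : (⟨i₀, x₀.2⟩ : Σ i, Fin (f i)) = x₀ := Sigma.eta x₀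
    rw [hx₀, ha0, ValuationSubring.mem_nonunits_iff, map_one] at hres
    exact lt_irrefl _ hres
  have hcard := hli.fintype_card_le_finrank
  simpa using hcard

end Inequality

/-! ### Integral elements and extensions -/

section Integral

open IsLocalRing

/-- valuation rings are integrally closed: an element integral over `V` lies in every valuation
subring of `L` containing the image of `V`. -/
theorem mem_of_isIntegral_of_le {V : ValuationSubring K} {W : ValuationSubring L}
    (hW : ∀ a ∈ V, algebraMap K L a ∈ W) {x : L} (hx : IsIntegral V x) : x ∈ W := by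
  obtain ⟨f, hm, hf⟩ := hx
  by_contra hxW
  rw [← W.valuation_le_one_iff, not_le] at hxW
  by_cases hn : f.natDegree = 0
  · rw [Polynomial.natDegree_eq_zero] at hn
    obtain ⟨c, rfl⟩ := hn
    have hc : c = 1 := by simpa using hm.leadingCoeff
    simp [hc] at hf
  simp only [Polynomial.eval₂_eq_sum_range, Finset.sum_range_succ, hm.coeff_natDegree, map_one,
    one_mul, add_eq_zero_iff_eq_neg] at hf
  apply_fun W.valuation at hf
  simp only [Valuation.map_neg, map_pow] at hf
  revert hf
  refine ne_of_lt (W.valuation.map_sum_lt ?_ ?_)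
  · simp [hn, (hxW.trans' (zero_lt_one)).ne']
  · simp only [Finset.mem_range, map_mul, map_pow]
    intro i hi
    have h1 : W.valuation (algebraMap V L (f.coeff i)) ≤ 1 :=
      (W.valuation_le_one_iff _).2 (hW _ (f.coeff i).2)
    exact mul_lt_of_le_one_of_lt h1 <| pow_lt_pow_right₀ hxW hi

theorem mem_of_isIntegral {V : ValuationSubring K} {W : ValuationSubring L}
    (hW : LiesOverVS V W) {x : L} (hx : IsIntegral V x) : x ∈ W :=
  mem_of_isIntegral_of_le (fun a ha => (hW.mem_iff a).2 ha) hx

/-- a valuation subring of `L` containing the image of `V` and whose nonunits contain the image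
of the nonunits of `V` lies over `V`. -/
theorem liesOverVS_of_dominates {V : ValuationSubring K} {W : ValuationSubring L}
    (h1 : ∀ a ∈ V, algebraMap K L a ∈ W)
    (h2 : ∀ a ∈ V.nonunits, algebraMap K L a ∈ W.nonunits) : LiesOverVS V W := by
  refine le_antisymm (fun a ha => ?_) fun a ha => ValuationSubring.mem_comap.2 (h1 a ha)
  rw [ValuationSubring.mem_comap] at ha
  by_contra haV
  have hinv : a⁻¹ ∈ V.nonunits := by
    rw [ValuationSubring.mem_nonunits_iff_or]
    right
    rwa [inv_inv]
    
  have := h2 _ hinv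
  rw [map_inv₀, ValuationSubring.mem_nonunits_iff_or, inv_inv] at this
  rcases this with h | h
  · rw [inv_eq_zero, map_eq_zero] at h
    exact haV (h ▸ V.zero_mem)
  · exact h ha

/-- **Existence of extensions avoiding a non-integral element** (Chevalley): if `x` is not
integral over `V`, some valuation subring of `L` lying over `V` does not contain `x`. -/
theorem exists_liesOver_notMem (V : ValuationSubring K) {x : L} (hx : ¬ IsIntegral V x) :
    ∃ W : ValuationSubring L, LiesOverVS V W ∧ x ∉ W := by
  have hx0 : x ≠ 0 := fun h => hx (h ▸ isIntegral_zero)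
  let := invertibleOfNonzero hx0
  let B := Algebra.adjoin V {x⁻¹}
  let xinv : B.toSubring := ⟨x⁻¹, Algebra.subset_adjoin rfl⟩
  have hI : (maximalIdeal V).map (algebraMap V B) + Ideal.span {xinv} ≠ ⊤ := fun eq => hx <| by
    have ⟨p, hp, hpx⟩ := Algebra.exists_aeval_invOf_eq_zero_of_idealMap_adjoin_sup_span_eq_top _ _
      (maximalIdeal.isMaximal V).ne_top eq
    have H : IsUnit p.leadingCoeff := of_not_not fun h ↦ by simpa using sub_mem h hp
    exact ⟨.C H.unit⁻¹.1 * p, by simp [Polynomial.Monic], by simpa using .inr hpx⟩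
  have ⟨W, hW⟩ := Ideal.image_subset_nonunits_valuationSubring (A := B.toSubring) _ hI
  refine ⟨W, liesOverVS_of_dominates (fun a ha => ?_) (fun a ha => ?_), ?_⟩
  · exact hW.1 (B.algebraMap_mem ⟨a, ha⟩)
  · have haV : a ∈ V := V.nonunits_subset ha
    have hmem : (⟨a, haV⟩ : V) ∈ maximalIdeal V := ValuationSubring.coe_mem_nonunits_iff.1 ha
    exact hW.2 ⟨_, le_self_add (α := Ideal B) (Ideal.mem_map_of_mem _ hmem), rfl⟩
  · exact (W.inv_mem_nonunits_iff.mp <|
      hW.2 ⟨_, le_add_self (α := Ideal B) (Ideal.subset_span rfl), rfl⟩).resolve_left hx0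

/-- the integral closure of `V` in `L` is the intersection of the valuation subrings lying over
`V`. -/
theorem isIntegral_iff_forall_liesOver (V : ValuationSubring K) (x : L) :
    IsIntegral V x ↔ ∀ W : ValuationSubring L, LiesOverVS V W → x ∈ W := by
  refine ⟨fun hx W hW => mem_of_isIntegral hW hx, fun h => ?_⟩
  by_contra hx
  obtain ⟨W, hW, hxW⟩ := exists_liesOver_notMem V hx
  exact hxW (h W hW)

end Integral

/-! ### The case of equality: two extensions with `f₁ + f₂ = [L : K]` -/

section TwoExtensions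

open Module

lemma resIndep_one {V : ValuationSubring K} {W : ValuationSubring L} (hW : LiesOverVS V W) :
    ResIndep V W (fun _ : Fin 1 => (1 : L)) := by
  refine ⟨fun _ => W.one_mem, fun a _ hsum k => ?_⟩
  simp only [Finset.univ_unique, mul_one, Finset.sum_singleton] at hsum
  have h := (hW.mem_nonunits_iff _).1 hsum
  rwa [Subsingleton.elim k default]

lemma resIndep_pair {V : ValuationSubring K} {W : ValuationSubring L} (hW : LiesOverVS V W)
    {f : L} (hf : f ∈ W) (hno : ∀ g ∈ V, f - algebraMap K L g ∉ W.nonunits) :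
    ResIndep V W ![1, f] := by
  refine ⟨fun k => ?_, fun a ha hsum => ?_⟩
  · fin_cases k
    · exact W.one_mem
    · exact hf
  · rw [Fin.sum_univ_two] at hsum
    simp only [Matrix.cons_val_zero, Matrix.cons_val_one, mul_one] at hsum
    have h1 : a 1 ∈ V.nonunits := by
      by_contra h1
      rw [ValuationSubring.mem_nonunits_iff_or] at h1
      push Not at h1
      obtain ⟨ha1, hinv⟩ := h1
      refine hno (-(a 0) * (a 1)⁻¹) (V.mul_mem _ _ (V.neg_mem _ (ha 0)) hinv) ?_
      have hc : algebraMap K L (a 1) ≠ 0 := (_root_.map_ne_zero _).2 ha1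
      have e : f - algebraMap K L (-(a 0) * (a 1)⁻¹) =
          algebraMap K L (a 1)⁻¹ * (algebraMap K L (a 0) + algebraMap K L (a 1) * f) := by
        rw [map_mul, map_neg, map_inv₀]
        field_simp
        ring
      rw [e]
      exact mul_mem_nonunits_of_mem ((hW.mem_iff _).2 hinv) hsum
    have h0 : a 0 ∈ V.nonunits := by
      rw [← hW.mem_nonunits_iff]
      have e : algebraMap K L (a 0) =
          (algebraMap K L (a 0) + algebraMap K L (a 1) * f) + -(f * algebraMap K L (a 1)) := by
        ring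
      rw [e]
      exact W.nonunits.add_mem hsum
        (W.nonunits.neg_mem (mul_mem_nonunits_of_mem hf ((hW.mem_nonunits_iff _).2 h1)))
    intro k
    fin_cases k
    · exact h0
    · exact h1

variable [FiniteDimensional K L] {V : ValuationSubring K} {W₁ W₂ : ValuationSubring L}

/-- auxiliary: the fundamental inequality for two extensions. -/
theorem add_le_finrank_of_two (h₁ : LiesOverVS V W₁) (h₂ : LiesOverVS V W₂) (hne : W₁ ≠ W₂)
    {m₁ m₂ : ℕ} (b₁ : Fin m₁ → L) (b₂ : Fin m₂ → L) (hb₁ : ResIndep V W₁ b₁)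
    (hb₂ : ResIndep V W₂ b₂) : m₁ + m₂ ≤ finrank K L := by
  have key := sum_le_finrank V (fun i : Bool => bif i then W₁ else W₂)
    (fun i => by cases i <;> assumption)
    (fun i j hij => by
      cases i <;> cases j <;> simp_all [eq_comm])
    (fun i : Bool => bif i then m₁ else m₂)
    (fun i => Bool.rec (motive := fun i => Fin (bif i then m₁ else m₂) → L) b₂ b₁ i)
    (fun i => by cases i <;> assumption)
  simpa [Fintype.sum_bool] using key

/-- auxiliary: the fundamental inequality for three extensions. -/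
theorem add_add_le_finrank_of_three {W₃ : ValuationSubring L} (h₁ : LiesOverVS V W₁)
    (h₂ : LiesOverVS V W₂) (h₃ : LiesOverVS V W₃) (h12 : W₁ ≠ W₂) (h13 : W₁ ≠ W₃)
    (h23 : W₂ ≠ W₃) {m₁ m₂ m₃ : ℕ} (b₁ : Fin m₁ → L) (b₂ : Fin m₂ → L) (b₃ : Fin m₃ → L)
    (hb₁ : ResIndep V W₁ b₁) (hb₂ : ResIndep V W₂ b₂) (hb₃ : ResIndep V W₃ b₃) :
    m₁ + m₂ + m₃ ≤ finrank K L := by
  have key := sum_le_finrank V
    (fun i : Option Bool => Option.rec W₃ (fun j => bif j then W₁ else W₂) i)
    (fun i => by rcases i with _ | (_ | _) <;> assumption)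
    (fun i j hij => by
      rcases i with _ | (_ | _) <;> rcases j with _ | (_ | _) <;> simp_all [eq_comm])
    (fun i : Option Bool => Option.rec m₃ (fun j => bif j then m₁ else m₂) i)
    (fun i => Option.rec
      (motive := fun i => Fin (Option.rec m₃ (fun j => bif j then m₁ else m₂) i) → L) b₃
      (fun j => Bool.rec (motive := fun j => Fin (bif j then m₁ else m₂) → L) b₂ b₁ j) i)
    (fun i => by rcases i with _ | (_ | _) <;> assumption)
  have e : ∑ i : Option Bool, (Option.rec m₃ (fun j => bif j then m₁ else m₂) i : ℕ) =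
      m₁ + m₂ + m₃ := by
    rw [Fintype.sum_option, Fintype.sum_bool]
    simp only [cond_true, cond_false]
    ring
  rwa [e] at key

/-- **Residue degree one.** If `W₁ ≠ W₂` lie over `V`, the residue degree of `W₂` is at least
`m` and `[L : K] ≤ m + 1`, then every element of `W₁` is congruent to an element of `V` modulo
the maximal ideal of `W₁`. -/
theorem exists_sub_mem_nonunits (h₁ : LiesOverVS V W₁) (h₂ : LiesOverVS V W₂) (hne : W₁ ≠ W₂)
    {m : ℕ} (b : Fin m → L) (hb : ResIndep V W₂ b) (hdeg : finrank K L ≤ m + 1) {f : L}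
    (hf : f ∈ W₁) : ∃ g ∈ V, f - algebraMap K L g ∈ W₁.nonunits := by
  by_contra hcon
  push Not at hcon
  have := add_le_finrank_of_two h₁ h₂ hne ![1, f] b (resIndep_pair h₁ hf hcon) hb
  omega

/-- **There are no other extensions.** -/
theorem eq_or_eq_of_liesOver (h₁ : LiesOverVS V W₁) (h₂ : LiesOverVS V W₂) (hne : W₁ ≠ W₂)
    {m : ℕ} (b : Fin m → L) (hb : ResIndep V W₂ b) (hdeg : finrank K L ≤ m + 1)
    {W : ValuationSubring L} (hW : LiesOverVS V W) : W = W₁ ∨ W = W₂ := by
  by_contra hcon
  push Not at hcon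
  have := add_add_le_finrank_of_three h₁ h₂ hW hne (Ne.symm hcon.1) (Ne.symm hcon.2)
    (fun _ : Fin 1 => (1 : L)) b (fun _ : Fin 1 => (1 : L)) (resIndep_one h₁) hb (resIndep_one hW)
  omega

/-- **The integral closure is the intersection of the two extensions.** -/
theorem isIntegral_iff_mem_and_mem (h₁ : LiesOverVS V W₁) (h₂ : LiesOverVS V W₂) (hne : W₁ ≠ W₂)
    {m : ℕ} (b : Fin m → L) (hb : ResIndep V W₂ b) (hdeg : finrank K L ≤ m + 1) (x : L) :
    IsIntegral V x ↔ x ∈ W₁ ∧ x ∈ W₂ := by
  rw [isIntegral_iff_forall_liesOver]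
  refine ⟨fun h => ⟨h W₁ h₁, h W₂ h₂⟩, fun h W hW => ?_⟩
  rcases eq_or_eq_of_liesOver h₁ h₂ hne b hb hdeg hW with rfl | rfl
  · exact h.1
  · exact h.2

end TwoExtensions

/-! ### Integrality over an intersection of integrally closed rings -/

section Intersection

/-- the coefficients of the minimal polynomial over the fraction field of an element integral
over an integrally closed domain `R` lie in (the image of) `R`. -/
theorem minpoly_coeff_mem_range {R : Type*} [CommRing R] [IsDomain R] [Algebra R K]
    [IsFractionRing R K] [IsIntegrallyClosed R] [Algebra R L] [IsScalarTower R K L] {x : L}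
    (hx : IsIntegral R x) (i : ℕ) : (minpoly K x).coeff i ∈ (algebraMap R K).range := by
  rw [minpoly.isIntegrallyClosed_eq_field_fractions' K hx, Polynomial.coeff_map]
  exact ⟨_, rfl⟩

/-- an element of `L`, integral over `K`, whose minimal polynomial has all its coefficients in
the subring `T` of `K`, is integral over `T`. -/
theorem isIntegral_of_minpoly_coeff_mem (T : Subring K) {x : L} (hx : IsIntegral K x)
    (hT : ∀ i, (minpoly K x).coeff i ∈ T) : IsIntegral T x := by
  have hp : (↑(minpoly K x).coeffs : Set K) ⊆ T := by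
    intro c hc
    obtain ⟨n, -, rfl⟩ := Polynomial.mem_coeffs_iff.1 hc
    exact hT n
  refine ⟨(minpoly K x).toSubring T hp, (Polynomial.monic_toSubring _ _ _).2 (minpoly.monic hx),
    ?_⟩
  have e : algebraMap T L = (algebraMap K L).comp T.subtype := rfl
  rw [e, ← Polynomial.eval₂_map, Polynomial.map_toSubring, ← Polynomial.aeval_def,
    minpoly.aeval]

/-- **Integrality over an intersection.** An element of `L` integral over the valuation
subring `V` of `K` and over an integrally closed subring `R` of `K` with fraction field `K` is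
integral over `V ∩ R`. -/
theorem isIntegral_inf_of_isIntegral (V : ValuationSubring K) (R : Subring K)
    [IsIntegrallyClosed R] [IsFractionRing R K] {x : L} (h1 : IsIntegral V x)
    (h2 : IsIntegral R x) : IsIntegral (V.toSubring ⊓ R : Subring K) x := by
  have hK : IsIntegral K x := h2.tower_top
  refine isIntegral_of_minpoly_coeff_mem _ hK fun i => ⟨?_, ?_⟩
  · obtain ⟨a, ha⟩ := minpoly_coeff_mem_range (K := K) h1 i
    rw [← ha]
    exact a.2
  · obtain ⟨a, ha⟩ := minpoly_coeff_mem_range (K := K) h2 i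
    rw [← ha]
    exact a.2

end Intersection

end

end Fermat.Agent.T2.helper51
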