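import Mathlib

/-!
# Tier 2, [T2-REGRED2] part 0 (helper87): minimal polynomials and full sets of embeddings

`E / F` finite separable of degree `n`, `τ : ι → (E →+* Ω)` an injective family of `n` ring
homomorphisms into a field `Ω`, all restricting to the same `σ : F →+* Ω`.

* `minpoly_coeff_mem_of_embeddings` : if all the `τ i x` lie in a subring `B` of `Ω`, then the
  images under `σ` of the coefficients of the minimal polynomial of `x` over `F` lie in `B`.
* `minpoly_coeff_isIntegral_of_monic` : if `x` is a root of a monic polynomial with coefficients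
  in (the image of) a ring `R`, the coefficients of its minimal polynomial over `F` are integral
  over `R`.
-/

set_option autoImplicit false

namespace Fermat.Agent.T2.helper87

open Module Polynomial

/-- **Minimal polynomials and embeddings.** -/
theorem minpoly_coeff_mem_of_embeddings {F E Ω : Type*} [Field F] [Field E] [Field Ω]
    [Algebra F E] [FiniteDimensional F E] [Algebra.IsSeparable F E] (σ : F →+* Ω) {ι : Type*}
    [Fintype ι] (τ : ι → (E →+* Ω)) (hτ : Function.Injective τ)
    (hcomp : ∀ i, (τ i).comp (algebraMap F E) = σ)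
    (hcard : Fintype.card ι = finrank F E) (B : Subring Ω) (x : E)
    (hx : ∀ i, τ i x ∈ B) (n : ℕ) : σ ((minpoly F x).coeff n) ∈ B := by
  classical
  let Ωb := AlgebraicClosure Ω
  let _ : Algebra F Ωb := ((algebraMap Ω Ωb).comp σ).toAlgebra
  have halg : ∀ a : F, algebraMap F Ωb a = algebraMap Ω Ωb (σ a) := fun a => rfl
  let τ' : ι → (E →ₐ[F] Ωb) := fun i =>
    { (algebraMap Ω Ωb).comp (τ i) with
      commutes' := fun a => by
        show algebraMap Ω Ωb (τ i (algebraMap F E a)) = algebraMap F Ωb a
        rw [halg, ← hcomp i]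
        rfl }
  have hτ'app : ∀ i y, τ' i y = algebraMap Ω Ωb (τ i y) := fun i y => rfl
  have hinj : Function.Injective τ' := by
    intro i j hij
    apply hτ
    ext y
    have := congrArg (fun f : E →ₐ[F] Ωb => f y) hij
    simp only [hτ'app] at this
    exact (algebraMap Ω Ωb).injective this
  have hcard' : Fintype.card ι = Fintype.card (E →ₐ[F] Ωb) := by
    rw [hcard, AlgHom.card F E Ωb]
  have hsurj : Function.Surjective τ' :=
    ((Fintype.bijective_iff_injective_and_card τ').mpr ⟨hinj, hcard'⟩).2
  have hint : IsIntegral F x := (Algebra.IsIntegral.isIntegral x)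
  set μ := minpoly F x with hμ
  have hmonic : (μ.map (algebraMap F Ωb)).Monic := (minpoly.monic hint).map _
  have hsplits : (μ.map (algebraMap F Ωb)).Splits := IsAlgClosed.splits _
  have hroots : ∀ a ∈ (μ.map (algebraMap F Ωb)).roots,
      a ∈ ((algebraMap Ω Ωb).comp B.subtype).range := by
    intro a ha
    have ha' : a ∈ μ.rootSet Ωb := by
      rw [Polynomial.rootSet, Polynomial.aroots_def]
      simpa using ha
    have hrange := Algebra.IsAlgebraic.range_eval_eq_rootSet_minpoly (F := F) (K := E) Ωb x
    rw [hμ, ← hrange] at ha'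
    obtain ⟨ψ, rfl⟩ := ha'
    obtain ⟨i, rfl⟩ := hsurj ψ
    exact ⟨⟨τ i x, hx i⟩, rfl⟩
  have hlift := hsplits.mem_lift_of_roots_mem_range hmonic _ hroots
  rw [Polynomial.lifts_iff_coeff_lifts] at hlift
  obtain ⟨b, hb⟩ := hlift n
  rw [Polynomial.coeff_map, halg] at hb
  have : (b : Ω) = σ (μ.coeff n) := (algebraMap Ω Ωb).injective hb
  rw [← this]
  exact b.2

/-- **Integrality of the coefficients of the minimal polynomial.** If `x ∈ E` is a root of
the image of a monic polynomial over `R`, the coefficients of the minimal polynomial of `x` over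
the field `F` are integral over `R`. -/
theorem minpoly_coeff_isIntegral_of_monic {R F E : Type*} [CommRing R] [Field F] [Field E]
    [Algebra F E] (φ : R →+* F) (p : R[X]) (hp : p.Monic) (x : E)
    (hpx : Polynomial.eval₂ ((algebraMap F E).comp φ) x p = 0) (n : ℕ) :
    φ.IsIntegralElem ((minpoly F x).coeff n) := by
  let _ : Algebra R F := φ.toAlgebra
  have hint : IsIntegral F x := by
    refine ⟨p.map φ, hp.map _, ?_⟩
    rw [Polynomial.eval₂_map]
    exact hpx
  have hdvd : minpoly F x ∣ p.map (algebraMap R F) := by
    apply minpoly.dvd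
    rw [Polynomial.aeval_def, Polynomial.eval₂_map]
    exact hpx
  have h := integralClosure.mem_lifts_of_monic_of_dvd_map F hp (minpoly.monic hint) hdvd
  rw [Polynomial.lifts_iff_coeff_lifts] at h
  obtain ⟨b, hb⟩ := h n
  have hb' : IsIntegral R ((minpoly F x).coeff n) := by
    rw [← hb]
    exact b.2
  exact hb'

end Fermat.Agent.T2.helper87
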