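import Mathlib
import Fermat.Agent.T2.helper87_MinpolyEmb
import Fermat.Agent.T2.helper22_CoreDefs
import Fermat.Agent.T2.helper96_ValW
import Fermat.Agent.T2.helper51_ValExt
import Fermat.Agent.P2.helper81_CuspReg
import Fermat.Agent.P2.helper96_Gen
import Fermat.Agent.P2.helper74_RieInst
import Fermat.Agent.P2.helper93_ESRed
import Fermat.Agent.P2.helper93_ESNorm

/-!
# Tier 2, [T2-REGRED2] (helper87): `RegRed2Statement` at the level `N * q`, `A ∣ q`

Setting: `q` a prime not dividing `N`, `M = N * q`, `A` a valuation subring of `ℚ̄` over `q`,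
`W = helper36.atkinLehner N q hq hqN`.  For `f ∈ F_M` regular off the two cusps `∞`, `∞₂` with an
integral pair of expansions `(Y₁, Y₂)` the reduction `red Y₁` lies in the special fibre field and
is regular off infinity.

Route: the minimal polynomial `μ` of `f` over `α F_N`:
* its coefficients have `A`-integral expansions, because the `q + 1` conjugates of `f` have the
  expansions `f(t^q)` and `(W f)(ζ^k t)` (`minpoly_coeff_mem_of_embeddings`);
* its coefficients are regular off infinity (level `N`), because `f` is integral over `ℚ̄[x]`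
  for a function `x ∈ F_N` whose only pole is `∞`;
* `red Y₁` is a root of the reduction of `μ`, whose coefficients are regular off infinity by P2
  (`RegRedStatement N A`); valuation rings are integrally closed.
The membership `red Y₁ ∈ F̃_M` is taken from `helper29.ScaleStatement (N * q) A`.
-/

set_option autoImplicit false
set_option synthInstance.maxHeartbeats 400000
set_option linter.style.haveILetI false
set_option linter.unusedSectionVars false
set_option linter.unusedVariables false

noncomputable section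

open HahnSeries IntermediateField AlgebraicCurve ModularCurve
open Fermat.Agent.S18.helper19 Fermat.Agent.P2.helper29 Fermat.Agent.T2.helper36
open Fermat.Agent.T2.helper22

namespace Fermat.Agent.T2.helper87

open Fermat.Agent.P2.helper93 (twistL twistL_coeff)

/-! ### The twist `t ↦ c t` as a ring homomorphism -/

section Twist

variable {K : Type*} [Field K]

theorem twistL_support {c : K} (hc : c ≠ 0) (f : LaurentSeries K) :
    (twistL c f).support = f.support := by
  ext k
  simp only [HahnSeries.mem_support, twistL_coeff, ne_eq, mul_eq_zero, not_or]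
  constructor
  · exact fun h => h.2
  · exact fun h => ⟨zpow_ne_zero _ hc, h⟩

theorem twistL_add (c : K) (f g : LaurentSeries K) :
    twistL c (f + g) = twistL c f + twistL c g := by
  ext k
  simp [mul_add]

theorem twistL_zero (c : K) : twistL c (0 : LaurentSeries K) = 0 := by
  ext k
  simp

theorem twistL_single (c : K) (n : ℤ) (a : K) :
    twistL c (HahnSeries.single n a) = HahnSeries.single n (c ^ n * a) := by
  ext k
  rcases eq_or_ne k n with rfl | hk
  · simp
  · simp [HahnSeries.coeff_single_of_ne hk]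

theorem twistL_one (c : K) : twistL c (1 : LaurentSeries K) = 1 := by
  have : (1 : LaurentSeries K) = HahnSeries.single 0 1 := rfl
  rw [this, twistL_single]
  simp

theorem twistL_mul {c : K} (hc : c ≠ 0) (f g : LaurentSeries K) :
    twistL c (f * g) = twistL c f * twistL c g := by
  ext a
  rw [twistL_coeff, HahnSeries.coeff_mul, HahnSeries.coeff_mul, Finset.mul_sum]
  have hset : Finset.antidiagonal (twistL c f).isPWO_support (twistL c g).isPWO_support a
      = Finset.antidiagonal f.isPWO_support g.isPWO_support a := by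
    ext ij
    simp only [Finset.mem_antidiagonal, twistL_support hc]
  rw [hset]
  refine Finset.sum_congr rfl fun ij hij => ?_
  rw [Finset.mem_antidiagonal] at hij
  rw [twistL_coeff, twistL_coeff, ← hij.2.2, zpow_add₀ hc]
  ring

/-- the twist `t ↦ c t` as a ring homomorphism of `K((t))` -/
def twistHom (c : K) (hc : c ≠ 0) : LaurentSeries K →+* LaurentSeries K where
  toFun := twistL c
  map_one' := twistL_one c
  map_mul' := twistL_mul hc
  map_zero' := twistL_zero c
  map_add' := twistL_add c

@[simp]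
theorem twistHom_apply (c : K) (hc : c ≠ 0) (f : LaurentSeries K) :
    twistHom c hc f = twistL c f := rfl

/-- a series in `t^n` is invariant under the twist by an `n`-th root of unity -/
theorem twistL_qExpand {c : K} {n : ℕ} [NeZero n] (h : c ^ n = 1) (f : LaurentSeries K) :
    twistL c (qExpand K n f) = qExpand K n f := by
  ext k
  rw [twistL_coeff]
  by_cases hk : (n : ℤ) ∣ k
  · obtain ⟨m, rfl⟩ := hk
    rw [zpow_mul, zpow_natCast, h, one_zpow, one_mul]
  · rw [qExpand_coeff_of_not_dvd n f hk, mul_zero]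

end Twist

/-! ### The `q + 1` embeddings of `F_{N q}` over `α F_N` -/

section Emb

variable (N q : ℕ) [NeZero N] [NeZero q] (hq : q.Prime) (hqN : ¬ q ∣ N)

/-- the inclusion `F_M → ℚ̄((t))` as a ring homomorphism -/
def coeHom (M : ℕ) : FF M →+* LaurentSeries Kb := algebraMap (FF M) (LaurentSeries Kb)

@[simp]
theorem coeHom_apply (M : ℕ) (f : FF M) : coeHom M f = (f : LaurentSeries Kb) := rfl

/-- the family of `q + 1` embeddings of `F_{N q}` over `α F_N`: `f ↦ f(t^q)` and
`f ↦ (W f)(ζ^k t)`, `k < q`. -/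
def embW (ζ : Kb) (hζ : ζ ≠ 0) : Option (Fin q) → (FF (N * q) →+* LaurentSeries Kb)
  | none => (qExpand Kb q).comp (coeHom (N * q))
  | some k => (twistHom (ζ ^ (k : ℕ)) (pow_ne_zero _ hζ)).comp
      ((coeHom (N * q)).comp
        ((atkinLehner N q hq hqN : FF (N * q) ≃ₐ[Kb] FF (N * q)) : FF (N * q) →+* FF (N * q)))

variable {N q hq hqN}

theorem embW_none (ζ : Kb) (hζ : ζ ≠ 0) (f : FF (N * q)) :
    embW N q hq hqN ζ hζ none f = qExpand Kb q (f : LaurentSeries Kb) := rfl

theorem embW_some (ζ : Kb) (hζ : ζ ≠ 0) (k : Fin q) (f : FF (N * q)) :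
    embW N q hq hqN ζ hζ (some k) f =
      twistL (ζ ^ (k : ℕ)) ((atkinLehner N q hq hqN f : FF (N * q)) : LaurentSeries Kb) := rfl

/-- all the embeddings restrict to `c ↦ c(t^q)` on `α F_N` -/
theorem embW_alpha {ζ : Kb} (hζ : ζ ≠ 0) (hζq : ζ ^ q = 1) (i : Option (Fin q)) (c : FF N) :
    embW N q hq hqN ζ hζ i (heckeAlphaBar Kb N q c) = qExpand Kb q (c : LaurentSeries Kb) := by
  cases i with
  | none => rw [embW_none, coe_heckeAlphaBar]
  | some k =>
    rw [embW_some, atkinLehner_heckeAlphaBar, coe_heckeBetaBar]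
    apply twistL_qExpand
    rw [← pow_mul, mul_comm, pow_mul, hζq, one_pow]

/-- the function `j` at level `N` -/
def jN (N : ℕ) [NeZero N] : FF N := ⟨jqModC Kb, helper96.jqModC_mem_FF N⟩

theorem coeff_embW_none {ζ : Kb} (hζ : ζ ≠ 0) :
    (embW N q hq hqN ζ hζ none (heckeBetaBar Kb N q (jN N))).coeff (-1) = 0 := by
  rw [embW_none, coe_heckeBetaBar]
  apply qExpand_coeff_of_not_dvd
  intro h
  have h1 : (q : ℤ) ∣ 1 := (dvd_neg).mp h
  have h2 : q ∣ 1 := by exact_mod_cast h1
  exact hq.one_lt.ne' (Nat.dvd_one.mp h2)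

theorem coeff_embW_some {ζ : Kb} (hζ : ζ ≠ 0) (k : Fin q) :
    (embW N q hq hqN ζ hζ (some k) (heckeBetaBar Kb N q (jN N))).coeff (-1)
      = (ζ ^ (k : ℕ))⁻¹ := by
  rw [embW_some, atkinLehner_heckeBetaBar, coe_heckeAlphaBar, twistL_coeff]
  show (ζ ^ (k : ℕ)) ^ (-1 : ℤ) * (jqModC Kb).coeff (-1) = _
  rw [coeff_jqModC_neg_one, mul_one, zpow_neg_one]

theorem embW_injective {ζ : Kb} (hζ : ζ ≠ 0) (hprim : IsPrimitiveRoot ζ q) :
    Function.Injective (embW N q hq hqN ζ hζ) := by
  intro a b hab
  have hab' := congrArg (fun φ : FF (N * q) →+* LaurentSeries Kb =>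
    (φ (heckeBetaBar Kb N q (jN N))).coeff (-1)) hab
  beta_reduce at hab'
  cases a with
  | none =>
    cases b with
    | none => rfl
    | some k =>
      rw [coeff_embW_none, coeff_embW_some] at hab'
      exact absurd hab'.symm (inv_ne_zero (pow_ne_zero _ hζ))
  | some k =>
    cases b with
    | none =>
      rw [coeff_embW_none, coeff_embW_some] at hab'
      exact absurd hab' (inv_ne_zero (pow_ne_zero _ hζ))
    | some k' =>
      rw [coeff_embW_some, coeff_embW_some] at hab'
      have h1 : ζ ^ (k : ℕ) = ζ ^ (k' : ℕ) := inv_injective hab'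
      have h2 : (k : ℕ) = (k' : ℕ) := hprim.pow_inj k.2 k'.2 h1
      exact congrArg some (Fin.ext h2)

end Emb

/-! ### `A`-integrality of the coefficients of the minimal polynomial -/

section Integral

open Fermat.Agent.P2.helper93 (liftA coeffMap_subtype_liftA rootUnit coe_rootUnit
  coeffMap_subtype_rot coeffMap_subtype_injective)

variable (N q : ℕ) [NeZero N] [NeZero q] (hq : q.Prime) (hqN : ¬ q ∣ N)
variable (A : ValuationSubring Kb)

/-- a series `c` such that `c(t^q)` has coefficients in `A` has coefficients in `A` -/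
theorem exists_incl_of_qExpand_mem {c : LaurentSeries Kb}
    (h : qExpand Kb q c ∈ (incl A).range) : ∃ Z : LaurentSeries A, incl A Z = c := by
  obtain ⟨Z', hZ'⟩ := h
  have hmem : ∀ k, c.coeff k ∈ A := by
    intro k
    have h1 : c.coeff k = (qExpand Kb q c).coeff ((q : ℤ) * k) := (qExpand_coeff_mul q c k).symm
    rw [h1, ← hZ', coeffMap_coeff]
    exact (Z'.coeff _).2
  exact ⟨liftA c hmem, coeffMap_subtype_liftA c hmem⟩

include hq hqN in
/-- **the coefficients of the minimal polynomial of `f` over `α F_N` have `A`-integral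
expansions** if `f` and `W f` do. -/
theorem exists_incl_minpoly_coeff {f : FF (N * q)} {Y₁ Y₂ : LaurentSeries A}
    (hrep : IsRep A (atkinLehner N q hq hqN) f Y₁ Y₂) (n : ℕ) :
    letI := algebraAlong (heckeAlphaBar Kb N q)
    ∃ Z : LaurentSeries A,
      incl A Z = (((minpoly (FF N) f).coeff n : FF N) : LaurentSeries Kb) := by
  letI := algebraAlong (heckeAlphaBar Kb N q)
  have hfr := Fermat.Agent.P2.helper93.finrank_alpha N q hq hqN
  haveI fd : FiniteDimensional (FF N) (FF (N * q)) :=
    Module.finite_of_finrank_pos (by rw [hfr]; omega)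
  haveI : Algebra.IsSeparable (FF N) (FF (N * q)) := inferInstance
  obtain ⟨ζ, hζ⟩ := HasEnoughRootsOfUnity.exists_primitiveRoot Kb q
  have hζ1 : ζ ^ q = 1 := hζ.pow_eq_one
  have hζ0 : ζ ≠ 0 := hζ.ne_zero hq.ne_zero
  have key := minpoly_coeff_mem_of_embeddings (F := FF N) (E := FF (N * q))
    ((qExpand Kb q).comp (coeHom N)) (embW N q hq hqN ζ hζ0) (embW_injective hζ0 hζ)
    (fun i => RingHom.ext fun c => embW_alpha hζ0 hζ1 i c)
    (by rw [Fintype.card_option, Fintype.card_fin, hfr]) (incl A).range f ?_ n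
  · exact exists_incl_of_qExpand_mem q A key
  · intro i
    cases i with
    | none =>
      rw [embW_none, ← hrep.1, ← helper96.incl_qExpand]
      exact ⟨_, rfl⟩
    | some k =>
      rw [embW_some, ← hrep.2]
      have hk1 : (ζ ^ (k : ℕ)) ^ q = 1 := by rw [← pow_mul, mul_comm, pow_mul, hζ1, one_pow]
      refine ⟨Fermat.Agent.P2.helper94.rot (rootUnit A hq.ne_zero hk1) Y₂, ?_⟩
      rw [coeffMap_subtype_rot, coe_rootUnit]

end Integral

/-! ### Regularity of the coefficients of the minimal polynomial -/

section Regular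

open Fermat.Agent.S24 Fermat.Agent.P2

variable (N q : ℕ) [NeZero N] [NeZero q] (hq : q.Prime) (hqN : ¬ q ∣ N)

/-- a function of level `N` whose only pole is `∞` (and which has a pole there) -/
theorem exists_inL_order_neg (N : ℕ) [NeZero N] :
    ∃ (x : LaurentSeries Kb) (n : ℤ), InL (FF N) n x ∧ x.order < 0 := by
  obtain ⟨g, hg⟩ := helper74.riemannStatement (M := N)
  have hP := isInfty_inftyBar N
  have hS := helper96.riemannSetting_FF N
  obtain ⟨c, hc⟩ := helper96.exists_finrank_LSub hS hg (inftyBar N)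
  set n : ℤ := max c ((g : ℤ) + 1) with hn
  have h1 := hc n (le_max_left _ _)
  have h2 : (g : ℤ) + 1 ≤ n := le_max_right _ _
  have h3 : 2 ≤ Module.finrank Kb (helper96.LSub (inftyBar N) n) := by
    have : (2 : ℤ) ≤ (Module.finrank Kb (helper96.LSub (inftyBar N) n) : ℤ) := by linarith
    exact_mod_cast this
  have h0 : Module.finrank Kb (helper96.LSub (inftyBar N) 0) = 1 := by
    rw [helper96.finrank_LSub, Finsupp.single_zero]
    exact helper74.ell_zero hS
  haveI := helper96.finite_LSub hS (inftyBar N) 0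
  have hnle : ¬ helper96.LSub (inftyBar N) n ≤ helper96.LSub (inftyBar N) 0 := by
    intro hle
    have := Submodule.finrank_mono hle
    omega
  obtain ⟨x, hxn, hx0⟩ := SetLike.not_le_iff_exists.mp hnle
  rw [helper96.mem_LSub_iff hP] at hxn hx0
  refine ⟨x, n, hxn, ?_⟩
  by_contra hord
  push Not at hord
  exact hx0 ⟨hxn.1, hxn.2.1, fun k hk => HahnSeries.coeff_eq_zero_of_lt_order
    (lt_of_lt_of_le (by simpa using hk) hord)⟩

include hq hqN in
/-- a function regular off the two cusps is integral over `ℚ̄[x]`, `x` a function of level `N`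
whose only pole is `∞`. -/
theorem exists_monic_of_isReg2 {x : LaurentSeries Kb} {n : ℤ} (hx : InL (FF N) n x)
    (hx0 : x.order < 0) {f : FF (N * q)} (hf : IsReg2 (atkinLehner N q hq hqN) f) :
    ∃ p : Polynomial (Polynomial Kb), p.Monic ∧
      helper81.ev₂ (⟨x, helper96.mem_FF_mul N q hx.1⟩ : FF (N * q)) f p = 0 := by
  set xL : FF (N * q) := ⟨x, helper96.mem_FF_mul N q hx.1⟩ with hxL
  have hxne0 : x ≠ 0 := by
    rintro rfl
    simp at hx0
  have hxL0 : xL ≠ 0 := fun h => hxne0 (congrArg Subtype.val h)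
  have hxne : xL ∉ Set.range (algebraMap Kb (FF (N * q))) := by
    rintro ⟨c, hc⟩
    have h1 : algebraMap Kb (LaurentSeries Kb) c = x := congrArg Subtype.val hc
    rw [← h1, helper29.order_algebraMap] at hx0
    exact lt_irrefl _ hx0
  haveI : FiniteDimensional Kb⟮xJ (N * q)⟯ (FF (N * q)) := helper77.an_finiteDimensional (N * q)
  obtain ⟨hxt, hxfd⟩ := helper82.ff_transcendental (xJ (N * q))
    (helper77.an_transcendental (N * q)) xL hxne
  haveI := hxfd
  have h1 : ∀ P : Place Kb (FF (N * q)), 0 ≤ P.ord xL → 0 ≤ P.ord f := by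
    intro P hP
    refine hf P (fun hI => ?_) (fun hI => ?_)
    · have h2 := hI xL hxL0
      have h3 : ((xL : FF (N * q)) : LaurentSeries Kb).order < 0 := hx0
      omega
    · have h2 := hI xL hxL0
      rw [hxL, helper96.atkinLehner_alpha N q hq hqN hx.1] at h2
      have h3 : (qExpand Kb q x).order = (q : ℤ) * x.order := helper96.order_qExpand q hxne0
      have h4 : (P.ord (⟨x, helper96.mem_FF_mul N q hx.1⟩ : FF (N * q))) =
          (qExpand Kb q x).order := h2
      have hq0 : (0 : ℤ) < q := by exact_mod_cast hq.pos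
      have h5 : (q : ℤ) * x.order < 0 := mul_neg_of_pos_of_neg hq0 hx0
      rw [hxL] at hP
      omega
  have h2 := helper81.isIntegral_of_forall_place xL f h1
  exact helper81.exists_monic_of_isIntegral_adjoin xL f h2

/-- an element of a field which is integral over the image of a ring homomorphism with values
in a valuation subring lies in the valuation subring -/
theorem mem_of_isIntegralElem {R K : Type*} [CommRing R] [Field K] (V : ValuationSubring K)
    (φ : R →+* K) (hφ : ∀ r, φ r ∈ V) {c : K} (hc : φ.IsIntegralElem c) : c ∈ V := by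
  obtain ⟨Q, hQ, hQ0⟩ := hc
  have hint : IsIntegral V c := by
    refine ⟨Q.map (φ.codRestrict V.toSubring hφ), hQ.map _, ?_⟩
    rw [Polynomial.eval₂_map]
    exact hQ0
  exact helper51.mem_of_isIntegral_of_le (V := V) (W := V) (fun a ha => ha) hint

include hq hqN in
/-- **the coefficients of the minimal polynomial of `f` over `α F_N` are regular off
infinity** if `f` is regular off the two cusps. -/
theorem inL_minpoly_coeff {f : FF (N * q)} (hf : IsReg2 (atkinLehner N q hq hqN) f) (n : ℕ) :
    letI := algebraAlong (heckeAlphaBar Kb N q)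
    ∃ m : ℤ, InL (FF N) m (((minpoly (FF N) f).coeff n : FF N) : LaurentSeries Kb) := by
  letI := algebraAlong (heckeAlphaBar Kb N q)
  obtain ⟨x, n0, hx, hx0⟩ := exists_inL_order_neg N
  obtain ⟨p, hp, hp0⟩ := exists_monic_of_isReg2 N q hq hqN hx hx0 hf
  set xN : FF N := ⟨x, hx.1⟩ with hxN
  set φ : Polynomial Kb →+* FF N :=
    ((Polynomial.aeval xN : Polynomial Kb →ₐ[Kb] FF N) : Polynomial Kb →+* FF N) with hφ
  have hcomp : (algebraMap (FF N) (FF (N * q))).comp φ =
      ((Polynomial.aeval (⟨x, helper96.mem_FF_mul N q hx.1⟩ : FF (N * q)) :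
        Polynomial Kb →ₐ[Kb] FF (N * q)) : Polynomial Kb →+* FF (N * q)) := by
    apply Polynomial.ringHom_ext
    · intro a
      show heckeAlphaBar Kb N q (Polynomial.aeval xN (Polynomial.C a)) =
        Polynomial.aeval _ (Polynomial.C a)
      rw [Polynomial.aeval_C, Polynomial.aeval_C, AlgHom.commutes]
    · show heckeAlphaBar Kb N q (Polynomial.aeval xN Polynomial.X) =
        Polynomial.aeval _ Polynomial.X
      rw [Polynomial.aeval_X, Polynomial.aeval_X]
      exact Subtype.ext rfl
  have hc := minpoly_coeff_isIntegral_of_monic (F := FF N) (E := FF (N * q)) φ p hp f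
    (by rw [hcomp]; exact hp0) n
  refine ⟨-(((minpoly (FF N) f).coeff n : FF N) : LaurentSeries Kb).order,
    helper22.exists_inL_of_regular ((minpoly (FF N) f).coeff n).2 fun P hP => ?_⟩
  rw [← helper82.mem_iff_ord_nonneg]
  refine mem_of_isIntegralElem P.toValuationSubring φ (fun r => ?_) hc
  have hxP : xN ∈ P.toValuationSubring := by
    rw [helper82.mem_iff_ord_nonneg]
    exact hx.2.1 P hP
  induction r using Polynomial.induction_on' with
  | add r s hr hs =>
    rw [map_add]
    exact P.toValuationSubring.add_mem _ _ hr hs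
  | monomial k a =>
    rw [hφ]
    show Polynomial.aeval xN (Polynomial.monomial k a) ∈ P.toValuationSubring
    rw [Polynomial.aeval_monomial]
    exact P.toValuationSubring.mul_mem _ _ (P.algebraMap_mem' a) (pow_mem hxP k)

end Regular

/-! ### The reduction -/

section Final

open Fermat.Agent.S24 Fermat.Agent.P2
open Fermat.Agent.P2.helper93 (coeffMap_subtype_injective)

/-- valuation rings are integrally closed, in equation form -/
theorem mem_of_monic_equation {K : Type*} [Field K] (V : ValuationSubring K) (y : K) (d : ℕ)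
    (z : ℕ → K) (hz : ∀ i, z i ∈ V)
    (h : y ^ d + ∑ i ∈ Finset.range d, z i * y ^ i = 0) : y ∈ V := by
  by_contra hy
  have hyinv : y⁻¹ ∈ V := (V.mem_or_inv_mem y).resolve_left hy
  have hy0 : y ≠ 0 := fun h0 => hy (h0 ▸ V.zero_mem)
  rcases Nat.eq_zero_or_pos d with hd | hd
  · subst hd
    simp at h
  have h1 : y ^ d = -∑ i ∈ Finset.range d, z i * y ^ i := eq_neg_of_add_eq_zero_left h
  have h2 : y = y ^ d * (y⁻¹) ^ (d - 1) := by
    have : y ^ d = y * y ^ (d - 1) := by
      rw [← pow_succ', Nat.sub_add_cancel hd]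
    rw [this, mul_assoc, ← mul_pow, mul_inv_cancel₀ hy0, one_pow, mul_one]
  have key : y = -∑ i ∈ Finset.range d, z i * (y⁻¹) ^ (d - 1 - i) := by
    conv_lhs => rw [h2, h1]
    rw [neg_mul, Finset.sum_mul]
    congr 1
    refine Finset.sum_congr rfl fun i hi => ?_
    have hi' : i ≤ d - 1 := by
      have := Finset.mem_range.mp hi
      omega
    have e : (y⁻¹) ^ (d - 1) = (y⁻¹) ^ (d - 1 - i) * (y⁻¹) ^ i := by
      rw [← _root_.pow_add, Nat.sub_add_cancel hi']
    rw [e, mul_assoc]
    congr 1
    rw [mul_comm ((y⁻¹) ^ (d - 1 - i)), ← mul_assoc, ← mul_pow, mul_inv_cancel₀ hy0, one_pow,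
      one_mul]
  apply hy
  rw [key]
  exact V.neg_mem _ (V.toSubring.sum_mem fun i _ => V.mul_mem _ _ (hz i) (pow_mem hyinv _))

variable (N q : ℕ) [NeZero N] [NeZero q] (hq : q.Prime) (hqN : ¬ q ∣ N)
variable (A : ValuationSubring Kb)

/-- **the residue field of `w₁`**: the reduction of an integral series representing a function
of level `M` lies in the special fibre field (from the scaling statement). -/
theorem red_mem_of_scale (M : ℕ) [NeZero M] (hS : ScaleStatement M A) (Y : LaurentSeries A)
    (hY : incl A Y ∈ FF M) : red A Y ∈ FFb A M := by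
  by_cases hY0 : incl A Y = 0
  · have : Y = 0 := coeffMap_subtype_injective (hY0.trans (map_zero _).symm)
    rw [this, map_zero]
    exact zero_mem _
  obtain ⟨c, Z₁, Z₂, hc, hZ₁, hZ₂, h⟩ := hS (incl A Y) hY hY0
  have hr2 : red A Z₂ ≠ 0 := hZ₂.2.2
  rcases A.mem_or_inv_mem c with hcA | hcA
  · have e : constA (⟨c, hcA⟩ : A) * Z₁ = Y * Z₂ := by
      apply coeffMap_subtype_injective
      rw [map_mul, map_mul, coeffMap_subtype_constA]
      exact h
    have e' := congrArg (red A) e
    rw [map_mul, map_mul, coeffMap_residue_constA] at e'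
    have : red A Y = algebraMap (kA A) (LaurentSeries (kA A))
        (IsLocalRing.residue A ⟨c, hcA⟩) * red A Z₁ * (red A Z₂)⁻¹ := by
      rw [e', mul_assoc, mul_inv_cancel₀ hr2, mul_one]
    rw [this]
    exact mul_mem (mul_mem ((FFb A M).algebraMap_mem _) hZ₁.2.1) (inv_mem hZ₂.2.1)
  · have e : Z₁ = constA (⟨c⁻¹, hcA⟩ : A) * (Y * Z₂) := by
      apply coeffMap_subtype_injective
      rw [map_mul, map_mul, coeffMap_subtype_constA]
      show incl A Z₁ = algebraMap Kb (LaurentSeries Kb) c⁻¹ * (incl A Y * incl A Z₂)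
      rw [← h, ← mul_assoc, ← map_mul, inv_mul_cancel₀ hc, map_one, one_mul]
    have e' := congrArg (red A) e
    rw [map_mul, map_mul, coeffMap_residue_constA] at e'
    set r := algebraMap (kA A) (LaurentSeries (kA A)) (IsLocalRing.residue A ⟨c⁻¹, hcA⟩) with hr
    have hr0 : r ≠ 0 := by
      intro h0
      rw [h0, zero_mul] at e'
      exact hZ₁.2.2 e'
    have : red A Y = r⁻¹ * red A Z₁ * (red A Z₂)⁻¹ := by
      rw [e', ← mul_assoc, inv_mul_cancel₀ hr0, one_mul, mul_assoc, mul_inv_cancel₀ hr2, mul_one]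
    rw [this]
    exact mul_mem (mul_mem (inv_mem ((FFb A M).algebraMap_mem _)) hZ₁.2.1) (inv_mem hZ₂.2.1)

include hq hqN in
/-- **[T2-REGRED2], core form**: regularity of the reduction at a place of the special fibre
field of level `N * q` different from infinity. -/
theorem regRed2_of_mem (hA : A.LiesOverPrime q) {f : FF (N * q)} {Y₁ Y₂ : LaurentSeries A}
    (hreg : IsReg2 (atkinLehner N q hq hqN) f)
    (hrep : IsRep A (atkinLehner N q hq hqN) f Y₁ Y₂) (hmem : red A Y₁ ∈ FFb A (N * q)) :
    ∃ n : ℤ, InL (FFb A (N * q)) n (red A Y₁) := by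
  letI := algebraAlong (heckeAlphaBar Kb N q)
  have hfr := Fermat.Agent.P2.helper93.finrank_alpha N q hq hqN
  haveI fd : FiniteDimensional (FF N) (FF (N * q)) :=
    Module.finite_of_finrank_pos (by rw [hfr]; omega)
  have hint : IsIntegral (FF N) f := Algebra.IsIntegral.isIntegral f
  obtain ⟨d, hd⟩ : ∃ d : ℕ, d = (minpoly (FF N) f).natDegree := ⟨_, rfl⟩
  choose Z hZ using fun n => exists_incl_minpoly_coeff N q hq hqN A hrep n
  choose m hm using fun n => inL_minpoly_coeff N q hq hqN hreg n
  have hR : RegRedStatement N A := helper81.regRedStatement N A ⟨q, hq, hqN, hA⟩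
  have hred : ∀ n, InL (FFb A (N * q)) (m n) (red A (Z n)) := by
    intro n
    rw [helper96.FFb_mul_eq N A hq hA]
    exact hR (m n) (Z n) (by rw [hZ n]; exact hm n)
  -- the monic equation in `A((t))`
  have heq : Y₁ ^ d + ∑ i ∈ Finset.range d, Z i * Y₁ ^ i = 0 := by
    apply coeffMap_subtype_injective
    rw [map_add, map_pow, map_sum, map_zero]
    simp_rw [map_mul, map_pow, hZ, hrep.1]
    have h0 := minpoly.aeval (FF N) f
    rw [(minpoly.monic hint).as_sum, ← hd, map_add, map_pow, Polynomial.aeval_X,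
      map_sum] at h0
    simp_rw [map_mul, map_pow, Polynomial.aeval_X, Polynomial.aeval_C] at h0
    have h1 := congrArg (fun y : FF (N * q) => (y : LaurentSeries Kb)) h0
    simp only [AddMemClass.coe_add, SubmonoidClass.coe_pow, ZeroMemClass.coe_zero] at h1
    rw [← h1]
    congr 1
    have h2 : ((∑ i ∈ Finset.range d,
        algebraMap (FF N) (FF (N * q)) ((minpoly (FF N) f).coeff i) * f ^ i :
        FF (N * q)) : LaurentSeries Kb) =
        ∑ i ∈ Finset.range d,
          (((algebraMap (FF N) (FF (N * q)) ((minpoly (FF N) f).coeff i) * f ^ i :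
          FF (N * q)) : FF (N * q)) : LaurentSeries Kb) :=
      map_sum (coeHom (N * q)) _ _
    rw [h2]
    refine Finset.sum_congr rfl fun i _ => ?_
    show _ = ((heckeAlphaBar Kb N q ((minpoly (FF N) f).coeff i) : FF (N * q)) :
      LaurentSeries Kb) * (f : LaurentSeries Kb) ^ i
    rw [coe_heckeAlphaBar]
  have hredeq : red A Y₁ ^ d + ∑ i ∈ Finset.range d, red A (Z i) * red A Y₁ ^ i = 0 := by
    have := congrArg (red A) heq
    rw [map_add, map_pow, map_sum, map_zero] at this
    simp_rw [map_mul, map_pow] at this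
    exact this
  refine ⟨-(red A Y₁).order, helper22.exists_inL_of_regular hmem fun P hP => ?_⟩
  rw [← helper82.mem_iff_ord_nonneg]
  refine mem_of_monic_equation P.toValuationSubring _ d
    (fun i => (⟨red A (Z i), (hred i).1⟩ : FFb A (N * q))) (fun i => ?_) ?_
  · rw [helper82.mem_iff_ord_nonneg]
    exact (hred i).2.1 P hP
  · apply Subtype.ext
    have h3 : ((∑ i ∈ Finset.range d, (⟨red A (Z i), (hred i).1⟩ : FFb A (N * q)) *
        (⟨red A Y₁, hmem⟩ : FFb A (N * q)) ^ i : FFb A (N * q)) : LaurentSeries (kA A)) =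
        ∑ i ∈ Finset.range d, red A (Z i) * red A Y₁ ^ i :=
      map_sum (algebraMap (FFb A (N * q)) (LaurentSeries (kA A))) _ _
    show ((⟨red A Y₁, hmem⟩ : FFb A (N * q)) : LaurentSeries (kA A)) ^ d + _ = 0
    rw [h3]
    exact hredeq

include hq hqN in
/-- **[T2-REGRED2]** `RegRed2Statement` at the level `N * q` for `A` over `q`, from the scaling
statement at the level `N * q`. -/
theorem regRed2 (hA : A.LiesOverPrime q) (hS : ScaleStatement (N * q) A) :
    RegRed2Statement (N * q) A (atkinLehner N q hq hqN) := by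
  intro f Y₁ Y₂ hreg hrep
  exact regRed2_of_mem N q hq hqN A hA hreg hrep
    (red_mem_of_scale A (N * q) hS Y₁ (by rw [hrep.1]; exact f.2))

end Final

end Fermat.Agent.T2.helper87

end
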