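import Mathlib
import Fermat.Agent.P2.helper23_Disc
import Fermat.Agent.T2.helper72_Interface
import Fermat.Agent.T2.helper96_ValW

/-!
# T2 [ROOT2] (helper23): the disc half of `RootEndStatement`

For an involution `W` of `F_M` such that `W j` has a pole at `∞`, a function `H` with
`IsA0One M W A H` (regular off `{∞, ∞₂}`, integral expansions at both cusps with reduction `1`)
whose divisor is divisible by `n` (`n ∈ Aˣ`) has integral formal `n`-th roots with reduction `1`
at both cusps: `Z₁ ^ n = H`, `Z₂ ^ n = W H`.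

Pure wrapper of `Fermat.Agent.P2.helper23.disc_root_of_regular`.
-/

set_option autoImplicit false
set_option linter.unusedSectionVars false

noncomputable section

open HahnSeries IntermediateField AlgebraicCurve ModularCurve
open Fermat.Agent.S18.helper19 Fermat.Agent.P2.helper29

namespace Fermat.Agent.T2.helper23

section Generic

variable {M : ℕ} [NeZero M] (W : FF M ≃ₐ[Kb] FF M) (hWW : ∀ f, W (W f) = f)

include hWW in
theorem ord_smul_invol (P : Place Kb (FF M)) (f : FF M) : (W • P).ord f = P.ord (W f) := by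
  have h := Place.ord_smul W P (W f)
  rwa [hWW] at h

theorem jElt_ne_zero : Fermat.Agent.P2.helper29.jElt M ≠ 0 := by
  intro h
  have h1 := congrArg (fun x : FF M => ((x : LaurentSeries Kb)).order) h
  simp only [ZeroMemClass.coe_zero, HahnSeries.order_zero] at h1
  have h2 : ((Fermat.Agent.P2.helper29.jElt M : FF M) : LaurentSeries Kb).order = -1 :=
    Fermat.Agent.P2.helper29.order_jqModC Kb
  omega

/-- `j` has a pole at `∞` -/
theorem not_isInfty_of_ord_jElt_nonneg {P : Place Kb (FF M)}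
    (hP : 0 ≤ P.ord (Fermat.Agent.P2.helper29.jElt M)) : ¬ IsInfty P := by
  intro h
  have h1 := h _ (jElt_ne_zero (M := M))
  have h2 : ((Fermat.Agent.P2.helper29.jElt M : FF M) : LaurentSeries Kb).order = -1 :=
    Fermat.Agent.P2.helper29.order_jqModC Kb
  omega

/-- `j` has a pole at `∞₂` -/
theorem not_isInftyW_of_ord_jElt_nonneg
    (hWj : ((W (Fermat.Agent.P2.helper29.jElt M) : FF M) : LaurentSeries Kb).order < 0)
    {P : Place Kb (FF M)} (hP : 0 ≤ P.ord (Fermat.Agent.P2.helper29.jElt M)) :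
    ¬ Fermat.Agent.T2.IsInftyW W P := by
  intro h
  have h1 := h _ (jElt_ne_zero (M := M))
  omega

include hWW in
/-- **[ROOT2]** integral `n`-th roots with reduction `1` at both cusps. -/
theorem root_pair
    (hWj : ((W (Fermat.Agent.P2.helper29.jElt M) : FF M) : LaurentSeries Kb).order < 0)
    (A : ValuationSubring Kb) (n : ℕ) (hn : IsUnit ((n : ℕ) : A)) (H : FF M)
    (hH : Fermat.Agent.T2.IsA0One M W A H)
    (hdiv : ∀ P : Place Kb (FF M), (n : ℤ) ∣ P.ord H) :
    ∃ Z₁ Z₂ : LaurentSeries A, (incl A Z₁) ^ n = (H : LaurentSeries Kb) ∧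
      (incl A Z₂) ^ n = ((W H : FF M) : LaurentSeries Kb) ∧ red A Z₁ = 1 ∧ red A Z₂ = 1 := by
  obtain ⟨hreg, Y₁, Y₂, hY₁, hY₂, hr₁, hr₂⟩ := hH
  have hone : red A (1 : LaurentSeries A) = 1 := map_one _
  have hone' : red A (1 : LaurentSeries A) ≠ 0 := by
    rw [hone]
    exact one_ne_zero
  have hincl1 : incl A (1 : LaurentSeries A) = 1 := map_one _
  have hmem1 : incl A (1 : LaurentSeries A) ∈ FF M := by
    rw [hincl1]
    exact one_mem _
  -- nonvanishing
  have hne : ∀ (Y : LaurentSeries A) (G : FF M), incl A Y = (G : LaurentSeries Kb) →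
      red A Y = 1 → G ≠ 0 := by
    rintro Y G hY hr rfl
    have h0 : incl A Y = 0 := by simpa using hY
    have hY0 : Y = 0 := by
      ext k
      have := congrArg (fun Z : LaurentSeries Kb => Z.coeff k) h0
      simpa using this
    rw [hY0, map_zero] at hr
    exact zero_ne_one hr
  have hH0 : H ≠ 0 := hne Y₁ H hY₁ hr₁
  have hWH0 : W H ≠ 0 := hne Y₂ (W H) hY₂ hr₂
  -- the root of `H`
  obtain ⟨Z₁, hZ₁, hZ₁r⟩ := Fermat.Agent.P2.helper23.disc_root_jElt M A n hn H hH0 hdiv
    (fun P hP => hreg P (not_isInfty_of_ord_jElt_nonneg hP)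
      (not_isInftyW_of_ord_jElt_nonneg W hWj hP))
    Y₁ 1 (by rw [hY₁]; exact H.2) hmem1 (by rw [hY₁, hincl1, mul_one]) (by rw [hr₁, hone]) hone'
  -- the root of `W H`
  have hdivW : ∀ P : Place Kb (FF M), (n : ℤ) ∣ P.ord (W H) := by
    intro P
    rw [← ord_smul_invol W hWW]
    exact hdiv _
  have hregW : ∀ P : Place Kb (FF M), 0 ≤ P.ord (Fermat.Agent.P2.helper29.jElt M) →
      0 ≤ P.ord (W H) := by
    intro P hP
    rw [← ord_smul_invol W hWW]
    apply hreg
    · -- `W • P` is not `∞`, else `P = ∞₂`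
      intro h
      apply not_isInftyW_of_ord_jElt_nonneg W hWj hP
      intro f hf
      have h1 := h (W f) ((EmbeddingLike.map_ne_zero_iff).mpr hf)
      rw [ord_smul_invol W hWW, hWW] at h1
      exact h1
    · -- `W • P` is not `∞₂`, else `P = ∞`
      intro h
      apply not_isInfty_of_ord_jElt_nonneg hP
      intro f hf
      have h1 := h (W f) ((EmbeddingLike.map_ne_zero_iff).mpr hf)
      rw [ord_smul_invol W hWW, hWW] at h1
      exact h1
  obtain ⟨Z₂, hZ₂, hZ₂r⟩ := Fermat.Agent.P2.helper23.disc_root_jElt M A n hn (W H) hWH0 hdivW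
    hregW Y₂ 1 (by rw [hY₂]; exact (W H).2) hmem1 (by rw [hY₂, hincl1, mul_one])
    (by rw [hr₂, hone]) hone'
  exact ⟨Z₁, Z₂, hZ₁, hZ₂, hZ₁r, hZ₂r⟩

end Generic

section AtkinLehner

open Fermat.Agent.T2.helper36

variable (N q : ℕ) [NeZero N] [NeZero q] (hq : q.Prime) (hqN : ¬ q ∣ N)

/-- `W j = j(q^q)` has a pole of order `q` at `∞` -/
theorem order_atkinLehner_jElt :
    ((atkinLehner N q hq hqN (Fermat.Agent.P2.helper29.jElt (N * q)) : FF (N * q)) :
      LaurentSeries Kb).order < 0 := by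
  have hj : jqModC Kb ∈ FF N := Fermat.Agent.T2.helper96.jqModC_mem_FF N
  have e : Fermat.Agent.P2.helper29.jElt (N * q) = ⟨jqModC Kb, Fermat.Agent.T2.helper96.mem_FF_mul N q hj⟩ :=
    Subtype.ext rfl
  rw [e, Fermat.Agent.T2.helper96.atkinLehner_alpha N q hq hqN hj]
  show (qExpand Kb q (jqModC Kb)).order < 0
  have h0 : jqModC Kb ≠ 0 := by
    intro h
    have := Fermat.Agent.P2.helper29.order_jqModC Kb
    rw [h, HahnSeries.order_zero] at this
    omega
  rw [Fermat.Agent.T2.helper96.order_qExpand q h0, Fermat.Agent.P2.helper29.order_jqModC]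
  have hq0 : (0 : ℤ) < q := by exact_mod_cast hq.pos
  omega

/-- **[ROOT2]** for the Atkin–Lehner involution of level `N * q`. -/
theorem root_pair_atkinLehner (A : ValuationSubring Kb) (n : ℕ) (hn : IsUnit ((n : ℕ) : A))
    (H : FF (N * q)) (hH : Fermat.Agent.T2.IsA0One (N * q) (atkinLehner N q hq hqN) A H)
    (hdiv : ∀ P : Place Kb (FF (N * q)), (n : ℤ) ∣ P.ord H) :
    ∃ Z₁ Z₂ : LaurentSeries A, (incl A Z₁) ^ n = (H : LaurentSeries Kb) ∧
      (incl A Z₂) ^ n = ((atkinLehner N q hq hqN H : FF (N * q)) : LaurentSeries Kb) ∧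
      red A Z₁ = 1 ∧ red A Z₂ = 1 :=
  root_pair (atkinLehner N q hq hqN) (atkinLehner_atkinLehner N q hq hqN)
    (order_atkinLehner_jElt N q hq hqN) A n hn H hH hdiv

end AtkinLehner

end Fermat.Agent.T2.helper23
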