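import Mathlib
import Fermat.Prelude.Def_ModularCurve_LaurentCoeff
import Fermat.Agent.P2.helper22_LatCountFam
import Fermat.Agent.P2.helper74_InjPivot
import Fermat.Agent.P2.helper74_Content

/-!
# Tier 2 [T2-PIVOT2], abstract form (helper74): the pivot step for finite families of expansions

`V` (think: the pairs `(f_∞, (W f)_∞)` for `f ∈ L(N(∞ + ∞₂))`) and `V'` (the same with `m N`) are
spaces of families of Laurent series over a valued field `L ⊇ A`, with reduction `π : A → k`.
If an integral family `W₀` with reduction `1` and pole orders `≤ n` has `W₀ ^ m ∈ V'`, `m`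
invertible in `k`, and the reduction of `V'_A` in pole order `≤ n` is contained in the reduction
of `V_A`, then `W₀ ∈ V`.
-/

set_option autoImplicit false

noncomputable section

namespace Fermat.Agent.T2.helper74

open ModularCurve HahnSeries
open Fermat.Agent.P2.helper22 Fermat.Agent.P2.helper74

variable {L : Type*} [Field L] {ι : Type*}

section FamMap

variable {R S : Type*} [CommRing R] [CommRing S] (f : R →+* S)

theorem famMap_add (X Y : ι → LaurentSeries R) : famMap f (X + Y) = famMap f X + famMap f Y := by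
  funext i
  simp [famMap]

theorem famMap_sub (X Y : ι → LaurentSeries R) : famMap f (X - Y) = famMap f X - famMap f Y := by
  funext i
  simp [famMap]

theorem famMap_mul (X Y : ι → LaurentSeries R) : famMap f (X * Y) = famMap f X * famMap f Y := by
  funext i
  simp [famMap]

theorem famMap_one : famMap f (1 : ι → LaurentSeries R) = 1 := by
  funext i
  simp [famMap]

theorem famMap_zero : famMap f (0 : ι → LaurentSeries R) = 0 := by
  funext i
  simp [famMap]

theorem famMap_pow (X : ι → LaurentSeries R) (m : ℕ) : famMap f (X ^ m) = famMap f X ^ m := by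
  funext i
  simp [famMap]

theorem famMap_natCast (m : ℕ) : famMap f ((m : ι → LaurentSeries R)) = (m : ι → LaurentSeries S) := by
  funext i
  simp [famMap]

theorem famMap_finsetSum {α : Type*} (s : Finset α) (X : α → ι → LaurentSeries R) :
    famMap f (∑ a ∈ s, X a) = ∑ a ∈ s, famMap f (X a) := by
  funext i
  simp [famMap, Finset.sum_apply]

theorem famMap_smul (a : R) (X : ι → LaurentSeries R) :
    famMap f (a • X) = f a • famMap f X := by
  funext i
  ext j
  simp [famMap]

end FamMap

theorem famMap_subtype_smul (A : ValuationSubring L) (a : A) (X : ι → LaurentSeries A) :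
    famMap A.subtype (a • X) = (a : L) • famMap A.subtype X := by
  funext i
  ext j
  simp [famMap]

theorem fam_mul_smul (c : L) (X Y : ι → LaurentSeries L) : X * (c • Y) = c • (X * Y) := by
  funext i
  exact laurent_mul_smul c (X i) (Y i)

theorem fam_natCast_mul {k : Type*} [Field k] (m : ℕ) (X : ι → LaurentSeries k) :
    (m : ι → LaurentSeries k) * X = (m : k) • X := by
  funext i
  show (m : LaurentSeries k) * X i = (m : k) • X i
  rw [Nat.cast_smul_eq_nsmul, nsmul_eq_mul]

theorem natCast_laurent_ne_zero' {k : Type*} [Field k] (m : ℕ) (hm : (m : k) ≠ 0) :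
    (m : LaurentSeries k) ≠ 0 := by
  intro h
  have h1 : (HahnSeries.C (m : k) : LaurentSeries k) = 0 := by
    rw [map_natCast]
    exact h
  have h2 := congrArg (fun z : LaurentSeries k => z.coeff 0) h1
  simp only [HahnSeries.C_apply, HahnSeries.coeff_single_same, HahnSeries.coeff_zero] at h2
  exact hm h2

/-- The Gauss norm of the family is attained at `u`: some scalar multiple of `u` is integral with
nonzero reduction. -/
def ContentAttainedFam (A : ValuationSubring L) {k : Type*} [Field k] (π : A →+* k)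
    (u : ι → LaurentSeries L) : Prop :=
  ∃ c : L, c ≠ 0 ∧ ∃ Y : ι → LaurentSeries A, famMap A.subtype Y = c • u ∧ famMap π Y ≠ 0

theorem ContentAttainedFam.smul {A : ValuationSubring L} {k : Type*} [Field k] {π : A →+* k}
    {u : ι → LaurentSeries L} (h : ContentAttainedFam A π u) {c : L} (hc : c ≠ 0) :
    ContentAttainedFam A π (c • u) := by
  obtain ⟨c', hc', Y, hY, hYπ⟩ := h
  refine ⟨c' * c⁻¹, mul_ne_zero hc' (inv_ne_zero hc), Y, ?_, hYπ⟩
  rw [hY, smul_smul, mul_assoc, inv_mul_cancel₀ hc, mul_one]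

/-- **The pivot step for families.** -/
theorem mem_of_pow_mem_fam (A : ValuationSubring L) {k : Type*} [Field k] (π : A →+* k)
    (hπ : ∀ x : A, π x ≠ 0 → IsUnit x) (hπs : Function.Surjective π)
    (V V' : Submodule L (ι → LaurentSeries L)) [FiniteDimensional L V] (n : ι → ℤ)
    (hn : ∀ i, 0 ≤ n i) (m : ℕ) (hm : π (m : A) ≠ 0)
    (hVatt : ∀ u ∈ V, u ≠ 0 → ContentAttainedFam A π u)
    (hVord : ∀ u ∈ V, ∀ i, ∀ j < -(n i), (u i).coeff j = 0)
    (hpow : ∀ u ∈ V, u ^ m ∈ V')
    (hred : ∀ Z : ι → LaurentSeries A, famMap A.subtype Z ∈ V' →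
      (∀ i, ∀ j < -(n i), (famMap π Z i).coeff j = 0) →
      ∃ Z' : ι → LaurentSeries A, famMap A.subtype Z' ∈ V ∧ famMap π Z' = famMap π Z)
    (W₀ : ι → LaurentSeries A) (hW₀ : (famMap A.subtype W₀) ^ m ∈ V')
    (hW₀red : famMap π W₀ = 1) (hW₀ord : ∀ i, ∀ j < -(n i), (W₀ i).coeff j = 0)
    (hatt : ∀ u ∈ V, famMap A.subtype W₀ - u ≠ 0 →
      ContentAttainedFam A π (famMap A.subtype W₀ - u)) :
    famMap A.subtype W₀ ∈ V := by
  classical
  by_contra hW
  set w₀ : ι → LaurentSeries L := famMap A.subtype W₀ with hw₀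
  -- the enlarged space
  set Vp : Submodule L (ι → LaurentSeries L) := V ⊔ Submodule.span L {w₀} with hVp
  have hVpfd : FiniteDimensional L Vp := by
    rw [hVp]
    infer_instance
  have hmemVp : ∀ x ∈ Vp, ∃ v ∈ V, ∃ c : L, x = v + c • w₀ := by
    intro x hx
    rw [hVp, Submodule.mem_sup] at hx
    obtain ⟨v, hv, y, hy, rfl⟩ := hx
    rw [Submodule.mem_span_singleton] at hy
    obtain ⟨c, rfl⟩ := hy
    exact ⟨v, hv, c, rfl⟩
  have hVpatt : ∀ u ∈ Vp, u ≠ 0 → ∃ c : L, c ≠ 0 ∧ ∃ Y : ι → LaurentSeries A,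
      famMap A.subtype Y = c • u ∧ famMap π Y ≠ 0 := by
    intro u hu hu0
    obtain ⟨v, hv, c, rfl⟩ := hmemVp u hu
    rcases eq_or_ne c 0 with rfl | hc
    · rw [zero_smul, add_zero] at hu0 ⊢
      exact hVatt v hv hu0
    · have h1 : v + c • w₀ = c • (w₀ - (-(c⁻¹ • v))) := by
        rw [sub_neg_eq_add, smul_add, smul_smul, mul_inv_cancel₀ hc, one_smul, add_comm]
      rw [h1] at hu0 ⊢
      have h2 : w₀ - (-(c⁻¹ • v)) ≠ 0 := by
        intro h
        rw [h, smul_zero] at hu0
        exact hu0 rfl
      exact (hatt _ (V.neg_mem (V.smul_mem _ hv)) h2).smul hc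
  obtain ⟨Y, hYV, -, hYgen, -⟩ := exists_integral_basis_fam A π hπ V hVatt
  obtain ⟨Yp, hYpV, -, -, hYpred⟩ := exists_integral_basis_fam A π hπ Vp hVpatt
  have hli := linearIndependent_famMap_of_forall A π hπs Yp hYpred
  -- dimension of the enlarged space
  have hw₀0 : w₀ ≠ 0 := fun h => hW (h ▸ V.zero_mem)
  have hdim : Module.finrank L Vp = Module.finrank L V + 1 := by
    have h1 := Submodule.finrank_sup_add_finrank_inf_eq V (Submodule.span L {w₀})
    have h2 : V ⊓ Submodule.span L {w₀} = ⊥ := by
      rw [eq_bot_iff]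
      rintro x ⟨hxV, hxs⟩
      rw [SetLike.mem_coe, Submodule.mem_span_singleton] at hxs
      obtain ⟨c, rfl⟩ := hxs
      rw [Submodule.mem_bot]
      rcases eq_or_ne c 0 with rfl | hc
      · exact zero_smul _ _
      · exfalso
        apply hW
        have := V.smul_mem c⁻¹ hxV
        rwa [smul_smul, inv_mul_cancel₀ hc, one_smul] at this
    rw [h2, finrank_bot, add_zero, finrank_span_singleton hw₀0] at h1
    exact h1
  -- the reduction of `V_A`
  set R : Submodule k (ι → LaurentSeries k) :=
    Submodule.span k (Set.range fun i => famMap π (Y i)) with hR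
  have hRfd : FiniteDimensional k R := FiniteDimensional.span_of_finite k (Set.finite_range _)
  have hRV : ∀ Z : ι → LaurentSeries A, famMap A.subtype Z ∈ V → famMap π Z ∈ R := by
    intro Z hZ
    obtain ⟨a, rfl⟩ := hYgen Z hZ
    rw [famMap_sum]
    refine Submodule.sum_mem _ fun i _ => ?_
    exact Submodule.smul_mem _ _ (Submodule.subset_span ⟨i, rfl⟩)
  -- `1` lies in the reduction
  have hone : (1 : ι → LaurentSeries k) ∈ R := by
    obtain ⟨Z', hZ'V, hZ'⟩ := hred (W₀ ^ m) (by rw [famMap_pow]; exact hW₀) (by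
      intro i j hj
      rw [famMap_pow, hW₀red, one_pow]
      show (1 : LaurentSeries k).coeff j = 0
      rw [HahnSeries.coeff_one, if_neg]
      have := hn i
      omega)
    have := hRV Z' hZ'V
    rwa [hZ', famMap_pow, hW₀red, one_pow] at this
  -- the key claim
  have hclaim : ∀ Z : ι → LaurentSeries A, famMap A.subtype Z ∈ Vp → famMap π Z ∈ R := by
    intro Z hZ
    obtain ⟨v, hv, c, hx⟩ := hmemVp _ hZ
    by_cases hcA' : c ∈ A
    · have h1 : famMap A.subtype (Z - (⟨c, hcA'⟩ : A) • W₀) = v := by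
        rw [famMap_sub, famMap_subtype_smul, hx]
        show v + c • w₀ - c • w₀ = v
        abel
      have h2 := hRV (Z - (⟨c, hcA'⟩ : A) • W₀) (by rw [h1]; exact hv)
      rw [famMap_sub, famMap_smul, hW₀red] at h2
      have h3 := R.add_mem h2 (R.smul_mem (π ⟨c, hcA'⟩) hone)
      rwa [sub_add_cancel] at h3
    have hcA : c⁻¹ ∈ A := (A.mem_or_inv_mem c).resolve_left hcA'
    have hc0 : c ≠ 0 := by
      rintro rfl
      exact hcA' A.zero_mem
    set a' : A := ⟨c⁻¹, hcA⟩ with ha'
    have hπa' : π a' = 0 := by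
      by_contra h
      obtain ⟨w, hw⟩ := hπ a' h
      apply hcA'
      have h1 : ((w⁻¹ : Aˣ) : A) * a' = 1 := by rw [← hw]; exact Units.inv_mul w
      have h2 : (((w⁻¹ : Aˣ) : A) : L) * c⁻¹ = 1 := by
        have := congrArg (fun z : A => (z : L)) h1
        simpa using this
      have h3 : c = (((w⁻¹ : Aˣ) : A) : L) := by
        field_simp at h2
        exact h2.symm
      rw [h3]
      exact ((w⁻¹ : Aˣ) : A).2
    -- the integral element `U' = W₀ - a' Z` of `V`
    set U' : ι → LaurentSeries A := W₀ - a' • Z with hU'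
    have hU'V : famMap A.subtype U' = -(c⁻¹ • v) := by
      rw [hU', famMap_sub, famMap_subtype_smul, hx]
      show w₀ - c⁻¹ • (v + c • w₀) = -(c⁻¹ • v)
      rw [smul_add, smul_smul, inv_mul_cancel₀ hc0, one_smul]
      abel
    have hU'mem : famMap A.subtype U' ∈ V := by
      rw [hU'V]
      exact V.neg_mem (V.smul_mem _ hv)
    have hU'red : famMap π U' = 1 := by
      rw [hU', famMap_sub, famMap_smul, hπa', zero_smul, sub_zero, hW₀red]
    -- the geometric sum
    set Θ : ι → LaurentSeries A := ∑ i ∈ Finset.range m, W₀ ^ i * U' ^ (m - 1 - i) with hΘ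
    have hΘmul : Θ * (a' • Z) = W₀ ^ m - U' ^ m := by
      have := (Commute.all W₀ U').geom_sum₂_mul m
      rw [← this, hU']
      congr 1
      abel
    have hΘred : famMap π Θ = (m : ι → LaurentSeries k) := by
      rw [hΘ, famMap_finsetSum]
      simp only [famMap_mul, famMap_pow, hW₀red, hU'red, one_pow, mul_one]
      simp
    have hΘZ : famMap A.subtype (Θ * Z) ∈ V' := by
      have h1 : famMap A.subtype (Θ * Z)
          = c • (w₀ ^ m - (famMap A.subtype U') ^ m) := by
        have h2 := congrArg (famMap A.subtype) hΘmul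
        rw [famMap_mul, famMap_subtype_smul, famMap_sub, famMap_pow, famMap_pow] at h2
        rw [← hw₀] at h2
        rw [← h2, famMap_mul]
        show _ = c • (famMap A.subtype Θ * (c⁻¹ • famMap A.subtype Z))
        rw [fam_mul_smul, smul_smul, mul_inv_cancel₀ hc0, one_smul]
      rw [h1]
      exact V'.smul_mem _ (V'.sub_mem hW₀ (hpow _ hU'mem))
    have hZord : ∀ i, ∀ j < -(n i), (Z i).coeff j = 0 := by
      intro i j hj
      have h1 : (famMap A.subtype Z i).coeff j = 0 := by
        rw [hx]
        show (v i + c • w₀ i).coeff j = 0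
        rw [HahnSeries.coeff_add, HahnSeries.coeff_smul, hVord v hv i j hj, hw₀,
          famMap_apply, coeffMap_coeff, hW₀ord i j hj]
        simp
      rw [famMap_apply, coeffMap_coeff] at h1
      exact Subtype.ext h1
    obtain ⟨Z', hZ'V, hZ'⟩ := hred (Θ * Z) hΘZ (by
      intro i j hj
      rw [famMap_mul, hΘred, fam_natCast_mul]
      show ((m : k) • famMap π Z i).coeff j = 0
      rw [HahnSeries.coeff_smul, famMap_apply, coeffMap_coeff, hZord i j hj, map_zero,
        smul_zero])
    have h5 := hRV Z' hZ'V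
    rw [hZ', famMap_mul, hΘred, fam_natCast_mul] at h5
    have h6 : ((m : ℕ) : k) = π (m : A) := (map_natCast π m).symm
    rw [h6] at h5
    have h7 := R.smul_mem (π (m : A))⁻¹ h5
    rwa [smul_smul, inv_mul_cancel₀ hm, one_smul] at h7
  -- count
  have h1 : Module.finrank k (Submodule.span k (Set.range fun i => famMap π (Yp i)))
      = Module.finrank L Vp := by
    rw [finrank_span_eq_card hli, Fintype.card_fin]
  have h2 : Submodule.span k (Set.range fun i => famMap π (Yp i)) ≤ R := by
    rw [Submodule.span_le]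
    rintro _ ⟨i, rfl⟩
    exact hclaim (Yp i) (hYpV i)
  have h3 : Module.finrank k R ≤ Module.finrank L V := by
    have := finrank_span_le_card (R := k) (Set.range fun i => famMap π (Y i))
    rw [hR]
    refine this.trans ?_
    rw [Set.toFinset_range]
    exact (Finset.card_image_le).trans (by rw [Finset.card_univ, Fintype.card_fin])
  have h4 := Submodule.finrank_mono h2
  omega

/-- **Attained content of `W₀ - u`.** Over a valuation ring with (ARCH), if the Gauss norm is
attained on `V` and on `V'`, `u ^ m ∈ V'` for `u ∈ V`, `W₀ ^ m ∈ V'` and `W₀` reduces to `1`,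
then the Gauss norm is attained on every nonzero `W₀ - u`, `u ∈ V`. -/
theorem contentAttained_sub_fam (A : ValuationSubring L) {k : Type*} [Field k] (π : A →+* k)
    (hπ : ∀ x : A, π x ≠ 0 → IsUnit x) (hArch : Arch A π) (m : ℕ) (hm : π (m : A) ≠ 0)
    (V V' : Submodule L (ι → LaurentSeries L))
    (hVatt : ∀ u ∈ V, u ≠ 0 → ContentAttainedFam A π u)
    (hV'att : ∀ u ∈ V', u ≠ 0 → ContentAttainedFam A π u)
    (hpow : ∀ u ∈ V, u ^ m ∈ V')
    (W₀ : ι → LaurentSeries A) (hW₀ : (famMap A.subtype W₀) ^ m ∈ V')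
    (hW₀red : famMap π W₀ = 1) :
    ∀ u ∈ V, famMap A.subtype W₀ - u ≠ 0 →
      ContentAttainedFam A π (famMap A.subtype W₀ - u) := by
  classical
  intro u hu hne
  have hmk : ((m : ℕ) : k) ≠ 0 := by
    have := hm
    rwa [map_natCast] at this
  -- a component where `W₀ - u` does not vanish
  obtain ⟨i₀, hi₀⟩ : ∃ i, (famMap A.subtype W₀ - u) i ≠ 0 := by
    by_contra h
    push Not at h
    exact hne (funext h)
  have hone : (1 : ι → LaurentSeries k) ≠ 0 := by
    intro h
    have := congrFun h i₀
    exact one_ne_zero this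
  by_cases hu0 : u = 0
  · subst hu0
    refine ⟨1, one_ne_zero, W₀, ?_, ?_⟩
    · rw [one_smul, sub_zero]
    · rw [hW₀red]
      exact hone
  obtain ⟨cu, hcu, Yu, hYu, hYur⟩ := hVatt u hu hu0
  by_cases hcuA : cu⁻¹ ∈ A
  · -- `u` is integral
    set U : ι → LaurentSeries A := (⟨cu⁻¹, hcuA⟩ : A) • Yu with hU
    have hUu : famMap A.subtype U = u := by
      rw [hU, famMap_subtype_smul, hYu]
      show cu⁻¹ • cu • u = u
      rw [smul_smul, inv_mul_cancel₀ hcu, one_smul]
    by_cases hr : famMap π (W₀ - U) = 0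
    · -- the congruent case
      have hUred : famMap π U = 1 := by
        have h1 := hr
        rw [famMap_sub, hW₀red, sub_eq_zero] at h1
        exact h1.symm
      set Θ : ι → LaurentSeries A := ∑ i ∈ Finset.range m, W₀ ^ i * U ^ (m - 1 - i) with hΘ
      have hΘmul : (W₀ - U) * Θ = W₀ ^ m - U ^ m := by
        rw [hΘ, mul_comm]
        exact (Commute.all W₀ U).geom_sum₂_mul m
      have hΘred : famMap π Θ = (m : ι → LaurentSeries k) := by
        rw [hΘ, famMap_finsetSum]
        simp only [famMap_mul, famMap_pow, hW₀red, hUred, one_pow, mul_one]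
        simp
      have hΘi : ∀ i, coeffMap π (Θ i) ≠ 0 := by
        intro i
        have h1 : coeffMap π (Θ i) = (m : LaurentSeries k) := congrFun hΘred i
        rw [h1]
        exact natCast_laurent_ne_zero' m hmk
      have hd : famMap A.subtype (W₀ ^ m - U ^ m) ∈ V' := by
        rw [famMap_sub, famMap_pow, famMap_pow, hUu]
        exact V'.sub_mem hW₀ (hpow u hu)
      have hdne : famMap A.subtype (W₀ ^ m - U ^ m) ≠ 0 := by
        intro h0
        have h1 := congrFun h0 i₀
        rw [← hΘmul, famMap_mul] at h1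
        have h2 : (famMap A.subtype (W₀ - U)) i₀ * (famMap A.subtype Θ) i₀ = 0 := h1
        rcases mul_eq_zero.mp h2 with h3 | h3
        · apply hi₀
          rw [← hUu, ← famMap_sub]
          exact h3
        · apply hΘi i₀
          have h4 : Θ i₀ = 0 :=
            coeffMap_subtype_injective A (h3.trans (map_zero _).symm)
          rw [h4, map_zero]
      obtain ⟨c', hc', P, hP, hPr⟩ := hV'att _ hd hdne
      have hc'A : c'⁻¹ ∈ A := by
        by_contra h
        have hc'A' : c' ∈ A := (A.mem_or_inv_mem c').resolve_right h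
        apply hPr
        have hPeq : P = (⟨c', hc'A'⟩ : A) • (W₀ ^ m - U ^ m) := by
          apply famMap_subtype_injective A
          rw [hP, famMap_subtype_smul]
        rw [hPeq, famMap_smul, famMap_sub, famMap_pow, famMap_pow, hW₀red, hUred, sub_self,
          smul_zero]
      set e : A := ⟨c'⁻¹, hc'A⟩ with he_def
      have he : e ≠ 0 := by
        intro h
        have h1 : (e : L) = 0 := by rw [h]; rfl
        exact inv_ne_zero hc' h1
      have hPe : (W₀ - U) * Θ = e • P := by
        rw [hΘmul]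
        apply famMap_subtype_injective A
        rw [famMap_subtype_smul, hP, smul_smul]
        show _ = (c'⁻¹ * c') • _
        rw [inv_mul_cancel₀ hc', one_smul]
      have hex : ∀ i, ∃ δ : LaurentSeries A, (W₀ - U) i = e • δ := fun i =>
        exists_eq_smul_of_mul_eq hπ hArch ((W₀ - U) i) (Θ i) (P i) e he (hΘi i)
          (congrFun hPe i)
      choose δ' hδ' using hex
      have hδ'eq : W₀ - U = e • δ' := funext hδ'
      have hδP : δ' * Θ = P := by
        funext i
        have h1 : HahnSeries.C e * (δ' i * Θ i) = HahnSeries.C e * P i := by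
          rw [← mul_assoc, HahnSeries.C_mul_eq_smul, ← hδ' i, HahnSeries.C_mul_eq_smul]
          exact congrFun hPe i
        refine HahnSeries.ext (funext fun j => ?_)
        have h2 := congrArg (fun z : LaurentSeries A => z.coeff j) h1
        simp only [HahnSeries.C_mul_eq_smul, HahnSeries.coeff_smul, smul_eq_mul] at h2
        exact mul_left_cancel₀ he h2
      refine ⟨c', hc', δ', ?_, ?_⟩
      · have h1 : famMap A.subtype (W₀ - U) = (e : L) • famMap A.subtype δ' := by
          rw [hδ'eq, famMap_subtype_smul]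
        have h2 : famMap A.subtype W₀ - u = famMap A.subtype (W₀ - U) := by
          rw [famMap_sub, hUu]
        rw [h2, h1, smul_smul]
        show _ = (c' * c'⁻¹) • _
        rw [mul_inv_cancel₀ hc', one_smul]
      · intro h0
        apply hPr
        rw [← hδP, famMap_mul, h0, zero_mul]
    · refine ⟨1, one_ne_zero, W₀ - U, ?_, hr⟩
      rw [one_smul, famMap_sub, hUu]
  · -- `u` is not integral
    have hcuA' : cu ∈ A := (A.mem_or_inv_mem cu).resolve_right hcuA
    have hcu0 : π (⟨cu, hcuA'⟩ : A) = 0 := by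
      by_contra h
      obtain ⟨v, hv⟩ := hπ _ h
      apply hcuA
      have h1 : ((v⁻¹ : Aˣ) : A) * (⟨cu, hcuA'⟩ : A) = 1 := by
        rw [← hv]
        exact Units.inv_mul v
      have h2 : (((v⁻¹ : Aˣ) : A) : L) * cu = 1 := congrArg Subtype.val h1
      have h3 : cu⁻¹ = (((v⁻¹ : Aˣ) : A) : L) := (eq_inv_of_mul_eq_one_left h2).symm
      rw [h3]
      exact Subtype.property _
    refine ⟨cu, hcu, (⟨cu, hcuA'⟩ : A) • W₀ - Yu, ?_, ?_⟩
    · rw [famMap_sub, famMap_subtype_smul, hYu, smul_sub]
    · rw [famMap_sub, famMap_smul, hcu0, zero_smul, zero_sub, neg_ne_zero]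
      exact hYur

/-- **The pivot step for families, with (ARCH).** The hypothesis on the attained content of
`W₀ - u` is discharged from the attained content on `V` and `V'`. -/
theorem mem_of_pow_mem_fam_arch (A : ValuationSubring L) {k : Type*} [Field k] (π : A →+* k)
    (hπ : ∀ x : A, π x ≠ 0 → IsUnit x) (hπs : Function.Surjective π) (hArch : Arch A π)
    (V V' : Submodule L (ι → LaurentSeries L)) [FiniteDimensional L V] (n : ι → ℤ)
    (hn : ∀ i, 0 ≤ n i) (m : ℕ) (hm : π (m : A) ≠ 0)
    (hVatt : ∀ u ∈ V, u ≠ 0 → ContentAttainedFam A π u)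
    (hV'att : ∀ u ∈ V', u ≠ 0 → ContentAttainedFam A π u)
    (hVord : ∀ u ∈ V, ∀ i, ∀ j < -(n i), (u i).coeff j = 0)
    (hpow : ∀ u ∈ V, u ^ m ∈ V')
    (hred : ∀ Z : ι → LaurentSeries A, famMap A.subtype Z ∈ V' →
      (∀ i, ∀ j < -(n i), (famMap π Z i).coeff j = 0) →
      ∃ Z' : ι → LaurentSeries A, famMap A.subtype Z' ∈ V ∧ famMap π Z' = famMap π Z)
    (W₀ : ι → LaurentSeries A) (hW₀ : (famMap A.subtype W₀) ^ m ∈ V')
    (hW₀red : famMap π W₀ = 1) (hW₀ord : ∀ i, ∀ j < -(n i), (W₀ i).coeff j = 0) :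
    famMap A.subtype W₀ ∈ V :=
  mem_of_pow_mem_fam A π hπ hπs V V' n hn m hm hVatt hVord hpow hred W₀ hW₀ hW₀red hW₀ord
    (contentAttained_sub_fam A π hπ hArch m hm V V' hVatt hV'att hpow W₀ hW₀ hW₀red)

end Fermat.Agent.T2.helper74

end
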