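/-
T2 [ROOT-END] (helper74): `helper72.RootEndStatement` for the pair of cusps.

* `rootEnd_of`  : generic in the level `M` and the involution `W`: from the disc step
  (`helper23.disc_root_jElt`, applied to `H` and to `W H`) and the pivot step `pivot2`.
  Hypotheses: (V2) pair normalisation, `Integrality2Statement`, `Sat2Statement` (helper22's
  shapes), and `W j` has a pole at `∞`.
* `pairNorm_bad`, `rootEnd_bad` : the instance `M = N * q`, `W = atkinLehner N q`, `A | q`.
-/
import Mathlib
import Fermat.Agent.T2.helper74_Pivot2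
import Fermat.Agent.T2.helper58_ScaleBad
import Fermat.Agent.P2.helper23_Disc

set_option autoImplicit false
set_option synthInstance.maxHeartbeats 400000
set_option linter.unusedSectionVars false
set_option linter.style.haveILetI false

noncomputable section

open HahnSeries IntermediateField AlgebraicCurve ModularCurve
open Fermat.Agent.S18.helper19 Fermat.Agent.P2.helper29 Fermat.Agent.T2.helper36

namespace Fermat.Agent.T2.helper74

section Generic

variable {M : ℕ} [NeZero M] (W : FF M ≃ₐ[Kb] FF M) (A : ValuationSubring Kb)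

/-- **[ROOT-END]**, generic form. -/
theorem rootEnd_of (hWW : ∀ f, W (W f) = f) (hne : inftyBar M ≠ W • inftyBar M)
    (hjW : ((W (jElt M) : FF M) : LaurentSeries Kb).order < 0)
    (ℓ : ℕ) (hℓ : ℓ.Prime) (hA : A.LiesOverPrime ℓ) (n : ℕ) (hn : ¬ ℓ ∣ n)
    (hPN : PairNormStatement W A)
    (hInt : Fermat.Agent.T2.helper22.Integrality2Statement M A W)
    (hSat : Fermat.Agent.T2.helper22.Sat2Statement M A W) :
    RootEndStatement M W A n := by
  rintro H ⟨hreg, Y₁, Y₂, hY₁, hY₂, hr1, hr2⟩ hdiv
  have hregH : RegOff2 W H := hreg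
  have hres : IsLocalRing.residue A (n : A) ≠ 0 :=
    Fermat.Agent.P2.helper74.residue_natCast_ne_zero A ℓ hℓ hA n hn
  have hm : IsUnit ((n : ℕ) : A) := Fermat.Agent.P2.helper96.isUnit_of_residue_ne_zero _ hres
  have hH0 : H ≠ 0 := by
    rintro rfl
    have h0 : incl A Y₁ = 0 := hY₁
    have h1 : Y₁ = 0 := incl_injective' (h0.trans (map_zero _).symm)
    rw [h1, map_zero] at hr1
    exact zero_ne_one hr1
  have hWH0 : W H ≠ 0 := (EmbeddingLike.map_ne_zero_iff).mpr hH0
  have hj0 : jElt M ≠ 0 := by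
    intro h
    have h1 : ((jElt M : FF M) : LaurentSeries Kb).order = -1 := order_jqModC Kb
    rw [h] at h1
    simp at h1
  have hWj0 : W (jElt M) ≠ 0 := (EmbeddingLike.map_ne_zero_iff).mpr hj0
  -- places where `j` is finite are off the two cusps
  have hoff : ∀ P : Place Kb (FF M), 0 ≤ P.ord (jElt M) → ¬ IsInfty P ∧ ¬ IsInftyW W P := by
    intro P hP
    constructor
    · intro h
      have h1 := h (jElt M) hj0
      have h2 : ((jElt M : FF M) : LaurentSeries Kb).order = -1 := order_jqModC Kb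
      omega
    · intro h
      have h1 := h (jElt M) hj0
      omega
  have hone : coeffMap A.subtype (1 : LaurentSeries A) = 1 := map_one _
  have honer : coeffMap (IsLocalRing.residue A) (1 : LaurentSeries A) = 1 := map_one _
  obtain ⟨Z₁, hZ₁, hZ₁r⟩ := Fermat.Agent.P2.helper23.disc_root_jElt M A n hm H hH0 hdiv
    (fun P hP => hregH P (hoff P hP).1 (hoff P hP).2) Y₁ 1
    (by rw [show coeffMap A.subtype Y₁ = (H : LaurentSeries Kb) from hY₁]; exact H.2)
    (by rw [hone]; exact one_mem _)
    (by rw [hone, mul_one]; exact hY₁)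
    (by rw [honer]; exact hr1)
    (by rw [honer]; exact one_ne_zero)
  obtain ⟨Z₂, hZ₂, hZ₂r⟩ := Fermat.Agent.P2.helper23.disc_root_jElt M A n hm (W H) hWH0
    (fun P => by
      have := hdiv (W • P)
      rwa [ord_smul_of_invol W hWW] at this)
    (fun P hP => (RegOff2.map_W W hWW hregH) P (hoff P hP).1 (hoff P hP).2) Y₂ 1
    (by rw [show coeffMap A.subtype Y₂ = ((W H : FF M) : LaurentSeries Kb) from hY₂]
        exact (W H).2)
    (by rw [hone]; exact one_mem _)
    (by rw [hone, mul_one]; exact hY₂)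
    (by rw [honer]; exact hr2)
    (by rw [honer]; exact one_ne_zero)
  obtain ⟨v, hv1, -⟩ := pivot2 W A hWW hne ℓ hℓ hA n hn hPN hInt hSat H hregH Z₁ Z₂ hZ₁ hZ₂
    hZ₁r hZ₂r
  refine ⟨1, v, ?_⟩
  rw [map_one, one_mul]
  apply Subtype.ext
  show (H : LaurentSeries Kb) = ((v : LaurentSeries Kb)) ^ n
  rw [hv1, hZ₁]

end Generic

/-! ### The instance `M = N * q`, `W = atkinLehner N q` -/

section Bad

variable (N q : ℕ) [NeZero N] [NeZero q] (hq : q.Prime) (hqN : ¬ q ∣ N)
variable (A : ValuationSubring Kb) (hA : A.LiesOverPrime q)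

include hA in
/-- (V2) at the bad level, from `helper58.pair_scale` -/
theorem pairNorm_bad : PairNormStatement (atkinLehner N q hq hqN) A := by
  intro f hf
  obtain ⟨γ, N₁, D, N₂, hγ, hN₁, hD, hN₂, h1, h2, hor⟩ :=
    Fermat.Agent.T2.helper58.pair_scale N q hq hqN A hA f hf
  exact ⟨γ, N₁, D, N₂, qExpand A q D, hγ, hN₁.1,
    Fermat.Agent.T2.helper96.isGood_alpha N A hq hA hD, hN₂.1,
    Fermat.Agent.T2.helper96.isGood_beta N A hq hA hD, h1, h2, hor⟩

/-- `W j = j(t^q)` has a pole at `∞` -/
theorem order_atkinLehner_jElt :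
    ((atkinLehner N q hq hqN (jElt (N * q)) : FF (N * q)) : LaurentSeries Kb).order < 0 := by
  have e : jElt (N * q) = heckeAlphaBar Kb N q (jElt N) := Subtype.ext rfl
  rw [e, atkinLehner_heckeAlphaBar, coe_heckeBetaBar]
  have h1 : ((jElt N : FF N) : LaurentSeries Kb).order = -1 := order_jqModC Kb
  have h0 : ((jElt N : FF N) : LaurentSeries Kb) ≠ 0 := by
    intro h
    rw [h] at h1
    simp at h1
  rw [Fermat.Agent.T2.helper96.order_qExpand q h0, h1]
  have : (0 : ℤ) < (q : ℤ) := by exact_mod_cast hq.pos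
  omega

include hA in
/-- **[ROOT-END]** at the bad level `N * q` (`A` over `q`, `q ∤ n`), from `Integrality2` and
`Sat2`. -/
theorem rootEnd_bad (n : ℕ) (hn : ¬ q ∣ n)
    (hInt : Fermat.Agent.T2.helper22.Integrality2Statement (N * q) A (atkinLehner N q hq hqN))
    (hSat : Fermat.Agent.T2.helper22.Sat2Statement (N * q) A (atkinLehner N q hq hqN)) :
    RootEndStatement (N * q) (atkinLehner N q hq hqN) A n :=
  rootEnd_of (atkinLehner N q hq hqN) A (atkinLehner_atkinLehner N q hq hqN)
    (inftyBar_ne_smul N q hq hqN) (order_atkinLehner_jElt N q hq hqN) q hq hA n hn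
    (pairNorm_bad N q hq hqN A hA) hInt hSat

end Bad

end Fermat.Agent.T2.helper74

end
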