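/-
T2 [REG-alpha], abstract part (helper74).

`K` algebraically closed of characteristic `0`, `F' / K`, `F / K` function fields of one
variable (finite over `K(x)` for a transcendental `x`), `φ : F' →ₐ[K] F`.

* `finrank_eq_of_single_pole` : a function with a single pole of order `m₀` has degree `m₀`.
* `ord_nonneg_of_pole_count`  : if the pole orders of `y` at two distinct places already add up
  to `[F : K(y)]`, then `y` has no other pole.
* `ord_map_nonneg`            : if `x` is regular wherever `x₀` is regular, then `φ x` is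
  regular wherever `φ x₀` is regular.
* `ord_map_nonneg_of_two_poles` : the combination used for the degeneracy map `α`.
-/
import Mathlib
import Fermat.Agent.S24.helper75_FFCore2
import Fermat.Agent.P2.helper93_ESDegree
import Fermat.Agent.P2.helper81_ValConv

set_option autoImplicit false
set_option linter.unusedSectionVars false
set_option linter.style.haveILetI false

noncomputable section

namespace Fermat.Agent.T2.helper74

open AlgebraicCurve IntermediateField
open Fermat.Agent.S24

section Abstract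

variable {K F' F : Type*} [Field K] [Field F'] [Field F] [Algebra K F'] [Algebra K F]
  [IsAlgClosed K] [CharZero K]

/-- a function whose only pole is `P'`, of order `m₀`, has degree `m₀` -/
theorem finrank_eq_of_single_pole (x₀ : F') (hx₀ : Transcendental K x₀)
    [FiniteDimensional K⟮x₀⟯ F'] (P' : Place K F')
    (hreg : ∀ Q : Place K F', Q ≠ P' → 0 ≤ Q.ord x₀) (m₀ : ℕ)
    (hP' : P'.ord x₀ = -(m₀ : ℤ)) :
    Module.finrank K⟮x₀⟯ F' = m₀ := by
  classical
  have hsum := helper75.ff_sum_ord_poles x₀ hx₀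
  set S := (helper75.ff_finite_poles x₀ hx₀).toFinset with hS
  have hmem : ∀ w, w ∈ S ↔ w.ord x₀ < 0 := by
    intro w
    rw [hS, Set.Finite.mem_toFinset]
    rfl
  have hsub : ∀ w ∈ S, w = P' := by
    intro w hw
    by_contra hne
    have := hreg w hne
    have := (hmem w).mp hw
    omega
  have key : ∑ w ∈ S, w.ord x₀ = -(m₀ : ℤ) := by
    by_cases hP : P' ∈ S
    · have hS1 : S = {P'} := by
        ext w
        rw [Finset.mem_singleton]
        exact ⟨hsub w, fun h => h ▸ hP⟩
      rw [hS1, Finset.sum_singleton, hP']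
    · have hS0 : S = ∅ := by
        rw [Finset.eq_empty_iff_forall_notMem]
        intro w hw
        exact hP (hsub w hw ▸ hw)
      have h0 : ¬ P'.ord x₀ < 0 := fun h => hP ((hmem P').mpr h)
      rw [hS0, Finset.sum_empty]
      omega
  rw [key] at hsum
  have : (Module.finrank K⟮x₀⟯ F' : ℤ) = m₀ := by omega
  exact_mod_cast this

/-- if the pole orders of `y` at two distinct places add up to `[F : K(y)]`, there is no other
pole -/
theorem ord_nonneg_of_pole_count (y : F) (hy : Transcendental K y) [FiniteDimensional K⟮y⟯ F]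
    (P₁ P₂ : Place K F) (hne : P₁ ≠ P₂)
    (h : (Module.finrank K⟮y⟯ F : ℤ) ≤ -(P₁.ord y) - P₂.ord y)
    (h1 : P₁.ord y < 0) (h2 : P₂.ord y < 0)
    (w : Place K F) (hw1 : w ≠ P₁) (hw2 : w ≠ P₂) : 0 ≤ w.ord y := by
  classical
  by_contra hw
  rw [not_le] at hw
  have hsum := helper75.ff_sum_ord_poles y hy
  set S := (helper75.ff_finite_poles y hy).toFinset with hS
  have hmem : ∀ v, v ∈ S ↔ v.ord y < 0 := by
    intro v
    rw [hS, Set.Finite.mem_toFinset]
    rfl
  set T : Finset (Place K F) := {P₁, P₂, w} with hT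
  have hTS : T ⊆ S := by
    intro v hv
    rw [hT, Finset.mem_insert, Finset.mem_insert, Finset.mem_singleton] at hv
    rcases hv with rfl | rfl | rfl
    · exact (hmem _).mpr h1
    · exact (hmem _).mpr h2
    · exact (hmem _).mpr hw
  have hsplit := Finset.sum_sdiff (f := fun v => v.ord y) hTS
  have hrest : ∑ v ∈ S \ T, v.ord y ≤ 0 :=
    Finset.sum_nonpos fun v hv => ((hmem v).mp (Finset.mem_sdiff.mp hv).1).le
  have hTsum : ∑ v ∈ T, v.ord y = P₁.ord y + (P₂.ord y + w.ord y) := by
    rw [hT, Finset.sum_insert, Finset.sum_insert, Finset.sum_singleton]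
    · rw [Finset.mem_singleton]
      exact fun h => hw2 h.symm
    · rw [Finset.mem_insert, Finset.mem_singleton]
      rintro (h | h)
      · exact hne h
      · exact hw1 h.symm
  rw [hTsum] at hsplit
  omega

/-- if `x` is regular wherever `x₀` is regular, then `φ x` is regular wherever `φ x₀` is -/
theorem ord_map_nonneg (φ : F' →ₐ[K] F) (x₀ x : F') [FiniteDimensional K⟮x₀⟯ F']
    (hx : ∀ Q : Place K F', 0 ≤ Q.ord x₀ → 0 ≤ Q.ord x) (w : Place K F)
    (hw : 0 ≤ w.ord (φ x₀)) : 0 ≤ w.ord (φ x) := by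
  have hint := Fermat.Agent.P2.helper81.isIntegral_of_forall_place x₀ x hx
  obtain ⟨p, hp, hp0⟩ := Fermat.Agent.P2.helper81.exists_monic_of_isIntegral_adjoin x₀ x hint
  have h0 : Fermat.Agent.P2.helper81.ev₂ (φ x₀) (φ x) p = 0 := by
    rw [← Fermat.Agent.P2.helper81.algHom_ev₂, hp0, map_zero]
  exact Fermat.Agent.P2.helper81.place_ord_nonneg_of_monic w (φ x₀) (φ x) hw p hp h0

/-- **[REG-alpha], abstract form.**  `x₀ ∈ F'` has its only pole at `P'`, of order `m₀ ≥ 1`;
the pole orders `a₁, a₂` of `φ x₀` at two distinct places `P₁, P₂` of `F` satisfy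
`m₀ [F : φ F'] ≤ a₁ + a₂`.  Then for every `x ∈ F'` regular off `P'`, `φ x` is regular off
`{P₁, P₂}`. -/
theorem ord_map_nonneg_of_two_poles (φ : F' →ₐ[K] F) (x₀ : F') (hx₀ : Transcendental K x₀)
    [FiniteDimensional K⟮x₀⟯ F'] (P' : Place K F')
    (hreg : ∀ Q : Place K F', Q ≠ P' → 0 ≤ Q.ord x₀) (m₀ : ℕ)
    (hP' : P'.ord x₀ = -(m₀ : ℤ)) (hm₀ : 0 < m₀) (d : ℕ)
    (hd : letI := algebraAlong φ; Module.finrank F' F = d) (hd0 : 0 < d)
    (P₁ P₂ : Place K F) (hne : P₁ ≠ P₂)
    (h1 : P₁.ord (φ x₀) < 0) (h2 : P₂.ord (φ x₀) < 0)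
    (hcount : ((m₀ * d : ℕ) : ℤ) ≤ -(P₁.ord (φ x₀)) - P₂.ord (φ x₀))
    (x : F') (hx : ∀ Q : Place K F', Q ≠ P' → 0 ≤ Q.ord x)
    (w : Place K F) (hw1 : w ≠ P₁) (hw2 : w ≠ P₂) : 0 ≤ w.ord (φ x) := by
  have hdeg := finrank_eq_of_single_pole x₀ hx₀ P' hreg m₀ hP'
  have htower := Fermat.Agent.P2.helper93.finrank_tower_along φ x₀
  rw [hdeg, hd] at htower
  have hfin : FiniteDimensional K⟮φ x₀⟯ F := by
    apply Module.finite_of_finrank_pos
    rw [← htower]
    exact Nat.mul_pos hm₀ hd0
  have hy : Transcendental K (φ x₀) := by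
    intro halg
    apply hx₀
    exact (isAlgebraic_algHom_iff φ φ.injective).mp halg
  have hpole := ord_nonneg_of_pole_count (φ x₀) hy P₁ P₂ hne (by rw [← htower]; exact hcount)
    h1 h2 w hw1 hw2
  refine ord_map_nonneg φ x₀ x (fun Q hQ => ?_) w hpole
  apply hx Q
  rintro rfl
  rw [hP'] at hQ
  have : (0 : ℤ) < m₀ := by exact_mod_cast hm₀
  omega

end Abstract

end Fermat.Agent.T2.helper74

end
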