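/-
T2 [REG-alpha] (helper74): the two cusps `∞`, `∞₂ = W ∞` of `X₀(N q)` and regularity of the
pull-backs `α x`, `β x` of functions `x ∈ F_N` regular off `∞`.

* `isInftyW_smul`, `IsInftyW.eq_smul` : the second cusp is `W • ∞`, and it is unique.
* `RegOff2 W f` : `f` is regular off `{∞, ∞₂}`; closure properties; `RegOff2.map_W`.
* `regOff2_alpha`, `regOff2_beta` : **[REG-alpha]** for `W = atkinLehner N q`.
-/
import Mathlib
import Fermat.Agent.T2.helper74_RegAbs
import Fermat.Agent.T2.helper96_ValW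
import Fermat.Agent.T2.helper72_Interface
import Fermat.Agent.P2.helper96_Gen
import Fermat.Agent.P2.helper29_Infty
import Fermat.Agent.P2.helper74_RieInst
import Fermat.Agent.P2.helper74_NonSpecial

set_option autoImplicit false
set_option synthInstance.maxHeartbeats 400000
set_option linter.unusedSectionVars false
set_option linter.style.haveILetI false

noncomputable section

open HahnSeries IntermediateField AlgebraicCurve ModularCurve
open Fermat.Agent.S18.helper19 Fermat.Agent.P2.helper29 Fermat.Agent.T2.helper36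

namespace Fermat.Agent.T2.helper74

/-! ### The second cusp -/

section Cusps

variable {M : ℕ} (W : FF M ≃ₐ[Kb] FF M) (hWW : ∀ f, W (W f) = f)

include hWW

theorem mul_self_eq_one_of_invol : W * W = 1 := AlgEquiv.ext fun x => hWW x

theorem smul_smul_of_invol (P : Place Kb (FF M)) : W • W • P = P := by
  rw [← mul_smul, mul_self_eq_one_of_invol W hWW, one_smul]

/-- `ord_{W • P} f = ord_P (W f)` for an involution `W` -/
theorem ord_smul_of_invol (P : Place Kb (FF M)) (f : FF M) : (W • P).ord f = P.ord (W f) := by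
  have h := Place.ord_smul W P (W f)
  rwa [hWW] at h

theorem isInftyW_smul {P : Place Kb (FF M)} (hP : IsInfty P) : IsInftyW W (W • P) := by
  intro f hf
  rw [ord_smul_of_invol W hWW]
  exact hP (W f) ((EmbeddingLike.map_ne_zero_iff).mpr hf)

theorem isInfty_smul {P : Place Kb (FF M)} (hP : IsInftyW W P) : IsInfty (W • P) := by
  intro f hf
  rw [ord_smul_of_invol W hWW, hP (W f) ((EmbeddingLike.map_ne_zero_iff).mpr hf), hWW]

theorem IsInftyW.eq_smul {P Q : Place Kb (FF M)} (hP : IsInfty P) (hQ : IsInftyW W Q) :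
    Q = W • P := by
  have h2 : W • Q = P := Fermat.Agent.P2.helper96.IsInfty.eq (isInfty_smul W hWW hQ) hP
  rw [← h2, smul_smul_of_invol W hWW]

omit hWW in
/-- `f` is regular off the two cusps `∞`, `∞₂ = W ∞` -/
def RegOff2 (f : FF M) : Prop :=
  ∀ P : Place Kb (FF M), ¬ IsInfty P → ¬ IsInftyW W P → 0 ≤ P.ord f

theorem regOff2_iff {P₁ : Place Kb (FF M)} (hP₁ : IsInfty P₁) (f : FF M) :
    RegOff2 W f ↔ ∀ P : Place Kb (FF M), P ≠ P₁ → P ≠ W • P₁ → 0 ≤ P.ord f := by
  constructor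
  · intro h P h1 h2
    exact h P (fun hP => h1 (Fermat.Agent.P2.helper96.IsInfty.eq hP hP₁))
      (fun hP => h2 (IsInftyW.eq_smul W hWW hP₁ hP))
  · intro h P h1 h2
    exact h P (fun e => h1 (e ▸ hP₁)) (fun e => h2 (e ▸ isInftyW_smul W hWW hP₁))

omit hWW in
theorem RegOff2.zero : RegOff2 W (0 : FF M) := fun P _ _ => by simp

omit hWW in
theorem RegOff2.const (c : Kb) : RegOff2 W (algebraMap Kb (FF M) c) := fun P _ _ => by
  rw [Fermat.Agent.S24.helper82.ord_algebraMap]

omit hWW in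
theorem RegOff2.one : RegOff2 W (1 : FF M) := by
  have h := RegOff2.const W (M := M) 1
  rwa [map_one] at h

omit hWW in
theorem RegOff2.mul {f g : FF M} (hf : RegOff2 W f) (hg : RegOff2 W g) : RegOff2 W (f * g) := by
  intro P h1 h2
  rcases eq_or_ne f 0 with rfl | hf0
  · simp
  rcases eq_or_ne g 0 with rfl | hg0
  · simp
  rw [P.ord_mul hf0 hg0]
  exact add_nonneg (hf P h1 h2) (hg P h1 h2)

omit hWW in
theorem RegOff2.add {f g : FF M} (hf : RegOff2 W f) (hg : RegOff2 W g) : RegOff2 W (f + g) := by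
  intro P h1 h2
  rcases eq_or_ne (f + g) 0 with h0 | h0
  · rw [h0]; simp
  have := Fermat.Agent.P2.helper74.ord_add_ge P h0
  have := hf P h1 h2
  have := hg P h1 h2
  omega

omit hWW in
theorem RegOff2.neg {f : FF M} (hf : RegOff2 W f) : RegOff2 W (-f) := by
  have h := RegOff2.mul W (RegOff2.const W (M := M) (-1)) hf
  rwa [map_neg, map_one, neg_one_mul] at h

omit hWW in
theorem RegOff2.sub {f g : FF M} (hf : RegOff2 W f) (hg : RegOff2 W g) : RegOff2 W (f - g) := by
  rw [sub_eq_add_neg]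
  exact RegOff2.add W hf (RegOff2.neg W hg)

omit hWW in
theorem RegOff2.const_mul {f : FF M} (hf : RegOff2 W f) (c : Kb) :
    RegOff2 W (algebraMap Kb (FF M) c * f) :=
  RegOff2.mul W (RegOff2.const W c) hf

/-- `W` preserves regularity off the two cusps -/
theorem RegOff2.map_W {f : FF M} (hf : RegOff2 W f) : RegOff2 W (W f) := by
  intro P h1 h2
  have e : P.ord (W f) = (W • P).ord f := by
    rw [ord_smul_of_invol W hWW]
  rw [e]
  apply hf
  · intro h
    apply h2
    have := isInftyW_smul W hWW h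
    rwa [smul_smul_of_invol W hWW] at this
  · intro h
    apply h1
    have := isInfty_smul W hWW h
    rwa [smul_smul_of_invol W hWW] at this

end Cusps

/-! ### [REG-alpha] -/

section RegAlpha

variable (N q : ℕ) [NeZero N] [NeZero q] (hq : q.Prime) (hqN : ¬ q ∣ N)

/-- a function of level `N` with a single pole, at `∞`, of order `m₀ ≥ 1` -/
theorem exists_single_pole :
    ∃ (x₀ : FF N) (m₀ : ℕ), 0 < m₀ ∧ (inftyBar N).ord x₀ = -(m₀ : ℤ) ∧
      ∀ Q : Place Kb (FF N), Q ≠ inftyBar N → 0 ≤ Q.ord x₀ := by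
  classical
  have hS := Fermat.Agent.P2.helper74.riemannSetting_FF N
  obtain ⟨g, -, c, hc⟩ := Fermat.Agent.P2.helper74.riemannStatement N
  set m : ℕ := (c + 1).toNat + 1 with hm
  have hdeg : Divisor.degree (Finsupp.single (inftyBar N) (m : ℤ)) = (m : ℤ) := by
    rw [Divisor.degree_single, hS.deg_one]
    simp
  have hD : c + 1 ≤ Divisor.degree (Finsupp.single (inftyBar N) (m : ℤ)) := by
    rw [hdeg, hm]
    push_cast
    have := Int.self_le_toNat (c + 1)
    omega
  obtain ⟨f, hf0, hfL, hford⟩ :=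
    Fermat.Agent.P2.helper74.exists_mem_L_ord_eq hS hc hD (inftyBar N)
  refine ⟨f, m, by omega, ?_, fun Q hQ => ?_⟩
  · rw [hford, Finsupp.single_eq_same]
  · have := (Fermat.Agent.P2.helper74.mem_L_iff' hf0).mp hfL Q
    rwa [Finsupp.single_apply, if_neg (Ne.symm hQ), neg_zero] at this

/-- an element of `F_N` with a pole is transcendental, and `F_N` is finite over it -/
theorem transcendental_of_ord_neg {M : ℕ} [NeZero M] {y : FF M} {P : Place Kb (FF M)}
    (h : P.ord y < 0) : Transcendental Kb y ∧ FiniteDimensional Kb⟮y⟯ (FF M) := by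
  haveI := Fermat.Agent.S24.helper77.an_finiteDimensional M
  apply Fermat.Agent.S24.helper82.ff_transcendental (Fermat.Agent.S24.xJ M)
    (Fermat.Agent.S24.helper77.an_transcendental M)
  rintro ⟨c, rfl⟩
  rw [Fermat.Agent.S24.helper82.ord_algebraMap] at h
  exact lt_irrefl _ h

/-- **[REG-alpha]**: if `x ∈ F_N` is regular off `∞`, then `α x ∈ F_{N q}` is regular off the
two cusps `∞`, `∞₂ = W ∞`. -/
theorem regOff2_alpha {x : FF N} (hx : ∀ P : Place Kb (FF N), ¬ IsInfty P → 0 ≤ P.ord x) :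
    RegOff2 (atkinLehner N q hq hqN) (heckeAlphaBar Kb N q x) := by
  have hWW : ∀ f, atkinLehner N q hq hqN (atkinLehner N q hq hqN f) = f :=
    atkinLehner_atkinLehner N q hq hqN
  obtain ⟨x₀, m₀, hm₀, hord, hreg⟩ := exists_single_pole N
  rw [regOff2_iff _ hWW (isInfty_inftyBar (N * q))]
  intro P hP1 hP2
  have hm₀' : (0 : ℤ) < (m₀ : ℤ) := by exact_mod_cast hm₀
  have hq1 : (1 : ℤ) < (q : ℤ) := by exact_mod_cast hq.one_lt
  have hx₀ne : x₀ ≠ 0 := by
    rintro rfl
    rw [Place.ord_zero] at hord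
    omega
  obtain ⟨hx₀t, hfd⟩ := transcendental_of_ord_neg (P := inftyBar N) (y := x₀) (by omega)
  have hx₀ord : (x₀ : LaurentSeries Kb).order = -(m₀ : ℤ) := by
    rw [← isInfty_inftyBar N x₀ hx₀ne, hord]
  have hx₀ne' : (x₀ : LaurentSeries Kb) ≠ 0 := fun h => hx₀ne (Subtype.ext h)
  have hαne : heckeAlphaBar Kb N q x₀ ≠ 0 := (map_ne_zero _).mpr hx₀ne
  have hβne : heckeBetaBar Kb N q x₀ ≠ 0 := (map_ne_zero _).mpr hx₀ne
  have h1 : (inftyBar (N * q)).ord (heckeAlphaBar Kb N q x₀) = -(m₀ : ℤ) := by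
    rw [isInfty_inftyBar (N * q) _ hαne, coe_heckeAlphaBar, hx₀ord]
  have h2 : (atkinLehner N q hq hqN • inftyBar (N * q)).ord (heckeAlphaBar Kb N q x₀) =
      (q : ℤ) * -(m₀ : ℤ) := by
    rw [ord_smul_of_invol _ hWW, atkinLehner_heckeAlphaBar, isInfty_inftyBar (N * q) _ hβne,
      coe_heckeBetaBar, Fermat.Agent.T2.helper96.order_qExpand q hx₀ne', hx₀ord]
  have hne : inftyBar (N * q) ≠ atkinLehner N q hq hqN • inftyBar (N * q) := by
    intro e
    rw [← e, h1] at h2
    nlinarith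
  have hd := Fermat.Agent.P2.helper93.finrank_alpha N q hq hqN
  refine ord_map_nonneg_of_two_poles (heckeAlphaBar Kb N q) x₀ hx₀t (inftyBar N) hreg m₀ hord
    hm₀ (q + 1) hd (Nat.succ_pos q) (inftyBar (N * q))
    (atkinLehner N q hq hqN • inftyBar (N * q)) hne (by rw [h1]; omega)
    (by rw [h2]; nlinarith) (by rw [h1, h2]; push_cast; nlinarith) x (fun Q hQ => hx Q
      (fun h => hQ (Fermat.Agent.P2.helper96.IsInfty.eq h (isInfty_inftyBar N)))) P hP1 hP2

/-- **[REG-beta]**: if `x ∈ F_N` is regular off `∞`, then `β x ∈ F_{N q}` is regular off the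
two cusps. -/
theorem regOff2_beta {x : FF N} (hx : ∀ P : Place Kb (FF N), ¬ IsInfty P → 0 ≤ P.ord x) :
    RegOff2 (atkinLehner N q hq hqN) (heckeBetaBar Kb N q x) := by
  rw [← atkinLehner_heckeAlphaBar N q hq hqN x]
  exact RegOff2.map_W _ (atkinLehner_atkinLehner N q hq hqN) (regOff2_alpha N q hq hqN hx)

/-- the two cusps are different -/
theorem inftyBar_ne_smul :
    inftyBar (N * q) ≠ atkinLehner N q hq hqN • inftyBar (N * q) := by
  have hWW : ∀ f, atkinLehner N q hq hqN (atkinLehner N q hq hqN f) = f :=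
    atkinLehner_atkinLehner N q hq hqN
  obtain ⟨x₀, m₀, hm₀, hord, hreg⟩ := exists_single_pole N
  have hm₀' : (0 : ℤ) < (m₀ : ℤ) := by exact_mod_cast hm₀
  have hq1 : (1 : ℤ) < (q : ℤ) := by exact_mod_cast hq.one_lt
  have hx₀ne : x₀ ≠ 0 := by
    rintro rfl
    rw [Place.ord_zero] at hord
    omega
  have hx₀ord : (x₀ : LaurentSeries Kb).order = -(m₀ : ℤ) := by
    rw [← isInfty_inftyBar N x₀ hx₀ne, hord]
  have hx₀ne' : (x₀ : LaurentSeries Kb) ≠ 0 := fun h => hx₀ne (Subtype.ext h)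
  have hαne : heckeAlphaBar Kb N q x₀ ≠ 0 := (map_ne_zero _).mpr hx₀ne
  have hβne : heckeBetaBar Kb N q x₀ ≠ 0 := (map_ne_zero _).mpr hx₀ne
  have h1 : (inftyBar (N * q)).ord (heckeAlphaBar Kb N q x₀) = -(m₀ : ℤ) := by
    rw [isInfty_inftyBar (N * q) _ hαne, coe_heckeAlphaBar, hx₀ord]
  have h2 : (atkinLehner N q hq hqN • inftyBar (N * q)).ord (heckeAlphaBar Kb N q x₀) =
      (q : ℤ) * -(m₀ : ℤ) := by
    rw [ord_smul_of_invol _ hWW, atkinLehner_heckeAlphaBar, isInfty_inftyBar (N * q) _ hβne,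
      coe_heckeBetaBar, Fermat.Agent.T2.helper96.order_qExpand q hx₀ne', hx₀ord]
  intro e
  rw [← e, h1] at h2
  nlinarith

end RegAlpha

end Fermat.Agent.T2.helper74

end
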