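/-
T2 [T2-PIVOT2-INST] (helper74): the pivot step for the PAIR of cusps `∞`, `∞₂ = W ∞`.

Setting: a level `M`, an involution `W` of `F_M` (Atkin-Lehner), `A` a valuation subring of `ℚ̄`.
`pairLin W f = (f, W f)` is the pair of expansions of `f`; `VN W N` is the space of pairs of
expansions of the functions in `L(N (∞ + ∞₂))`.

* `PairNormStatement`    : (V2) pair normalisation in quotient form.
* `contentAttained_pair` : the Gauss norm of the pair is attained (from (V2) + Integrality2).
* `pivot2`               : integral formal `n`-th roots `(Z₁, Z₂)` (reductions `1`) of the pair of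
  expansions of `H` (regular off the two cusps) are the pair of expansions of a function.
-/
import Mathlib
import Fermat.Agent.T2.helper74_RegAlpha
import Fermat.Agent.T2.helper74_PivotFam
import Fermat.Agent.T2.helper22_CoreDefs
import Fermat.Agent.P2.helper74_Arch
import Fermat.Agent.P2.helper74_PivotFinal

set_option autoImplicit false
set_option synthInstance.maxHeartbeats 400000
set_option linter.unusedSectionVars false
set_option linter.style.haveILetI false

noncomputable section

open HahnSeries IntermediateField AlgebraicCurve ModularCurve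
open Fermat.Agent.S18.helper19 Fermat.Agent.P2.helper29
open Fermat.Agent.P2.helper22

namespace Fermat.Agent.T2.helper74

section Pair

variable {M : ℕ} [NeZero M] (W : FF M ≃ₐ[Kb] FF M)

/-- the pair of expansions `(f, W f)`, as a linear map -/
def pairLin : FF M →ₗ[Kb] (Fin 2 → LaurentSeries Kb) :=
  LinearMap.pi ![Fermat.Agent.P2.helper96.valLin (FF M),
    (Fermat.Agent.P2.helper96.valLin (FF M)).comp W.toLinearMap]

@[simp] theorem pairLin_zero' (f : FF M) : pairLin W f 0 = (f : LaurentSeries Kb) := rfl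

@[simp] theorem pairLin_one' (f : FF M) :
    pairLin W f 1 = ((W f : FF M) : LaurentSeries Kb) := rfl

theorem pairLin_eq_iff (f : FF M) (u : Fin 2 → LaurentSeries Kb) :
    pairLin W f = u ↔ (f : LaurentSeries Kb) = u 0 ∧ ((W f : FF M) : LaurentSeries Kb) = u 1 := by
  constructor
  · rintro rfl
    exact ⟨rfl, rfl⟩
  · rintro ⟨h0, h1⟩
    funext i
    fin_cases i
    · exact h0
    · exact h1

theorem pairLin_pow (f : FF M) (m : ℕ) : pairLin W (f ^ m) = pairLin W f ^ m := by
  rw [pairLin_eq_iff]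
  refine ⟨?_, ?_⟩
  · rw [Pi.pow_apply, pairLin_zero']
    rfl
  · rw [Pi.pow_apply, pairLin_one', map_pow]
    rfl

/-- the divisor `N (∞ + ∞₂)` -/
def div2 (N : ℤ) : Divisor Kb (FF M) :=
  Finsupp.single (inftyBar M) N + Finsupp.single (W • inftyBar M) N

/-- the space of pairs of expansions of the functions in `L(N (∞ + ∞₂))` -/
def VN (N : ℤ) : Submodule Kb (Fin 2 → LaurentSeries Kb) :=
  (riemannRochSpace (div2 W N)).map (pairLin W)

instance finiteDimensional_VN (N : ℤ) : FiniteDimensional Kb (VN W N) := by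
  haveI := Fermat.Agent.P2.helper74.finiteDimensional_L
    (Fermat.Agent.P2.helper74.riemannSetting_FF M) (div2 W N)
  unfold VN
  infer_instance

variable (hWW : ∀ f, W (W f) = f) (hne : inftyBar M ≠ W • inftyBar M)

include hne in
theorem div2_apply_infty (N : ℤ) : div2 W N (inftyBar M) = N := by
  classical
  unfold div2
  rw [Finsupp.add_apply, Finsupp.single_eq_same, Finsupp.single_apply, if_neg (Ne.symm hne),
    add_zero]

include hne in
theorem div2_apply_infty2 (N : ℤ) : div2 W N (W • inftyBar M) = N := by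
  classical
  unfold div2
  rw [Finsupp.add_apply, Finsupp.single_eq_same, Finsupp.single_apply, if_neg hne, zero_add]

theorem div2_apply_of_ne (N : ℤ) {v : Place Kb (FF M)} (h1 : v ≠ inftyBar M)
    (h2 : v ≠ W • inftyBar M) : div2 W N v = 0 := by
  classical
  unfold div2
  rw [Finsupp.add_apply, Finsupp.single_apply, Finsupp.single_apply, if_neg (Ne.symm h1),
    if_neg (Ne.symm h2), add_zero]

include hWW hne in
/-- membership in `L(N (∞ + ∞₂))` in terms of the pair of expansions -/
theorem mem_L2_iff (N : ℤ) (f : FF M) :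
    f ∈ riemannRochSpace (div2 W N) ↔ RegOff2 W f ∧
      (∀ k : ℤ, k < -N → (f : LaurentSeries Kb).coeff k = 0) ∧
      (∀ k : ℤ, k < -N → ((W f : FF M) : LaurentSeries Kb).coeff k = 0) := by
  rcases eq_or_ne f 0 with rfl | hf
  · refine ⟨fun _ => ⟨RegOff2.zero W, fun k _ => ?_, fun k _ => ?_⟩, fun _ => zero_mem _⟩
    · simp
    · simp
  have hWf : W f ≠ 0 := (EmbeddingLike.map_ne_zero_iff).mpr hf
  have hf' : (f : LaurentSeries Kb) ≠ 0 := fun h => hf (Subtype.ext h)
  have hWf' : ((W f : FF M) : LaurentSeries Kb) ≠ 0 := fun h => hWf (Subtype.ext h)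
  rw [Fermat.Agent.P2.helper74.mem_L_iff' hf, regOff2_iff W hWW (isInfty_inftyBar M),
    coeff_eq_zero_iff_le_order hf', coeff_eq_zero_iff_le_order hWf']
  constructor
  · intro h
    refine ⟨fun P h1 h2 => ?_, ?_, ?_⟩
    · have := h P
      rwa [div2_apply_of_ne W N h1 h2, neg_zero] at this
    · have := h (inftyBar M)
      rwa [div2_apply_infty W hne, isInfty_inftyBar M f hf] at this
    · have := h (W • inftyBar M)
      rwa [div2_apply_infty2 W hne, ord_smul_of_invol W hWW,
        isInfty_inftyBar M _ hWf] at this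
  · rintro ⟨h1, h2, h3⟩ v
    by_cases hv1 : v = inftyBar M
    · subst hv1
      rw [div2_apply_infty W hne, isInfty_inftyBar M f hf]
      exact h2
    · by_cases hv2 : v = W • inftyBar M
      · subst hv2
        rw [div2_apply_infty2 W hne, ord_smul_of_invol W hWW, isInfty_inftyBar M _ hWf]
        exact h3
      · rw [div2_apply_of_ne W N hv1 hv2, neg_zero]
        exact h1 v hv1 hv2

include hWW hne in
theorem mem_VN_iff (N : ℤ) (u : Fin 2 → LaurentSeries Kb) :
    u ∈ VN W N ↔ ∃ f : FF M, RegOff2 W f ∧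
      (∀ k : ℤ, k < -N → (f : LaurentSeries Kb).coeff k = 0) ∧
      (∀ k : ℤ, k < -N → ((W f : FF M) : LaurentSeries Kb).coeff k = 0) ∧ pairLin W f = u := by
  unfold VN
  rw [Submodule.mem_map]
  constructor
  · rintro ⟨f, hf, rfl⟩
    obtain ⟨h1, h2, h3⟩ := (mem_L2_iff W hWW hne N f).mp hf
    exact ⟨f, h1, h2, h3, rfl⟩
  · rintro ⟨f, h1, h2, h3, rfl⟩
    exact ⟨f, (mem_L2_iff W hWW hne N f).mpr ⟨h1, h2, h3⟩, rfl⟩

include hWW hne in
theorem pow_mem_L2 (N : ℤ) {f : FF M} (hf : f ∈ riemannRochSpace (div2 W N)) (n : ℕ) :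
    f ^ n ∈ riemannRochSpace (div2 W (n * N)) := by
  rcases eq_or_ne f 0 with rfl | hf0
  · rcases Nat.eq_zero_or_pos n with rfl | hn
    · rw [pow_zero, mem_L2_iff W hWW hne]
      refine ⟨RegOff2.one W, fun k hk => ?_, fun k hk => ?_⟩
      · have hk' : k ≠ 0 := by
          intro h
          rw [h] at hk
          simp at hk
        show (1 : LaurentSeries Kb).coeff k = 0
        rw [HahnSeries.coeff_one, if_neg hk']
      · rw [map_one]
        have hk' : k ≠ 0 := by
          intro h
          rw [h] at hk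
          simp at hk
        show (1 : LaurentSeries Kb).coeff k = 0
        rw [HahnSeries.coeff_one, if_neg hk']
    · rw [zero_pow hn.ne']
      exact zero_mem _
  have hfn : f ^ n ≠ 0 := pow_ne_zero n hf0
  rw [Fermat.Agent.P2.helper74.mem_L_iff' hf0] at hf
  rw [Fermat.Agent.P2.helper74.mem_L_iff' hfn]
  intro v
  have h1 := hf v
  have h2 : v.ord (f ^ n) = n * v.ord f := by
    rw [← zpow_natCast, Place.ord_zpow]
  have h3 : div2 W (n * N) v = n * div2 W N v := by
    by_cases hv1 : v = inftyBar M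
    · subst hv1
      rw [div2_apply_infty W hne, div2_apply_infty W hne]
    · by_cases hv2 : v = W • inftyBar M
      · subst hv2
        rw [div2_apply_infty2 W hne, div2_apply_infty2 W hne]
      · rw [div2_apply_of_ne W _ hv1 hv2, div2_apply_of_ne W _ hv1 hv2, mul_zero]
  rw [h2, h3]
  have hn0 : (0 : ℤ) ≤ (n : ℤ) := Int.natCast_nonneg n
  nlinarith

end Pair

/-! ### Content attained -/

section Content

variable {M : ℕ} [NeZero M] (W : FF M ≃ₐ[Kb] FF M) (A : ValuationSubring Kb)

/-- **(V2)** pair normalisation, quotient form: `f` and `W f` are scaled by ONE constant so that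
both become `w₁`-integral and one of them is a `w₁`-unit. -/
def PairNormStatement : Prop :=
  ∀ f : FF M, f ≠ 0 → ∃ (γ : Kb) (Y₁ Y₂ Z₁ Z₂ : LaurentSeries A), γ ≠ 0 ∧
    incl A Y₁ ∈ FF M ∧ IsGood A M Y₂ ∧ incl A Z₁ ∈ FF M ∧ IsGood A M Z₂ ∧
    (f : LaurentSeries Kb) * incl A Y₂ = algebraMap Kb (LaurentSeries Kb) γ * incl A Y₁ ∧
    ((W f : FF M) : LaurentSeries Kb) * incl A Z₂ =
      algebraMap Kb (LaurentSeries Kb) γ * incl A Z₁ ∧
    (red A Y₁ ≠ 0 ∨ red A Z₁ ≠ 0)

variable {W A}

theorem isReg2_of_regOff2 {f : FF M} (h : RegOff2 W f) : Fermat.Agent.T2.helper22.IsReg2 W f :=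
  fun P h1 h2 => h P h1 h2

theorem regOff2_of_isReg2 {f : FF M} (h : Fermat.Agent.T2.helper22.IsReg2 W f) : RegOff2 W f :=
  fun P h1 h2 => h P h1 h2

theorem incl_injective' : Function.Injective (incl A) :=
  Fermat.Agent.P2.helper74.coeffMap_subtype_injective A

/-- the Gauss norm of the pair of expansions of a function regular off the two cusps is
attained -/
theorem contentAttained_pair (hWW : ∀ f, W (W f) = f) (hPN : PairNormStatement W A)
    (hInt : Fermat.Agent.T2.helper22.Integrality2Statement M A W) (f : FF M) (hf : f ≠ 0)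
    (hreg : RegOff2 W f) :
    ContentAttainedFam A (IsLocalRing.residue A) (pairLin W f) := by
  obtain ⟨γ, Y₁, Y₂, Z₁, Z₂, hγ, hY₁, hY₂, hZ₁, hZ₂, e1, e2, hred⟩ := hPN f hf
  set g : FF M := algebraMap Kb (FF M) γ⁻¹ * f with hg
  have hγL : algebraMap Kb (LaurentSeries Kb) γ⁻¹ * algebraMap Kb (LaurentSeries Kb) γ = 1 := by
    rw [← map_mul, inv_mul_cancel₀ hγ, map_one]
  have hgc : (g : LaurentSeries Kb) = algebraMap Kb (LaurentSeries Kb) γ⁻¹ *
      (f : LaurentSeries Kb) := rfl
  have hWg : W g = algebraMap Kb (FF M) γ⁻¹ * W f := by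
    rw [hg, map_mul, AlgEquiv.commutes]
  have hWgc : ((W g : FF M) : LaurentSeries Kb) = algebraMap Kb (LaurentSeries Kb) γ⁻¹ *
      ((W f : FF M) : LaurentSeries Kb) := by
    rw [hWg]
    rfl
  have hgreg : RegOff2 W g := RegOff2.const_mul W hreg γ⁻¹
  have hw1 : IsWInt A M (g : LaurentSeries Kb) := by
    refine ⟨Y₁, Y₂, hY₁, hY₂, ?_⟩
    rw [hgc, mul_assoc, e1, ← mul_assoc, hγL, one_mul]
  have hw2 : IsWInt A M ((W g : FF M) : LaurentSeries Kb) := by
    refine ⟨Z₁, Z₂, hZ₁, hZ₂, ?_⟩
    rw [hWgc, mul_assoc, e2, ← mul_assoc, hγL, one_mul]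
  obtain ⟨X₁, hX₁⟩ := hInt g (isReg2_of_regOff2 hgreg) hw1 hw2
  obtain ⟨X₂, hX₂⟩ := hInt (W g) (isReg2_of_regOff2 (RegOff2.map_W W hWW hgreg)) hw2
    (by rw [hWW]; exact hw1)
  refine ⟨γ⁻¹, inv_ne_zero hγ, ![X₁, X₂], ?_, ?_⟩
  · have e : γ⁻¹ • pairLin W f = pairLin W g := by
      rw [← map_smul, Algebra.smul_def]
    rw [e]
    symm
    rw [pairLin_eq_iff]
    exact ⟨hX₁.symm, hX₂.symm⟩
  · intro h0
    have h01 : red A X₁ = 0 := congrFun h0 0
    have h02 : red A X₂ = 0 := congrFun h0 1
    have k1 : X₁ * Y₂ = Y₁ := by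
      apply incl_injective' (A := A)
      rw [map_mul, hX₁, hgc, mul_assoc, e1, ← mul_assoc, hγL, one_mul]
    have k2 : X₂ * Z₂ = Z₁ := by
      apply incl_injective' (A := A)
      rw [map_mul, hX₂, hWgc, mul_assoc, e2, ← mul_assoc, hγL, one_mul]
    rcases hred with h | h
    · apply h
      rw [← k1, map_mul, h01, zero_mul]
    · apply h
      rw [← k2, map_mul, h02, zero_mul]

end Content

/-! ### The pivot step for the pair of cusps -/

section Pivot

variable {M : ℕ} [NeZero M] (W : FF M ≃ₐ[Kb] FF M) (A : ValuationSubring Kb)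

theorem coeff_incl_eq_zero {Z : LaurentSeries A} {N : ℤ} (hZ : -N ≤ Z.order) (k : ℤ)
    (hk : k < -N) : (incl A Z).coeff k = 0 := by
  show (coeffMap A.subtype Z).coeff k = 0
  rw [coeffMap_coeff, HahnSeries.coeff_eq_zero_of_lt_order (lt_of_lt_of_le hk hZ), map_zero]

theorem coeff_pow_eq_zero {x : LaurentSeries Kb} {N : ℤ}
    (hx : ∀ k : ℤ, k < -N → x.coeff k = 0) (n : ℕ) (k : ℤ) (hk : k < -(n * N)) :
    (x ^ n).coeff k = 0 := by
  rcases eq_or_ne x 0 with rfl | hx0
  · rcases Nat.eq_zero_or_pos n with rfl | hn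
    · have hk' : k ≠ 0 := by
        intro h
        rw [h] at hk
        simp at hk
      rw [pow_zero, HahnSeries.coeff_one, if_neg hk']
    · rw [zero_pow hn.ne']
      rfl
  have h1 := (coeff_eq_zero_iff_le_order hx0).mp hx
  have h2 : ∀ m : ℕ, (x ^ m).order = m * x.order := by
    intro m
    induction m with
    | zero => simp
    | succ m ih =>
      rw [pow_succ, order_mul_field (pow_ne_zero m hx0) hx0, ih]
      push_cast
      ring
  have h2 := h2 n
  apply HahnSeries.coeff_eq_zero_of_lt_order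
  rw [h2]
  have hn0 : (0 : ℤ) ≤ (n : ℤ) := Int.natCast_nonneg n
  nlinarith

/-- **[T2-PIVOT2]** integral formal `n`-th roots `(Z₁, Z₂)`, with reduction `(1, 1)`, of the pair
of expansions of a function `H` regular off the two cusps are the pair of expansions of a
function `v` (so `v ^ n = H`). -/
theorem pivot2 (hWW : ∀ f, W (W f) = f) (hne : inftyBar M ≠ W • inftyBar M)
    (ℓ : ℕ) (hℓ : ℓ.Prime) (hA : A.LiesOverPrime ℓ) (n : ℕ) (hn : ¬ ℓ ∣ n)
    (hPN : PairNormStatement W A)
    (hInt : Fermat.Agent.T2.helper22.Integrality2Statement M A W)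
    (hSat : Fermat.Agent.T2.helper22.Sat2Statement M A W)
    (H : FF M) (hH : RegOff2 W H) (Z₁ Z₂ : LaurentSeries A)
    (h1 : incl A Z₁ ^ n = (H : LaurentSeries Kb))
    (h2 : incl A Z₂ ^ n = ((W H : FF M) : LaurentSeries Kb))
    (hr1 : red A Z₁ = 1) (hr2 : red A Z₂ = 1) :
    ∃ v : FF M, (v : LaurentSeries Kb) = incl A Z₁ ∧
      ((W v : FF M) : LaurentSeries Kb) = incl A Z₂ := by
  obtain ⟨N₀, hN₀⟩ := hSat
  set N : ℤ := max (max N₀ 0) (max (-(Z₁.order)) (-(Z₂.order))) with hN
  have hN1 : N₀ ≤ N := le_trans (le_max_left _ _) (le_max_left _ _)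
  have hN2 : 0 ≤ N := le_trans (le_max_right _ _) (le_max_left _ _)
  have hN3 : -N ≤ Z₁.order := by
    have := le_trans (le_max_left (-(Z₁.order)) (-(Z₂.order))) (le_max_right (max N₀ 0) _)
    rw [← hN] at this
    omega
  have hN4 : -N ≤ Z₂.order := by
    have := le_trans (le_max_right (-(Z₁.order)) (-(Z₂.order))) (le_max_right (max N₀ 0) _)
    rw [← hN] at this
    omega
  have hπ : ∀ x : A, IsLocalRing.residue A x ≠ 0 → IsUnit x :=
    fun x hx => Fermat.Agent.P2.helper96.isUnit_of_residue_ne_zero x hx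
  have hkey := mem_of_pow_mem_fam_arch A (IsLocalRing.residue A) hπ
    IsLocalRing.residue_surjective (Fermat.Agent.P2.helper74.arch_algebraicClosure A ℓ hℓ hA)
    (VN W N) (VN W (n * N)) (fun _ => N) (fun _ => hN2) n
    (Fermat.Agent.P2.helper74.residue_natCast_ne_zero A ℓ hℓ hA n hn)
    (fun u hu hu0 => by
      obtain ⟨f, hf1, -, -, rfl⟩ := (mem_VN_iff W hWW hne N u).mp hu
      have hf0 : f ≠ 0 := by
        rintro rfl
        exact hu0 (map_zero _)
      exact contentAttained_pair hWW hPN hInt f hf0 hf1)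
    (fun u hu hu0 => by
      obtain ⟨f, hf1, -, -, rfl⟩ := (mem_VN_iff W hWW hne (n * N) u).mp hu
      have hf0 : f ≠ 0 := by
        rintro rfl
        exact hu0 (map_zero _)
      exact contentAttained_pair hWW hPN hInt f hf0 hf1)
    (fun u hu i j hj => by
      obtain ⟨f, -, hf2, hf3, rfl⟩ := (mem_VN_iff W hWW hne N u).mp hu
      fin_cases i
      · exact hf2 j hj
      · exact hf3 j hj)
    (fun u hu => by
      obtain ⟨f, hf, rfl⟩ := Submodule.mem_map.mp hu
      rw [← pairLin_pow]
      exact Submodule.mem_map_of_mem (pow_mem_L2 W hWW hne N hf n))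
    (fun Z hZ hZred => by
      obtain ⟨F, hF1, -, -, hF4⟩ := (mem_VN_iff W hWW hne (n * N) _).mp hZ
      rw [pairLin_eq_iff] at hF4
      obtain ⟨f', Z₁', Z₂', hf'1, hf'2, hf'3, hf'4, hf'5, hf'6⟩ := hN₀ N hN1 F (Z 0) (Z 1)
        (isReg2_of_regOff2 hF1) ⟨hF4.1.symm, hF4.2.symm⟩ (hZred 0) (hZred 1)
      refine ⟨![Z₁', Z₂'], ?_, ?_⟩
      · rw [mem_VN_iff W hWW hne]
        refine ⟨f', regOff2_of_isReg2 hf'1, ?_, ?_, ?_⟩
        · intro k hk
          rw [← hf'2.1]
          show (coeffMap A.subtype Z₁').coeff k = 0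
          rw [coeffMap_coeff, hf'3 k hk, map_zero]
        · intro k hk
          rw [← hf'2.2]
          show (coeffMap A.subtype Z₂').coeff k = 0
          rw [coeffMap_coeff, hf'4 k hk, map_zero]
        · rw [pairLin_eq_iff]
          exact ⟨hf'2.1.symm, hf'2.2.symm⟩
      · funext i
        fin_cases i
        · exact hf'5
        · exact hf'6)
    ![Z₁, Z₂]
    (by
      have e : (famMap A.subtype ![Z₁, Z₂]) ^ n = pairLin W H := by
        symm
        rw [pairLin_eq_iff]
        exact ⟨h1.symm, h2.symm⟩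
      rw [e, mem_VN_iff W hWW hne]
      refine ⟨H, hH, ?_, ?_, rfl⟩
      · intro k hk
        rw [← h1]
        exact coeff_pow_eq_zero (fun k hk => coeff_incl_eq_zero A hN3 k hk) n k hk
      · intro k hk
        rw [← h2]
        exact coeff_pow_eq_zero (fun k hk => coeff_incl_eq_zero A hN4 k hk) n k hk)
    (by
      funext i
      fin_cases i
      · exact hr1
      · exact hr2)
    (fun i j hj => by
      fin_cases i
      · exact HahnSeries.coeff_eq_zero_of_lt_order (lt_of_lt_of_le hj hN3)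
      · exact HahnSeries.coeff_eq_zero_of_lt_order (lt_of_lt_of_le hj hN4))
  obtain ⟨v, -, -, -, hv⟩ := (mem_VN_iff W hWW hne N _).mp hkey
  rw [pairLin_eq_iff] at hv
  exact ⟨v, hv.1, hv.2⟩

end Pivot

end Fermat.Agent.T2.helper74

end
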