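/-
TIER 2 (S34), helper51: [ROOT-END] = `helper72.RootEndStatement` from the disc step
(`helper23.disc_root_of_regular`, applied to `H` and to `W H`) and the pivot step for pairs
(`helper74`, task 816).

* `DiscRootStatement M A n`    : the disc step in the shape of `disc_root_of_regular`.
* `PairPivotStatement M W A n` : the pivot step for pairs: a pair of formal `A`-integral `n`-th
                                 roots with reduction `(1, 1)` of the two expansions of `H`
                                 comes from a function.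
* `rootEnd_of_disc_pivot`      : `DiscRoot + PairPivot ⟹ RootEndStatement`.
-/
import Fermat.Agent.T2.helper72_Interface
import Fermat.Agent.T2.helper22_CoreDefs

set_option autoImplicit false

noncomputable section

open HahnSeries IntermediateField AlgebraicCurve ModularCurve
open Fermat.Agent.S18.helper19 Fermat.Agent.P2.helper29 Fermat.Agent.P2.helper93
open Fermat.Agent.S24

namespace Fermat.Agent.T2.helper51

open Fermat.Agent.T2

/-- **[DISC]** the disc step (shape of `helper23.disc_root_of_regular`): a function `H`, regular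
where `j` is finite, with divisor divisible by `n`, which is a quotient of two integral series
with the same nonzero reduction, is the `n`-th power of an `A`-integral series with reduction
`1`. -/
def DiscRootStatement (M : ℕ) [NeZero M] (A : ValuationSubring Kb) (n : ℕ) : Prop :=
  ∀ H : FF M, H ≠ 0 → (∀ P : Place Kb (FF M), (n : ℤ) ∣ P.ord H) →
    (∀ P : Place Kb (FF M), 0 ≤ P.ord (xJ M) → 0 ≤ P.ord H) →
    ∀ Y₁ Y₂ : LaurentSeries A, incl A Y₁ ∈ FF M → incl A Y₂ ∈ FF M →
      incl A Y₁ = (H : LaurentSeries Kb) * incl A Y₂ → red A Y₁ = red A Y₂ → red A Y₂ ≠ 0 →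
      ∃ Z : LaurentSeries A, incl A Z ^ n = (H : LaurentSeries Kb) ∧ red A Z = 1

/-- **[PIVOT2]** the pivot step for pairs: if the two expansions of `H` (regular off the two
cusps, integral, reduction `(1, 1)`) are `n`-th powers of `A`-integral series with reduction
`1`, then `H` is an `n`-th power in the function field. -/
def PairPivotStatement (M : ℕ) (W : FF M ≃ₐ[Kb] FF M) (A : ValuationSubring Kb) (n : ℕ) :
    Prop :=
  ∀ (H : FF M) (Z₁ Z₂ : LaurentSeries A), IsA0One M W A H →
    incl A Z₁ ^ n = (H : LaurentSeries Kb) →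
    incl A Z₂ ^ n = ((W H : FF M) : LaurentSeries Kb) → red A Z₁ = 1 → red A Z₂ = 1 →
    ∃ v : FF M, v ^ n = H

variable {M : ℕ} [NeZero M]

omit [NeZero M] in
theorem coe_xJ_eq_jq : ((xJ M : FF M) : LaurentSeries Kb) = jqModC Kb := by
  show Jd 1 = _
  rw [Fermat.Agent.S24.helper17.Jd_eq, qExpand_one_apply]

theorem xJ_ne_zero : (xJ M : FF M) ≠ 0 := by
  intro h0
  have h1 : ((xJ M : FF M) : LaurentSeries Kb) = 0 := by rw [h0]; rfl
  rw [coe_xJ_eq_jq] at h1
  have h2 := order_jqModC (K := Kb)
  rw [h1, HahnSeries.order_zero] at h2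
  omega

theorem ord_xJ_neg_of_isInfty {P : Place Kb (FF M)} (hP : IsInfty P) : P.ord (xJ M) < 0 := by
  rw [hP (xJ M) xJ_ne_zero, coe_xJ_eq_jq, order_jqModC]
  omega

theorem ord_xJ_neg_of_isInftyW {W : FF M ≃ₐ[Kb] FF M}
    (hWj : ((W (xJ M) : FF M) : LaurentSeries Kb).order < 0) {P : Place Kb (FF M)}
    (hP : IsInftyW W P) : P.ord (xJ M) < 0 := by
  rw [hP (xJ M) xJ_ne_zero]
  exact hWj

/-- **[ROOT-END]** from the disc step and the pivot step for pairs.  `hWj` says that the second
cusp is a pole of `j` (`W j = j(q^ℓ)` has order `-ℓ`). -/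
theorem rootEnd_of_disc_pivot {W : FF M ≃ₐ[Kb] FF M} {A : ValuationSubring Kb} {n : ℕ}
    (hWW : ∀ f, W (W f) = f)
    (hWj : ((W (xJ M) : FF M) : LaurentSeries Kb).order < 0)
    (hD : DiscRootStatement M A n) (hP : PairPivotStatement M W A n) :
    RootEndStatement M W A n := by
  intro H hH hdiv
  obtain ⟨hreg, Y₁, Y₂, h1, h2, r1, r2⟩ := id hH
  have hone : incl A (1 : LaurentSeries A) = 1 := map_one _
  have hred1 : red A (1 : LaurentSeries A) = 1 := map_one _
  have hred1ne : red A (1 : LaurentSeries A) ≠ 0 := by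
    rw [hred1]; exact one_ne_zero
  have hH0 : H ≠ 0 := by
    rintro rfl
    have h3 : incl A Y₁ = 0 := h1
    have h4 : Y₁ = 0 := Fermat.Agent.P2.helper22.incl_injective (by rw [h3, map_zero])
    rw [h4, map_zero] at r1
    exact zero_ne_one r1
  have hWH0 : W H ≠ 0 := by simpa using hH0
  -- the disc step for `H`
  have hregH : ∀ P : Place Kb (FF M), 0 ≤ P.ord (xJ M) → 0 ≤ P.ord H := by
    intro P hPj
    refine hreg P (fun hInf => ?_) (fun hInf => ?_)
    · exact absurd (ord_xJ_neg_of_isInfty hInf) (not_lt.2 hPj)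
    · exact absurd (ord_xJ_neg_of_isInftyW hWj hInf) (not_lt.2 hPj)
  obtain ⟨Z₁, hZ₁, hZ₁r⟩ := hD H hH0 hdiv hregH Y₁ 1 (by rw [h1]; exact H.2)
    (by rw [hone]; exact one_mem _) (by rw [hone, mul_one, h1]) (by rw [r1, hred1]) hred1ne
  -- the disc step for `W H`
  have hdivW : ∀ P : Place Kb (FF M), (n : ℤ) ∣ P.ord (W H) := by
    intro P
    rw [helper22.ord_map]
    exact hdiv _
  have hregW : ∀ P : Place Kb (FF M), 0 ≤ P.ord (xJ M) → 0 ≤ P.ord (W H) := by
    intro P hPj
    rw [helper22.ord_map]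
    refine hreg _ (fun hInf => ?_) (fun hInf => ?_)
    · have h5 : IsInftyW W P := helper22.isInfty2_of_isInfty_smul hWW hInf
      exact absurd (ord_xJ_neg_of_isInftyW hWj h5) (not_lt.2 hPj)
    · have h5 : IsInfty P := helper22.isInfty_of_isInfty2_smul hWW hInf
      exact absurd (ord_xJ_neg_of_isInfty h5) (not_lt.2 hPj)
  obtain ⟨Z₂, hZ₂, hZ₂r⟩ := hD (W H) hWH0 hdivW hregW Y₂ 1 (by rw [h2]; exact (W H).2)
    (by rw [hone]; exact one_mem _) (by rw [hone, mul_one, h2]) (by rw [r2, hred1]) hred1ne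
  -- the pivot step
  obtain ⟨v, hv⟩ := hP H Z₁ Z₂ hH hZ₁ hZ₂ hZ₁r hZ₂r
  exact ⟨1, v, by rw [map_one, one_mul, hv]⟩

end Fermat.Agent.T2.helper51

end
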