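/-
T2 (helper74): the instance wrappers around `pivot2` / `rootEnd_of`.

* `integrality2_of`   : `helper22.Integrality2Statement M A W` for every level `M` and every
                        automorphism `W` such that `W j` has a pole at `∞` (from helper45's
                        `integrality_of_regular`, which needs regularity where `j` is finite).
* `integrality2_bad`  : the instance `M = N * q`, `W = atkinLehner N q`.
* `pairPivot_of`, `pairPivot_bad` : `helper51.PairPivotStatement` from `pivot2`.
* `rootEnd_bad_of_sat2` : `helper72.RootEndStatement (N * q) W A n` from `Sat2Statement` alone.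
-/
import Mathlib
import Fermat.Agent.T2.helper74_RootEnd
import Fermat.Agent.T2.helper45_IntegralityAll
import Fermat.Agent.T2.helper51_RootEnd

set_option autoImplicit false
set_option synthInstance.maxHeartbeats 400000
set_option linter.unusedSectionVars false
set_option linter.style.haveILetI false

noncomputable section

open HahnSeries IntermediateField AlgebraicCurve ModularCurve
open Fermat.Agent.S18.helper19 Fermat.Agent.P2.helper29 Fermat.Agent.T2.helper36

namespace Fermat.Agent.T2.helper74

section Generic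

variable {M : ℕ} [NeZero M] (W : FF M ≃ₐ[Kb] FF M) (A : ValuationSubring Kb)

/-- a place at which `j` is finite is off the two cusps -/
theorem off_cusps_of_ord_jElt_nonneg
    (hjW : ((W (jElt M) : FF M) : LaurentSeries Kb).order < 0)
    (P : Place Kb (FF M)) (hP : 0 ≤ P.ord (jElt M)) :
    ¬ IsInfty P ∧ ¬ Fermat.Agent.T2.helper22.IsInfty2 W P := by
  have hj0 : jElt M ≠ 0 := by
    intro h
    have h1 : ((jElt M : FF M) : LaurentSeries Kb).order = -1 := order_jqModC Kb
    rw [h] at h1
    simp at h1
  constructor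
  · intro h
    have h1 := h (jElt M) hj0
    have h2 : ((jElt M : FF M) : LaurentSeries Kb).order = -1 := order_jqModC Kb
    omega
  · intro h
    have h1 := h (jElt M) hj0
    omega

/-- **[T2-VAL-INT]**, every level, every `W` such that `W j` has a pole at `∞`. -/
theorem integrality2_of (hjW : ((W (jElt M) : FF M) : LaurentSeries Kb).order < 0) :
    Fermat.Agent.T2.helper22.Integrality2Statement M A W := by
  intro f hreg hw _
  have hx : Fermat.Agent.S24.xJ M = jElt M := Subtype.ext Fermat.Agent.T2.helper51.coe_xJ_eq_jq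
  exact Fermat.Agent.T2.helper45.integrality_of_isQuotInt M A (f : LaurentSeries Kb) f.2
    (fun Q hQ => by
      rw [hx] at hQ
      obtain ⟨h1, h2⟩ := off_cusps_of_ord_jElt_nonneg W hjW Q hQ
      exact hreg Q h1 h2)
    (Fermat.Agent.T2.helper45.isQuotInt_of_isWInt hw)

/-- **[PIVOT2]** in helper51's shape, generic form. -/
theorem pairPivot_of (hWW : ∀ f, W (W f) = f) (hne : inftyBar M ≠ W • inftyBar M)
    (ℓ : ℕ) (hℓ : ℓ.Prime) (hA : A.LiesOverPrime ℓ) (n : ℕ) (hn : ¬ ℓ ∣ n)
    (hPN : PairNormStatement W A)
    (hInt : Fermat.Agent.T2.helper22.Integrality2Statement M A W)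
    (hSat : Fermat.Agent.T2.helper22.Sat2Statement M A W) :
    Fermat.Agent.T2.helper51.PairPivotStatement M W A n := by
  intro H Z₁ Z₂ hH hZ₁ hZ₂ hr1 hr2
  obtain ⟨v, hv1, -⟩ := pivot2 W A hWW hne ℓ hℓ hA n hn hPN hInt hSat H hH.1 Z₁ Z₂ hZ₁ hZ₂
    hr1 hr2
  refine ⟨v, ?_⟩
  apply Subtype.ext
  show ((v : LaurentSeries Kb)) ^ n = (H : LaurentSeries Kb)
  rw [hv1, hZ₁]

end Generic

section Bad

variable (N q : ℕ) [NeZero N] [NeZero q] (hq : q.Prime) (hqN : ¬ q ∣ N)
variable (A : ValuationSubring Kb) (hA : A.LiesOverPrime q)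

/-- **[T2-VAL-INT]** at the bad level `N * q`, `W = atkinLehner N q` (every `A`). -/
theorem integrality2_bad :
    Fermat.Agent.T2.helper22.Integrality2Statement (N * q) A (atkinLehner N q hq hqN) :=
  integrality2_of (atkinLehner N q hq hqN) A (order_atkinLehner_jElt N q hq hqN)

include hA in
/-- **[PIVOT2]** at the bad level, from `Sat2Statement`. -/
theorem pairPivot_bad (n : ℕ) (hn : ¬ q ∣ n)
    (hSat : Fermat.Agent.T2.helper22.Sat2Statement (N * q) A (atkinLehner N q hq hqN)) :
    Fermat.Agent.T2.helper51.PairPivotStatement (N * q) (atkinLehner N q hq hqN) A n :=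
  pairPivot_of (atkinLehner N q hq hqN) A (atkinLehner_atkinLehner N q hq hqN)
    (inftyBar_ne_smul N q hq hqN) q hq hA n hn (pairNorm_bad N q hq hqN A hA)
    (integrality2_bad N q hq hqN A) hSat

include hA in
/-- **[ROOT-END]** at the bad level `N * q` (`A` over `q`, `q ∤ n`), from `Sat2Statement`
alone. -/
theorem rootEnd_bad_of_sat2 (n : ℕ) (hn : ¬ q ∣ n)
    (hSat : Fermat.Agent.T2.helper22.Sat2Statement (N * q) A (atkinLehner N q hq hqN)) :
    RootEndStatement (N * q) (atkinLehner N q hq hqN) A n :=
  rootEnd_bad N q hq hqN A hA n hn (integrality2_bad N q hq hqN A) hSat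

end Bad

end Fermat.Agent.T2.helper74

end
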