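/-
TIER 2, [T2-ASM-34] (helper72): FINAL ASSEMBLY of S34.

All boxes of the S34 chain at a bad pair (level `N * q`, `N` good, `q ∤ N`, `A` over `q`,
`W = atkinLehner N q hq hqN`, exponent `p ^ k`, `p ≠ q`) are on main:

* Scale (helper58), Integrality2 (helper45), RegRed2 (helper87), Sat2 (helper96, from P2's
  `SurjRed` at the good level `N`), SN2 (helper72), ideal step + consumer (helper22),
  disc step (helper23), pivot + root end (helper74), Kummer wiring (helper20), final wire and
  box assembly (helper34).

* `sat2_good`        : `helper22.Sat2Statement (N * q) A W`.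
* `pairIdealBad`     : `helper34.PairIdealBadStatement`.
* `rootEndBad`       : `helper34.RootEndBadStatement`.
* `s34Statement`     : `helper34.S34Statement` (the frozen S34, as a `Prop`).
-/
import Fermat.Agent.T2.helper34_Asm34
import Fermat.Agent.T2.helper72_SNGood
import Fermat.Agent.T2.helper45_Integrality2
import Fermat.Agent.T2.helper87_RegRed2U
import Fermat.Agent.T2.helper96_Sat
import Fermat.Agent.T2.helper74_RootEndInst
import Fermat.Agent.T2.helper22_PairIdealInst

set_option autoImplicit false
set_option synthInstance.maxHeartbeats 400000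

noncomputable section

open HahnSeries IntermediateField AlgebraicCurve ModularCurve
open Fermat.Agent.S18.helper19 Fermat.Agent.P2.helper29 Fermat.Agent.P3
open Fermat.Agent.T2.helper36

namespace Fermat.Agent.T2.helper72

open Fermat.Agent.T2

variable {N q : ℕ} [NeZero N] [NeZero q] (hq : q.Prime) (hqN : ¬ q ∣ N)
variable (A : ValuationSubring Kb) (hA : A.LiesOverPrime q)

include hA in
/-- **(L3)** `Sat2Statement` at a bad pair (helper96 + P2's `SurjRed` at the good level). -/
theorem sat2_good (hN : 4 ∣ N ∨ 9 ∣ N) :
    helper22.Sat2Statement (N * q) A (atkinLehner N q hq hqN) :=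
  helper96.sat2 N q hq hqN A (surjRed_good hq hqN A hA hN)

theorem not_dvd_pow_of_ne {q p : ℕ} (hq : q.Prime) (hp : p.Prime) (hqp : q ≠ p) (k : ℕ) :
    ¬ q ∣ p ^ k := fun h =>
  hqp ((Nat.prime_dvd_prime_iff_eq hq hp).1 (hq.dvd_of_dvd_pow h))

/-- **[T2-IDEAL-INST]** at all bad pairs. -/
theorem pairIdealBad : helper34.PairIdealBadStatement :=
  fun N q p _ _ hq hqN hN hp _ A hA k =>
    helper22.pairIdeal_atkinLehner N q hq hqN A hA
      (helper45.integrality2Statement N q hq hqN A)
      (helper87.regRed2_holds N q hq hqN A hA)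
      (sat2_good hq hqN A hA hN) (sn2Statement_good hq hqN A hA hN) (pow_pos hp.pos k)

/-- **[ROOT-END]** at all bad pairs. -/
theorem rootEndBad : helper34.RootEndBadStatement :=
  fun N q p _ _ hq hqN hN hp hqp A hA k =>
    helper74.rootEnd_bad_of_sat2 N q hq hqN A hA (p ^ k) (not_dvd_pow_of_ne hq hp hqp k)
      (sat2_good hq hqN A hA hN)

/-- **S34** (the frozen statement, as a `Prop`), unconditional. -/
theorem s34Statement : helper34.S34Statement :=
  helper34.s34Statement_of_boxes pairIdealBad rootEndBad

end Fermat.Agent.T2.helper72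

end
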