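import Mathlib
import Fermat.Agent.T2.helper48_UOpDeg
import Fermat.Agent.P2.helper93_ESNorm
import Fermat.Agent.P3.helper94_Kummer
import Fermat.Agent.P3.helper58_HeckeInputs
import Fermat.Agent.P3.helper10_GalHecke

/-!
# Tier 2, [T2-UOP] part 2 (helper48): the operator `U_q` on `J₀(M)` for a prime `q ∣ M`

The Prelude's `heckeOperatorBar M q = α_* β^*` is, for `q ∣ M`, the ADJOINT `U' = W U W` of `U_q`.
The operator `U_q` itself (`[h] ↦ [∏_{i<q} h((τ + i)/q)]`) is the TRANSPOSE correspondence
`β_* α^*`: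

* `uKummer M q h = Norm_{F_{Mq}/β F_M}(α h)` (an element of `F_M` through `β`);
* `es_norm_U_complex`, `es_norm_U` : the norm formula  `(U h)(t^q) = ∏_{k<q} h(ζ^k t)`;
* `uJ M q : JZero M →+ JZero M` : the transpose correspondence (`heckePic0BarTranspose`);
* `IsKummerRep.uJ` : `uJ` acts on Kummer representatives by `uKummer`;
* `uJ_galois_smul` : `uJ` commutes with the Galois action.
-/

set_option autoImplicit false
set_option linter.unusedSectionVars false
set_option linter.unusedVariables false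
set_option linter.style.haveILetI false

noncomputable section

open UpperHalfPlane ModularCurve AlgebraicCurve IntermediateField CongruenceSubgroup
open scoped MatrixGroups

namespace Fermat.Agent.T2.helper48

open Fermat.Agent.S24 Fermat.Agent.S24.helper37 Fermat.Agent.P2.helper93
open Fermat.Agent.P3.helper94

/-! ### The norm formula -/

section Norm

variable (M q : ℕ) [NeZero M] [NeZero q]

/-- The operator `U_q` on Kummer representatives: `h ↦ Norm_{β} (α h)`. -/
def uKummer (h : FN M) : FN M :=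
  normAlong (heckeBetaBar Kbar M q) (heckeAlphaBar Kbar M q h)

theorem uKummer_def (h : FN M) :
    uKummer M q h =
      (letI := algebraAlong (heckeBetaBar Kbar M q)
       Algebra.norm (FN M) (heckeAlphaBar Kbar M q h)) := rfl

theorem uKummer_mul (h g : FN M) : uKummer M q (h * g) = uKummer M q h * uKummer M q g := by
  unfold uKummer
  rw [map_mul, map_mul]

theorem uKummer_one : uKummer M q (1 : FN M) = 1 := by
  unfold uKummer
  rw [map_one, map_one]

theorem uKummer_pow (h : FN M) (k : ℕ) : uKummer M q (h ^ k) = uKummer M q h ^ k := by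
  unfold uKummer
  rw [map_pow, map_pow]

/-- The formal expansion with complex coefficients. -/
def toCHom (N : ℕ) : FN N →+* LaurentSeries ℂ :=
  helper17.toC.comp (algebraMap (FN N) (LaurentSeries Kbar))

theorem toCHom_apply (N : ℕ) (f : FN N) :
    toCHom N f = helper17.toC (f : LaurentSeries Kbar) := rfl

/-- The `q` embeddings `f ↦ f(ξ^k t)` of `F_{Mq}` over `β F_M`. -/
def rotFam (ξ : ℂ) (hξ : ξ ≠ 0) (k : Fin q) : FN (M * q) →+* LaurentSeries ℂ :=
  (rotLHom (ξ ^ (k : ℕ)) (pow_ne_zero _ hξ)).comp (toCHom (M * q))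

theorem rotFam_apply (ξ : ℂ) (hξ : ξ ≠ 0) (k : Fin q) (f : FN (M * q)) :
    rotFam M q ξ hξ k f = rotL (ξ ^ (k : ℕ)) (helper17.toC (f : LaurentSeries Kbar)) := rfl

theorem toC_qExpand (n : ℕ) [NeZero n] (x : LaurentSeries Kbar) :
    helper17.toC (qExpand Kbar n x) = qExpand ℂ n (helper17.toC x) :=
  coeffMap_qExpand _ n x

theorem rotFam_beta {ξ : ℂ} (hξ : IsPrimitiveRoot ξ q) (k : Fin q) (f : FN M) :
    rotFam M q ξ (hξ.ne_zero (NeZero.ne q)) k (heckeBetaBar Kbar M q f)
      = qExpand ℂ q (helper17.toC (f : LaurentSeries Kbar)) := by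
  rw [rotFam_apply, coe_heckeBetaBar, toC_qExpand, rotL_qExpand, ← pow_mul, mul_comm, pow_mul,
    hξ.pow_eq_one, one_pow, helper80.rotL_one]

theorem rotFam_alpha (ξ : ℂ) (hξ : ξ ≠ 0) (k : Fin q) (f : FN M) :
    rotFam M q ξ hξ k (heckeAlphaBar Kbar M q f)
      = rotL (ξ ^ (k : ℕ)) (helper17.toC (f : LaurentSeries Kbar)) := by
  rw [rotFam_apply, coe_heckeAlphaBar]

theorem coeff_rotFam_xJ (ξ : ℂ) (hξ : ξ ≠ 0) (k : Fin q) :
    (rotFam M q ξ hξ k (genFN (M * q) (idxOne (M * q)))).coeff (-1) = (ξ ^ (k : ℕ))⁻¹ := by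
  rw [rotFam_apply, rotL_coeff, coeff_toC_genFN_idxOne, mul_one, zpow_neg_one]

theorem rotFam_injective {ξ : ℂ} (hξ : IsPrimitiveRoot ξ q) :
    Function.Injective (rotFam M q ξ (hξ.ne_zero (NeZero.ne q))) := by
  intro a b hab
  have hab' := congrArg (fun φ : FN (M * q) →+* LaurentSeries ℂ =>
    (φ (genFN (M * q) (idxOne (M * q)))).coeff (-1)) hab
  beta_reduce at hab'
  rw [coeff_rotFam_xJ, coeff_rotFam_xJ, inv_inj] at hab'
  exact Fin.ext (hξ.pow_inj a.2 b.2 hab')

/-- **Norm formula for `U_q`, complex coefficients**: `(U h)(t^q) = ∏_{k<q} h(ξ^k t)`. -/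
theorem es_norm_U_complex (hq : q.Prime) (hqM : q ∣ M) {ξ : ℂ} (hξ : IsPrimitiveRoot ξ q)
    (h : FN M) :
    qExpand ℂ q (helper17.toC ((uKummer M q h : FN M) : LaurentSeries Kbar))
      = ∏ k ∈ Finset.range q, rotL (ξ ^ k) (helper17.toC (h : LaurentSeries Kbar)) := by
  letI := algebraAlong (heckeBetaBar Kbar M q)
  have hfr : Module.finrank (FN M) (FN (M * q)) = q := finrank_beta_of_dvd M q hq hqM
  haveI fd : FiniteDimensional (FN M) (FN (M * q)) :=
    Module.finite_of_finrank_pos (by rw [hfr]; exact hq.pos)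
  haveI : Algebra.IsSeparable (FN M) (FN (M * q)) := inferInstance
  have key := norm_eq_prod_of_embeddings (F := FN M) (E := FN (M * q))
    ((qExpand ℂ q).comp (toCHom M)) (rotFam M q ξ (hξ.ne_zero (NeZero.ne q)))
    (rotFam_injective M q hξ)
    (fun i => RingHom.ext fun f => rotFam_beta M q hξ i f)
    (by rw [Fintype.card_fin, hfr]) (heckeAlphaBar Kbar M q h)
  simp_rw [rotFam_alpha] at key
  rw [Fin.prod_univ_eq_prod_range
    (fun k => rotL (ξ ^ k) (helper17.toC (h : LaurentSeries Kbar))) q] at key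
  rw [← key]
  rfl

/-- **Norm formula for `U_q`** in `ℚ̄((q))`: `(U h)(t^q) = ∏_{k<q} h(ζ^k t)`. -/
theorem es_norm_U (hq : q.Prime) (hqM : q ∣ M) (ζ : Kbar) (hζ : IsPrimitiveRoot ζ q)
    (h : FN M) :
    qExpand Kbar q ((uKummer M q h : FN M) : LaurentSeries Kbar)
      = ∏ k ∈ Finset.range q, twistL (ζ ^ k) (h : LaurentSeries Kbar) := by
  apply helper17.toC_injective
  rw [map_prod, toC_qExpand]
  simp_rw [toC_twistL, map_pow]
  exact es_norm_U_complex M q hq hqM
    (hζ.map_of_injective (iotaC : Kbar →+* ℂ).injective) h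

end Norm

/-! ### The operator on `J₀(M)` -/

section Operator

variable (M q : ℕ) [NeZero M] [NeZero q]

/-- The inputs of the transpose correspondence. -/
theorem heckeInputs_transpose :
    ∃ (_ : (heckeBetaBar Kbar M q).toRingHom.IsIntegral)
      (hα : (heckeAlphaBar Kbar M q).toRingHom.IsIntegral)
      (_ : HasPrincipalDivisors Kbar (modularFunctionFieldBar (M * q)))
      (hfin : FiniteAlong Kbar (heckeBetaBar Kbar M q)),
      FundamentalIdentityAlong Kbar (heckeAlphaBar Kbar M q) hα ∧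
        NormFormulaAlong Kbar (heckeBetaBar Kbar M q) hfin := by
  haveI := helper77.an_finiteDimensional M
  haveI := helper77.an_finiteDimensional (M * q)
  exact Fermat.Agent.P3.helper58.heckeInputs_of_ff (heckeAlphaBar Kbar M q)
    (heckeBetaBar Kbar M q) (xJ M) (helper77.an_transcendental M)
    (xJ (M * q)) (helper77.an_transcendental (M * q))

/-- **The operator `U_q` on `J₀(M)`** (transpose of the Prelude's Hecke correspondence at `q`;
for `q ∤ M` this is again `T_q`). -/
def uJ : JZero M →+ JZero M :=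
  haveI := (heckeInputs_transpose M q).choose_spec.choose_spec.choose
  heckePic0BarTranspose (heckeInputs_transpose M q).choose_spec.choose
    (heckeInputs_transpose M q).choose
    (heckeInputs_transpose M q).choose_spec.choose_spec.choose_spec.choose_spec.1
    (heckeInputs_transpose M q).choose_spec.choose_spec.choose_spec.choose
    (heckeInputs_transpose M q).choose_spec.choose_spec.choose_spec.choose_spec.2

theorem uJ_eq (hα : HeckeAlphaBarIntegral Kbar M q) (hβ : HeckeBetaBarIntegral Kbar M q)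
    [HasPrincipalDivisors Kbar (modularFunctionFieldBar (M * q))]
    (hFI : FundamentalIdentityAlong Kbar (heckeAlphaBar Kbar M q) hα)
    (hfin : FiniteAlong Kbar (heckeBetaBar Kbar M q))
    (hN : NormFormulaAlong Kbar (heckeBetaBar Kbar M q) hfin) :
    uJ M q = heckePic0BarTranspose hα hβ hFI hfin hN := rfl

/-- `uJ` acts on Kummer representatives by `h ↦ Norm_β (α h)`. -/
theorem IsKummerRep.uJ {n : ℕ} {x : JZero M} {h : modularFunctionFieldBar M}
    (H : IsKummerRep n x h) : IsKummerRep n (uJ M q x) (uKummer M q h) := by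
  obtain ⟨hβ, hα, hP, hfin, hFI, hN⟩ := heckeInputs_transpose M q
  haveI := hP
  rw [uJ_eq M q hα hβ hFI hfin hN]
  exact H.correspondence (heckeAlphaBar Kbar M q) (heckeBetaBar Kbar M q) hα hβ hFI hfin hN

/-- `uJ` commutes with the Galois action. -/
theorem uJ_galois_smul (σ : Kbar ≃ₐ[ℚ] Kbar) (x : JZero M) :
    uJ M q (σ • x) = σ • uJ M q x := by
  obtain ⟨hβ, hα, hP, hfin, hFI, hN⟩ := heckeInputs_transpose M q
  haveI := hP
  rw [uJ_eq M q hα hβ hFI hfin hN, galois_smul_pic0_def, galois_smul_pic0_def]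
  exact Fermat.Agent.P3.helper10.pic0_correspondence_smul (heckeAlphaBar Kbar M q)
    (heckeBetaBar Kbar M q) hα hβ hFI hfin hN
    (Fermat.Agent.P3.helper10.intertwines_heckeAlphaBar M q σ)
    (Fermat.Agent.P3.helper10.intertwines_heckeBetaBar M q σ) x

end Operator

end Fermat.Agent.T2.helper48

end
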