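/-
TIER 2, [T2-CONG] (helper15, task 831): the congruence at the bad prime, function-field form.

`q` a prime dividing the level `M`, `A` a valuation subring of `ℚ̄` over `q`, `φ` a Frobenius
element at `A`.  `U = helper48.uKummer M q` is the operator `U_q` on Kummer representatives
(`(U h)(t^q) = ∏_{k<q} h(ζ^k t)`).

* `uFormal`       : the formal congruence: if `N(t^q) = ∏_{i<q} h(u^i t)` with `u ≡ 1`, then
                    `N̄ = Frob(h̄)` (coefficientwise Frobenius).
* `uRed`          : if `Y ∈ A((q))` represents `h ∈ F_M` then `U h` is represented by an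
                    integral series `Y'` with `red Y' = Frob (red Y)`.
* `isGood_uRed`   : goodness is preserved.
* `red_actA_of_isFrobeniusAt` : `red (φ Y) = Frob (red Y)` for a Frobenius element `φ`.
* `redC_frob_div_u` : **(c1)** for `h = c · (good)/(good)` the function `φ h / U h` is
                    `≡ φ c / c^q` for the Gauss valuation `w₁`, i.e. `φ x - U x ∈ ker RED₁`.
-/
import Mathlib
import Fermat.Agent.T2.helper48_UOp
import Fermat.Agent.T2.helper20_Kum

set_option autoImplicit false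
set_option linter.unusedSectionVars false
set_option linter.unusedVariables false
set_option linter.style.haveILetI false

noncomputable section

open HahnSeries IntermediateField AlgebraicCurve ModularCurve

namespace Fermat.Agent.T2.helper15

open Fermat.Agent.S18.helper19 Fermat.Agent.P2.helper29 Fermat.Agent.P2.helper93
open Fermat.Agent.T2 Fermat.Agent.T2.helper20 Fermat.Agent.T2.helper48

/-! ## The formal congruence -/

section Formal

variable {B : Type*} [CommRing B] (ℓ : ℕ) [Fact ℓ.Prime] [NeZero ℓ]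

/-- **Formal congruence for `U`.**  `I` an ideal of `B` with `B ⧸ I` of characteristic `ℓ`,
`u ≡ 1 mod I`.  If `N(t^ℓ) = ∏_{i<ℓ} h(u^i t)`, then `N̄ = Frob h̄`. -/
theorem uFormal (I : Ideal B) [CharP (B ⧸ I) ℓ] (u : Bˣ) (hu : (u : B) - 1 ∈ I)
    (h N : LaurentSeries B)
    (hN : qExpand B ℓ N = ∏ i ∈ Finset.range ℓ, Fermat.Agent.P2.helper94.rot (u ^ i) h) :
    coeffMap (Ideal.Quotient.mk I) N =
      coeffMap (frobenius (B ⧸ I) ℓ) (coeffMap (Ideal.Quotient.mk I) h) := by
  apply Fermat.Agent.P2.helper94.qExpand_injective ℓ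
  have hui : ∀ i : ℕ, ((u ^ i : Bˣ) : B) - 1 ∈ I := by
    intro i
    induction i with
    | zero => simp
    | succ i ih =>
      have e : ((u ^ (i + 1) : Bˣ) : B) - 1 = ((u ^ i : Bˣ) : B) * ((u : B) - 1) +
          (((u ^ i : Bˣ) : B) - 1) := by
        rw [pow_succ]
        push_cast
        ring
      rw [e]
      exact I.add_mem (I.mul_mem_left _ hu) ih
  rw [← Fermat.Agent.P2.helper94.coeffMap_qExpand, hN, map_prod,
    ← Fermat.Agent.P2.helper94.laurent_pow_char ℓ,
    Finset.prod_congr rfl fun i _ =>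
      Fermat.Agent.P2.helper94.coeffMap_rot_of_sub_one_mem I (u ^ i) (hui i) h,
    Finset.prod_const, Finset.card_range]

end Formal

/-! ## The reduction of `U` -/

section Red

variable (M q : ℕ) [NeZero M] [NeZero q]

/-- **U-RED.** -/
theorem uRed [hfact : Fact q.Prime] (hqM : q ∣ M) (A : ValuationSubring Kb)
    (hA : A.LiesOverPrime q) (Y : LaurentSeries A) (hY : incl A Y ∈ FF M) :
    ∃ Y' : LaurentSeries A,
      incl A Y' = ((uKummer M q ⟨incl A Y, hY⟩ : FF M) : LaurentSeries Kb) ∧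
      ∀ [CharP (kA A) q], red A Y' = coeffMap (frobenius (kA A) q) (red A Y) := by
  have hq : q.Prime := hfact.out
  obtain ⟨ζ, hζ⟩ := HasEnoughRootsOfUnity.exists_primitiveRoot Kb q
  have hζ1 : ζ ^ q = 1 := hζ.pow_eq_one
  set u : (↥A)ˣ := rootUnit A hq.ne_zero hζ1 with hu
  set NK : LaurentSeries Kb := ((uKummer M q ⟨incl A Y, hY⟩ : FF M) : LaurentSeries Kb) with hNK
  have key := es_norm_U M q hq hqM ζ hζ ⟨incl A Y, hY⟩
  set P : LaurentSeries ↥A :=
    ∏ i ∈ Finset.range q, Fermat.Agent.P2.helper94.rot (u ^ i) Y with hP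
  have hPK : incl A P = qExpand Kb q NK := by
    rw [hNK, key, hP, map_prod]
    refine Finset.prod_congr rfl fun i _ => ?_
    rw [coeffMap_subtype_rot]
    rfl
  have hmem : ∀ k, NK.coeff k ∈ A := by
    intro k
    have h1 : NK.coeff k = (qExpand Kb q NK).coeff ((q : ℤ) * k) :=
      (qExpand_coeff_mul q NK k).symm
    rw [h1, ← hPK, coeffMap_coeff]
    exact (P.coeff _).2
  refine ⟨liftA NK hmem, coeffMap_subtype_liftA NK hmem, ?_⟩
  intro hchar
  haveI hchar' : CharP (↥A ⧸ IsLocalRing.maximalIdeal ↥A) q := hchar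
  have hN' : qExpand ↥A q (liftA NK hmem)
      = ∏ i ∈ Finset.range q, Fermat.Agent.P2.helper94.rot (u ^ i) Y := by
    apply coeffMap_subtype_injective
    rw [Fermat.Agent.P2.helper94.coeffMap_qExpand, coeffMap_subtype_liftA]
    exact hPK.symm
  exact uFormal q (IsLocalRing.maximalIdeal ↥A) u
    (rootUnit_sub_one_mem hq hA hζ1) Y (liftA NK hmem) hN'

/-- goodness is preserved by `uRed`. -/
theorem isGood_of_uRed [hfact : Fact q.Prime] (A : ValuationSubring Kb) [CharP (kA A) q]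
    {Y Y' : LaurentSeries A} (hY : IsGood A M Y) (hmem : incl A Y' ∈ FF M)
    (hr : red A Y' = coeffMap (frobenius (kA A) q) (red A Y)) : IsGood A M Y' := by
  refine ⟨hmem, ?_, ?_⟩
  · change red A Y' ∈ _
    rw [hr]
    exact coeffMap_mem_fullC _ M hY.2.1
  · change red A Y' ≠ 0
    rw [hr]
    intro h0
    exact hY.2.2 (cw_coeffMap_injective _ (frobenius (kA A) q).injective
      (h0.trans (map_zero _).symm))

/-- `U` of a constant is a constant. -/
theorem uKummer_algebraMap (c : Kb) :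
    ∃ d : ℕ, uKummer M q (algebraMap Kb (FF M) c) = algebraMap Kb (FF M) (c ^ d) :=
  norm_along_const (heckeBetaBar Kb M q) (heckeAlphaBar Kb M q) c

end Red

/-! ## The Frobenius element -/

section Frob

variable {A : ValuationSubring Kb} {M : ℕ}

theorem red_actA_of_isFrobeniusAt {q : ℕ} [Fact q.Prime] [CharP (kA A) q]
    {φ : Kb ≃ₐ[ℚ] Kb} (hφ : A.IsFrobeniusAt φ q) (hφ' : φ ∈ A.decompositionSubgroup ℚ)
    (Y : LaurentSeries A) :
    red A (actA φ hφ' Y) = coeffMap (frobenius (kA A) q) (red A Y) := by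
  obtain ⟨hφ'', hfr⟩ := decK_eq_frobenius_of_isFrobeniusAt hφ
  have h1 : red A (actA φ hφ' Y) = coeffMap (decK φ hφ') (red A Y) :=
    coeffMap_residue_actA φ hφ' Y
  rw [h1, hfr]

end Frob

/-! ## The congruence `(c1)` -/

section Cong

variable (M q : ℕ) [NeZero M] [NeZero q]

/-- **(c1)** for a Frobenius element `φ` at `A ∣ q`, `q ∣ M`, and `f = c · (good)/(good)` the
function `φ f / U f` is `≡ φ c / c ^ d` for the Gauss valuation (`d` = the degree of `U` on
constants). -/
theorem redC_frob_div_u [hfact : Fact q.Prime] (hqM : q ∣ M) (A : ValuationSubring Kb)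
    (hA : A.LiesOverPrime q) {φ : Kb ≃ₐ[ℚ] Kb} (hφ : A.IsFrobeniusAt φ q)
    {f : FF M} {c : Kb} {Y₁ Y₂ : LaurentSeries A} (hc : c ≠ 0)
    (g₁ : IsGood A M Y₁) (g₂ : IsGood A M Y₂)
    (e : algebraMap Kb (LaurentSeries Kb) c * incl A Y₁ = (f : LaurentSeries Kb) * incl A Y₂) :
    ∃ d : ℕ, RedC A M (galF M φ f / uKummer M q f) (φ c / c ^ d) := by
  have hq : q.Prime := hfact.out
  haveI hchar : CharP (kA A) q := charP_residueField hq hA
  obtain ⟨hφ', -⟩ := decK_eq_frobenius_of_isFrobeniusAt hφ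
  obtain ⟨d, hd⟩ := uKummer_algebraMap M q c
  refine ⟨d, ?_⟩
  -- the functions
  set y₁ : FF M := ⟨incl A Y₁, g₁.1⟩ with hy₁
  set y₂ : FF M := ⟨incl A Y₂, g₂.1⟩ with hy₂
  have hy₁0 : y₁ ≠ 0 := fun h0 =>
    incl_ne_zero_of_isGood g₁ (congrArg (fun z : FF M => (z : LaurentSeries Kb)) h0)
  have hy₂0 : y₂ ≠ 0 := fun h0 =>
    incl_ne_zero_of_isGood g₂ (congrArg (fun z : FF M => (z : LaurentSeries Kb)) h0)
  have hcF : algebraMap Kb (FF M) c ≠ 0 := (map_ne_zero _).mpr hc
  have E : algebraMap Kb (FF M) c * y₁ = f * y₂ := Subtype.ext e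
  have hf : f ≠ 0 := by
    rintro rfl
    rw [zero_mul] at E
    exact mul_ne_zero hcF hy₁0 E
  -- `U`
  obtain ⟨Y₁', e₁, r₁⟩ := uRed M q hqM A hA Y₁ g₁.1
  obtain ⟨Y₂', e₂, r₂⟩ := uRed M q hqM A hA Y₂ g₂.1
  have G₁' : IsGood A M Y₁' := isGood_of_uRed M q A g₁ (by rw [e₁]; exact SetLike.coe_mem _) r₁
  have G₂' : IsGood A M Y₂' := isGood_of_uRed M q A g₂ (by rw [e₂]; exact SetLike.coe_mem _) r₂
  have EU : algebraMap Kb (FF M) (c ^ d) * uKummer M q y₁ = uKummer M q f * uKummer M q y₂ := by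
    rw [← hd, ← uKummer_mul, ← uKummer_mul, E]
  have hUf : uKummer M q f ≠ 0 := by
    intro h0
    rw [h0, zero_mul] at EU
    have h1 : uKummer M q y₁ ≠ 0 := by
      intro h2
      have h3 := congrArg (fun z : FF M => (z : LaurentSeries Kb)) h2
      exact incl_ne_zero_of_isGood G₁' (e₁.trans h3)
    exact mul_ne_zero ((map_ne_zero _).mpr (pow_ne_zero d hc)) h1 EU
  -- `φ`
  have Eφ : algebraMap Kb (FF M) (φ c) * galF M φ y₁ = galF M φ f * galF M φ y₂ := by
    rw [← galF_algebraMap, ← map_mul, ← map_mul, E]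
  have i₁ : incl A (actA φ hφ' Y₁) = ((galF M φ y₁ : FF M) : LaurentSeries Kb) :=
    coeffMap_subtype_actA φ hφ' Y₁
  have i₂ : incl A (actA φ hφ' Y₂) = ((galF M φ y₂ : FF M) : LaurentSeries Kb) :=
    coeffMap_subtype_actA φ hφ' Y₂
  refine ⟨actA φ hφ' Y₁ * Y₂', actA φ hφ' Y₂ * Y₁', (isGood_actA hφ' g₁).mul G₂',
    (isGood_actA hφ' g₂).mul G₁', ?_, ?_⟩
  · rw [map_mul, map_mul, i₁, i₂, e₁, e₂]
    have key : algebraMap Kb (FF M) (φ c / c ^ d) * (galF M φ y₁ * uKummer M q y₂)
        = galF M φ f / uKummer M q f * (galF M φ y₂ * uKummer M q y₁) := by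
      have hcd : algebraMap Kb (FF M) (c ^ d) ≠ 0 := (map_ne_zero _).mpr (pow_ne_zero d hc)
      rw [map_div₀]
      field_simp
      linear_combination (uKummer M q f * uKummer M q y₂) * Eφ
        - (galF M φ f * galF M φ y₂) * EU
    exact congrArg (fun z : FF M => (z : LaurentSeries Kb)) key
  · rw [map_mul, map_mul, red_actA_of_isFrobeniusAt hφ hφ', red_actA_of_isFrobeniusAt hφ hφ',
      r₁, r₂, mul_comm]

end Cong

end Fermat.Agent.T2.helper15

end
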