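/-
TIER 2, [T2-MERGE] (helper15, task 831): weak approximation for the pair of Gauss valuations
`w₁`, `w₂ = w₁ ∘ W` in the `IsRedOne` language, and the merge step.

Setting: `M` a level, `A` a valuation subring of `ℚ̄` over a prime, `W` an involution of `F_M`.
Inputs: `helper29.ScaleStatement M A` (scaling for `w₁`), a separating function
(`SepW M W A`: `e ≡ 1` for `w₁`, `W e ≡ 0` for `w₁`) and (ARCH) for `A`.

* `exists_scale_of_isRedZero` : a nonzero function with reduction `0` is `c · (good)/(good)`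
                                with `c` in the maximal ideal.
* `exists_pow_isRedZero`      : `g · z ^ k` has reduction `0` for all large `k` if `z` has.
* `approx`                    : for `f₁, f₂ ≠ 0` there is `r` with `r / f₁ ≡ 1` for `w₁` and
                                `r / f₂ ≡ 1` for `w₂`.
* `MergeStatement`, `merge`   : a function which is `≡ 1` for `w₁` up to a constant and an
                                `n`-th power, and `≡ 1` for `w₂` up to ANOTHER constant and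
                                `n`-th power, is `≡ 1` for both up to ONE `n`-th power.
-/
import Mathlib
import Fermat.Agent.T2.helper20_Kum
import Fermat.Agent.P2.helper29_Assembly
import Fermat.Agent.P2.helper74_Arch

set_option autoImplicit false
set_option linter.unusedSectionVars false
set_option linter.unusedVariables false
set_option linter.style.haveILetI false

noncomputable section

open HahnSeries IntermediateField AlgebraicCurve ModularCurve

namespace Fermat.Agent.T2.helper15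

open Fermat.Agent.S18.helper19 Fermat.Agent.P2.helper29 Fermat.Agent.P2.helper93
open Fermat.Agent.T2 Fermat.Agent.T2.helper20

variable {A : ValuationSubring Kb} {M : ℕ}

/-! ## Functions with reduction zero -/

section RedZero

theorem isRedZero_zero : IsRedZero A M (0 : LaurentSeries Kb) :=
  ⟨0, 1, by rw [map_zero]; exact zero_mem _, isGood_one, by rw [map_zero, zero_mul],
    map_zero _⟩

/-- a constant of the maximal ideal times a quotient of good series has reduction `0` -/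
theorem isRedZero_of_scale {z : LaurentSeries Kb} {c : Kb} (hcA : c ∈ A)
    (hc0 : IsLocalRing.residue A ⟨c, hcA⟩ = 0) {G₁ G₂ : LaurentSeries A}
    (g₁ : IsGood A M G₁) (g₂ : IsGood A M G₂)
    (e : algebraMap Kb (LaurentSeries Kb) c * incl A G₁ = z * incl A G₂) :
    IsRedZero A M z := by
  refine ⟨constA ⟨c, hcA⟩ * G₁, G₂, ?_, g₂, ?_, ?_⟩
  · rw [map_mul, coeffMap_subtype_constA]
    exact mul_mem ((FF M).algebraMap_mem c) g₁.1
  · rw [map_mul, coeffMap_subtype_constA]
    exact e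
  · rw [map_mul, coeffMap_residue_constA, hc0, map_zero, zero_mul]

variable [NeZero M]

/-- a nonzero function with reduction `0` is `c · (good)/(good)` with `c` in the maximal
ideal of `A`. -/
theorem exists_scale_of_isRedZero (hSC : ScaleStatement M A) {z : LaurentSeries Kb}
    (hzF : z ∈ FF M) (hz0 : z ≠ 0) (hz : IsRedZero A M z) :
    ∃ (c : Kb) (hcA : c ∈ A) (G₁ G₂ : LaurentSeries A), c ≠ 0 ∧
      IsLocalRing.residue A ⟨c, hcA⟩ = 0 ∧ IsGood A M G₁ ∧ IsGood A M G₂ ∧
      algebraMap Kb (LaurentSeries Kb) c * incl A G₁ = z * incl A G₂ := by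
  obtain ⟨c, G₁, G₂, hc, g₁, g₂, e⟩ := hSC z hzF hz0
  obtain ⟨P₁, P₂, hP₁, gP₂, eP, rP⟩ := hz
  have hG₂ : incl A G₂ ≠ 0 := incl_ne_zero_of_isGood g₂
  have key : incl A P₁ * incl A G₂ =
      algebraMap Kb (LaurentSeries Kb) c * (incl A G₁ * incl A P₂) := by
    rw [eP, ← mul_assoc, e]
    ring
  rcases A.mem_or_inv_mem c with hcA | hcA
  · refine ⟨c, hcA, G₁, G₂, hc, ?_, g₁, g₂, e⟩
    have k2 : P₁ * G₂ = constA ⟨c, hcA⟩ * (G₁ * P₂) := by
      apply incl_injective A
      rw [map_mul, map_mul, map_mul, coeffMap_subtype_constA]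
      exact key
    have k3 := congrArg (red A) k2
    rw [map_mul, map_mul, map_mul, rP, zero_mul, coeffMap_residue_constA] at k3
    rcases mul_eq_zero.mp k3.symm with h | h
    · exact (map_eq_zero _).mp h
    · exact absurd h (mul_ne_zero g₁.2.2 gP₂.2.2)
  · exfalso
    have k2 : constA ⟨c⁻¹, hcA⟩ * (P₁ * G₂) = G₁ * P₂ := by
      apply incl_injective A
      rw [map_mul, map_mul, map_mul, coeffMap_subtype_constA, key, ← mul_assoc, ← map_mul,
        inv_mul_cancel₀ hc, map_one, one_mul]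
    have k3 := congrArg (red A) k2
    rw [map_mul, map_mul, map_mul, rP, zero_mul, mul_zero] at k3
    exact mul_ne_zero g₁.2.2 gP₂.2.2 k3.symm

theorem isGood_pow {Y : LaurentSeries A} (h : IsGood A M Y) (k : ℕ) : IsGood A M (Y ^ k) := by
  induction k with
  | zero => rw [pow_zero]; exact isGood_one
  | succ k ih => rw [pow_succ]; exact ih.mul h

/-- **(ARCH)** in the `IsRedZero` language: if `z` has reduction `0`, then `g · z ^ k` has
reduction `0` for all large `k`. -/
theorem exists_pow_isRedZero (hArch : Fermat.Agent.P2.helper74.Arch A (IsLocalRing.residue A))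
    (hSC : ScaleStatement M A) (g z : FF M) (hz : IsRedZero A M (z : LaurentSeries Kb)) :
    ∃ K : ℕ, ∀ k : ℕ, K ≤ k → IsRedZero A M ((g * z ^ k : FF M) : LaurentSeries Kb) := by
  by_cases hg0 : g = 0
  · refine ⟨0, fun k _ => ?_⟩
    rw [hg0, zero_mul]
    exact isRedZero_zero
  by_cases hz0 : z = 0
  · refine ⟨1, fun k hk => ?_⟩
    rw [hz0, zero_pow (by omega), mul_zero]
    exact isRedZero_zero
  have hzL : (z : LaurentSeries Kb) ≠ 0 := fun h => hz0 (Subtype.ext h)
  have hgL : (g : LaurentSeries Kb) ≠ 0 := fun h => hg0 (Subtype.ext h)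
  obtain ⟨cz, hczA, Z₁, Z₂, hcz, hcz0, gZ₁, gZ₂, eZ⟩ :=
    exists_scale_of_isRedZero hSC z.2 hzL hz
  obtain ⟨cg, G₁, G₂, hcg, gG₁, gG₂, eG⟩ := hSC g g.2 hgL
  -- the archimedean step
  have hex : ∃ (n : ℕ) (a : A), cg * cz ^ n = (a : Kb) := by
    rcases A.mem_or_inv_mem cg with h | h
    · exact ⟨0, ⟨cg, h⟩, by rw [pow_zero, mul_one]⟩
    · have he : (⟨cg⁻¹, h⟩ : A) ≠ 0 := by
        intro h0
        exact inv_ne_zero hcg (congrArg (fun x : A => (x : Kb)) h0)
      obtain ⟨n, a, ha⟩ := hArch ⟨cz, hczA⟩ hcz0 ⟨cg⁻¹, h⟩ he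
      refine ⟨n, a, ?_⟩
      have h1 := congrArg (fun x : A => (x : Kb)) ha
      simp only [SubmonoidClass.coe_pow, MulMemClass.coe_mul] at h1
      rw [h1, ← mul_assoc, mul_inv_cancel₀ hcg, one_mul]
  obtain ⟨n, a, hna⟩ := hex
  refine ⟨n + 1, fun k hk => ?_⟩
  obtain ⟨j, rfl⟩ : ∃ j, k = n + (j + 1) := ⟨k - n - 1, by omega⟩
  -- the constant
  have hmem : cg * cz ^ (n + (j + 1)) ∈ A := by
    rw [_root_.pow_add, ← mul_assoc, hna]
    exact A.mul_mem _ _ a.2 (A.pow_mem hczA _)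
  have hres : IsLocalRing.residue A ⟨cg * cz ^ (n + (j + 1)), hmem⟩ = 0 := by
    have e1 : (⟨cg * cz ^ (n + (j + 1)), hmem⟩ : A) = a * (⟨cz, hczA⟩ : A) ^ (j + 1) := by
      apply Subtype.ext
      simp only [MulMemClass.coe_mul, SubmonoidClass.coe_pow]
      rw [_root_.pow_add, ← mul_assoc, hna]
    rw [e1, map_mul, map_pow, hcz0, zero_pow (by omega), mul_zero]
  refine isRedZero_of_scale hmem hres (gG₁.mul (isGood_pow gZ₁ (n + (j + 1))))
    (gG₂.mul (isGood_pow gZ₂ (n + (j + 1)))) ?_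
  have e1 : ((g * z ^ (n + (j + 1)) : FF M) : LaurentSeries Kb)
      = (g : LaurentSeries Kb) * (z : LaurentSeries Kb) ^ (n + (j + 1)) := rfl
  rw [e1, map_mul, map_mul, map_pow, map_pow, map_mul, map_pow]
  calc algebraMap Kb (LaurentSeries Kb) cg * algebraMap Kb (LaurentSeries Kb) cz ^ (n + (j + 1))
        * (incl A G₁ * incl A Z₁ ^ (n + (j + 1)))
      = (algebraMap Kb (LaurentSeries Kb) cg * incl A G₁)
        * (algebraMap Kb (LaurentSeries Kb) cz * incl A Z₁) ^ (n + (j + 1)) := by ring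
    _ = ((g : LaurentSeries Kb) * incl A G₂)
        * ((z : LaurentSeries Kb) * incl A Z₂) ^ (n + (j + 1)) := by rw [eG, eZ]
    _ = (g : LaurentSeries Kb) * (z : LaurentSeries Kb) ^ (n + (j + 1))
        * (incl A G₂ * incl A Z₂ ^ (n + (j + 1))) := by ring

end RedZero

/-! ## Weak approximation -/

section Approx

variable [NeZero M]

/-- **(SEP)** there is a function which is `≡ 1` for `w₁` and `≡ 0` for `w₂ = w₁ ∘ W`. -/
def SepW (M : ℕ) (W : FF M ≃ₐ[Kb] FF M) (A : ValuationSubring Kb) : Prop :=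
  ∃ e : FF M, IsRedOne A M (e : LaurentSeries Kb) ∧
    IsRedZero A M ((W e : FF M) : LaurentSeries Kb)

/-- **Weak approximation** for the pair `(w₁, w₂)`: for `f₁, f₂ ≠ 0` there is `r` with
`r / f₁ ≡ 1` for `w₁` and `r / f₂ ≡ 1` for `w₂`. -/
theorem approx (hArch : Fermat.Agent.P2.helper74.Arch A (IsLocalRing.residue A))
    (hSC : ScaleStatement M A) (W : FF M ≃ₐ[Kb] FF M) (hWW : ∀ f, W (W f) = f)
    (hSep : SepW M W A) (f₁ f₂ : FF M) (hf₁ : f₁ ≠ 0) (hf₂ : f₂ ≠ 0) :
    ∃ r : FF M, r ≠ 0 ∧ IsRedOne A M ((r * f₁⁻¹ : FF M) : LaurentSeries Kb) ∧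
      IsRedOne A M ((W (r * f₂⁻¹) : FF M) : LaurentSeries Kb) := by
  obtain ⟨e, he1, he0⟩ := hSep
  obtain ⟨K₁, hK₁⟩ := exists_pow_isRedZero hArch hSC (f₂ * f₁⁻¹) (W e) he0
  obtain ⟨K₂, hK₂⟩ := exists_pow_isRedZero hArch hSC (W (f₁ * f₂⁻¹)) (W e) he0
  set K := max K₁ K₂ with hK
  have h1 := hK₁ K (le_max_left _ _)
  have h2 := hK₂ K (le_max_right _ _)
  have heK : RedC A M (e ^ K) 1 := by
    have := (redC_one_iff.mpr he1).pow K
    rwa [one_pow] at this
  set r : FF M := f₁ * e ^ K + f₂ * (W e) ^ K with hr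
  have hone : (1 : Kb) ∈ A := A.one_mem
  have r1 : IsRedOne A M ((r * f₁⁻¹ : FF M) : LaurentSeries Kb) := by
    have h3 := heK.add_redZero h1 1 hone
    have e3 : e ^ K + algebraMap Kb (FF M) 1 * (f₂ * f₁⁻¹ * W e ^ K) = r * f₁⁻¹ := by
      rw [hr, map_one, one_mul]
      field_simp
    rw [e3] at h3
    exact redC_one_iff.mp h3
  have r2 : IsRedOne A M ((W (r * f₂⁻¹) : FF M) : LaurentSeries Kb) := by
    have h3 := heK.add_redZero h2 1 hone
    have e3 : e ^ K + algebraMap Kb (FF M) 1 * (W (f₁ * f₂⁻¹) * W e ^ K) = W (r * f₂⁻¹) := by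
      rw [hr, map_one, one_mul]
      have hW : W ((f₁ * e ^ K + f₂ * W e ^ K) * f₂⁻¹)
          = W (f₁ * f₂⁻¹) * W e ^ K + W (f₂ * f₂⁻¹) * e ^ K := by
        simp only [map_mul, map_add, map_pow, map_inv₀, hWW]
        ring
      rw [hW, mul_inv_cancel₀ hf₂, map_one, one_mul, add_comm]
    rw [e3] at h3
    exact redC_one_iff.mp h3
  refine ⟨r, ?_, r1, r2⟩
  rintro h0
  rw [h0, zero_mul] at r1
  exact r1.ne_zero rfl

end Approx

/-! ## The merge step -/

section Merge

variable [NeZero M]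

/-- **[T2-MERGE]** a function which is `≡ 1` for `w₁` up to a constant and an `n`-th power and
`≡ 1` for `w₂` up to another constant and `n`-th power is `≡ 1` for both valuations up to ONE
`n`-th power. -/
def MergeStatement (M : ℕ) (W : FF M ≃ₐ[Kb] FF M) (A : ValuationSubring Kb) (n : ℕ) : Prop :=
  ∀ u : FF M, u ≠ 0 →
    (∃ (a : Kb) (v : FF M), a ≠ 0 ∧ v ≠ 0 ∧
      IsRedOne A M ((algebraMap Kb (FF M) a * v ^ n * u : FF M) : LaurentSeries Kb)) →
    (∃ (a : Kb) (v : FF M), a ≠ 0 ∧ v ≠ 0 ∧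
      IsRedOne A M ((W (algebraMap Kb (FF M) a * v ^ n * u) : FF M) : LaurentSeries Kb)) →
    ∃ r : FF M, r ≠ 0 ∧ IsRedOne A M ((r ^ n * u : FF M) : LaurentSeries Kb) ∧
      IsRedOne A M ((W (r ^ n * u) : FF M) : LaurentSeries Kb)

theorem isRedOne_coe_mul {f g : FF M} (hf : IsRedOne A M (f : LaurentSeries Kb))
    (hg : IsRedOne A M (g : LaurentSeries Kb)) :
    IsRedOne A M ((f * g : FF M) : LaurentSeries Kb) :=
  hf.mul hg

theorem isRedOne_coe_pow {f : FF M} (hf : IsRedOne A M (f : LaurentSeries Kb)) (k : ℕ) :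
    IsRedOne A M ((f ^ k : FF M) : LaurentSeries Kb) :=
  hf.pow k

/-- **[T2-MERGE]** from scaling, a separating function and (ARCH). -/
theorem merge (hArch : Fermat.Agent.P2.helper74.Arch A (IsLocalRing.residue A))
    (hSC : ScaleStatement M A) (W : FF M ≃ₐ[Kb] FF M) (hWW : ∀ f, W (W f) = f)
    (hSep : SepW M W A) {n : ℕ} (hn : n ≠ 0) : MergeStatement M W A n := by
  rintro u hu ⟨a, v, ha, hv, h1⟩ ⟨a', v', ha', hv', h2⟩
  obtain ⟨α, hα⟩ := IsAlgClosed.exists_pow_nat_eq a (Nat.pos_of_ne_zero hn)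
  obtain ⟨α', hα'⟩ := IsAlgClosed.exists_pow_nat_eq a' (Nat.pos_of_ne_zero hn)
  have hα0 : α ≠ 0 := by
    rintro rfl
    rw [zero_pow hn] at hα
    exact ha hα.symm
  have hα'0 : α' ≠ 0 := by
    rintro rfl
    rw [zero_pow hn] at hα'
    exact ha' hα'.symm
  have hf₁ : algebraMap Kb (FF M) α * v ≠ 0 := mul_ne_zero ((map_ne_zero _).mpr hα0) hv
  have hf₂ : algebraMap Kb (FF M) α' * v' ≠ 0 := mul_ne_zero ((map_ne_zero _).mpr hα'0) hv'
  -- `r⁻¹` approximates `α v` for `w₁` and `α' v'` for `w₂`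
  obtain ⟨s, hs, s1, s2⟩ := approx hArch hSC W hWW hSep _ _ (inv_ne_zero hf₁) (inv_ne_zero hf₂)
  rw [inv_inv] at s1 s2
  refine ⟨s⁻¹, inv_ne_zero hs, ?_, ?_⟩
  · have e : s⁻¹ ^ n * u
        = ((s * (algebraMap Kb (FF M) α * v)) ^ n)⁻¹ * (algebraMap Kb (FF M) a * v ^ n * u) := by
      have hsn : s ^ n ≠ 0 := pow_ne_zero n hs
      have hαn : algebraMap Kb (FF M) α ^ n ≠ 0 := pow_ne_zero n ((map_ne_zero _).mpr hα0)
      have hvn : v ^ n ≠ 0 := pow_ne_zero n hv
      rw [← hα, map_pow, mul_pow, mul_pow, inv_pow]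
      field_simp
    rw [e]
    have h3 : IsRedOne A M ((((s * (algebraMap Kb (FF M) α * v)) ^ n)⁻¹ : FF M) :
        LaurentSeries Kb) := (isRedOne_coe_pow s1 n).inv
    exact isRedOne_coe_mul h3 h1
  · have e : W (s⁻¹ ^ n * u)
        = ((W (s * (algebraMap Kb (FF M) α' * v'))) ^ n)⁻¹
          * W (algebraMap Kb (FF M) a' * v' ^ n * u) := by
      rw [← map_pow, ← map_inv₀, ← map_mul]
      congr 1
      have hsn : s ^ n ≠ 0 := pow_ne_zero n hs
      have hαn : algebraMap Kb (FF M) α' ^ n ≠ 0 := pow_ne_zero n ((map_ne_zero _).mpr hα'0)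
      have hvn : v' ^ n ≠ 0 := pow_ne_zero n hv'
      rw [← hα', map_pow, mul_pow, mul_pow, inv_pow]
      field_simp
    rw [e]
    have h3 : IsRedOne A M ((((W (s * (algebraMap Kb (FF M) α' * v'))) ^ n)⁻¹ : FF M) :
        LaurentSeries Kb) := (isRedOne_coe_pow s2 n).inv
    exact isRedOne_coe_mul h3 h2

end Merge

end Fermat.Agent.T2.helper15

end
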