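/-
TIER 2, [T2-FROBCORE-ASM] (helper15, task 831): the S35 core `φ² = q²` on `φ x - ε x` for a joint
eigenvector `x` of `U_q` and `w_q`, from the function-field statements.

Setting: `q` a prime dividing `M`, `W` an involution of `F_M` commuting with the Galois action
(`helper36.atkinLehner`), `A` a valuation subring of `ℚ̄` over `q`, `φ` a Frobenius element at
`A`, `U = helper48.uJ M q`.

* `T0FrobStatement M W A n q` : **[T0-FROB]** = (d) of #1169: for `u ≡ 1` for both Gauss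
  valuations with `n ∣ div u`, `φ² u / u ^ (q²)` is a constant times an `n`-th power
  (the Frobenius variant of `T0InertStatement`).  OPEN (input).
* `exists_isRedOne_of_eigen` : **(c1)** in Kummer form: if `U y = ε y` and `h` is a Kummer
  representative of `y`, then `φ h / h ^ ε` is `≡ 1` for `w₁` up to a constant and an `n`-th
  power.
* `frobCore_of` : the core, from `ScaleStatement`, a separating function and `[T0-FROB]`.
* `frobCore_of'` : the same in the shape of helper76's `FrobCoreStatement`.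
-/
import Mathlib
import Fermat.Agent.T2.helper15_Cong
import Fermat.Agent.T2.helper15_Merge

set_option autoImplicit false
set_option linter.unusedSectionVars false
set_option linter.unusedVariables false
set_option linter.style.haveILetI false

noncomputable section

open HahnSeries IntermediateField AlgebraicCurve ModularCurve

namespace Fermat.Agent.T2.helper15

open Fermat.Agent.S18.helper19 Fermat.Agent.P2.helper29 Fermat.Agent.P2.helper93
open Fermat.Agent.T2 Fermat.Agent.T2.helper20 Fermat.Agent.T2.helper48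
open Fermat.Agent.P3.helper94

/-- **[T0-FROB]**: if `n ∣ div u` and `u ≡ 1` for both Gauss valuations, then
`φ² u / u ^ (q²)` is a constant times an `n`-th power for every Frobenius element `φ` at `A`. -/
def T0FrobStatement (M : ℕ) (W : FF M ≃ₐ[Kb] FF M) (A : ValuationSubring Kb) (n q : ℕ) : Prop :=
  ∀ u : FF M, u ≠ 0 → (∀ P : Place Kb (FF M), (n : ℤ) ∣ P.ord u) →
    IsRedOne A M (u : LaurentSeries Kb) → IsRedOne A M ((W u : FF M) : LaurentSeries Kb) →
    ∀ φ : Kb ≃ₐ[ℚ] Kb, A.IsFrobeniusAt φ q →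
      ∃ (c : Kb) (v : FF M),
        galF M φ (galF M φ u) = algebraMap Kb (FF M) c * v ^ n * u ^ (q * q)

/-- pure algebra: the relation for `r ^ n * u` gives the relation for `u`. -/
theorem frob_alg {F : Type*} [Field F] {c v0 r u R U : F} {n m : ℕ} (hr : r ≠ 0) (hu : u ≠ 0)
    (hR : R ≠ 0) (eT : R ^ n * U = c * v0 ^ n * (r ^ n * u) ^ m) :
    U * (u ^ m)⁻¹ = c * (v0 * r ^ m * R⁻¹) ^ n := by
  have hRn : R ^ n ≠ 0 := pow_ne_zero n hR
  have hum : u ^ m ≠ 0 := pow_ne_zero m hu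
  have e1 : (r ^ n * u) ^ m = (r ^ m) ^ n * u ^ m := by
    rw [mul_pow, ← pow_mul, ← pow_mul, mul_comm n m]
  rw [e1] at eT
  have e2 : U = c * v0 ^ n * ((r ^ m) ^ n * u ^ m) * (R ^ n)⁻¹ := by
    rw [← eT]
    field_simp
  rw [e2, mul_pow, mul_pow, inv_pow]
  field_simp

section Core

variable (M q : ℕ) [NeZero M] [NeZero q]

/-- **(c1)** in Kummer form. -/
theorem exists_isRedOne_of_eigen [hfact : Fact q.Prime] (hqM : q ∣ M)
    (A : ValuationSubring Kb) (hA : A.LiesOverPrime q) (hSC : ScaleStatement M A)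
    {φ : Kb ≃ₐ[ℚ] Kb} (hφ : A.IsFrobeniusAt φ q) {n : ℕ} {y : JZero M} {h : FF M}
    (H : IsKummerRep n y h) (ε : ℤ) (hU : uJ M q y = ε • y) :
    ∃ (a : Kb) (v : FF M), a ≠ 0 ∧ v ≠ 0 ∧
      IsRedOne A M ((algebraMap Kb (FF M) a * v ^ n * (galF M φ h * (h ^ ε)⁻¹) : FF M) :
        LaurentSeries Kb) := by
  have hh : h ≠ 0 := H.ne_zero
  have HU : IsKummerRep n (uJ M q y) (uKummer M q h) := IsKummerRep.uJ M q H
  have H0 : IsKummerRep n (uJ M q y - ε • y) (uKummer M q h * (h ^ ε)⁻¹) := HU.sub (H.zsmul ε)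
  rw [hU, sub_self] at H0
  obtain ⟨v, w, hv, hw, e0⟩ := H0.exists_eq_mul_pow
  obtain ⟨cU, rfl⟩ := const_of_ord_eq_zero M w hw.2
  have hcU : cU ≠ 0 := by
    rintro rfl
    exact hw.1 (map_zero _)
  obtain ⟨c, Y₁, Y₂, hc, g₁, g₂, e⟩ := hSC h h.2 (fun h0 => hh (Subtype.ext h0))
  obtain ⟨d, R⟩ := redC_frob_div_u M q hqM A hA hφ hc g₁ g₂ e
  have hκ : φ c / c ^ d ≠ 0 := div_ne_zero ((map_ne_zero φ).mpr hc) (pow_ne_zero d hc)
  have R' := (R.const_mul (φ c / c ^ d)⁻¹).congr (inv_mul_cancel₀ hκ)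
  have hUh : uKummer M q h ≠ 0 := HU.ne_zero
  refine ⟨(φ c / c ^ d)⁻¹ * cU⁻¹, v⁻¹, mul_ne_zero (inv_ne_zero hκ) (inv_ne_zero hcU),
    inv_ne_zero hv, ?_⟩
  have e1 : algebraMap Kb (FF M) ((φ c / c ^ d)⁻¹ * cU⁻¹) * v⁻¹ ^ n * (galF M φ h * (h ^ ε)⁻¹)
      = algebraMap Kb (FF M) (φ c / c ^ d)⁻¹ * (galF M φ h / uKummer M q h) := by
    have hzp : h ^ ε ≠ 0 := zpow_ne_zero ε hh
    have e2 : (h ^ ε)⁻¹ = algebraMap Kb (FF M) cU * v ^ n * (uKummer M q h)⁻¹ := by
      rw [← e0]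
      field_simp
    have hcU' : algebraMap Kb (FF M) cU ≠ 0 := (map_ne_zero _).mpr hcU
    have hvn : v ^ n ≠ 0 := pow_ne_zero n hv
    rw [e2, map_mul, map_inv₀ (algebraMap Kb (FF M)) cU, inv_pow]
    field_simp
  rw [e1]
  exact redC_one_iff.mp R'

/-- **The S35 core.**  For a Frobenius element `φ` at a place over `q` and a `p`-power torsion
point `x` of `J₀(M)` with `U x = ε x` and `U (W x) = ε (W x)`, the point `x₀ = φ x - ε x`
satisfies `φ² x₀ = q² x₀`. -/
theorem frobCore_of (p : ℕ) [hfact : Fact q.Prime] (hqM : q ∣ M)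
    (W : FF M ≃ₐ[Kb] FF M) (hWW : ∀ f, W (W f) = f)
    (hWgal : ∀ (σ : Kb ≃ₐ[ℚ] Kb) (x : FF M), W (galF M σ x) = galF M σ (W x))
    (hp : p ≠ 0)
    (hSC : ∀ A : ValuationSubring Kb, A.LiesOverPrime q → ScaleStatement M A)
    (hSep : ∀ A : ValuationSubring Kb, A.LiesOverPrime q → SepW M W A)
    (hT : ∀ A : ValuationSubring Kb, A.LiesOverPrime q → ∀ k : ℕ,
      T0FrobStatement M W A (p ^ k) q) :
    ∀ A : ValuationSubring Kb, A.LiesOverPrime q → ∀ φ : Kb ≃ₐ[ℚ] Kb, A.IsFrobeniusAt φ q →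
      ∀ x : JZero M, (∃ n : ℕ, p ^ n • x = 0) → ∀ ε : ℤ,
        uJ M q x = ε • x → uJ M q (W • x) = ε • (W • x) →
        φ • φ • (φ • x - ε • x) = (q * q) • (φ • x - ε • x) := by
  rintro A hA φ hφ x ⟨k, hx⟩ ε hU hUW
  have hq : q.Prime := hfact.out
  set n := p ^ k with hn
  have hn0 : n ≠ 0 := pow_ne_zero k hp
  obtain ⟨h, H⟩ := exists_isKummerRep hx
  have hh : h ≠ 0 := H.ne_zero
  have HW : IsKummerRep n (W • x) (W h) := H.algEquiv_smul W
  -- the two congruences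
  obtain ⟨a, v, ha, hv, c1⟩ := exists_isRedOne_of_eigen M q hqM A hA (hSC A hA) hφ H ε hU
  obtain ⟨a', v', ha', hv', c2⟩ := exists_isRedOne_of_eigen M q hqM A hA (hSC A hA) hφ HW ε hUW
  set u : FF M := galF M φ h * (h ^ ε)⁻¹ with hu
  have hφh : galF M φ h ≠ 0 := (map_ne_zero (galF M φ)).mpr hh
  have hu0 : u ≠ 0 := mul_ne_zero hφh (inv_ne_zero (zpow_ne_zero ε hh))
  have hWu : W u = galF M φ (W h) * ((W h) ^ ε)⁻¹ := by
    rw [hu, map_mul, map_inv₀, map_zpow₀, hWgal]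
  have c2' : IsRedOne A M ((W (algebraMap Kb (FF M) a' * (W v') ^ n * u) : FF M) :
      LaurentSeries Kb) := by
    have e : W (algebraMap Kb (FF M) a' * (W v') ^ n * u)
        = algebraMap Kb (FF M) a' * v' ^ n * (galF M φ (W h) * ((W h) ^ ε)⁻¹) := by
      rw [map_mul, map_mul, map_pow, hWW, AlgEquiv.commutes, hWu]
    rw [e]
    exact c2
  -- merge
  have hArch := Fermat.Agent.P2.helper74.arch_algebraicClosure A q hq hA
  obtain ⟨r, hr, m1, m2⟩ := merge hArch (hSC A hA) W hWW (hSep A hA) hn0 u hu0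
    ⟨a, v, ha, hv, c1⟩ ⟨a', W v', ha', (map_ne_zero W).mpr hv', c2'⟩
  -- the class of `x₀`
  have Hx0 : IsKummerRep n (φ • x - ε • x) u := (H.galois_smul_jZero φ).sub (H.zsmul ε)
  have hdiv : ∀ P : Place Kb (FF M), (n : ℤ) ∣ P.ord (r ^ n * u) := by
    intro P
    rw [P.ord_mul (pow_ne_zero n hr) hu0, ord_pow]
    exact dvd_add (dvd_mul_right _ _) (Hx0.dvd_ord P)
  obtain ⟨c, v0, eT⟩ := hT A hA k (r ^ n * u) (mul_ne_zero (pow_ne_zero n hr) hu0) hdiv m1 m2
    φ hφ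
  have Hfin : IsKummerRep n (φ • φ • (φ • x - ε • x) - (q * q) • (φ • x - ε • x))
      (galF M φ (galF M φ u) * (u ^ (q * q))⁻¹) :=
    ((Hx0.galois_smul_jZero φ).galois_smul_jZero φ).sub (Hx0.nsmul (q * q))
  have key : galF M φ (galF M φ u) * (u ^ (q * q))⁻¹
      = algebraMap Kb (FF M) c * (v0 * r ^ (q * q) * (galF M φ (galF M φ r))⁻¹) ^ n := by
    have hr2 : galF M φ (galF M φ r) ≠ 0 :=
      (map_ne_zero (galF M φ)).mpr ((map_ne_zero (galF M φ)).mpr hr)
    rw [map_mul, map_mul, map_pow, map_pow] at eT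
    exact frob_alg hr hu0 hr2 eT
  have fin := Hfin.eq_zero_of_eq_const_mul_pow hn0 key
  exact sub_eq_zero.mp fin

/-- the same statement in the shape of helper76's `FrobCoreStatement M q p U W`
(`U := uJ M q`, `W :=` the action of the algebra automorphism `W` on `J₀(M)`). -/
theorem frobCore_of' (p : ℕ) [hfact : Fact q.Prime] (hqM : q ∣ M)
    (W : FF M ≃ₐ[Kb] FF M) (hWW : ∀ f, W (W f) = f)
    (hWgal : ∀ (σ : Kb ≃ₐ[ℚ] Kb) (x : FF M), W (galF M σ x) = galF M σ (W x))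
    (hp : p ≠ 0)
    (hSC : ∀ A : ValuationSubring Kb, A.LiesOverPrime q → ScaleStatement M A)
    (hSep : ∀ A : ValuationSubring Kb, A.LiesOverPrime q → SepW M W A)
    (hT : ∀ A : ValuationSubring Kb, A.LiesOverPrime q → ∀ k : ℕ,
      T0FrobStatement M W A (p ^ k) q) :
    ∀ A : ValuationSubring Kb, A.LiesOverPrime q → ∀ φ : Kb ≃ₐ[ℚ] Kb, A.IsFrobeniusAt φ q →
      ∀ x : JZero M, (∃ n : ℕ, p ^ n • x = 0) → ∀ ε δ : ℤ, ε * ε = 1 → δ * δ = 1 →
        uJ M q x = ε • x → (DistribSMul.toAddMonoidHom (JZero M) W) x = δ • x →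
        φ • φ • (φ • x - ε • x) = (q * q) • (φ • x - ε • x) := by
  intro A hA φ hφ x hx ε δ _ _ hU hW
  have hW' : W • x = δ • x := hW
  refine frobCore_of M q p hqM W hWW hWgal hp hSC hSep hT A hA φ hφ x hx ε hU ?_
  rw [hW', map_zsmul, hU, smul_comm]

end Core

/-! ## The instance `W = helper36.atkinLehner` at level `N q` -/

section Instance

open Fermat.Agent.T2.helper36

variable (N q : ℕ) [NeZero N] [NeZero q]

/-- **The S35 core at level `N q`** (`q ∤ N`, `W = w_q`), from the scaling statement for `w₁` at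
the bad prime and `[T0-FROB]`; the separating function is helper96's. -/
theorem frobCore_atkinLehner (p : ℕ) (hq : q.Prime) (hqN : ¬ q ∣ N) (hp : p ≠ 0)
    (hSC : ∀ A : ValuationSubring Kb, A.LiesOverPrime q → ScaleStatement (N * q) A)
    (hT : ∀ A : ValuationSubring Kb, A.LiesOverPrime q → ∀ k : ℕ,
      T0FrobStatement (N * q) (atkinLehner N q hq hqN) A (p ^ k) q) :
    ∀ A : ValuationSubring Kb, A.LiesOverPrime q → ∀ φ : Kb ≃ₐ[ℚ] Kb, A.IsFrobeniusAt φ q →
      ∀ x : JZero (N * q), (∃ n : ℕ, p ^ n • x = 0) → ∀ ε δ : ℤ, ε * ε = 1 → δ * δ = 1 →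
        uJ (N * q) q x = ε • x → atkinLehner N q hq hqN • x = δ • x →
        φ • φ • (φ • x - ε • x) = (q * q) • (φ • x - ε • x) := by
  haveI : Fact q.Prime := ⟨hq⟩
  intro A hA φ hφ x hx ε δ hε hδ hU hW
  exact frobCore_of' (N * q) q p (Dvd.intro_left N rfl) (atkinLehner N q hq hqN)
    (atkinLehner_atkinLehner N q hq hqN)
    (fun σ y => atkinLehner_arithmeticRingAut N q hq hqN σ y) hp hSC
    (fun A hA => Fermat.Agent.T2.helper20.sepStatement N q hq hqN A hA) hT A hA φ hφ x hx ε δ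
    hε hδ hU hW

end Instance

end Fermat.Agent.T2.helper15

end
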