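/-
TIER 2, [T2-FROB] (helper49, task 832), base layer.

* Galois action on places: `fb_ord_galF`, `fb_isInfty_inv_smul`, `fb_isInfty2_inv_smul`.
* `InId W n u g` : `g` lies in the fractional ideal of `div(u) / n` off the two cusps; calculus.
* `Rho2 A W f r₁ r₂` : `f` is integral for both Gauss valuations with reductions `r₁`, `r₂`
  (helper36's `RhoIs` for `f` and `W f`); calculus, Galois transport.
* `InBt A M y`, `Real2 A W a b` : membership in `Bt`, `Rt` (helper22_CoreDefs) in predicate form;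
  `real_of_rho2` (integrality + regularity), `inBt_of_inId`.
* `FrGraphStatement M A W q` and the consequences `real2_frob_left/right` (`J × J ⊆ Rt`).
-/
import Mathlib
import Fermat.Agent.T2.helper20_Kum
import Fermat.Agent.T2.helper22_CoreDefs
import Fermat.Agent.T2.helper36_ValCore

set_option autoImplicit false
set_option linter.unusedSectionVars false
set_option linter.unusedVariables false
set_option linter.style.haveILetI false

noncomputable section

open HahnSeries IntermediateField AlgebraicCurve ModularCurve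
open Fermat.Agent.S18.helper19 Fermat.Agent.P2.helper29 Fermat.Agent.P2.helper93
open Fermat.Agent.T2 Fermat.Agent.T2.helper22 Fermat.Agent.T2.helper36

namespace Fermat.Agent.T2.helper49

variable {M : ℕ} [NeZero M]

/-! ### Places and the Galois action -/

/-- the semilinear automorphism of `F_M` attached to `σ` -/
abbrev fbS (M : ℕ) (σ : Kb ≃ₐ[ℚ] Kb) : SemilinearAut Kb (FF M) :=
  arithmeticGalois (modularFunctionFieldFull M) σ

theorem fb_ord_galF (σ : Kb ≃ₐ[ℚ] Kb) (P : Place Kb (FF M)) (f : FF M) :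
    P.ord (galF M σ f) = ((fbS M σ)⁻¹ • P).ord f := by
  have h := SemilinearAut.ord_smul (fbS M σ) ((fbS M σ)⁻¹ • P) f
  rw [smul_inv_smul] at h
  exact h

theorem fb_order_coeffMap {R S : Type*} [CommRing R] [CommRing S] (f : R →+* S)
    (hf : Function.Injective f) (x : LaurentSeries R) : (coeffMap f x).order = x.order := by
  by_cases hx : x = 0
  · rw [hx, map_zero, HahnSeries.order_zero, HahnSeries.order_zero]
  have hne : coeffMap f x ≠ 0 := by
    intro h0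
    apply hx
    ext k
    have := congrArg (fun y : LaurentSeries S => y.coeff k) h0
    simp only [coeffMap_coeff, HahnSeries.coeff_zero] at this
    rw [HahnSeries.coeff_zero]
    exact hf (this.trans (map_zero f).symm)
  apply le_antisymm
  · apply HahnSeries.order_le_of_coeff_ne_zero
    rw [coeffMap_coeff]
    intro h0
    exact hx (HahnSeries.coeff_order_eq_zero.1 (hf (h0.trans (map_zero f).symm)))
  · rw [HahnSeries.le_order_iff_forall hne]
    intro j hj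
    rw [coeffMap_coeff, HahnSeries.coeff_eq_zero_of_lt_order hj, map_zero]

theorem fb_order_galF (σ : Kb ≃ₐ[ℚ] Kb) (f : FF M) :
    ((galF M σ f : FF M) : LaurentSeries Kb).order = (f : LaurentSeries Kb).order := by
  rw [coe_galF]
  exact fb_order_coeffMap _ σ.injective _

theorem fb_isInfty_inv_smul (σ : Kb ≃ₐ[ℚ] Kb) {P : Place Kb (FF M)}
    (h : IsInfty ((fbS M σ)⁻¹ • P)) : IsInfty P := by
  intro f hf
  have e : f = galF M σ ((galF M σ).symm f) := ((galF M σ).apply_symm_apply f).symm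
  have hne : (galF M σ).symm f ≠ 0 := (map_ne_zero _).mpr hf
  rw [e, fb_ord_galF, h _ hne, fb_order_galF]

theorem fb_isInfty2_inv_smul {W : FF M ≃ₐ[Kb] FF M}
    (hWgal : ∀ (σ : Kb ≃ₐ[ℚ] Kb) (x : FF M), W (galF M σ x) = galF M σ (W x))
    (σ : Kb ≃ₐ[ℚ] Kb) {P : Place Kb (FF M)}
    (h : IsInfty2 W ((fbS M σ)⁻¹ • P)) : IsInfty2 W P := by
  intro f hf
  have e : f = galF M σ ((galF M σ).symm f) := ((galF M σ).apply_symm_apply f).symm
  have hne : (galF M σ).symm f ≠ 0 := (map_ne_zero _).mpr hf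
  rw [e, fb_ord_galF, h _ hne, hWgal, fb_order_galF]

/-! ### The fractional ideal of `div(u) / n` off the two cusps -/

section Ideal

variable {W : FF M ≃ₐ[Kb] FF M} {n : ℕ}

/-- `g` lies in the fractional ideal of `div(u) / n` off the two cusps -/
def InId (W : FF M ≃ₐ[Kb] FF M) (n : ℕ) (u g : FF M) : Prop :=
  g = 0 ∨ ∀ P : Place Kb (FF M), ¬ IsInfty P → ¬ IsInfty2 W P → P.ord u ≤ (n : ℤ) * P.ord g

theorem inId_zero (u : FF M) : InId W n u 0 := Or.inl rfl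

theorem inId_of_inIdeal {u Q G : FF M} (hQ : Q ≠ 0) (h : InIdeal W n u Q G) :
    InId W n u (G / Q) := by
  rcases h with rfl | h
  · left; rw [zero_div]
  rcases eq_or_ne G 0 with rfl | hG
  · left; rw [zero_div]
  right
  intro P hP hP2
  rw [Fermat.Agent.T2.helper20.ord_div' P hG hQ]
  exact h P hP hP2

theorem InId.add {u g h : FF M} (hg : InId W n u g) (hh : InId W n u h) :
    InId W n u (g + h) := by
  rcases hg with rfl | hg
  · rwa [zero_add]
  rcases hh with rfl | hh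
  · rw [add_zero]; exact Or.inr hg
  rcases eq_or_ne (g + h) 0 with h0 | h0
  · exact Or.inl h0
  right
  intro P hP hP2
  have h1 := Fermat.Agent.P2.helper74.ord_add_ge P h0
  have h2 := hg P hP hP2
  have h3 := hh P hP hP2
  have hn : (0 : ℤ) ≤ (n : ℤ) := Int.natCast_nonneg n
  rcases min_le_iff.mp (le_refl (min (P.ord g) (P.ord h))) with h4 | h4
  · exact le_trans h2 (mul_le_mul_of_nonneg_left (le_trans h4 h1) hn)
  · exact le_trans h3 (mul_le_mul_of_nonneg_left (le_trans h4 h1) hn)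

theorem InId.neg {u g : FF M} (hg : InId W n u g) : InId W n u (-g) := by
  rcases hg with rfl | hg
  · left; rw [neg_zero]
  right
  intro P hP hP2
  have e : P.ord (-g) = P.ord g := by
    have h1 : -g = algebraMap Kb (FF M) (-1) * g := by
      rw [map_neg, map_one, neg_one_mul]
    rcases eq_or_ne g 0 with rfl | hg0
    · rw [neg_zero]
    rw [h1, P.ord_mul ((map_ne_zero _).mpr (by norm_num)) hg0,
      Fermat.Agent.S24.helper82.ord_algebraMap, zero_add]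
  rw [e]
  exact hg P hP hP2

theorem InId.sub {u g h : FF M} (hg : InId W n u g) (hh : InId W n u h) :
    InId W n u (g - h) := by
  rw [sub_eq_add_neg]; exact hg.add hh.neg

theorem InId.mul {u u' g g' : FF M} (hu : u ≠ 0) (hu' : u' ≠ 0) (hg : InId W n u g)
    (hg' : InId W n u' g') : InId W n (u * u') (g * g') := by
  rcases hg with rfl | hg
  · left; rw [zero_mul]
  rcases hg' with rfl | hg'
  · left; rw [mul_zero]
  rcases eq_or_ne g 0 with rfl | hg0
  · left; rw [zero_mul]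
  rcases eq_or_ne g' 0 with rfl | hg0'
  · left; rw [mul_zero]
  right
  intro P hP hP2
  rw [P.ord_mul hu hu', P.ord_mul hg0 hg0', mul_add]
  exact add_le_add (hg P hP hP2) (hg' P hP hP2)

theorem InId.pow {u g : FF M} (hg : InId W n u g) (k : ℕ) : InId W n (u ^ k) (g ^ k) := by
  rcases hg with rfl | hg
  · rcases Nat.eq_zero_or_pos k with rfl | hk
    · right
      intro P hP hP2
      rw [pow_zero, pow_zero, Place.ord_one, mul_zero]
    · left; rw [zero_pow hk.ne']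
  right
  intro P hP hP2
  rw [Fermat.Agent.T2.helper20.ord_pow', Fermat.Agent.T2.helper20.ord_pow']
  have h := hg P hP hP2
  have hk : (0 : ℤ) ≤ (k : ℤ) := Int.natCast_nonneg k
  calc (k : ℤ) * P.ord u ≤ (k : ℤ) * ((n : ℤ) * P.ord g) := mul_le_mul_of_nonneg_left h hk
    _ = (n : ℤ) * ((k : ℤ) * P.ord g) := by ring

theorem InId.mul_reg {u g R : FF M} (hg : InId W n u g) (hR : IsReg2 W R) :
    InId W n u (g * R) := by
  rcases hg with rfl | hg
  · left; rw [zero_mul]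
  rcases eq_or_ne g 0 with rfl | hg0
  · left; rw [zero_mul]
  rcases eq_or_ne R 0 with rfl | hR0
  · left; rw [mul_zero]
  right
  intro P hP hP2
  rw [P.ord_mul hg0 hR0, mul_add]
  have h1 := hg P hP hP2
  have h2 := hR P hP hP2
  have hn : (0 : ℤ) ≤ (n : ℤ) := Int.natCast_nonneg n
  have h3 : (0 : ℤ) ≤ (n : ℤ) * P.ord R := mul_nonneg hn h2
  linarith

theorem InId.galF (hWgal : ∀ (σ : Kb ≃ₐ[ℚ] Kb) (x : FF M), W (galF M σ x) = galF M σ (W x))
    (σ : Kb ≃ₐ[ℚ] Kb) {u g : FF M} (hg : InId W n u g) :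
    InId W n (galF M σ u) (galF M σ g) := by
  rcases hg with rfl | hg
  · left; rw [map_zero]
  right
  intro P hP hP2
  rw [fb_ord_galF, fb_ord_galF]
  exact hg _ (fun h => hP (fb_isInfty_inv_smul σ h))
    (fun h => hP2 (fb_isInfty2_inv_smul hWgal σ h))

/-- an element of the ideal of `div(u)/n` gives a function `g ^ n / u` regular off the cusps -/
theorem InId.isReg2 {u g : FF M} (hn : n ≠ 0) (hu : u ≠ 0) (hg : InId W n u g) :
    IsReg2 W (g ^ n * u⁻¹) := by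
  rcases eq_or_ne g 0 with rfl | hg0
  · rw [zero_pow hn, zero_mul]; exact isReg2_zero
  rcases hg with rfl | hg
  · exact absurd rfl hg0
  intro P hP hP2
  rw [P.ord_mul (pow_ne_zero n hg0) (inv_ne_zero hu), P.ord_inv,
    Fermat.Agent.T2.helper20.ord_pow']
  have := hg P hP hP2
  linarith

end Ideal

/-! ### Reductions for the pair of Gauss valuations -/

section Rho

variable {A : ValuationSubring Kb} {W : FF M ≃ₐ[Kb] FF M}

/-- `f` is integral for both Gauss valuations `w₁`, `w₂ = w₁ ∘ W`, with reductions `r₁`, `r₂` -/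
def Rho2 (A : ValuationSubring Kb) (W : FF M ≃ₐ[Kb] FF M) (f : FF M)
    (r₁ r₂ : LaurentSeries (kA A)) : Prop :=
  RhoIs A M (f : LaurentSeries Kb) r₁ ∧ RhoIs A M ((W f : FF M) : LaurentSeries Kb) r₂

theorem rho2_zero : Rho2 A W (0 : FF M) 0 0 := by
  refine ⟨rhoIs_zero, ?_⟩
  rw [map_zero]
  exact rhoIs_zero

theorem rho2_one : Rho2 A W (1 : FF M) 1 1 := by
  refine ⟨rhoIs_one, ?_⟩
  rw [map_one]
  exact rhoIs_one

theorem Rho2.add {f g : FF M} {r₁ r₂ s₁ s₂ : LaurentSeries (kA A)} (hf : Rho2 A W f r₁ r₂)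
    (hg : Rho2 A W g s₁ s₂) : Rho2 A W (f + g) (r₁ + s₁) (r₂ + s₂) := by
  refine ⟨hf.1.add hg.1, ?_⟩
  rw [map_add]
  exact hf.2.add hg.2

theorem Rho2.mul {f g : FF M} {r₁ r₂ s₁ s₂ : LaurentSeries (kA A)} (hf : Rho2 A W f r₁ r₂)
    (hg : Rho2 A W g s₁ s₂) : Rho2 A W (f * g) (r₁ * s₁) (r₂ * s₂) := by
  refine ⟨hf.1.mul hg.1, ?_⟩
  rw [map_mul]
  exact hf.2.mul hg.2

theorem Rho2.neg {f : FF M} {r₁ r₂ : LaurentSeries (kA A)} (hf : Rho2 A W f r₁ r₂) :
    Rho2 A W (-f) (-r₁) (-r₂) := by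
  refine ⟨hf.1.neg, ?_⟩
  rw [map_neg]
  exact hf.2.neg

theorem Rho2.sub {f g : FF M} {r₁ r₂ s₁ s₂ : LaurentSeries (kA A)} (hf : Rho2 A W f r₁ r₂)
    (hg : Rho2 A W g s₁ s₂) : Rho2 A W (f - g) (r₁ - s₁) (r₂ - s₂) := by
  rw [sub_eq_add_neg, sub_eq_add_neg, sub_eq_add_neg]
  exact hf.add hg.neg

theorem Rho2.pow {f : FF M} {r₁ r₂ : LaurentSeries (kA A)} (hf : Rho2 A W f r₁ r₂) (k : ℕ) :
    Rho2 A W (f ^ k) (r₁ ^ k) (r₂ ^ k) := by
  refine ⟨hf.1.pow k, ?_⟩
  rw [map_pow]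
  exact hf.2.pow k

theorem Rho2.inv {f : FF M} {r₁ r₂ : LaurentSeries (kA A)} (hf : Rho2 A W f r₁ r₂)
    (h1 : r₁ ≠ 0) (h2 : r₂ ≠ 0) : Rho2 A W f⁻¹ r₁⁻¹ r₂⁻¹ := by
  refine ⟨hf.1.inv h1, ?_⟩
  rw [map_inv₀]
  exact hf.2.inv h2

theorem Rho2.ne_zero {f : FF M} {r₁ r₂ : LaurentSeries (kA A)} (hf : Rho2 A W f r₁ r₂)
    (h1 : r₁ ≠ 0) : f ≠ 0 := by
  rintro rfl
  exact hf.1.ne_zero h1 rfl

theorem Rho2.congr {f : FF M} {r₁ r₂ s₁ s₂ : LaurentSeries (kA A)} (hf : Rho2 A W f r₁ r₂)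
    (e1 : r₁ = s₁) (e2 : r₂ = s₂) : Rho2 A W f s₁ s₂ := by
  subst e1 e2; exact hf

theorem fb_isInt_actA {σ : Kb ≃ₐ[ℚ] Kb} (hσ : σ ∈ A.decompositionSubgroup ℚ)
    {Y : LaurentSeries A} (h : IsInt A M Y) : IsInt A M (actA σ hσ Y) := by
  refine ⟨?_, ?_⟩
  · show coeffMap A.subtype (actA σ hσ Y) ∈ FF M
    rw [coeffMap_subtype_actA]
    exact (galF M σ ⟨_, h.1⟩).2
  · show coeffMap (IsLocalRing.residue A) (actA σ hσ Y) ∈ FFb A M
    rw [coeffMap_residue_actA]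
    exact coeffMap_mem_fullC _ M h.2

theorem fb_rhoIs_galF {σ : Kb ≃ₐ[ℚ] Kb} (hσ : σ ∈ A.decompositionSubgroup ℚ) {f : FF M}
    {r : LaurentSeries (kA A)} (h : RhoIs A M (f : LaurentSeries Kb) r) :
    RhoIs A M ((galF M σ f : FF M) : LaurentSeries Kb) (coeffMap (decK σ hσ) r) := by
  obtain ⟨Y₁, Y₂, h1, h2, h3, h4⟩ := h
  refine ⟨actA σ hσ Y₁, actA σ hσ Y₂, fb_isInt_actA hσ h1,
    Fermat.Agent.T2.helper20.isGood_actA hσ h2, ?_, ?_⟩
  · show coeffMap A.subtype (actA σ hσ Y₁) = _ * coeffMap A.subtype (actA σ hσ Y₂)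
    rw [coeffMap_subtype_actA, coeffMap_subtype_actA, coe_galF, ← map_mul]
    exact congrArg _ h3
  · show coeffMap (IsLocalRing.residue A) (actA σ hσ Y₁)
      = _ * coeffMap (IsLocalRing.residue A) (actA σ hσ Y₂)
    rw [coeffMap_residue_actA, coeffMap_residue_actA, ← map_mul]
    exact congrArg _ h4

theorem Rho2.galF (hWgal : ∀ (σ : Kb ≃ₐ[ℚ] Kb) (x : FF M), W (galF M σ x) = galF M σ (W x))
    {σ : Kb ≃ₐ[ℚ] Kb} (hσ : σ ∈ A.decompositionSubgroup ℚ) {f : FF M}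
    {r₁ r₂ : LaurentSeries (kA A)} (hf : Rho2 A W f r₁ r₂) :
    Rho2 A W (galF M σ f) (coeffMap (decK σ hσ) r₁) (coeffMap (decK σ hσ) r₂) := by
  refine ⟨fb_rhoIs_galF hσ hf.1, ?_⟩
  rw [hWgal]
  exact fb_rhoIs_galF hσ hf.2

theorem rho2_of_isRep (hRed : ∀ Y : LaurentSeries A, incl A Y ∈ FF M → red A Y ∈ FFb A M)
    {f : FF M} {Y₁ Y₂ : LaurentSeries A} (h : IsRep A W f Y₁ Y₂) :
    Rho2 A W f (red A Y₁) (red A Y₂) := by
  have i1 : IsInt A M Y₁ := ⟨by rw [h.1]; exact f.2, hRed _ (by rw [h.1]; exact f.2)⟩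
  have i2 : IsInt A M Y₂ := ⟨by rw [h.2]; exact (W f).2, hRed _ (by rw [h.2]; exact (W f).2)⟩
  refine ⟨?_, ?_⟩
  · have := rhoIs_incl i1
    rwa [h.1] at this
  · have := rhoIs_incl i2
    rwa [h.2] at this

theorem fb_rhoIs_of_isRedOne {f : LaurentSeries Kb} (h : IsRedOne A M f) : RhoIs A M f 1 := by
  obtain ⟨Y₁, Y₂, g₁, g₂, e, r⟩ := h
  exact ⟨Y₁, Y₂, isInt_of_isGood g₁, g₂, e, by rw [one_mul]; exact r⟩

theorem fb_isRedOne_of_rhoIs {f : LaurentSeries Kb} (h : RhoIs A M f 1) : IsRedOne A M f := by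
  obtain ⟨Y₁, Y₂, h1, h2, h3, h4⟩ := h
  rw [one_mul] at h4
  exact ⟨Y₁, Y₂, h1.isGood (by rw [h4]; exact h2.2.2), h2, h3, h4⟩

theorem fb_isWInt_of_rhoIs {f : LaurentSeries Kb} {r : LaurentSeries (kA A)}
    (h : RhoIs A M f r) : IsWInt A M f := by
  obtain ⟨Y₁, Y₂, h1, h2, h3, -⟩ := h
  exact ⟨Y₁, Y₂, h1.1, h2, h3⟩

theorem rho2_of_isRedOne {f : FF M} (h1 : IsRedOne A M (f : LaurentSeries Kb))
    (h2 : IsRedOne A M ((W f : FF M) : LaurentSeries Kb)) : Rho2 A W f 1 1 :=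
  ⟨fb_rhoIs_of_isRedOne h1, fb_rhoIs_of_isRedOne h2⟩

end Rho

/-! ### The rings `Bt` and `Rt` in predicate form -/

section Real

variable {A : ValuationSubring Kb} {W : FF M ≃ₐ[Kb] FF M}

/-- `y` is a function of the special fibre regular off infinity (`y ∈ Bt A M`) -/
def InBt (A : ValuationSubring Kb) (M : ℕ) (y : LaurentSeries (kA A)) : Prop :=
  ∃ n : ℤ, InL (FFb A M) n y

theorem inBt_zero : InBt A M 0 := ⟨0, inL_zero 0⟩

theorem inBt_one : InBt A M 1 := ⟨0, inL_one⟩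

theorem InBt.add {x y : LaurentSeries (kA A)} (hx : InBt A M x) (hy : InBt A M y) :
    InBt A M (x + y) := by
  obtain ⟨n, hx⟩ := hx
  obtain ⟨n', hy⟩ := hy
  exact ⟨max n n', (hx.mono (le_max_left _ _)).add (hy.mono (le_max_right _ _))⟩

theorem InBt.mul {x y : LaurentSeries (kA A)} (hx : InBt A M x) (hy : InBt A M y) :
    InBt A M (x * y) := by
  obtain ⟨n, hx⟩ := hx
  obtain ⟨n', hy⟩ := hy
  exact ⟨n + n', hx.mul hy⟩

theorem InBt.neg {x : LaurentSeries (kA A)} (hx : InBt A M x) : InBt A M (-x) := by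
  obtain ⟨n, hx⟩ := hx
  exact ⟨n, hx.neg⟩

theorem InBt.sub {x y : LaurentSeries (kA A)} (hx : InBt A M x) (hy : InBt A M y) :
    InBt A M (x - y) := by
  rw [sub_eq_add_neg]; exact hx.add hy.neg

theorem InBt.pow {x : LaurentSeries (kA A)} (hx : InBt A M x) (k : ℕ) : InBt A M (x ^ k) := by
  induction k with
  | zero => rw [pow_zero]; exact inBt_one
  | succ k ih => rw [pow_succ]; exact ih.mul hx

theorem InBt.of_pow {x : LaurentSeries (kA A)} (hx : x ∈ FFb A M) {m : ℕ} (hm : 0 < m)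
    (h : InBt A M (x ^ m)) : InBt A M x := by
  obtain ⟨N, hN⟩ := h
  refine ⟨|N|, InL.of_pow hx hm (hN.mono ?_)⟩
  have h1 : (1 : ℤ) ≤ (m : ℤ) := by exact_mod_cast hm
  have h2 : (0 : ℤ) ≤ |N| := abs_nonneg N
  calc N ≤ |N| := le_abs_self N
    _ = 1 * |N| := (one_mul _).symm
    _ ≤ (m : ℤ) * |N| := mul_le_mul_of_nonneg_right h1 h2

/-- `(a, b)` is the pair of reductions of a function regular off the two cusps with integral
pair of expansions (`(a, b) ∈ Rt A W`) -/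
def Real2 (A : ValuationSubring Kb) (W : FF M ≃ₐ[Kb] FF M) (a b : LaurentSeries (kA A)) :
    Prop :=
  ∃ (f : FF M) (Y₁ Y₂ : LaurentSeries A), IsReg2 W f ∧ IsRep A W f Y₁ Y₂ ∧
    red A Y₁ = a ∧ red A Y₂ = b

theorem Real2.add {a b c d : LaurentSeries (kA A)} (h : Real2 A W a b) (h' : Real2 A W c d) :
    Real2 A W (a + c) (b + d) := by
  obtain ⟨f, Y₁, Y₂, hf, hY, h1, h2⟩ := h
  obtain ⟨g, Z₁, Z₂, hg, hZ, h3, h4⟩ := h'
  exact ⟨f + g, Y₁ + Z₁, Y₂ + Z₂, hf.add hg, hY.add hZ, by rw [map_add, h1, h3],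
    by rw [map_add, h2, h4]⟩

theorem Real2.mul {a b c d : LaurentSeries (kA A)} (h : Real2 A W a b) (h' : Real2 A W c d) :
    Real2 A W (a * c) (b * d) := by
  obtain ⟨f, Y₁, Y₂, hf, hY, h1, h2⟩ := h
  obtain ⟨g, Z₁, Z₂, hg, hZ, h3, h4⟩ := h'
  exact ⟨f * g, Y₁ * Z₁, Y₂ * Z₂, hf.mul hg, hY.mul hZ, by rw [map_mul, h1, h3],
    by rw [map_mul, h2, h4]⟩

theorem Real2.neg {a b : LaurentSeries (kA A)} (h : Real2 A W a b) : Real2 A W (-a) (-b) := by
  obtain ⟨f, Y₁, Y₂, hf, hY, h1, h2⟩ := h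
  refine ⟨-f, -Y₁, -Y₂, hf.neg, ⟨?_, ?_⟩, by rw [map_neg, h1], by rw [map_neg, h2]⟩
  · rw [map_neg, hY.1]; rfl
  · rw [map_neg, map_neg, hY.2]; rfl

theorem Real2.sub {a b c d : LaurentSeries (kA A)} (h : Real2 A W a b) (h' : Real2 A W c d) :
    Real2 A W (a - c) (b - d) := by
  rw [sub_eq_add_neg, sub_eq_add_neg]; exact h.add h'.neg

theorem Real2.swap (hWW : ∀ f, W (W f) = f) {a b : LaurentSeries (kA A)}
    (h : Real2 A W a b) : Real2 A W b a := by
  obtain ⟨f, Y₁, Y₂, hf, hY, h1, h2⟩ := h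
  exact ⟨W f, Y₂, Y₁, hf.map hWW, hY.swap hWW, h2, h1⟩

theorem Real2.congr {a b c d : LaurentSeries (kA A)} (h : Real2 A W a b) (e1 : a = c)
    (e2 : b = d) : Real2 A W c d := by
  subst e1 e2; exact h

theorem Real2.inBt (hRR : RegRed2Statement M A W) {a b : LaurentSeries (kA A)}
    (h : Real2 A W a b) : InBt A M a := by
  obtain ⟨f, Y₁, Y₂, hf, hY, h1, h2⟩ := h
  obtain ⟨m, hm⟩ := hRR f Y₁ Y₂ hf hY
  exact ⟨m, h1 ▸ hm⟩

/-- a function regular off the cusps which is integral for both Gauss valuations has an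
integral pair of expansions; its reductions lie in `Bt`. -/
theorem real_of_rho2 (hWW : ∀ f, W (W f) = f) (hInt : Integrality2Statement M A W)
    (hRR : RegRed2Statement M A W) {f : FF M} {r₁ r₂ : LaurentSeries (kA A)}
    (hreg : IsReg2 W f) (h : Rho2 A W f r₁ r₂) :
    ∃ Y₁ Y₂ : LaurentSeries A, IsRep A W f Y₁ Y₂ ∧ red A Y₁ = r₁ ∧ red A Y₂ = r₂ ∧
      InBt A M r₁ ∧ InBt A M r₂ := by
  have w1 := fb_isWInt_of_rhoIs h.1
  have w2 := fb_isWInt_of_rhoIs h.2
  obtain ⟨Y₁, e1⟩ := hInt f hreg w1 w2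
  obtain ⟨Y₂, e2⟩ := hInt (W f) (hreg.map hWW) w2 (by rw [hWW]; exact w1)
  have rep : IsRep A W f Y₁ Y₂ := ⟨e1, e2⟩
  obtain ⟨m1, b1⟩ := hRR f Y₁ Y₂ hreg rep
  obtain ⟨m2, b2⟩ := hRR (W f) Y₂ Y₁ (hreg.map hWW) (rep.swap hWW)
  have i1 : IsInt A M Y₁ := ⟨by rw [e1]; exact f.2, b1.1⟩
  have i2 : IsInt A M Y₂ := ⟨by rw [e2]; exact (W f).2, b2.1⟩
  have u1 : red A Y₁ = r₁ := by
    have := rhoIs_incl i1
    rw [e1] at this
    exact this.unique h.1
  have u2 : red A Y₂ = r₂ := by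
    have := rhoIs_incl i2
    rw [e2] at this
    exact this.unique h.2
  exact ⟨Y₁, Y₂, rep, u1, u2, ⟨m1, u1 ▸ b1⟩, ⟨m2, u2 ▸ b2⟩⟩

theorem real2_of_rho2 (hWW : ∀ f, W (W f) = f) (hInt : Integrality2Statement M A W)
    (hRR : RegRed2Statement M A W) {f : FF M} {r₁ r₂ : LaurentSeries (kA A)}
    (hreg : IsReg2 W f) (h : Rho2 A W f r₁ r₂) : Real2 A W r₁ r₂ := by
  obtain ⟨Y₁, Y₂, rep, u1, u2, -, -⟩ := real_of_rho2 hWW hInt hRR hreg h
  exact ⟨f, Y₁, Y₂, hreg, rep, u1, u2⟩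

/-- the reductions of an element of the ideal of `div(u)/n` (`u ≡ 1`) lie in `Bt` -/
theorem inBt_of_inId (hWW : ∀ f, W (W f) = f) (hInt : Integrality2Statement M A W)
    (hRR : RegRed2Statement M A W) {n : ℕ} (hn : n ≠ 0) {u g : FF M}
    {x₁ x₂ : LaurentSeries (kA A)} (hu : Rho2 A W u 1 1) (hg : InId W n u g)
    (hx : Rho2 A W g x₁ x₂) : InBt A M x₁ ∧ InBt A M x₂ := by
  have hu0 : u ≠ 0 := hu.ne_zero one_ne_zero
  have hreg := hg.isReg2 hn hu0
  have hr : Rho2 A W (g ^ n * u⁻¹) (x₁ ^ n) (x₂ ^ n) :=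
    ((hx.pow n).mul (hu.inv one_ne_zero one_ne_zero)).congr (by rw [inv_one, mul_one])
      (by rw [inv_one, mul_one])
  obtain ⟨Y₁, Y₂, -, -, -, b1, b2⟩ := real_of_rho2 hWW hInt hRR hreg hr
  exact ⟨b1.of_pow hx.1.red_mem (Nat.pos_of_ne_zero hn),
    b2.of_pow hx.2.red_mem (Nat.pos_of_ne_zero hn)⟩

/-- a pair of reductions gives back `Rho2` -/
theorem Real2.exists_rho2 (hRR : RegRed2Statement M A W) (hWW : ∀ f, W (W f) = f)
    {a b : LaurentSeries (kA A)} (h : Real2 A W a b) :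
    ∃ R : FF M, IsReg2 W R ∧ Rho2 A W R a b := by
  obtain ⟨f, Y₁, Y₂, hf, hY, h1, h2⟩ := h
  obtain ⟨m1, b1⟩ := hRR f Y₁ Y₂ hf hY
  obtain ⟨m2, b2⟩ := hRR (W f) Y₂ Y₁ (hf.map hWW) (hY.swap hWW)
  have i1 : IsInt A M Y₁ := ⟨by rw [hY.1]; exact f.2, b1.1⟩
  have i2 : IsInt A M Y₂ := ⟨by rw [hY.2]; exact (W f).2, b2.1⟩
  refine ⟨f, hf, ?_, ?_⟩
  · have := rhoIs_incl i1
    rwa [hY.1, h1] at this
  · have := rhoIs_incl i2
    rwa [hY.2, h2] at this

end Real

/-! ### The graphs of Frobenius -/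

section Graph

variable {A : ValuationSubring Kb} {W : FF M ≃ₐ[Kb] FF M} {q : ℕ} [NeZero q]

/-- **graph hypothesis**: for every function `y` of the special fibre regular off infinity the
pair `(y, y(t^q))` is the pair of reductions of a function regular off the two cusps with
integral pair of expansions (in the application: of `α x`, `x` a lift of `y` to level `M / q`). -/
def FrGraphStatement (M : ℕ) [NeZero M] (A : ValuationSubring Kb) (W : FF M ≃ₐ[Kb] FF M)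
    (q : ℕ) [NeZero q] : Prop :=
  ∀ y : LaurentSeries (kA A), (∃ n : ℤ, InL (FFb A M) n y) →
    ∃ (f : FF M) (Y₁ Y₂ : LaurentSeries A), IsReg2 W f ∧ IsRep A W f Y₁ Y₂ ∧
      red A Y₁ = y ∧ red A Y₂ = qExpand (kA A) q y

theorem real2_frob_left (hWW : ∀ f, W (W f) = f) (hRR : RegRed2Statement M A W)
    (hG : FrGraphStatement M A W q) {f g : LaurentSeries (kA A)} (hf : InBt A M f)
    (hg : InBt A M g) :
    Real2 A W ((qExpand (kA A) q (qExpand (kA A) q f) - f) * g) 0 := by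
  have G1 : Real2 A W f (qExpand (kA A) q f) := hG f hf
  have hFf : InBt A M (qExpand (kA A) q f) := (G1.swap hWW).inBt hRR
  have G2 : Real2 A W (qExpand (kA A) q f) (qExpand (kA A) q (qExpand (kA A) q f)) :=
    hG _ hFf
  have G3 : Real2 A W g (qExpand (kA A) q g) := hG g hg
  exact (((G2.swap hWW).sub G1).mul G3).congr rfl (by rw [sub_self, zero_mul])

theorem real2_frob_right (hWW : ∀ f, W (W f) = f) (hRR : RegRed2Statement M A W)
    (hG : FrGraphStatement M A W q) {f g : LaurentSeries (kA A)} (hf : InBt A M f)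
    (hg : InBt A M g) :
    Real2 A W 0 ((qExpand (kA A) q (qExpand (kA A) q f) - f) * g) := by
  have G1 : Real2 A W f (qExpand (kA A) q f) := hG f hf
  have hFf : InBt A M (qExpand (kA A) q f) := (G1.swap hWW).inBt hRR
  have G2 : Real2 A W (qExpand (kA A) q f) (qExpand (kA A) q (qExpand (kA A) q f)) :=
    hG _ hFf
  have G3 : Real2 A W g (qExpand (kA A) q g) := hG g hg
  exact ((G2.sub (G1.swap hWW)).mul (G3.swap hWW)).congr (by rw [sub_self, zero_mul]) rfl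

end Graph

end Fermat.Agent.T2.helper49

end
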