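/-
TIER 2, [T2-FROB] (helper49, task 832): `φ² = q²` on the toric part, in function-field form.

`t0Frob_of` : for `u ≡ 1` for both Gauss valuations `w₁`, `w₂ = w₁ ∘ W` whose divisor is
divisible by `n`, and every Frobenius lift `φ` at `A ∣ q`,
`φ (φ u) = c · v ^ n · u ^ (q * q)`  (item (d) of the S35 route; the Frobenius variant of
`T0InertStatement`), from

* `helper22.IdealStep2Statement M A W n` (used at `u` and at `φ² u / u ^ (q²)`),
* `RootEndStatement M W A n`,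
* `helper22.Integrality2Statement`, `helper22.RegRed2Statement`,
* the graphs of `Fr : y ↦ y(t^q)` (`FrGraphStatement`),
* reductions of integral expansions lie in the special fibre field.
-/
import Mathlib
import Fermat.Agent.T2.helper49_FrobBase
import Fermat.Agent.T2.helper72_Interface

set_option autoImplicit false
set_option linter.unusedSectionVars false
set_option linter.unusedVariables false
set_option linter.style.haveILetI false

noncomputable section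

open HahnSeries IntermediateField AlgebraicCurve ModularCurve
open Fermat.Agent.S18.helper19 Fermat.Agent.P2.helper29 Fermat.Agent.P2.helper93
open Fermat.Agent.T2 Fermat.Agent.T2.helper22 Fermat.Agent.T2.helper36

namespace Fermat.Agent.T2.helper49

variable {M : ℕ} [NeZero M] {A : ValuationSubring Kb} {W : FF M ≃ₐ[Kb] FF M} {n q : ℕ}

theorem fb_charP (hq : q.Prime) (hA : A.LiesOverPrime q) : CharP (kA A) q := by
  rw [CharP.charP_iff_prime_eq_zero hq]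
  obtain ⟨h1, h2⟩ := ValuationSubring.mem_nonunits_iff_exists_mem_maximalIdeal.mp hA
  have e : (⟨(q : Kb), h1⟩ : A) = ((q : ℕ) : A) := Subtype.ext (by simp)
  rw [e, ← IsLocalRing.residue_eq_zero_iff] at h2
  rw [← h2]
  simp

theorem fb_pow_qq [Fact q.Prime] [CharP (kA A) q] (x : LaurentSeries (kA A)) :
    x ^ (q * q) = qExpand (kA A) q (qExpand (kA A) q
      (coeffMap (frobenius (kA A) q) (coeffMap (frobenius (kA A) q) x))) := by
  rw [pow_mul, Fermat.Agent.P2.helper94.laurent_pow_char q x,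
    Fermat.Agent.P2.helper94.laurent_pow_char q,
    Fermat.Agent.P2.helper94.coeffMap_qExpand]

/-- output of the ideal step in quotient form -/
def IdealData (A : ValuationSubring Kb) (W : FF M ≃ₐ[Kb] FF M) (n : ℕ) (u : FF M) : Prop :=
  ∃ (g₁ g₂ b₁ b₂ : FF M) (x₁ x₂ y₁ y₂ x₁' x₂' y₁' y₂' : LaurentSeries (kA A)),
    InId W n u g₁ ∧ InId W n u g₂ ∧ InId W n u⁻¹ b₁ ∧ InId W n u⁻¹ b₂ ∧
    Rho2 A W g₁ x₁ x₁' ∧ Rho2 A W g₂ x₂ x₂' ∧ Rho2 A W b₁ y₁ y₁' ∧ Rho2 A W b₂ y₂ y₂' ∧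
    x₁ * y₁ + x₂ * y₂ = 1 ∧ x₁' * y₁' + x₂' * y₂' = 1

theorem idealData_of (hRed : ∀ Y : LaurentSeries A, incl A Y ∈ FF M → red A Y ∈ FFb A M)
    (hI : IdealStep2Statement M A W n) {u : FF M} (hu : u ≠ 0)
    (hdiv : ∀ P : Place Kb (FF M), (n : ℤ) ∣ P.ord u)
    (h1 : IsRedOne A M (u : LaurentSeries Kb))
    (h2 : IsRedOne A M ((W u : FF M) : LaurentSeries Kb)) : IdealData A W n u := by
  obtain ⟨Q, Q', G₁, G₂, B₁, B₂, YQ, YQ', YG₁, YG₂, YB₁, YB₂, rQ, rQ', rG₁, rG₂, rB₁, rB₂,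
    gQ, gQ', iG₁, iG₂, iB₁, iB₂, E⟩ := hI u hu hdiv h1 h2
  have hQ : Q ≠ 0 := by
    rintro rfl
    have := rQ.1
    exact incl_ne_zero_of_red_ne_zero (gQ 0).2.2 this
  have hQ' : Q' ≠ 0 := by
    rintro rfl
    have := rQ'.1
    exact incl_ne_zero_of_red_ne_zero (gQ' 0).2.2 this
  have ρQ := (rho2_of_isRep hRed rQ).inv (gQ 0).2.2 (gQ 1).2.2
  have ρQ' := (rho2_of_isRep hRed rQ').inv (gQ' 0).2.2 (gQ' 1).2.2
  have ρG₁ := (rho2_of_isRep hRed rG₁).mul ρQ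
  have ρG₂ := (rho2_of_isRep hRed rG₂).mul ρQ
  have ρB₁ := (rho2_of_isRep hRed rB₁).mul ρQ'
  have ρB₂ := (rho2_of_isRep hRed rB₂).mul ρQ'
  rw [← div_eq_mul_inv] at ρG₁ ρG₂ ρB₁ ρB₂
  refine ⟨G₁ / Q, G₂ / Q, B₁ / Q', B₂ / Q', _, _, _, _, _, _, _, _,
    inId_of_inIdeal hQ iG₁, inId_of_inIdeal hQ iG₂, inId_of_inIdeal hQ' iB₁,
    inId_of_inIdeal hQ' iB₂, ρG₁, ρG₂, ρB₁, ρB₂, ?_, ?_⟩
  · have e := E 0
    have a := (gQ 0).2.2
    have a' := (gQ' 0).2.2
    field_simp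
    linear_combination e
  · have e := E 1
    have a := (gQ 1).2.2
    have a' := (gQ' 1).2.2
    field_simp
    linear_combination e

/-- the key identity in characteristic `q`: if `a c + b d = 1` then
`σ²a · c^(q²) + σ²b · d^(q²) - 1 = -((Fr² σ²a - σ²a) c^(q²) + (Fr² σ²b - σ²b) d^(q²))`. -/
theorem fb_key [Fact q.Prime] [CharP (kA A) q] (a b c d : LaurentSeries (kA A))
    (h : a * c + b * d = 1) :
    coeffMap (frobenius (kA A) q) (coeffMap (frobenius (kA A) q) a) * c ^ (q * q)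
        + coeffMap (frobenius (kA A) q) (coeffMap (frobenius (kA A) q) b) * d ^ (q * q) - 1
      = -((qExpand (kA A) q (qExpand (kA A) q
            (coeffMap (frobenius (kA A) q) (coeffMap (frobenius (kA A) q) a)))
            - coeffMap (frobenius (kA A) q) (coeffMap (frobenius (kA A) q) a)) * c ^ (q * q)
          + (qExpand (kA A) q (qExpand (kA A) q
            (coeffMap (frobenius (kA A) q) (coeffMap (frobenius (kA A) q) b)))
            - coeffMap (frobenius (kA A) q) (coeffMap (frobenius (kA A) q) b)) * d ^ (q * q)) := by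
  have h1 : (1 : LaurentSeries (kA A)) =
      qExpand (kA A) q (qExpand (kA A) q
        (coeffMap (frobenius (kA A) q) (coeffMap (frobenius (kA A) q) a))) * c ^ (q * q)
      + qExpand (kA A) q (qExpand (kA A) q
        (coeffMap (frobenius (kA A) q) (coeffMap (frobenius (kA A) q) b))) * d ^ (q * q) := by
    calc (1 : LaurentSeries (kA A)) = (a * c + b * d) ^ (q * q) := by rw [h, one_pow]
      _ = qExpand (kA A) q (qExpand (kA A) q (coeffMap (frobenius (kA A) q)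
            (coeffMap (frobenius (kA A) q) (a * c + b * d)))) := fb_pow_qq _
      _ = _ := by
        rw [map_add, map_add, map_add, map_add, map_mul, map_mul, map_mul, map_mul, map_mul,
          map_mul, map_mul, map_mul, ← fb_pow_qq c, ← fb_pow_qq d]
  linear_combination (-1 : LaurentSeries (kA A)) * h1

theorem exists_mult_of (hq : q.Prime) [NeZero q] (hA : A.LiesOverPrime q) (hn : n ≠ 0)
    (hWW : ∀ f, W (W f) = f)
    (hWgal : ∀ (σ : Kb ≃ₐ[ℚ] Kb) (x : FF M), W (galF M σ x) = galF M σ (W x))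
    (hInt : Integrality2Statement M A W) (hRR : RegRed2Statement M A W)
    (hG : FrGraphStatement M A W q)
    {u : FF M} (hu1 : Rho2 A W u 1 1) {φ : Kb ≃ₐ[ℚ] Kb} (hφ : A.IsFrobeniusAt φ q)
    (D : IdealData A W n u)
    (Dz : IdealData A W n (galF M φ (galF M φ u) * (u⁻¹) ^ (q * q))) :
    ∃ G' : FF M, InId W n (galF M φ (galF M φ u) * (u⁻¹) ^ (q * q)) G' ∧ Rho2 A W G' 1 1 := by
  haveI : Fact q.Prime := ⟨hq⟩
  haveI := fb_charP hq hA
  obtain ⟨hφd, hdec⟩ := decK_eq_frobenius_of_isFrobeniusAt hφ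
  have hu0 : u ≠ 0 := hu1.ne_zero one_ne_zero
  have hgal : ∀ {f : FF M} {r₁ r₂ : LaurentSeries (kA A)}, Rho2 A W f r₁ r₂ →
      Rho2 A W (galF M φ (galF M φ f))
        (coeffMap (frobenius (kA A) q) (coeffMap (frobenius (kA A) q) r₁))
        (coeffMap (frobenius (kA A) q) (coeffMap (frobenius (kA A) q) r₂)) := by
    intro f r₁ r₂ h
    have h1 := (h.galF hWgal hφd).galF hWgal hφd
    rw [hdec] at h1
    exact h1
  obtain ⟨g₁, g₂, b₁, b₂, x₁, x₂, y₁, y₂, x₁', x₂', y₁', y₂', ig₁, ig₂, ib₁, ib₂,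
    ρg₁, ρg₂, ρb₁, ρb₂, E, E'⟩ := D
  have hΦu0 : galF M φ (galF M φ u) ≠ 0 := (map_ne_zero _).mpr ((map_ne_zero _).mpr hu0)
  have hui0 : (u⁻¹) ^ (q * q) ≠ 0 := pow_ne_zero _ (inv_ne_zero hu0)
  have ρui : Rho2 A W u⁻¹ 1 1 := (hu1.inv one_ne_zero one_ne_zero).congr inv_one inv_one
  have ρΦu : Rho2 A W (galF M φ (galF M φ u)) 1 1 :=
    (hgal hu1).congr (by rw [map_one, map_one]) (by rw [map_one, map_one])
  have ρuz : Rho2 A W (galF M φ (galF M φ u) * (u⁻¹) ^ (q * q)) 1 1 :=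
    (ρΦu.mul (ρui.pow (q * q))).congr (by rw [one_pow, mul_one]) (by rw [one_pow, mul_one])
  have huz0 : galF M φ (galF M φ u) * (u⁻¹) ^ (q * q) ≠ 0 := mul_ne_zero hΦu0 hui0
  have ρuzi : Rho2 A W (galF M φ (galF M φ u) * (u⁻¹) ^ (q * q))⁻¹ 1 1 :=
    (ρuz.inv one_ne_zero one_ne_zero).congr inv_one inv_one
  -- the element `G`
  have iΦg₁ := (ig₁.galF hWgal φ).galF hWgal φ
  have iΦg₂ := (ig₂.galF hWgal φ).galF hWgal φ
  have iG := (InId.mul hΦu0 hui0 iΦg₁ (ib₁.pow (q * q))).add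
    (InId.mul hΦu0 hui0 iΦg₂ (ib₂.pow (q * q)))
  have ρG := ((hgal ρg₁).mul (ρb₁.pow (q * q))).add ((hgal ρg₂).mul (ρb₂.pow (q * q)))
  -- memberships in `Bt`
  have bf₁ := inBt_of_inId hWW hInt hRR hn ρΦu iΦg₁ (hgal ρg₁)
  have bf₂ := inBt_of_inId hWW hInt hRR hn ρΦu iΦg₂ (hgal ρg₂)
  have by₁ := inBt_of_inId hWW hInt hRR hn ρui ib₁ ρb₁
  have by₂ := inBt_of_inId hWW hInt hRR hn ρui ib₂ ρb₂
  have he₁ := fb_key (q := q) x₁ x₂ y₁ y₂ E
  have he₂ := fb_key (q := q) x₁' x₂' y₁' y₂' E'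
  -- realisation of `(r₁ - 1) z`, `(r₂ - 1) z'`
  have hreal : ∀ z z' : LaurentSeries (kA A), InBt A M z → InBt A M z' →
      Real2 A W
        ((coeffMap (frobenius (kA A) q) (coeffMap (frobenius (kA A) q) x₁) * y₁ ^ (q * q)
          + coeffMap (frobenius (kA A) q) (coeffMap (frobenius (kA A) q) x₂) * y₂ ^ (q * q)
          - 1) * z)
        ((coeffMap (frobenius (kA A) q) (coeffMap (frobenius (kA A) q) x₁') * y₁' ^ (q * q)
          + coeffMap (frobenius (kA A) q) (coeffMap (frobenius (kA A) q) x₂') * y₂' ^ (q * q)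
          - 1) * z') := by
    intro z z' hz hz'
    have L1 := real2_frob_left hWW hRR hG bf₁.1 ((by₁.1.pow (q * q)).mul hz)
    have L2 := real2_frob_left hWW hRR hG bf₂.1 ((by₂.1.pow (q * q)).mul hz)
    have R1 := real2_frob_right hWW hRR hG bf₁.2 ((by₁.2.pow (q * q)).mul hz')
    have R2 := real2_frob_right hWW hRR hG bf₂.2 ((by₂.2.pow (q * q)).mul hz')
    refine (((L1.add L2).neg).add ((R1.add R2).neg)).congr ?_ ?_
    · rw [he₁]; ring
    · rw [he₂]; ring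
  -- the ideal data of `uz`
  obtain ⟨g₁z, g₂z, b₁z, b₂z, x₁z, x₂z, y₁z, y₂z, x₁z', x₂z', y₁z', y₂z', igz₁, igz₂, ibz₁,
    ibz₂, ρgz₁, ρgz₂, ρbz₁, ρbz₂, F, F'⟩ := Dz
  have bz₁ := inBt_of_inId hWW hInt hRR hn ρuzi ibz₁ ρbz₁
  have bz₂ := inBt_of_inId hWW hInt hRR hn ρuzi ibz₂ ρbz₂
  obtain ⟨R₁, hR₁, ρR₁⟩ := (hreal _ _ bz₁.1 bz₁.2).exists_rho2 hRR hWW
  obtain ⟨R₂, hR₂, ρR₂⟩ := (hreal _ _ bz₂.1 bz₂.2).exists_rho2 hRR hWW
  refine ⟨_, iG.sub ((igz₁.mul_reg hR₁).add (igz₂.mul_reg hR₂)),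
    (ρG.sub ((ρgz₁.mul ρR₁).add (ρgz₂.mul ρR₂))).congr ?_ ?_⟩
  · linear_combination
      (-(coeffMap (frobenius (kA A) q) (coeffMap (frobenius (kA A) q) x₁) * y₁ ^ (q * q)
          + coeffMap (frobenius (kA A) q) (coeffMap (frobenius (kA A) q) x₂) * y₂ ^ (q * q)
          - 1)) * F
  · linear_combination
      (-(coeffMap (frobenius (kA A) q) (coeffMap (frobenius (kA A) q) x₁') * y₁' ^ (q * q)
          + coeffMap (frobenius (kA A) q) (coeffMap (frobenius (kA A) q) x₂') * y₂' ^ (q * q)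
          - 1)) * F'

/-- **[T2-FROB]** `φ² = q²` on the toric part, function-field form: for `u ≡ 1` for both Gauss
valuations with `n ∣ div u` and every Frobenius lift `φ` at `A ∣ q`, the function `φ (φ u)` is a
constant times an `n`-th power times `u ^ (q * q)`. -/
theorem t0Frob_of (hq : q.Prime) [NeZero q] (hA : A.LiesOverPrime q) (hn : n ≠ 0)
    (hWW : ∀ f, W (W f) = f)
    (hWgal : ∀ (σ : Kb ≃ₐ[ℚ] Kb) (x : FF M), W (galF M σ x) = galF M σ (W x))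
    (hRed : ∀ Y : LaurentSeries A, incl A Y ∈ FF M → red A Y ∈ FFb A M)
    (hInt : Integrality2Statement M A W) (hRR : RegRed2Statement M A W)
    (hG : FrGraphStatement M A W q)
    (hI : IdealStep2Statement M A W n) (hRoot : RootEndStatement M W A n) :
    ∀ u : FF M, u ≠ 0 → (∀ P : Place Kb (FF M), (n : ℤ) ∣ P.ord u) →
      IsRedOne A M (u : LaurentSeries Kb) → IsRedOne A M ((W u : FF M) : LaurentSeries Kb) →
      ∀ φ : Kb ≃ₐ[ℚ] Kb, A.IsFrobeniusAt φ q →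
        ∃ (c : Kb) (v : FF M),
          galF M φ (galF M φ u) = algebraMap Kb (FF M) c * v ^ n * u ^ (q * q) := by
  intro u hu hdiv h1 h2 φ hφ
  haveI : Fact q.Prime := ⟨hq⟩
  haveI := fb_charP hq hA
  obtain ⟨hφd, hdec⟩ := decK_eq_frobenius_of_isFrobeniusAt hφ
  have hu1 : Rho2 A W u 1 1 := rho2_of_isRedOne h1 h2
  have hΦu0 : galF M φ (galF M φ u) ≠ 0 := (map_ne_zero _).mpr ((map_ne_zero _).mpr hu)
  have hui0 : (u⁻¹) ^ (q * q) ≠ 0 := pow_ne_zero _ (inv_ne_zero hu)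
  have huz0 : galF M φ (galF M φ u) * (u⁻¹) ^ (q * q) ≠ 0 := mul_ne_zero hΦu0 hui0
  have ρui : Rho2 A W u⁻¹ 1 1 := (hu1.inv one_ne_zero one_ne_zero).congr inv_one inv_one
  have ρΦu : Rho2 A W (galF M φ (galF M φ u)) 1 1 := by
    have h1 := (hu1.galF hWgal hφd).galF hWgal hφd
    exact h1.congr (by rw [map_one, map_one]) (by rw [map_one, map_one])
  have ρuz : Rho2 A W (galF M φ (galF M φ u) * (u⁻¹) ^ (q * q)) 1 1 :=
    (ρΦu.mul (ρui.pow (q * q))).congr (by rw [one_pow, mul_one]) (by rw [one_pow, mul_one])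
  have hdivz : ∀ P : Place Kb (FF M),
      (n : ℤ) ∣ P.ord (galF M φ (galF M φ u) * (u⁻¹) ^ (q * q)) := by
    intro P
    rw [P.ord_mul hΦu0 hui0, fb_ord_galF, fb_ord_galF, Fermat.Agent.T2.helper20.ord_pow',
      P.ord_inv]
    exact dvd_add (hdiv _) (Dvd.dvd.mul_left ((dvd_neg).mpr (hdiv P)) _)
  have D := idealData_of hRed hI hu hdiv h1 h2
  have Dz := idealData_of hRed hI huz0 hdivz (fb_isRedOne_of_rhoIs ρuz.1)
    (fb_isRedOne_of_rhoIs ρuz.2)
  obtain ⟨G', iG', ρG'⟩ := exists_mult_of hq hA hn hWW hWgal hInt hRR hG hu1 hφ D Dz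
  have hG'0 : G' ≠ 0 := ρG'.ne_zero one_ne_zero
  have hreg := iG'.isReg2 hn huz0
  have ρH : Rho2 A W (G' ^ n * (galF M φ (galF M φ u) * (u⁻¹) ^ (q * q))⁻¹) 1 1 :=
    ((ρG'.pow n).mul (ρuz.inv one_ne_zero one_ne_zero)).congr
      (by rw [one_pow, inv_one, mul_one]) (by rw [one_pow, inv_one, mul_one])
  obtain ⟨Y₁, Y₂, rep, e1, e2, -, -⟩ := real_of_rho2 hWW hInt hRR hreg ρH
  have hA0 : IsA0One M W A (G' ^ n * (galF M φ (galF M φ u) * (u⁻¹) ^ (q * q))⁻¹) :=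
    ⟨fun P hP hP2 => hreg P hP hP2, Y₁, Y₂, rep.1, rep.2, e1, e2⟩
  have hHdiv : ∀ P : Place Kb (FF M),
      (n : ℤ) ∣ P.ord (G' ^ n * (galF M φ (galF M φ u) * (u⁻¹) ^ (q * q))⁻¹) := by
    intro P
    rw [P.ord_mul (pow_ne_zero n hG'0) (inv_ne_zero huz0), Fermat.Agent.T2.helper20.ord_pow',
      P.ord_inv]
    exact dvd_add (dvd_mul_right _ _) ((dvd_neg).mpr (hdivz P))
  obtain ⟨c, v, hcv⟩ := hRoot _ hA0 hHdiv
  have hH0 : G' ^ n * (galF M φ (galF M φ u) * (u⁻¹) ^ (q * q))⁻¹ ≠ 0 :=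
    mul_ne_zero (pow_ne_zero n hG'0) (inv_ne_zero huz0)
  have hc : algebraMap Kb (FF M) c ≠ 0 := by
    intro h0
    rw [h0, zero_mul] at hcv
    exact hH0 hcv
  have hv : v ≠ 0 := by
    rintro rfl
    rw [zero_pow hn, mul_zero] at hcv
    exact hH0 hcv
  refine ⟨c⁻¹, G' * v⁻¹, ?_⟩
  have hvn : v ^ n ≠ 0 := pow_ne_zero n hv
  have hun : u ^ (q * q) ≠ 0 := pow_ne_zero _ hu
  rw [map_inv₀, mul_pow, inv_pow]
  rw [inv_pow] at hcv
  generalize galF M φ (galF M φ u) = X at hcv hΦu0 ⊢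
  generalize u ^ (q * q) = U at hcv hun ⊢
  generalize algebraMap Kb (FF M) c = C at hcv hc ⊢
  generalize v ^ n = V at hcv hvn ⊢
  generalize G' ^ n = Gn at hcv ⊢
  field_simp at hcv ⊢
  linear_combination -hcv

end Fermat.Agent.T2.helper49

end
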