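/-
TIER 2 (helper76, task 801): the operator form of S35-CORE (statement only; light imports).
-/
import Fermat.Agent.P3.Defs

set_option autoImplicit false

noncomputable section

namespace Fermat.Agent.T2.helper76

open Fermat.Agent.P3

/-- **S35-CORE** (operator form, the analogue of `UnipCoreStatement`): `U`, `W` are the operator
`U_q` and the Atkin-Lehner involution `W_q` on `J₀(M)` (`q ∥ M`).  For every place `A` of `ℚ̄`
over `q`, every Frobenius lift `φ` at `A` and every `p`-power torsion point `x` of `J₀(M)` with
`U x = ε x`, `W x = δ x` (`ε² = δ² = 1`), the point `y := φ x - ε x` satisfies `φ² y = q² y`.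

On paper: `φ x - U x` reduces to zero on the first component of the special fibre (congruence
relation at the bad prime), `φ x - W U W x` on the second one, `W U W x = ε x`, so `y` lies in the
toric part, on which `φ² = q²`. -/
def FrobCoreStatement (M q p : ℕ) [NeZero M]
    (U W : ModularCurve.JZero M →+ ModularCurve.JZero M) : Prop :=
  ∀ A : ValuationSubring Qbar, A.LiesOverPrime q → ∀ φ : GQ, A.IsFrobeniusAt φ q →
    ∀ x : ModularCurve.JZero M, (∃ n : ℕ, p ^ n • x = 0) →
      ∀ ε δ : ℤ, ε * ε = 1 → δ * δ = 1 → U x = ε • x → W x = δ • x →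
        φ • φ • (φ • x - ε • x) = (q * q) • (φ • x - ε • x)

end Fermat.Agent.T2.helper76

end
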