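/-
TIER 2, [T2-CONG] (helper8): the Eichler-Shimura congruence for `U_q` at the BAD prime `q ∣ M`.

`A` is a valuation subring of `ℚ̄` over the prime `q`, `q ∣ M`.  If `Y ∈ A((t))` represents
`h ∈ F_M`, then `U h = Norm_β (α h)` (helper48 `uKummer`) is represented by `Y' ∈ A((t))` with

  `RED (Y') = Frob (RED Y)`      (`es_red_U`, `Frob` = coefficientwise Frobenius),

because `(U h)(t^q) = ∏_{k<q} h(ζ^k t) ≡ h(t)^q` modulo the maximal ideal.  Consequences in the
`Lifts` / `Rep` calculus of helper93 (`lifts_uKummer`, `rep_uKummer`) and the congruence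

  `congU` : `Rep A M h a b`, `φ` a Frobenius at `A`  ⟹  `Rep A M (φ h / U h) x x`  (`x ≠ 0`),

i.e. `φ h / U h` is a constant times a function `≡ 1` for the Gauss valuation.
-/
import Mathlib
import Fermat.Agent.T2.helper48_UOp
import Fermat.Agent.P2.helper93_CoreWire
import Fermat.Agent.T2.helper20_Kum

set_option autoImplicit false
set_option linter.unusedSectionVars false
set_option linter.unusedVariables false
set_option linter.style.haveILetI false

noncomputable section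

open HahnSeries IntermediateField AlgebraicCurve ModularCurve

namespace Fermat.Agent.T2.helper8

open Fermat.Agent.S18.helper19 Fermat.Agent.P2.helper93 Fermat.Agent.S24
open Fermat.Agent.T2.helper48

section Red

variable (M q : ℕ) [NeZero M] [NeZero q]

/-- **ES-RED for `U_q`.** -/
theorem es_red_U [hfact : Fact q.Prime] (hqM : q ∣ M) (A : ValuationSubring Kb)
    (hA : A.LiesOverPrime q) (Y : LaurentSeries ↥A)
    (hY : coeffMap (A.subtype : ↥A →+* Kb) Y ∈ FF M) :
    ∃ Y' : LaurentSeries ↥A,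
      coeffMap (A.subtype : ↥A →+* Kb) Y'
        = ((uKummer M q ⟨coeffMap (A.subtype : ↥A →+* Kb) Y, hY⟩ : FF M) : LaurentSeries Kb) ∧
      ∀ [CharP (kA A) q],
      coeffMap (IsLocalRing.residue ↥A) Y'
        = coeffMap (frobenius (kA A) q) (coeffMap (IsLocalRing.residue ↥A) Y) := by
  have hq : q.Prime := hfact.out
  obtain ⟨ζ, hζ⟩ := HasEnoughRootsOfUnity.exists_primitiveRoot Kb q
  have hζ1 : ζ ^ q = 1 := hζ.pow_eq_one
  set u : (↥A)ˣ := rootUnit A hq.ne_zero hζ1 with hu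
  set NK : LaurentSeries Kb :=
    ((uKummer M q ⟨coeffMap (A.subtype : ↥A →+* Kb) Y, hY⟩ : FF M) : LaurentSeries Kb) with hNK
  have key := es_norm_U M q hq hqM ζ hζ ⟨coeffMap (A.subtype : ↥A →+* Kb) Y, hY⟩
  set P : LaurentSeries ↥A := ∏ i ∈ Finset.range q, Fermat.Agent.P2.helper94.rot (u ^ i) Y
    with hP
  have hPK : coeffMap (A.subtype : ↥A →+* Kb) P = qExpand Kb q NK := by
    rw [hNK, key, hP, map_prod]
    refine Finset.prod_congr rfl fun i _ => ?_
    rw [coeffMap_subtype_rot]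
    rfl
  have hmem : ∀ k, NK.coeff k ∈ A := by
    intro k
    have h1 : NK.coeff k = (qExpand Kb q NK).coeff ((q : ℤ) * k) :=
      (qExpand_coeff_mul q NK k).symm
    rw [h1, ← hPK, coeffMap_coeff]
    exact (P.coeff _).2
  refine ⟨liftA NK hmem, coeffMap_subtype_liftA NK hmem, ?_⟩
  intro hchar
  haveI hchar' : CharP (↥A ⧸ IsLocalRing.maximalIdeal ↥A) q := hchar
  have hN' : qExpand ↥A q (liftA NK hmem) = P := by
    apply coeffMap_subtype_injective
    rw [Fermat.Agent.P2.helper94.coeffMap_qExpand, coeffMap_subtype_liftA, ← hPK]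
  apply Fermat.Agent.P2.helper94.qExpand_injective q
  have hu1 : ((u : (↥A)ˣ) : ↥A) - 1 ∈ IsLocalRing.maximalIdeal ↥A :=
    rootUnit_sub_one_mem hq hA hζ1
  have hui : ∀ i : ℕ, ((u ^ i : (↥A)ˣ) : ↥A) - 1 ∈ IsLocalRing.maximalIdeal ↥A := by
    intro i
    induction i with
    | zero => simp
    | succ i ih =>
      have e : ((u ^ (i + 1) : (↥A)ˣ) : ↥A) - 1 = ((u ^ i : (↥A)ˣ) : ↥A) * ((u : ↥A) - 1) +
          (((u ^ i : (↥A)ˣ) : ↥A) - 1) := by
        rw [pow_succ]
        push_cast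
        ring
      rw [e]
      exact Ideal.add_mem _ (Ideal.mul_mem_left _ _ hu1) ih
  have e1 : qExpand (kA A) q (coeffMap (IsLocalRing.residue ↥A) (liftA NK hmem))
      = coeffMap (IsLocalRing.residue ↥A) P := by
    rw [← hN', Fermat.Agent.P2.helper94.coeffMap_qExpand]
  rw [e1, hP, map_prod]
  have hrot : ∀ i ∈ Finset.range q,
      coeffMap (IsLocalRing.residue ↥A) (Fermat.Agent.P2.helper94.rot (u ^ i) Y)
        = coeffMap (IsLocalRing.residue ↥A) Y := fun i _ =>
    Fermat.Agent.P2.helper94.coeffMap_rot_of_sub_one_mem (IsLocalRing.maximalIdeal ↥A) (u ^ i)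
      (hui i) Y
  rw [Finset.prod_congr rfl hrot, Finset.prod_const, Finset.card_range]
  exact Fermat.Agent.P2.helper94.laurent_pow_char q _

end Red

/-! ## `U_q` in the `Lifts` / `Rep` calculus -/

section Rep

variable {A : ValuationSubring Kb} {M : ℕ} [NeZero M]

theorem uKummer_algebraMap (q : ℕ) [NeZero q] (c : Kb) :
    ∃ d : ℕ, uKummer M q (algebraMap Kb (FF M) c) = algebraMap Kb (FF M) (c ^ d) :=
  norm_along_const (heckeBetaBar Kb M q) (heckeAlphaBar Kb M q) c

theorem uKummer_ne_zero (q : ℕ) [NeZero q] {h : FF M} (hh : h ≠ 0) : uKummer M q h ≠ 0 := by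
  obtain ⟨hβ, hα, hP, hfin, hFI, hN⟩ := heckeInputs_transpose M q
  exact Fermat.Agent.P3.helper94.normAlong_ne_zero (heckeBetaBar Kb M q) hfin
    (by simpa using hh)

/-- `U_q` on functions with good reduction: the reduction of `U y` is the coefficientwise
Frobenius of the reduction of `y`. -/
theorem lifts_uKummer (q : ℕ) [NeZero q] [Fact q.Prime] (hqM : q ∣ M)
    (hA : A.LiesOverPrime q) [CharP (kA A) q] {y : FF M} {yb : LaurentSeries (kA A)}
    (h : Lifts A M y yb) :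
    Lifts A M (uKummer M q y) (coeffMap (frobenius (kA A) q) yb) := by
  obtain ⟨Y, e1, e2, hm, n0⟩ := h
  have hY : coeffMap A.subtype Y ∈ FF M := by rw [e1]; exact y.2
  obtain ⟨Y', e1', e2'⟩ := es_red_U M q hqM A hA Y hY
  have hy : (⟨coeffMap A.subtype Y, hY⟩ : FF M) = y := Subtype.ext e1
  refine ⟨Y', ?_, ?_, coeffMap_mem_fullC _ M hm, ?_⟩
  · rw [e1', hy]
  · rw [e2', e2]
  · intro h0
    exact n0 (cw_coeffMap_injective _ (frobenius (kA A) q).injective
      (h0.trans (map_zero _).symm))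

/-- `U_q` on quotients of functions with good reduction. -/
theorem rep_uKummer (q : ℕ) [NeZero q] [Fact q.Prime] (hqM : q ∣ M)
    (hA : A.LiesOverPrime q) [CharP (kA A) q] {h : FF M} {a b : LaurentSeries (kA A)}
    (H : Rep A M h a b) :
    Rep A M (uKummer M q h) (coeffMap (frobenius (kA A) q) a)
      (coeffMap (frobenius (kA A) q) b) := by
  obtain ⟨c, y₁, y₂, hc, l₁, l₂, e⟩ := H
  obtain ⟨d, hd⟩ := uKummer_algebraMap (M := M) q c
  refine ⟨c ^ d, helper48.uKummer M q y₁, helper48.uKummer M q y₂, pow_ne_zero d hc,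
    lifts_uKummer q hqM hA l₁, lifts_uKummer q hqM hA l₂, ?_⟩
  rw [← hd, ← uKummer_mul, e, uKummer_mul]

/-- **[T2-CONG]** the congruence `φ ≡ U_q` at the bad prime, in the `Rep` calculus: for a
Frobenius `φ` at `A`, the function `φ h / U h` has a representation with EQUAL reductions. -/
theorem rep_frob_div_uKummer (q : ℕ) [NeZero q] [Fact q.Prime] (hqM : q ∣ M)
    (hA : A.LiesOverPrime q) [CharP (kA A) q] {φ : Kb ≃ₐ[ℚ] Kb} (hφ : A.IsFrobeniusAt φ q)
    {h : FF M} {a b : LaurentSeries (kA A)} (H : Rep A M h a b) :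
    ∃ x : LaurentSeries (kA A), Rep A M (galF M φ h / helper48.uKummer M q h) x x := by
  obtain ⟨hφ', hfr⟩ := decK_eq_frobenius_of_isFrobeniusAt hφ
  have h1 := H.gal φ hφ'
  rw [hfr] at h1
  have h2 := rep_uKummer q hqM hA H
  refine ⟨coeffMap (frobenius (kA A) q) a * coeffMap (frobenius (kA A) q) b, ?_⟩
  have h3 := h1.div h2
  rwa [mul_comm (coeffMap (frobenius (kA A) q) b)] at h3

/-- a representation with equal reductions is a `RedC`. -/
theorem redC_of_rep {f : FF M} {x : LaurentSeries (kA A)} (H : Rep A M f x x) :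
    ∃ c : Kb, c ≠ 0 ∧ helper20.RedC A M f c := by
  obtain ⟨c, y₁, y₂, hc, ⟨Y₁, e₁, r₁, m₁, n₁⟩, ⟨Y₂, e₂, r₂, m₂, n₂⟩, e⟩ := H
  refine ⟨c, hc, Y₁, Y₂, ⟨?_, ?_, ?_⟩, ⟨?_, ?_, ?_⟩, ?_, ?_⟩
  · rw [e₁]; exact y₁.2
  · rw [r₁]; exact m₁
  · rw [r₁]; exact n₁
  · rw [e₂]; exact y₂.2
  · rw [r₂]; exact m₂
  · rw [r₂]; exact n₂
  · have h1 := congrArg (fun z : FF M => (z : LaurentSeries Kb)) e
    change coeffMap A.subtype Y₁ = _ at e₁
    change coeffMap A.subtype Y₂ = _ at e₂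
    change algebraMap Kb (LaurentSeries Kb) c * coeffMap A.subtype Y₁
      = (f : LaurentSeries Kb) * coeffMap A.subtype Y₂
    rw [e₁, e₂]
    exact h1
  · change coeffMap (IsLocalRing.residue A) Y₁ = coeffMap (IsLocalRing.residue A) Y₂
    rw [r₁, r₂]

/-- the scaling statement in the `Rep` calculus. -/
theorem rep_of_scale (hSC : Fermat.Agent.P2.helper29.ScaleStatement M A) {f : FF M}
    (hf : f ≠ 0) : ∃ a b : LaurentSeries (kA A), Rep A M f a b := by
  obtain ⟨c, Y₁, Y₂, hc, g₁, g₂, e⟩ := hSC (f : LaurentSeries Kb) f.2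
    (fun h0 => hf (Subtype.ext h0))
  refine ⟨_, _, c, ⟨_, g₁.1⟩, ⟨_, g₂.1⟩, hc, ⟨Y₁, rfl, rfl, g₁.2.1, g₁.2.2⟩,
    ⟨Y₂, rfl, rfl, g₂.2.1, g₂.2.2⟩, ?_⟩
  apply Subtype.ext
  exact e

/-- **[T2-CONG]**: for a Frobenius `φ` at `A ∣ q` (`q ∣ M`) and every `h ≠ 0`, the function
`φ h / U_q h` is a nonzero constant times a function `≡ 1` for the Gauss valuation. -/
def CongStatement (M q : ℕ) [NeZero M] [NeZero q] (A : ValuationSubring Kb) : Prop :=
  ∀ h : FF M, h ≠ 0 → ∀ φ : Kb ≃ₐ[ℚ] Kb, A.IsFrobeniusAt φ q →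
    ∃ c : Kb, c ≠ 0 ∧ helper20.RedC A M (galF M φ h / helper48.uKummer M q h) c

theorem congStatement (q : ℕ) [NeZero q] (hq : q.Prime) (hqM : q ∣ M)
    (hA : A.LiesOverPrime q) (hSC : Fermat.Agent.P2.helper29.ScaleStatement M A) :
    CongStatement M q A := by
  intro h hh φ hφ
  haveI : Fact q.Prime := ⟨hq⟩
  haveI : CharP (kA A) q := charP_residueField hq hA
  obtain ⟨a, b, H⟩ := rep_of_scale hSC hh
  obtain ⟨x, Hx⟩ := rep_frob_div_uKummer q hqM hA hφ H
  exact redC_of_rep Hx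

end Rep

end Fermat.Agent.T2.helper8

end
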