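/-
TIER 2, [T2-FROBCORE-ASM] (helper8): the S35 core `φ² (φ x - ε x) = q² (φ x - ε x)` on the
`p`-power torsion of `J₀(M)`, for a joint eigenvector `x` of `U_q` and `W` (eigenvalues
`ε, δ = ± 1`) and a Frobenius `φ` at a place `A` over the bad prime `q ∣ M`.

Inputs (all `Prop`s, proved elsewhere):

* `CongStatement M q A`        [T2-CONG]  (helper8_FrobCong: from the scaling statement);
* `PairApproxStatement M W A`  [T2-PAIR-APPROX]: for every `R ≠ 0` there is `g ≡ 1` for `w₁`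
                               with `R · W g ≡ 1` for `w₁` (i.e. `g ≡ W R⁻¹` for `w₂`);
* `FrobT0Statement M W A n q`  [T2-FROB]: for `u ≡ 1` for `w₁` and `w₂` with `n ∣ div u`,
                               `φ² u = c · vⁿ · u^(q²)`.

Route: `x = [h]`; `U x = ε x`, `W x = δ x` give `U h ~ h^ε`, `W h ~ h^δ` (`~` = up to a constant
and an `n`-th power).  `u₁ = φ h / U h` is `≡ c₀` for `w₁` (CONG) and `u₁ ~ φ h / h^ε`
represents `y = φ x - ε x`; `W u₁ ~ u₁^δ`, so after a pair approximation `u = u₁ gⁿ / c₀` is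
`≡ 1` for both valuations; `FrobT0Statement` gives `φ² y = q² y`.
-/
import Mathlib
import Fermat.Agent.T2.helper8_FrobCong

set_option autoImplicit false
set_option linter.unusedSectionVars false
set_option linter.unusedVariables false
set_option linter.style.haveILetI false

noncomputable section

open HahnSeries IntermediateField AlgebraicCurve ModularCurve

namespace Fermat.Agent.T2.helper8

open Fermat.Agent.S18.helper19 Fermat.Agent.P2.helper29 Fermat.Agent.P2.helper93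
open Fermat.Agent.S24 Fermat.Agent.T2.helper48 Fermat.Agent.T2.helper20
open Fermat.Agent.P3.helper94

/-! ## The statements -/

/-- **[T2-PAIR-APPROX]**: for every `R ≠ 0` there is a function `g ≡ 1` for `w₁` such that
`R · W g ≡ 1` for `w₁`. -/
def PairApproxStatement (M : ℕ) (W : FF M ≃ₐ[Kb] FF M) (A : ValuationSubring Kb) : Prop :=
  ∀ R : FF M, R ≠ 0 → ∃ g : FF M, g ≠ 0 ∧ IsRedOne A M (g : LaurentSeries Kb) ∧
    IsRedOne A M ((R * W g : FF M) : LaurentSeries Kb)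

/-- **[T2-FROB]**: if `n ∣ div u` and `u ≡ 1` for both Gauss valuations, then for every
Frobenius `φ` at `A`, `φ (φ u)` is a constant times an `n`-th power times `u ^ (q ^ 2)`. -/
def FrobT0Statement (M : ℕ) (W : FF M ≃ₐ[Kb] FF M) (A : ValuationSubring Kb) (n q : ℕ) :
    Prop :=
  ∀ u : FF M, u ≠ 0 → (∀ P : Place Kb (FF M), (n : ℤ) ∣ P.ord u) →
    IsRedOne A M (u : LaurentSeries Kb) → IsRedOne A M ((W u : FF M) : LaurentSeries Kb) →
    ∀ φ : Kb ≃ₐ[ℚ] Kb, A.IsFrobeniusAt φ q →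
      ∃ (c : Kb) (v : FF M),
        galF M φ (galF M φ u) = algebraMap Kb (FF M) c * v ^ n * u ^ (q ^ 2)

/-! ## Equality up to constants and `n`-th powers -/

section Eqv

variable {M : ℕ}

/-- `a = b · c · rⁿ` with `c` a nonzero constant and `r ≠ 0`. -/
def Eqv (n : ℕ) (a b : FF M) : Prop :=
  ∃ (c : Kb) (r : FF M), c ≠ 0 ∧ r ≠ 0 ∧ a = b * (algebraMap Kb (FF M) c * r ^ n)

variable {n : ℕ} {a b c a' b' : FF M}

theorem Eqv.refl (a : FF M) : Eqv n a a :=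
  ⟨1, 1, one_ne_zero, one_ne_zero, by rw [map_one, one_pow, mul_one, mul_one]⟩

theorem Eqv.symm (h : Eqv n a b) : Eqv n b a := by
  obtain ⟨c, r, hc, hr, e⟩ := h
  refine ⟨c⁻¹, r⁻¹, inv_ne_zero hc, inv_ne_zero hr, ?_⟩
  have hc' : algebraMap Kb (FF M) c ≠ 0 := (map_ne_zero _).mpr hc
  rw [e, map_inv₀, inv_pow]
  field_simp

theorem Eqv.trans (h : Eqv n a b) (h' : Eqv n b c) : Eqv n a c := by
  obtain ⟨c₁, r₁, hc₁, hr₁, e₁⟩ := h
  obtain ⟨c₂, r₂, hc₂, hr₂, e₂⟩ := h'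
  refine ⟨c₂ * c₁, r₂ * r₁, mul_ne_zero hc₂ hc₁, mul_ne_zero hr₂ hr₁, ?_⟩
  rw [e₁, e₂, map_mul, mul_pow]
  ring

theorem Eqv.mul (h : Eqv n a b) (h' : Eqv n a' b') : Eqv n (a * a') (b * b') := by
  obtain ⟨c₁, r₁, hc₁, hr₁, e₁⟩ := h
  obtain ⟨c₂, r₂, hc₂, hr₂, e₂⟩ := h'
  refine ⟨c₁ * c₂, r₁ * r₂, mul_ne_zero hc₁ hc₂, mul_ne_zero hr₁ hr₂, ?_⟩
  rw [e₁, e₂, map_mul, mul_pow]
  ring

theorem Eqv.inv (h : Eqv n a b) : Eqv n a⁻¹ b⁻¹ := by
  obtain ⟨c, r, hc, hr, e⟩ := h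
  refine ⟨c⁻¹, r⁻¹, inv_ne_zero hc, inv_ne_zero hr, ?_⟩
  rw [e, map_inv₀, inv_pow, mul_inv, mul_inv]

theorem Eqv.div (h : Eqv n a b) (h' : Eqv n a' b') : Eqv n (a / a') (b / b') := by
  rw [div_eq_mul_inv, div_eq_mul_inv]
  exact h.mul h'.inv

theorem Eqv.pow (h : Eqv n a b) (k : ℕ) : Eqv n (a ^ k) (b ^ k) := by
  induction k with
  | zero => rw [pow_zero, pow_zero]; exact Eqv.refl _
  | succ k ih => rw [pow_succ, pow_succ]; exact ih.mul h

theorem Eqv.zpow (h : Eqv n a b) (k : ℤ) : Eqv n (a ^ k) (b ^ k) := by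
  obtain ⟨k, rfl | rfl⟩ := k.eq_nat_or_neg
  · rw [zpow_natCast, zpow_natCast]; exact h.pow k
  · rw [zpow_neg, zpow_neg, zpow_natCast, zpow_natCast]; exact (h.pow k).inv

theorem Eqv.mul_const_pow (a : FF M) {c : Kb} (hc : c ≠ 0) {r : FF M} (hr : r ≠ 0) :
    Eqv n (a * (algebraMap Kb (FF M) c * r ^ n)) a :=
  ⟨c, r, hc, hr, rfl⟩

theorem Eqv.const_mul (a : FF M) {c : Kb} (hc : c ≠ 0) :
    Eqv n (algebraMap Kb (FF M) c * a) a :=
  ⟨c, 1, hc, one_ne_zero, by rw [one_pow, mul_one, mul_comm]⟩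

theorem Eqv.mul_pow_self (a : FF M) {r : FF M} (hr : r ≠ 0) : Eqv n (a * r ^ n) a :=
  ⟨1, r, one_ne_zero, hr, by rw [map_one, one_mul]⟩

theorem Eqv.map (W : FF M ≃ₐ[Kb] FF M) (h : Eqv n a b) : Eqv n (W a) (W b) := by
  obtain ⟨c, r, hc, hr, e⟩ := h
  refine ⟨c, W r, hc, (map_ne_zero W).mpr hr, ?_⟩
  rw [e, map_mul, map_mul, map_pow, AlgEquiv.commutes]

theorem Eqv.gal (σ : Kb ≃ₐ[ℚ] Kb) (h : Eqv n a b) : Eqv n (galF M σ a) (galF M σ b) := by
  obtain ⟨c, r, hc, hr, e⟩ := h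
  refine ⟨σ c, galF M σ r, (map_ne_zero σ).mpr hc, (map_ne_zero (galF M σ)).mpr hr, ?_⟩
  rw [e, map_mul, map_mul, map_pow, galF_algebraMap]

theorem Eqv.ne_zero (h : Eqv n a b) (hb : b ≠ 0) : a ≠ 0 := by
  obtain ⟨c, r, hc, hr, e⟩ := h
  rw [e]
  exact mul_ne_zero hb (mul_ne_zero ((map_ne_zero _).mpr hc) (pow_ne_zero n hr))

end Eqv

/-! ## Kummer representatives up to `Eqv` -/

section Kummer

variable {M : ℕ} [NeZero M] {n : ℕ}

theorem isKummerRep_of_eqv {x : JZero M} {a b : FF M} (H : IsKummerRep n x b)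
    (h : Eqv n a b) : IsKummerRep n x a := by
  obtain ⟨c, r, hc, hr, e⟩ := h
  haveI := hasPD M
  rw [e]
  exact H.mul_pow hr (hasTrivialDiv_algebraMap hc)

theorem eqv_of_isKummerRep {x : JZero M} {a b : FF M} (Ha : IsKummerRep n x a)
    (Hb : IsKummerRep n x b) : Eqv n a b := by
  obtain ⟨u, w, hu, hw, e⟩ := Hb.unique Ha
  obtain ⟨c, hc⟩ := const_of_ord_eq_zero M w hw.2
  have hc0 : c ≠ 0 := by
    rintro rfl
    rw [map_zero] at hc
    exact hw.1 hc.symm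
  exact ⟨c, u, hc0, hu, by rw [e, hc]⟩

theorem eq_of_isKummerRep (hn : n ≠ 0) {x y : JZero M} {a : FF M} (Hx : IsKummerRep n x a)
    (Hy : IsKummerRep n y a) : x = y := by
  have h := Hx.sub Hy
  have ha := Hx.ne_zero
  have e : a * a⁻¹ = (1 : FF M) ^ n := by rw [one_pow, mul_inv_cancel₀ ha]
  exact sub_eq_zero.mp (h.eq_zero_of_eq_pow hn e)

theorem isKummerRep_gal {x : JZero M} {h : FF M} (H : IsKummerRep n x h) (σ : Kb ≃ₐ[ℚ] Kb) :
    IsKummerRep n (σ • x) (galF M σ h) :=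
  H.galois_smul σ

end Kummer

/-! ## `RedC` with constant `1` -/

section RedOne

variable {A : ValuationSubring Kb} {M : ℕ}

theorem redC_one_mul {f g : FF M} (hf : RedC A M f 1) (hg : RedC A M g 1) :
    RedC A M (f * g) 1 := by
  have := hf.mul hg
  rwa [one_mul] at this

theorem redC_one_pow {f : FF M} (hf : RedC A M f 1) (k : ℕ) : RedC A M (f ^ k) 1 := by
  have := hf.pow k
  rwa [one_pow] at this

theorem redC_one_inv {f : FF M} (hf : RedC A M f 1) : RedC A M f⁻¹ 1 := by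
  have := hf.inv one_ne_zero
  rwa [inv_one] at this

theorem redC_one_zpow {f : FF M} (hf : RedC A M f 1) (k : ℤ) : RedC A M (f ^ k) 1 := by
  obtain ⟨k, rfl | rfl⟩ := k.eq_nat_or_neg
  · rw [zpow_natCast]; exact redC_one_pow hf k
  · rw [zpow_neg, zpow_natCast]; exact redC_one_inv (redC_one_pow hf k)

theorem redC_one_of_redC {f : FF M} {c : Kb} (hc : c ≠ 0) (hf : RedC A M f c) :
    RedC A M (algebraMap Kb (FF M) c⁻¹ * f) 1 := by
  have := hf.const_mul c⁻¹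
  rwa [inv_mul_cancel₀ hc] at this

end RedOne

/-! ## The assembly -/

section Main

variable (M q p : ℕ) [NeZero M] [NeZero q]

/-- **[T2-FROBCORE]** the S35 core from the congruence, the pair approximation and
`FrobT0Statement`. -/
theorem frobCore_of (W : FF M ≃ₐ[Kb] FF M)
    (hWgal : ∀ (σ : Kb ≃ₐ[ℚ] Kb) (x : FF M), W (galF M σ x) = galF M σ (W x))
    (hp : p ≠ 0)
    (hC : ∀ A : ValuationSubring Kb, A.LiesOverPrime q → CongStatement M q A)
    (hPA : ∀ A : ValuationSubring Kb, A.LiesOverPrime q → PairApproxStatement M W A)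
    (hT : ∀ A : ValuationSubring Kb, A.LiesOverPrime q → ∀ k : ℕ,
      FrobT0Statement M W A (p ^ k) q) :
    ∀ A : ValuationSubring Kb, A.LiesOverPrime q → ∀ φ : Kb ≃ₐ[ℚ] Kb, A.IsFrobeniusAt φ q →
      ∀ x : JZero M, (∃ k : ℕ, p ^ k • x = 0) → ∀ ε δ : ℤ, ε * ε = 1 → δ * δ = 1 →
        uJ M q x = ε • x → W • x = δ • x →
        φ • φ • (φ • x - ε • x) = (q ^ 2) • (φ • x - ε • x) := by
  rintro A hA φ hφ x ⟨k, hx⟩ ε δ hε hδ hUx hWx
  set n := p ^ k with hn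
  have hn0 : n ≠ 0 := pow_ne_zero k hp
  obtain ⟨h, H⟩ := exists_isKummerRep hx
  have hh := H.ne_zero
  -- `U h ~ h ^ ε`
  have HU : IsKummerRep n (ε • x) (uKummer M q h) := by
    rw [← hUx]
    exact helper48.IsKummerRep.uJ M q H
  have EU : Eqv n (uKummer M q h) (h ^ ε) := eqv_of_isKummerRep HU (H.zsmul ε)
  -- `W h ~ h ^ δ`
  have HW : IsKummerRep n (δ • x) (W h) := by
    rw [← hWx]
    exact H.algEquiv_smul W
  have EW : Eqv n (W h) (h ^ δ) := eqv_of_isKummerRep HW (H.zsmul δ)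
  -- the class `y = φ x - ε x`
  have Hy : IsKummerRep n (φ • x - ε • x) (galF M φ h * (h ^ ε)⁻¹) :=
    (isKummerRep_gal H φ).sub (H.zsmul ε)
  -- the function `u₁ = φ h / U h`
  obtain ⟨c₀, hc₀, R₁⟩ := hC A hA h hh φ hφ
  set u₁ : FF M := galF M φ h / uKummer M q h with hu₁
  have E1 : Eqv n u₁ (galF M φ h * (h ^ ε)⁻¹) := by
    rw [hu₁, div_eq_mul_inv]
    exact (Eqv.refl _).mul EU.inv
  have E2 : Eqv n (W u₁) (u₁ ^ δ) := by
    have e1 : W u₁ = galF M φ (W h) / W (uKummer M q h) := by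
      rw [hu₁, map_div₀, hWgal]
    rw [e1]
    have a1 : Eqv n (galF M φ (W h)) ((galF M φ h) ^ δ) := by
      have := EW.gal φ
      rwa [map_zpow₀] at this
    have a2 : Eqv n (W (uKummer M q h)) ((h ^ ε) ^ δ) := by
      have b1 := EU.map W
      rw [map_zpow₀] at b1
      have b2 := EW.zpow ε
      have := b1.trans b2
      rwa [← zpow_mul, mul_comm δ ε, zpow_mul] at this
    have a3 := a1.div a2
    have a4 : (galF M φ h) ^ δ / (h ^ ε) ^ δ = (galF M φ h * (h ^ ε)⁻¹) ^ δ := by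
      rw [← div_zpow, div_eq_mul_inv]
    rw [a4] at a3
    exact a3.trans (E1.zpow δ).symm
  -- normalisation: `u₁' = u₁ / c₀ ≡ 1`
  set u₁' : FF M := algebraMap Kb (FF M) c₀⁻¹ * u₁ with hu₁'
  have R₁' : RedC A M u₁' 1 := redC_one_of_redC hc₀ R₁
  have E3 : Eqv n u₁' u₁ := Eqv.const_mul u₁ (inv_ne_zero hc₀)
  have E4 : Eqv n (W u₁') (u₁' ^ δ) := ((E3.map W).trans E2).trans (E3.zpow δ).symm
  obtain ⟨C, R, hC0, hR0, eWu⟩ := E4
  obtain ⟨s, hs⟩ := IsAlgClosed.exists_pow_nat_eq C (Nat.pos_of_ne_zero hn0)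
  have hs0 : s ≠ 0 := by
    rintro rfl
    rw [zero_pow hn0] at hs
    exact hC0 hs.symm
  have hR' : algebraMap Kb (FF M) s * R ≠ 0 := mul_ne_zero ((map_ne_zero _).mpr hs0) hR0
  obtain ⟨g, hg, g1, g2⟩ := hPA A hA _ hR'
  -- the function `u = u₁' gⁿ`
  set u : FF M := u₁' * g ^ n with hu
  have hu1 : RedC A M u 1 := redC_one_mul R₁' (redC_one_pow (redC_one_iff.mpr g1) n)
  have hWu : W u = u₁' ^ δ * (algebraMap Kb (FF M) s * R * W g) ^ n := by
    rw [hu, map_mul, map_pow, eWu, mul_pow, mul_pow, ← map_pow (algebraMap Kb (FF M)), hs]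
    ring
  have hu2 : RedC A M (W u) 1 := by
    rw [hWu]
    exact redC_one_mul (redC_one_zpow R₁' δ) (redC_one_pow (redC_one_iff.mpr g2) n)
  have Eu : Eqv n u (galF M φ h * (h ^ ε)⁻¹) :=
    ((Eqv.mul_pow_self u₁' hg).trans E3).trans E1
  have Hu : IsKummerRep n (φ • x - ε • x) u := isKummerRep_of_eqv Hy Eu
  have hu0 : u ≠ 0 := Hu.ne_zero
  obtain ⟨c, v, hcv⟩ := hT A hA k u hu0 (fun P => Hu.dvd_ord P) (redC_one_iff.mp hu1)
    (redC_one_iff.mp hu2) φ hφ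
  -- conclusion
  have H1 : IsKummerRep n (φ • φ • (φ • x - ε • x)) (galF M φ (galF M φ u)) :=
    isKummerRep_gal (isKummerRep_gal Hu φ) φ
  have H2 : IsKummerRep n ((q ^ 2) • (φ • x - ε • x)) (u ^ (q ^ 2)) := Hu.nsmul (q ^ 2)
  have H3 := H1.sub H2
  have e3 : galF M φ (galF M φ u) * (u ^ (q ^ 2))⁻¹ = algebraMap Kb (FF M) c * v ^ n := by
    rw [hcv]
    have hne : u ^ (q ^ 2) ≠ 0 := pow_ne_zero _ hu0
    rw [mul_assoc, mul_inv_cancel₀ hne, mul_one]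
  exact sub_eq_zero.mp (H3.eq_zero_of_eq_const_mul_pow hn0 e3)

end Main

end Fermat.Agent.T2.helper8

end
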