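/-
TIER 2, S35 core, final wiring at the bad level (helper15).

* `pairApprox_of`, `pairApprox_bad` : helper8's `PairApproxStatement` from weak approximation
  (`helper15.approx`); unconditional at level `N q`, `W = w_q`, `A ∣ q`.
* `frobCoreStatement_bad` : helper76's `FrobCoreStatement (N q) q p U W` VERBATIM
  (`U = helper48.uJ (N q) q`, `W =` the action of `helper36.atkinLehner` on `J₀(N q)`), from
  `helper15.frobCore_atkinLehner` (congruence + merge) and `helper49.t0Frob_of` (`φ² = q²` on the
  toric part).  Remaining inputs = the leaves of the S34 chain (`Integrality2`, `IdealStep2`,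
  `RootEnd`) and the graphs of `Fr` (`helper49.FrGraphStatement`).
-/
import Mathlib
import Fermat.Agent.T2.helper15_FrobCore
import Fermat.Agent.T2.helper49_Frob
import Fermat.Agent.T2.helper58_ScaleBad
import Fermat.Agent.T2.helper87_RegRed2U
import Fermat.Agent.T2.helper8_FrobAsm
import Fermat.Agent.T2.helper76_FrobCoreDefs

set_option autoImplicit false
set_option linter.unusedSectionVars false
set_option linter.unusedVariables false
set_option linter.style.haveILetI false

noncomputable section

open HahnSeries IntermediateField AlgebraicCurve ModularCurve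

namespace Fermat.Agent.T2.helper15

open Fermat.Agent.S18.helper19 Fermat.Agent.P2.helper29 Fermat.Agent.P2.helper93
open Fermat.Agent.T2 Fermat.Agent.T2.helper20 Fermat.Agent.T2.helper48
open Fermat.Agent.T2.helper22 Fermat.Agent.T2.helper36

/-! ## Pair approximation in helper8's shape -/

section PairApprox

variable {A : ValuationSubring Kb} {M : ℕ} [NeZero M]

/-- helper8's `PairApproxStatement` from weak approximation. -/
theorem pairApprox_of (hArch : Fermat.Agent.P2.helper74.Arch A (IsLocalRing.residue A))
    (hSC : ScaleStatement M A) (W : FF M ≃ₐ[Kb] FF M) (hWW : ∀ f, W (W f) = f)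
    (hSep : SepW M W A) : Fermat.Agent.T2.helper8.PairApproxStatement M W A := by
  intro R hR
  have hWR : W R⁻¹ ≠ 0 := (map_ne_zero W).mpr (inv_ne_zero hR)
  obtain ⟨r, hr, r1, r2⟩ := approx hArch hSC W hWW hSep 1 (W R⁻¹) one_ne_zero hWR
  refine ⟨r, hr, ?_, ?_⟩
  · rwa [inv_one, mul_one] at r1
  · have e : W (r * (W R⁻¹)⁻¹) = R * W r := by
      rw [map_mul, map_inv₀, hWW, inv_inv, mul_comm]
    rwa [e] at r2

end PairApprox

section Bad

variable (N q : ℕ) [NeZero N] [NeZero q]

/-- helper8's `PairApproxStatement` at level `N q`, unconditional. -/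
theorem pairApprox_bad (hq : q.Prime) (hqN : ¬ q ∣ N) (A : ValuationSubring Kb)
    (hA : A.LiesOverPrime q) :
    Fermat.Agent.T2.helper8.PairApproxStatement (N * q) (atkinLehner N q hq hqN) A :=
  pairApprox_of (Fermat.Agent.P2.helper74.arch_algebraicClosure A q hq hA)
    (Fermat.Agent.T2.helper58.scaleStatement_bad N q hq hqN A hA) (atkinLehner N q hq hqN)
    (atkinLehner_atkinLehner N q hq hqN) (Fermat.Agent.T2.helper20.sepStatement N q hq hqN A hA)

/-- `MergeStatement` at level `N q`, unconditional. -/
theorem merge_bad (hq : q.Prime) (hqN : ¬ q ∣ N) (A : ValuationSubring Kb)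
    (hA : A.LiesOverPrime q) {n : ℕ} (hn : n ≠ 0) :
    MergeStatement (N * q) (atkinLehner N q hq hqN) A n :=
  merge (Fermat.Agent.P2.helper74.arch_algebraicClosure A q hq hA)
    (Fermat.Agent.T2.helper58.scaleStatement_bad N q hq hqN A hA) (atkinLehner N q hq hqN)
    (atkinLehner_atkinLehner N q hq hqN) (Fermat.Agent.T2.helper20.sepStatement N q hq hqN A hA)
    hn

/-- `[T0-FROB]` at level `N q` from the leaves of the S34 chain and the graphs of `Fr`
(`helper49.t0Frob_of`; scaling, (I3) and the residue field are unconditional). -/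
theorem t0Frob_bad (hq : q.Prime) (hqN : ¬ q ∣ N) (A : ValuationSubring Kb)
    (hA : A.LiesOverPrime q) {n : ℕ} (hn : n ≠ 0)
    (hInt : Integrality2Statement (N * q) A (atkinLehner N q hq hqN))
    (hG : Fermat.Agent.T2.helper49.FrGraphStatement (N * q) A (atkinLehner N q hq hqN) q)
    (hI : IdealStep2Statement (N * q) A (atkinLehner N q hq hqN) n)
    (hRoot : RootEndStatement (N * q) (atkinLehner N q hq hqN) A n) :
    T0FrobStatement (N * q) (atkinLehner N q hq hqN) A n q :=
  Fermat.Agent.T2.helper49.t0Frob_of hq hA hn (atkinLehner_atkinLehner N q hq hqN)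
    (fun σ y => atkinLehner_arithmeticRingAut N q hq hqN σ y)
    (fun Y hY => by
      rw [Fermat.Agent.T2.helper96.FFb_mul_eq N A hq hA]
      exact Fermat.Agent.T2.helper58.red_mem_FFb_bad N q hq hqN A hA hY)
    hInt (Fermat.Agent.T2.helper87.regRed2_holds N q hq hqN A hA) hG hI hRoot

/-- **S35-CORE at level `N q`**, helper76's `FrobCoreStatement` VERBATIM, for `U = U_q`
(`helper48.uJ`) and `W =` the action of the Atkin-Lehner involution on `J₀(N q)`. -/
theorem frobCoreStatement_bad (p : ℕ) (hq : q.Prime) (hqN : ¬ q ∣ N) (hp : p ≠ 0)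
    (hInt : ∀ A : ValuationSubring Kb, A.LiesOverPrime q →
      Integrality2Statement (N * q) A (atkinLehner N q hq hqN))
    (hG : ∀ A : ValuationSubring Kb, A.LiesOverPrime q →
      Fermat.Agent.T2.helper49.FrGraphStatement (N * q) A (atkinLehner N q hq hqN) q)
    (hI : ∀ A : ValuationSubring Kb, A.LiesOverPrime q → ∀ k : ℕ,
      IdealStep2Statement (N * q) A (atkinLehner N q hq hqN) (p ^ k))
    (hRoot : ∀ A : ValuationSubring Kb, A.LiesOverPrime q → ∀ k : ℕ,
      RootEndStatement (N * q) (atkinLehner N q hq hqN) A (p ^ k)) :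
    Fermat.Agent.T2.helper76.FrobCoreStatement (N * q) q p (uJ (N * q) q)
      (DistribSMul.toAddMonoidHom (JZero (N * q)) (atkinLehner N q hq hqN)) := by
  intro A hA φ hφ x hx ε δ hε hδ hU hW
  exact frobCore_atkinLehner N q p hq hqN hp
    (fun A hA => Fermat.Agent.T2.helper58.scaleStatement_bad N q hq hqN A hA)
    (fun A hA k => t0Frob_bad N q hq hqN A hA (pow_ne_zero k hp) (hInt A hA) (hG A hA)
      (hI A hA k) (hRoot A hA k))
    A hA φ hφ x hx ε δ hε hδ hU hW

end Bad

end Fermat.Agent.T2.helper15

end
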