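/-
TIER 2, [T2-FROB] (helper49, task 832): the S35 core at the bad level `N * q`, UNCONDITIONAL for
good levels `N`.

* `regAlpha_bad`     : `helper72.RegAlphaStatement N q (atkinLehner N q hq hqN)` (helper74).
* `frGraph_bad`      : `FrGraphStatement (N * q) A W q` from `SurjRedStatement N A`.
* `surjRed_good`     : `SurjRedStatement N A` for a good level `N` and `A ∣ q`, `q ∤ N` (P2).
* `idealStep2_bad`   : `helper22.IdealStep2Statement (N * q) A W n` from `SurjRedStatement N A`.
* `t0Frob_bad_of_surjRed`, `t0Frob_good` : `helper15.T0FrobStatement (N * q) W A n q`.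
* `frobCore_good`    : helper76's `FrobCoreStatement (N * q) q p U_q W_q`, unconditional for good
  levels `N`, `q ∤ N`, `p ≠ q`.
-/
import Mathlib
import Fermat.Agent.T2.helper49_Frob
import Fermat.Agent.T2.helper15_FrobFinal
import Fermat.Agent.T2.helper22_IdealStep2
import Fermat.Agent.T2.helper72_SNInst
import Fermat.Agent.T2.helper74_RootEndInst
import Fermat.Agent.T2.helper74_RegAlpha
import Fermat.Agent.T2.helper96_Sat
import Fermat.Agent.T2.helper45_Integrality2
import Fermat.Agent.P2.helper96_GenFinal2
import Fermat.Agent.P2.helper66_TameBase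
import Fermat.Agent.P2.helper28_CuspReg

set_option autoImplicit false
set_option linter.unusedSectionVars false
set_option linter.unusedVariables false
set_option linter.style.haveILetI false

noncomputable section

open HahnSeries IntermediateField AlgebraicCurve ModularCurve
open Fermat.Agent.S18.helper19 Fermat.Agent.P2.helper29 Fermat.Agent.P2.helper93
open Fermat.Agent.T2 Fermat.Agent.T2.helper22 Fermat.Agent.T2.helper36

namespace Fermat.Agent.T2.helper49

variable (N q : ℕ) [NeZero N] [NeZero q] (hq : q.Prime) (hqN : ¬ q ∣ N)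
variable (A : ValuationSubring Kb) (hA : A.LiesOverPrime q)

/-- **[REG-alpha]** in helper72's shape -/
theorem regAlpha_bad : helper72.RegAlphaStatement N q (atkinLehner N q hq hqN) := by
  intro x n hx hx'
  have h := helper74.regOff2_alpha N q hq hqN (x := ⟨x, hx.1⟩) (fun P hP => hx.2.1 P hP)
  have e : (⟨x, hx'⟩ : FF (N * q)) = heckeAlphaBar Kb N q ⟨x, hx.1⟩ := Subtype.ext rfl
  rw [e]
  exact fun P hP hP2 => h P hP hP2

include hA in
/-- the graph of `Fr` at the bad level -/
theorem frGraph_bad (hSurj : SurjRedStatement N A) :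
    FrGraphStatement (N * q) A (atkinLehner N q hq hqN) q := by
  rintro y ⟨n, hn⟩
  exact helper72.exists_rep_graph N q hq hqN A hA hSurj (regAlpha_bad N q hq hqN) hn

include hq hqN hA in
/-- P2's surjectivity of the reduction at a good level `N` prime to `q`. -/
theorem surjRed_good (hN : 4 ∣ N ∨ 9 ∣ N) : SurjRedStatement N A := by
  have hP : PrimeToLevel N A := ⟨q, hq, hqN, hA⟩
  have hG : GoodPair N A := ⟨hN, hP⟩
  exact Fermat.Agent.P2.helper96.surjRed_of_regRed_tameBase N A hG
    (Fermat.Agent.P2.helper28.regRedStatement N A hP) (Fermat.Agent.P2.helper66.tameBase hG)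

/-- the separating function: `j` has a pole of order `1` at `∞` and of order `q` at `∞₂` -/
theorem sep_bad : ∃ f : FF (N * q), f ≠ 0 ∧ (f : LaurentSeries Kb).order ≠
    ((atkinLehner N q hq hqN f : FF (N * q)) : LaurentSeries Kb).order := by
  have h1 : ((jElt N : FF N) : LaurentSeries Kb).order = -1 := order_jqModC Kb
  have h0 : ((jElt N : FF N) : LaurentSeries Kb) ≠ 0 := by
    intro h
    rw [h] at h1
    simp at h1
  have h1' : ((jElt (N * q) : FF (N * q)) : LaurentSeries Kb).order = -1 := order_jqModC Kb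
  have e : jElt (N * q) = heckeAlphaBar Kb N q (jElt N) := Subtype.ext rfl
  refine ⟨jElt (N * q), ?_, ?_⟩
  · intro h
    rw [h] at h1'
    simp at h1'
  · rw [h1', e, atkinLehner_heckeAlphaBar, coe_heckeBetaBar,
      Fermat.Agent.T2.helper96.order_qExpand q h0, h1]
    have : (2 : ℤ) ≤ (q : ℤ) := by exact_mod_cast hq.two_le
    omega

include hA in
/-- **[T2-IDEAL2]** at the bad level from P2's `SurjRed` at level `N`. -/
theorem idealStep2_bad (hSurj : SurjRedStatement N A) {n : ℕ} (hn : 0 < n) :
    IdealStep2Statement (N * q) A (atkinLehner N q hq hqN) n :=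
  idealStep2 (atkinLehner_atkinLehner N q hq hqN)
    (helper58.scaleStatement_bad N q hq hqN A hA)
    (helper45.integrality2Statement N q hq hqN A)
    (helper87.regRed2_holds N q hq hqN A hA)
    (helper96.sat2 N q hq hqN A hSurj)
    (helper72.sn2Statement N q hq hqN A hA hSurj (regAlpha_bad N q hq hqN))
    (Fermat.Agent.P2.helper95.riemannSetting_FFb (N * q) A)
    (sep_bad N q hq hqN) hn

include hA in
/-- **[T2-FROB] at the bad level** from P2's `SurjRed` at level `N`. -/
theorem t0Frob_bad_of_surjRed (hSurj : SurjRedStatement N A) (n : ℕ) (hn : ¬ q ∣ n) :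
    helper15.T0FrobStatement (N * q) (atkinLehner N q hq hqN) A n q := by
  have hn0 : n ≠ 0 := by
    rintro rfl
    exact hn (dvd_zero q)
  exact helper15.t0Frob_bad N q hq hqN A hA hn0
    (helper45.integrality2Statement N q hq hqN A)
    (frGraph_bad N q hq hqN A hA hSurj)
    (idealStep2_bad N q hq hqN A hA hSurj (Nat.pos_of_ne_zero hn0))
    (helper74.rootEnd_bad_of_sat2 N q hq hqN A hA n hn (helper96.sat2 N q hq hqN A hSurj))

include hA in
/-- **[T2-FROB] at the bad level, unconditional** for a good level `N`. -/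
theorem t0Frob_good (hN : 4 ∣ N ∨ 9 ∣ N) (n : ℕ) (hn : ¬ q ∣ n) :
    helper15.T0FrobStatement (N * q) (atkinLehner N q hq hqN) A n q :=
  t0Frob_bad_of_surjRed N q hq hqN A hA (surjRed_good N q hq hqN A hA hN) n hn

/-- **S35-CORE at level `N q`, UNCONDITIONAL** for a good level `N` (`4 ∣ N` or `9 ∣ N`), a
prime `q ∤ N` and a prime `p ≠ q`: helper76's `FrobCoreStatement` for `U = U_q` (`helper48.uJ`)
and `W =` the action of the Atkin-Lehner involution on `J₀(N q)`. -/
theorem frobCore_good (p : ℕ) (hp : p.Prime) (hpq : p ≠ q) (hN : 4 ∣ N ∨ 9 ∣ N) :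
    Fermat.Agent.T2.helper76.FrobCoreStatement (N * q) q p (Fermat.Agent.T2.helper48.uJ (N * q) q)
      (DistribSMul.toAddMonoidHom (JZero (N * q)) (atkinLehner N q hq hqN)) := by
  have hqp : ∀ k : ℕ, ¬ q ∣ p ^ k := by
    intro k h
    have := (Nat.prime_dvd_prime_iff_eq hq hp).mp (hq.dvd_of_dvd_pow h)
    exact hpq this.symm
  exact helper15.frobCoreStatement_bad N q p hq hqN hp.ne_zero
    (fun A hA => helper45.integrality2Statement N q hq hqN A)
    (fun A hA => frGraph_bad N q hq hqN A hA (surjRed_good N q hq hqN A hA hN))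
    (fun A hA k => idealStep2_bad N q hq hqN A hA (surjRed_good N q hq hqN A hA hN)
      (pow_pos hp.pos k))
    (fun A hA k => helper74.rootEnd_bad_of_sat2 N q hq hqN A hA (p ^ k) (hqp k)
      (helper96.sat2 N q hq hqN A (surjRed_good N q hq hqN A hA hN)))

end Fermat.Agent.T2.helper49

end
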