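import Fermat.Agent.T2.helper17_DictW
import Fermat.Agent.T2.helper36_AtkinLehner
import Fermat.Agent.P3.helper16_AnFinal

/-!
# Tier 2, [T2-DICT-W] (helper17, task 772), part 2: the function side and the bridge

Level `N q`, `q` a prime not dividing `N`; `W_F = helper36.atkinLehner N q hq hqN` is the
Atkin–Lehner automorphism of the function field of `X₀(N q)` over `ℚ̄`, and `W : ALData (N q) q`
is ANY Atkin–Lehner matrix `[[q x, y], [N q z, q w]]` (determinant `q`).

* `jfunDT_alNat_eq_mat_smul` : `j_{w d}(τ) = j_d(W τ)` for all `d ∣ N q` (the analytic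
  substitution for a general Atkin–Lehner matrix);
* `isEv_atkinLehner` : **function dictionary**: if `f` is the function of `h ∈ F_{Nq}` then
  `f ∘ W` is the function of `W_F h`;
* `normDictW` : the same in the vocabulary of `helper48.anDictC`, with the one-coset system
  `systemW W`;
* `bridgeW` : **equivariance of the analytic Kummer map for `W`**:
  `conC x = κC n ε → conC (W_F • x) = κC n (Wst W ε)`, `Wst W ε = ε ∘ wTr W`.
-/

set_option autoImplicit false
set_option linter.unusedSectionVars false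
set_option linter.unusedVariables false
set_option linter.style.haveILetI false

open Filter Topology Set UpperHalfPlane ModularCurve AlgebraicCurve CongruenceSubgroup
open scoped MatrixGroups Manifold
open Fermat.Agent.S24 Fermat.Agent.S24.helper24 Fermat.Agent.P3.helper80
open Fermat.Agent.S16.helper26 Fermat.Agent.P3.helper34
open Fermat.Agent.T2.helper76 Fermat.Agent.T2.helper36

noncomputable section

namespace Fermat.Agent.T2.helper17

/-! ### The Möbius action of an Atkin–Lehner matrix -/

section Mat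

variable {M q : ℕ}

theorem coe_mat_smul (W : ALData M q) (τ : ℍ) :
    ((W.mat • τ : ℍ) : ℂ) =
      ((q : ℂ) * (W.x : ℂ) * τ + (W.y : ℂ)) /
        ((M : ℂ) * (W.z : ℂ) * τ + (q : ℂ) * (W.w : ℂ)) := by
  rw [UpperHalfPlane.coe_smul_of_det_pos W.det_mat_pos τ]
  unfold UpperHalfPlane.num UpperHalfPlane.denom
  rw [ALData.val_mat]
  simp

theorem mat_denom_ne_zero (W : ALData M q) (τ : ℍ) :
    (M : ℂ) * (W.z : ℂ) * τ + (q : ℂ) * (W.w : ℂ) ≠ 0 := by
  have h := UpperHalfPlane.denom_ne_zero W.mat τ
  unfold UpperHalfPlane.denom at h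
  rw [ALData.val_mat] at h
  simpa using h

/-- `ofComplex (W w) = W (ofComplex w)` on the upper half plane. -/
theorem ofComplex_moebG_mat (W : ALData M q) {w : ℂ} (hw : 0 < w.im) :
    ofComplex (moebG W.mat w) = W.mat • ofComplex w := by
  rw [moebG_eq_coe W.det_mat_pos hw, ofComplex_apply, ofComplex_apply_of_im_pos hw]

/-- **The Atkin–Lehner substitution for a general Atkin–Lehner matrix**:
`j_{w d}(τ) = j_d (W τ)` for all `d ∣ N q`. -/
theorem jfunDT_alNat_eq_mat_smul {N q : ℕ} (hq : q.Prime) (W : ALData (N * q) q) :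
    ∀ d ∈ (N * q).divisors, ∀ τ : ℍ, jfunDT (alNat q d) τ = jfunDT d (W.mat • τ) := by
  intro d hd τ
  have hq0 : q ≠ 0 := hq.ne_zero
  haveI : NeZero q := ⟨hq0⟩
  have hm : W.m = N :=
    (Nat.eq_of_mul_eq_mul_left hq.pos ((mul_comm q N).trans W.hM)).symm
  have hdet : (q : ℤ) * W.x * W.w - (N : ℤ) * W.y * W.z = 1 := by
    have := W.det_eq
    rwa [hm] at this
  obtain ⟨hd1, hd2⟩ := Nat.mem_divisors.mp hd
  have hd0 : d ≠ 0 := fun h => hd2 (by rw [h] at hd1; exact Nat.eq_zero_of_zero_dvd hd1)
  haveI : NeZero d := ⟨hd0⟩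
  have hW := mat_denom_ne_zero W τ
  have hqC : (q : ℂ) ≠ 0 := by exact_mod_cast hq0
  by_cases h : q ∣ d
  · -- `d = q e`, `e ∣ N`
    obtain ⟨e, rfl⟩ := h
    have he0 : e ≠ 0 := fun h0 => hd0 (by rw [h0, mul_zero])
    haveI : NeZero e := ⟨he0⟩
    have heN : e ∣ N := by
      have : q * e ∣ q * N := by rwa [mul_comm N q] at hd1
      exact (Nat.mul_dvd_mul_iff_left hq.pos).mp this
    obtain ⟨n', hn'⟩ := heN
    rw [alNat_of_dvd (dvd_mul_right q e), Nat.mul_div_cancel_left e hq.pos]
    rw [helper24.jfunDT_of_ne_zero, helper24.jfunDT_of_ne_zero]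
    let γ' : SL(2, ℤ) := ⟨!![(q : ℤ) * W.x, (e : ℤ) * W.y; (n' : ℤ) * W.z, W.w], by
      rw [Matrix.det_fin_two_of]
      have : (N : ℤ) = e * n' := by exact_mod_cast hn'
      rw [this] at hdet
      linear_combination hdet⟩
    have key : scaleH (q * e) (W.mat • τ) = γ' • scaleH e τ := by
      apply UpperHalfPlane.ext
      rw [helper77.coe_scaleH, helper77.coe_SL_smul, helper77.coe_scaleH, coe_mat_smul]
      have h2 := helper77.SL_denom_ne_zero γ' (scaleH e τ)
      rw [helper77.coe_scaleH] at h2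
      have f00 : (γ' 0 0 : ℤ) = q * W.x := rfl
      have f01 : (γ' 0 1 : ℤ) = e * W.y := rfl
      have f10 : (γ' 1 0 : ℤ) = n' * W.z := rfl
      have f11 : (γ' 1 1 : ℤ) = W.w := rfl
      rw [f10, f11] at h2
      rw [f00, f01, f10, f11]
      have hNC : ((N * q : ℕ) : ℂ) = (e : ℂ) * (n' : ℂ) * (q : ℂ) := by
        rw [hn']; push_cast; ring
      rw [hNC] at hW ⊢
      push_cast at h2 ⊢
      have h1' : (n' : ℂ) * W.z * (e * τ) + W.w ≠ 0 := h2
      have h3 : (e : ℂ) * n' * q * W.z * τ + q * W.w =
          q * ((n' : ℂ) * W.z * (e * τ) + W.w) := by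
        ring
      rw [h3]
      field_simp
    show jfun (scaleH e τ) = jfun (scaleH (q * e) (W.mat • τ))
    rw [key, helper24.jfun_smul]
  · -- `d ∣ N`
    have hdN : d ∣ N := dvd_of_dvd_mul_of_not_dvd hq hd1 h
    obtain ⟨n', hn'⟩ := hdN
    rw [alNat_of_not_dvd h]
    haveI : NeZero (d * q) := ⟨Nat.mul_ne_zero hd0 hq0⟩
    rw [helper24.jfunDT_of_ne_zero, helper24.jfunDT_of_ne_zero]
    let γ' : SL(2, ℤ) := ⟨!![W.x, (d : ℤ) * W.y; (n' : ℤ) * W.z, (q : ℤ) * W.w], by
      rw [Matrix.det_fin_two_of]
      have : (N : ℤ) = d * n' := by exact_mod_cast hn'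
      rw [this] at hdet
      linear_combination hdet⟩
    have key : scaleH d (W.mat • τ) = γ' • scaleH (d * q) τ := by
      apply UpperHalfPlane.ext
      rw [helper77.coe_scaleH, helper77.coe_SL_smul, helper77.coe_scaleH, coe_mat_smul]
      have h2 := helper77.SL_denom_ne_zero γ' (scaleH (d * q) τ)
      rw [helper77.coe_scaleH] at h2
      have f00 : (γ' 0 0 : ℤ) = W.x := rfl
      have f01 : (γ' 0 1 : ℤ) = d * W.y := rfl
      have f10 : (γ' 1 0 : ℤ) = n' * W.z := rfl
      have f11 : (γ' 1 1 : ℤ) = q * W.w := rfl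
      rw [f10, f11] at h2
      rw [f00, f01, f10, f11]
      have hNC : ((N * q : ℕ) : ℂ) = (d : ℂ) * (n' : ℂ) * (q : ℂ) := by
        rw [hn']; push_cast; ring
      rw [hNC] at hW ⊢
      push_cast at h2 ⊢
      have h3 : (d : ℂ) * n' * q * W.z * τ + q * W.w =
          (n' : ℂ) * W.z * (d * q * τ) + q * W.w := by
        ring
      rw [h3]
      field_simp
    show jfun (scaleH (d * q) τ) = jfun (scaleH d (W.mat • τ))
    rw [key, helper24.jfun_smul]

end Mat

/-! ### Polynomial presentations in `F_M` -/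

section Poly

variable (M : ℕ) [NeZero M]

theorem coe_aeval_genBar (P : MvPolynomial M.divisors Kbar) :
    ((MvPolynomial.aeval (genBar M) P : modularFunctionFieldBar M) : LaurentSeries Kbar) =
      MvPolynomial.aeval (genJ M) P :=
  MvPolynomial.comp_aeval_apply (genBar M) (IntermediateField.val (modularFunctionFieldBar M)) P

/-- Every element of `F_M` is a quotient of polynomials in the generators `j_d`. -/
theorem exists_poly_repr_bar (h : modularFunctionFieldBar M) :
    ∃ P Q : MvPolynomial M.divisors Kbar, MvPolynomial.aeval (genBar M) Q ≠ 0 ∧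
      h = MvPolynomial.aeval (genBar M) P / MvPolynomial.aeval (genBar M) Q := by
  have hmem : (h : LaurentSeries Kbar) ∈
      IntermediateField.adjoin Kbar (Set.range (genJ M)) := by
    rw [← modularFunctionFieldBar_eq_adjoin]
    exact h.2
  obtain ⟨P, Q, hPQ⟩ := (IntermediateField.mem_adjoin_range_iff Kbar (genJ M) _).1 hmem
  by_cases hQ : MvPolynomial.aeval (genBar M) Q = 0
  · refine ⟨0, 1, by rw [map_one]; exact one_ne_zero, ?_⟩
    apply Subtype.ext
    have hQ' : MvPolynomial.aeval (genJ M) Q = 0 := by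
      rw [← coe_aeval_genBar, hQ]
      rfl
    rw [hPQ, hQ', div_zero, map_zero, zero_div]
    rfl
  · refine ⟨P, Q, hQ, ?_⟩
    apply Subtype.ext
    rw [hPQ, ← coe_aeval_genBar, ← coe_aeval_genBar]
    rfl

end Poly

/-! ### The function dictionary -/

section Dict

variable (N q : ℕ) [NeZero N] [NeZero q]

theorem atkinLehner_aeval_genBar (hq : q.Prime) (hqN : ¬ q ∣ N)
    (P : MvPolynomial (N * q).divisors Kbar) :
    helper36.atkinLehner N q hq hqN (MvPolynomial.aeval (genBar (N * q)) P) =
      MvPolynomial.aeval (genBar (N * q)) (MvPolynomial.rename (alIdx hq) P) := by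
  have h1 := MvPolynomial.comp_aeval_apply (genBar (N * q))
    ((helper36.atkinLehner N q hq hqN : modularFunctionFieldBar (N * q) ≃ₐ[Kbar]
      modularFunctionFieldBar (N * q)) : modularFunctionFieldBar (N * q) →ₐ[Kbar]
      modularFunctionFieldBar (N * q)) P
  rw [MvPolynomial.aeval_rename]
  exact h1.trans (congrArg (fun g => MvPolynomial.aeval g P)
    (funext fun d => atkinLehner_genBar N q hq hqN d))

/-- **Function dictionary for the Atkin–Lehner involution**: if `f` is the function of
`h ∈ F_{Nq}` on the upper half plane, then `f ∘ W` is the function of `W_F h`, for ANY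
Atkin–Lehner matrix `W` at `q`. -/
theorem isEv_atkinLehner (hq : q.Prime) (hqN : ¬ q ∣ N) (W : ALData (N * q) q)
    (h : modularFunctionFieldBar (N * q)) {f : ℂ → ℂ}
    (hf : IsEv (Fermat.Agent.S24.helper17.toC (h : LaurentSeries Kbar)) f) :
    IsEv (Fermat.Agent.S24.helper17.toC
        ((helper36.atkinLehner N q hq hqN h : modularFunctionFieldBar (N * q)) :
          LaurentSeries Kbar))
      (fun w => f (moebG W.mat w)) := by
  obtain ⟨P, Q, hQ, hPQ⟩ := exists_poly_repr_bar (N * q) h
  set P' : MvPolynomial (N * q).divisors ℂ := MvPolynomial.map (iotaC : Kbar →+* ℂ) P with hP'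
  set Q' : MvPolynomial (N * q).divisors ℂ := MvPolynomial.map (iotaC : Kbar →+* ℂ) Q with hQ'
  -- the series of `h`
  have hQJ : MvPolynomial.aeval (genJ (N * q)) Q ≠ 0 := by
    rw [← coe_aeval_genBar]
    exact fun h0 => hQ (Subtype.ext h0)
  have e1 : Fermat.Agent.S24.helper17.toC (h : LaurentSeries Kbar) =
      MvPolynomial.aeval (genJC (N * q)) P' / MvPolynomial.aeval (genJC (N * q)) Q' := by
    have : (h : LaurentSeries Kbar) =
        MvPolynomial.aeval (genJ (N * q)) P / MvPolynomial.aeval (genJ (N * q)) Q := by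
      rw [← coe_aeval_genBar, ← coe_aeval_genBar, hPQ]
      rfl
    rw [this, map_div₀, toC_aeval_genJ, toC_aeval_genJ]
  have hQC : MvPolynomial.aeval (genJC (N * q)) Q' ≠ 0 := by
    rw [hQ', ← toC_aeval_genJ]
    exact fun h0 => hQJ (Fermat.Agent.S24.helper17.toC_injective (by rw [h0, map_zero]))
  have H0 : IsEv (Fermat.Agent.S24.helper17.toC (h : LaurentSeries Kbar))
      (fun w => evPC0 (N * q) P' (ofComplex w) / evPC0 (N * q) Q' (ofComplex w)) := by
    rw [e1]
    exact (isEv_of_isQExp (isQExp_evPC0 P')).div (isEv_of_isQExp (isQExp_evPC0 Q')) hQC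
  -- the series of `W h`
  have hWQ : MvPolynomial.aeval (genBar (N * q)) (MvPolynomial.rename (alIdx hq) Q) ≠ 0 := by
    rw [← atkinLehner_aeval_genBar N q hq hqN Q]
    exact fun h0 => hQ ((helper36.atkinLehner N q hq hqN).injective (by rw [h0, map_zero]))
  have hWQJ : MvPolynomial.aeval (genJ (N * q)) (MvPolynomial.rename (alIdx hq) Q) ≠ 0 := by
    rw [← coe_aeval_genBar]
    exact fun h0 => hWQ (Subtype.ext h0)
  have e2 : Fermat.Agent.S24.helper17.toC
      ((helper36.atkinLehner N q hq hqN h : modularFunctionFieldBar (N * q)) :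
        LaurentSeries Kbar) =
      MvPolynomial.aeval (genJC (N * q)) (MvPolynomial.rename (alIdx hq) P') /
        MvPolynomial.aeval (genJC (N * q)) (MvPolynomial.rename (alIdx hq) Q') := by
    have : ((helper36.atkinLehner N q hq hqN h : modularFunctionFieldBar (N * q)) :
        LaurentSeries Kbar) =
        MvPolynomial.aeval (genJ (N * q)) (MvPolynomial.rename (alIdx hq) P) /
          MvPolynomial.aeval (genJ (N * q)) (MvPolynomial.rename (alIdx hq) Q) := by
      rw [hPQ, map_div₀, atkinLehner_aeval_genBar, atkinLehner_aeval_genBar,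
        ← coe_aeval_genBar, ← coe_aeval_genBar]
      rfl
    rw [this, map_div₀, toC_aeval_genJ, toC_aeval_genJ, MvPolynomial.map_rename,
      MvPolynomial.map_rename]
  have hWQC : MvPolynomial.aeval (genJC (N * q)) (MvPolynomial.rename (alIdx hq) Q') ≠ 0 := by
    rw [hQ', ← MvPolynomial.map_rename, ← toC_aeval_genJ]
    exact fun h0 => hWQJ (Fermat.Agent.S24.helper17.toC_injective (by rw [h0, map_zero]))
  have H1 : IsEv (Fermat.Agent.S24.helper17.toC
      ((helper36.atkinLehner N q hq hqN h : modularFunctionFieldBar (N * q)) :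
        LaurentSeries Kbar))
      (fun w => evPC0 (N * q) (MvPolynomial.rename (alIdx hq) P') (ofComplex w) /
        evPC0 (N * q) (MvPolynomial.rename (alIdx hq) Q') (ofComplex w)) := by
    rw [e2]
    exact (isEv_of_isQExp (isQExp_evPC0 _)).div (isEv_of_isQExp (isQExp_evPC0 _)) hWQC
  -- comparison of the functions
  have hω := jfunDT_alNat_eq_mat_smul hq W
  refine H1.congr fun z hz => ?_
  have hz' : 0 < (moebG W.mat z).im := moebG_im_pos W.det_mat_pos hz
  have h3 := eventuallyEq_comp_moebG W.det_mat_pos hz (H0.unique hf hz')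
  have hH : ∀ᶠ w in 𝓝[≠] z, 0 < w.im :=
    mem_nhdsWithin_of_mem_nhds (UpperHalfPlane.isOpen_upperHalfPlaneSet.mem_nhds hz)
  filter_upwards [h3, hH] with w hw hwH
  rw [← hw, ofComplex_moebG_mat W hwH, evPC0_rename_alIdx hq hω, evPC0_rename_alIdx hq hω]

open Fermat.Agent.P3.helper16 Fermat.Agent.P3.helper20 Fermat.Agent.P3.helper94
open Fermat.Agent.P3

/-- The norm product along the one-coset system of `W` is the composition with `W`. -/
theorem normProd_systemW {M q : ℕ} (W : ALData M q) (g : ℂ → ℂ) (w : ℂ) :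
    normProd (systemW W) g w = g (moebG W.mat w) := by
  simp only [normProd, Fintype.prod_unique, systemW_α]

/-- **The dictionary for `W`** in the vocabulary of the analytic dictionary of `F_ℂ`. -/
theorem normDictW (hq : q.Prime) (hqN : ¬ q ∣ N) (W : ALData (N * q) q)
    (h : modularFunctionFieldBar (N * q)) :
    EqH ((helper48.anDictC (N * q)).ev (iotaFC (N * q) (helper36.atkinLehner N q hq hqN h)))
      (normProd (systemW W) ((helper48.anDictC (N * q)).ev (iotaFC (N * q) h))) := by
  rw [helper48.anDictC_ev]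
  have h1 : IsEv ((iotaFC (N * q) h : helper16.FC (N * q)) : LaurentSeries ℂ)
      (helper80.evC (N * q) (iotaFC (N * q) h)) :=
    helper48.isEv_of_represents (helper80.represents_evC (N := N * q) (iotaFC (N * q) h))
  have h2 : IsEv ((iotaFC (N * q) (helper36.atkinLehner N q hq hqN h) : helper16.FC (N * q)) :
      LaurentSeries ℂ)
      (helper80.evC (N * q) (iotaFC (N * q) (helper36.atkinLehner N q hq hqN h))) :=
    helper48.isEv_of_represents (helper80.represents_evC (N := N * q) _)
  have h3 := isEv_atkinLehner N q hq hqN W h (f := helper80.evC (N * q) (iotaFC (N * q) h)) h1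
  have e : normProd (systemW W) (helper80.evC (N * q) (iotaFC (N * q) h)) =
      fun w => helper80.evC (N * q) (iotaFC (N * q) h) (moebG W.mat w) :=
    funext fun w => normProd_systemW W _ w
  rw [e]
  exact fun z hz => h2.unique h3 hz

/-- The Kummer character of the function of `W_F h`. -/
theorem isKummerChar_of_isEv_atkinLehner (hq : q.Prime) (hqN : ¬ q ∣ N) (W : ALData (N * q) q)
    (h : modularFunctionFieldBar (N * q)) {f F : ℂ → ℂ}
    (hf : IsEv (Fermat.Agent.S24.helper17.toC (h : LaurentSeries Kbar)) f)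
    (hF : IsEv (Fermat.Agent.S24.helper17.toC
      ((helper36.atkinLehner N q hq hqN h : modularFunctionFieldBar (N * q)) :
        LaurentSeries Kbar)) F)
    {m : ℕ} {ψ : CongruenceSubgroup.Gamma0 (N * q) →* ℂˣ}
    (hψ : IsKummerChar (CongruenceSubgroup.Gamma0 (N * q)) m f ψ) :
    IsKummerChar (CongruenceSubgroup.Gamma0 (N * q)) m F (heckeChar (systemW W) ψ) := by
  refine (hψ.normProd (systemW W) (systemW_det_pos W)).congr fun z hz => ?_
  have e : normProd (systemW W) f = fun w => f (moebG W.mat w) :=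
    funext fun w => normProd_systemW W _ w
  rw [e]
  exact (isEv_atkinLehner N q hq hqN W h hf).unique hF hz

/-- **(B) for `W`**: equivariance of the analytic Kummer map for the Atkin–Lehner involution,
transported to `J₀(N q)`: if the conorm of `x` is `κC n ε` then the conorm of `W_F • x` is
`κC n (ε ∘ wTr W)`.  Here `κC` is ANY family of maps with monodromy `latPsi`, and `W` is ANY
Atkin–Lehner matrix at `q`. -/
theorem bridgeW (hq : q.Prime) (hqN : ¬ q ∣ N) (W : ALData (N * q) q) (p : ℕ) (hp : 0 < p)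
    (κC : ℕ → LatChar (N * q) →+ JC (N * q))
    (hκ : ∀ (n : ℕ) (ε : LatChar (N * q)),
      IsMonData (helper48.anDictC (N * q)) (p ^ n) (κC n ε) (latPsi (N * q) p n ε))
    (n : ℕ) (ε : LatChar (N * q)) (x : JZero (N * q)) (hx : conC (N * q) x = κC n ε) :
    conC (N * q) (helper36.atkinLehner N q hq hqN • x) = κC n (Wst W ε) := by
  have hm : 0 < p ^ n := pow_pos hp n
  have hx0 : p ^ n • x = 0 := by
    apply conC_injective (N * q)
    rw [map_nsmul, hx, (hκ n ε).nsmul_eq_zero, map_zero]
  obtain ⟨h, H⟩ := exists_isKummerRep hx0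
  have HC : IsKummerRep (p ^ n) (conC (N * q) x) (iotaFC (N * q) h) :=
    isKummerRep_conC (N * q) _ _ _ H
  have hmon : IsMonData (helper48.anDictC (N * q)) (p ^ n) (conC (N * q) x)
      (latPsi (N * q) p n ε) := by
    rw [hx]
    exact hκ n ε
  have hchar : IsKummerChar (CongruenceSubgroup.Gamma0 (N * q)) (p ^ n)
      ((helper48.anDictC (N * q)).ev (iotaFC (N * q) h)) (latPsi (N * q) p n ε) :=
    isKummerChar_of_isMonData hm hmon HC
  have HT : IsKummerRep (p ^ n) (helper36.atkinLehner N q hq hqN • x)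
      (helper36.atkinLehner N q hq hqN h) := H.algEquiv_smul _
  have HCT : IsKummerRep (p ^ n) (conC (N * q) (helper36.atkinLehner N q hq hqN • x))
      (iotaFC (N * q) (helper36.atkinLehner N q hq hqN h)) :=
    isKummerRep_conC (N * q) _ _ _ HT
  have hcharT : IsKummerChar (CongruenceSubgroup.Gamma0 (N * q)) (p ^ n)
      ((helper48.anDictC (N * q)).ev (iotaFC (N * q) (helper36.atkinLehner N q hq hqN h)))
      (latPsi (N * q) p n (Wst W ε)) := by
    have h1 := hchar.normProd (systemW W) (systemW_det_pos W)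
    rw [latPsi_heckeChar_systemW W p n ε] at h1
    exact h1.congr (normDictW N q hq hqN W h).symm
  have hmonT : IsMonData (helper48.anDictC (N * q)) (p ^ n)
      (conC (N * q) (helper36.atkinLehner N q hq hqN • x)) (latPsi (N * q) p n (Wst W ε)) :=
    isMonData_iff_exists_isKummerRep.mpr ⟨_, HCT, hcharT⟩
  exact hmonT.eq_of_eq hm (hκ n (Wst W ε))

end Dict

end Fermat.Agent.T2.helper17

end
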