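import Fermat.Agent.T2.helper5_EigenVecU
import Fermat.Agent.T2.helper17_DictWFun

/-!
# T2 [T2-DICT-EIG] (helper5): the eigenvector `(X)` of S35 for `U = uJ M q`, `W = W_q`

`eigenVecStatement_uJ_atkinLehner` : for a newform `g` of level `N`, a level `M = N₁ * q` with
`N ∣ M`, `q ∤ N₁`, `q ∥ N`, and ANY Tate datum with projections `D` at level `M`:
`helper76.EigenVecStatement D (ι ∘ χ_g) (uJ M q) (x ↦ W_q • x)`, where `W_q` is the Atkin–Lehner
automorphism `helper36.atkinLehner N₁ q` of the function field of `X₀(M)`.  This is the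
eigenvector half of `helper76.S35CoreStatement`, with the same `U`, `W` as
`helper15.frobCoreStatement_bad`.  (Glue of `eigenVecStatement_uJ` with helper17's `bridgeW`,
`wTr_apply_pair`.)
-/

set_option autoImplicit false

open ModularCurve CuspForm CongruenceSubgroup ModularFormClass

noncomputable section

namespace Fermat.Agent.T2.helper5

open Fermat.Agent.P3 Fermat.Agent.P3.helper16 Fermat.Agent.P3.helper20
  Fermat.Agent.T2.helper76 Fermat.Agent.T2.helper17
open scoped Fermat.Agent.S16.helper26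

variable {p : ℕ} [Fact p.Prime] {N : ℕ} [NeZero N] {S : Finset ℕ}

/-- **The eigenvector `(X)` of S35** at level `N₁ * q`, for `U_q` and the Atkin–Lehner
involution. -/
theorem eigenVecStatement_uJ_atkinLehner {g : CuspForm (Gamma0 N) 2} (hg : g.IsNewform)
    (N₁ : ℕ) [NeZero N₁] (q : Nat.Primes) (hqN₁ : ¬ (q : ℕ) ∣ N₁) {hNM : N ∣ N₁ * q}
    (D : helper67.TateGeom p N S (N₁ * q) hNM)
    {O' : Type} [CommRing O'] [IsDomain O'] [CharZero O'] [Algebra ℤ_[p] O']
    (chig : CuspForm.heckeAlgebra N 2 (↑S : Set ℕ) →+* ℂ)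
    (hchig : ∀ (ℓ : ℕ) (hℓ : ℓ.Prime) (hℓN : ¬ ℓ ∣ N) (hℓS : ℓ ∉ (↑S : Set ℕ)),
      chig (CuspForm.heckeAlgebra.T hℓ hℓN hℓS) = qCoeff g ℓ)
    (iota : chig.range →+* O')
    (hqN : (q : ℕ) ∣ N) (hq2 : ¬ (q : ℕ) ^ 2 ∣ N) (Wd : ALData (N₁ * q) q) :
    EigenVecStatement D (iota.comp chig.rangeRestrict) (Fermat.Agent.T2.helper48.uJ (N₁ * q) q)
      (DistribSMul.toAddMonoidHom (JZero (N₁ * q))
        (Fermat.Agent.T2.helper36.atkinLehner N₁ q q.2 hqN₁)) :=
  eigenVecStatement_uJ hg D chig hchig iota q hqN hq2 _ Wd (wTr Wd) (wTr_apply_pair Wd)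
    (fun κC hmon n ξ x hx =>
      bridgeW N₁ q q.2 hqN₁ Wd p (Fact.out : p.Prime).pos κC hmon n ξ x hx)

end Fermat.Agent.T2.helper5

end
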