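/-
TIER 2, [T2-WIRE34] (helper72): S34 from a Tate datum with unipotent inertia on the torsion.

* `det_eq_cyclo`  : **[DET-T]** the determinant of the representation of a Hecke-Galois datum is
  the `p`-adic cyclotomic character (Chebotarev + continuity).
* `charpoly_inertia_of_tateGeom` : if `D : TateGeom p N S M hNM` and every `σ` in an inertia
  group over `q ≠ p` satisfies `(σ - 1)² = 0` on the `p`-power torsion of `J₀(M)`, then
  `charpoly (H.ρ σ) = (X - 1)²` for every Hecke-Galois datum `H` of level `N` away from `S`.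
-/
import Fermat.Agent.P3.helper67_TateGeom
import Fermat.Agent.P3.helper64_TraceT
import Fermat.Agent.P3.helper40_Cheb
import Fermat.Agent.P3.helper24_Zp
import Fermat.Agent.P3.helper24_Cyclo
import Fermat.Agent.T2.helper72_Defs
import Fermat.Prelude.Def_GaloisRep_LocalConditions

set_option autoImplicit false
set_option linter.unusedSectionVars false
set_option linter.style.haveILetI false

open Polynomial

noncomputable section

namespace Fermat.Agent.T2.helper72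

open Fermat.Agent.P3 Fermat.Agent.P3.helper98 Fermat.Agent.P3.helper64 Fermat.Agent.P3.helper1

section Algebra

variable {R : Type*} [CommRing R] {V : Type*} [AddCommGroup V] [Module R V]
  [Module.Free R V] [Module.Finite R V]

/-- an endomorphism congruent to `1` modulo `I` has determinant congruent to `1` -/
lemma det_sub_one_mem (I : Ideal R) (f : Module.End R V)
    (h : ∀ v, f v - v ∈ I • (⊤ : Submodule R V)) : LinearMap.det f - 1 ∈ I := by
  classical
  set b := Module.Free.chooseBasis R V with hb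
  rw [← LinearMap.det_toMatrix b f]
  have hA : (Ideal.Quotient.mk I).mapMatrix (LinearMap.toMatrix b b f) = 1 := by
    ext i j
    rw [RingHom.mapMatrix_apply, Matrix.map_apply, LinearMap.toMatrix_apply, Matrix.one_apply]
    have h1 := repr_mem_of_mem_smul_top b I (h (b j)) i
    rw [map_sub, Finsupp.sub_apply, Module.Basis.repr_self, Finsupp.single_apply] at h1
    have h2 := (Ideal.Quotient.eq (I := I)).mpr h1
    rw [h2]
    by_cases hij : i = j
    · rw [if_pos hij, if_pos hij.symm, map_one]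
    · rw [if_neg hij, if_neg (fun h => hij h.symm), map_zero]
  have h3 : Ideal.Quotient.mk I (Matrix.det (LinearMap.toMatrix b b f)) = 1 := by
    rw [RingHom.map_det, hA, Matrix.det_one]
  rw [← Ideal.Quotient.eq, h3, map_one]

/-- in rank 2 the characteristic polynomial is `X² - tr X + det` -/
lemma charpoly_eq_of_finrank_two [Nontrivial R] (hV : Module.finrank R V = 2)
    (f : Module.End R V) :
    LinearMap.charpoly f = X ^ 2 - C (LinearMap.trace R V f) * X + C (LinearMap.det f) := by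
  classical
  let b : Module.Basis (Fin 2) R V := Module.finBasisOfFinrankEq R V hV
  rw [← LinearMap.charpoly_toMatrix f b, Matrix.charpoly_fin_two,
    LinearMap.trace_eq_matrix_trace R b f, LinearMap.det_toMatrix b f]

/-- in rank 2, `charpoly f = X² - a X + c` gives `det f = c` -/
lemma det_of_charpoly_eq [Nontrivial R] (hV : Module.finrank R V = 2) (f : Module.End R V)
    (a c : R) (h : LinearMap.charpoly f = X ^ 2 - C a * X + C c) : LinearMap.det f = c := by
  have h1 := charpoly_eq_of_finrank_two hV f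
  rw [h] at h1
  have h2 := congrArg (fun P : R[X] => P.coeff 0) h1
  simpa using h2.symm

end Algebra

section Det

/-- **[DET-T]**: a representation whose Frobenius lifts at almost all primes `ℓ` have determinant
`ℓ` has determinant the cyclotomic character. -/
theorem det_eq_cyclo (hCheb : ChebStatement) {p : ℕ} [Fact p.Prime]
    {T : Type} [CommRing T] [IsLocalRing T] [IsNoetherianRing T]
    (d : GQ →* Tˣ) (hdc : IsAdicContinuousChar d) (Bad : Finset ℕ)
    (hdφ : ∀ ℓ : ℕ, ℓ.Prime → ℓ ∉ Bad → ∀ A : ValuationSubring Qbar, A.LiesOverPrime ℓ →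
      ∀ φ : GQ, A.IsFrobeniusAt φ ℓ → (d φ : T) = (ℓ : T))
    (ρ : GaloisRepAdic T)
    (hρ : ∀ ℓ : ℕ, ℓ.Prime → ℓ ∉ Bad → ∀ A : ValuationSubring Qbar, A.LiesOverPrime ℓ →
      ∀ φ : GQ, A.IsFrobeniusAt φ ℓ → LinearMap.det (ρ.ρ φ) = (ℓ : T))
    (s : GQ) : LinearMap.det (ρ.ρ s) = (d s : T) := by
  rw [← sub_eq_zero]
  have hK := Ideal.iInf_pow_eq_bot_of_isLocalRing (IsLocalRing.maximalIdeal T)
    (Ideal.IsPrime.ne_top inferInstance)
  have hmem : LinearMap.det (ρ.ρ s) - (d s : T) ∈ ⨅ n : ℕ, IsLocalRing.maximalIdeal T ^ n := by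
    rw [Ideal.mem_iInf]
    intro n
    obtain ⟨L₁, hL₁, h₁⟩ := ρ.isAdicContinuous n
    obtain ⟨L₃, hL₃, h₃⟩ := hdc n
    have := hL₁
    have := hL₃
    obtain ⟨ℓ, hℓ, hℓBad, A, hA, φ, hφ, j, hj⟩ := hCheb (L₁ ⊔ L₃) inferInstance s Bad
    obtain ⟨g, hgdef⟩ : ∃ g : GQ, g = φ ^ j := ⟨_, rfl⟩
    rw [← hgdef] at hj
    obtain ⟨h, hhdef⟩ : ∃ h : GQ, h = g⁻¹ * s := ⟨_, rfl⟩
    have hs : s = g * h := by rw [hhdef, mul_inv_cancel_left]
    have hfix : ∀ x ∈ L₁ ⊔ L₃, h x = x := by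
      intro x hx
      rw [hhdef, AlgEquiv.mul_apply, ← hj x hx]
      exact AlgEquiv.symm_apply_apply g x
    have e1 : LinearMap.det (ρ.ρ h) - 1 ∈ IsLocalRing.maximalIdeal T ^ n :=
      det_sub_one_mem _ _ (h₁ h (fun x hx => hfix x (le_sup_left (a := L₁) hx)))
    have e2 : (d h : T) - 1 ∈ IsLocalRing.maximalIdeal T ^ n :=
      h₃ h (fun x hx => hfix x (le_sup_right (b := L₃) hx))
    have e3 : LinearMap.det (ρ.ρ g) = (d g : T) := by
      rw [hgdef, map_pow, map_pow, map_pow, Units.val_pow_eq_pow_val, hρ ℓ hℓ hℓBad A hA φ hφ,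
        hdφ ℓ hℓ hℓBad A hA φ hφ]
    have e4 : LinearMap.det (ρ.ρ s) - (d s : T) =
        (d g : T) * ((LinearMap.det (ρ.ρ h) - 1) - ((d h : T) - 1)) := by
      rw [hs, map_mul, map_mul, map_mul, Units.val_mul, e3]
      ring
    rw [e4]
    exact Ideal.mul_mem_left _ _ (Ideal.sub_mem _ e1 e2)
  rw [hK] at hmem
  exact hmem

end Det

section Main

/-- **[T2-WIRE34]**: unipotent inertia on the torsion of `J₀(M)` gives `charpoly = (X - 1)²` for
every Hecke-Galois datum of level `N ∣ M`. -/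
theorem charpoly_inertia_of_tateGeom
    (p : ℕ) [Fact p.Prime] (N : ℕ) [NeZero N] (S : Finset ℕ) (M : ℕ) [NeZero M] (hNM : N ∣ M)
    (D : Fermat.Agent.P3.helper67.TateGeom p N S M hNM)
    (q : ℕ) (hq : q.Prime) (hqp : q ≠ p)
    (A : ValuationSubring Qbar) (hA : A.LiesOverPrime q) (σ : GQ)
    (hσ : σ ∈ A.inertiaSubgroupIn ℚ)
    (hU : ∀ x : ModularCurve.JZero M, IsPTors p x → σ • σ • x - 2 • (σ • x) + x = 0)
    (𝒪 : Type) [CommRing 𝒪] [IsDomain 𝒪] [IsDiscreteValuationRing 𝒪]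
    [IsAdicComplete (IsLocalRing.maximalIdeal 𝒪) 𝒪]
    (hp𝒪 : (p : 𝒪) ∈ IsLocalRing.maximalIdeal 𝒪)
    (θ : CuspForm.heckeAlgebra N 2 (↑S : Set ℕ) →+* IsLocalRing.ResidueField 𝒪)
    (T : Type) [CommRing T] [IsLocalRing T] [IsNoetherianRing T]
    [IsAdicComplete (IsLocalRing.maximalIdeal T) T] [Algebra 𝒪 T]
    [IsLocalHom (algebraMap 𝒪 T)] [Module.Finite 𝒪 T] [Module.Free 𝒪 T]
    (H : CuspForm.HeckeGaloisRepDatum N (↑S : Set ℕ) 𝒪 θ T) :
    LinearMap.charpoly (H.ρ.ρ σ) = (X - 1) ^ 2 := by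
  have hCheb := Fermat.Agent.P3.helper40.chebStatement
  have hpp : p.Prime := Fact.out
  -- `p` lies in the maximal ideal of `T`
  have hpT : (p : T) ∈ IsLocalRing.maximalIdeal T := by
    rw [IsLocalRing.mem_maximalIdeal, mem_nonunits_iff]
    intro hu
    have h1 : IsUnit (algebraMap 𝒪 T (p : 𝒪)) := by rw [map_natCast]; exact hu
    have h2 : IsUnit (p : 𝒪) := IsUnit.of_map (algebraMap 𝒪 T) _ h1
    exact (IsLocalRing.mem_maximalIdeal _).mp hp𝒪 h2
  -- the cyclotomic characters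
  have hpZ : (p : ℤ_[p]) ∈ IsLocalRing.maximalIdeal ℤ_[p] := by
    rw [PadicInt.maximalIdeal_eq_span_p]
    exact Ideal.mem_span_singleton_self _
  obtain ⟨d, hd, hdc, hdloc, -⟩ := Fermat.Agent.P3.helper24.cyclo p ℤ_[p] hpZ
  obtain ⟨dT, hdT, hdTc, hdTloc, -⟩ := Fermat.Agent.P3.helper24.cyclo p T hpT
  -- the universal trace
  obtain ⟨t, ht⟩ := Fermat.Agent.P3.helper98.pseudoUniv hCheb p N S M hNM D.toTateDatum d hd hdc
  -- `T` is a `ℤ_p`-algebra
  obtain ⟨ι⟩ := Fermat.Agent.P3.helper24.zpAlgebra p T hpT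
  letI : Algebra ℤ_[p] T := ι.toAlgebra
  -- the map `𝔸 → T`
  let f : MvPolynomial (GoodPrime p M S) ℤ_[p] →ₐ[ℤ_[p]] D.𝔸 := MvPolynomial.aeval D.τ
  let g : MvPolynomial (GoodPrime p M S) ℤ_[p] →ₐ[ℤ_[p]] T :=
    MvPolynomial.aeval (fun ℓ => H.π (goodT hNM ℓ))
  have hsurj : Function.Surjective f := by
    rw [← AlgHom.range_eq_top]
    change (MvPolynomial.aeval D.τ).range = ⊤
    rw [← Algebra.adjoin_range_eq_range_aeval]
    exact D.adjoin_τ
  have hker : ∀ P ∈ RingHom.ker (f : MvPolynomial (GoodPrime p M S) ℤ_[p] →+* D.𝔸), g P = 0 := by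
    intro P hP
    exact D.faithful T H.π P hP
  let Θ : D.𝔸 →ₐ[ℤ_[p]] T :=
    (Ideal.Quotient.liftₐ (RingHom.ker (f : MvPolynomial (GoodPrime p M S) ℤ_[p] →+* D.𝔸)) g
      hker).comp (Ideal.quotientKerAlgEquivOfSurjective hsurj).symm.toAlgHom
  have hΘ : ∀ ℓ : GoodPrime p M S, Θ (D.τ ℓ) = H.π (goodT hNM ℓ) := by
    intro ℓ
    have h1 : (Ideal.quotientKerAlgEquivOfSurjective hsurj).symm (D.τ ℓ) =
        Ideal.Quotient.mk _ (MvPolynomial.X ℓ) := by
      rw [AlgEquiv.symm_apply_eq]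
      change D.τ ℓ = f (MvPolynomial.X ℓ)
      exact (MvPolynomial.aeval_X D.τ ℓ).symm
    change Ideal.Quotient.liftₐ _ g hker ((Ideal.quotientKerAlgEquivOfSurjective hsurj).symm
      (D.τ ℓ)) = _
    rw [h1]
    change g (MvPolynomial.X ℓ) = _
    exact MvPolynomial.aeval_X _ ℓ
  -- the trace formula
  have htr : ∀ s : GQ, LinearMap.trace T H.ρ.V (H.ρ.ρ s) = Θ (t s) := by
    refine trace_eq_of_tateDatum D.toTateDatum d t ht hCheb hd hdc hpT Θ H.ρ ?_
    intro ℓ A' hA' φ hφ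
    rw [hΘ]
    exact H.charpoly_frob ℓ.1 ℓ.2.1 (fun h => ℓ.2.2.1 (Dvd.dvd.mul_right (h.trans hNM) p))
      (fun h => ℓ.2.2.2 (Finset.mem_coe.mp h)) A' hA' φ hφ
  -- the determinant formula
  have hMp : M * p ≠ 0 := Nat.mul_ne_zero (NeZero.ne M) hpp.ne_zero
  have hdet : ∀ s : GQ, LinearMap.det (H.ρ.ρ s) = (dT s : T) := by
    refine det_eq_cyclo hCheb (p := p) dT hdTc (S ∪ (M * p).primeFactors) ?_ H.ρ ?_
    · intro ℓ hℓ hℓBad A' hA' φ hφ
      have hℓp : ℓ ≠ p := by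
        rintro rfl
        exact hℓBad (Finset.mem_union_right _
          (Nat.mem_primeFactors.mpr ⟨hℓ, Dvd.intro_left M rfl, hMp⟩))
      exact ((hdTloc ℓ hℓ hℓp A' hA').2 φ hφ)
    · intro ℓ hℓ hℓBad A' hA' φ hφ
      have hℓS : ℓ ∉ S := fun h => hℓBad (Finset.mem_union_left _ h)
      have hℓM : ¬ ℓ ∣ M * p := fun h =>
        hℓBad (Finset.mem_union_right _ (Nat.mem_primeFactors.mpr ⟨hℓ, h, hMp⟩))
      exact det_of_charpoly_eq H.ρ.finrank_eq _ _ _
        (H.charpoly_frob ℓ hℓ (fun h => hℓM (Dvd.dvd.mul_right (h.trans hNM) p))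
          (fun h => hℓS (Finset.mem_coe.mp h)) A' hA' φ hφ)
  -- the universal trace at `σ` is `2`
  have hdσ : d σ = 1 := (hdloc q hq hqp A hA).1 σ hσ
  have hdTσ : dT σ = 1 := (hdTloc q hq hqp A hA).1 σ hσ
  have hsq := D.sq_eq_zero_of_torsion σ hU
  have htσ : t σ = 2 := by
    have key : ∀ v : D.Λ, (t σ - 2) • v = 0 := by
      intro v
      -- apply the two relations to `w = r(σ⁻¹) v`
      set w := D.r σ⁻¹ v with hw
      have hrw : D.r σ w = v := r_inv_apply D.toTateDatum σ v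
      have h1 := ht σ w
      rw [hdσ, Units.val_one, one_smul, hrw] at h1
      have h2 : D.r σ v - (2 : ℤ_[p]) • v + w = 0 := by
        have := congrArg (fun E : Module.End ℤ_[p] D.Λ => E w) hsq
        simp only [Module.End.mul_apply, LinearMap.sub_apply, Module.End.one_apply,
          LinearMap.zero_apply, map_sub, hrw] at this
        rw [two_smul]
        rw [← this]
        abel
      have h3 : t σ • v = (2 : ℤ_[p]) • v := by
        have h4 : t σ • v - (2 : ℤ_[p]) • v =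
            (D.r σ v - (2 : ℤ_[p]) • v + w) - (D.r σ v - t σ • v + w) := by abel
        rw [h1, h2, sub_zero] at h4
        exact sub_eq_zero.mp h4
      rw [sub_smul, h3]
      have h5 : (2 : D.𝔸) • v = (2 : ℤ_[p]) • v := by
        rw [← algebraMap_smul D.𝔸 (2 : ℤ_[p]) v, map_ofNat]
      rw [h5, sub_self]
    exact sub_eq_zero.mp (D.smul_faithful _ key)
  haveI : Nontrivial T := inferInstance
  rw [charpoly_eq_of_finrank_two H.ρ.finrank_eq, htr, hdet, htσ, hdTσ, Units.val_one, map_ofNat]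
  simp only [map_ofNat, map_one]
  ring

/-- **S34 at one level**: the frozen statement S34 for `(N, S, p, q)` from a Tate datum (with
projections) of some level `M`, `N ∣ M`, and S34-CORE at `(M, q, p)`. -/
theorem isUnipotentOnInertiaAt_of_unipCore
    (p : ℕ) [Fact p.Prime] (N : ℕ) [NeZero N] (S : Finset ℕ) (M : ℕ) [NeZero M] (hNM : N ∣ M)
    (hD : Nonempty (Fermat.Agent.P3.helper67.TateGeom p N S M hNM))
    (q : ℕ) (hq : q.Prime) (hqp : q ≠ p)
    (hU : Fermat.Agent.T2.UnipCoreStatement M q p)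
    (𝒪 : Type) [CommRing 𝒪] [IsDomain 𝒪] [IsDiscreteValuationRing 𝒪]
    [IsAdicComplete (IsLocalRing.maximalIdeal 𝒪) 𝒪]
    (hp𝒪 : (p : 𝒪) ∈ IsLocalRing.maximalIdeal 𝒪)
    (θ : CuspForm.heckeAlgebra N 2 (↑S : Set ℕ) →+* IsLocalRing.ResidueField 𝒪)
    (T : Type) [CommRing T] [IsLocalRing T] [IsNoetherianRing T]
    [IsAdicComplete (IsLocalRing.maximalIdeal T) T] [Algebra 𝒪 T]
    [IsLocalHom (algebraMap 𝒪 T)] [Module.Finite 𝒪 T] [Module.Free 𝒪 T]
    (H : CuspForm.HeckeGaloisRepDatum N (↑S : Set ℕ) 𝒪 θ T) :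
    H.ρ.IsUnipotentOnInertiaAt q := by
  obtain ⟨D⟩ := hD
  intro A hA σ hσ
  exact charpoly_inertia_of_tateGeom p N S M hNM D q hq hqp A hA σ hσ
    (fun x hx => hU A hA σ hσ x hx) 𝒪 hp𝒪 θ T H

/-- **The geometric input of S34**: for every prime `q ≠ p` exactly dividing `N` there is a level
`M` with `N ∣ M` carrying a Tate datum with projections (P3 [TATE-GEOM]) and satisfying S34-CORE
(`(σ - 1)² = 0` on `J₀(M)[p^∞]` for `σ` in the inertia groups over `q`). -/
def S34GeomStatement : Prop :=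
  ∀ (p : ℕ) [Fact p.Prime] (N : ℕ) [NeZero N] (S : Finset ℕ), p ∈ S →
    (∀ q : ℕ, q.Prime → q ∣ N → q ∈ S) →
    ∀ q : ℕ, q.Prime → q ≠ p → q ∣ N → ¬ q ^ 2 ∣ N →
      ∃ (M : ℕ) (_ : NeZero M) (hNM : N ∣ M),
        Nonempty (Fermat.Agent.P3.helper67.TateGeom p N S M hNM) ∧
          Fermat.Agent.T2.UnipCoreStatement M q p

/-- **S34 from its geometric input** (statement of the frozen S34, verbatim binders). -/
theorem s34_of_geom (hGeom : S34GeomStatement)
    {𝒪 : Type} [CommRing 𝒪] [IsDomain 𝒪] [IsDiscreteValuationRing 𝒪]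
    [IsAdicComplete (IsLocalRing.maximalIdeal 𝒪) 𝒪] [Finite (IsLocalRing.ResidueField 𝒪)]
    [CharZero 𝒪]
    {p : ℕ} (hp : p.Prime) (hp𝒪 : (p : 𝒪) ∈ IsLocalRing.maximalIdeal 𝒪)
    {N : ℕ} [NeZero N] {S : Finset ℕ} (hpS : p ∈ S)
    (hNS : ∀ q : ℕ, q.Prime → q ∣ N → q ∈ S)
    {θ : CuspForm.heckeAlgebra N 2 (↑S : Set ℕ) →+* IsLocalRing.ResidueField 𝒪}
    {T : Type} [CommRing T] [IsLocalRing T] [IsNoetherianRing T]
    [IsAdicComplete (IsLocalRing.maximalIdeal T) T] [Algebra 𝒪 T] [IsLocalHom (algebraMap 𝒪 T)]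
    [Module.Finite 𝒪 T] [Module.Free 𝒪 T]
    (H : CuspForm.HeckeGaloisRepDatum N (↑S : Set ℕ) 𝒪 θ T)
    (q : ℕ) (hq : q.Prime) (hqp : q ≠ p) (hqN : q ∣ N) (hq2 : ¬ q ^ 2 ∣ N) :
    H.ρ.IsUnipotentOnInertiaAt q := by
  haveI : Fact p.Prime := ⟨hp⟩
  obtain ⟨M, hM, hNM, hD, hU⟩ := hGeom p N S hpS hNS q hq hqp hqN hq2
  haveI := hM
  exact isUnipotentOnInertiaAt_of_unipCore p N S M hNM hD q hq hqp hU 𝒪 hp𝒪 θ T H

end Main

end Fermat.Agent.T2.helper72

end
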