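/-
TIER 2 (helper76, task 801): the eigenvector input `(X)` of S35 (statement only).
-/
import Fermat.Agent.P3.helper67_TateGeom

set_option autoImplicit false

noncomputable section

namespace Fermat.Agent.T2.helper76

open Fermat.Agent.P3

/-- **(X)**, the eigenvector in the Tate module: a vector `x ≠ 0` of the Tate module `Λ` of
`J₀(M)` ITSELF (no extension of scalars) which is killed by the kernel of the eigensystem
`χ` (every polynomial in the `τ_ℓ` whose value at `χ(T_ℓ)` vanishes kills `x`) and whose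
projections to `J₀(M)[p^n]` are eigenvectors of `U` and `W` with eigenvalues `ε`, `δ`, where
`ε² = δ² = 1`. -/
def EigenVecStatement {p : ℕ} [Fact p.Prime] {N : ℕ} [NeZero N] {S : Finset ℕ} {M : ℕ}
    [NeZero M] {hNM : N ∣ M} (D : helper67.TateGeom p N S M hNM)
    {O' : Type} [CommRing O'] [Algebra ℤ_[p] O']
    (χ : CuspForm.heckeAlgebra N 2 (↑S : Set ℕ) →+* O')
    (U W : ModularCurve.JZero M →+ ModularCurve.JZero M) : Prop :=
  ∃ (x : D.Λ) (ε δ : ℤ), x ≠ 0 ∧ ε * ε = 1 ∧ δ * δ = 1 ∧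
    (∀ P : MvPolynomial (GoodPrime p M S) ℤ_[p],
      MvPolynomial.aeval (fun ℓ => χ (goodT hNM ℓ)) P = 0 → MvPolynomial.aeval D.τ P • x = 0) ∧
    ∀ n : ℕ, U (D.proj n x) = ε • D.proj n x ∧ W (D.proj n x) = δ • D.proj n x

end Fermat.Agent.T2.helper76

end
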