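import Mathlib

/-!
# Tier 2, [T2-WIRE-35], abstract part (helper76): the dichotomy inside the Tate module

Setting: `R` a noetherian domain (`ℤ_p`), `Λ` a finite free `R`-module (the Tate module), `𝔸` a
commutative `R`-algebra acting faithfully on `Λ` (the Hecke algebra), `Θ : 𝔸 →ₐ[R] O` an
eigensystem with values in a domain `O` containing `R`.

* `eval_eq_zero_of_smul_eq_zero` (**lemma K**): if `v ≠ 0` is killed by `ker Θ` and `z • v = 0`,
  then `Θ z = 0`.
* `eval_trace_sq_of_eigen` (**W35-ABS**): if `r` is an `𝔸`-linear endomorphism of `Λ` with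
  `r² - T r + q = 0` (`T ∈ 𝔸`), `x ≠ 0` is killed by `ker Θ`, `ε² = 1` and `y := r x - ε x`
  satisfies `r² y = q² y`, then `Θ(T)² = (q + 1)²`.
-/

set_option autoImplicit false

open Polynomial

namespace Fermat.Agent.T2.helper76

section Abs

variable {R : Type*} [CommRing R] [IsDomain R] [IsNoetherianRing R]
  {Λ : Type*} [AddCommGroup Λ] [Module R Λ] [Module.Free R Λ] [Module.Finite R Λ]
  {𝔸 : Type*} [CommRing 𝔸] [Algebra R 𝔸] [Module 𝔸 Λ] [IsScalarTower R 𝔸 Λ]
  {O : Type*} [CommRing O] [IsDomain O] [Algebra R O]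

/-- A commutative algebra acting faithfully on a finite free module over a noetherian ring is a
finite module. -/
theorem finite_of_faithful (hfaith : ∀ a : 𝔸, (∀ v : Λ, a • v = 0) → a = 0) :
    Module.Finite R 𝔸 := by
  have hinj : Function.Injective (Algebra.lsmul R R Λ : 𝔸 →ₐ[R] Module.End R Λ) := by
    rw [injective_iff_map_eq_zero]
    intro a ha
    refine hfaith a fun v => ?_
    have := congrArg (fun E : Module.End R Λ => E v) ha
    simpa using this
  exact Module.Finite.of_injective (Algebra.lsmul R R Λ : 𝔸 →ₐ[R] Module.End R Λ).toLinearMap hinj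

/-- **Lemma K**: a nonzero vector killed by `ker Θ` is only killed by `ker Θ`. -/
theorem eval_eq_zero_of_smul_eq_zero (hfaith : ∀ a : 𝔸, (∀ v : Λ, a • v = 0) → a = 0)
    (Θ : 𝔸 →ₐ[R] O) {v : Λ} (hv : v ≠ 0) (hker : ∀ a : 𝔸, Θ a = 0 → a • v = 0)
    {z : 𝔸} (hz : z • v = 0) : Θ z = 0 := by
  by_contra hne
  haveI : Module.Finite R 𝔸 := finite_of_faithful (Λ := Λ) hfaith
  have hint : IsIntegral R z := Algebra.IsIntegral.isIntegral z
  have halg : IsAlgebraic R (Θ z) := (hint.map Θ).isAlgebraic
  obtain ⟨P, hP0, hP⟩ := halg.exists_nonzero_coeff_and_aeval_eq_zero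
    (mem_nonZeroDivisors_of_ne_zero hne)
  obtain ⟨Q, hQ⟩ := X_dvd_sub_C (p := P)
  -- `P(z) = z * Q(z) + P(0)`
  have h1 : aeval z P = z * aeval z Q + algebraMap R 𝔸 (P.coeff 0) := by
    have := congrArg (aeval z) hQ
    rw [map_sub, map_mul, aeval_X, aeval_C] at this
    rw [← this]
    ring
  have h2 : Θ (aeval z P) = 0 := by
    rw [← Polynomial.aeval_algHom_apply]
    exact hP
  have h3 := hker _ h2
  rw [h1, add_smul, mul_comm, mul_smul, hz, smul_zero, zero_add, algebraMap_smul] at h3
  rcases smul_eq_zero.mp h3 with h4 | h4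
  · exact hP0 h4
  · exact hv h4

/-- **W35-ABS**: the dichotomy inside the Tate module. -/
theorem eval_trace_sq_of_eigen (hfaith : ∀ a : 𝔸, (∀ v : Λ, a • v = 0) → a = 0)
    (hinj : Function.Injective (algebraMap R O)) (Θ : 𝔸 →ₐ[R] O)
    (r : Module.End R Λ) (hr : ∀ (a : 𝔸) (v : Λ), r (a • v) = a • r v)
    (T : 𝔸) (q : R) (hq : q ≠ 0)
    (hquad : ∀ v : Λ, r (r v) - T • r v + q • v = 0)
    (ε : R) (hε : ε * ε = 1)
    (x : Λ) (hx : x ≠ 0) (hker : ∀ a : 𝔸, Θ a = 0 → a • x = 0)
    (hcore : r (r (r x - ε • x)) = (q * q) • (r x - ε • x)) :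
    Θ T * Θ T = (algebraMap R O q + 1) * (algebraMap R O q + 1) := by
  have hqO : algebraMap R O q ≠ 0 := fun h => hq (hinj (h.trans (map_zero _).symm))
  have hεO : algebraMap R O ε * algebraMap R O ε = 1 := by rw [← map_mul, hε, map_one]
  have hsm : ∀ (c : R) (v : Λ), algebraMap R 𝔸 c • v = c • v := fun c v => algebraMap_smul 𝔸 c v
  by_cases h0 : r x - ε • x = 0
  · -- `r x = ε x`
    have h1 : r x = ε • x := sub_eq_zero.mp h0
    have h2 := hquad x
    rw [h1, map_smul, h1, smul_smul, hε, one_smul] at h2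
    have h3 : (algebraMap R 𝔸 (1 + q) - T * algebraMap R 𝔸 ε) • x = 0 := by
      rw [sub_smul, hsm, mul_smul, hsm, add_smul, one_smul]
      rw [← h2]
      abel
    have h4 := eval_eq_zero_of_smul_eq_zero hfaith Θ hx hker h3
    rw [map_sub, map_mul, AlgHom.commutes, AlgHom.commutes, map_add, map_one] at h4
    have h5 : Θ T * algebraMap R O ε = 1 + algebraMap R O q := (sub_eq_zero.mp h4).symm
    calc Θ T * Θ T = (Θ T * algebraMap R O ε) * (Θ T * algebraMap R O ε) := by
          rw [mul_mul_mul_comm, hεO, mul_one]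
      _ = (algebraMap R O q + 1) * (algebraMap R O q + 1) := by rw [h5]; ring
  · -- `y := r x - ε x ≠ 0`
    set y := r x - ε • x with hy
    have hkery : ∀ a : 𝔸, Θ a = 0 → a • y = 0 := by
      intro a ha
      rw [hy, smul_sub, ← hr, smul_comm a ε x, hker a ha, smul_zero, map_zero, sub_zero]
    have h2 := hquad y
    rw [hcore] at h2
    -- `T r y = (q² + q) y`
    have h3 : T • r y = (q * q + q) • y := by
      rw [add_smul]
      have h4 : (q * q) • y + q • y - T • r y = 0 := by
        rw [← h2]; abel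
      exact (sub_eq_zero.mp h4).symm
    have h5 : T • r (T • r y) = (T * T * algebraMap R 𝔸 (q * q)) • y := by
      rw [hr, hcore, ← hsm (q * q) y, smul_smul, smul_smul]
    have h6 : T • r (T • r y) = algebraMap R 𝔸 ((q * q + q) * (q * q + q)) • y := by
      rw [h3, map_smul, smul_comm T (q * q + q) (r y), h3, smul_smul, hsm]
    have h7 : (T * T * algebraMap R 𝔸 (q * q) -
        algebraMap R 𝔸 ((q * q + q) * (q * q + q))) • y = 0 := by
      rw [sub_smul, ← h5, ← h6, sub_self]
    have h8 := eval_eq_zero_of_smul_eq_zero hfaith Θ h0 hkery h7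
    rw [map_sub, map_mul, map_mul, AlgHom.commutes, AlgHom.commutes] at h8
    have h9 : (Θ T * Θ T - (algebraMap R O q + 1) * (algebraMap R O q + 1)) *
        (algebraMap R O q * algebraMap R O q) = 0 := by
      have e : (Θ T * Θ T - (algebraMap R O q + 1) * (algebraMap R O q + 1)) *
          (algebraMap R O q * algebraMap R O q) =
          Θ T * Θ T * algebraMap R O (q * q) -
            algebraMap R O ((q * q + q) * (q * q + q)) := by
        simp only [map_mul, map_add]
        ring
      rw [e, h8]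
    rcases mul_eq_zero.mp h9 with h10 | h10
    · exact sub_eq_zero.mp h10
    · exact absurd (mul_self_eq_zero.mp h10) hqO

end Abs

end Fermat.Agent.T2.helper76
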