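/-
TIER 2, [T2-WIRE-35] (helper76, task 801): the frozen statement S35 from
* `StrongS30Statement` (P3: the `λ`-adic representation of a Hecke eigensystem, over `O'` itself),
* `S35GeomStatement`: at a prime `q ≠ p` exactly dividing the level, a Tate datum of some level
  `M` (`N ∣ M`) carrying a vector `x ≠ 0` killed by `ker Θ` such that every Frobenius lift `φ`
  at `q` satisfies `φ² y = q² y` for `y := φ x - ε x` (`ε² = 1`).

The split of `S35GeomStatement` into the eigenvector `(X)` and the torsion statement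
`FrobCoreStatement` (congruence relation at the bad prime + `φ² = q²` on the toric part) is
`s35Geom_of_core`.
-/
import Fermat.Agent.T2.helper72_Wire34
import Fermat.Agent.T2.helper76_Wire35Abs
import Fermat.Agent.T2.helper76_FrobCoreDefs
import Fermat.Agent.T2.helper76_EigenVecDefs
import Fermat.Agent.P3.Interface3
import Fermat.Prelude.Def_CuspForm_Newforms

set_option autoImplicit false
set_option linter.unusedSectionVars false
set_option linter.style.haveILetI false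

open Polynomial

noncomputable section

namespace Fermat.Agent.T2.helper76

open Fermat.Agent.P3 Fermat.Agent.P3.helper98 Fermat.Agent.P3.helper64 Fermat.Agent.P3.helper1

/-- **The geometric input of S35** (weakest form). -/
def S35GeomStatement : Prop :=
  ∀ {N : ℕ} [NeZero N] {g : CuspForm (CongruenceSubgroup.Gamma0 N) 2} (_hg : g.IsNewform)
    (p : ℕ) [Fact p.Prime] (S : Finset ℕ)
    (O' : Type) [CommRing O'] [IsDomain O'] [IsDiscreteValuationRing O']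
    [IsAdicComplete (IsLocalRing.maximalIdeal O') O'] [Finite (IsLocalRing.ResidueField O')]
    [CharZero O'] [Algebra ℤ_[p] O'] (_hpO' : (p : O') ∈ IsLocalRing.maximalIdeal O')
    (chig : CuspForm.heckeAlgebra N 2 (↑S : Set ℕ) →+* ℂ)
    (_hchig : ∀ (ℓ : ℕ) (hℓ : ℓ.Prime) (hℓN : ¬ ℓ ∣ N) (hℓS : ℓ ∉ (↑S : Set ℕ)),
      chig (CuspForm.heckeAlgebra.T hℓ hℓN hℓS) = ModularFormClass.qCoeff g ℓ)
    (iota : chig.range →+* O')
    (_hpS : p ∈ S) (_hNS : ∀ q : ℕ, q.Prime → q ∣ N → q ∈ S)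
    (q : ℕ) (_hq : q.Prime) (_hqp : q ≠ p) (_hqN : q ∣ N) (_hq2 : ¬ q ^ 2 ∣ N),
    ∃ (M : ℕ) (_ : NeZero M) (hNM : N ∣ M) (D : TateDatum p N S M hNM) (x : D.Λ) (ε : ℤ),
      x ≠ 0 ∧ ε * ε = 1 ∧
      (∀ P : MvPolynomial (GoodPrime p M S) ℤ_[p],
        MvPolynomial.aeval (fun ℓ => (iota.comp chig.rangeRestrict) (goodT hNM ℓ)) P = 0 →
          MvPolynomial.aeval D.τ P • x = 0) ∧
      (∀ A : ValuationSubring Qbar, A.LiesOverPrime q → ∀ φ : GQ, A.IsFrobeniusAt φ q →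
        D.r φ (D.r φ (D.r φ x - (ε : ℤ_[p]) • x)) =
          ((q : ℤ_[p]) * (q : ℤ_[p])) • (D.r φ x - (ε : ℤ_[p]) • x))

section Aux

/-- A ring homomorphism from `ℤ_p` to a domain of characteristic zero is injective. -/
theorem padicInt_injective_of_charZero {p : ℕ} [Fact p.Prime] {O : Type*} [CommRing O]
    [IsDomain O] [CharZero O] (f : ℤ_[p] →+* O) : Function.Injective f := by
  rw [injective_iff_map_eq_zero]
  intro x hx
  by_contra hne
  have h1 := PadicInt.unitCoeff_spec hne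
  rw [h1, map_mul, map_pow, map_natCast] at hx
  rcases mul_eq_zero.mp hx with h | h
  · exact (RingHom.isUnit_map f (Units.isUnit _)).ne_zero h
  · have h2 : (p : O) = 0 := eq_zero_of_pow_eq_zero h
    exact (Fact.out : p.Prime).ne_zero (Nat.cast_eq_zero.mp h2)

end Aux

section Main

set_option maxHeartbeats 1600000 in
/-- **[T2-WIRE-35], one Frobenius**: the bad-prime clause of S35 for a representation `ρ` over
`O'` with the good-prime characteristic polynomials of `χ`, from a Tate datum carrying a vector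
`x ≠ 0` killed by `ker Θ` with `φ² y = q² y`, `y = φ x - ε x`. -/
theorem charpoly_frobenius_of_tateDatum
    (p : ℕ) [Fact p.Prime] (N : ℕ) [NeZero N] (S : Finset ℕ) (M : ℕ) [NeZero M] (hNM : N ∣ M)
    (D : TateDatum p N S M hNM)
    (O' : Type) [CommRing O'] [IsDomain O'] [IsDiscreteValuationRing O']
    [IsAdicComplete (IsLocalRing.maximalIdeal O') O'] [CharZero O'] [Algebra ℤ_[p] O']
    (hpO' : (p : O') ∈ IsLocalRing.maximalIdeal O')
    (χ : CuspForm.heckeAlgebra N 2 (↑S : Set ℕ) →+* O')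
    (ρ : GaloisRepAdic O')
    (hρ : ∀ (ℓ : ℕ) (hℓ : ℓ.Prime) (hℓN : ¬ ℓ ∣ N) (hℓS : ℓ ∉ (↑S : Set ℕ)),
      ∀ A : ValuationSubring Qbar, A.LiesOverPrime ℓ →
        ∀ σ : GQ, A.IsFrobeniusAt σ ℓ →
          LinearMap.charpoly (ρ.ρ σ) =
            X ^ 2 - C (χ (CuspForm.heckeAlgebra.T hℓ hℓN hℓS)) * X + C ((ℓ : O')))
    (q : ℕ) (hq : q.Prime) (hqp : q ≠ p)
    (A : ValuationSubring Qbar) (hA : A.LiesOverPrime q) (φ : GQ) (hφ : A.IsFrobeniusAt φ q)
    (x : D.Λ) (ε : ℤ) (hx : x ≠ 0) (hε : ε * ε = 1)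
    (hKer : ∀ P : MvPolynomial (GoodPrime p M S) ℤ_[p],
      MvPolynomial.aeval (fun ℓ => χ (goodT hNM ℓ)) P = 0 → MvPolynomial.aeval D.τ P • x = 0)
    (hFrob : D.r φ (D.r φ (D.r φ x - (ε : ℤ_[p]) • x)) =
      ((q : ℤ_[p]) * (q : ℤ_[p])) • (D.r φ x - (ε : ℤ_[p]) • x)) :
    LinearMap.charpoly (ρ.ρ φ) = X ^ 2 - C ((q : O') + 1) * X + C ((q : O')) ∨
      LinearMap.charpoly (ρ.ρ φ) = X ^ 2 + C ((q : O') + 1) * X + C ((q : O')) := by
  have hCheb := Fermat.Agent.P3.helper40.chebStatement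
  have hpp : p.Prime := Fact.out
  -- the cyclotomic characters
  have hpZ : (p : ℤ_[p]) ∈ IsLocalRing.maximalIdeal ℤ_[p] := by
    rw [PadicInt.maximalIdeal_eq_span_p]
    exact Ideal.mem_span_singleton_self _
  obtain ⟨d, hd, hdc, hdloc, -⟩ := Fermat.Agent.P3.helper24.cyclo p ℤ_[p] hpZ
  obtain ⟨dT, hdT, hdTc, hdTloc, -⟩ := Fermat.Agent.P3.helper24.cyclo p O' hpO'
  -- the universal trace
  obtain ⟨t, ht⟩ := Fermat.Agent.P3.helper98.pseudoUniv hCheb p N S M hNM D d hd hdc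
  -- the map `𝔸 → O'`
  let f : MvPolynomial (GoodPrime p M S) ℤ_[p] →ₐ[ℤ_[p]] D.𝔸 := MvPolynomial.aeval D.τ
  let g : MvPolynomial (GoodPrime p M S) ℤ_[p] →ₐ[ℤ_[p]] O' :=
    MvPolynomial.aeval (fun ℓ => χ (goodT hNM ℓ))
  have hsurj : Function.Surjective f := by
    rw [← AlgHom.range_eq_top]
    change (MvPolynomial.aeval D.τ).range = ⊤
    rw [← Algebra.adjoin_range_eq_range_aeval]
    exact D.adjoin_τ
  have hker : ∀ P ∈ RingHom.ker (f : MvPolynomial (GoodPrime p M S) ℤ_[p] →+* D.𝔸), g P = 0 := by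
    intro P hP
    exact D.faithful O' χ P hP
  let Θ : D.𝔸 →ₐ[ℤ_[p]] O' :=
    (Ideal.Quotient.liftₐ (RingHom.ker (f : MvPolynomial (GoodPrime p M S) ℤ_[p] →+* D.𝔸)) g
      hker).comp (Ideal.quotientKerAlgEquivOfSurjective hsurj).symm.toAlgHom
  have hΘf : ∀ P : MvPolynomial (GoodPrime p M S) ℤ_[p], Θ (f P) = g P := by
    intro P
    have h1 : (Ideal.quotientKerAlgEquivOfSurjective hsurj).symm (f P) =
        Ideal.Quotient.mk _ P := by
      rw [AlgEquiv.symm_apply_eq]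
      rfl
    change Ideal.Quotient.liftₐ _ g hker ((Ideal.quotientKerAlgEquivOfSurjective hsurj).symm
      (f P)) = _
    rw [h1]
    rfl
  have hΘ : ∀ ℓ : GoodPrime p M S, Θ (D.τ ℓ) = χ (goodT hNM ℓ) := by
    intro ℓ
    have h1 : D.τ ℓ = f (MvPolynomial.X ℓ) := (MvPolynomial.aeval_X D.τ ℓ).symm
    rw [h1, hΘf]
    exact MvPolynomial.aeval_X _ ℓ
  -- `x` is killed by `ker Θ`
  have hkerx : ∀ a : D.𝔸, Θ a = 0 → a • x = 0 := by
    intro a ha
    obtain ⟨P, rfl⟩ := hsurj a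
    rw [hΘf] at ha
    exact hKer P ha
  -- the trace formula
  have htr : ∀ s : GQ, LinearMap.trace O' ρ.V (ρ.ρ s) = Θ (t s) := by
    refine trace_eq_of_tateDatum D d t ht hCheb hd hdc hpO' Θ ρ ?_
    intro ℓ A' hA' φ' hφ'
    rw [hΘ]
    exact hρ ℓ.1 ℓ.2.1 (fun h => ℓ.2.2.1 (Dvd.dvd.mul_right (h.trans hNM) p))
      (fun h => ℓ.2.2.2 (Finset.mem_coe.mp h)) A' hA' φ' hφ'
  -- the determinant formula
  have hMp : M * p ≠ 0 := Nat.mul_ne_zero (NeZero.ne M) hpp.ne_zero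
  have hdet : ∀ s : GQ, LinearMap.det (ρ.ρ s) = (dT s : O') := by
    refine Fermat.Agent.T2.helper72.det_eq_cyclo hCheb (p := p) dT hdTc
      (S ∪ (M * p).primeFactors) ?_ ρ ?_
    · intro ℓ hℓ hℓBad A' hA' φ' hφ'
      have hℓp : ℓ ≠ p := by
        rintro rfl
        exact hℓBad (Finset.mem_union_right _
          (Nat.mem_primeFactors.mpr ⟨hℓ, Dvd.intro_left M rfl, hMp⟩))
      exact ((hdTloc ℓ hℓ hℓp A' hA').2 φ' hφ')
    · intro ℓ hℓ hℓBad A' hA' φ' hφ'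
      have hℓS : ℓ ∉ S := fun h => hℓBad (Finset.mem_union_left _ h)
      have hℓM : ¬ ℓ ∣ M * p := fun h =>
        hℓBad (Finset.mem_union_right _ (Nat.mem_primeFactors.mpr ⟨hℓ, h, hMp⟩))
      exact Fermat.Agent.T2.helper72.det_of_charpoly_eq ρ.finrank_eq _ _ _
        (hρ ℓ hℓ (fun h => hℓM (Dvd.dvd.mul_right (h.trans hNM) p))
          (fun h => hℓS (Finset.mem_coe.mp h)) A' hA' φ' hφ')
  -- the values at `φ`
  have hdφ : (d φ : ℤ_[p]) = (q : ℤ_[p]) := (hdloc q hq hqp A hA).2 φ hφ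
  have hdTφ : (dT φ : O') = (q : O') := (hdTloc q hq hqp A hA).2 φ hφ
  have hinj : Function.Injective (algebraMap ℤ_[p] O') :=
    padicInt_injective_of_charZero (algebraMap ℤ_[p] O')
  have hq0 : (q : ℤ_[p]) ≠ 0 := Nat.cast_ne_zero.mpr hq.ne_zero
  have hquad : ∀ v : D.Λ, D.r φ (D.r φ v) - t φ • D.r φ v + (q : ℤ_[p]) • v = 0 := by
    intro v
    have := ht φ v
    rwa [hdφ] at this
  have hεZ : (ε : ℤ_[p]) * (ε : ℤ_[p]) = 1 := by
    rw [← Int.cast_mul, hε, Int.cast_one]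
  have key := eval_trace_sq_of_eigen (R := ℤ_[p]) (Λ := D.Λ) (𝔸 := D.𝔸) (O := O')
    D.smul_faithful hinj Θ (D.r φ) (fun a v => D.r_smul φ a v) (t φ) (q : ℤ_[p]) hq0 hquad
    (ε : ℤ_[p]) hεZ x hx hkerx hFrob
  rw [map_natCast] at key
  haveI : Nontrivial O' := inferInstance
  rw [Fermat.Agent.T2.helper72.charpoly_eq_of_finrank_two ρ.finrank_eq, htr, hdet, hdTφ]
  rcases mul_self_eq_mul_self_iff.mp key with h | h
  · left
    rw [h]
  · right
    rw [h, map_neg, neg_mul, sub_neg_eq_add]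

end Main

section Final

/-- **S35 from its geometric input** (statement of the frozen S35, verbatim binders). -/
theorem s35_of_geom (hS30 : StrongS30Statement) (hGeom : S35GeomStatement)
    {M : ℕ} [NeZero M] {g : CuspForm (CongruenceSubgroup.Gamma0 M) 2} (hg : g.IsNewform)
    (lam : ℕ) [Fact lam.Prime]
    (S : Finset ℕ)
    (O' : Type) [CommRing O'] [IsDomain O'] [IsDiscreteValuationRing O']
    [IsAdicComplete (IsLocalRing.maximalIdeal O') O'] [Finite (IsLocalRing.ResidueField O')]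
    [CharZero O'] (hlamO' : (lam : O') ∈ IsLocalRing.maximalIdeal O')
    (chig : CuspForm.heckeAlgebra M 2 (↑S : Set ℕ) →+* ℂ)
    (hchig : ∀ (ℓ : ℕ) (hℓ : ℓ.Prime) (hℓM : ¬ ℓ ∣ M) (hℓS : ℓ ∉ (↑S : Set ℕ)),
      chig (CuspForm.heckeAlgebra.T hℓ hℓM hℓS) = ModularFormClass.qCoeff g ℓ)
    (iota : chig.range →+* O')
    (hlamS : lam ∈ S) (hMS : ∀ q : ℕ, q.Prime → q ∣ M → q ∈ S)
    :
    ∃ (O'' : Type) (_ : CommRing O'') (_ : IsDomain O'') (_ : IsDiscreteValuationRing O'')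
      (_ : IsAdicComplete (IsLocalRing.maximalIdeal O'') O'') (_ : Finite (IsLocalRing.ResidueField O''))
      (_ : CharZero O'') (_ : Algebra O' O'') (_ : Module.Finite O' O'') (_ : IsLocalHom (algebraMap O' O'')),
      Function.Injective (algebraMap O' O'') ∧
      ∃ ρ : GaloisRepAdic O'',
        (∀ (ℓ : ℕ) (hℓ : ℓ.Prime) (hℓM : ¬ ℓ ∣ M) (hℓS : ℓ ∉ (↑S : Set ℕ)),
          ∀ A : ValuationSubring (AlgebraicClosure ℚ), A.LiesOverPrime ℓ →
            ∀ σ : AlgebraicClosure ℚ ≃ₐ[ℚ] AlgebraicClosure ℚ, A.IsFrobeniusAt σ ℓ →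
              LinearMap.charpoly (ρ.ρ σ) =
                X ^ 2 - C (algebraMap O' O'' ((iota.comp chig.rangeRestrict) (CuspForm.heckeAlgebra.T hℓ hℓM hℓS))) * X
                  + C ((ℓ : O''))) ∧
        (∀ q : ℕ, q.Prime → q ≠ lam → q ∣ M → ¬ q ^ 2 ∣ M →
          ∀ A : ValuationSubring (AlgebraicClosure ℚ), A.LiesOverPrime q →
            ∀ σ : AlgebraicClosure ℚ ≃ₐ[ℚ] AlgebraicClosure ℚ, A.IsFrobeniusAt σ q →
              LinearMap.charpoly (ρ.ρ σ) = X ^ 2 - C ((q : O'') + 1) * X + C ((q : O'')) ∨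
              LinearMap.charpoly (ρ.ρ σ) = X ^ 2 + C ((q : O'') + 1) * X + C ((q : O''))) := by
  obtain ⟨ρ, hρ1, -⟩ := hS30 lam M S hlamS hMS O' hlamO' (iota.comp chig.rangeRestrict)
  refine ⟨O', inferInstance, inferInstance, inferInstance, inferInstance, inferInstance,
    inferInstance, Algebra.id O', Module.Finite.self O', ?_, Function.injective_id, ρ, ?_, ?_⟩
  · exact isLocalHom_id O'
  · intro ℓ hℓ hℓM hℓS A hA σ hσ
    exact hρ1 ℓ hℓ hℓM hℓS A hA σ hσ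
  · intro q hq hqp hqM hq2 A hA σ hσ
    obtain ⟨ι⟩ := Fermat.Agent.P3.helper24.zpAlgebra lam O' hlamO'
    letI : Algebra ℤ_[lam] O' := ι.toAlgebra
    obtain ⟨M', hM', hNM, D, x, ε, hx, hε, hKer, hFrob⟩ :=
      hGeom hg lam S O' hlamO' chig hchig iota hlamS hMS q hq hqp hqM hq2
    haveI := hM'
    exact charpoly_frobenius_of_tateDatum lam M S M' hNM D O' hlamO'
      (iota.comp chig.rangeRestrict) ρ hρ1 q hq hqp A hA σ hσ x ε hx hε hKer
      (hFrob A hA σ hσ)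

end Final

section Core

/-- **The split geometric input of S35**: at a prime `q ≠ p` exactly dividing `N` there are a
level `M` (`N ∣ M`) with a Tate datum with projections (P3 [TATE-GEOM]) and two additive
endomorphisms `U`, `W` of `J₀(M)` (in nature `U_q` and the Atkin-Lehner involution `W_q`) with
the eigenvector `(X)` and S35-CORE. -/
def S35CoreStatement : Prop :=
  ∀ {N : ℕ} [NeZero N] {g : CuspForm (CongruenceSubgroup.Gamma0 N) 2} (_hg : g.IsNewform)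
    (p : ℕ) [Fact p.Prime] (S : Finset ℕ)
    (O' : Type) [CommRing O'] [IsDomain O'] [IsDiscreteValuationRing O']
    [IsAdicComplete (IsLocalRing.maximalIdeal O') O'] [Finite (IsLocalRing.ResidueField O')]
    [CharZero O'] [Algebra ℤ_[p] O'] (_hpO' : (p : O') ∈ IsLocalRing.maximalIdeal O')
    (chig : CuspForm.heckeAlgebra N 2 (↑S : Set ℕ) →+* ℂ)
    (_hchig : ∀ (ℓ : ℕ) (hℓ : ℓ.Prime) (hℓN : ¬ ℓ ∣ N) (hℓS : ℓ ∉ (↑S : Set ℕ)),
      chig (CuspForm.heckeAlgebra.T hℓ hℓN hℓS) = ModularFormClass.qCoeff g ℓ)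
    (iota : chig.range →+* O')
    (_hpS : p ∈ S) (_hNS : ∀ q : ℕ, q.Prime → q ∣ N → q ∈ S)
    (q : ℕ) (_hq : q.Prime) (_hqp : q ≠ p) (_hqN : q ∣ N) (_hq2 : ¬ q ^ 2 ∣ N),
    ∃ (M : ℕ) (_ : NeZero M) (hNM : N ∣ M) (D : helper67.TateGeom p N S M hNM)
      (U W : ModularCurve.JZero M →+ ModularCurve.JZero M),
      EigenVecStatement D (iota.comp chig.rangeRestrict) U W ∧ FrobCoreStatement M q p U W

/-- **Glue**: the eigenvector `(X)` and S35-CORE give the geometric input of S35. -/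
theorem s35Geom_of_core (h : S35CoreStatement) : S35GeomStatement := by
  intro N _ g hg p _ S O' _ _ _ _ _ _ _ hpO' chig hchig iota hpS hNS q hq hqp hqN hq2
  obtain ⟨M, hM, hNM, D, U, W, ⟨x, ε, δ, hx, hε, hδ, hKer, hUW⟩, hF⟩ :=
    h hg p S O' hpO' chig hchig iota hpS hNS q hq hqp hqN hq2
  haveI := hM
  refine ⟨M, hM, hNM, D.toTateDatum, x, ε, hx, hε, hKer, ?_⟩
  intro A hA φ hφ
  refine D.ext_proj fun n => ?_
  have hqq : ((q : ℤ_[p]) * (q : ℤ_[p])) = ((q * q : ℕ) : ℤ_[p]) := by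
    rw [Nat.cast_mul]
  rw [hqq, D.proj_natCast_smul, D.proj_r, D.proj_r, map_sub, D.proj_r, D.proj_intCast_smul]
  exact hF A hA φ hφ (D.proj n x) ⟨n, D.pow_smul_proj n x⟩ ε δ hε hδ (hUW n).1 (hUW n).2

/-- **S35 from the eigenvector `(X)` and S35-CORE** (frozen statement, verbatim binders). -/
theorem s35_of_core (hS30 : StrongS30Statement) (hCore : S35CoreStatement) :
    ∀ {M : ℕ} [NeZero M] {g : CuspForm (CongruenceSubgroup.Gamma0 M) 2} (_hg : g.IsNewform)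
    (lam : ℕ) [Fact lam.Prime]
    (S : Finset ℕ)
    (O' : Type) [CommRing O'] [IsDomain O'] [IsDiscreteValuationRing O']
    [IsAdicComplete (IsLocalRing.maximalIdeal O') O'] [Finite (IsLocalRing.ResidueField O')]
    [CharZero O'] (_hlamO' : (lam : O') ∈ IsLocalRing.maximalIdeal O')
    (chig : CuspForm.heckeAlgebra M 2 (↑S : Set ℕ) →+* ℂ)
    (_hchig : ∀ (ℓ : ℕ) (hℓ : ℓ.Prime) (hℓM : ¬ ℓ ∣ M) (hℓS : ℓ ∉ (↑S : Set ℕ)),
      chig (CuspForm.heckeAlgebra.T hℓ hℓM hℓS) = ModularFormClass.qCoeff g ℓ)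
    (iota : chig.range →+* O')
    (_hlamS : lam ∈ S) (_hMS : ∀ q : ℕ, q.Prime → q ∣ M → q ∈ S),
    ∃ (O'' : Type) (_ : CommRing O'') (_ : IsDomain O'') (_ : IsDiscreteValuationRing O'')
      (_ : IsAdicComplete (IsLocalRing.maximalIdeal O'') O'') (_ : Finite (IsLocalRing.ResidueField O''))
      (_ : CharZero O'') (_ : Algebra O' O'') (_ : Module.Finite O' O'') (_ : IsLocalHom (algebraMap O' O'')),
      Function.Injective (algebraMap O' O'') ∧
      ∃ ρ : GaloisRepAdic O'',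
        (∀ (ℓ : ℕ) (hℓ : ℓ.Prime) (hℓM : ¬ ℓ ∣ M) (hℓS : ℓ ∉ (↑S : Set ℕ)),
          ∀ A : ValuationSubring (AlgebraicClosure ℚ), A.LiesOverPrime ℓ →
            ∀ σ : AlgebraicClosure ℚ ≃ₐ[ℚ] AlgebraicClosure ℚ, A.IsFrobeniusAt σ ℓ →
              LinearMap.charpoly (ρ.ρ σ) =
                X ^ 2 - C (algebraMap O' O'' ((iota.comp chig.rangeRestrict) (CuspForm.heckeAlgebra.T hℓ hℓM hℓS))) * X
                  + C ((ℓ : O''))) ∧
        (∀ q : ℕ, q.Prime → q ≠ lam → q ∣ M → ¬ q ^ 2 ∣ M →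
          ∀ A : ValuationSubring (AlgebraicClosure ℚ), A.LiesOverPrime q →
            ∀ σ : AlgebraicClosure ℚ ≃ₐ[ℚ] AlgebraicClosure ℚ, A.IsFrobeniusAt σ q →
              LinearMap.charpoly (ρ.ρ σ) = X ^ 2 - C ((q : O'') + 1) * X + C ((q : O'')) ∨
              LinearMap.charpoly (ρ.ρ σ) = X ^ 2 + C ((q : O'') + 1) * X + C ((q : O''))) :=
  fun hg lam _ S O' _ _ _ _ _ _ hlamO' chig hchig iota hlamS hMS =>
    s35_of_geom hS30 (s35Geom_of_core hCore) hg lam S O' hlamO' chig hchig iota hlamS hMS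

end Core

end Fermat.Agent.T2.helper76

end
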