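/-
TIER 2, [T2-ASM-35] (helper76, task 840): the frozen statement S35 from S35-CORE at the
auxiliary levels `M = N' * q`, `N' = c * (N / q)`, `c = 9` for `q = 2` and `c = 4` for odd `q`
(`FrobCoreAtAuxLevels`, the output of [T2-CONG] + [T2-FROB]).

Everything else is unconditional and plugged in here: strong S30 (P3), the Tate data with
projections at the good levels (P3 + P2-CORE), the eigenvector `(X)` (helper5 + helper17 +
helper48: [T2-DICT-EIG], [T2-DICT-W], [T2-DICT-U]).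
-/
import Fermat.Agent.T2.helper76_Wire35
import Fermat.Agent.T2.helper34_WireS34
import Fermat.Agent.T2.helper5_EigenVecW
import Fermat.Agent.P3.helper32_P3Uncond

set_option autoImplicit false
set_option linter.unusedSectionVars false
set_option linter.style.haveILetI false

open Polynomial

noncomputable section

namespace Fermat.Agent.T2.helper76

open Fermat.Agent.P3

/-- **The open box** [T2-CONG + T2-FROB]: S35-CORE at the levels `N' * q`, `q ∤ N'`, `N'` good,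
for `U := helper48.uJ (N' * q) q` and `W :=` the action of `helper36.atkinLehner N' q` on
`J₀(N' q)`. -/
def FrobCoreAtAuxLevels : Prop :=
  ∀ (N' q : ℕ) [NeZero N'] [NeZero q] (hq : q.Prime) (hqN : ¬ q ∣ N') (p : ℕ), p.Prime →
    p ≠ q → (4 ∣ N' ∨ 9 ∣ N') →
      FrobCoreStatement (N' * q) q p (Fermat.Agent.T2.helper48.uJ (N' * q) q)
        (DistribSMul.toAddMonoidHom (ModularCurve.JZero (N' * q))
          (Fermat.Agent.T2.helper36.atkinLehner N' q hq hqN))

/-- The Tate data with projections at the good levels, unconditional. -/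
theorem tateGeomAtGoodLevels : Fermat.Agent.T2.helper34.TateGeomAtGoodLevels :=
  Fermat.Agent.T2.helper34.tateGeomAtGoodLevels_of_p2core fun M p _ hM hp =>
    Fermat.Agent.P3.helper32.p2core_of_cuspReg Fermat.Agent.P3.helper32.cuspRegAtGoodPairs
      M p hM hp

/-- The auxiliary level of S35 in the form `N' * q = c * N`. -/
theorem exists_auxLevel35 {N q : ℕ} [NeZero N] (hq : q.Prime) (hqN : q ∣ N)
    (hq2 : ¬ q ^ 2 ∣ N) :
    ∃ c N' : ℕ, N' ≠ 0 ∧ N' * q = c * N ∧ ¬ q ∣ N' ∧ (4 ∣ N' ∨ 9 ∣ N') ∧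
      GoodLevel (N' * q) := by
  obtain ⟨N₁, hN₁⟩ := hqN
  have hN₁0 : N₁ ≠ 0 := by
    rintro rfl
    exact NeZero.ne N (by rw [hN₁, mul_zero])
  have hqN₁ : ¬ q ∣ N₁ := by
    rintro ⟨k, hk⟩
    apply hq2
    rw [hN₁, hk]
    exact ⟨k, by ring⟩
  by_cases h2 : q = 2
  · refine ⟨9, 9 * N₁, Nat.mul_ne_zero (by norm_num) hN₁0, by rw [hN₁]; ring, ?_,
      Or.inr (Dvd.intro _ rfl), Or.inr ⟨N₁ * q, by ring⟩⟩
    intro h
    rcases (Nat.Prime.dvd_mul hq).mp h with h9 | h9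
    · rw [h2] at h9
      norm_num at h9
    · exact hqN₁ h9
  · refine ⟨4, 4 * N₁, Nat.mul_ne_zero (by norm_num) hN₁0, by rw [hN₁]; ring, ?_,
      Or.inl (Dvd.intro _ rfl), Or.inl ⟨N₁ * q, by ring⟩⟩
    intro h
    rcases (Nat.Prime.dvd_mul hq).mp h with h4 | h4
    · have h5 : q ∣ 2 ^ 2 := by norm_num; exact h4
      exact h2 ((Nat.prime_dvd_prime_iff_eq hq Nat.prime_two).mp (hq.dvd_of_dvd_pow h5))
    · exact hqN₁ h4

/-- **[T2-ASM-35]** the split geometric input of S35 from S35-CORE at the auxiliary levels. -/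
theorem s35Core_of_frobCore (hF : FrobCoreAtAuxLevels) : S35CoreStatement := by
  intro N _ g hg p _ S O' _ _ _ _ _ _ _ hpO' chig hchig iota hpS hNS q hq hqp hqN hq2
  have hp : p.Prime := Fact.out
  haveI : NeZero q := ⟨hq.ne_zero⟩
  obtain ⟨c, N', hN'0, hlevel, hqN', hN', hM⟩ := exists_auxLevel35 hq hqN hq2
  haveI : NeZero N' := ⟨hN'0⟩
  have hNM : N ∣ N' * q := ⟨c, by rw [hlevel]; ring⟩
  obtain ⟨D⟩ := tateGeomAtGoodLevels p N S (N' * q) hNM hpS hM
  have hcop : Nat.Coprime q N' := (Nat.Prime.coprime_iff_not_dvd hq).mpr hqN'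
  let Wd : ALData (N' * q) q := ALData.ofCoprime hq.ne_zero (mul_comm N' q) hcop
  exact ⟨N' * q, inferInstance, hNM, D, Fermat.Agent.T2.helper48.uJ (N' * q) q,
    DistribSMul.toAddMonoidHom (ModularCurve.JZero (N' * q))
      (Fermat.Agent.T2.helper36.atkinLehner N' q hq hqN'),
    Fermat.Agent.T2.helper5.eigenVecStatement_uJ_atkinLehner hg N' ⟨q, hq⟩ hqN' D chig hchig
      iota hqN hq2 Wd,
    hF N' q hq hqN' p hp (fun h => hqp h.symm) hN'⟩

/-- **S35 from S35-CORE at the auxiliary levels** (frozen statement, verbatim binders). -/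
theorem s35_of_frobCore (hF : FrobCoreAtAuxLevels)
    {M : ℕ} [NeZero M] {g : CuspForm (CongruenceSubgroup.Gamma0 M) 2} (hg : g.IsNewform)
    (lam : ℕ) [Fact lam.Prime]
    (S : Finset ℕ)
    (O' : Type) [CommRing O'] [IsDomain O'] [IsDiscreteValuationRing O']
    [IsAdicComplete (IsLocalRing.maximalIdeal O') O'] [Finite (IsLocalRing.ResidueField O')]
    [CharZero O'] (hlamO' : (lam : O') ∈ IsLocalRing.maximalIdeal O')
    (chig : CuspForm.heckeAlgebra M 2 (↑S : Set ℕ) →+* ℂ)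
    (hchig : ∀ (ℓ : ℕ) (hℓ : ℓ.Prime) (hℓM : ¬ ℓ ∣ M) (hℓS : ℓ ∉ (↑S : Set ℕ)),
      chig (CuspForm.heckeAlgebra.T hℓ hℓM hℓS) = ModularFormClass.qCoeff g ℓ)
    (iota : chig.range →+* O')
    (hlamS : lam ∈ S) (hMS : ∀ q : ℕ, q.Prime → q ∣ M → q ∈ S)
    :
    ∃ (O'' : Type) (_ : CommRing O'') (_ : IsDomain O'') (_ : IsDiscreteValuationRing O'')
      (_ : IsAdicComplete (IsLocalRing.maximalIdeal O'') O'') (_ : Finite (IsLocalRing.ResidueField O''))
      (_ : CharZero O'') (_ : Algebra O' O'') (_ : Module.Finite O' O'') (_ : IsLocalHom (algebraMap O' O'')),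
      Function.Injective (algebraMap O' O'') ∧
      ∃ ρ : GaloisRepAdic O'',
        (∀ (ℓ : ℕ) (hℓ : ℓ.Prime) (hℓM : ¬ ℓ ∣ M) (hℓS : ℓ ∉ (↑S : Set ℕ)),
          ∀ A : ValuationSubring (AlgebraicClosure ℚ), A.LiesOverPrime ℓ →
            ∀ σ : AlgebraicClosure ℚ ≃ₐ[ℚ] AlgebraicClosure ℚ, A.IsFrobeniusAt σ ℓ →
              LinearMap.charpoly (ρ.ρ σ) =
                X ^ 2 - C (algebraMap O' O'' ((iota.comp chig.rangeRestrict) (CuspForm.heckeAlgebra.T hℓ hℓM hℓS))) * X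
                  + C ((ℓ : O''))) ∧
        (∀ q : ℕ, q.Prime → q ≠ lam → q ∣ M → ¬ q ^ 2 ∣ M →
          ∀ A : ValuationSubring (AlgebraicClosure ℚ), A.LiesOverPrime q →
            ∀ σ : AlgebraicClosure ℚ ≃ₐ[ℚ] AlgebraicClosure ℚ, A.IsFrobeniusAt σ q →
              LinearMap.charpoly (ρ.ρ σ) = X ^ 2 - C ((q : O'') + 1) * X + C ((q : O'')) ∨
              LinearMap.charpoly (ρ.ρ σ) = X ^ 2 + C ((q : O'') + 1) * X + C ((q : O''))) :=
  s35_of_core Fermat.Agent.P3.helper32.strongS30 (s35Core_of_frobCore hF) hg lam S O' hlamO'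
    chig hchig iota hlamS hMS

end Fermat.Agent.T2.helper76

end
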