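/-
T2-VAL (helper36), part 3: the Gauss valuation `w₁` of `F_{Nℓ}` at a place `A ∣ ℓ`, `ℓ ∤ N`.

MAIN RESULTS
* `normalise`: every `f ≠ 0` of `F_{Nℓ}` has a constant `c ≠ 0` such that `f / c` and
  `W (f / c)` are both `w₁`-integral and one of the two reductions is nonzero
  (`W` = Atkin–Lehner involution; "`min (w₁, w₂) (f / c) = 0`").
* `exists_rhoIs_bad`, `scaleStatement_bad`: `helper29.ScaleStatement (N * ℓ) A`, VERBATIM
  (the Gauss valuation `w₁` of `F_{Nℓ}` has value group `v(ℚ̄ˣ)` and residue field `F̃_N`).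
* `bas_linearIndependent`, `exists_repr_bas`: the explicit basis `e₁, e₂ j_ℓ^i` of `F_{Nℓ}` over
  `F_N`, adapted to the two valuations.

PROOF.  `U = j - j_ℓ^ℓ`, `V = j_ℓ - j^ℓ = W U`, `D = U + V` (`W`-invariant), `red V = 0`,
`red U = red D = j̄ - j̄^(ℓ²) ≠ 0`; `e₁ = U / D`, `e₂ = V / D`; `b₀ = e₁`, `b_{i+1} = e₂ j_ℓ^i`.
For `f = ∑ α(a_i) b_i` scale the `a_i` (level `N`, `helper81.scaleStatement`) so that all
`a_i` are `w'`-integral and one is a unit; then `ρ₁(f) = ā₀`,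
`ρ₁(W f) = ∑_{i<ℓ} ā_{i+1}(q^ℓ) j̄^i`, and `frob_indep` applies.
-/
import Mathlib
import Fermat.Agent.P2.helper81_ValScale
import Fermat.Agent.P2.helper93_ESDegree
import Fermat.Agent.T2.helper36_AtkinLehner
import Fermat.Agent.T2.helper36_ValFrob

set_option autoImplicit false
set_option linter.unusedSectionVars false
set_option linter.unusedVariables false
set_option linter.style.haveILetI false

noncomputable section

open HahnSeries ModularCurve AlgebraicCurve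
open Fermat.Agent.S18.helper19 Fermat.Agent.P2.helper29 Fermat.Agent.S24 Fermat.Agent.P2

namespace Fermat.Agent.T2.helper36

/-! ### Scaling a finite family -/

section Family

variable {A : ValuationSubring Kb} {M : ℕ} [NeZero M]

theorem exists_scale_family (hS : ScaleStatement M A) {ι : Type*} [Fintype ι]
    (a : ι → LaurentSeries Kb) (ha : ∀ i, a i ∈ FF M) (hne : ∃ i, a i ≠ 0) :
    ∃ (c : Kb) (s : ι → LaurentSeries (kA A)), c ≠ 0 ∧
      (∀ i, RhoIs A M (algebraMap Kb (LaurentSeries Kb) c⁻¹ * a i) (s i)) ∧ ∃ i, s i ≠ 0 := by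
  classical
  have h1 : ∀ i, ∃ (c : Kb) (r : LaurentSeries (kA A)), c ≠ 0 ∧
      (a i ≠ 0 → r ≠ 0 ∧ RhoIs A M (algebraMap Kb (LaurentSeries Kb) c⁻¹ * a i) r) := by
    intro i
    by_cases hi : a i = 0
    · exact ⟨1, 0, one_ne_zero, fun h => absurd hi h⟩
    · obtain ⟨c, r, hc, hr, h⟩ := exists_rhoIs_of_scale hS (ha i) hi
      exact ⟨c, r, hc, fun _ => ⟨hr, h⟩⟩
  choose cf rf hcf hrf using h1
  set S : Finset ι := Finset.univ.filter fun i => a i ≠ 0 with hSdef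
  have hSne : S.Nonempty := by
    obtain ⟨i, hi⟩ := hne
    exact ⟨i, by simp [hSdef, hi]⟩
  obtain ⟨i₀, hi₀S, hmax⟩ := Finset.exists_max_image S (fun i => A.valuation (cf i)) hSne
  have hi₀ : a i₀ ≠ 0 := by simpa [hSdef] using hi₀S
  have hc0 : cf i₀ ≠ 0 := hcf i₀
  have hmem : ∀ i, a i ≠ 0 → cf i / cf i₀ ∈ A := by
    intro i hi
    rw [← ValuationSubring.valuation_le_one_iff, map_div₀]
    have hpos : 0 < A.valuation (cf i₀) := by
      rw [pos_iff_ne_zero]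
      exact (Valuation.ne_zero_iff _).2 hc0
    rw [div_le_one₀ hpos]
    exact hmax i (by simp [hSdef, hi])
  have h2 : ∀ i, ∃ s : LaurentSeries (kA A),
      RhoIs A M (algebraMap Kb (LaurentSeries Kb) (cf i₀)⁻¹ * a i) s ∧ (i = i₀ → s ≠ 0) := by
    intro i
    by_cases hi : a i = 0
    · refine ⟨0, ?_, fun h => absurd (h ▸ hi) hi₀⟩
      rw [hi, mul_zero]
      exact rhoIs_zero
    · obtain ⟨hr, h⟩ := hrf i hi
      have h' := h.smul_const (⟨cf i / cf i₀, hmem i hi⟩ : A)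
      have e : algebraMap Kb (LaurentSeries Kb) (cf i / cf i₀) *
          (algebraMap Kb (LaurentSeries Kb) (cf i)⁻¹ * a i) =
          algebraMap Kb (LaurentSeries Kb) (cf i₀)⁻¹ * a i := by
        rw [← mul_assoc, ← map_mul]
        congr 2
        field_simp [hcf i]
      rw [e] at h'
      refine ⟨_, h', ?_⟩
      rintro rfl
      have e1 : (⟨cf i / cf i, hmem i hi⟩ : A) = 1 := by
        apply Subtype.ext
        show cf i / cf i = 1
        exact div_self hc0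
      rw [e1, map_one, map_one, one_mul]
      exact hr
  choose s hs1 hs2 using h2
  exact ⟨cf i₀, s, hc0, hs1, i₀, hs2 i₀ rfl⟩

end Family

/-! ### The special series -/

section Series

variable (A : ValuationSubring Kb) (ℓ : ℕ) [NeZero ℓ]

/-- `U = j - j_ℓ^ℓ` -/
def serU : LaurentSeries A := jqModC A - (qExpand A ℓ (jqModC A)) ^ ℓ

/-- `V = j_ℓ - j^ℓ` -/
def serV : LaurentSeries A := qExpand A ℓ (jqModC A) - (jqModC A) ^ ℓ

/-- `D = U + V` -/
def serD : LaurentSeries A := serU A ℓ + serV A ℓ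

theorem red_jqModC_val : red A (jqModC A) = jqModC (kA A) := coeffMap_jqModC _

theorem red_qExpand_jqModC_val :
    red A (qExpand A ℓ (jqModC A)) = qExpand (kA A) ℓ (jqModC (kA A)) := by
  show coeffMap (IsLocalRing.residue A) (qExpand A ℓ (jqModC A)) = _
  rw [helper94.coeffMap_qExpand, coeffMap_jqModC]

theorem incl_jqModC_val : incl A (jqModC A) = jqModC Kb := coeffMap_jqModC _

theorem incl_qExpand_jqModC_val :
    incl A (qExpand A ℓ (jqModC A)) = qExpand Kb ℓ (jqModC Kb) := by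
  show coeffMap A.subtype (qExpand A ℓ (jqModC A)) = _
  rw [helper94.coeffMap_qExpand, coeffMap_jqModC]

variable {A ℓ}

/-- Frobenius: `j̄(q^ℓ) = j̄^ℓ` in characteristic `ℓ`. -/
theorem qExpand_jqModC_char (hℓ : ℓ.Prime) (hA : A.LiesOverPrime ℓ) :
    qExpand (kA A) ℓ (jqModC (kA A)) = (jqModC (kA A)) ^ ℓ := by
  haveI : Fact ℓ.Prime := ⟨hℓ⟩
  haveI : CharP (kA A) ℓ := helper81.charP_residueField A hA
  rw [helper94.laurent_pow_char ℓ, coeffMap_jqModC]

theorem red_serV (hℓ : ℓ.Prime) (hA : A.LiesOverPrime ℓ) : red A (serV A ℓ) = 0 := by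
  rw [serV, map_sub, map_pow, red_qExpand_jqModC_val, red_jqModC_val,
    qExpand_jqModC_char hℓ hA, sub_self]

theorem red_serU : red A (serU A ℓ) =
    jqModC (kA A) - (qExpand (kA A) ℓ (jqModC (kA A))) ^ ℓ := by
  rw [serU, map_sub, map_pow, red_qExpand_jqModC_val, red_jqModC_val]

theorem red_serU_ne_zero (hℓ : ℓ.Prime) : red A (serU A ℓ) ≠ 0 := by
  rw [red_serU]
  intro h
  have h1 : jqModC (kA A) = (qExpand (kA A) ℓ (jqModC (kA A))) ^ ℓ := sub_eq_zero.1 h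
  have h2 := congrArg HahnSeries.order h1
  rw [HahnSeries.order_pow, order_qExpand_val, order_jqModC_val] at h2
  have h3 : (ℓ : ℤ) * ℓ = 1 := by
    have : (-1 : ℤ) = ℓ • ((ℓ : ℤ) * -1) := h2
    simp only [nsmul_eq_mul] at this
    linarith
  have h4 : ℓ * ℓ = 1 := by exact_mod_cast h3
  have h5 := hℓ.two_le
  nlinarith

theorem red_serD (hℓ : ℓ.Prime) (hA : A.LiesOverPrime ℓ) :
    red A (serD A ℓ) = red A (serU A ℓ) := by
  rw [serD, map_add, red_serV hℓ hA, add_zero]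

variable (N : ℕ) [NeZero N]

theorem isInt_jqModC_val : IsInt A (N * ℓ) (jqModC A) := by
  have h := isGood_jqNModC (A := A) (N := N * ℓ) (d := 1) (one_dvd _)
  rw [jqNModC_one] at h
  exact isInt_of_isGood h

theorem isInt_qExpand_jqModC_val : IsInt A (N * ℓ) (qExpand A ℓ (jqModC A)) :=
  isInt_of_isGood (isGood_jqNModC (A := A) (N := N * ℓ) (d := ℓ) (Dvd.intro_left _ rfl))

theorem isInt_serU : IsInt A (N * ℓ) (serU A ℓ) :=
  (isInt_jqModC_val N).sub ((isInt_qExpand_jqModC_val N).pow ℓ)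

theorem isInt_serV : IsInt A (N * ℓ) (serV A ℓ) :=
  (isInt_qExpand_jqModC_val N).sub ((isInt_jqModC_val N).pow ℓ)

theorem isGood_serD (hℓ : ℓ.Prime) (hA : A.LiesOverPrime ℓ) : IsGood A (N * ℓ) (serD A ℓ) :=
  IsInt.isGood (Y := serD A ℓ) ((isInt_serU N).add (isInt_serV N))
    (by rw [red_serD hℓ hA]; exact red_serU_ne_zero hℓ)

/-- `ρ₁(e₁) = 1` -/
theorem rhoIs_e₁ (hℓ : ℓ.Prime) (hA : A.LiesOverPrime ℓ) :
    RhoIs A (N * ℓ) (incl A (serU A ℓ) / incl A (serD A ℓ)) 1 := by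
  have h := rhoIs_quot (isInt_serU (A := A) (ℓ := ℓ) N) (isGood_serD N hℓ hA)
  rwa [red_serD hℓ hA, div_self (red_serU_ne_zero hℓ)] at h

/-- `ρ₁(e₂) = 0` -/
theorem rhoIs_e₂ (hℓ : ℓ.Prime) (hA : A.LiesOverPrime ℓ) :
    RhoIs A (N * ℓ) (incl A (serV A ℓ) / incl A (serD A ℓ)) 0 := by
  have h := rhoIs_quot (isInt_serV (A := A) (ℓ := ℓ) N) (isGood_serD N hℓ hA)
  rwa [red_serV hℓ hA, zero_div] at h

theorem rhoIs_j : RhoIs A (N * ℓ) (jqModC Kb) (jqModC (kA A)) := by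
  have h := rhoIs_incl (isInt_jqModC_val (A := A) (ℓ := ℓ) N)
  rwa [incl_jqModC_val, red_jqModC_val] at h

theorem rhoIs_jl : RhoIs A (N * ℓ) (qExpand Kb ℓ (jqModC Kb))
    (qExpand (kA A) ℓ (jqModC (kA A))) := by
  have h := rhoIs_incl (isInt_qExpand_jqModC_val (A := A) (ℓ := ℓ) N)
  rwa [incl_qExpand_jqModC_val, red_qExpand_jqModC_val] at h

end Series

/-! ### The elements of `F_{Nℓ}` and the Atkin–Lehner involution -/

section Elements

variable (N ℓ : ℕ) [NeZero N] [NeZero ℓ]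

/-- `j` as an element of `F_{Nℓ}` -/
def elJ : FN (N * ℓ) := heckeAlphaBar Kb N ℓ (xJ N)

/-- `j_ℓ = j(q^ℓ)` as an element of `F_{Nℓ}` -/
def elJl : FN (N * ℓ) := heckeBetaBar Kb N ℓ (xJ N)

theorem coe_elJ : ((elJ N ℓ : FN (N * ℓ)) : LaurentSeries Kb) = jqModC Kb := by
  rw [elJ, coe_heckeAlphaBar]
  exact helper81.coe_xJ_eq N

theorem coe_elJl : ((elJl N ℓ : FN (N * ℓ)) : LaurentSeries Kb) = qExpand Kb ℓ (jqModC Kb) := by
  rw [elJl, coe_heckeBetaBar]
  exact congrArg _ (helper81.coe_xJ_eq N)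

/-- `U = j - j_ℓ^ℓ` -/
def elU : FN (N * ℓ) := elJ N ℓ - elJl N ℓ ^ ℓ

/-- `V = j_ℓ - j^ℓ` -/
def elV : FN (N * ℓ) := elJl N ℓ - elJ N ℓ ^ ℓ

/-- `D = U + V` -/
def elD : FN (N * ℓ) := elU N ℓ + elV N ℓ

theorem coe_elU (A : ValuationSubring Kb) :
    ((elU N ℓ : FN (N * ℓ)) : LaurentSeries Kb) = incl A (serU A ℓ) := by
  rw [elU, serU, map_sub, map_pow, incl_jqModC_val, incl_qExpand_jqModC_val]
  push_cast
  rw [coe_elJ, coe_elJl]

theorem coe_elV (A : ValuationSubring Kb) :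
    ((elV N ℓ : FN (N * ℓ)) : LaurentSeries Kb) = incl A (serV A ℓ) := by
  rw [elV, serV, map_sub, map_pow, incl_jqModC_val, incl_qExpand_jqModC_val]
  push_cast
  rw [coe_elJ, coe_elJl]

theorem coe_elD (A : ValuationSubring Kb) :
    ((elD N ℓ : FN (N * ℓ)) : LaurentSeries Kb) = incl A (serD A ℓ) := by
  rw [elD, serD, map_add, ← coe_elU N ℓ A, ← coe_elV N ℓ A]
  push_cast
  rfl

/-- the basis `e₁, e₂, e₂ j_ℓ, …, e₂ j_ℓ^(ℓ-1)` of `F_{Nℓ}` over `F_N` -/
def bas : Fin (ℓ + 1) → FN (N * ℓ) :=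
  Fin.cons (elU N ℓ / elD N ℓ) fun i : Fin ℓ => elV N ℓ / elD N ℓ * elJl N ℓ ^ (i : ℕ)

/-- the image of the basis under `W` -/
def basW : Fin (ℓ + 1) → FN (N * ℓ) :=
  Fin.cons (elV N ℓ / elD N ℓ) fun i : Fin ℓ => elU N ℓ / elD N ℓ * elJ N ℓ ^ (i : ℕ)

@[simp] theorem bas_zero : bas N ℓ 0 = elU N ℓ / elD N ℓ := rfl

@[simp] theorem bas_succ (i : Fin ℓ) :
    bas N ℓ i.succ = elV N ℓ / elD N ℓ * elJl N ℓ ^ (i : ℕ) := rfl

@[simp] theorem basW_zero : basW N ℓ 0 = elV N ℓ / elD N ℓ := rfl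

@[simp] theorem basW_succ (i : Fin ℓ) :
    basW N ℓ i.succ = elU N ℓ / elD N ℓ * elJ N ℓ ^ (i : ℕ) := rfl

variable (hℓ : ℓ.Prime) (hℓN : ¬ ℓ ∣ N)

theorem atkinLehner_elJ : atkinLehner N ℓ hℓ hℓN (elJ N ℓ) = elJl N ℓ :=
  atkinLehner_heckeAlphaBar N ℓ hℓ hℓN _

theorem atkinLehner_elJl : atkinLehner N ℓ hℓ hℓN (elJl N ℓ) = elJ N ℓ :=
  atkinLehner_heckeBetaBar N ℓ hℓ hℓN _

theorem atkinLehner_elU : atkinLehner N ℓ hℓ hℓN (elU N ℓ) = elV N ℓ := by
  rw [elU, elV, map_sub, map_pow, atkinLehner_elJ, atkinLehner_elJl]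

theorem atkinLehner_elV : atkinLehner N ℓ hℓ hℓN (elV N ℓ) = elU N ℓ := by
  rw [elU, elV, map_sub, map_pow, atkinLehner_elJ, atkinLehner_elJl]

theorem atkinLehner_elD : atkinLehner N ℓ hℓ hℓN (elD N ℓ) = elD N ℓ := by
  rw [elD, map_add, atkinLehner_elU, atkinLehner_elV, add_comm]

theorem atkinLehner_bas (i : Fin (ℓ + 1)) :
    atkinLehner N ℓ hℓ hℓN (bas N ℓ i) = basW N ℓ i := by
  refine Fin.cases ?_ (fun i => ?_) i
  · rw [bas_zero, basW_zero, map_div₀, atkinLehner_elU, atkinLehner_elD]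
  · rw [bas_succ, basW_succ, map_mul, map_div₀, map_pow, atkinLehner_elV, atkinLehner_elD,
      atkinLehner_elJl]

variable {N ℓ} (A : ValuationSubring Kb) (hA : A.LiesOverPrime ℓ)

include hℓ hA

theorem rhoIs_bas_zero :
    RhoIs A (N * ℓ) ((bas N ℓ 0 : FN (N * ℓ)) : LaurentSeries Kb) 1 := by
  rw [bas_zero]
  push_cast
  rw [coe_elU N ℓ A, coe_elD N ℓ A]
  exact rhoIs_e₁ N hℓ hA

theorem rhoIs_bas_succ (i : Fin ℓ) :
    RhoIs A (N * ℓ) ((bas N ℓ i.succ : FN (N * ℓ)) : LaurentSeries Kb) 0 := by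
  rw [bas_succ]
  push_cast
  rw [coe_elV N ℓ A, coe_elD N ℓ A, coe_elJl]
  have h := (rhoIs_e₂ N hℓ hA).mul ((rhoIs_jl (A := A) (ℓ := ℓ) N).pow (i : ℕ))
  rwa [zero_mul] at h

theorem rhoIs_basW_zero :
    RhoIs A (N * ℓ) ((basW N ℓ 0 : FN (N * ℓ)) : LaurentSeries Kb) 0 := by
  rw [basW_zero]
  push_cast
  rw [coe_elV N ℓ A, coe_elD N ℓ A]
  exact rhoIs_e₂ N hℓ hA

theorem rhoIs_basW_succ (i : Fin ℓ) :
    RhoIs A (N * ℓ) ((basW N ℓ i.succ : FN (N * ℓ)) : LaurentSeries Kb)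
      (jqModC (kA A) ^ (i : ℕ)) := by
  rw [basW_succ]
  push_cast
  rw [coe_elU N ℓ A, coe_elD N ℓ A, coe_elJ]
  have h := (rhoIs_e₁ N hℓ hA).mul ((rhoIs_j (A := A) (ℓ := ℓ) N).pow (i : ℕ))
  rwa [one_mul] at h

end Elements

/-! ### The normalisation lemma -/

section Normalise

variable {N ℓ : ℕ} [NeZero N] [NeZero ℓ] (hℓ : ℓ.Prime) (hℓN : ¬ ℓ ∣ N)
  (A : ValuationSubring Kb) (hA : A.LiesOverPrime ℓ)

include hℓ hℓN hA

/-- **Normalisation, family form.**  For `a₀, …, a_ℓ ∈ F_N`, not all zero, there is a constant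
`c ≠ 0` such that `f / c` and `W (f / c)` are `w₁`-integral, `f = ∑ α(a_i) b_i`, and one of the
two reductions is nonzero. -/
theorem normalise_family (a : Fin (ℓ + 1) → FN N) (ha : ∃ i, a i ≠ 0) :
    ∃ (c : Kb) (r₁ r₂ : LaurentSeries (kA A)), c ≠ 0 ∧ (r₁ ≠ 0 ∨ r₂ ≠ 0) ∧
      RhoIs A (N * ℓ) (algebraMap Kb (LaurentSeries Kb) c⁻¹ *
        ((∑ i, heckeAlphaBar Kb N ℓ (a i) * bas N ℓ i : FN (N * ℓ)) : LaurentSeries Kb)) r₁ ∧
      RhoIs A (N * ℓ) (algebraMap Kb (LaurentSeries Kb) c⁻¹ *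
        ((atkinLehner N ℓ hℓ hℓN (∑ i, heckeAlphaBar Kb N ℓ (a i) * bas N ℓ i) : FN (N * ℓ)) :
          LaurentSeries Kb)) r₂ := by
  have hS : ScaleStatement N A := helper81.scaleStatement N A ⟨ℓ, hℓ, hℓN, hA⟩
  obtain ⟨c, s, hc, hs, i₁, hi₁⟩ := exists_scale_family hS
    (fun i => ((a i : FN N) : LaurentSeries Kb)) (fun i => (a i).2)
    (by
      obtain ⟨i, hi⟩ := ha
      exact ⟨i, fun h => hi (Subtype.ext h)⟩)
  refine ⟨c, s 0, ∑ i : Fin ℓ, qExpand (kA A) ℓ (s i.succ) * jqModC (kA A) ^ (i : ℕ), hc, ?_,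
    ?_, ?_⟩
  · by_cases h0 : s 0 = 0
    · right
      intro hsum
      have hall := frob_indep ℓ (fun i : Fin ℓ => s i.succ) hsum
      revert hi₁
      refine Fin.cases ?_ (fun i => ?_) i₁
      · exact fun h => h h0
      · exact fun h => h (hall i)
    · exact Or.inl h0
  · -- the reduction of `f / c`
    have e : algebraMap Kb (LaurentSeries Kb) c⁻¹ *
        ((∑ i, heckeAlphaBar Kb N ℓ (a i) * bas N ℓ i : FN (N * ℓ)) : LaurentSeries Kb) =
        ∑ i, (algebraMap Kb (LaurentSeries Kb) c⁻¹ * ((a i : FN N) : LaurentSeries Kb)) *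
          ((bas N ℓ i : FN (N * ℓ)) : LaurentSeries Kb) := by
      rw [IntermediateField.coe_sum, Finset.mul_sum]
      refine Finset.sum_congr rfl fun i _ => ?_
      rw [IntermediateField.coe_mul, coe_heckeAlphaBar, mul_assoc]
    rw [e]
    have hsum := RhoIs.sum (A := A) (M := N * ℓ) Finset.univ
      (f := fun i => (algebraMap Kb (LaurentSeries Kb) c⁻¹ * ((a i : FN N) : LaurentSeries Kb)) *
          ((bas N ℓ i : FN (N * ℓ)) : LaurentSeries Kb))
      (r := fun i : Fin (ℓ + 1) => s i * (Fin.cons 1 (fun _ => 0) : Fin (ℓ + 1) →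
        LaurentSeries (kA A)) i)
      (by
        intro i _
        refine Fin.cases ?_ (fun j => ?_) i
        · exact ((hs 0).of_level ℓ).mul (rhoIs_bas_zero hℓ A hA)
        · exact ((hs j.succ).of_level ℓ).mul (rhoIs_bas_succ hℓ A hA j))
    have e2 : (∑ i : Fin (ℓ + 1), s i * (Fin.cons 1 (fun _ => 0) : Fin (ℓ + 1) →
        LaurentSeries (kA A)) i) = s 0 := by
      rw [Fin.sum_univ_succ]
      simp
    rw [e2] at hsum
    exact hsum
  · -- the reduction of `W (f / c)`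
    have e : algebraMap Kb (LaurentSeries Kb) c⁻¹ *
        ((atkinLehner N ℓ hℓ hℓN (∑ i, heckeAlphaBar Kb N ℓ (a i) * bas N ℓ i) : FN (N * ℓ)) :
          LaurentSeries Kb) =
        ∑ i, qExpand Kb ℓ (algebraMap Kb (LaurentSeries Kb) c⁻¹ *
          ((a i : FN N) : LaurentSeries Kb)) *
          ((basW N ℓ i : FN (N * ℓ)) : LaurentSeries Kb) := by
      rw [map_sum, IntermediateField.coe_sum, Finset.mul_sum]
      refine Finset.sum_congr rfl fun i _ => ?_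
      rw [map_mul, atkinLehner_heckeAlphaBar, atkinLehner_bas, IntermediateField.coe_mul,
        coe_heckeBetaBar, map_mul, mul_assoc]
      congr 1
      rw [algebraMap_laurentSeries_eq_single, qExpand_single, mul_zero]
    rw [e]
    have hsum := RhoIs.sum (A := A) (M := N * ℓ) Finset.univ
      (f := fun i => qExpand Kb ℓ (algebraMap Kb (LaurentSeries Kb) c⁻¹ *
          ((a i : FN N) : LaurentSeries Kb)) * ((basW N ℓ i : FN (N * ℓ)) : LaurentSeries Kb))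
      (r := fun i : Fin (ℓ + 1) => qExpand (kA A) ℓ (s i) *
        (Fin.cons 0 (fun j : Fin ℓ => jqModC (kA A) ^ (j : ℕ)) : Fin (ℓ + 1) →
          LaurentSeries (kA A)) i)
      (by
        intro i _
        refine Fin.cases ?_ (fun j => ?_) i
        · exact ((hs 0).qExpand_level ℓ).mul (rhoIs_basW_zero hℓ A hA)
        · exact ((hs j.succ).qExpand_level ℓ).mul (rhoIs_basW_succ hℓ A hA j))
    have e2 : (∑ i : Fin (ℓ + 1), qExpand (kA A) ℓ (s i) *
        (Fin.cons 0 (fun j : Fin ℓ => jqModC (kA A) ^ (j : ℕ)) : Fin (ℓ + 1) →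
          LaurentSeries (kA A)) i) =
        ∑ i : Fin ℓ, qExpand (kA A) ℓ (s i.succ) * jqModC (kA A) ^ (i : ℕ) := by
      rw [Fin.sum_univ_succ]
      simp
    rw [e2] at hsum
    exact hsum

/-- the family `b₀, …, b_ℓ` is linearly independent over `F_N` -/
theorem bas_linearIndependent :
    letI := algebraAlong (heckeAlphaBar Kb N ℓ)
    LinearIndependent (FN N) (bas N ℓ) := by
  letI := algebraAlong (heckeAlphaBar Kb N ℓ)
  rw [Fintype.linearIndependent_iff]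
  intro g hg
  by_contra hcon
  rw [not_forall] at hcon
  obtain ⟨c, r₁, r₂, hc, hor, h1, h2⟩ := normalise_family hℓ hℓN A hA g hcon
  have hg' : (∑ i, heckeAlphaBar Kb N ℓ (g i) * bas N ℓ i : FN (N * ℓ)) = 0 := hg
  rw [hg'] at h1 h2
  rw [map_zero] at h2
  have z : ((0 : FN (N * ℓ)) : LaurentSeries Kb) = 0 := rfl
  rw [z, mul_zero] at h1 h2
  rcases hor with h | h
  · exact h h1.eq_zero
  · exact h h2.eq_zero

/-- every element of `F_{Nℓ}` is a combination of the `b_i` with coefficients in `F_N` -/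
theorem exists_repr_bas (f : FN (N * ℓ)) :
    ∃ a : Fin (ℓ + 1) → FN N, f = ∑ i, heckeAlphaBar Kb N ℓ (a i) * bas N ℓ i := by
  letI := algebraAlong (heckeAlphaBar Kb N ℓ)
  have hli := bas_linearIndependent hℓ hℓN A hA
  have hcard : Fintype.card (Fin (ℓ + 1)) = Module.finrank (FN N) (FN (N * ℓ)) := by
    rw [Fintype.card_fin]
    exact (helper93.finrank_alpha N ℓ hℓ hℓN).symm
  let B := basisOfLinearIndependentOfCardEqFinrank hli hcard
  refine ⟨fun i => B.repr f i, ?_⟩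
  have h := (B.sum_repr f).symm
  rw [coe_basisOfLinearIndependentOfCardEqFinrank] at h
  exact h

/-- **Normalisation.**  Every `f ≠ 0` of `F_{Nℓ}` has a constant `c ≠ 0` such that `f / c` and
`W (f / c)` are both `w₁`-integral and one of the two reductions is nonzero. -/
theorem normalise (f : FN (N * ℓ)) (hf : f ≠ 0) :
    ∃ (c : Kb) (r₁ r₂ : LaurentSeries (kA A)), c ≠ 0 ∧ (r₁ ≠ 0 ∨ r₂ ≠ 0) ∧
      RhoIs A (N * ℓ) (algebraMap Kb (LaurentSeries Kb) c⁻¹ * (f : LaurentSeries Kb)) r₁ ∧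
      RhoIs A (N * ℓ) (algebraMap Kb (LaurentSeries Kb) c⁻¹ *
        ((atkinLehner N ℓ hℓ hℓN f : FN (N * ℓ)) : LaurentSeries Kb)) r₂ := by
  obtain ⟨a, rfl⟩ := exists_repr_bas hℓ hℓN A hA f
  apply normalise_family hℓ hℓN A hA a
  by_contra hcon
  rw [not_exists] at hcon
  apply hf
  apply Finset.sum_eq_zero
  intro i _
  rw [not_not.1 (hcon i), map_zero, zero_mul]

/-- **Scale at the bad level, element form**: every `f ≠ 0` of `F_{Nℓ}` is a constant times a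
`w₁`-unit whose reduction lies in the special fibre field. -/
theorem exists_rhoIs_bad (f : FN (N * ℓ)) (hf : f ≠ 0) :
    ∃ (c : Kb) (r : LaurentSeries (kA A)), c ≠ 0 ∧ r ≠ 0 ∧
      RhoIs A (N * ℓ) (algebraMap Kb (LaurentSeries Kb) c⁻¹ * (f : LaurentSeries Kb)) r := by
  obtain ⟨c, r₁, r₂, hc, hor, h1, h2⟩ := normalise hℓ hℓN A hA f hf
  by_cases hr₁ : r₁ = 0
  swap
  · exact ⟨c, r₁, hc, hr₁, h1⟩
  have hr₂ : r₂ ≠ 0 := hor.resolve_left (not_not.2 hr₁)
  obtain ⟨c', s₁, s₂, hc', hor', k1, k2⟩ := normalise hℓ hℓN A hA f⁻¹ (inv_ne_zero hf)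
  have hfL : ((f : FN (N * ℓ)) : LaurentSeries Kb) ≠ 0 := fun h => hf (Subtype.ext h)
  by_cases hs₁ : s₁ = 0
  · exfalso
    have hs₂ : s₂ ≠ 0 := hor'.resolve_left (not_not.2 hs₁)
    have p1 := h1.mul k1
    have p2 := h2.mul k2
    have e1 : algebraMap Kb (LaurentSeries Kb) c⁻¹ * (f : LaurentSeries Kb) *
        (algebraMap Kb (LaurentSeries Kb) c'⁻¹ * ((f⁻¹ : FN (N * ℓ)) : LaurentSeries Kb)) =
        algebraMap Kb (LaurentSeries Kb) c⁻¹ * algebraMap Kb (LaurentSeries Kb) c'⁻¹ := by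
      rw [IntermediateField.coe_inv]
      field_simp
    have hWf : ((atkinLehner N ℓ hℓ hℓN f : FN (N * ℓ)) : LaurentSeries Kb) ≠ 0 := by
      intro h
      have : atkinLehner N ℓ hℓ hℓN f = 0 := Subtype.ext h
      exact hf ((map_eq_zero_iff _ (atkinLehner N ℓ hℓ hℓN).injective).1 this)
    have e2 : algebraMap Kb (LaurentSeries Kb) c⁻¹ *
        ((atkinLehner N ℓ hℓ hℓN f : FN (N * ℓ)) : LaurentSeries Kb) *
        (algebraMap Kb (LaurentSeries Kb) c'⁻¹ *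
          ((atkinLehner N ℓ hℓ hℓN f⁻¹ : FN (N * ℓ)) : LaurentSeries Kb)) =
        algebraMap Kb (LaurentSeries Kb) c⁻¹ * algebraMap Kb (LaurentSeries Kb) c'⁻¹ := by
      rw [map_inv₀ (atkinLehner N ℓ hℓ hℓN) f, IntermediateField.coe_inv]
      field_simp
    rw [e1] at p1
    rw [e2] at p2
    have := p1.unique p2
    rw [hr₁, zero_mul] at this
    exact mul_ne_zero hr₂ hs₂ this.symm
  · refine ⟨c'⁻¹, s₁⁻¹, inv_ne_zero hc', inv_ne_zero hs₁, ?_⟩
    have h := k1.inv hs₁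
    have e : (algebraMap Kb (LaurentSeries Kb) c'⁻¹ *
        ((f⁻¹ : FN (N * ℓ)) : LaurentSeries Kb))⁻¹ =
        algebraMap Kb (LaurentSeries Kb) c'⁻¹⁻¹ * (f : LaurentSeries Kb) := by
      simp only [IntermediateField.coe_inv, mul_inv, inv_inv, map_inv₀]
    rwa [e] at h

/-- **[T2-VAL-SC]** `helper29.ScaleStatement` at the bad level `N ℓ`, verbatim: the Gauss
valuation `w₁` of `F_{Nℓ}` has the value group of `ℚ̄` and residue field `F̃_{Nℓ} = F̃_N`. -/
theorem scaleStatement_bad : ScaleStatement (N * ℓ) A := by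
  apply scale_of_exists_rhoIs
  intro f hf hf0
  exact exists_rhoIs_bad hℓ hℓN A hA ⟨f, hf⟩ (fun h => hf0 (congrArg Subtype.val h))

end Normalise

end Fermat.Agent.T2.helper36

end
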