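/-
TIER 2 (S35), helper2: INTERFACE of the S35 core `FrobCoreStatement` (tasks 841 T2-CONG,
842 T2-FROB; blueprint = findings #1169 (c), (d) and #1699).

Setting: `M` a level with `q ∥ M`, `A` a valuation subring of `ℚ̄` over `q`, `W` the Atkin-Lehner
involution `w_q` of `F_M`, `n = p ^ k`, `φ` a Frobenius element at `A`.  Everything here is a
definition or a `Prop`.

* `FrobCoreStatement M q p W` : **S35-CORE** (operator form): for a `p`-power torsion point `x`
  with `U_q x = ε x`, `W x = δ x` (`ε² = δ² = 1`) and every Frobenius `φ` over `q`: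
  `φ² (φ x - ε x) = q² (φ x - ε x)`.
* `CongStatement M q p W` : **[T2-CONG]** the class `φ x - ε x` has a Kummer representative `u`
  with `u ≡ 1` for both Gauss valuations `w₁`, `w₂ = w₁ ∘ W` (i.e. it lies in the toric part).
* `T0FrobStatement M W A q n` : **[T2-FROB]** `φ² = q²` on the toric part, function-field form.
* `PairApproxStatement M W A` : **[PAIR-APPROX]** weak approximation for the pair `w₁`, `w₂`
  (consumer form): for every `v ≠ 0` there is `G ≡ 1 (w₁)` with `W G · v ≡ 1 (w₁)`.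
* `NormRedStatement M q A` : **[NORM-RED]** `U_q` reduces to the coefficientwise Frobenius.
* `GraphStatement M W A q` : the graph of `Fr = (f(t) ↦ f(t^q))` and its transpose lie in the
  ring `Rt` of pairs of reductions (explicit form of helper22's `SN2Statement` graphs).
-/
import Fermat.Agent.T2.helper72_Interface
import Fermat.Agent.T2.helper22_CoreDefs
import Fermat.Agent.T2.helper48_UOp

set_option autoImplicit false

noncomputable section

open HahnSeries IntermediateField AlgebraicCurve ModularCurve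
open Fermat.Agent.S18.helper19 Fermat.Agent.P2.helper29 Fermat.Agent.P2.helper93

namespace Fermat.Agent.T2.helper2

open Fermat.Agent.T2 Fermat.Agent.P3.helper94

/-- **S35-CORE** (operator form, the shape of #1699 with `U = uJ M q` and `W` acting through
the Prelude action of `F ≃ₐ[K] F` on `Pic⁰`). -/
def FrobCoreStatement (M q p : ℕ) [NeZero M] [NeZero q] (W : FF M ≃ₐ[Kb] FF M) : Prop :=
  ∀ A : ValuationSubring Kb, A.LiesOverPrime q → ∀ φ : Kb ≃ₐ[ℚ] Kb, A.IsFrobeniusAt φ q →
    ∀ x : JZero M, (∃ n : ℕ, p ^ n • x = 0) → ∀ ε δ : ℤ, ε * ε = 1 → δ * δ = 1 →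
      helper48.uJ M q x = ε • x → W • x = δ • x →
      φ • φ • (φ • x - ε • x) = (q * q) • (φ • x - ε • x)

/-- **[T2-CONG]** for a `p^k`-torsion point `x` with `U_q x = ε x`, `W x = δ x`, the class
`φ x - ε x` has a Kummer representative which is `≡ 1` for `w₁` and for `w₂ = w₁ ∘ W`. -/
def CongStatement (M q p : ℕ) [NeZero M] [NeZero q] (W : FF M ≃ₐ[Kb] FF M) : Prop :=
  ∀ A : ValuationSubring Kb, A.LiesOverPrime q → ∀ φ : Kb ≃ₐ[ℚ] Kb, A.IsFrobeniusAt φ q →
    ∀ (x : JZero M) (k : ℕ), p ^ k • x = 0 → ∀ ε δ : ℤ, ε * ε = 1 → δ * δ = 1 →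
      helper48.uJ M q x = ε • x → W • x = δ • x →
      ∃ u : FF M, IsKummerRep (p ^ k) (φ • x - ε • x) u ∧
        IsRedOne A M (u : LaurentSeries Kb) ∧ IsRedOne A M ((W u : FF M) : LaurentSeries Kb)

/-- **[T2-FROB]** `φ² = q²` on the toric part: if `n ∣ div u` and `u ≡ 1` for both Gauss
valuations, then `φ² u / u ^ (q²)` is a constant times an `n`-th power, for every Frobenius
element `φ` at `A`. -/
def T0FrobStatement (M : ℕ) (W : FF M ≃ₐ[Kb] FF M) (A : ValuationSubring Kb) (q n : ℕ) : Prop :=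
  ∀ u : FF M, u ≠ 0 → (∀ P : Place Kb (FF M), (n : ℤ) ∣ P.ord u) →
    IsRedOne A M (u : LaurentSeries Kb) → IsRedOne A M ((W u : FF M) : LaurentSeries Kb) →
    ∀ φ : Kb ≃ₐ[ℚ] Kb, A.IsFrobeniusAt φ q →
      ∃ (c : Kb) (v : FF M),
        galF M φ (galF M φ u) = algebraMap Kb (FF M) c * v ^ n * u ^ (q * q)

/-- **[PAIR-APPROX]** weak approximation for the pair `w₁`, `w₂ = w₁ ∘ W`, consumer form: for
every nonzero `v` there is `G ≡ 1` for `w₁` such that `W G · v ≡ 1` for `w₁`. -/
def PairApproxStatement (M : ℕ) (W : FF M ≃ₐ[Kb] FF M) (A : ValuationSubring Kb) : Prop :=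
  ∀ v : FF M, v ≠ 0 → ∃ G : FF M, G ≠ 0 ∧ IsRedOne A M (G : LaurentSeries Kb) ∧
    IsRedOne A M ((W G * v : FF M) : LaurentSeries Kb)

/-- **[NORM-RED]** the reduction of `U_q`: if `Y` is an integral series of `F_M`, then
`U_q Y` has an integral expansion `Y'` with `Ȳ'(t^q) = Ȳ(t)^q`, i.e. the reduction of `Y'` is the
coefficientwise Frobenius of the reduction of `Y`. -/
def NormRedStatement (M q : ℕ) [NeZero M] [NeZero q] (A : ValuationSubring Kb) : Prop :=
  ∀ (Y : LaurentSeries A) (hY : incl A Y ∈ FF M),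
    ∃ Y' : LaurentSeries A,
      incl A Y' = ((helper48.uKummer M q ⟨incl A Y, hY⟩ : FF M) : LaurentSeries Kb) ∧
      qExpand (kA A) q (red A Y') = red A Y ^ q

/-- the graph of `Fr : f(t) ↦ f(t^q)` on `Bt` and its transpose lie in `Rt`
(explicit form of the two graph clauses of `helper22.SN2Statement`). -/
def GraphStatement (M : ℕ) [NeZero M] (W : FF M ≃ₐ[Kb] FF M) (A : ValuationSubring Kb)
    (q : ℕ) [NeZero q] : Prop :=
  ∀ y : helper22.Bt A M, ∃ hy : qExpand (kA A) q (y : LaurentSeries (kA A)) ∈ helper22.Bt A M,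
    ((y, ⟨_, hy⟩) : helper22.Bt A M × helper22.Bt A M) ∈ helper22.Rt A W ∧
    ((⟨_, hy⟩, y) : helper22.Bt A M × helper22.Bt A M) ∈ helper22.Rt A W

end Fermat.Agent.T2.helper2

end
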