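/-
TIER 2 (S35), helper2: **[NORM-RED]** - the reduction of `U_q` at a place over `q ∣ M`.

`(U h)(t^q) = ∏_{k<q} h(ζ^k t)` (helper48 `es_norm_U`), `ζ ≡ 1` modulo the maximal ideal of `A`,
hence `(U Y)~(t^q) = Ỹ(t)^q`.
-/
import Fermat.Agent.T2.helper2_FrobDefs
import Fermat.Agent.P2.helper93_ESRed

set_option autoImplicit false
set_option linter.unusedSectionVars false
set_option linter.unusedVariables false
set_option linter.style.haveILetI false

noncomputable section

open HahnSeries IntermediateField AlgebraicCurve ModularCurve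
open Fermat.Agent.S18.helper19 Fermat.Agent.P2.helper29 Fermat.Agent.P2.helper93

namespace Fermat.Agent.T2.helper2

open Fermat.Agent.T2 Fermat.Agent.S24

/-- formal core: if `N(t^ℓ) = ∏_{i<ℓ} h(u^i t)` with `u ≡ 1` modulo `I`, then
`N̄(t^ℓ) = h̄(t)^ℓ`. -/
theorem u_formal {B : Type*} [CommRing B] (ℓ : ℕ) [NeZero ℓ] (I : Ideal B) (u : Bˣ)
    (hu : (u : B) - 1 ∈ I) (h N : LaurentSeries B)
    (hN : qExpand B ℓ N = ∏ i ∈ Finset.range ℓ, Fermat.Agent.P2.helper94.rot (u ^ i) h) :
    qExpand (B ⧸ I) ℓ (coeffMap (Ideal.Quotient.mk I) N) =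
      coeffMap (Ideal.Quotient.mk I) h ^ ℓ := by
  have hui : ∀ i : ℕ, ((u ^ i : Bˣ) : B) - 1 ∈ I := by
    intro i
    induction i with
    | zero => simp
    | succ i ih =>
      have e : ((u ^ (i + 1) : Bˣ) : B) - 1 = ((u ^ i : Bˣ) : B) * ((u : B) - 1) +
          (((u ^ i : Bˣ) : B) - 1) := by
        rw [pow_succ]
        push_cast
        ring
      rw [e]
      exact I.add_mem (I.mul_mem_left _ hu) ih
  rw [← Fermat.Agent.P2.helper94.coeffMap_qExpand, hN, map_prod,
    Finset.prod_congr rfl fun i _ =>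
      Fermat.Agent.P2.helper94.coeffMap_rot_of_sub_one_mem I (u ^ i) (hui i) h,
    Finset.prod_const, Finset.card_range]

/-- **[NORM-RED]**. -/
theorem normRed (M q : ℕ) [NeZero M] [NeZero q] (hq : q.Prime) (hqM : q ∣ M)
    (A : ValuationSubring Kb) (hA : A.LiesOverPrime q) : NormRedStatement M q A := by
  intro Y hY
  obtain ⟨ζ, hζ⟩ := HasEnoughRootsOfUnity.exists_primitiveRoot Kbar q
  have hζ1 : ζ ^ q = 1 := hζ.pow_eq_one
  set u : (↥A)ˣ := rootUnit A hq.ne_zero hζ1 with hu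
  set NK : LaurentSeries Kbar :=
    ((helper48.uKummer M q ⟨incl A Y, hY⟩ : FN M) : LaurentSeries Kbar) with hNK
  have key := helper48.es_norm_U M q hq hqM ζ hζ ⟨incl A Y, hY⟩
  set P : LaurentSeries ↥A := ∏ i ∈ Finset.range q, Fermat.Agent.P2.helper94.rot (u ^ i) Y
    with hP
  have hPK : coeffMap (A.subtype : ↥A →+* Kbar) P = qExpand Kbar q NK := by
    rw [hNK, key, hP, map_prod]
    refine Finset.prod_congr rfl fun i _ => ?_
    rw [coeffMap_subtype_rot]
    rfl
  have hmem : ∀ k, NK.coeff k ∈ A := by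
    intro k
    have h1 : NK.coeff k = (qExpand Kbar q NK).coeff ((q : ℤ) * k) :=
      (qExpand_coeff_mul q NK k).symm
    rw [h1, ← hPK, coeffMap_coeff]
    exact (P.coeff _).2
  refine ⟨liftA NK hmem, coeffMap_subtype_liftA NK hmem, ?_⟩
  have hN' : qExpand ↥A q (liftA NK hmem) = P := by
    apply coeffMap_subtype_injective
    rw [Fermat.Agent.P2.helper94.coeffMap_qExpand, coeffMap_subtype_liftA, ← hPK]
  exact u_formal q (IsLocalRing.maximalIdeal ↥A) u (rootUnit_sub_one_mem hq hA hζ1) Y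
    (liftA NK hmem) hN'

end Fermat.Agent.T2.helper2

end
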