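/-
T2 (helper96): `A((t))` is COMPLETELY INTEGRALLY CLOSED in `K((t))` for an archimedean (rank one)
valuation subring `A` of a field `K`.

* `IsArchVS A` : if `c ≠ 0` and `c * x ^ n ∈ A` for all `n` then `x ∈ A`.
* `isArchVS_of_arch` : this follows from `helper74.Arch`.
* `coeff_mem_of_forall_mul_pow` : **(CIC)** if `d ≠ 0` and all the series `d * h ^ n` have
  coefficients in `A`, then `h` has coefficients in `A`.
* `coeff_mem_of_isIntegral` : if `h = Y₁ / Y₂` is a quotient of two series with coefficients in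
  `A` and `h` is integral over the ring of series with coefficients in `A`, then `h` has
  coefficients in `A`.
* `exists_incl_eq_of_isIntegral` : the same for valuation subrings of `ℚ̄` over a prime, in the P2
  vocabulary.
-/
import Mathlib
import Fermat.Agent.P2.helper74_Arch
import Fermat.Agent.S28.helper81_Laurent

set_option autoImplicit false
set_option linter.style.haveILetI false
set_option linter.unusedSectionVars false

noncomputable section

open HahnSeries ModularCurve

namespace Fermat.Agent.T2.helper96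

section Abstract

variable {K : Type*} [Field K] (A : ValuationSubring K)

/-- archimedean property of a valuation subring (rank one) -/
def IsArchVS : Prop := ∀ x : K, (∃ c : K, c ≠ 0 ∧ ∀ n : ℕ, c * x ^ n ∈ A) → x ∈ A

theorem isArchVS_of_arch (h : Fermat.Agent.P2.helper74.Arch A (IsLocalRing.residue A)) :
    IsArchVS A := by
  rintro x ⟨c, hc, hcx⟩
  by_contra hx
  have hxinv : x⁻¹ ∈ A := (A.mem_or_inv_mem x).resolve_left hx
  have hx0 : x ≠ 0 := fun h0 => hx (h0 ▸ A.zero_mem)
  have hcA : c ∈ A := by simpa using hcx 0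
  -- `x⁻¹` is not a unit
  have hnu : IsLocalRing.residue A ⟨x⁻¹, hxinv⟩ = 0 := by
    rw [IsLocalRing.residue_eq_zero_iff, IsLocalRing.mem_maximalIdeal, mem_nonunits_iff]
    intro hu
    obtain ⟨u, hu⟩ := hu
    apply hx
    have h1 : ((u⁻¹ : (↥A)ˣ) : K) * x⁻¹ = 1 := by
      have := u.inv_mul
      have h2 := congrArg (fun z : ↥A => (z : K)) this
      simp only [MulMemClass.coe_mul, OneMemClass.coe_one] at h2
      rw [hu] at h2
      exact h2
    have h3 : x = ((u⁻¹ : (↥A)ˣ) : K) := by
      field_simp at h1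
      exact h1.symm
    rw [h3]
    exact (u⁻¹ : (↥A)ˣ).1.2
  have hc0 : (⟨c, hcA⟩ : ↥A) ≠ 0 := fun h0 => hc (congrArg Subtype.val h0)
  obtain ⟨n, a, ha⟩ := h ⟨x⁻¹, hxinv⟩ hnu ⟨c, hcA⟩ hc0
  have ha' : (x⁻¹) ^ n = c * (a : K) := by
    have := congrArg (fun z : ↥A => (z : K)) ha
    simpa using this
  have h1 : x = (a : K) * (c * x ^ (n + 1)) := by
    have h2 : c * (a : K) * x ^ n = 1 := by
      rw [← ha', inv_pow, inv_mul_cancel₀ (pow_ne_zero n hx0)]
    calc x = (c * (a : K) * x ^ n) * x := by rw [h2, one_mul]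
      _ = (a : K) * (c * x ^ (n + 1)) := by ring
  apply hx
  rw [h1]
  exact A.mul_mem _ _ a.2 (hcx (n + 1))

/-- the subring of Laurent series with coefficients in `A` -/
def intSeries : Subring (LaurentSeries K) := (coeffMap A.subtype).range

theorem mem_intSeries_iff (x : LaurentSeries K) : x ∈ intSeries A ↔ ∀ k, x.coeff k ∈ A := by
  rw [intSeries, Fermat.Agent.S28.helper81.mem_range_coeffMap_iff]
  constructor
  · intro h k
    obtain ⟨a, ha⟩ := h k
    rw [← ha]
    exact a.2
  · intro h k
    exact ⟨⟨_, h k⟩, rfl⟩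

theorem leadingCoeff_pow' (r : LaurentSeries K) (n : ℕ) :
    (r ^ n).leadingCoeff = r.leadingCoeff ^ n := by
  induction n with
  | zero => simp
  | succ n ih => rw [pow_succ, HahnSeries.leadingCoeff_mul, ih, pow_succ]

/-- **(CIC)** complete integral closedness of `A((t))` in `K((t))`. -/
theorem mem_intSeries_of_forall_mul_pow (hA : IsArchVS A) (d : LaurentSeries K) (hd : d ≠ 0)
    (h : LaurentSeries K) (H : ∀ n : ℕ, d * h ^ n ∈ intSeries A) : h ∈ intSeries A := by
  classical
  rw [mem_intSeries_iff]
  by_contra hcon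
  push Not at hcon
  -- the set of bad indices is bounded below
  set S : Set ℤ := {k | h.coeff k ∉ A} with hS
  have hSne : S.Nonempty := hcon
  have hSsub : S ⊆ h.support := by
    intro k hk
    rw [HahnSeries.mem_support]
    intro h0
    exact hk (h0 ▸ A.zero_mem)
  have hwf : S.IsWF := h.isWF_support.mono hSsub
  set k₁ := hwf.min hSne with hk₁
  have hk₁S : h.coeff k₁ ∉ A := hwf.min_mem hSne
  have hk₁min : ∀ i, i < k₁ → h.coeff i ∈ A := by
    intro i hi
    by_contra hiA
    exact absurd (hwf.min_le hSne hiA) (not_le.mpr hi)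
  -- the truncation
  have hsupp : (Function.support fun i : ℤ => if i < k₁ then h.coeff i else 0) ⊆ h.support := by
    intro i hi
    rw [Function.mem_support] at hi
    rw [HahnSeries.mem_support]
    intro h0
    apply hi
    simp [h0]
  set Z : LaurentSeries K :=
    ⟨fun i : ℤ => if i < k₁ then h.coeff i else 0, h.isPWO_support.mono hsupp⟩ with hZ
  have hZcoeff : ∀ i, Z.coeff i = if i < k₁ then h.coeff i else 0 := fun i => rfl
  have hZmem : Z ∈ intSeries A := by
    rw [mem_intSeries_iff]
    intro i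
    rw [hZcoeff]
    split_ifs with hi
    · exact hk₁min i hi
    · exact A.zero_mem
  set r : LaurentSeries K := h - Z with hr
  have hrcoeff_lt : ∀ i, i < k₁ → r.coeff i = 0 := by
    intro i hi
    rw [hr, HahnSeries.coeff_sub, hZcoeff, if_pos hi, sub_self]
  have hrcoeff : r.coeff k₁ = h.coeff k₁ := by
    rw [hr, HahnSeries.coeff_sub, hZcoeff, if_neg (lt_irrefl _), sub_zero]
  have hx0 : h.coeff k₁ ≠ 0 := fun h0 => hk₁S (h0 ▸ A.zero_mem)
  have hrord : r.order = k₁ :=
    Fermat.Agent.S28.helper81.order_eq_of_coeff r k₁ (by rw [hrcoeff]; exact hx0) hrcoeff_lt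
  have hrlead : r.leadingCoeff = h.coeff k₁ := by
    rw [HahnSeries.leadingCoeff_eq, hrord, hrcoeff]
  -- `d * r ^ n` is integral
  have hdr : ∀ n : ℕ, d * r ^ n ∈ intSeries A := by
    intro n
    have e : d * r ^ n = ∑ m ∈ Finset.range (n + 1),
        (d * h ^ m) * ((-Z) ^ (n - m) * ((n.choose m : ℕ) : LaurentSeries K)) := by
      rw [hr, sub_eq_add_neg, add_pow, Finset.mul_sum]
      refine Finset.sum_congr rfl fun m _ => ?_
      ring
    rw [e]
    refine Subring.sum_mem _ fun m _ => ?_
    refine Subring.mul_mem _ (H m) (Subring.mul_mem _ (Subring.pow_mem _ ?_ _) ?_)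
    · exact Subring.neg_mem _ hZmem
    · exact natCast_mem _ _
  -- leading coefficients
  apply hk₁S
  apply hA
  refine ⟨d.leadingCoeff, HahnSeries.leadingCoeff_ne_zero.mpr hd, fun n => ?_⟩
  have h1 : (d * r ^ n).leadingCoeff = d.leadingCoeff * h.coeff k₁ ^ n := by
    rw [HahnSeries.leadingCoeff_mul, leadingCoeff_pow', hrlead]
  rw [← h1, HahnSeries.leadingCoeff_eq]
  exact (mem_intSeries_iff A _).mp (hdr n) _

/-- a quotient of integral series which is integral over the ring of integral series is an
integral series. -/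
theorem mem_intSeries_of_isIntegral (hA : IsArchVS A) (h Y₁ Y₂ : LaurentSeries K)
    (hY₁ : Y₁ ∈ intSeries A) (hY₂ : Y₂ ∈ intSeries A) (hY₂0 : Y₂ ≠ 0) (hquot : Y₁ = h * Y₂)
    (hint : IsIntegral (intSeries A) h) : h ∈ intSeries A := by
  obtain ⟨p, hp, hph⟩ := hint
  -- `Y₂ ^ deg p * h ^ n` is integral for all `n`
  set m := p.natDegree with hm
  have key : ∀ n : ℕ, Y₂ ^ m * h ^ n ∈ intSeries A := by
    intro n
    induction n using Nat.strong_induction_on with
    | _ n ih =>
      by_cases hn : n < m
      · -- `Y₂ ^ m * h ^ n = Y₂ ^ (m - n) * Y₁ ^ n`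
        have e : Y₂ ^ m * h ^ n = Y₂ ^ (m - n) * Y₁ ^ n := by
          rw [hquot, mul_pow, ← mul_assoc, mul_comm (Y₂ ^ (m - n)) (h ^ n), mul_assoc,
            ← _root_.pow_add, Nat.sub_add_cancel hn.le, mul_comm]
        rw [e]
        exact Subring.mul_mem _ (Subring.pow_mem _ hY₂ _) (Subring.pow_mem _ hY₁ _)
      · push Not at hn
        -- `h ^ m = - ∑_{i < m} a_i h ^ i`
        have hrel : h ^ m = -∑ i ∈ Finset.range m, ((p.coeff i : intSeries A) : LaurentSeries K)
            * h ^ i := by
          have h1 := hph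
          rw [Polynomial.eval₂_eq_sum_range, Finset.sum_range_succ, ← hm,
            show p.coeff m = 1 from hp.coeff_natDegree, map_one, one_mul] at h1
          rw [eq_neg_iff_add_eq_zero, add_comm]
          exact h1
        have e : Y₂ ^ m * h ^ n = -∑ i ∈ Finset.range m,
            ((p.coeff i : intSeries A) : LaurentSeries K) * (Y₂ ^ m * h ^ (i + (n - m))) := by
          have h2 : h ^ n = h ^ m * h ^ (n - m) := by
            rw [← _root_.pow_add, Nat.add_sub_cancel' hn]
          rw [h2, hrel, neg_mul, mul_neg, Finset.sum_mul, Finset.mul_sum]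
          congr 1
          refine Finset.sum_congr rfl fun i _ => ?_
          rw [_root_.pow_add]
          ring
        rw [e]
        refine Subring.neg_mem _ (Subring.sum_mem _ fun i hi => ?_)
        refine Subring.mul_mem _ (p.coeff i).2 (ih _ ?_)
        have := Finset.mem_range.mp hi
        omega
  exact mem_intSeries_of_forall_mul_pow A hA (Y₂ ^ m) (pow_ne_zero _ hY₂0) h key

/-- series form: a root `h` of a monic polynomial with coefficients in `A((t))` which is a quotient
`Y₁ / Y₂` of two elements of `A((t))` lies in `A((t))`. -/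
theorem exists_coeffMap_eq_of_monic (hA : IsArchVS A) (h : LaurentSeries K)
    (Y₁ Y₂ : LaurentSeries A) (hY₂ : Y₂ ≠ 0)
    (hquot : coeffMap A.subtype Y₁ = h * coeffMap A.subtype Y₂)
    (p : Polynomial (LaurentSeries A)) (hp : p.Monic)
    (hph : Polynomial.eval₂ (coeffMap A.subtype) h p = 0) :
    ∃ Y : LaurentSeries A, coeffMap A.subtype Y = h := by
  have hinj : Function.Injective (coeffMap A.subtype) := by
    intro x y hxy
    ext n
    have := congrArg (fun z => z.coeff n) hxy
    simp only [coeffMap_coeff] at this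
    exact this
  have hint : IsIntegral (intSeries A) h := by
    set φ : LaurentSeries A →+* intSeries A :=
      (coeffMap A.subtype).codRestrict (intSeries A) (fun x => ⟨x, rfl⟩) with hφ
    refine ⟨p.map φ, hp.map _, ?_⟩
    rw [Polynomial.eval₂_map]
    have e : (algebraMap (intSeries A) (LaurentSeries K)).comp φ = coeffMap A.subtype := by
      ext x : 1
      rfl
    rw [e]
    exact hph
  have hmem := mem_intSeries_of_isIntegral A hA h (coeffMap A.subtype Y₁)
    (coeffMap A.subtype Y₂) ⟨Y₁, rfl⟩ ⟨Y₂, rfl⟩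
    (fun h0 => hY₂ (hinj (h0.trans (map_zero _).symm))) hquot hint
  exact hmem

end Abstract

section Qbar

variable (A : ValuationSubring (AlgebraicClosure ℚ)) {ℓ : ℕ}

theorem isArchVS_of_liesOverPrime (hℓ : ℓ.Prime) (hA : A.LiesOverPrime ℓ) : IsArchVS A :=
  isArchVS_of_arch A (Fermat.Agent.P2.helper74.arch_algebraicClosure A ℓ hℓ hA)

/-- **Integrality from a monic equation** (valuation subrings of `ℚ̄` over a prime): if
`h ∈ ℚ̄((t))` is a quotient `Y₁ / Y₂` of two integral series and a root of a monic polynomial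
with integral series as coefficients, then `h` is an integral series.  (No UFD, no DVR, no
hypothesis on the reduction of `Y₂`.) -/
theorem exists_incl_eq_of_monic (hℓ : ℓ.Prime) (hA : A.LiesOverPrime ℓ)
    (h : LaurentSeries (AlgebraicClosure ℚ)) (Y₁ Y₂ : LaurentSeries A) (hY₂ : Y₂ ≠ 0)
    (hquot : coeffMap A.subtype Y₁ = h * coeffMap A.subtype Y₂)
    (p : Polynomial (LaurentSeries A)) (hp : p.Monic)
    (hph : Polynomial.eval₂ (coeffMap A.subtype) h p = 0) :
    ∃ Y : LaurentSeries A, coeffMap A.subtype Y = h :=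
  exists_coeffMap_eq_of_monic A (isArchVS_of_liesOverPrime A hℓ hA) h Y₁ Y₂ hY₂ hquot p hp hph

end Qbar

end Fermat.Agent.T2.helper96

end
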