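import Fermat.Agent.T2.helper76_ALTrace
import Fermat.Agent.P3.helper16_LatChar
import Fermat.Agent.S16.helper1_PeriodInvol
import Fermat.Agent.P3.helper34_MultCalc

/-!
# Tier 2, [T2-DICT-W] (helper17, task 772): the Atkin–Lehner involution in the analytic dictionary

Part 1 (this file): the Betti side.

For an Atkin–Lehner datum `W : ALData M q` (matrix `[[q x, y], [M z, q w]]`, determinant `q`):

* `systemW W : CosetSystem (Gamma0 M) Unit` : the one-coset system `{W.mat}` (`W` normalises
  `Γ₀(M)`); `systemW_step` characterises `step γ ()` by `W γ = (step γ) W`;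
* `wPair W : V2 M →ₗ[ℂ] V2 M` : `(f, g) ↦ (f ∣ W, g ∣ W)`;
* `periodHomPair_wPair` : `periodHomPair (wPair x) γ = periodHomPair x (W γ W⁻¹)`;
* `wTr W : perLat M →+ perLat M` : the transpose action on the period lattice,
  `wTr_perZ'` : `wTr (per γ) = per (W γ W⁻¹)`;
* `Wst W : LatChar M →+ LatChar M`, `ε ↦ ε ∘ wTr`, and
  `latPsi_heckeChar_systemW` : `heckeChar (systemW W) (latPsi ε) = latPsi (Wst ε)`.
-/

set_option autoImplicit false
set_option linter.unusedSectionVars false

noncomputable section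

namespace Fermat.Agent.T2.helper17

open CongruenceSubgroup ModularCurve ModularCurve.Period UpperHalfPlane
open scoped MatrixGroups ModularForm
open Fermat.Agent.S16 Fermat.Agent.S16.helper26 Fermat.Agent.S16.helper1
open Fermat.Agent.T2.helper76 Fermat.Agent.P3.helper16 Fermat.Agent.P3.helper34

variable {M q : ℕ}

/-! ### The one-coset system of `W` -/

/-- The coset system `{W.mat}` of the Atkin–Lehner involution. -/
def systemW (W : ALData M q) : CosetSystem (Gamma0 M) Unit where
  α _ := W.mat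
  exists_step γ hγ _ := by
    obtain ⟨γ', hγ', h⟩ := W.exists_mat_mul_mapGL hγ
    exact ⟨(), γ', hγ', h⟩
  inj _ _ _ _ _ := rfl

@[simp] theorem systemW_α (W : ALData M q) (i : Unit) : (systemW W).α i = W.mat := rfl

theorem systemW_det_pos (W : ALData M q) (i : Unit) : 0 < ((systemW W).α i).det.val :=
  W.det_mat_pos

/-- `W γ = (step γ) W`. -/
theorem systemW_rel (W : ALData M q) (γ : Gamma0 M) :
    W.mat * Matrix.SpecialLinearGroup.mapGL ℝ (γ : SL(2, ℤ)) =
      Matrix.SpecialLinearGroup.mapGL ℝ (((systemW W).step γ () : Gamma0 M) : SL(2, ℤ)) *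
        W.mat :=
  (systemW W).rel γ ()

/-- The conjugate `J W J = [[q x, -y], [-M z, q w]]` of an Atkin–Lehner datum. -/
def jConjAL (W : ALData M q) : ALData M q where
  m := W.m
  x := W.x
  y := -W.y
  z := -W.z
  w := W.w
  hq := W.hq
  hM := W.hM
  det_eq := by linear_combination W.det_eq

theorem jGL_mul_mat_mul_jGL (W : ALData M q) : jGL * W.mat * jGL = (jConjAL W).mat := by
  apply Units.ext
  rw [Units.val_mul, Units.val_mul, val_jGL, ALData.val_mat, ALData.val_mat]
  ext a b
  fin_cases a <;> fin_cases b <;>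
    simp [jConjAL, Matrix.mul_apply, Fin.sum_univ_two]

theorem exists_jGL_mul_mat_mul_jGL (W : ALData M q) :
    ∃ t : Gamma0 M, jGL * W.mat * jGL =
      Matrix.SpecialLinearGroup.mapGL ℝ ((t : Gamma0 M) : SL(2, ℤ)) * W.mat := by
  obtain ⟨g, hg, h⟩ := ALData.exists_eq_mul (jConjAL W) W
  exact ⟨⟨g, hg⟩, by rw [jGL_mul_mat_mul_jGL, h]⟩

/-! ### The action on pairs of cusp forms and on the period lattice -/

variable [NeZero M]

/-- `(f, g) ↦ (f ∣ W, g ∣ W)`. -/
def wPair (W : ALData M q) : V2 M →ₗ[ℂ] V2 M :=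
  LinearMap.prodMap W.atkinLehner W.atkinLehner

@[simp] theorem wPair_fst (W : ALData M q) (x : V2 M) : (wPair W x).1 = W.atkinLehner x.1 := rfl

@[simp] theorem wPair_snd (W : ALData M q) (x : V2 M) : (wPair W x).2 = W.atkinLehner x.2 := rfl

/-- **Period equivariance for `W`**: the period of `x ∣ W` along `γ` is the period of `x` along
`W γ W⁻¹`. -/
theorem periodHomPair_wPair (W : ALData M q) (x : V2 M) (γ : Gamma0 M) :
    periodHomPair M (wPair W x) (Additive.ofMul γ) =
      periodHomPair M x (Additive.ofMul ((systemW W).step γ ())) := by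
  obtain ⟨t, ht⟩ := exists_jGL_mul_mat_mul_jGL W
  have h := periodHomPair_eq_sum_of_slash M (fun _ : Unit => W.mat) (fun _ => W.det_mat_pos)
    x (wPair W x)
    (by rw [wPair_fst, ALData.coe_atkinLehner]; simp)
    (by rw [wPair_snd, ALData.coe_atkinLehner]; simp)
    γ (fun _ => (systemW W).step γ ()) (Equiv.refl Unit) (fun _ => systemW_rel W γ)
    (Equiv.refl Unit) (fun _ => t) (fun _ => ht)
  rw [h]
  simp

theorem comp_wPair_mem_perLat (W : ALData M q) :
    ∀ lam ∈ perLat M, lam ∘ₗ wPair W ∈ perLat M := by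
  rintro _ ⟨γ, rfl⟩
  refine ⟨Additive.ofMul ((systemW W).step (Additive.toMul γ) ()), ?_⟩
  refine LinearMap.ext fun x => ?_
  rw [perZ_apply, LinearMap.comp_apply, perZ_apply]
  exact (periodHomPair_wPair W x (Additive.toMul γ)).symm

/-- The transpose action of `W` on the period lattice. -/
def wTr (W : ALData M q) : perLat M →+ perLat M where
  toFun lam := ⟨(lam : V2 M →ₗ[ℂ] ℂ) ∘ₗ wPair W, comp_wPair_mem_perLat W _ lam.2⟩
  map_zero' := Subtype.ext (LinearMap.zero_comp _)
  map_add' _ _ := Subtype.ext (LinearMap.add_comp _ _ _)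

@[simp]
theorem coe_wTr (W : ALData M q) (lam : perLat M) :
    ((wTr W lam : perLat M) : V2 M →ₗ[ℂ] ℂ) = (lam : V2 M →ₗ[ℂ] ℂ) ∘ₗ wPair W := rfl

/-- The transpose property in the shape used by [T2-DICT-EIG] (helper5
`exists_latChar_eigen_of_isNewform`). -/
theorem wTr_apply_pair (W : ALData M q) (lam : perLat M) (F : CuspForm (Gamma0 M) 2) :
    ((wTr W lam : perLat M) : V2 M →ₗ[ℂ] ℂ) (F, 0) =
      (lam : V2 M →ₗ[ℂ] ℂ) (W.atkinLehner F, 0) := by
  rw [coe_wTr, LinearMap.comp_apply]
  congr 1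
  exact Prod.ext rfl (map_zero W.atkinLehner)

/-- `wTr` does not depend on the Atkin–Lehner matrix. -/
theorem wTr_eq (W₁ W₂ : ALData M q) : wTr W₁ = wTr W₂ := by
  ext lam : 1
  apply Subtype.ext
  rw [coe_wTr, coe_wTr]
  unfold wPair
  rw [ALData.atkinLehner_eq W₁ W₂]

/-- `wTr` is an involution. -/
theorem wTr_wTr (W₁ W₂ : ALData M q) (lam : perLat M) : wTr W₁ (wTr W₂ lam) = lam := by
  apply Subtype.ext
  rw [coe_wTr, coe_wTr]
  refine LinearMap.ext fun x => ?_
  rw [LinearMap.comp_apply, LinearMap.comp_apply]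
  congr 1
  exact Prod.ext (ALData.atkinLehner_atkinLehner W₁ W₂ x.1)
    (ALData.atkinLehner_atkinLehner W₁ W₂ x.2)

/-- `wTr (per γ) = per (W γ W⁻¹)`. -/
theorem wTr_perZ' (W : ALData M q) (γ : Gamma0 M) :
    wTr W (perZ' M (Additive.ofMul γ)) =
      perZ' M (Additive.ofMul ((systemW W).step γ ())) := by
  apply Subtype.ext
  refine LinearMap.ext fun x => ?_
  rw [coe_wTr, LinearMap.comp_apply, coe_perZ', coe_perZ', perZ_apply, perZ_apply]
  exact periodHomPair_wPair W x γ

/-- The action of `W` on lattice characters: `ε ↦ ε ∘ wTr`. -/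
def Wst (W : ALData M q) : LatChar M →+ LatChar M where
  toFun ε := ε.comp (wTr W)
  map_zero' := AddMonoidHom.zero_comp _
  map_add' _ _ := AddMonoidHom.add_comp _ _ _

@[simp] theorem Wst_apply (W : ALData M q) (ε : LatChar M) (lam : perLat M) :
    Wst W ε lam = ε (wTr W lam) := rfl

/-- The Hecke operator of the one-coset system `systemW` on the characters `latPsi`. -/
theorem latPsi_heckeChar_systemW (W : ALData M q) (p n : ℕ) (ε : LatChar M) :
    heckeChar (systemW W) (latPsi M p n ε) = latPsi M p n (Wst W ε) := by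
  ext γ
  rw [heckeChar_apply, Fintype.prod_unique, latPsi_apply, latPsi_apply, Wst_apply, wTr_perZ']

end Fermat.Agent.T2.helper17
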