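/-
TIER 2, [T2-PAIR-APPROX] (helper20, task 839): weak approximation for the pair of Gauss
valuations `w₁`, `w₂ = w₁ ∘ W` of `F_{N q}` at a place `A ∣ q`, in the quotient vocabulary of P2
(`IsRedOne`, `IsRedZero`).

* `exists_pow_mul_isRedZero_abs` : (ARCH for `w₁`) if `w₁(π) > 0` then `w₁(π ^ k f) > 0` for
  some `k`.
* `pairApprox_one_abs`, `pairApprox_abs`, `pairApprox_abs'` : the approximation statements for an
  abstract pair `(M, W)` from `ScaleStatement`, (ARCH) for `A` and a separating function.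
* `pairApprox_one` : for `R ≠ 0` there is `g ≠ 0` with `g ≡ 1` for `w₁` and `g R ≡ 1` for `w₂`.
* `pairApprox` : for `f₁, f₂ ≠ 0` there is `r ≠ 0` with `r ≡ f₁` for `w₁` and `r ≡ f₂` for `w₂`
  (to first order).
* `pairApprox'` : for `f₁, f₂ ≠ 0` there is `r ≠ 0` with `r ≡ f₁` and `W r ≡ f₂` for `w₁`.
* `pairApprox_lift` : for `x ≠ 0` in the special fibre field there is `G ≡ 1` for `w₁` such
  that `W G` has reduction `x` for `w₁`.
-/
import Mathlib
import Fermat.Agent.T2.helper20_Kum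
import Fermat.Agent.T2.helper36_ValBad
import Fermat.Agent.P2.helper74_Arch

set_option autoImplicit false

noncomputable section

open HahnSeries IntermediateField AlgebraicCurve ModularCurve

namespace Fermat.Agent.T2.helper20

open Fermat.Agent.S18.helper19 Fermat.Agent.P2.helper29 Fermat.Agent.P2.helper93
open Fermat.Agent.T2

section Abstract

variable {A : ValuationSubring Kb} {M : ℕ}

theorem isGood_pow {Y : LaurentSeries A} (h : IsGood A M Y) (k : ℕ) : IsGood A M (Y ^ k) := by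
  induction k with
  | zero => rw [pow_zero]; exact isGood_one
  | succ k ih => rw [pow_succ]; exact ih.mul h

/-- the constant of a scaled representation of a function of positive valuation lies in the
maximal ideal -/
theorem const_mem_of_isRedZero {π : LaurentSeries Kb} {c : Kb} {Z₁ Z₂ : LaurentSeries A}
    (g₁ : IsGood A M Z₁)
    (e : algebraMap Kb (LaurentSeries Kb) c * incl A Z₁ = π * incl A Z₂)
    (hπ : IsRedZero A M π) :
    ∃ h : c ∈ A, IsLocalRing.residue A ⟨c, h⟩ = 0 := by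
  rcases eq_or_ne c 0 with rfl | hc0
  · refine ⟨zero_mem _, ?_⟩
    have h0 : (⟨0, zero_mem _⟩ : A) = 0 := rfl
    rw [h0, map_zero]
  obtain ⟨Z₁', Z₂', -, gZ₂', e', r'⟩ := hπ
  have hinv : c⁻¹ ∉ A := by
    intro hd
    have key : incl A (Z₁ * Z₂') = incl A (constA (⟨c⁻¹, hd⟩ : A) * Z₁' * Z₂) := by
      rw [map_mul, map_mul, map_mul, coeffMap_subtype_constA, e']
      have hc' : algebraMap Kb (LaurentSeries Kb) c ≠ 0 := (map_ne_zero _).mpr hc0
      have h1 : incl A Z₁ = (algebraMap Kb (LaurentSeries Kb) c)⁻¹ *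
          (π * incl A Z₂) := by
        rw [← e, ← mul_assoc, inv_mul_cancel₀ hc', one_mul]
      rw [h1, map_inv₀]
      ring
    have key' : Z₁ * Z₂' = constA (⟨c⁻¹, hd⟩ : A) * Z₁' * Z₂ :=
      coeffMap_subtype_injective key
    have h2 := congrArg (red A) key'
    rw [map_mul, map_mul, map_mul, r', mul_zero, zero_mul] at h2
    exact mul_ne_zero g₁.2.2 gZ₂'.2.2 h2
  have hcA : c ∈ A := (A.mem_or_inv_mem c).resolve_right hinv
  refine ⟨hcA, ?_⟩
  rw [IsLocalRing.residue_eq_zero_iff, IsLocalRing.mem_maximalIdeal, mem_nonunits_iff]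
  intro hu
  obtain ⟨u, hu⟩ := hu
  apply hinv
  have h3 : ((u⁻¹ : (↥A)ˣ) : Kb) = c⁻¹ := by
    have h4 : ((u : A) : Kb) * ((u⁻¹ : (↥A)ˣ) : Kb) = 1 := by
      exact congrArg (Subtype.val) (Units.mul_inv u)
    rw [hu] at h4
    exact eq_inv_of_mul_eq_one_right h4
  rw [← h3]
  exact ((u⁻¹ : (↥A)ˣ) : A).2

/-- **(ARCH for `w₁`)**: a function of positive valuation has a power which absorbs any given
function. -/
theorem exists_pow_mul_isRedZero_abs [NeZero M] (hSC : ScaleStatement M A)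
    (hArch : Fermat.Agent.P2.helper74.Arch A (IsLocalRing.residue A))
    {π f : FF M} (hπ0 : π ≠ 0) (hπ : IsRedZero A M (π : LaurentSeries Kb)) (hf : f ≠ 0) :
    ∃ k : ℕ, IsRedZero A M ((π ^ k * f : FF M) : LaurentSeries Kb) := by
  obtain ⟨cπ, Z₁, Z₂, -, gZ₁, gZ₂, eZ⟩ :=
    hSC π π.2 (fun h => hπ0 (Subtype.ext h))
  obtain ⟨c, Y₁, Y₂, hc, gY₁, gY₂, eY⟩ := hSC f f.2 (fun h => hf (Subtype.ext h))
  obtain ⟨hcπA, hres⟩ := const_mem_of_isRedZero gZ₁ eZ hπ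
  have hn : ∃ n : ℕ, cπ ^ n * c ∈ A := by
    rcases A.mem_or_inv_mem c with h | h
    · exact ⟨0, by rwa [pow_zero, one_mul]⟩
    · have he : (⟨c⁻¹, h⟩ : A) ≠ 0 := by
        intro h0
        exact inv_ne_zero hc (congrArg Subtype.val h0)
      obtain ⟨n, t, ht⟩ := hArch ⟨cπ, hcπA⟩ hres ⟨c⁻¹, h⟩ he
      refine ⟨n, ?_⟩
      have h1 : cπ ^ n = c⁻¹ * (t : Kb) := by
        have := congrArg Subtype.val ht
        simpa using this
      rw [h1, mul_comm, ← mul_assoc, mul_inv_cancel₀ hc, one_mul]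
      exact t.2
  obtain ⟨n, hn⟩ := hn
  refine ⟨n + 1, ?_⟩
  have hval : cπ ^ (n + 1) * c ∈ A := by
    have h1 : cπ ^ (n + 1) * c = cπ * (cπ ^ n * c) := by ring
    rw [h1]
    exact A.mul_mem _ _ hcπA hn
  have hares : IsLocalRing.residue A ⟨cπ ^ (n + 1) * c, hval⟩ = 0 := by
    have h1 : (⟨cπ ^ (n + 1) * c, hval⟩ : A) = ⟨cπ, hcπA⟩ * ⟨cπ ^ n * c, hn⟩ := by
      apply Subtype.ext
      show cπ ^ (n + 1) * c = cπ * (cπ ^ n * c)
      ring
    rw [h1, map_mul, hres, zero_mul]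
  refine ⟨constA (⟨cπ ^ (n + 1) * c, hval⟩ : A) * Z₁ ^ (n + 1) * Y₁, Z₂ ^ (n + 1) * Y₂, ?_,
    (isGood_pow gZ₂ _).mul gY₂, ?_, ?_⟩
  · rw [map_mul, map_mul, map_pow, coeffMap_subtype_constA]
    exact mul_mem (mul_mem ((FF M).algebraMap_mem _) (pow_mem gZ₁.1 _)) gY₁.1
  · rw [map_mul, map_mul, map_pow, coeffMap_subtype_constA, map_mul, map_pow]
    have e1 : ((π ^ (n + 1) * f : FF M) : LaurentSeries Kb)
        = (π : LaurentSeries Kb) ^ (n + 1) * (f : LaurentSeries Kb) := rfl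
    rw [e1, map_mul, map_pow]
    calc algebraMap Kb (LaurentSeries Kb) cπ ^ (n + 1) * algebraMap Kb (LaurentSeries Kb) c
          * incl A Z₁ ^ (n + 1) * incl A Y₁
        = (algebraMap Kb (LaurentSeries Kb) cπ * incl A Z₁) ^ (n + 1)
          * (algebraMap Kb (LaurentSeries Kb) c * incl A Y₁) := by ring
      _ = (π : LaurentSeries Kb) ^ (n + 1) * (f : LaurentSeries Kb)
          * (incl A Z₂ ^ (n + 1) * incl A Y₂) := by rw [eZ, eY]; ring
  · rw [map_mul, map_mul, coeffMap_residue_constA, hares, map_zero, zero_mul, zero_mul]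

/-- `1 - e` has positive valuation if `e ≡ 1`. -/
theorem isRedZero_one_sub {e : FF M} (he : RedC A M e 1) :
    IsRedZero A M ((1 - e : FF M) : LaurentSeries Kb) := by
  obtain ⟨Y₁, Y₂, g₁, g₂, E, r⟩ := he
  rw [map_one, one_mul] at E
  refine ⟨Y₂ - Y₁, Y₂, ?_, g₂, ?_, ?_⟩
  · rw [map_sub]
    exact sub_mem g₂.1 g₁.1
  · rw [map_sub, E]
    have e1 : ((1 - e : FF M) : LaurentSeries Kb) = 1 - (e : LaurentSeries Kb) := rfl
    rw [e1]
    ring
  · rw [map_sub, r, sub_self]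

theorem redC_one_one : RedC A M (1 : FF M) 1 := by
  have := redC_const (A := A) (M := M) 1
  rwa [map_one] at this

/-- `u + z ≡ 1` if `u ≡ 1` and `z` has positive valuation. -/
theorem RedC.add_redZero' {u z : FF M} (hu : RedC A M u 1)
    (hz : IsRedZero A M (z : LaurentSeries Kb)) : RedC A M (u + z) 1 := by
  have := hu.add_redZero hz 1 (one_mem A)
  rwa [map_one, one_mul] at this

/-- **(P1)** for `R ≠ 0` there is `g ≠ 0` with `g ≡ 1` for `w₁` and `g R ≡ 1` for `w₂`. -/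
theorem pairApprox_one_abs [NeZero M] (W : FF M ≃ₐ[Kb] FF M) (hSC : ScaleStatement M A)
    (hArch : Fermat.Agent.P2.helper74.Arch A (IsLocalRing.residue A))
    (hsep : ∃ e : FF M, IsRedOne A M (e : LaurentSeries Kb) ∧
      IsRedZero A M ((W e : FF M) : LaurentSeries Kb))
    (R : FF M) (hR : R ≠ 0) :
    ∃ g : FF M, g ≠ 0 ∧ IsRedOne A M (g : LaurentSeries Kb) ∧
      IsRedOne A M ((W (g * R) : FF M) : LaurentSeries Kb) := by
  obtain ⟨e, he1, heW⟩ := hsep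
  have he : RedC A M e 1 := redC_one_iff.mpr he1
  have he0 : e ≠ 0 := he.ne_zero one_ne_zero
  have hWe0 : W e ≠ 0 := (map_ne_zero W).mpr he0
  -- `e' = 1 - e`
  have he' : IsRedZero A M ((1 - e : FF M) : LaurentSeries Kb) := isRedZero_one_sub he
  have hWe' : RedC A M (W (1 - e)) 1 := by
    have h1 := (redC_one_one (A := A) (M := M)).add_redZero heW (-1) (neg_mem (one_mem A))
    have h2 : (1 : FF M) + algebraMap Kb (FF M) (-1) * W e = W (1 - e) := by
      rw [map_neg, map_one, map_sub, map_one]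
      ring
    rwa [h2] at h1
  have hWe'0 : W (1 - e) ≠ 0 := hWe'.ne_zero one_ne_zero
  have he'0 : (1 - e : FF M) ≠ 0 := fun h => hWe'0 (by rw [h, map_zero])
  obtain ⟨b, hb⟩ := exists_pow_mul_isRedZero_abs hSC hArch he'0 he' (inv_ne_zero hR)
  obtain ⟨a, ha⟩ := exists_pow_mul_isRedZero_abs hSC hArch hWe0 heW ((map_ne_zero W).mpr hR)
  have hg : RedC A M (e ^ a + (1 - e) ^ b * R⁻¹) 1 := by
    have h1 := (he.pow a).congr (one_pow a)
    exact h1.add_redZero' hb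
  have hWg : RedC A M (W ((e ^ a + (1 - e) ^ b * R⁻¹) * R)) 1 := by
    have h1 : W ((e ^ a + (1 - e) ^ b * R⁻¹) * R) = W (1 - e) ^ b + W e ^ a * W R := by
      have h2 : (e ^ a + (1 - e) ^ b * R⁻¹) * R = (1 - e) ^ b + e ^ a * R := by
        field_simp
        ring
      rw [h2, map_add, map_mul, map_pow, map_pow]
    rw [h1]
    exact ((hWe'.pow b).congr (one_pow b)).add_redZero' ha
  exact ⟨e ^ a + (1 - e) ^ b * R⁻¹, hg.ne_zero one_ne_zero, redC_one_iff.mp hg,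
    redC_one_iff.mp hWg⟩

/-- **(P2)** weak approximation for the pair `(w₁, w₂)`: for `f₁, f₂ ≠ 0` there is `r ≠ 0`
with `r ≡ f₁` for `w₁` and `r ≡ f₂` for `w₂ = w₁ ∘ W` (to first order). -/
theorem pairApprox_abs [NeZero M] (W : FF M ≃ₐ[Kb] FF M) (hSC : ScaleStatement M A)
    (hArch : Fermat.Agent.P2.helper74.Arch A (IsLocalRing.residue A))
    (hsep : ∃ e : FF M, IsRedOne A M (e : LaurentSeries Kb) ∧
      IsRedZero A M ((W e : FF M) : LaurentSeries Kb))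
    (f₁ f₂ : FF M) (h₁ : f₁ ≠ 0) (h₂ : f₂ ≠ 0) :
    ∃ r : FF M, r ≠ 0 ∧ IsRedOne A M ((r * f₁⁻¹ : FF M) : LaurentSeries Kb) ∧
      IsRedOne A M ((W (r * f₂⁻¹) : FF M) : LaurentSeries Kb) := by
  obtain ⟨g, hg0, hg, hgW⟩ :=
    pairApprox_one_abs W hSC hArch hsep (f₁ * f₂⁻¹) (mul_ne_zero h₁ (inv_ne_zero h₂))
  refine ⟨f₁ * g, mul_ne_zero h₁ hg0, ?_, ?_⟩
  · have h1 : f₁ * g * f₁⁻¹ = g := by
      field_simp
    rwa [h1]
  · have h1 : f₁ * g * f₂⁻¹ = g * (f₁ * f₂⁻¹) := by ring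
    rwa [h1]

/-- **(P2')** for `f₁, f₂ ≠ 0` there is `r ≠ 0` with `r ≡ f₁` and `W r ≡ f₂` for `w₁`. -/
theorem pairApprox_abs' [NeZero M] (W : FF M ≃ₐ[Kb] FF M) (hSC : ScaleStatement M A)
    (hArch : Fermat.Agent.P2.helper74.Arch A (IsLocalRing.residue A))
    (hsep : ∃ e : FF M, IsRedOne A M (e : LaurentSeries Kb) ∧
      IsRedZero A M ((W e : FF M) : LaurentSeries Kb))
    (f₁ f₂ : FF M) (h₁ : f₁ ≠ 0) (h₂ : f₂ ≠ 0) :
    ∃ r : FF M, r ≠ 0 ∧ IsRedOne A M ((r * f₁⁻¹ : FF M) : LaurentSeries Kb) ∧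
      IsRedOne A M ((W r * f₂⁻¹ : FF M) : LaurentSeries Kb) := by
  obtain ⟨r, hr0, hr1, hr2⟩ := pairApprox_abs W hSC hArch hsep f₁ (W.symm f₂) h₁
    ((map_ne_zero W.symm).mpr h₂)
  refine ⟨r, hr0, hr1, ?_⟩
  have h1 : W (r * (W.symm f₂)⁻¹) = W r * f₂⁻¹ := by
    rw [map_mul, map_inv₀, AlgEquiv.apply_symm_apply]
  rwa [h1] at hr2

/-- **(lift form)** for a nonzero element `x` of the special fibre field there is `G ≡ 1` for
`w₁` such that `W G` is a `w₁`-unit with reduction `x`. -/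
theorem pairApprox_lift_abs [NeZero M] (W : FF M ≃ₐ[Kb] FF M) (hSC : ScaleStatement M A)
    (hArch : Fermat.Agent.P2.helper74.Arch A (IsLocalRing.residue A))
    (hsep : ∃ e : FF M, IsRedOne A M (e : LaurentSeries Kb) ∧
      IsRedZero A M ((W e : FF M) : LaurentSeries Kb))
    (x : LaurentSeries (kA A)) (hx : x ∈ FFb A M) (hx0 : x ≠ 0) :
    ∃ G : FF M, G ≠ 0 ∧ IsRedOne A M (G : LaurentSeries Kb) ∧
      ∃ Y₁ Y₂ : LaurentSeries A, IsGood A M Y₁ ∧ IsGood A M Y₂ ∧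
        incl A Y₁ = ((W G : FF M) : LaurentSeries Kb) * incl A Y₂ ∧
        red A Y₁ = x * red A Y₂ := by
  rcases exists_good_lift (A := A) (N := M) hx with h | ⟨P, Q, gP, gQ, hPQ⟩
  · exact absurd h hx0
  have hQ0 : incl A Q ≠ 0 := incl_ne_zero_of_isGood gQ
  have hP0 : incl A P ≠ 0 := incl_ne_zero_of_isGood gP
  set f₂ : FF M := ⟨incl A P, gP.1⟩ * (⟨incl A Q, gQ.1⟩ : FF M)⁻¹ with hf₂
  have hf₂0 : f₂ ≠ 0 := by
    refine mul_ne_zero (fun h => hP0 (congrArg Subtype.val h)) (inv_ne_zero ?_)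
    exact fun h => hQ0 (congrArg Subtype.val h)
  have hf₂v : (f₂ : LaurentSeries Kb) * incl A Q = incl A P := by
    have e1 : (f₂ : LaurentSeries Kb) = incl A P * (incl A Q)⁻¹ := rfl
    rw [e1, mul_assoc, inv_mul_cancel₀ hQ0, mul_one]
  obtain ⟨G, hG0, hG1, Y₁, Y₂, g₁, g₂, E, r⟩ :=
    pairApprox_abs' W hSC hArch hsep 1 f₂ one_ne_zero hf₂0
  have hG1' : IsRedOne A M (G : LaurentSeries Kb) := by
    have h1 : G * (1 : FF M)⁻¹ = G := by rw [inv_one, mul_one]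
    rwa [h1] at hG1
  refine ⟨G, hG0, hG1', Y₁ * P, Y₂ * Q, g₁.mul gP, g₂.mul gQ, ?_, ?_⟩
  · rw [map_mul, map_mul, E]
    have e1 : ((W G * f₂⁻¹ : FF M) : LaurentSeries Kb)
        = ((W G : FF M) : LaurentSeries Kb) * (f₂ : LaurentSeries Kb)⁻¹ := rfl
    have hf₂' : (f₂ : LaurentSeries Kb) ≠ 0 := fun h => hf₂0 (Subtype.ext h)
    rw [e1, ← hf₂v]
    field_simp
  · rw [map_mul, map_mul, r, ← hPQ]
    ring

end Abstract

/-! ## The instance `M = N q`, `W = w_q`, `A ∣ q` -/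

section Instance

variable (N q : ℕ) [NeZero N] [NeZero q] (hq : q.Prime) (hqN : ¬ q ∣ N)
  (A : ValuationSubring Kb) (hA : A.LiesOverPrime q)

open Fermat.Agent.T2.helper36

include hq hqN hA

/-- **(ARCH for `w₁`)** at level `N q`, `A ∣ q`. -/
theorem exists_pow_mul_isRedZero {π f : FF (N * q)} (hπ0 : π ≠ 0)
    (hπ : IsRedZero A (N * q) (π : LaurentSeries Kb)) (hf : f ≠ 0) :
    ∃ k : ℕ, IsRedZero A (N * q) ((π ^ k * f : FF (N * q)) : LaurentSeries Kb) :=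
  exists_pow_mul_isRedZero_abs (scaleStatement_bad hq hqN A hA)
    (Fermat.Agent.P2.helper74.arch_algebraicClosure A q hq hA) hπ0 hπ hf

/-- **(P1)** at level `N q`: for `R ≠ 0` there is `g ≠ 0` with `g ≡ 1` for `w₁` and
`g R ≡ 1` for `w₂`. -/
theorem pairApprox_one (R : FF (N * q)) (hR : R ≠ 0) :
    ∃ g : FF (N * q), g ≠ 0 ∧ IsRedOne A (N * q) (g : LaurentSeries Kb) ∧
      IsRedOne A (N * q) ((atkinLehner N q hq hqN (g * R) : FF (N * q)) : LaurentSeries Kb) :=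
  pairApprox_one_abs (atkinLehner N q hq hqN) (scaleStatement_bad hq hqN A hA)
    (Fermat.Agent.P2.helper74.arch_algebraicClosure A q hq hA)
    (sepStatement N q hq hqN A hA) R hR

/-- **[T2-PAIR-APPROX]** weak approximation for the pair of Gauss valuations of `F_{N q}` at
`A ∣ q`: for `f₁, f₂ ≠ 0` there is `r ≠ 0` with `r / f₁ ≡ 1` for `w₁` and `r / f₂ ≡ 1` for
`w₂ = w₁ ∘ w_q`. -/
theorem pairApprox (f₁ f₂ : FF (N * q)) (h₁ : f₁ ≠ 0) (h₂ : f₂ ≠ 0) :
    ∃ r : FF (N * q), r ≠ 0 ∧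
      IsRedOne A (N * q) ((r * f₁⁻¹ : FF (N * q)) : LaurentSeries Kb) ∧
      IsRedOne A (N * q)
        ((atkinLehner N q hq hqN (r * f₂⁻¹) : FF (N * q)) : LaurentSeries Kb) :=
  pairApprox_abs (atkinLehner N q hq hqN) (scaleStatement_bad hq hqN A hA)
    (Fermat.Agent.P2.helper74.arch_algebraicClosure A q hq hA)
    (sepStatement N q hq hqN A hA) f₁ f₂ h₁ h₂

/-- for `f₁, f₂ ≠ 0` there is `r ≠ 0` with `r / f₁ ≡ 1` and `w_q r / f₂ ≡ 1` for `w₁`. -/
theorem pairApprox' (f₁ f₂ : FF (N * q)) (h₁ : f₁ ≠ 0) (h₂ : f₂ ≠ 0) :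
    ∃ r : FF (N * q), r ≠ 0 ∧
      IsRedOne A (N * q) ((r * f₁⁻¹ : FF (N * q)) : LaurentSeries Kb) ∧
      IsRedOne A (N * q)
        ((atkinLehner N q hq hqN r * f₂⁻¹ : FF (N * q)) : LaurentSeries Kb) :=
  pairApprox_abs' (atkinLehner N q hq hqN) (scaleStatement_bad hq hqN A hA)
    (Fermat.Agent.P2.helper74.arch_algebraicClosure A q hq hA)
    (sepStatement N q hq hqN A hA) f₁ f₂ h₁ h₂

/-- for `x ≠ 0` in the special fibre field there is `G ≡ 1` for `w₁` such that `w_q G` is a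
`w₁`-unit with reduction `x`. -/
theorem pairApprox_lift (x : LaurentSeries (kA A)) (hx : x ∈ FFb A (N * q)) (hx0 : x ≠ 0) :
    ∃ G : FF (N * q), G ≠ 0 ∧ IsRedOne A (N * q) (G : LaurentSeries Kb) ∧
      ∃ Y₁ Y₂ : LaurentSeries A, IsGood A (N * q) Y₁ ∧ IsGood A (N * q) Y₂ ∧
        incl A Y₁ = ((atkinLehner N q hq hqN G : FF (N * q)) : LaurentSeries Kb) * incl A Y₂ ∧
        red A Y₁ = x * red A Y₂ :=
  pairApprox_lift_abs (atkinLehner N q hq hqN) (scaleStatement_bad hq hqN A hA)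
    (Fermat.Agent.P2.helper74.arch_algebraicClosure A q hq hA)
    (sepStatement N q hq hqN A hA) x hx hx0

end Instance

end Fermat.Agent.T2.helper20

end
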