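import Mathlib
import Fermat.Agent.T2.helper22_PairIdealInst
import Fermat.Agent.T2.helper45_Integrality2
import Fermat.Agent.T2.helper87_RegRed2U
import Fermat.Agent.T2.helper96_Sat
import Fermat.Agent.T2.helper72_SNInst
import Fermat.Agent.P2.helper96_GenFinal2
import Fermat.Agent.P2.helper29_Core3

/-!
# Tier 2 (helper22): the ideal step at the levels `N * q`, `N` a good level — unconditional

All inputs of `idealStep2` / `pairIdeal_atkinLehner` are on main:
`Integrality2` (helper45), `RegRed2` (helper87), `Sat2` (helper96), `SN2` (helper72), with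
`SurjRedStatement N A` from P2 at the good level `N` (`4 ∣ N` or `9 ∣ N`, `A` over `q ∤ N`).

* `surjRed_good` : `SurjRedStatement N A` for good pairs;
* `idealStep2_good` : `IdealStep2Statement (N * q) A (atkinLehner N q) n`;
* `pairIdeal_good` : `PairIdealStatement (N * q) (atkinLehner N q) A n` (helper72's interface).
-/

set_option autoImplicit false
set_option linter.unusedSectionVars false

noncomputable section

namespace Fermat.Agent.T2.helper22

open HahnSeries IntermediateField AlgebraicCurve ModularCurve
open Fermat.Agent.S18.helper19 Fermat.Agent.P2.helper29 Fermat.Agent.P2.helper22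
open Fermat.Agent.P2

/-- **[SURJ]** at good pairs, unconditional (P2). -/
theorem surjRed_good (N : ℕ) [NeZero N] (A : ValuationSubring Kb) (hG : GoodPair N A) :
    SurjRedStatement N A :=
  helper96.surjRed_of_regRed_tameBase N A hG (helper81.regRedStatement N A hG.2)
    (helper43.tameBase N A hG)

section Good

variable (N q : ℕ) [NeZero N] [NeZero q] (hq : q.Prime) (hqN : ¬ q ∣ N)
  (hN : 4 ∣ N ∨ 9 ∣ N) (A : ValuationSubring Kb) (hA : A.LiesOverPrime q)

include hq hqN hN hA in
theorem goodPair_of : GoodPair N A := ⟨hN, q, hq, hqN, hA⟩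

include hN hA in
/-- **[T2-SAT]** at the level `N * q`, `N` good, unconditional. -/
theorem sat2_good : Sat2Statement (N * q) A (Fermat.Agent.T2.helper36.atkinLehner N q hq hqN) :=
  Fermat.Agent.T2.helper96.sat2 N q hq hqN A (surjRed_good N A (goodPair_of N q hq hqN hN A hA))

/-- **[REG-alpha]** in helper72's shape. -/
theorem regAlpha_good :
    Fermat.Agent.T2.helper72.RegAlphaStatement N q
      (Fermat.Agent.T2.helper36.atkinLehner N q hq hqN) :=
  fun _ _ h _ => Fermat.Agent.T2.helper96.isReg2_alpha N q hq hqN h

include hN hA in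
/-- **[T2-SN]** at the level `N * q`, `N` good, unconditional. -/
theorem sn2_good : SN2Statement (N * q) A (Fermat.Agent.T2.helper36.atkinLehner N q hq hqN) :=
  Fermat.Agent.T2.helper72.sn2Statement N q hq hqN A hA
    (surjRed_good N A (goodPair_of N q hq hqN hN A hA)) (regAlpha_good N q hq hqN)

include hN hA in
/-- **[T2-IDEAL2]** the tier-2 ideal step at the level `N * q`, `N` good, `A` over `q`:
unconditional. -/
theorem idealStep2_good {n : ℕ} (hn : 0 < n) :
    IdealStep2Statement (N * q) A (Fermat.Agent.T2.helper36.atkinLehner N q hq hqN) n :=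
  idealStep2 (Fermat.Agent.T2.helper36.atkinLehner_atkinLehner N q hq hqN)
    (Fermat.Agent.T2.helper58.scaleStatement_bad N q hq hqN A hA)
    (Fermat.Agent.T2.helper45.integrality2Statement N q hq hqN A)
    (Fermat.Agent.T2.helper87.regRed2_holds N q hq hqN A hA)
    (sat2_good N q hq hqN hN A hA) (sn2_good N q hq hqN hN A hA)
    (helper95.riemannSetting_FFb (N * q) A) (exists_sep_atkinLehner N q hq hqN) hn

include hN hA in
/-- **[T2-IDEAL-INST]** `PairIdealStatement` (helper72's interface) at the level `N * q`,
`N` good, `A` over `q`: unconditional. -/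
theorem pairIdeal_good {n : ℕ} (hn : 0 < n) :
    Fermat.Agent.T2.PairIdealStatement (N * q)
      (Fermat.Agent.T2.helper36.atkinLehner N q hq hqN) A n :=
  pairIdeal_atkinLehner N q hq hqN A hA
    (Fermat.Agent.T2.helper45.integrality2Statement N q hq hqN A)
    (Fermat.Agent.T2.helper87.regRed2_holds N q hq hqN A hA)
    (sat2_good N q hq hqN hN A hA) (sn2_good N q hq hqN hN A hA) hn

end Good

end Fermat.Agent.T2.helper22
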