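/-
TIER 2 (S35), helper2: assemblies of the S35 core.

* `cong_of`     : **[T2-CONG]** `CongStatement` from `ScaleStatement` at the bad level (helper36),
                  `NormRedStatement` (`helper2.normRed`) and `PairApproxStatement`.
* `frobCore_of` : **S35-CORE** `FrobCoreStatement` from `CongStatement` and `T0FrobStatement`.
-/
import Fermat.Agent.T2.helper2_FrobDefs
import Fermat.Agent.T2.helper20_Kum

set_option autoImplicit false
set_option linter.unusedSectionVars false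
set_option linter.unusedVariables false
set_option linter.style.haveILetI false

noncomputable section

open HahnSeries IntermediateField AlgebraicCurve ModularCurve
open Fermat.Agent.S18.helper19 Fermat.Agent.P2.helper29 Fermat.Agent.P2.helper93

namespace Fermat.Agent.T2.helper2

open Fermat.Agent.T2 Fermat.Agent.P3.helper94 Fermat.Agent.T2.helper20

/-- classes with the same Kummer representative are equal -/
theorem isKummerRep_class_unique {K F : Type*} [Field K] [Field F] [Algebra K F] {n : ℕ}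
    (hn : n ≠ 0) {x x' : Pic0 K F} {h : F} (H : IsKummerRep n x h) (H' : IsKummerRep n x' h) :
    x = x' := by
  have h0 := H.sub H'
  rw [mul_inv_cancel₀ H.ne_zero] at h0
  exact sub_eq_zero.mp (h0.eq_zero_of_eq_pow hn (one_pow n).symm)

section Cong

variable (M q : ℕ) [NeZero M] [NeZero q]

theorem uKummer_ne_zero {f : FF M} (hf : f ≠ 0) : helper48.uKummer M q f ≠ 0 := by
  intro h0
  have h1 : helper48.uKummer M q (f * f⁻¹) = 1 := by
    rw [mul_inv_cancel₀ hf, helper48.uKummer_one]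
  rw [helper48.uKummer_mul, h0, zero_mul] at h1
  exact zero_ne_one h1

theorem uKummer_const (c : Kb) :
    ∃ d : ℕ, helper48.uKummer M q (algebraMap Kb (FF M) c) = algebraMap Kb (FF M) (c ^ d) :=
  norm_along_const (heckeBetaBar Kb M q) (heckeAlphaBar Kb M q) c

variable {M q}

/-- **(c1)** for every nonzero `f` and every Frobenius `φ` at `A ∣ q`, the function
`φ f / U_q f` is `≡ c` at `w₁` for a nonzero constant `c`. -/
theorem redC_frob_div_u (hq : q.Prime) {A : ValuationSubring Kb} (hA : A.LiesOverPrime q)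
    (hSC : ScaleStatement M A) (hNR : NormRedStatement M q A)
    {φ : Kb ≃ₐ[ℚ] Kb} (hφ : A.IsFrobeniusAt φ q) (f : FF M) (hf : f ≠ 0) :
    ∃ c : Kb, c ≠ 0 ∧ RedC A M (galF M φ f * (helper48.uKummer M q f)⁻¹) c := by
  haveI : Fact q.Prime := ⟨hq⟩
  haveI : CharP (kA A) q := charP_residueField hq hA
  obtain ⟨hφ', hfr⟩ := decK_eq_frobenius_of_isFrobeniusAt (ℓ := q) hφ
  have hfL : (f : LaurentSeries Kb) ≠ 0 := fun h0 => hf (Subtype.ext h0)
  obtain ⟨c₀, Y₁, Y₂, hc₀, g₁, g₂, e⟩ := hSC (f : LaurentSeries Kb) f.2 hfL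
  set y₁ : FF M := ⟨incl A Y₁, g₁.1⟩ with hy₁
  set y₂ : FF M := ⟨incl A Y₂, g₂.1⟩ with hy₂
  have ef : algebraMap Kb (FF M) c₀ * y₁ = f * y₂ := Subtype.ext e
  obtain ⟨Y₁', e1, r1⟩ := hNR Y₁ g₁.1
  obtain ⟨Y₂', e2, r2⟩ := hNR Y₂ g₂.1
  obtain ⟨d, hd⟩ := uKummer_const M q c₀
  have eU := congrArg (helper48.uKummer M q) ef
  rw [helper48.uKummer_mul, helper48.uKummer_mul, hd] at eU
  have eG := congrArg (galF M φ) ef
  rw [map_mul, map_mul, galF_algebraMap] at eG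
  have rA : ∀ Y : LaurentSeries A,
      red A (actA φ hφ' Y) = coeffMap (frobenius (kA A) q) (red A Y) := by
    intro Y
    have h1 : red A (actA φ hφ' Y) = coeffMap (decK φ hφ') (red A Y) :=
      coeffMap_residue_actA φ hφ' Y
    rw [h1, hfr]
  have rU : ∀ Y Y' : LaurentSeries A, qExpand (kA A) q (red A Y') = red A Y ^ q →
      red A Y' = coeffMap (frobenius (kA A) q) (red A Y) := by
    intro Y Y' h
    apply Fermat.Agent.P2.helper94.qExpand_injective q
    rw [h, Fermat.Agent.P2.helper94.laurent_pow_char q]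
  have gU : ∀ (Y Y' : LaurentSeries A) (g : IsGood A M Y),
      incl A Y' = ((helper48.uKummer M q ⟨incl A Y, g.1⟩ : FF M) : LaurentSeries Kb) →
      qExpand (kA A) q (red A Y') = red A Y ^ q → IsGood A M Y' := by
    intro Y Y' g e r
    refine ⟨?_, ?_, ?_⟩
    · change incl A Y' ∈ FF M
      rw [e]
      exact (helper48.uKummer M q ⟨incl A Y, g.1⟩).2
    · change red A Y' ∈ FFb A M
      rw [rU Y Y' r]
      exact coeffMap_mem_fullC _ M g.2.1
    · change red A Y' ≠ 0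
      rw [rU Y Y' r]
      intro h0
      exact g.2.2 (cw_coeffMap_injective _ (frobenius (kA A) q).injective
        (h0.trans (map_zero _).symm))
  have gY₁' := gU Y₁ Y₁' g₁ e1 r1
  have gY₂' := gU Y₂ Y₂' g₂ e2 r2
  have hc₀d : c₀ ^ d ≠ 0 := pow_ne_zero d hc₀
  have hφc₀ : φ c₀ ≠ 0 := (map_ne_zero φ).mpr hc₀
  have hUf := uKummer_ne_zero M q hf
  have hy₂0 : y₂ ≠ 0 := fun h0 => incl_ne_zero_of_isGood g₂ (congrArg Subtype.val h0)
  have hUy₂ := uKummer_ne_zero M q hy₂0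
  have hGy₂ : galF M φ y₂ ≠ 0 := (map_ne_zero (galF M φ)).mpr hy₂0
  -- the identity in the function field
  have hy₁0 : y₁ ≠ 0 := fun h0 => incl_ne_zero_of_isGood g₁ (congrArg Subtype.val h0)
  have hUy₁ := uKummer_ne_zero M q hy₁0
  have hGy₁ : galF M φ y₁ ≠ 0 := (map_ne_zero (galF M φ)).mpr hy₁0
  have hcd : algebraMap Kb (FF M) (c₀ ^ d) ≠ 0 := (map_ne_zero _).mpr hc₀d
  have hGf : galF M φ f = algebraMap Kb (FF M) (φ c₀) * galF M φ y₁ * (galF M φ y₂)⁻¹ := by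
    rw [eq_mul_inv_iff_mul_eq₀ hGy₂]
    exact eG.symm
  have hUf' : helper48.uKummer M q f =
      algebraMap Kb (FF M) (c₀ ^ d) * helper48.uKummer M q y₁ *
        (helper48.uKummer M q y₂)⁻¹ := by
    rw [eq_mul_inv_iff_mul_eq₀ hUy₂]
    exact eU.symm
  have key : algebraMap Kb (FF M) (φ c₀ / c₀ ^ d) *
      (galF M φ y₁ * helper48.uKummer M q y₂) =
      galF M φ f * (helper48.uKummer M q f)⁻¹ *
        (galF M φ y₂ * helper48.uKummer M q y₁) := by
    rw [hGf, hUf', map_div₀]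
    field_simp
  refine ⟨φ c₀ / c₀ ^ d, div_ne_zero hφc₀ hc₀d, actA φ hφ' Y₁ * Y₂', actA φ hφ' Y₂ * Y₁',
    (isGood_actA hφ' g₁).mul gY₂', (isGood_actA hφ' g₂).mul gY₁', ?_, ?_⟩
  · have h3 := congrArg (fun z : FF M => (z : LaurentSeries Kb)) key
    have c1 : incl A (actA φ hφ' Y₁) = ((galF M φ y₁ : FF M) : LaurentSeries Kb) := by
      rw [coe_galF]
      exact coeffMap_subtype_actA φ hφ' Y₁
    have c2 : incl A (actA φ hφ' Y₂) = ((galF M φ y₂ : FF M) : LaurentSeries Kb) := by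
      rw [coe_galF]
      exact coeffMap_subtype_actA φ hφ' Y₂
    rw [map_mul, map_mul, c1, c2, e1, e2]
    exact h3
  · rw [map_mul, map_mul, rA, rA, rU Y₁ Y₁' r1, rU Y₂ Y₂' r2, mul_comm]

/-- **[T2-CONG]**. -/
theorem cong_of (p : ℕ) (hq : q.Prime) (W : FF M ≃ₐ[Kb] FF M)
    (hWgal : ∀ (σ : Kb ≃ₐ[ℚ] Kb) (x : FF M), W (galF M σ x) = galF M σ (W x))
    (hp : p ≠ 0)
    (hSC : ∀ A : ValuationSubring Kb, A.LiesOverPrime q → ScaleStatement M A)
    (hNR : ∀ A : ValuationSubring Kb, A.LiesOverPrime q → NormRedStatement M q A)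
    (hPA : ∀ A : ValuationSubring Kb, A.LiesOverPrime q → PairApproxStatement M W A) :
    CongStatement M q p W := by
  intro A hA φ hφ x k hx ε δ hε hδ hU hW
  haveI := hasPD M
  have hn : p ^ k ≠ 0 := pow_ne_zero k hp
  obtain ⟨h, H⟩ := exists_isKummerRep hx
  have Hφ : IsKummerRep (p ^ k) (φ • x) (galF M φ h) := H.galois_smul_jZero φ
  have HU : IsKummerRep (p ^ k) (helper48.uJ M q x) (helper48.uKummer M q h) :=
    helper48.IsKummerRep.uJ M q H
  have Hy : IsKummerRep (p ^ k) (φ • x - ε • x)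
      (galF M φ h * (helper48.uKummer M q h)⁻¹) := by
    rw [← hU]
    exact Hφ.sub HU
  have HW : IsKummerRep (p ^ k) (W • x) (W h) := H.algEquiv_smul W
  have HWφ : IsKummerRep (p ^ k) (φ • (W • x)) (galF M φ (W h)) := HW.galois_smul_jZero φ
  have HWU : IsKummerRep (p ^ k) (helper48.uJ M q (W • x)) (helper48.uKummer M q (W h)) :=
    helper48.IsKummerRep.uJ M q HW
  have HyW : IsKummerRep (p ^ k) (φ • (W • x) - helper48.uJ M q (W • x))
      (galF M φ (W h) * (helper48.uKummer M q (W h))⁻¹) := HWφ.sub HWU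
  have hφz : ∀ (m : ℤ) (z : JZero M), φ • (m • z) = m • (φ • z) := fun m z =>
    map_zsmul (DistribSMul.toAddMonoidHom (JZero M) φ) m z
  have hWz : ∀ (m : ℤ) (z : JZero M), W • (m • z) = m • (W • z) := fun m z =>
    map_zsmul (DistribSMul.toAddMonoidHom (JZero M) W) m z
  have e1 : φ • (W • x) - helper48.uJ M q (W • x) = δ • (φ • x - ε • x) := by
    rw [hW, map_zsmul, hU, hφz]
    exact (zsmul_sub _ _ _).symm
  have e3 : W • (φ • x) = φ • (W • x) := by
    refine isKummerRep_class_unique hn (Hφ.algEquiv_smul W) ?_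
    rw [hWgal]
    exact HWφ
  have e2 : W • (φ • x - ε • x) = δ • (φ • x - ε • x) := by
    rw [smul_sub, e3, hWz, hW, hφz, zsmul_sub, smul_comm δ ε x]
  have R1 : IsKummerRep (p ^ k) (δ • (φ • x - ε • x))
      (W (galF M φ h * (helper48.uKummer M q h)⁻¹)) := by
    rw [← e2]
    exact Hy.algEquiv_smul W
  have R2 : IsKummerRep (p ^ k) (δ • (φ • x - ε • x))
      (galF M φ (W h) * (helper48.uKummer M q (W h))⁻¹) := by
    rw [← e1]
    exact HyW
  obtain ⟨v, w, hv, hw, hvw⟩ := R2.unique R1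
  obtain ⟨c₀, hc₀⟩ := const_of_ord_eq_zero M w hw.2
  have hc₀0 : c₀ ≠ 0 := by
    rintro rfl
    rw [map_zero] at hc₀
    exact hw.1 hc₀.symm
  obtain ⟨c₁, hc₁, r1⟩ := redC_frob_div_u hq hA (hSC A hA) (hNR A hA) hφ h H.ne_zero
  obtain ⟨c₂, hc₂, r2⟩ := redC_frob_div_u hq hA (hSC A hA) (hNR A hA) hφ (W h) HW.ne_zero
  obtain ⟨τ, hτ⟩ := IsAlgClosed.exists_pow_nat_eq (c₁⁻¹ * c₀ * c₂) (Nat.pos_of_ne_zero hn)
  have hτ0 : τ ≠ 0 := by
    rintro rfl
    rw [zero_pow hn] at hτ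
    exact mul_ne_zero (mul_ne_zero (inv_ne_zero hc₁) hc₀0) hc₂ hτ.symm
  have hτv : algebraMap Kb (FF M) τ * v ≠ 0 := mul_ne_zero ((map_ne_zero _).mpr hτ0) hv
  obtain ⟨G, hG, g1, g2⟩ := hPA A hA (algebraMap Kb (FF M) τ * v) hτv
  refine ⟨galF M φ h * (helper48.uKummer M q h)⁻¹ *
      (algebraMap Kb (FF M) c₁⁻¹ * G ^ (p ^ k)),
    Hy.mul_pow hG (hasTrivialDiv_algebraMap (inv_ne_zero hc₁)), ?_, ?_⟩
  · rw [← redC_one_iff]
    have h1 := r1.mul (((redC_one_iff.mpr g1).pow (p ^ k)).const_mul c₁⁻¹)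
    refine h1.congr ?_
    rw [one_pow, mul_one, mul_inv_cancel₀ hc₁]
  · rw [← redC_one_iff]
    have hτn : algebraMap Kb (FF M) τ ^ (p ^ k) ≠ 0 :=
      pow_ne_zero _ ((map_ne_zero _).mpr hτ0)
    have e4 : W (galF M φ h * (helper48.uKummer M q h)⁻¹ *
        (algebraMap Kb (FF M) c₁⁻¹ * G ^ (p ^ k))) =
        galF M φ (W h) * (helper48.uKummer M q (W h))⁻¹ *
          (algebraMap Kb (FF M) (c₁⁻¹ * c₀ * (τ ^ (p ^ k))⁻¹) *
            (W G * (algebraMap Kb (FF M) τ * v)) ^ (p ^ k)) := by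
      rw [map_mul W, hvw, ← hc₀, map_mul W, AlgEquiv.commutes, map_pow]
      simp only [map_mul, map_inv₀, map_pow, mul_pow]
      field_simp
    rw [e4]
    have h1 := r2.mul (((redC_one_iff.mpr g2).pow (p ^ k)).const_mul
      (c₁⁻¹ * c₀ * (τ ^ (p ^ k))⁻¹))
    refine h1.congr ?_
    rw [one_pow, mul_one, hτ]
    field_simp

end Cong

/-- **S35-CORE** from `[T2-CONG]` and `[T2-FROB]`. -/
theorem frobCore_of (M q p : ℕ) [NeZero M] [NeZero q] (W : FF M ≃ₐ[Kb] FF M) (hp : p ≠ 0)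
    (hC : CongStatement M q p W)
    (hT : ∀ A : ValuationSubring Kb, A.LiesOverPrime q → ∀ k : ℕ,
      T0FrobStatement M W A q (p ^ k)) :
    FrobCoreStatement M q p W := by
  rintro A hA φ hφ x ⟨k, hx⟩ ε δ hε hδ hU hW
  have hn : p ^ k ≠ 0 := pow_ne_zero k hp
  obtain ⟨u, Hu, h1, h2⟩ := hC A hA φ hφ x k hx ε δ hε hδ hU hW
  obtain ⟨c, v, hcv⟩ := hT A hA k u Hu.ne_zero (fun P => Hu.dvd_ord P) h1 h2 φ hφ
  have H2 : IsKummerRep (p ^ k) (φ • φ • (φ • x - ε • x)) (galF M φ (galF M φ u)) :=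
    (Hu.galois_smul_jZero φ).galois_smul_jZero φ
  have H3 : IsKummerRep (p ^ k) ((q * q) • (φ • x - ε • x)) (u ^ (q * q)) := Hu.nsmul (q * q)
  have H4 := H2.sub H3
  have hu0 : u ^ (q * q) ≠ 0 := pow_ne_zero _ Hu.ne_zero
  have e : galF M φ (galF M φ u) * (u ^ (q * q))⁻¹ = algebraMap Kb (FF M) c * v ^ (p ^ k) := by
    rw [hcv]
    field_simp
  exact sub_eq_zero.mp (H4.eq_zero_of_eq_const_mul_pow hn e)

end Fermat.Agent.T2.helper2

end
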