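import Mathlib

/-!
# Tier 2, [T2-DICH] and [T2-UNIP]: the two abstract wiring lemmas (linear algebra only)

* `Fermat.Agent.T2.helper36.trace_sq_of_dichotomy` : the dichotomy behind the bad-prime clause of
  S35.  If `φ` satisfies `φ² - t φ + q = 0` on a torsion-free module `L`, `φ² = q²` on a submodule
  `T₀` (the toric part), and some `x ≠ 0` has `φ x - ε x ∈ T₀` with `ε² = 1`, then
  `t² = (q+1)²`.
* `Fermat.Agent.T2.helper36.trace_sq_of_congruences` : the same with the membership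
  `φ x - ε x ∈ T₀ = V₁ ⊓ V₂` derived from the two congruences `(φ - U) L ⊆ V₁`,
  `(φ - U') L ⊆ V₂` and the eigen-equations `U x = ε x = U' x`.
* `Fermat.Agent.T2.helper36.trace_eq_two_of_unipotent` : the wiring lemma of S34.  If
  `r² - t r + 1 = 0` and `(r - 1)² = 0` on a faithful module, then `t = 2`.
-/

set_option autoImplicit false

namespace Fermat.Agent.T2.helper36

section Dichotomy

variable {R : Type*} [CommRing R] [IsDomain R]
  {L : Type*} [AddCommGroup L] [Module R L] [Module.IsTorsionFree R L]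

/-- In a torsion-free module over a domain, `c • x = d • x` with `x ≠ 0` forces `c = d`. -/
theorem eq_of_smul_eq_smul_of_ne_zero {c d : R} {x : L} (hx : x ≠ 0) (h : c • x = d • x) :
    c = d := by
  have h0 : (c - d) • x = 0 := by rw [sub_smul, h, sub_self]
  rcases smul_eq_zero.mp h0 with h1 | h1
  · exact sub_eq_zero.mp h1
  · exact absurd h1 hx

/-- **[T2-DICH]** the dichotomy. -/
theorem trace_sq_of_dichotomy (φ : L →ₗ[R] L) (t q ε : R) (hq : q ≠ 0) (hε : ε * ε = 1)
    (hquad : ∀ v : L, φ (φ v) - t • φ v + q • v = 0)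
    (T₀ : Submodule R L) (hT₀ : ∀ v ∈ T₀, φ (φ v) = (q * q) • v)
    (x : L) (hx : x ≠ 0) (hx₀ : φ x - ε • x ∈ T₀) :
    t * t = (q + 1) * (q + 1) := by
  by_cases h0 : φ x - ε • x = 0
  · -- `φ x = ε x`
    have h1 : φ x = ε • x := sub_eq_zero.mp h0
    have h2 := hquad x
    rw [h1, map_smul, h1, smul_smul, smul_smul, hε] at h2
    have h3 : (t * ε) • x = (1 + q) • x := by
      have : (1 : R) • x - (t * ε) • x + q • x = 0 := h2
      rw [add_smul]
      have h4 : (1 : R) • x + q • x - (t * ε) • x = 0 := by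
        rw [← this]; abel
      exact (sub_eq_zero.mp h4).symm
    have h5 : t * ε = 1 + q := eq_of_smul_eq_smul_of_ne_zero hx h3
    have : t * t = (t * ε) * (t * ε) := by
      calc t * t = t * t * (ε * ε) := by rw [hε, mul_one]
        _ = (t * ε) * (t * ε) := by ring
    rw [this, h5]; ring
  · -- `x₀ := φ x - ε x ≠ 0` lies in `T₀`
    set x₀ := φ x - ε • x with hx₀def
    have h1 : φ (φ x₀) = (q * q) • x₀ := hT₀ x₀ hx₀
    have h2 := hquad x₀
    rw [h1] at h2
    -- `t φ x₀ = (q² + q) x₀`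
    have h3 : t • φ x₀ = (q * q + q) • x₀ := by
      rw [add_smul]
      have h4 : (q * q) • x₀ + q • x₀ - t • φ x₀ = 0 := by
        rw [← h2]; abel
      exact (sub_eq_zero.mp h4).symm
    -- apply `t φ` again
    have h5 : t • φ (t • φ x₀) = (t * t * (q * q)) • x₀ := by
      rw [map_smul, h1, smul_smul, smul_smul]
    have h6 : t • φ (t • φ x₀) = ((q * q + q) * (q * q + q)) • x₀ := by
      rw [h3, map_smul, smul_comm t (q * q + q) (φ x₀), h3, smul_smul]
    have h7 : t * t * (q * q) = (q * q + q) * (q * q + q) :=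
      eq_of_smul_eq_smul_of_ne_zero h0 (h5.symm.trans h6)
    have h8 : (t * t - (q + 1) * (q + 1)) * (q * q) = 0 := by
      have : (t * t - (q + 1) * (q + 1)) * (q * q) =
          t * t * (q * q) - (q * q + q) * (q * q + q) := by ring
      rw [this, h7, sub_self]
    rcases mul_eq_zero.mp h8 with h9 | h9
    · exact sub_eq_zero.mp h9
    · exact absurd (mul_self_eq_zero.mp h9) hq

/-- **[T2-DICH]**, congruence form: the toric part is `V₁ ⊓ V₂`, the kernels of the two
reductions; `U`, `U'` are the two `U_q`-operators. -/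
theorem trace_sq_of_congruences (φ U U' : L →ₗ[R] L) (t q ε : R) (hq : q ≠ 0)
    (hε : ε * ε = 1)
    (hquad : ∀ v : L, φ (φ v) - t • φ v + q • v = 0)
    (V₁ V₂ : Submodule R L)
    (hc₁ : ∀ v : L, φ v - U v ∈ V₁) (hc₂ : ∀ v : L, φ v - U' v ∈ V₂)
    (hT₀ : ∀ v ∈ V₁ ⊓ V₂, φ (φ v) = (q * q) • v)
    (x : L) (hx : x ≠ 0) (hU : U x = ε • x) (hU' : U' x = ε • x) :
    t * t = (q + 1) * (q + 1) := by
  refine trace_sq_of_dichotomy φ t q ε hq hε hquad (V₁ ⊓ V₂) hT₀ x hx ?_
  refine Submodule.mem_inf.mpr ⟨?_, ?_⟩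
  · have := hc₁ x; rwa [hU] at this
  · have := hc₂ x; rwa [hU'] at this

/-- Consequence: `t = q + 1` or `t = -(q + 1)`. -/
theorem trace_eq_or_eq_neg_of_congruences (φ U U' : L →ₗ[R] L) (t q ε : R) (hq : q ≠ 0)
    (hε : ε * ε = 1)
    (hquad : ∀ v : L, φ (φ v) - t • φ v + q • v = 0)
    (V₁ V₂ : Submodule R L)
    (hc₁ : ∀ v : L, φ v - U v ∈ V₁) (hc₂ : ∀ v : L, φ v - U' v ∈ V₂)
    (hT₀ : ∀ v ∈ V₁ ⊓ V₂, φ (φ v) = (q * q) • v)
    (x : L) (hx : x ≠ 0) (hU : U x = ε • x) (hU' : U' x = ε • x) :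
    t = q + 1 ∨ t = -(q + 1) :=
  mul_self_eq_mul_self_iff.mp
    (trace_sq_of_congruences φ U U' t q ε hq hε hquad V₁ V₂ hc₁ hc₂ hT₀ x hx hU hU')

end Dichotomy

section Unipotent

variable {R : Type*} [CommRing R] {L : Type*} [AddCommGroup L] [Module R L]

/-- **[T2-UNIP]** the wiring lemma of S34: if `r` is invertible, `r² - t r + 1 = 0` and
`(r - 1)² = 0`, then `(t - 2) • v = 0` for all `v`. -/
theorem sub_two_smul_eq_zero_of_unipotent (r : L →ₗ[R] L) (t : R)
    (hsurj : Function.Surjective r)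
    (hquad : ∀ v : L, r (r v) - t • r v + v = 0)
    (hunip : ∀ v : L, r (r v) - (2 : R) • r v + v = 0) (v : L) :
    (t - 2) • v = 0 := by
  obtain ⟨w, rfl⟩ := hsurj v
  have h1 := hquad w
  have h2 := hunip w
  have h3 : (t - 2) • r w = (r (r w) - (2 : R) • r w + w) - (r (r w) - t • r w + w) := by
    rw [sub_smul]; abel
  rw [h3, h1, h2, sub_self]

/-- **[T2-UNIP]**, faithful form: `t = 2`. -/
theorem trace_eq_two_of_unipotent (r : L →ₗ[R] L) (t : R)
    (hsurj : Function.Surjective r)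
    (hfaith : ∀ a : R, (∀ v : L, a • v = 0) → a = 0)
    (hquad : ∀ v : L, r (r v) - t • r v + v = 0)
    (hunip : ∀ v : L, r (r v) - (2 : R) • r v + v = 0) :
    t = 2 :=
  sub_eq_zero.mp
    (hfaith (t - 2) (sub_two_smul_eq_zero_of_unipotent r t hsurj hquad hunip))

end Unipotent

end Fermat.Agent.T2.helper36
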