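/-
T2-VAL (helper36), part 4: weak approximation `(F2)` for the pair of Gauss valuations
`w₁`, `w₂ = w₁ ∘ W` of `F_{Nℓ}` at `A ∣ ℓ`, and `helper72.PairScaleStatement`, VERBATIM.

* `exists_pair_unit` **(F2)**: for every constant `d ≠ 0` there is `g ∈ F_{Nℓ}` with
  `ρ₁(g) = 1` and `W g = d · (w₁-unit)`   (`w₁(g) = 0`, `w₂(g) = v(d)`).
* `pairScaleStatement : PairScaleStatement (N * ℓ) (atkinLehner N ℓ hℓ hℓN) A n` for `n ≠ 0`.

Inputs: `scaleStatement_bad` / `exists_rhoIs_bad` (part 3), (ARCH) = `helper74.arch_algebraicClosure`,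
`ℚ̄` algebraically closed.
-/
import Mathlib
import Fermat.Agent.P2.helper74_Arch
import Fermat.Agent.T2.helper72_Interface
import Fermat.Agent.T2.helper36_ValBad

set_option autoImplicit false
set_option linter.unusedSectionVars false
set_option linter.unusedVariables false
set_option linter.style.haveILetI false

noncomputable section

open HahnSeries ModularCurve AlgebraicCurve
open Fermat.Agent.S18.helper19 Fermat.Agent.P2.helper29 Fermat.Agent.S24 Fermat.Agent.P2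

namespace Fermat.Agent.T2.helper36

section Good

variable {A : ValuationSubring Kb} {M : ℕ}

/-- a `w₁`-unit up to the constant `c` is `c` times a quotient of good series -/
theorem RhoIs.exists_isGood {f : LaurentSeries Kb} {r : LaurentSeries (kA A)} {c : Kb}
    (h : RhoIs A M (algebraMap Kb (LaurentSeries Kb) c⁻¹ * f) r) (hc : c ≠ 0) (hr : r ≠ 0) :
    ∃ Y₁ Y₂ : LaurentSeries A, IsGood A M Y₁ ∧ IsGood A M Y₂ ∧
      algebraMap Kb (LaurentSeries Kb) c * incl A Y₁ = f * incl A Y₂ := by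
  obtain ⟨Y₁, Y₂, h1, h2, h3, h4⟩ := h
  have hY₁ : red A Y₁ ≠ 0 := by rw [h4]; exact mul_ne_zero hr h2.2.2
  refine ⟨Y₁, Y₂, h1.isGood hY₁, h2, ?_⟩
  rw [h3, ← mul_assoc, ← mul_assoc, ← map_mul, mul_inv_cancel₀ hc, map_one, one_mul]

end Good

section PairScale

variable {N ℓ : ℕ} [NeZero N] [NeZero ℓ] (hℓ : ℓ.Prime) (hℓN : ¬ ℓ ∣ N)
  (A : ValuationSubring Kb) (hA : A.LiesOverPrime ℓ)

include hℓ hℓN hA

theorem elU_ne_zero : elU N ℓ ≠ 0 := by
  intro h
  have h1 := coe_elU N ℓ A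
  rw [h] at h1
  exact incl_ne_zero_of_red_ne_zero (red_serU_ne_zero (A := A) hℓ) h1.symm

theorem elV_ne_zero : elV N ℓ ≠ 0 := by
  intro h
  have h1 := atkinLehner_elV N ℓ hℓ hℓN
  rw [h, map_zero] at h1
  exact elU_ne_zero hℓ hℓN A hA h1.symm

theorem elD_ne_zero : elD N ℓ ≠ 0 := by
  intro h
  have h1 := coe_elD N ℓ A
  rw [h] at h1
  exact incl_ne_zero_of_red_ne_zero (isGood_serD N hℓ hA).2.2 h1.symm

/-- the constant `c_γ` with `e₂ = c_γ · (w₁-unit)`; it lies in the maximal ideal of `A` -/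
theorem exists_gamma :
    ∃ (cγ : A) (rγ : LaurentSeries (kA A)), cγ ≠ 0 ∧ IsLocalRing.residue A cγ = 0 ∧ rγ ≠ 0 ∧
      RhoIs A (N * ℓ) (algebraMap Kb (LaurentSeries Kb) (cγ : Kb)⁻¹ *
        ((basW N ℓ 0 : FN (N * ℓ)) : LaurentSeries Kb)) rγ := by
  have hne : basW N ℓ 0 ≠ 0 := by
    rw [basW_zero]
    exact div_ne_zero (elV_ne_zero hℓ hℓN A hA) (elD_ne_zero hℓ hℓN A hA)
  obtain ⟨c, r, hc, hr, h⟩ := exists_rhoIs_bad hℓ hℓN A hA (basW N ℓ 0) hne
  have h0 := rhoIs_basW_zero hℓ A hA (N := N)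
  have hcr : RhoIs A (N * ℓ) (algebraMap Kb (LaurentSeries Kb) c) (0 * r⁻¹) := by
    have h1 := h0.mul (h.inv hr)
    have e : ((basW N ℓ 0 : FN (N * ℓ)) : LaurentSeries Kb) *
        (algebraMap Kb (LaurentSeries Kb) c⁻¹ *
          ((basW N ℓ 0 : FN (N * ℓ)) : LaurentSeries Kb))⁻¹ =
        algebraMap Kb (LaurentSeries Kb) c := by
      have hb : ((basW N ℓ 0 : FN (N * ℓ)) : LaurentSeries Kb) ≠ 0 :=
        fun h => hne (Subtype.ext h)
      rw [mul_inv, map_inv₀, inv_inv]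
      field_simp
    rwa [e] at h1
  rw [zero_mul] at hcr
  have hmem : c ∈ A := hcr.algebraMap_mem
  have hres : IsLocalRing.residue A ⟨c, hmem⟩ = 0 := by
    have := hcr.algebraMap_eq
    have h2 : algebraMap (kA A) (LaurentSeries (kA A)) (IsLocalRing.residue A ⟨c, hmem⟩) = 0 :=
      this.symm
    exact (map_eq_zero _).1 h2
  exact ⟨⟨c, hmem⟩, r, fun h => hc (congrArg Subtype.val h), hres, hr, h⟩

/-- **(F2)** for constants of `A` -/
theorem exists_pair_unit_of_mem (d : A) (hd : d ≠ 0) :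
    ∃ (g : FN (N * ℓ)) (r : LaurentSeries (kA A)), r ≠ 0 ∧
      RhoIs A (N * ℓ) ((g : FN (N * ℓ)) : LaurentSeries Kb) 1 ∧
      RhoIs A (N * ℓ) (algebraMap Kb (LaurentSeries Kb) (d : Kb)⁻¹ *
        ((atkinLehner N ℓ hℓ hℓN g : FN (N * ℓ)) : LaurentSeries Kb)) r := by
  obtain ⟨cγ, rγ, hcγ, hresγ, hrγ, hγ⟩ := exists_gamma hℓ hℓN A hA
  have hcγK : (cγ : Kb) ≠ 0 := fun h => hcγ (Subtype.ext h)
  have hArch := helper74.arch_algebraicClosure A ℓ hℓ hA
  obtain ⟨n, hn⟩ := hArch cγ hresγ d hd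
  have hW0 : atkinLehner N ℓ hℓ hℓN (bas N ℓ 0) = basW N ℓ 0 := atkinLehner_bas N ℓ hℓ hℓN 0
  have hW0' : atkinLehner N ℓ hℓ hℓN (basW N ℓ 0) = bas N ℓ 0 := by
    rw [← hW0, atkinLehner_atkinLehner]
  have h1 := rhoIs_bas_zero hℓ A hA (N := N)
  have h2 := rhoIs_basW_zero hℓ A hA (N := N)
  induction n generalizing d with
  | zero =>
    -- `d` is a unit
    rw [pow_zero] at hn
    have hu : IsUnit d := isUnit_of_dvd_one hn
    have hdK : (d : Kb) ≠ 0 := fun h => hd (Subtype.ext h)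
    refine ⟨1, algebraMap (kA A) (LaurentSeries (kA A)) (IsLocalRing.residue A (hu.unit⁻¹ : Aˣ)),
      ?_, ?_, ?_⟩
    · rw [Ne, map_eq_zero]
      exact (IsLocalRing.residue_ne_zero_iff_isUnit _).2 (Units.isUnit _)
    · exact rhoIs_one
    · rw [map_one]
      have h3 := rhoIs_algebraMap (A := A) (M := N * ℓ) ((hu.unit⁻¹ : Aˣ) : A)
      have e : (((hu.unit⁻¹ : Aˣ) : A) : Kb) = (d : Kb)⁻¹ := by
        have h4 : ((hu.unit⁻¹ : Aˣ) : A) * d = 1 := by
          have := hu.unit.inv_mul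
          rwa [IsUnit.unit_spec] at this
        have h5 : (((hu.unit⁻¹ : Aˣ) : A) : Kb) * (d : Kb) = 1 :=
          congrArg Subtype.val h4
        exact eq_inv_of_mul_eq_one_left h5
      rw [e] at h3
      have z : ((1 : FN (N * ℓ)) : LaurentSeries Kb) = 1 := rfl
      rw [z, mul_one]
      exact h3
  | succ n ih =>
    have hdK : (d : Kb) ≠ 0 := fun h => hd (Subtype.ext h)
    by_cases hdvd : cγ ∣ d
    · obtain ⟨d₁, rfl⟩ := hdvd
      have hd₁ : d₁ ≠ 0 := fun h => hd (by rw [h, mul_zero])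
      have hn₁ : d₁ ∣ cγ ^ n := by
        rw [pow_succ'] at hn
        exact (mul_dvd_mul_iff_left hcγ).1 hn
      obtain ⟨g₁, r₁, hr₁, k1, k2⟩ := ih d₁ hd₁ hn₁
      refine ⟨bas N ℓ 0 * g₁, rγ * r₁, mul_ne_zero hrγ hr₁, ?_, ?_⟩
      · have := h1.mul k1
        rw [one_mul] at this
        rw [IntermediateField.coe_mul]
        exact this
      · have := hγ.mul k2
        have e : algebraMap Kb (LaurentSeries Kb) ((cγ * d₁ : A) : Kb)⁻¹ *
            ((atkinLehner N ℓ hℓ hℓN (bas N ℓ 0 * g₁) : FN (N * ℓ)) : LaurentSeries Kb) =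
            algebraMap Kb (LaurentSeries Kb) (cγ : Kb)⁻¹ *
              ((basW N ℓ 0 : FN (N * ℓ)) : LaurentSeries Kb) *
            (algebraMap Kb (LaurentSeries Kb) (d₁ : Kb)⁻¹ *
              ((atkinLehner N ℓ hℓ hℓN g₁ : FN (N * ℓ)) : LaurentSeries Kb)) := by
          rw [map_mul, hW0, IntermediateField.coe_mul]
          have : ((cγ * d₁ : A) : Kb) = (cγ : Kb) * (d₁ : Kb) := rfl
          rw [this, mul_inv, map_mul]
          ring
        rw [e]
        exact this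
    · -- `d` divides `cγ` strictly
      have hdvd' : d ∣ cγ := by
        rcases ValuationRing.dvd_total d cγ with h | h
        · exact h
        · exact absurd h hdvd
      obtain ⟨d₂, hd₂⟩ := hdvd'
      have hd₂u : ¬ IsUnit d₂ := by
        intro hu
        apply hdvd
        obtain ⟨u, hu⟩ := hu
        refine ⟨((u⁻¹ : Aˣ) : A), ?_⟩
        rw [hd₂, ← hu, mul_assoc, Units.mul_inv, mul_one]
      have hres₂ : IsLocalRing.residue A d₂ = 0 := by
        rw [IsLocalRing.residue_eq_zero_iff]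
        exact (IsLocalRing.mem_maximalIdeal _).2 hd₂u
      refine ⟨bas N ℓ 0 + algebraMap Kb (FN (N * ℓ)) (d : Kb) * basW N ℓ 0, 1, one_ne_zero,
        ?_, ?_⟩
      · have := h1.add ((rhoIs_algebraMap (A := A) (M := N * ℓ) d).mul h2)
        rw [mul_zero, add_zero] at this
        rw [IntermediateField.coe_add, IntermediateField.coe_mul]
        exact this
      · have h3 := ((rhoIs_algebraMap (A := A) (M := N * ℓ) d₂).mul hγ).add h1
        rw [hres₂, map_zero, zero_mul, zero_add] at h3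
        have e : algebraMap Kb (LaurentSeries Kb) (d : Kb)⁻¹ *
            ((atkinLehner N ℓ hℓ hℓN
              (bas N ℓ 0 + algebraMap Kb (FN (N * ℓ)) (d : Kb) * basW N ℓ 0) : FN (N * ℓ)) :
              LaurentSeries Kb) =
            algebraMap Kb (LaurentSeries Kb) (d₂ : Kb) *
              (algebraMap Kb (LaurentSeries Kb) (cγ : Kb)⁻¹ *
                ((basW N ℓ 0 : FN (N * ℓ)) : LaurentSeries Kb)) +
            ((bas N ℓ 0 : FN (N * ℓ)) : LaurentSeries Kb) := by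
          rw [map_add, map_mul, hW0, hW0', AlgEquiv.commutes, IntermediateField.coe_add,
            IntermediateField.coe_mul]
          have hc : (cγ : Kb) = (d : Kb) * (d₂ : Kb) := congrArg Subtype.val hd₂
          have hd₂K : (d₂ : Kb) ≠ 0 := by
            intro h
            rw [h, mul_zero] at hc
            exact hcγK hc
          have hcoe : ((algebraMap Kb (FN (N * ℓ)) (d : Kb) : FN (N * ℓ)) : LaurentSeries Kb) =
              algebraMap Kb (LaurentSeries Kb) (d : Kb) := rfl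
          rw [hcoe, hc, mul_inv, map_mul, map_inv₀, map_inv₀]
          have hdL : algebraMap Kb (LaurentSeries Kb) (d : Kb) ≠ 0 := by
            rw [Ne, map_eq_zero]; exact hdK
          have hd₂L : algebraMap Kb (LaurentSeries Kb) (d₂ : Kb) ≠ 0 := by
            rw [Ne, map_eq_zero]; exact hd₂K
          field_simp
        rw [e]
        exact h3

/-- **(F2)**: weak approximation for the pair `(w₁, w₂)`: for every constant `d ≠ 0` there is a
function `g` with `ρ₁(g) = 1` and `W g = d · (w₁-unit)`. -/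
theorem exists_pair_unit (d : Kb) (hd : d ≠ 0) :
    ∃ (g : FN (N * ℓ)) (r : LaurentSeries (kA A)), r ≠ 0 ∧
      RhoIs A (N * ℓ) ((g : FN (N * ℓ)) : LaurentSeries Kb) 1 ∧
      RhoIs A (N * ℓ) (algebraMap Kb (LaurentSeries Kb) d⁻¹ *
        ((atkinLehner N ℓ hℓ hℓN g : FN (N * ℓ)) : LaurentSeries Kb)) r := by
  by_cases hdA : d ∈ A
  · exact exists_pair_unit_of_mem hℓ hℓN A hA ⟨d, hdA⟩ (fun h => hd (congrArg Subtype.val h))
  · have hinv : d⁻¹ ∈ A := (A.mem_or_inv_mem d).resolve_left hdA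
    obtain ⟨g, r, hr, k1, k2⟩ := exists_pair_unit_of_mem hℓ hℓN A hA ⟨d⁻¹, hinv⟩
      (fun h => inv_ne_zero hd (congrArg Subtype.val h))
    refine ⟨g⁻¹, r⁻¹, inv_ne_zero hr, ?_, ?_⟩
    · have := k1.inv one_ne_zero
      rw [inv_one] at this
      rw [IntermediateField.coe_inv]
      exact this
    · have := k2.inv hr
      have e : (algebraMap Kb (LaurentSeries Kb) ((⟨d⁻¹, hinv⟩ : A) : Kb)⁻¹ *
          ((atkinLehner N ℓ hℓ hℓN g : FN (N * ℓ)) : LaurentSeries Kb))⁻¹ =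
          algebraMap Kb (LaurentSeries Kb) d⁻¹ *
            ((atkinLehner N ℓ hℓ hℓN g⁻¹ : FN (N * ℓ)) : LaurentSeries Kb) := by
        rw [map_inv₀ (atkinLehner N ℓ hℓ hℓN) g, IntermediateField.coe_inv, mul_inv]
        show (algebraMap Kb (LaurentSeries Kb) (d⁻¹)⁻¹)⁻¹ * _ = _
        rw [inv_inv, map_inv₀]
      rw [e] at this
      exact this

/-- **[T2-VAL] pair scaling**, `helper72.PairScaleStatement` VERBATIM at the bad level. -/
theorem pairScaleStatement (n : ℕ) (hn : n ≠ 0) :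
    Fermat.Agent.T2.PairScaleStatement (N * ℓ) (atkinLehner N ℓ hℓ hℓN) A n := by
  intro h hh
  have hWh : atkinLehner N ℓ hℓ hℓN h ≠ 0 := fun h0 =>
    hh ((map_eq_zero_iff _ (atkinLehner N ℓ hℓ hℓN).injective).1 h0)
  obtain ⟨c₁, r₁, hc₁, hr₁, k1⟩ := exists_rhoIs_bad hℓ hℓN A hA h hh
  obtain ⟨c₂, r₂, hc₂, hr₂, k2⟩ := exists_rhoIs_bad hℓ hℓN A hA _ hWh
  obtain ⟨d, hd⟩ := IsAlgClosed.exists_pow_nat_eq (c₁ / c₂) (Nat.pos_of_ne_zero hn)
  have hd0 : d ≠ 0 := by
    intro h0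
    rw [h0, zero_pow hn] at hd
    exact div_ne_zero hc₁ hc₂ hd.symm
  obtain ⟨g, r, hr, g1, g2⟩ := exists_pair_unit hℓ hℓN A hA d hd0
  have hg0 : g ≠ 0 := by
    intro h0
    rw [h0] at g1
    exact one_ne_zero g1.eq_zero
  -- first expansion
  have p1 : RhoIs A (N * ℓ) (algebraMap Kb (LaurentSeries Kb) c₁⁻¹ *
      ((g ^ n * h : FN (N * ℓ)) : LaurentSeries Kb)) r₁ := by
    have := (g1.pow n).mul k1
    rw [one_pow, one_mul] at this
    have e : algebraMap Kb (LaurentSeries Kb) c₁⁻¹ *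
        ((g ^ n * h : FN (N * ℓ)) : LaurentSeries Kb) =
        ((g : FN (N * ℓ)) : LaurentSeries Kb) ^ n *
          (algebraMap Kb (LaurentSeries Kb) c₁⁻¹ * ((h : FN (N * ℓ)) : LaurentSeries Kb)) := by
      rw [IntermediateField.coe_mul, IntermediateField.coe_pow]
      ring
    rw [e]
    exact this
  -- second expansion
  have p2 : RhoIs A (N * ℓ) (algebraMap Kb (LaurentSeries Kb) c₁⁻¹ *
      ((atkinLehner N ℓ hℓ hℓN (g ^ n * h) : FN (N * ℓ)) : LaurentSeries Kb)) (r ^ n * r₂) := by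
    have := (g2.pow n).mul k2
    have e : algebraMap Kb (LaurentSeries Kb) c₁⁻¹ *
        ((atkinLehner N ℓ hℓ hℓN (g ^ n * h) : FN (N * ℓ)) : LaurentSeries Kb) =
        (algebraMap Kb (LaurentSeries Kb) d⁻¹ *
          ((atkinLehner N ℓ hℓ hℓN g : FN (N * ℓ)) : LaurentSeries Kb)) ^ n *
        (algebraMap Kb (LaurentSeries Kb) c₂⁻¹ *
          ((atkinLehner N ℓ hℓ hℓN h : FN (N * ℓ)) : LaurentSeries Kb)) := by
      rw [map_mul, map_pow, IntermediateField.coe_mul, IntermediateField.coe_pow, mul_pow,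
        ← map_pow, inv_pow, hd]
      have : (c₁ / c₂)⁻¹ * c₂⁻¹ = c₁⁻¹ := by field_simp
      rw [← this, map_mul]
      ring
    rw [e]
    exact this
  obtain ⟨Y₁, Y₂, hY₁, hY₂, hY⟩ := p1.exists_isGood hc₁ hr₁
  obtain ⟨Z₁, Z₂, hZ₁, hZ₂, hZ⟩ := p2.exists_isGood hc₁ (mul_ne_zero (pow_ne_zero n hr) hr₂)
  exact ⟨g, c₁, Y₁, Y₂, Z₁, Z₂, hg0, hc₁, hY₁, hY₂, hZ₁, hZ₂, hY, hZ⟩

end PairScale

end Fermat.Agent.T2.helper36

end
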