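import Mathlib
import Fermat.Agent.T2.helper48_UOp
import Fermat.Agent.P3.helper16_AnFinal

/-!
# Tier 2, [T2-DICT-U] (helper48): the analytic dictionary for `U_q`, `q ∣ M`

* `isEv_normProd_of_identity_U` : if `T(t^q) = ∏_k S(ξ^k t)` in `ℂ((t))` and `f` is the function
  of `S`, then the norm product `w ↦ ∏_{j mod q} f((w + j)/q)` of `f` along the coset system of
  `U_q` is the function of `T`;
* `isEv_uKummer`, `normDictU` : the norm dictionary for `uKummer M q h = Norm_β (α h)`;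
* `latPsi_heckeChar_of_dvd` : the Betti operator `U_q` on the characters `latPsi`;
* `bridgeU` : **Hecke equivariance of the analytic Kummer map at `q ∣ M`**:
  `conC x = κC n ε → conC (uJ M q x) = κC n (latCharT M q ε)`.
-/

set_option autoImplicit false
set_option linter.unusedSectionVars false
set_option linter.unusedVariables false
set_option linter.style.haveILetI false

open Filter Topology Set UpperHalfPlane ModularCurve AlgebraicCurve
open scoped MatrixGroups Manifold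
open Fermat.Agent.S24 Fermat.Agent.S24.helper17 Fermat.Agent.S24.helper37
open Fermat.Agent.P2.helper93 Fermat.Agent.S16.helper26
open Fermat.Agent.P3.helper34

noncomputable section

namespace Fermat.Agent.T2.helper48

/-! ### `t`-expansions -/

section TExp

variable {ℓ : ℕ} [NeZero ℓ]

/-- The norm product of `U_ℓ` of a function on `ℍ`. -/
def prodHU (ℓ : ℕ) [NeZero ℓ] (a : ℍ → ℂ) (τ : ℍ) : ℂ :=
  ∏ k ∈ Finset.range ℓ, a (divH ℓ ((k : ℝ) +ᵥ τ))

theorem isTExp_prodHU {A : LaurentSeries ℂ} {a : ℍ → ℂ} (h : IsQExp A a) :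
    IsTExp ℓ (∏ k ∈ Finset.range ℓ, rotL (zetaR ℓ 1 ^ k) A) (prodHU ℓ a) := by
  have key : ∀ n : ℕ, IsTExp ℓ (∏ k ∈ Finset.range n, rotL (zetaR ℓ 1 ^ k) A)
      (fun τ => ∏ k ∈ Finset.range n, a (divH ℓ ((k : ℝ) +ᵥ τ))) := by
    intro n
    induction n with
    | zero =>
      simp only [Finset.range_zero, Finset.prod_empty]
      exact IsTExp.one
    | succ n ih =>
      simp only [Finset.prod_range_succ]
      have h1 := isTExp_comp_divH_vadd (ℓ := ℓ) h (n : ℝ)
      rw [zetaR_natCast] at h1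
      exact ih.mul h1
  exact key ℓ

/-- The function identity behind the norm formula for `U_ℓ`. -/
theorem prodHU_identity {ξ : ℂ} (hξ : IsPrimitiveRoot ξ ℓ) {S T A B A' B' : LaurentSeries ℂ}
    {a b a' b' : ℍ → ℂ} (hA : IsQExp A a) (hB : IsQExp B b) (hA' : IsQExp A' a')
    (hB' : IsQExp B' b') (hS : S * B = A) (hT : T * B' = A')
    (hST : qExpand ℂ ℓ T = ∏ k ∈ Finset.range ℓ, rotL (ξ ^ k) S) :
    a' * prodHU ℓ b = b' * prodHU ℓ a := by
  have hz : zetaR ℓ 1 ≠ 0 := zetaR_ne_zero ℓ 1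
  rw [prod_pow_primitiveRoot hξ (isPrimitiveRoot_zetaR_one (ℓ := ℓ)) (fun c => rotL c S)] at hST
  have h1 : IsTExp ℓ (qExpand ℂ ℓ A' * ∏ k ∈ Finset.range ℓ, rotL (zetaR ℓ 1 ^ k) B)
      (a' * prodHU ℓ b) :=
    (isTExp_of_isQExp hA' ℓ).mul (isTExp_prodHU hB)
  have h2 : IsTExp ℓ (qExpand ℂ ℓ B' * ∏ k ∈ Finset.range ℓ, rotL (zetaR ℓ 1 ^ k) A)
      (b' * prodHU ℓ a) :=
    (isTExp_of_isQExp hB' ℓ).mul (isTExp_prodHU hA)
  have e : qExpand ℂ ℓ A' * ∏ k ∈ Finset.range ℓ, rotL (zetaR ℓ 1 ^ k) B =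
      qExpand ℂ ℓ B' * ∏ k ∈ Finset.range ℓ, rotL (zetaR ℓ 1 ^ k) A := by
    have e1 : ∏ k ∈ Finset.range ℓ, rotL (zetaR ℓ 1 ^ k) A =
        (∏ k ∈ Finset.range ℓ, rotL (zetaR ℓ 1 ^ k) S) *
          ∏ k ∈ Finset.range ℓ, rotL (zetaR ℓ 1 ^ k) B := by
      rw [← Finset.prod_mul_distrib]
      refine Finset.prod_congr rfl fun k _ => ?_
      rw [← hS, rotL_mul (pow_ne_zero k hz)]
    rw [e1, ← hT, map_mul, hST]
    ring
  rw [e] at h1
  exact h1.fun_unique h2

end TExp

/-! ### The coset system of `U_ℓ` -/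

section SystemU

variable (N : ℕ) (ℓ : Nat.Primes)

theorem systemU_det_pos (h : (ℓ : ℕ) ∣ N) (j : ZMod ℓ) :
    0 < ((systemU N ℓ h).α j).det.val := by
  rw [systemU_α]
  exact ModularForm.det_heckeMatrix_pos ℓ j.val

/-- The norm product along the coset system of `U_ℓ` is `w ↦ ∏_{j mod ℓ} g ((w + j) / ℓ)`. -/
theorem normProd_systemU (h : (ℓ : ℕ) ∣ N) (g : ℂ → ℂ) (w : ℂ) :
    normProd (systemU N ℓ h) g w = ∏ j : ZMod ℓ, g ((w + (j.val : ℕ)) / (ℓ : ℕ)) := by
  have hℓ : (ℓ : ℕ) ≠ 0 := ℓ.2.ne_zero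
  simp only [normProd, systemU_α]
  refine Finset.prod_congr rfl fun j _ => ?_
  exact congrArg g (moebG_heckeMatrix hℓ j.val w)

theorem normProd_systemU_comp_ofComplex (hN : (ℓ : ℕ) ∣ N) (c : ℍ → ℂ) {w : ℂ}
    (hw : 0 < w.im) :
    normProd (systemU N ℓ hN) (fun v => c (ofComplex v)) w = prodHU ℓ c (ofComplex w) := by
  rw [normProd_systemU, prodHU,
    prod_zmod_eq_prod_range (ℓ : ℕ) (fun k => c (ofComplex ((w + (k : ℕ)) / ((ℓ : ℕ) : ℂ))))]
  refine Finset.prod_congr rfl fun k _ => ?_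
  rw [ofComplex_add_div hw k]

/-- **Core of the norm dictionary for `U_ℓ`**: if `T(t^ℓ) = ∏_k S(ξ^k t)` in `ℂ((t))` and `f`
is the function of `S`, then the norm product of `f` is the function of `T`. -/
theorem isEv_normProd_of_identity_U (hN : (ℓ : ℕ) ∣ N) {ξ : ℂ} (hξ : IsPrimitiveRoot ξ ℓ)
    {S T : LaurentSeries ℂ} {f g : ℂ → ℂ} (hS : IsEv S f) (hT : IsEv T g)
    (hST : qExpand ℂ ℓ T = ∏ k ∈ Finset.range ℓ, rotL (ξ ^ k) S) :
    IsEv T (normProd (systemU N ℓ hN) f) := by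
  refine hT.congr fun z hz => ?_
  obtain ⟨A, B, a, b, hA, hB, hB0, hSB, hf⟩ := hS
  obtain ⟨A', B', a', b', hA', hB', hB0', hTB, hg⟩ := hT
  have hid := prodHU_identity hξ hA hB hA' hB' hSB hTB hST
  have hdet := systemU_det_pos N ℓ hN
  have hb0 : b ≠ 0 := fun h0 => hB0 (hB.eq_zero_iff.2 h0)
  have hb0' : b' ≠ 0 := fun h0 => hB0' (hB'.eq_zero_iff.2 h0)
  have hbm : MeromorphicOn (fun v => b (ofComplex v)) {z : ℂ | 0 < z.im} := fun z hz =>
    (analyticOnNhd_comp_ofComplex hB.mdiff z hz).meromorphicAt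
  have hbfin : ∀ z ∈ {z : ℂ | 0 < z.im}, meromorphicOrderAt (fun v => b (ofComplex v)) z ≠ ⊤ :=
    fun z hz => (meromorphicOrderAt_ne_top_iff_eventually_ne_zero (hbm z hz)).2
      (eventually_comp_ofComplex_ne_zero hB.mdiff hb0 hz)
  have hH : ∀ᶠ w in 𝓝[≠] z, 0 < w.im :=
    mem_nhdsWithin_of_mem_nhds (UpperHalfPlane.isOpen_upperHalfPlaneSet.mem_nhds hz)
  filter_upwards [hg z hz, normProd_congr (systemU N ℓ hN) hdet hf hz, hH,
    eventually_comp_ofComplex_ne_zero hB'.mdiff hb0' hz,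
    eventually_normProd_ne_zero (systemU N ℓ hN) hdet hbm hbfin hz] with w hw1 hw2 hwH hw3 hw4
  rw [hw1, hw2, normProd_div, normProd_systemU_comp_ofComplex N ℓ hN a hwH]
  rw [normProd_systemU_comp_ofComplex N ℓ hN b hwH] at hw4 ⊢
  rw [div_eq_div_iff hw3 hw4]
  have := congrFun hid (ofComplex w)
  simp only [Pi.mul_apply] at this
  rw [this]
  ring

end SystemU

/-! ### The norm dictionary for `uKummer` -/

section Final

variable (M : ℕ) [NeZero M] (q : Nat.Primes)

/-- **Norm dictionary for `U_q`**: for a prime `q ∣ M` and `h ∈ F_M` with function `f`, the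
function of `uKummer M q h = Norm_β (α h)` is `w ↦ ∏_{j mod q} f ((w + j) / q)`. -/
theorem isEv_uKummer (hq : (q : ℕ) ∣ M) (h : FN M) {f : ℂ → ℂ}
    (hf : IsEv (toC (h : LaurentSeries Kbar)) f) :
    IsEv (toC ((uKummer M q h : FN M) : LaurentSeries Kbar))
      (normProd (systemU M q hq) f) := by
  obtain ⟨g, hg⟩ := exists_isEv_toC M (uKummer M q h)
  exact isEv_normProd_of_identity_U M q hq (isPrimitiveRoot_xiC M q) hf hg
    (es_norm_U_complex M q q.2 hq (isPrimitiveRoot_xiC M q) h)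

/-- The Kummer character of the function of `uKummer M q h`. -/
theorem isKummerChar_of_isEv_uKummer (hq : (q : ℕ) ∣ M) (h : FN M) {f F : ℂ → ℂ}
    (hf : IsEv (toC (h : LaurentSeries Kbar)) f)
    (hF : IsEv (toC ((uKummer M q h : FN M) : LaurentSeries Kbar)) F)
    {m : ℕ} {ψ : CongruenceSubgroup.Gamma0 M →* ℂˣ}
    (hψ : IsKummerChar (CongruenceSubgroup.Gamma0 M) m f ψ) :
    IsKummerChar (CongruenceSubgroup.Gamma0 M) m F (heckeChar (systemU M q hq) ψ) :=
  (hψ.normProd (systemU M q hq) (systemU_det_pos M q hq)).congr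
    (fun _ hz => (isEv_uKummer M q hq h hf).unique hF hz)

open Fermat.Agent.P3.helper16 Fermat.Agent.P3.helper20 Fermat.Agent.P3.helper94
open Fermat.Agent.P3

/-- **The norm dictionary for `U_q`** in the vocabulary of the analytic dictionary of `F_ℂ`. -/
theorem normDictU (hq : (q : ℕ) ∣ M) (h : modularFunctionFieldBar M) :
    EqH ((helper48.anDictC M).ev (iotaFC M (uKummer M q h)))
      (normProd (systemU M q hq) ((helper48.anDictC M).ev (iotaFC M h))) := by
  rw [helper48.anDictC_ev]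
  have h1 : IsEv ((iotaFC M h : FC M) : LaurentSeries ℂ) (helper80.evC M (iotaFC M h)) :=
    helper48.isEv_of_represents (helper80.represents_evC (N := M) (iotaFC M h))
  have h2 : IsEv ((iotaFC M (uKummer M q h) : FC M) : LaurentSeries ℂ)
      (helper80.evC M (iotaFC M (uKummer M q h))) :=
    helper48.isEv_of_represents (helper80.represents_evC (N := M) _)
  have h3 := isEv_uKummer M q hq h (f := helper80.evC M (iotaFC M h)) h1
  exact fun z hz => h2.unique h3 hz

variable (p : ℕ)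

/-- The Betti operator `U_q` on the characters `latPsi` (helper34's `heckeChar` along the coset
system of `U_q`). -/
theorem latPsi_heckeChar_of_dvd (n : ℕ) (hq : (q : ℕ) ∣ M) (ε : LatChar M) :
    heckeChar (systemU M q hq) (latPsi M p n ε) = latPsi M p n (latCharT M q ε) := by
  rw [← latPsi_heckeHom, heckeHom_of_dvd M hq]
  rfl

/-- **(B) for `U_q`**: Hecke equivariance of the analytic Kummer map at a prime `q ∣ M`,
transported to `J₀(M)`: if the conorm of `x` is `κC n ε` then the conorm of `U_q x` is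
`κC n (ε ∘ U_q)`.  Here `κC` is ANY family of maps with monodromy `latPsi`. -/
theorem bridgeU (hp : 0 < p) (hq : (q : ℕ) ∣ M) (κC : ℕ → LatChar M →+ JC M)
    (hκ : ∀ (n : ℕ) (ε : LatChar M),
      IsMonData (helper48.anDictC M) (p ^ n) (κC n ε) (latPsi M p n ε))
    (n : ℕ) (ε : LatChar M) (x : JZero M) (hx : conC M x = κC n ε) :
    conC M (uJ M q x) = κC n (latCharT M q ε) := by
  have hm : 0 < p ^ n := pow_pos hp n
  have hx0 : p ^ n • x = 0 := by
    apply conC_injective M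
    rw [map_nsmul, hx, (hκ n ε).nsmul_eq_zero, map_zero]
  obtain ⟨h, H⟩ := exists_isKummerRep hx0
  have HC : IsKummerRep (p ^ n) (conC M x) (iotaFC M h) := isKummerRep_conC M _ _ _ H
  have hmon : IsMonData (helper48.anDictC M) (p ^ n) (conC M x) (latPsi M p n ε) := by
    rw [hx]
    exact hκ n ε
  have hchar : IsKummerChar (CongruenceSubgroup.Gamma0 M) (p ^ n)
      ((helper48.anDictC M).ev (iotaFC M h)) (latPsi M p n ε) :=
    isKummerChar_of_isMonData hm hmon HC
  have HT : IsKummerRep (p ^ n) (uJ M q x) (uKummer M q h) := IsKummerRep.uJ M q H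
  have HCT : IsKummerRep (p ^ n) (conC M (uJ M q x)) (iotaFC M (uKummer M q h)) :=
    isKummerRep_conC M _ _ _ HT
  have hcharT : IsKummerChar (CongruenceSubgroup.Gamma0 M) (p ^ n)
      ((helper48.anDictC M).ev (iotaFC M (uKummer M q h)))
      (latPsi M p n (latCharT M q ε)) := by
    have h1 := hchar.normProd (systemU M q hq) (systemU_det_pos M q hq)
    rw [latPsi_heckeChar_of_dvd M q p n hq ε] at h1
    exact h1.congr (normDictU M q hq h).symm
  have hmonT : IsMonData (helper48.anDictC M) (p ^ n) (conC M (uJ M q x))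
      (latPsi M p n (latCharT M q ε)) :=
    isMonData_iff_exists_isKummerRep.mpr ⟨_, HCT, hcharT⟩
  exact hmonT.eq_of_eq hm (hκ n (latCharT M q ε))

end Final

end Fermat.Agent.T2.helper48

end
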