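import Fermat.Agent.P3.Interface3
import Fermat.Prelude.Def_CuspForm_Newforms

/-!
# Tier 2, S35 (helper48): interface of the final wiring

* `BadEigenLattice p N S M' hNM 𝒪 χ q` : an eigen-lattice of level `M'` for `χ` (P3's
  `EigenLattice`) on which, in addition, every Frobenius lift `φ` at the bad prime `q` satisfies
  `(φ² - q²)(φ - ε) = 0` for a sign `ε` (`ε² = 1`).
* `BadEigenStatement` : for a Prelude-newform `g` of level `M` and a prime `q ∥ M`, `q ≠ lam`,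
  such a lattice exists at some level `M' ≠ 0` with `M ∣ M'`
  (to be produced from the Tate module of `J₀(c M)`, `c ∈ {4, 9}`: the part `U_q = ε`,
  `W_q = -ε`, with (CONG) + (FROB) on the function-field side and the eigenvector of
  [T2-DICT]).
-/

set_option autoImplicit false

noncomputable section

namespace Fermat.Agent.T2

open Fermat.Agent.P3

/-- An eigen-lattice with the bad-prime relation `(φ² - q²)(φ - ε) = 0` at `q`. -/
structure BadEigenLattice (p : ℕ) (N : ℕ) [NeZero N] (S : Finset ℕ) (M' : ℕ) (hNM : N ∣ M')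
    (𝒪 : Type) [CommRing 𝒪] [IsLocalRing 𝒪]
    (χ : CuspForm.heckeAlgebra N 2 (↑S : Set ℕ) →+* 𝒪) (q : ℕ) : Type 1 where
  /-- the underlying eigen-lattice -/
  E : EigenLattice p N S M' hNM 𝒪 χ
  /-- the sign (`= a_q(g)`) -/
  ε : 𝒪
  ε_mul_self : ε * ε = 1
  badFrobenius : ∀ A : ValuationSubring Qbar, A.LiesOverPrime q →
    ∀ φ : GQ, A.IsFrobeniusAt φ q →
      (E.r φ * E.r φ - ((q : 𝒪) * (q : 𝒪)) • (1 : Module.End 𝒪 E.L))
        * (E.r φ - ε • (1 : Module.End 𝒪 E.L)) = 0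

/-- **[T2-ASM-35]** the bad eigen-lattice of a newform at a prime `q ∥ M`, `q ≠ lam`. -/
def BadEigenStatement : Prop :=
  ∀ {M : ℕ} [NeZero M] {g : CuspForm (CongruenceSubgroup.Gamma0 M) 2}, g.IsNewform →
    ∀ (lam : ℕ) [Fact lam.Prime] (S : Finset ℕ)
      (O' : Type) [CommRing O'] [IsDomain O'] [IsDiscreteValuationRing O']
      [IsAdicComplete (IsLocalRing.maximalIdeal O') O'] [Finite (IsLocalRing.ResidueField O')]
      [CharZero O'], (lam : O') ∈ IsLocalRing.maximalIdeal O' →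
    ∀ (chig : CuspForm.heckeAlgebra M 2 (↑S : Set ℕ) →+* ℂ),
      (∀ (ℓ : ℕ) (hℓ : ℓ.Prime) (hℓM : ¬ ℓ ∣ M) (hℓS : ℓ ∉ (↑S : Set ℕ)),
        chig (CuspForm.heckeAlgebra.T hℓ hℓM hℓS) = ModularFormClass.qCoeff g ℓ) →
    ∀ (iota : chig.range →+* O'), lam ∈ S → (∀ q : ℕ, q.Prime → q ∣ M → q ∈ S) →
    ∀ q : ℕ, q.Prime → q ≠ lam → q ∣ M → ¬ q ^ 2 ∣ M →
      ∃ (M' : ℕ) (hMM' : M ∣ M'), M' ≠ 0 ∧
        Nonempty (BadEigenLattice lam M S M' hMM' O' (iota.comp chig.rangeRestrict) q)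

end Fermat.Agent.T2

end
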