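import Fermat.Agent.T2.helper48_S35Defs
import Fermat.Agent.P3.helper32_WireS30

/-!
# Tier 2, [T2-WIRE-35] (helper48): the frozen statement S35 from the packages

`s35_of` : Tate data at levels `4M`, `9M` + [EIGEN] + [CYC] + [PSEUDO] + [ALG] (all P3) +
`BadEigenStatement` (tier 2)  ⟹  S35 (verbatim), with `O'' := O'`.

Method (as P3 [WIRE-30]): one quadratic relation `X² - t(s) X + d(s)` on the PRODUCT of the
eigen-lattices of levels `4M`, `9M` and of the bad eigen-lattices at all primes `q ∥ M`,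
`q ≠ lam`; on the factor at `q` the relation `(φ² - q²)(φ - ε) = 0` forces `t(φ) = ± (q + 1)`
(`trace_eq_or_of_bad`, pure algebra).
-/

set_option autoImplicit false
set_option linter.unusedSimpArgs false

noncomputable section

namespace Fermat.Agent.T2.helper48

open Polynomial Fermat.Agent.P3 Fermat.Agent.P3.helper32 Fermat.Agent.T2

/-! ### Pure algebra: the trace at a bad prime -/

section Algebra

/-- the scalar killed by the two relations -/
def badConst {𝒪 : Type} [CommRing 𝒪] (t q ε : 𝒪) : 𝒪 :=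
  (q * (ε * (q + 1) - t)) ^ 2 + t * (t ^ 2 - t * ε - q * (q + 1)) * (q * (ε * (q + 1) - t))
    + q * (t ^ 2 - t * ε - q * (q + 1)) ^ 2

theorem badConst_mem {𝒪 : Type} [CommRing 𝒪] (t q ε : 𝒪) :
    ∃ A B : 𝒪[X],
      C (badConst t q ε)
        = A * (X ^ 2 - C t * X + C q) + B * ((X ^ 2 - C (q * q)) * (X - C ε)) := by
  set a : 𝒪[X] := C (t ^ 2 - t * ε - q * (q + 1)) with ha
  set b : 𝒪[X] := C (q * (ε * (q + 1) - t)) with hb
  refine ⟨a ^ 2 + (a * X - b - C t * a) * (X + C t - C ε), -(a * X - b - C t * a), ?_⟩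
  simp only [badConst, ha, hb, C_mul, C_add, C_sub, C_pow, C_neg, C_1]
  ring

theorem badConst_one {𝒪 : Type} [CommRing 𝒪] (t q : 𝒪) :
    badConst t q 1 = (t - (q + 1)) ^ 2 * q ^ 2 * ((q + 1) + t) := by
  unfold badConst
  ring

theorem badConst_neg_one {𝒪 : Type} [CommRing 𝒪] (t q : 𝒪) :
    badConst t q (-1) = (t + (q + 1)) ^ 2 * q ^ 2 * ((q + 1) - t) := by
  unfold badConst
  ring

/-- **The bad-prime trace**: on a nonzero torsion-free module, the relations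
`φ² - t φ + q = 0` and `(φ² - q²)(φ - ε) = 0` (`ε² = 1`, `q ≠ 0`) force `t = ± (q + 1)`. -/
theorem trace_eq_or_of_bad {𝒪 : Type} [CommRing 𝒪] [IsDomain 𝒪] {L : Type} [AddCommGroup L]
    [Module 𝒪 L] [Module.Free 𝒪 L] [Nontrivial L] (φ : Module.End 𝒪 L) (t q ε : 𝒪)
    (hq : q ≠ 0) (hε : ε * ε = 1)
    (hquad : φ * φ - t • φ + q • (1 : Module.End 𝒪 L) = 0)
    (hbad : (φ * φ - (q * q) • (1 : Module.End 𝒪 L)) * (φ - ε • (1 : Module.End 𝒪 L)) = 0) :
    t = q + 1 ∨ t = -(q + 1) := by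
  obtain ⟨A, B, hAB⟩ := badConst_mem t q ε
  have h1 : aeval φ (X ^ 2 - C t * X + C q : 𝒪[X]) = 0 := by
    simp only [map_add, map_sub, map_mul, map_pow, aeval_X, aeval_C, Algebra.algebraMap_eq_smul_one]
    rw [← hquad]
    simp [pow_two]
  have h2 : aeval φ ((X ^ 2 - C (q * q)) * (X - C ε) : 𝒪[X]) = 0 := by
    simp only [map_add, map_sub, map_mul, map_pow, aeval_X, aeval_C, Algebra.algebraMap_eq_smul_one]
    rw [← hbad]
    simp [pow_two, mul_smul]
  have h3 : aeval φ (C (badConst t q ε) : 𝒪[X]) = 0 := by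
    rw [hAB, map_add, map_mul, map_mul, h1, h2, mul_zero, mul_zero, add_zero]
  rw [aeval_C, Algebra.algebraMap_eq_smul_one] at h3
  have h4 : badConst t q ε = 0 := by
    obtain ⟨v, hv⟩ := exists_ne (0 : L)
    have := congrArg (fun f : Module.End 𝒪 L => f v) h3
    simp only [LinearMap.smul_apply, Module.End.one_apply, LinearMap.zero_apply] at this
    rcases smul_eq_zero.mp this with h | h
    · exact h
    · exact absurd h hv
  have hε' : ε = 1 ∨ ε = -1 := by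
    have : (ε - 1) * (ε + 1) = 0 := by linear_combination hε
    rcases mul_eq_zero.mp this with h | h
    · exact Or.inl (sub_eq_zero.mp h)
    · exact Or.inr (eq_neg_of_add_eq_zero_left h)
  rcases hε' with rfl | rfl
  · rw [badConst_one] at h4
    rcases mul_eq_zero.mp h4 with h | h
    · rcases mul_eq_zero.mp h with h | h
      · exact Or.inl (sub_eq_zero.mp ((pow_eq_zero_iff two_ne_zero).mp h))
      · exact absurd ((pow_eq_zero_iff two_ne_zero).mp h) hq
    · right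
      linear_combination h
  · rw [badConst_neg_one] at h4
    rcases mul_eq_zero.mp h4 with h | h
    · rcases mul_eq_zero.mp h with h | h
      · right
        have := (pow_eq_zero_iff two_ne_zero).mp h
        linear_combination this
      · exact absurd ((pow_eq_zero_iff two_ne_zero).mp h) hq
    · left
      linear_combination -h

end Algebra

/-! ### Finite products of representations -/

section Pi

variable {𝒪 : Type} [CommRing 𝒪] {ι : Type} {L : ι → Type} [∀ i, AddCommGroup (L i)]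
  [∀ i, Module 𝒪 (L i)]

/-- The product of a family of representations. -/
def piRep (r : ∀ i, GQ →* Module.End 𝒪 (L i)) : GQ →* Module.End 𝒪 (∀ i, L i) where
  toFun g := LinearMap.pi fun i => (r i g).comp (LinearMap.proj i)
  map_one' := by
    refine LinearMap.ext fun v => funext fun i => ?_
    simp
  map_mul' g h := by
    refine LinearMap.ext fun v => funext fun i => ?_
    simp

theorem piRep_apply (r : ∀ i, GQ →* Module.End 𝒪 (L i)) (g : GQ) (v : ∀ i, L i) (i : ι) :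
    piRep r g v i = r i g (v i) := rfl

theorem single_mem_smul_top [DecidableEq ι] (I : Ideal 𝒪) (i : ι) {x : L i}
    (hx : x ∈ I • (⊤ : Submodule 𝒪 (L i))) :
    (Pi.single i x : ∀ j, L j) ∈ I • (⊤ : Submodule 𝒪 (∀ j, L j)) := by
  have h : (LinearMap.single 𝒪 L i) x ∈ (I • (⊤ : Submodule 𝒪 (L i))).map
      (LinearMap.single 𝒪 L i) := Submodule.mem_map_of_mem hx
  rw [Submodule.map_smul''] at h
  exact Submodule.smul_mono le_rfl le_top h

theorem piRep_isAdicContinuous [IsLocalRing 𝒪] [Fintype ι] [DecidableEq ι]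
    (r : ∀ i, GQ →* Module.End 𝒪 (L i))
    (h : ∀ i, GaloisActionIsAdicContinuous 𝒪 (r i)) :
    GaloisActionIsAdicContinuous 𝒪 (piRep r) := by
  intro n
  choose K hK hr using fun i => h i n
  have : ∀ i, FiniteDimensional ℚ (K i) := hK
  refine ⟨⨆ i, K i, IntermediateField.finiteDimensional_iSup_of_finite, fun σ hσ v => ?_⟩
  have e : piRep r σ v - v = ∑ i, Pi.single i (r i σ (v i) - v i) := by
    funext j
    rw [Finset.sum_apply, Finset.sum_eq_single j]
    · simp [piRep_apply]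
    · intro i _ hij
      exact Pi.single_eq_of_ne' hij _
    · intro hj
      exact absurd (Finset.mem_univ j) hj
  rw [e]
  refine Submodule.sum_mem _ fun i _ => single_mem_smul_top _ i (hr i σ (fun x hx => hσ x ?_) (v i))
  exact (le_iSup K i) hx

end Pi

/-! ### The wiring -/

/-- **Strong S35**: the representation over `O'` itself. -/
theorem strongS35_of (hTate : TateAtGoodLevels) (hEig : EigenStatement) (hCyc : CycloStatement)
    (hPseudo : PseudoStatement) (hAlg : AlgStatement) (hBad : BadEigenStatement)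
    {M : ℕ} [NeZero M] {g : CuspForm (CongruenceSubgroup.Gamma0 M) 2} (hg : g.IsNewform)
    (lam : ℕ) [Fact lam.Prime] (S : Finset ℕ)
    (O' : Type) [CommRing O'] [IsDomain O'] [IsDiscreteValuationRing O']
    [IsAdicComplete (IsLocalRing.maximalIdeal O') O'] [Finite (IsLocalRing.ResidueField O')]
    [CharZero O'] (hlamO' : (lam : O') ∈ IsLocalRing.maximalIdeal O')
    (chig : CuspForm.heckeAlgebra M 2 (↑S : Set ℕ) →+* ℂ)
    (hchig : ∀ (ℓ : ℕ) (hℓ : ℓ.Prime) (hℓM : ¬ ℓ ∣ M) (hℓS : ℓ ∉ (↑S : Set ℕ)),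
      chig (CuspForm.heckeAlgebra.T hℓ hℓM hℓS) = ModularFormClass.qCoeff g ℓ)
    (iota : chig.range →+* O')
    (hlamS : lam ∈ S) (hMS : ∀ q : ℕ, q.Prime → q ∣ M → q ∈ S) :
    ∃ ρ : GaloisRepAdic O',
      (∀ (ℓ : ℕ) (hℓ : ℓ.Prime) (hℓM : ¬ ℓ ∣ M) (hℓS : ℓ ∉ (↑S : Set ℕ)),
        ∀ A : ValuationSubring (AlgebraicClosure ℚ), A.LiesOverPrime ℓ →
          ∀ σ : AlgebraicClosure ℚ ≃ₐ[ℚ] AlgebraicClosure ℚ, A.IsFrobeniusAt σ ℓ →
            LinearMap.charpoly (ρ.ρ σ) =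
              X ^ 2 - C ((iota.comp chig.rangeRestrict) (CuspForm.heckeAlgebra.T hℓ hℓM hℓS)) * X
                + C ((ℓ : O'))) ∧
      (∀ q : ℕ, q.Prime → q ≠ lam → q ∣ M → ¬ q ^ 2 ∣ M →
        ∀ A : ValuationSubring (AlgebraicClosure ℚ), A.LiesOverPrime q →
          ∀ σ : AlgebraicClosure ℚ ≃ₐ[ℚ] AlgebraicClosure ℚ, A.IsFrobeniusAt σ q →
            LinearMap.charpoly (ρ.ρ σ) = X ^ 2 - C ((q : O') + 1) * X + C ((q : O')) ∨
            LinearMap.charpoly (ρ.ρ σ) = X ^ 2 + C ((q : O') + 1) * X + C ((q : O'))) := by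
  classical
  have hpprime : lam.Prime := Fact.out
  set χ : CuspForm.heckeAlgebra M 2 (↑S : Set ℕ) →+* O' := iota.comp chig.rangeRestrict with hχ
  obtain ⟨hT₁, hT₂⟩ := hTate lam M S hlamS hMS
  obtain ⟨E₁⟩ := hEig lam M S (4 * M) (Dvd.intro_left 4 rfl) O' hlamO' χ hT₁
  obtain ⟨E₂⟩ := hEig lam M S (9 * M) (Dvd.intro_left 9 rfl) O' hlamO' χ hT₂
  obtain ⟨d, hdcyc, hdcont, hdloc, c, hc, hdc⟩ := hCyc lam O' hlamO'
  -- the bad primes and their lattices
  set Q : Finset ℕ := M.primeFactors.filter (fun q => q ≠ lam ∧ ¬ q ^ 2 ∣ M) with hQ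
  have hQmem : ∀ q : {q // q ∈ Q}, (q : ℕ).Prime ∧ (q : ℕ) ≠ lam ∧ (q : ℕ) ∣ M ∧
      ¬ (q : ℕ) ^ 2 ∣ M := by
    rintro ⟨q, hq⟩
    rw [hQ, Finset.mem_filter, Nat.mem_primeFactors] at hq
    exact ⟨hq.1.1, hq.2.1, hq.1.2.1, hq.2.2⟩
  choose M' hMM' hM'0 hEb using fun q : {q // q ∈ Q} =>
    hBad hg lam S O' hlamO' chig hchig iota hlamS hMS q.1 (hQmem q).1 (hQmem q).2.1
      (hQmem q).2.2.1 (hQmem q).2.2.2
  let Eb : ∀ q : {q // q ∈ Q}, BadEigenLattice lam M S (M' q) (hMM' q) O' χ q.1 :=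
    fun q => Classical.choice (hEb q)
  -- the product lattice
  let rb : GQ →* Module.End O' (∀ q : {q // q ∈ Q}, (Eb q).E.L) :=
    piRep fun q => (Eb q).E.r
  have hrb : GaloisActionIsAdicContinuous O' rb :=
    piRep_isAdicContinuous _ fun q => (Eb q).E.isAdicContinuous
  let r₁₂ : GQ →* Module.End O' (E₁.L × E₂.L) := prodRep E₁.r E₂.r
  let rt : GQ →* Module.End O' ((E₁.L × E₂.L) × (∀ q : {q // q ∈ Q}, (Eb q).E.L)) :=
    prodRep r₁₂ rb
  have hr : GaloisActionIsAdicContinuous O' rt :=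
    prodRep_isAdicContinuous _ _
      (prodRep_isAdicContinuous _ _ E₁.isAdicContinuous E₂.isAdicContinuous) hrb
  set Bad : Finset ℕ :=
    insert 2 (insert 3 S) ∪ Finset.univ.biUnion (fun q : {q // q ∈ Q} => (M' q).primeFactors)
    with hBadDef
  -- the Frobenius relations on the product lattice
  have hfrob : ∀ ℓ : ℕ, ℓ.Prime → ℓ ∉ Bad →
      ∀ A : ValuationSubring Qbar, A.LiesOverPrime ℓ → ∀ φ : GQ, A.IsFrobeniusAt φ ℓ →
        rt φ * rt φ
            - (if h : ℓ.Prime ∧ ¬ ℓ ∣ M ∧ ℓ ∉ (↑S : Set ℕ) then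
                χ (CuspForm.heckeAlgebra.T h.1 h.2.1 h.2.2) else 0) • rt φ
            + (ℓ : O') • (1 : Module.End O' ((E₁.L × E₂.L) × (∀ q : {q // q ∈ Q}, (Eb q).E.L)))
          = 0 := by
    intro ℓ hℓ hℓBad A hA φ hφ
    have hℓBad1 : ℓ ∉ insert 2 (insert 3 S) := fun h => hℓBad (Finset.mem_union_left _ h)
    have hℓBad2 : ∀ q : {q // q ∈ Q}, ¬ ℓ ∣ M' q := fun q h =>
      hℓBad (Finset.mem_union_right _ (Finset.mem_biUnion.mpr
        ⟨q, Finset.mem_univ q, Nat.mem_primeFactors.mpr ⟨hℓ, h, hM'0 q⟩⟩))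
    have hℓ2 : ℓ ≠ 2 := fun h => hℓBad1 (h ▸ Finset.mem_insert_self _ _)
    have hℓ3 : ℓ ≠ 3 := fun h =>
      hℓBad1 (h ▸ Finset.mem_insert_of_mem (Finset.mem_insert_self _ _))
    have hℓS : ℓ ∉ S := fun h =>
      hℓBad1 (Finset.mem_insert_of_mem (Finset.mem_insert_of_mem h))
    have hℓN : ¬ ℓ ∣ M := fun h => hℓS (hMS ℓ hℓ h)
    have hℓp : ℓ ≠ lam := fun h => hℓS (h ▸ hlamS)
    have hℓp' : ¬ ℓ ∣ lam := fun h => hℓp ((Nat.prime_dvd_prime_iff_eq hℓ hpprime).mp h)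
    have hℓq : ∀ q : {q // q ∈ Q}, ¬ ℓ ∣ M' q * lam := fun q h =>
      ((Nat.Prime.dvd_mul hℓ).mp h).elim (hℓBad2 q) hℓp'
    rw [dif_pos ⟨hℓ, hℓN, fun h => hℓS (Finset.mem_coe.mp h)⟩]
    have e₁ := E₁.frobenius ⟨ℓ, hℓ, not_dvd_four_mul hℓ hℓ2 hℓN hℓp', hℓS⟩ A hA φ hφ
    have e₂ := E₂.frobenius ⟨ℓ, hℓ, not_dvd_nine_mul hℓ hℓ3 hℓN hℓp', hℓS⟩ A hA φ hφ
    have eb := fun q : {q // q ∈ Q} => (Eb q).E.frobenius ⟨ℓ, hℓ, hℓq q, hℓS⟩ A hA φ hφ
    refine LinearMap.ext fun v => ?_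
    have e₁' := congrArg (fun f : Module.End O' E₁.L => f v.1.1) e₁
    have e₂' := congrArg (fun f : Module.End O' E₂.L => f v.1.2) e₂
    have eb' := fun q : {q // q ∈ Q} =>
      congrArg (fun f : Module.End O' (Eb q).E.L => f (v.2 q)) (eb q)
    simp only [LinearMap.add_apply, LinearMap.sub_apply, LinearMap.smul_apply,
      Module.End.mul_apply, Module.End.one_apply, LinearMap.zero_apply] at e₁' e₂' eb' ⊢
    refine Prod.ext (Prod.ext ?_ ?_) (funext fun q => ?_)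
    · simpa [rt, r₁₂, prodRep_apply, goodT] using e₁'
    · simpa [rt, r₁₂, prodRep_apply, goodT] using e₂'
    · simpa [rt, rb, prodRep_apply, piRep_apply, goodT] using eb' q
  obtain ⟨t, ht⟩ := hPseudo lam O' hlamO' _ rt hr d hdcyc hdcont Bad _ hfrob
  -- the quadratic relation on each factor
  have ht₁ : ∀ s : GQ, E₁.r s * E₁.r s - t s • E₁.r s
      + (d s : O') • (1 : Module.End O' E₁.L) = 0 := by
    intro s
    refine LinearMap.ext fun v => ?_
    have e := congrArg (fun f : Module.End O'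
      ((E₁.L × E₂.L) × (∀ q : {q // q ∈ Q}, (Eb q).E.L)) => (f ((v, 0), 0)).1.1) (ht s)
    simpa [rt, r₁₂, prodRep_apply] using e
  have ht₂ : ∀ s : GQ, E₂.r s * E₂.r s - t s • E₂.r s
      + (d s : O') • (1 : Module.End O' E₂.L) = 0 := by
    intro s
    refine LinearMap.ext fun v => ?_
    have e := congrArg (fun f : Module.End O'
      ((E₁.L × E₂.L) × (∀ q : {q // q ∈ Q}, (Eb q).E.L)) => (f ((0, v), 0)).1.2) (ht s)
    simpa [rt, r₁₂, prodRep_apply] using e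
  have htb : ∀ (q : {q // q ∈ Q}) (s : GQ), (Eb q).E.r s * (Eb q).E.r s - t s • (Eb q).E.r s
      + (d s : O') • (1 : Module.End O' (Eb q).E.L) = 0 := by
    intro q s
    refine LinearMap.ext fun v => ?_
    have e := congrArg (fun f : Module.End O'
      ((E₁.L × E₂.L) × (∀ q : {q // q ∈ Q}, (Eb q).E.L)) =>
        (f ((0, 0), Pi.single q v)).2 q) (ht s)
    simpa [rt, rb, prodRep_apply, piRep_apply] using e
  obtain ⟨ρ, hchar, -⟩ := hAlg O' _ rt hr t d hdcont ht c hc hdc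
  refine ⟨ρ, ?_, ?_⟩
  · intro ℓ hℓ hℓN hℓS A hA σ hσ
    have hℓS' : ℓ ∉ S := fun h => hℓS (Finset.mem_coe.mpr h)
    have hℓp : ℓ ≠ lam := fun h => hℓS' (h ▸ hlamS)
    have hℓp' : ¬ ℓ ∣ lam := fun h => hℓp ((Nat.prime_dvd_prime_iff_eq hℓ hpprime).mp h)
    have hd : (d σ : O') = (ℓ : O') := (hdloc ℓ hℓ hℓp A hA).2 σ hσ
    have htσ : t σ = χ (CuspForm.heckeAlgebra.T hℓ hℓN hℓS) := by
      by_cases h2 : ℓ = 2
      · have h3 : ℓ ≠ 3 := by rw [h2]; decide
        have e := E₂.frobenius ⟨ℓ, hℓ, not_dvd_nine_mul hℓ h3 hℓN hℓp', hℓS'⟩ A hA σ hσ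
        exact trace_unique E₂.r σ _ _ (ℓ : O') (hd ▸ ht₂ σ) e
      · have e := E₁.frobenius ⟨ℓ, hℓ, not_dvd_four_mul hℓ h2 hℓN hℓp', hℓS'⟩ A hA σ hσ
        exact trace_unique E₁.r σ _ _ (ℓ : O') (hd ▸ ht₁ σ) e
    rw [hchar σ, htσ, hd]
  · intro q hq hqlam hqM hqsq A hA σ hσ
    have hqQ : q ∈ Q := by
      rw [hQ, Finset.mem_filter, Nat.mem_primeFactors]
      exact ⟨⟨hq, hqM, NeZero.ne M⟩, hqlam, hqsq⟩
    have hd : (d σ : O') = (q : O') := (hdloc q hq hqlam A hA).2 σ hσ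
    have hquad := htb ⟨q, hqQ⟩ σ
    rw [hd] at hquad
    have hbad := (Eb ⟨q, hqQ⟩).badFrobenius A hA σ hσ
    have hq0 : (q : O') ≠ 0 := Nat.cast_ne_zero.mpr hq.ne_zero
    rcases trace_eq_or_of_bad ((Eb ⟨q, hqQ⟩).E.r σ) (t σ) (q : O') (Eb ⟨q, hqQ⟩).ε hq0
      (Eb ⟨q, hqQ⟩).ε_mul_self hquad hbad with h | h
    · left
      rw [hchar σ, h, hd]
    · right
      rw [hchar σ, h, hd, C_neg, neg_mul, sub_neg_eq_add]

/-- **[T2-WIRE-35]** the frozen statement S35 (verbatim) from the packages: `O'' := O'`. -/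
theorem s35_of (hTate : TateAtGoodLevels) (hEig : EigenStatement) (hCyc : CycloStatement)
    (hPseudo : PseudoStatement) (hAlg : AlgStatement) (hBad : BadEigenStatement)
    {M : ℕ} [NeZero M] {g : CuspForm (CongruenceSubgroup.Gamma0 M) 2} (hg : g.IsNewform)
    (lam : ℕ) [Fact lam.Prime]
    (S : Finset ℕ)
    (O' : Type) [CommRing O'] [IsDomain O'] [IsDiscreteValuationRing O']
    [IsAdicComplete (IsLocalRing.maximalIdeal O') O'] [Finite (IsLocalRing.ResidueField O')]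
    [CharZero O'] (hlamO' : (lam : O') ∈ IsLocalRing.maximalIdeal O')
    (chig : CuspForm.heckeAlgebra M 2 (↑S : Set ℕ) →+* ℂ)
    (hchig : ∀ (ℓ : ℕ) (hℓ : ℓ.Prime) (hℓM : ¬ ℓ ∣ M) (hℓS : ℓ ∉ (↑S : Set ℕ)),
      chig (CuspForm.heckeAlgebra.T hℓ hℓM hℓS) = ModularFormClass.qCoeff g ℓ)
    (iota : chig.range →+* O')
    (hlamS : lam ∈ S) (hMS : ∀ q : ℕ, q.Prime → q ∣ M → q ∈ S) :
    ∃ (O'' : Type) (_ : CommRing O'') (_ : IsDomain O'') (_ : IsDiscreteValuationRing O'')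
      (_ : IsAdicComplete (IsLocalRing.maximalIdeal O'') O'')
      (_ : Finite (IsLocalRing.ResidueField O''))
      (_ : CharZero O'') (_ : Algebra O' O'') (_ : Module.Finite O' O'')
      (_ : IsLocalHom (algebraMap O' O'')),
      Function.Injective (algebraMap O' O'') ∧
      ∃ ρ : GaloisRepAdic O'',
        (∀ (ℓ : ℕ) (hℓ : ℓ.Prime) (hℓM : ¬ ℓ ∣ M) (hℓS : ℓ ∉ (↑S : Set ℕ)),
          ∀ A : ValuationSubring (AlgebraicClosure ℚ), A.LiesOverPrime ℓ →
            ∀ σ : AlgebraicClosure ℚ ≃ₐ[ℚ] AlgebraicClosure ℚ, A.IsFrobeniusAt σ ℓ →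
              LinearMap.charpoly (ρ.ρ σ) =
                X ^ 2 - C (algebraMap O' O'' ((iota.comp chig.rangeRestrict)
                  (CuspForm.heckeAlgebra.T hℓ hℓM hℓS))) * X
                  + C ((ℓ : O''))) ∧
        (∀ q : ℕ, q.Prime → q ≠ lam → q ∣ M → ¬ q ^ 2 ∣ M →
          ∀ A : ValuationSubring (AlgebraicClosure ℚ), A.LiesOverPrime q →
            ∀ σ : AlgebraicClosure ℚ ≃ₐ[ℚ] AlgebraicClosure ℚ, A.IsFrobeniusAt σ q →
              LinearMap.charpoly (ρ.ρ σ) = X ^ 2 - C ((q : O'') + 1) * X + C ((q : O'')) ∨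
              LinearMap.charpoly (ρ.ρ σ) = X ^ 2 + C ((q : O'') + 1) * X + C ((q : O''))) := by
  obtain ⟨ρ, h1, h2⟩ := strongS35_of hTate hEig hCyc hPseudo hAlg hBad hg lam S O' hlamO' chig
    hchig iota hlamS hMS
  exact ⟨O', inferInstance, inferInstance, inferInstance, inferInstance, inferInstance,
    inferInstance, Algebra.id O', Module.Finite.self O', ⟨fun a ha => ha⟩, fun a b hab => hab,
    ρ, h1, h2⟩

end Fermat.Agent.T2.helper48

end
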