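/-
TIER 2 (S34), helper51: [ROOT-END] at `W = atkinLehner N q` (level `N * q`):
`RootEndStatement` from the pivot step for pairs alone (the disc step is
`helper23.disc_root_xJ`).
-/
import Fermat.Agent.T2.helper51_RootEnd
import Fermat.Agent.T2.helper96_ValW
import Fermat.Agent.P2.helper23_Disc

set_option autoImplicit false

noncomputable section

open HahnSeries IntermediateField AlgebraicCurve ModularCurve
open Fermat.Agent.S18.helper19 Fermat.Agent.P2.helper29 Fermat.Agent.P2.helper93
open Fermat.Agent.S24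

namespace Fermat.Agent.T2.helper51

open Fermat.Agent.T2 Fermat.Agent.T2.helper36 Fermat.Agent.T2.helper96

/-- **[DISC]** the disc step at every level (helper23). -/
theorem discRootStatement (M : ℕ) [NeZero M] (A : ValuationSubring Kb) (n : ℕ)
    (hn : IsUnit ((n : ℕ) : A)) : DiscRootStatement M A n :=
  fun H hH hdiv hreg Y₁ Y₂ h₁ h₂ h12 hred hne =>
    Fermat.Agent.P2.helper23.disc_root_xJ M A n hn H hH hdiv hreg Y₁ Y₂ h₁ h₂ h12 hred hne

variable (N q : ℕ) [NeZero N] [NeZero q] (hq : q.Prime) (hqN : ¬ q ∣ N)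

/-- the second cusp is a pole of `j`: `W j = j(q^ℓ)` has order `-ℓ`. -/
theorem order_atkinLehner_xJ :
    ((atkinLehner N q hq hqN (xJ (N * q)) : FF (N * q)) : LaurentSeries Kb).order < 0 := by
  have hj : (jqModC Kb) ∈ FF N := by
    have h := (xJ N : FF N).2
    rwa [coe_xJ_eq_jq] at h
  have e : (xJ (N * q) : FF (N * q)) = ⟨jqModC Kb, mem_FF_mul N q hj⟩ :=
    Subtype.ext coe_xJ_eq_jq
  rw [e, atkinLehner_alpha N q hq hqN hj]
  have hne : (jqModC Kb) ≠ 0 := by
    intro h0
    have h2 := order_jqModC (K := Kb)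
    rw [h0, HahnSeries.order_zero] at h2
    omega
  show (qExpand Kb q (jqModC Kb)).order < 0
  rw [order_qExpand q hne, order_jqModC]
  have : (0 : ℤ) < q := by exact_mod_cast hq.pos
  omega

/-- **[ROOT-END]** at `W = atkinLehner N q`, from the pivot step for pairs. -/
theorem rootEnd_of_pivot (A : ValuationSubring Kb) (n : ℕ) (hn : IsUnit ((n : ℕ) : A))
    (hP : PairPivotStatement (N * q) (atkinLehner N q hq hqN) A n) :
    RootEndStatement (N * q) (atkinLehner N q hq hqN) A n :=
  rootEnd_of_disc_pivot (atkinLehner_atkinLehner N q hq hqN) (order_atkinLehner_xJ N q hq hqN)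
    (discRootStatement (N * q) A n hn) hP

end Fermat.Agent.T2.helper51

end
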