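import Mathlib

/-!
# T2 [T2-DICT-EIG] (helper5, task 773), part (b): transfer of a common eigenvector

Pure algebra (Mathlib only).  Let `L` be a finitely generated abelian group with a family of
additive endomorphisms `t i`, `R` a domain with an embedding `j : R → C` into a field and an
embedding `ι : R → O` into a commutative ring.  A nonzero common eigenvector
`e ∈ Hom(L, C)` of the transposes of the `t i` with eigenvalues `j (c i)`, `c i ∈ R`, gives a
nonzero common eigenvector `x ∈ Hom(L, O)` with eigenvalues `ι (c i)`.

* `exists_eigen_fractionRing` : descent from `C` to the fraction field of `R` (a `Frac R`-linear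
  functional on `C` which does not kill one value of `e`);
* `exists_eigen_integral` : clearing denominators (`L` is finitely generated);
* `exists_eigen_transfer` : the transfer;
* `injective_of_isIntegral_of_charZero` : a ring homomorphism from a domain which is integral
  over `ℤ` to a ring of characteristic `0` without zero divisors is injective.
-/

set_option autoImplicit false

namespace Fermat.Agent.T2.helper5

open scoped nonZeroDivisors

section Transfer

variable {L : Type*} [AddCommGroup L]
  {R : Type*} [CommRing R] [IsDomain R]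
  {C : Type*} [Field C]

/-- Step 1: from `C` to the fraction field of `R`. -/
theorem exists_eigen_fractionRing (j : R →+* C) (hj : Function.Injective j)
    {I : Type*} (t : I → L →+ L) (c : I → R) (e : L →+ C) (he : e ≠ 0)
    (heq : ∀ i lam, e (t i lam) = j (c i) * e lam) :
    ∃ f : L →+ FractionRing R, f ≠ 0 ∧
      ∀ i lam, f (t i lam) = algebraMap R (FractionRing R) (c i) * f lam := by
  classical
  let φ : FractionRing R →+* C := IsFractionRing.lift hj
  let _ : Module (FractionRing R) C := Module.compHom C φ
  have hsmul : ∀ (a : FractionRing R) (z : C), a • z = φ a * z := fun a z => rfl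
  obtain ⟨lam₀, hlam₀⟩ : ∃ lam₀, e lam₀ ≠ 0 := by
    by_contra h
    simp only [not_exists, not_not] at h
    exact he (AddMonoidHom.ext h)
  obtain ⟨f0, hf0⟩ := Module.Projective.exists_dual_ne_zero (FractionRing R) hlam₀
  refine ⟨f0.toAddMonoidHom.comp e, ?_, ?_⟩
  · intro h
    exact hf0 (DFunLike.congr_fun h lam₀)
  · intro i lam
    change f0 (e (t i lam)) = _ * f0 (e lam)
    rw [heq i lam]
    have h1 : j (c i) * e lam = (algebraMap R (FractionRing R) (c i)) • e lam := by
      rw [hsmul]
      congr 1
      exact (IsFractionRing.lift_algebraMap hj (c i)).symm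
    rw [h1, map_smul, smul_eq_mul]

/-- Step 2: clearing denominators. -/
theorem exists_eigen_integral [Module.Finite ℤ L]
    {I : Type*} (t : I → L →+ L) (c : I → R) (f : L →+ FractionRing R) (hf : f ≠ 0)
    (hfeq : ∀ i lam, f (t i lam) = algebraMap R (FractionRing R) (c i) * f lam) :
    ∃ x : L →+ R, x ≠ 0 ∧ ∀ i lam, x (t i lam) = c i * x lam := by
  classical
  obtain ⟨s, hs⟩ := (Module.Finite.fg_top : (⊤ : Submodule ℤ L).FG)
  obtain ⟨d, hd⟩ := IsLocalization.exist_integer_multiples_of_finset (R⁰) (s.image f)
  have hint : ∀ lam : L, ∃ r : R, algebraMap R (FractionRing R) r = (d : R) • f lam := by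
    intro lam
    have hmem : lam ∈ Submodule.span ℤ (s : Set L) := by
      rw [hs]
      trivial
    induction hmem using Submodule.span_induction with
    | mem x hx => exact hd (f x) (Finset.mem_image_of_mem f hx)
    | zero => exact ⟨0, by rw [map_zero, map_zero, smul_zero]⟩
    | add x y _ _ hx hy =>
      obtain ⟨a, ha⟩ := hx
      obtain ⟨b, hb⟩ := hy
      exact ⟨a + b, by rw [map_add, ha, hb, map_add, smul_add]⟩
    | smul n x _ hx =>
      obtain ⟨a, ha⟩ := hx
      exact ⟨n • a, by rw [map_zsmul, ha, map_zsmul, smul_comm]⟩
  choose g hg using hint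
  have hinjK : Function.Injective (algebraMap R (FractionRing R)) :=
    IsFractionRing.injective R (FractionRing R)
  have hd0 : algebraMap R (FractionRing R) (d : R) ≠ 0 := by
    intro h
    have h2 : (d : R) = 0 := hinjK (by rw [h, map_zero])
    exact nonZeroDivisors.coe_ne_zero d h2
  let x : L →+ R :=
    { toFun := g
      map_zero' := hinjK (by rw [hg, map_zero, smul_zero, map_zero])
      map_add' := fun a b => hinjK (by rw [hg, map_add, map_add, hg, hg, smul_add]) }
  have hx : ∀ lam, algebraMap R (FractionRing R) (x lam) =
      algebraMap R (FractionRing R) (d : R) * f lam := by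
    intro lam
    change algebraMap R (FractionRing R) (g lam) = _
    rw [hg, Algebra.smul_def]
  refine ⟨x, ?_, ?_⟩
  · intro h
    obtain ⟨lam₀, hlam₀⟩ : ∃ lam₀, f lam₀ ≠ 0 := by
      by_contra h'
      simp only [not_exists, not_not] at h'
      exact hf (AddMonoidHom.ext h')
    have h1 := hx lam₀
    rw [h, AddMonoidHom.zero_apply, map_zero] at h1
    exact mul_ne_zero hd0 hlam₀ h1.symm
  · intro i lam
    apply hinjK
    rw [hx, hfeq, map_mul, hx]
    ring

/-- **The transfer of a common eigenvector** from `Hom(L, C)` to `Hom(L, O)`. -/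
theorem exists_eigen_transfer [Module.Finite ℤ L] (j : R →+* C) (hj : Function.Injective j)
    {O : Type*} [CommRing O] (ι : R →+* O) (hι : Function.Injective ι)
    {I : Type*} (t : I → L →+ L) (c : I → R) (e : L →+ C) (he : e ≠ 0)
    (heq : ∀ i lam, e (t i lam) = j (c i) * e lam) :
    ∃ x : L →+ O, x ≠ 0 ∧ ∀ i lam, x (t i lam) = ι (c i) * x lam := by
  obtain ⟨f, hf, hfeq⟩ := exists_eigen_fractionRing j hj t c e he heq
  obtain ⟨x, hx, hxeq⟩ := exists_eigen_integral t c f hf hfeq
  refine ⟨ι.toAddMonoidHom.comp x, ?_, ?_⟩
  · intro h
    apply hx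
    refine AddMonoidHom.ext fun lam => hι ?_
    have h1 := DFunLike.congr_fun h lam
    rw [AddMonoidHom.zero_apply, map_zero]
    exact h1
  · intro i lam
    change ι (x (t i lam)) = ι (c i) * ι (x lam)
    rw [hxeq, map_mul]

end Transfer

/-- A ring homomorphism from a domain which is integral over `ℤ` to a nontrivial ring of
characteristic `0` is injective as soon as its kernel is prime, e.g. if the target is a
domain. -/
theorem injective_of_isIntegral_of_charZero {R : Type*} [CommRing R] [IsDomain R]
    [Algebra.IsIntegral ℤ R] {O : Type*} [CommRing O] [CharZero O] (ι : R →+* O) :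
    Function.Injective ι := by
  rw [injective_iff_map_eq_zero]
  have hcomap : (RingHom.ker ι).comap (algebraMap ℤ R) = ⊥ := by
    rw [eq_bot_iff]
    intro n hn
    rw [Ideal.mem_comap, RingHom.mem_ker, eq_intCast, map_intCast] at hn
    rw [Ideal.mem_bot]
    exact_mod_cast hn
  have hker : RingHom.ker ι = ⊥ := Ideal.eq_bot_of_comap_eq_bot hcomap
  intro a ha
  have : a ∈ RingHom.ker ι := ha
  rw [hker, Ideal.mem_bot] at this
  exact this

end Fermat.Agent.T2.helper5
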