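import Fermat.Agent.T2.helper76_ALTrace
import Fermat.Agent.S49.HeckeC
import Fermat.Agent.S23.helper87_RationalBasis
import Fermat.Prelude.Def_CuspForm_Newforms
import Fermat.Prelude.Thm_CuspForm_heckeTLin_heckeULin_comm
import Fermat.Agent.P3.helper68_Eigenchar

/-!
# T2 [T2-NEW], part 4: the traces of a newform vanish

Let `g` be a newform of level `M` in the Prelude's sense (`CuspForm.IsNewform`) and `q ∥ M` a
prime, `M = q m`.

* `trace_eq_zero_of_isNewform` : every `f ∈ S₂(Γ₀(M))` with `T_ℓ f = a_ℓ(g) f` for all primes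
  `ℓ ∤ M` has trace `0` to level `m`;
* `slash_mat_of_isNewform` : `g ∣[2] W = - a_q(g) • g` for every Atkin–Lehner matrix `W` at `q`
  (of level `M`, or of level `c M`), and `a_q(g) ^ 2 = 1`.

No multiplicity one is used: a nonzero trace would give a common eigenvector of the full Hecke
algebra of level `m` with the eigenvalues of `g` at all `ℓ ∤ M`.
-/

set_option autoImplicit false

namespace Fermat.Agent.T2.helper76

open UpperHalfPlane ModularForm CongruenceSubgroup Matrix ModularFormClass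
open scoped MatrixGroups
open Fermat.Agent.S16.helper26 Fermat.Agent.S16.helper41 Fermat.Agent.S49

/-- A proper ideal of a finite-dimensional commutative algebra over an algebraically closed
field is killed by a character. -/
theorem exists_algHom_of_ne_top {K A : Type*} [Field K] [IsAlgClosed K] [CommRing A]
    [Algebra K A] [FiniteDimensional K A] (I : Ideal A) (hI : I ≠ ⊤) :
    ∃ χ : A →ₐ[K] K, ∀ a ∈ I, χ a = 0 := by
  obtain ⟨𝔪, h𝔪, hI𝔪⟩ := Ideal.exists_le_maximal I hI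
  have := h𝔪
  have hbij : Function.Bijective (algebraMap K (A ⧸ 𝔪)) :=
    IsAlgClosed.algebraMap_bijective_of_isIntegral
  let e : K ≃ₐ[K] (A ⧸ 𝔪) := AlgEquiv.ofBijective (Algebra.ofId K (A ⧸ 𝔪)) hbij
  refine ⟨(e.symm : (A ⧸ 𝔪) →ₐ[K] K).comp (Ideal.Quotient.mkₐ K 𝔪), fun a ha => ?_⟩
  have h1 : Ideal.Quotient.mk 𝔪 a = 0 := Ideal.Quotient.eq_zero_iff_mem.mpr (hI𝔪 ha)
  show e.symm (Ideal.Quotient.mk 𝔪 a) = 0
  rw [h1, map_zero]

section Trace

variable {M q : ℕ} [NeZero M]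

omit [NeZero M] in
/-- The Atkin–Lehner operator commutes with `T_ℓ`, `ℓ ∤ M`, on `S₂(Γ₀(M))`. -/
theorem ALData.heckeTLin_atkinLehner (W : ALData M q) {ℓ : ℕ} (hℓ : ℓ.Prime) (hℓM : ¬ ℓ ∣ M)
    (F : CuspForm (Gamma0 M) 2) :
    CuspForm.heckeTLin 2 hℓ hℓM (W.atkinLehner F) =
      W.atkinLehner (CuspForm.heckeTLin 2 hℓ hℓM F) := by
  apply DFunLike.coe_injective
  rw [CuspForm.coe_heckeTLin_apply, ALData.coe_atkinLehner, ALData.coe_atkinLehner,
    CuspForm.coe_heckeTLin_apply]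
  exact W.heckeT_slash_mat hℓ hℓM (fun γ hγ => SlashInvariantFormClass.slash_action_eq F γ hγ)

/-- The trace to level `m`, as an endomorphism of `S₂(Γ₀(M))`: `F ↦ F + U_q (W F)`. -/
noncomputable def ALData.traceEnd (W : ALData M q) (hqM : q ∣ M) :
    CuspForm (Gamma0 M) 2 →ₗ[ℂ] CuspForm (Gamma0 M) 2 :=
  LinearMap.id + (CuspForm.heckeULin 2 hqM).comp W.atkinLehner

theorem ALData.traceEnd_apply (W : ALData M q) (hqM : q ∣ M) (F : CuspForm (Gamma0 M) 2) :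
    W.traceEnd hqM F = F + CuspForm.heckeULin 2 hqM (W.atkinLehner F) := rfl

theorem ALData.coe_traceEnd (W : ALData M q) (hq : q.Prime) (hqM : q ∣ M) {m : ℕ}
    (hM : M = q * m) (F : CuspForm (Gamma0 M) 2) :
    (⇑(W.traceEnd hqM F) : ℍ → ℂ) =
      ⇑(CuspForm.trace (Gamma0 m : Subgroup (GL (Fin 2) ℝ)) F) := by
  rw [W.coe_trace_eq F hq hM, ALData.traceEnd_apply, FunLike.coe_add,
    CuspForm.coe_heckeULin_apply, ALData.coe_atkinLehner]

theorem ALData.heckeTLin_traceEnd (W : ALData M q) (hqM : q ∣ M) {ℓ : ℕ} (hℓ : ℓ.Prime)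
    (hℓM : ¬ ℓ ∣ M) (F : CuspForm (Gamma0 M) 2) :
    CuspForm.heckeTLin 2 hℓ hℓM (W.traceEnd hqM F) =
      W.traceEnd hqM (CuspForm.heckeTLin 2 hℓ hℓM F) := by
  rw [ALData.traceEnd_apply, ALData.traceEnd_apply, map_add]
  congr 1
  have h := (CuspForm.heckeTLin_heckeULin_comm (N := M) 2 hℓ hℓM hqM).eq
  have h1 := congrArg (fun T : Module.End ℂ (CuspForm (Gamma0 M) 2) => T (W.atkinLehner F)) h
  simp only [Module.End.mul_apply] at h1
  rw [h1, W.heckeTLin_atkinLehner hℓ hℓM F]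

end Trace

section Newform

variable {M q : ℕ} [NeZero M]

/-- The annihilator of a vector in the (commutative) complex Hecke algebra. -/
noncomputable def annIdeal (m : ℕ) [NeZero m] (h : CuspForm (Gamma0 m) 2) : Ideal (heckeAlgC m) where
  carrier := {T | (T : Module.End ℂ (CuspForm (Gamma0 m) 2)) h = 0}
  add_mem' := by
    intro S T hS hT
    show ((S + T : heckeAlgC m) : Module.End ℂ (CuspForm (Gamma0 m) 2)) h = 0
    rw [Subalgebra.coe_add, LinearMap.add_apply, hS, hT, add_zero]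
  zero_mem' := by
    show ((0 : heckeAlgC m) : Module.End ℂ (CuspForm (Gamma0 m) 2)) h = 0
    rw [Subalgebra.coe_zero, LinearMap.zero_apply]
  smul_mem' := by
    intro S T hT
    show ((S * T : heckeAlgC m) : Module.End ℂ (CuspForm (Gamma0 m) 2)) h = 0
    rw [Subalgebra.coe_mul, Module.End.mul_apply, hT, map_zero]

theorem mem_annIdeal (m : ℕ) [NeZero m] (h : CuspForm (Gamma0 m) 2) (T : heckeAlgC m) :
    T ∈ annIdeal m h ↔ (T : Module.End ℂ (CuspForm (Gamma0 m) 2)) h = 0 := Iff.rfl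

/-- **The traces of a newform vanish.**  Let `g` be a newform of level `M = q m`, `q` prime,
`q ∤ m`.  Every `f ∈ S₂(Γ₀(M))` with the Hecke eigenvalues of `g` at all primes `ℓ ∤ M` has
trace zero to level `m`. -/
theorem trace_eq_zero_of_isNewform {g : CuspForm (Gamma0 M) 2} (hg : g.IsNewform)
    (hq : q.Prime) {m : ℕ} (hM : M = q * m) (hqm : ¬ q ∣ m)
    (f : CuspForm (Gamma0 M) 2)
    (hf : ∀ (ℓ : ℕ) (hℓ : ℓ.Prime) (hℓM : ¬ ℓ ∣ M),
      CuspForm.heckeTLin 2 hℓ hℓM f = qCoeff ⇑g ℓ • f) :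
    CuspForm.trace (Gamma0 m : Subgroup (GL (Fin 2) ℝ)) f = 0 := by
  by_contra hne
  have hm0 : m ≠ 0 := by
    rintro rfl
    exact NeZero.ne M (by rw [hM, mul_zero])
  have : NeZero m := ⟨hm0⟩
  have hqM : q ∣ M := ⟨m, hM⟩
  have hcop : Nat.Coprime q m := (Nat.Prime.coprime_iff_not_dvd hq).mpr hqm
  let W : ALData M q := ALData.ofCoprime hq.ne_zero hM hcop
  set h : CuspForm (Gamma0 m) 2 := CuspForm.trace (Gamma0 m : Subgroup (GL (Fin 2) ℝ)) f
    with hh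
  -- `h` has the eigenvalues of `g`
  have hℓm : ∀ {ℓ : ℕ}, ¬ ℓ ∣ M → ¬ ℓ ∣ m := fun hℓM hd => hℓM (hM ▸ Dvd.dvd.mul_left hd q)
  have heig : ∀ (ℓ : ℕ) (hℓ : ℓ.Prime) (hℓM : ¬ ℓ ∣ M),
      CuspForm.heckeTLin 2 hℓ (hℓm hℓM) h = qCoeff ⇑g ℓ • h := by
    intro ℓ hℓ hℓM
    apply DFunLike.coe_injective
    rw [CuspForm.coe_heckeTLin_apply, FunLike.coe_smul, hh, ← W.coe_traceEnd hq hqM hM f,
      ← CuspForm.coe_heckeTLin_apply 2 hℓ hℓM, W.heckeTLin_traceEnd hqM hℓ hℓM, hf ℓ hℓ hℓM,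
      map_smul, FunLike.coe_smul]
  -- a character of the Hecke algebra of level `m` killing the annihilator of `h`
  have hfinA : FiniteDimensional ℂ (heckeAlgC m) :=
    (exists_vector_of_pairing (heckeRep m) (heckeRep_injective m) (qcLin m 2 1)
      (pairing_nondeg m) 0).1
  have hI : annIdeal m h ≠ ⊤ := by
    intro htop
    have h1 : (1 : heckeAlgC m) ∈ annIdeal m h := htop ▸ Submodule.mem_top
    rw [mem_annIdeal, Subalgebra.coe_one, Module.End.one_apply] at h1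
    exact hne h1
  obtain ⟨χ, hχ⟩ := exists_algHom_of_ne_top (K := ℂ) (annIdeal m h) hI
  obtain ⟨g', hg'1, hg'⟩ := exists_eigenform_of_character χ
  have hnorm := isNormalizedEigenform_of_eigen χ g' hg'1 hg'
  have hmM : m ≠ M := by
    intro hmM
    have h2 : 1 * m = q * m := by rw [one_mul, ← hM, hmM]
    have h3 := Nat.eq_of_mul_eq_mul_right (Nat.pos_of_ne_zero hm0) h2
    exact hq.one_lt.ne h3
  refine hg.2 m ⟨q, by rw [hM, mul_comm]⟩ hmM ⟨g', hnorm, fun ℓ hℓ hℓM => ?_⟩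
  rw [qCoeff_prime_of_eigen χ g' hg'1 hg' hℓ (hℓm hℓM)]
  set Tℓ : heckeAlgC m :=
    heckeIncl m (CuspForm.heckeAlgebra.T hℓ (hℓm hℓM) (Set.notMem_empty _)) with hTℓ
  have hmem : Tℓ - algebraMap ℂ (heckeAlgC m) (qCoeff ⇑g ℓ) ∈ annIdeal m h := by
    rw [mem_annIdeal, Subalgebra.coe_sub, LinearMap.sub_apply, Subalgebra.coe_algebraMap,
      Module.algebraMap_end_apply, sub_eq_zero]
    exact heig ℓ hℓ hℓM
  have h4 := hχ _ hmem
  rw [map_sub, AlgHom.commutes, sub_eq_zero] at h4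
  rw [h4]
  rfl

/-- A newform is an eigenvector of the Atkin–Lehner operator at `q ∥ M`, with eigenvalue
`- a_q(g)`, and `a_q(g)² = 1` (operator form). -/
theorem atkinLehner_of_isNewform {g : CuspForm (Gamma0 M) 2} (hg : g.IsNewform)
    (hq : q.Prime) {m : ℕ} (hM : M = q * m) (hqm : ¬ q ∣ m) (W : ALData M q) :
    W.atkinLehner g = -(qCoeff ⇑g q) • g ∧ qCoeff ⇑g q ^ 2 = 1 := by
  have hqM : q ∣ M := ⟨m, hM⟩
  have hT : ∀ (ℓ : ℕ) (hℓ : ℓ.Prime) (hℓM : ¬ ℓ ∣ M),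
      CuspForm.heckeTLin 2 hℓ hℓM g = qCoeff ⇑g ℓ • g :=
    fun ℓ hℓ hℓM => Fermat.Agent.P3.helper68.heckeTLin_eigen hg.1 hℓ hℓM
  have hU : CuspForm.heckeULin 2 hqM g = qCoeff ⇑g q • g :=
    Fermat.Agent.P3.helper68.heckeULin_eigen hg.1 hq hqM
  -- the trace of `W g` vanishes
  have h1 : CuspForm.trace (Gamma0 m : Subgroup (GL (Fin 2) ℝ)) (W.atkinLehner g) = 0 :=
    trace_eq_zero_of_isNewform hg hq hM hqm (W.atkinLehner g) (fun ℓ hℓ hℓM => by
      rw [W.heckeTLin_atkinLehner hℓ hℓM, hT ℓ hℓ hℓM, map_smul])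
  have h2 : W.traceEnd hqM (W.atkinLehner g) = 0 := by
    apply DFunLike.coe_injective
    rw [W.coe_traceEnd hq hqM hM, h1]
    rfl
  rw [ALData.traceEnd_apply, ALData.atkinLehner_atkinLehner, hU] at h2
  have hW : W.atkinLehner g = -(qCoeff ⇑g q) • g := by
    rw [_root_.neg_smul]
    exact eq_neg_of_add_eq_zero_left h2
  refine ⟨hW, ?_⟩
  -- the trace of `g` vanishes
  have h3 : CuspForm.trace (Gamma0 m : Subgroup (GL (Fin 2) ℝ)) g = 0 :=
    trace_eq_zero_of_isNewform hg hq hM hqm g hT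
  have h4 : W.traceEnd hqM g = 0 := by
    apply DFunLike.coe_injective
    rw [W.coe_traceEnd hq hqM hM, h3]
    rfl
  rw [ALData.traceEnd_apply, hW, map_smul, hU, smul_smul] at h4
  have h5 : ((1 : ℂ) - qCoeff ⇑g q ^ 2) • g = 0 := by
    rw [sub_smul, one_smul, sub_eq_add_neg, ← _root_.neg_smul]
    rw [show -(qCoeff ⇑g q ^ 2) = -qCoeff ⇑g q * qCoeff ⇑g q by ring]
    exact h4
  rcases smul_eq_zero.mp h5 with h6 | h6
  · exact (sub_eq_zero.mp h6).symm
  · exact absurd h6 hg.ne_zero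

/-- **[T2-NEW], exported form.**  Let `g` be a newform of level `M` (Prelude sense), `q ∥ M` a
prime and `W` an Atkin–Lehner matrix at `q` of level `c M` (any `c`).  Then
`g ∣[2] W = - a_q(g) • g` and `a_q(g)² = 1`. -/
theorem slash_mat_of_isNewform {g : CuspForm (Gamma0 M) 2} (hg : g.IsNewform)
    (hq : q.Prime) (hqM : q ∣ M) (hq2 : ¬ q ^ 2 ∣ M) {c : ℕ} (W : ALData (c * M) q) :
    (⇑g : ℍ → ℂ) ∣[(2 : ℤ)] W.mat = -(qCoeff ⇑g q) • (⇑g : ℍ → ℂ) ∧ qCoeff ⇑g q ^ 2 = 1 := by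
  obtain ⟨m, hM⟩ := hqM
  have hqm : ¬ q ∣ m := by
    intro h
    apply hq2
    rw [hM, pow_two]
    exact Nat.mul_dvd_mul_left q h
  obtain ⟨h1, h2⟩ := atkinLehner_of_isNewform hg hq hM hqm (W.restrict m hM)
  refine ⟨?_, h2⟩
  have h3 := congrArg (fun F : CuspForm (Gamma0 M) 2 => (⇑F : ℍ → ℂ)) h1
  simp only [ALData.coe_atkinLehner, ALData.mat_restrict, FunLike.coe_smul] at h3
  exact h3

/-- The `q ∥ N` half of the Prelude's `NewformBadPrimeCoeff`. -/
theorem qCoeff_sq_eq_one_of_isNewform {g : CuspForm (Gamma0 M) 2} (hg : g.IsNewform)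
    (hq : q.Prime) (hqM : q ∣ M) (hq2 : ¬ q ^ 2 ∣ M) : qCoeff ⇑g q ^ 2 = 1 := by
  obtain ⟨W⟩ := ALData.nonempty_of_prime hq hqM hq2
  have hW : ALData (1 * M) q := by rw [one_mul]; exact W
  exact (slash_mat_of_isNewform hg hq hqM hq2 hW).2

end Newform

end Fermat.Agent.T2.helper76
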