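import Fermat.Agent.P3.helper16_PerLattice
import Fermat.Agent.P3.helper16_OldForms
import Fermat.Agent.T2.helper76_NewTrace
import Fermat.Agent.T2.helper5_EigTransfer

/-!
# T2 [T2-DICT-EIG] (helper5, task 773), parts (a) + (b): the eigenvector on the period lattice

For `G ∈ S₂(Γ₀(M))` let `evG M G : perLat M →+ ℂ`, `lam ↦ lam (G, 0)`.

* `evG_ne_zero` : `evG M G ≠ 0` for `G ≠ 0` (the period lattice separates points, S21);
* `evG_hTr_of_eigen`, `evG_hTr_X_of_not_dvd`, `evG_hTr_X_of_dvd` : eigen-equations of `G` for the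
  Hecke operators give eigen-equations of `evG M G` for the transposes `hTr M P`;
* `evG_transpose` : the same for any transposed operator (Atkin–Lehner: `evG_atkinLehner`);
* `exists_latChar_eigen` : **transfer**: for a subring `R ⊆ ℂ` and an injective ring
  homomorphism `ι : R → O` there is `x ≠ 0` in `Hom(perLat M, O)` such that EVERY eigen-equation
  `evG ∘ t = c • evG` (`t` an additive endomorphism of `perLat M`, `c ∈ R`) holds for `x` with
  eigenvalue `ι c`;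
* `exists_latChar_eigen_of_isNewform` : the instance for a newform `g` of level `N`, seen at
  level `c N`: eigenvalues `a_ℓ(g)` of `hTr (X ℓ)`, `ℓ ∤ c N`, `a_q(g)` of `hTr (X q)` (`= U_q`),
  `q ∣ N`, and `- a_q(g)` of every transpose of an Atkin–Lehner operator at `q ∥ N`.
-/

set_option autoImplicit false

open ModularCurve CuspForm CongruenceSubgroup ModularFormClass
open scoped MatrixGroups

noncomputable section

namespace Fermat.Agent.T2.helper5

open Fermat.Agent.P3.helper16 Fermat.Agent.T2.helper76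

section Abstract

variable (M : ℕ) [NeZero M]

/-- evaluation of the period functionals at `(G, 0)`. -/
def evG (G : CuspForm (Gamma0 M) 2) : perLat M →+ ℂ where
  toFun lam := (lam : V2 M →ₗ[ℂ] ℂ) (G, 0)
  map_zero' := rfl
  map_add' _ _ := rfl

omit [NeZero M] in
theorem evG_apply (G : CuspForm (Gamma0 M) 2) (lam : perLat M) :
    evG M G lam = (lam : V2 M →ₗ[ℂ] ℂ) (G, 0) := rfl

/-- `evG M G ≠ 0` for `G ≠ 0`. -/
theorem evG_ne_zero {G : CuspForm (Gamma0 M) 2} (hG : G ≠ 0) : evG M G ≠ 0 := by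
  intro h
  have h1 : ((G, 0) : V2 M) = 0 :=
    perLat_separates M (G, 0) fun lam hlam => DFunLike.congr_fun h ⟨lam, hlam⟩
  exact hG (congrArg Prod.fst h1)

omit [NeZero M] in
theorem evG_smul (a : ℂ) (G : CuspForm (Gamma0 M) 2) (lam : perLat M) :
    (lam : V2 M →ₗ[ℂ] ℂ) (a • G, 0) = a * evG M G lam := by
  have h1 : ((a • G, 0) : V2 M) = a • ((G, 0) : V2 M) := by
    rw [Prod.smul_mk, smul_zero]
  rw [h1, map_smul, smul_eq_mul]
  rfl

/-- eigen-equation for the transpose of a Hecke polynomial. -/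
theorem evG_hTr_of_eigen (P : HeckeAlg) {G : CuspForm (Gamma0 M) 2} {a : ℂ}
    (hP : ((heckeEvalForms M 2 P : heckeAlgebra M 2 ∅) :
      Module.End ℂ (CuspForm (Gamma0 M) 2)) G = a • G) (lam : perLat M) :
    evG M G (hTr M P lam) = a * evG M G lam := by
  rw [evG_apply, hTr_apply_apply, ← evalPairLin_apply]
  have h1 : evalPairLin M P ((G, 0) : V2 M) = (a • G, 0) := by
    change ((((heckeEvalForms M 2 P : heckeAlgebra M 2 ∅) :
      Module.End ℂ (CuspForm (Gamma0 M) 2)) G), (((heckeEvalForms M 2 P : heckeAlgebra M 2 ∅) :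
      Module.End ℂ (CuspForm (Gamma0 M) 2)) 0)) = _
    rw [hP, map_zero]
  rw [h1, evG_smul]

/-- eigen-equation for the transpose of `T_ℓ`, `ℓ ∤ M`. -/
theorem evG_hTr_X_of_not_dvd (ℓ : Nat.Primes) (h : ¬ (ℓ : ℕ) ∣ M)
    {G : CuspForm (Gamma0 M) 2} {a : ℂ} (hT : CuspForm.heckeTLin 2 ℓ.2 h G = a • G)
    (lam : perLat M) :
    evG M G (hTr M (MvPolynomial.X ℓ) lam) = a * evG M G lam := by
  refine evG_hTr_of_eigen M _ ?_ lam
  have h1 : heckeEvalForms M 2 (MvPolynomial.X ℓ) =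
      heckeAlgebra.T ℓ.2 h (Set.notMem_empty _) :=
    heckeEvalForms_heckeGen_of_not_dvd h
  rw [h1]
  exact hT

/-- eigen-equation for the transpose of `U_q`, `q ∣ M`. -/
theorem evG_hTr_X_of_dvd (q : Nat.Primes) (h : (q : ℕ) ∣ M)
    {G : CuspForm (Gamma0 M) 2} {a : ℂ} (hU : CuspForm.heckeULin 2 h G = a • G)
    (lam : perLat M) :
    evG M G (hTr M (MvPolynomial.X q) lam) = a * evG M G lam := by
  refine evG_hTr_of_eigen M _ ?_ lam
  have h1 : heckeEvalForms M 2 (MvPolynomial.X q) =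
      heckeAlgebra.U q.2 h (Set.notMem_empty _) :=
    heckeEvalForms_heckeGen_of_dvd h
  rw [h1]
  exact hU

omit [NeZero M] in
/-- eigen-equation for any operator on the lattice which is the transpose (on the vectors
`(F, 0)`) of an operator `Wf` on forms. -/
theorem evG_transpose (tr : perLat M →+ perLat M)
    (Wf : CuspForm (Gamma0 M) 2 → CuspForm (Gamma0 M) 2) {G : CuspForm (Gamma0 M) 2} {a : ℂ}
    (htr : ∀ lam : perLat M,
      ((tr lam : perLat M) : V2 M →ₗ[ℂ] ℂ) (G, 0) = (lam : V2 M →ₗ[ℂ] ℂ) (Wf G, 0))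
    (hW : Wf G = a • G) (lam : perLat M) :
    evG M G (tr lam) = a * evG M G lam := by
  rw [evG_apply, htr, hW, evG_smul]

/-- **Transfer** of the eigenvector `evG M G` to `Hom(perLat M, O)`: every eigen-equation of
`evG M G` with eigenvalue in `R` holds for `x` with the eigenvalue mapped by `ι`. -/
theorem exists_latChar_eigen {G : CuspForm (Gamma0 M) 2} (hG : G ≠ 0) (R : Subring ℂ)
    {O : Type*} [CommRing O] (ι : R →+* O) (hι : Function.Injective ι) :
    ∃ x : perLat M →+ O, x ≠ 0 ∧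
      ∀ (t : perLat M →+ perLat M) (c : R),
        (∀ lam, evG M G (t lam) = (c : ℂ) * evG M G lam) →
          ∀ lam, x (t lam) = ι c * x lam := by
  obtain ⟨x, hx, hxeq⟩ := exists_eigen_transfer (L := perLat M) (R := R) (C := ℂ)
    R.subtype Subtype.val_injective ι hι
    (I := {p : (perLat M →+ perLat M) × R //
      ∀ lam, evG M G (p.1 lam) = (p.2 : ℂ) * evG M G lam})
    (fun p => p.1.1) (fun p => p.1.2) (evG M G) (evG_ne_zero M hG) (fun p lam => p.2 lam)
  exact ⟨x, hx, fun t c h lam => hxeq ⟨(t, c), h⟩ lam⟩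

end Abstract

/-! ## The instance for a newform -/

section Newform

variable {N : ℕ} [NeZero N]

/-- `U_q` commutes with the old-form inclusion (`q ∣ N ∣ M`). -/
theorem oldForm_heckeULin {M : ℕ} [NeZero M] (h : N ∣ M) {q : ℕ} (hqN : q ∣ N) (hqM : q ∣ M)
    (f : CuspForm (Gamma0 N) 2) :
    oldForm h 2 (CuspForm.heckeULin 2 hqN f) = CuspForm.heckeULin 2 hqM (oldForm h 2 f) := by
  apply DFunLike.coe_injective
  rw [coe_oldForm, CuspForm.coe_heckeULin_apply, CuspForm.coe_heckeULin_apply, coe_oldForm]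

/-- the eigenvalue `a_q(g)` of a newform at `q ∥ N` is `1` or `-1`. -/
theorem qCoeff_eq_one_or_neg_one {g : CuspForm (Gamma0 N) 2} (hg : g.IsNewform) {q : ℕ}
    (hq : q.Prime) (hqN : q ∣ N) (hq2 : ¬ q ^ 2 ∣ N) :
    qCoeff ⇑g q = 1 ∨ qCoeff ⇑g q = -1 := by
  have h := qCoeff_sq_eq_one_of_isNewform hg hq hqN hq2
  exact sq_eq_one_iff.mp h

variable (c : ℕ) [NeZero (c * N)]

omit [NeZero N] [NeZero (c * N)] in
/-- a newform of level `N` at level `c N`: `T_ℓ`, `ℓ ∤ c N`. -/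
theorem oldForm_heckeTLin_eigen {g : CuspForm (Gamma0 N) 2} (hg : g.IsNormalizedEigenform)
    {ℓ : ℕ} (hℓ : ℓ.Prime) (hℓM : ¬ ℓ ∣ c * N) :
    CuspForm.heckeTLin 2 hℓ hℓM (oldForm (Dvd.intro_left c rfl) 2 g) =
      qCoeff ⇑g ℓ • oldForm (Dvd.intro_left c rfl) 2 g := by
  have hℓN : ¬ ℓ ∣ N := fun h => hℓM (Dvd.dvd.mul_left h c)
  rw [← oldForm_heckeTLin (Dvd.intro_left c rfl) 2 hℓ hℓM hℓN,
    Fermat.Agent.P3.helper68.heckeTLin_eigen hg hℓ hℓN, map_smul]

/-- a newform of level `N` at level `c N`: `U_q`, `q ∣ N`. -/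
theorem oldForm_heckeULin_eigen {g : CuspForm (Gamma0 N) 2} (hg : g.IsNormalizedEigenform)
    {q : ℕ} (hq : q.Prime) (hqN : q ∣ N) :
    CuspForm.heckeULin 2 (Dvd.dvd.mul_left hqN c) (oldForm (Dvd.intro_left c rfl) 2 g) =
      qCoeff ⇑g q • oldForm (Dvd.intro_left c rfl) 2 g := by
  rw [← oldForm_heckeULin (Dvd.intro_left c rfl) hqN (Dvd.dvd.mul_left hqN c),
    Fermat.Agent.P3.helper68.heckeULin_eigen hg hq hqN, map_smul]

omit [NeZero (c * N)] in
/-- a newform of level `N` at level `c N`: the Atkin–Lehner operator at `q ∥ N`. -/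
theorem oldForm_atkinLehner_eigen {g : CuspForm (Gamma0 N) 2} (hg : g.IsNewform)
    {q : ℕ} (hq : q.Prime) (hqN : q ∣ N) (hq2 : ¬ q ^ 2 ∣ N) (W : ALData (c * N) q) :
    W.atkinLehner (oldForm (Dvd.intro_left c rfl) 2 g) =
      (-(qCoeff ⇑g q)) • oldForm (Dvd.intro_left c rfl) 2 g := by
  apply DFunLike.coe_injective
  rw [ALData.coe_atkinLehner, coe_oldForm, (slash_mat_of_isNewform hg hq hqN hq2 W).1]
  rfl

/-- **[T2-DICT-EIG] (a)+(b)** for a newform `g` of level `N`, at level `c N`: there is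
`x ≠ 0` in `Hom(perLat (c N), O)` which is a common eigenvector of
* the transposes of `T_ℓ`, `ℓ ∤ c N`, with eigenvalue `ι (a_ℓ(g))` (if `a_ℓ(g) ∈ R`),
* the transposes of `U_q`, `q ∣ N`, with eigenvalue `ι (a_q(g))` (if `a_q(g) ∈ R`),
* every transpose `tr` of an Atkin–Lehner operator at `q ∥ N`, with eigenvalue `- ι (a_q(g))`,
  where `a_q(g) = ± 1`. -/
theorem exists_latChar_eigen_of_isNewform {g : CuspForm (Gamma0 N) 2} (hg : g.IsNewform)
    (R : Subring ℂ) {O : Type*} [CommRing O] (ι : R →+* O) (hι : Function.Injective ι) :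
    ∃ x : perLat (c * N) →+ O, x ≠ 0 ∧
      (∀ (ℓ : Nat.Primes) (_ : ¬ (ℓ : ℕ) ∣ c * N) (ha : qCoeff ⇑g ℓ ∈ R) (lam : perLat (c * N)),
        x (hTr (c * N) (MvPolynomial.X ℓ) lam) = ι ⟨qCoeff ⇑g ℓ, ha⟩ * x lam) ∧
      (∀ (q : Nat.Primes) (_ : (q : ℕ) ∣ N) (ha : qCoeff ⇑g q ∈ R) (lam : perLat (c * N)),
        x (hTr (c * N) (MvPolynomial.X q) lam) = ι ⟨qCoeff ⇑g q, ha⟩ * x lam) ∧
      (∀ (q : ℕ) (_ : q.Prime) (_ : q ∣ N) (_ : ¬ q ^ 2 ∣ N) (W : ALData (c * N) q)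
        (tr : perLat (c * N) →+ perLat (c * N))
        (_ : ∀ (lam : perLat (c * N)) (F : CuspForm (Gamma0 (c * N)) 2),
          ((tr lam : perLat (c * N)) : V2 (c * N) →ₗ[ℂ] ℂ) (F, 0) =
            (lam : V2 (c * N) →ₗ[ℂ] ℂ) (W.atkinLehner F, 0))
        (ha : qCoeff ⇑g q ∈ R) (lam : perLat (c * N)),
        x (tr lam) = -(ι ⟨qCoeff ⇑g q, ha⟩ * x lam)) := by
  have hG : oldForm (Dvd.intro_left c rfl : N ∣ c * N) 2 g ≠ 0 := by
    intro h
    apply hg.ne_zero
    apply oldForm_injective (Dvd.intro_left c rfl : N ∣ c * N) 2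
    rw [h, map_zero]
  obtain ⟨x, hx, hxeq⟩ := exists_latChar_eigen (c * N) hG R ι hι
  refine ⟨x, hx, ?_, ?_, ?_⟩
  · intro ℓ hℓ ha lam
    exact hxeq _ ⟨_, ha⟩ (fun lam => evG_hTr_X_of_not_dvd (c * N) ℓ hℓ
      (oldForm_heckeTLin_eigen c hg.1 ℓ.2 hℓ) lam) lam
  · intro q hqN ha lam
    exact hxeq _ ⟨_, ha⟩ (fun lam => evG_hTr_X_of_dvd (c * N) q (Dvd.dvd.mul_left hqN c)
      (oldForm_heckeULin_eigen c hg.1 q.2 hqN) lam) lam
  · intro q hq hqN hq2 W tr htr ha lam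
    have h1 := hxeq tr (-⟨_, ha⟩) (fun lam => by
      have h2 := evG_transpose (c * N) tr W.atkinLehner (fun lam => htr lam _)
        (oldForm_atkinLehner_eigen c hg hq hqN hq2 W) lam
      rw [h2]
      rfl) lam
    rw [h1, map_neg, neg_mul]

end Newform

end Fermat.Agent.T2.helper5
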