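import Fermat.Agent.P3.helper1_TateModel

/-!
# T2 [T2-DICT-EIG] (helper5, task 773), part (c), abstract half: `Hom(L, ℤ_p) → Λ`

Let `T : TateModel p J` be a model of the `p`-adic Tate module of `J`, `L` a finite free
`ℤ`-module and `κ n : Hom(L, ℤ) → J[p^n]` a compatible family (`p^n κ_n = 0`,
`p κ_{n+1} = κ_n`).

* `toLam T κ h1 h2 : (L →+ ℤ_[p]) →+ T.Λ` : the `ℤ_p`-linear extension of `lift κ`;
* `proj_toLam` : `proj n (toLam y) = κ n ξ` for every `ξ : L →+ ℤ` congruent to `y` modulo `p^n`;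
* `exists_approx` : such a `ξ` exists;
* `proj_toLam_comp` : if `κ n (ξ ∘ t) = u (κ n ξ)` for all `n`, `ξ`, then
  `u (proj n (toLam y)) = proj n (toLam (y ∘ t))`;
* `toLam_injective` : if `κ n ξ = 0` only for `ξ` with values in `p^n ℤ`, then `toLam` is
  injective;
* `exists_functional` : for a nonzero `x0 : L →+ O` (`O` a domain containing `ℤ_p`) there are
  a `ℤ_p`-linear `G : O → Frac ℤ_p` and `y ≠ 0` in `Hom(L, ℤ_p)` with `y = G ∘ x0`;
* `aeval_smul_toLam_eq_zero` : **(KER)** if `x0 ∘ t i = χ i • x0` and `τ i` lifts `u i`, where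
  `(t i, u i)` are `κ`-compatible, then `aeval τ P • toLam y = 0` whenever `aeval χ P = 0`;
* `comp_eq_zsmul_of_functional`, `proj_toLam_eigen` : integer eigen-equations of `x0` pass to
  `y` and to the projections of `toLam y`.
-/

set_option autoImplicit false

noncomputable section

namespace Fermat.Agent.T2.helper5

open Fermat.Agent.P3.helper1 Module

/-- The coordinate characters of the chosen basis of a free `ℤ`-module. -/
def coordChar (L : Type*) [AddCommGroup L] [Module.Free ℤ L]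
    (i : Free.ChooseBasisIndex ℤ L) : L →+ ℤ :=
  ((Free.chooseBasis ℤ L).coord i).toAddMonoidHom

theorem coordChar_apply (L : Type*) [AddCommGroup L] [Module.Free ℤ L]
    (i : Free.ChooseBasisIndex ℤ L) (lam : L) :
    coordChar L i lam = (Free.chooseBasis ℤ L).coord i lam := rfl

/-- A character is the combination of the coordinate characters with its values on the basis
as coefficients. -/
theorem sum_smul_coordChar {L : Type*} [AddCommGroup L] [Module.Free ℤ L] [Module.Finite ℤ L]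
    (ξ : L →+ ℤ) : ∑ i, ξ (Free.chooseBasis ℤ L i) • coordChar L i = ξ := by
  ext lam
  have h := congrArg (fun f : L →ₗ[ℤ] ℤ => f lam)
    ((Free.chooseBasis ℤ L).sum_dual_apply_smul_coord ξ.toIntLinearMap)
  simp only [LinearMap.sum_apply, LinearMap.smul_apply, AddMonoidHom.coe_toIntLinearMap] at h
  rw [AddMonoidHom.finsetSum_apply]
  simpa [coordChar_apply] using h

section ToLam

variable {p : ℕ} [Fact p.Prime] {J : Type} [AddCommGroup J] (T : TateModel p J)
  {L : Type*} [AddCommGroup L] [Module.Free ℤ L] [Module.Finite ℤ L]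
  (κ : ℕ → (L →+ ℤ) →+ J)
  (h1 : ∀ (n : ℕ) (ξ : L →+ ℤ), p ^ n • κ n ξ = 0)
  (h2 : ∀ (n : ℕ) (ξ : L →+ ℤ), p • κ (n + 1) ξ = κ n ξ)

/-- The `ℤ_p`-linear extension of `lift κ` to `Hom(L, ℤ_p)`. -/
def toLam : (L →+ ℤ_[p]) →+ T.Λ where
  toFun y := ∑ i, y (Free.chooseBasis ℤ L i) • T.lift κ h1 h2 (coordChar L i)
  map_zero' := by simp
  map_add' y y' := by simp [add_smul, Finset.sum_add_distrib]

theorem toLam_apply (y : L →+ ℤ_[p]) :
    toLam T κ h1 h2 y = ∑ i, y (Free.chooseBasis ℤ L i) • T.lift κ h1 h2 (coordChar L i) := rfl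

theorem toLam_smul (a : ℤ_[p]) (y : L →+ ℤ_[p]) :
    toLam T κ h1 h2 (a • y) = a • toLam T κ h1 h2 y := by
  rw [toLam_apply, toLam_apply, Finset.smul_sum]
  refine Finset.sum_congr rfl fun i _ => ?_
  rw [AddMonoidHom.smul_apply, smul_eq_mul, mul_smul]

theorem toLam_zsmul (c : ℤ) (y : L →+ ℤ_[p]) :
    toLam T κ h1 h2 (c • y) = c • toLam T κ h1 h2 y := map_zsmul _ _ _

/-- The projections of `toLam y`. -/
theorem proj_toLam (n : ℕ) (y : L →+ ℤ_[p]) (ξ : L →+ ℤ)
    (h : ∀ lam, y lam - (ξ lam : ℤ_[p]) ∈ Ideal.span {(p : ℤ_[p]) ^ n}) :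
    T.proj n (toLam T κ h1 h2 y) = κ n ξ := by
  have e : T.proj n (toLam T κ h1 h2 y) =
      ∑ i, ξ (Free.chooseBasis ℤ L i) • κ n (coordChar L i) := by
    rw [toLam_apply, map_sum]
    refine Finset.sum_congr rfl fun i _ => ?_
    rw [T.proj_smul_of_sub_mem n _ _ (h _), TateModel.proj_lift]
  rw [e]
  conv_rhs => rw [← sum_smul_coordChar ξ, map_sum]
  refine Finset.sum_congr rfl fun i _ => ?_
  rw [map_zsmul]

omit [Module.Finite ℤ L] in
/-- Every `y : L →+ ℤ_p` is congruent modulo `p^n` to an integral character. -/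
theorem exists_approx (n : ℕ) (y : L →+ ℤ_[p]) :
    ∃ ξ : L →+ ℤ, ∀ lam, y lam - (ξ lam : ℤ_[p]) ∈ Ideal.span {(p : ℤ_[p]) ^ n} := by
  refine ⟨((Free.chooseBasis ℤ L).constr ℤ fun i =>
    (((y (Free.chooseBasis ℤ L i)).appr n : ℕ) : ℤ)).toAddMonoidHom, fun lam => ?_⟩
  have hmem := (Free.chooseBasis ℤ L).mem_span lam
  induction hmem using Submodule.span_induction with
  | mem x hx =>
    obtain ⟨i, rfl⟩ := hx
    rw [LinearMap.toAddMonoidHom_coe, Basis.constr_basis, Int.cast_natCast]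
    exact PadicInt.appr_spec n _
  | zero =>
    rw [map_zero, map_zero, Int.cast_zero, sub_zero]
    exact Ideal.zero_mem _
  | add a b _ _ ha hb =>
    rw [map_add, map_add, Int.cast_add, add_sub_add_comm]
    exact Ideal.add_mem _ ha hb
  | smul c a _ ha =>
    rw [map_zsmul, map_zsmul, zsmul_eq_mul, smul_eq_mul, Int.cast_mul, ← mul_sub]
    exact Ideal.mul_mem_left _ _ ha

/-- **Equivariance**: a `κ`-compatible pair `(t, u)` is compatible with `toLam`. -/
theorem proj_toLam_comp (t : L →+ L) (u : J →+ J)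
    (htu : ∀ (n : ℕ) (ξ : L →+ ℤ), κ n (ξ.comp t) = u (κ n ξ)) (n : ℕ) (y : L →+ ℤ_[p]) :
    u (T.proj n (toLam T κ h1 h2 y)) = T.proj n (toLam T κ h1 h2 (y.comp t)) := by
  obtain ⟨ξ, hξ⟩ := exists_approx n y
  rw [proj_toLam T κ h1 h2 n y ξ hξ,
    proj_toLam T κ h1 h2 n (y.comp t) (ξ.comp t) (fun lam => hξ (t lam)), htu]

/-- An element of `ℤ_p` divisible by all powers of `p` is zero. -/
theorem padicInt_eq_zero_of_forall_mem_span {a : ℤ_[p]}
    (h : ∀ n : ℕ, a ∈ Ideal.span {(p : ℤ_[p]) ^ n}) : a = 0 := by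
  rw [← PadicInt.ext_of_toZModPow]
  intro n
  rw [map_zero, ← RingHom.mem_ker, PadicInt.ker_toZModPow]
  exact h n

/-- **Injectivity** of `toLam`, if `κ n ξ = 0` only for characters with values in `p^n ℤ`. -/
theorem toLam_injective
    (h3 : ∀ (n : ℕ) (ξ : L →+ ℤ), κ n ξ = 0 → ∀ lam : L, ((p ^ n : ℕ) : ℤ) ∣ ξ lam) :
    Function.Injective (toLam T κ h1 h2) := by
  rw [injective_iff_map_eq_zero]
  intro y hy
  ext lam
  rw [AddMonoidHom.zero_apply]
  refine padicInt_eq_zero_of_forall_mem_span fun n => ?_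
  obtain ⟨ξ, hξ⟩ := exists_approx n y
  have h0 : κ n ξ = 0 := by
    rw [← proj_toLam T κ h1 h2 n y ξ hξ, hy, map_zero]
  obtain ⟨c, hc⟩ := h3 n ξ h0 lam
  have e : y lam = (y lam - (ξ lam : ℤ_[p])) + (p : ℤ_[p]) ^ n * (c : ℤ_[p]) := by
    rw [hc]
    push_cast
    ring
  rw [e]
  exact Ideal.add_mem _ (hξ lam) (Ideal.mul_mem_right _ _ (Ideal.mem_span_singleton_self _))

omit [Fact p.Prime] [Module.Free ℤ L] [Module.Finite ℤ L] in
/-- The form of the kernel condition used in P3's `KappaStatement` implies the one used here. -/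
theorem dvd_of_eq_smul {n : ℕ} {ξ : L →+ ℤ} (h : ∃ ξ' : L →+ ℤ, ξ = p ^ n • ξ') (lam : L) :
    ((p ^ n : ℕ) : ℤ) ∣ ξ lam := by
  obtain ⟨ξ', rfl⟩ := h
  rw [AddMonoidHom.smul_apply, nsmul_eq_mul]
  exact Dvd.intro _ rfl

end ToLam

/-! ## The functional -/

section Functional

open scoped nonZeroDivisors

variable {R : Type*} [CommRing R] [IsDomain R]
  {O : Type*} [CommRing O] [IsDomain O] [Algebra R O]
  {L : Type*} [AddCommGroup L]

/-- For a nonzero `x0 : L →+ O` (`L` finitely generated, `O` a domain containing the domain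
`R`) there are an `R`-linear `G : O → Frac R` and `y ≠ 0` in `Hom(L, R)` with
`y = G ∘ x0`. -/
theorem exists_functional [Module.Finite ℤ L] (hO : Function.Injective (algebraMap R O))
    (x0 : L →+ O) (hx0 : x0 ≠ 0) :
    ∃ (G : O →ₗ[R] FractionRing R) (y : L →+ R), y ≠ 0 ∧
      ∀ lam, algebraMap R (FractionRing R) (y lam) = G (x0 lam) := by
  classical
  have hj : Function.Injective ((algebraMap O (FractionRing O)).comp (algebraMap R O)) :=
    (IsFractionRing.injective O (FractionRing O)).comp hO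
  let φ : FractionRing R →+* FractionRing O := IsFractionRing.lift hj
  let _ : Module (FractionRing R) (FractionRing O) := Module.compHom (FractionRing O) φ
  have hsmul : ∀ (a : FractionRing R) (z : FractionRing O), a • z = φ a * z := fun a z => rfl
  obtain ⟨lam₀, hlam₀⟩ : ∃ lam₀, x0 lam₀ ≠ 0 := by
    by_contra h
    simp only [not_exists, not_not] at h
    exact hx0 (AddMonoidHom.ext h)
  have hlam₀' : algebraMap O (FractionRing O) (x0 lam₀) ≠ 0 := by
    intro h
    exact hlam₀ (IsFractionRing.injective O (FractionRing O) (by rw [h, map_zero]))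
  obtain ⟨f0, hf0⟩ := Module.Projective.exists_dual_ne_zero (FractionRing R) hlam₀'
  -- the functional before clearing denominators
  let G0 : O →ₗ[R] FractionRing R :=
    { toFun := fun o => f0 (algebraMap O (FractionRing O) o)
      map_add' := fun a b => by rw [map_add, map_add]
      map_smul' := fun r o => by
        have e : algebraMap O (FractionRing O) (r • o) =
            (algebraMap R (FractionRing R) r) • algebraMap O (FractionRing O) o := by
          rw [hsmul, Algebra.smul_def, map_mul]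
          congr 1
          exact (IsFractionRing.lift_algebraMap hj r).symm
        rw [e, map_smul, RingHom.id_apply, smul_eq_mul, Algebra.smul_def] }
  have hG0 : ∀ o, G0 o = f0 (algebraMap O (FractionRing O) o) := fun o => rfl
  obtain ⟨s, hs⟩ := (Module.Finite.fg_top : (⊤ : Submodule ℤ L).FG)
  obtain ⟨d, hd⟩ := IsLocalization.exist_integer_multiples_of_finset (R⁰)
    (s.image fun lam => G0 (x0 lam))
  have hint : ∀ lam : L, ∃ r : R, algebraMap R (FractionRing R) r = (d : R) • G0 (x0 lam) := by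
    intro lam
    have hmem : lam ∈ Submodule.span ℤ (s : Set L) := by
      rw [hs]
      trivial
    induction hmem using Submodule.span_induction with
    | mem x hx => exact hd _ (Finset.mem_image_of_mem (fun lam => G0 (x0 lam)) hx)
    | zero => exact ⟨0, by rw [map_zero, map_zero, map_zero, smul_zero]⟩
    | add x y _ _ hx hy =>
      obtain ⟨a, ha⟩ := hx
      obtain ⟨b, hb⟩ := hy
      exact ⟨a + b, by rw [map_add, ha, hb, map_add, map_add, smul_add]⟩
    | smul n x _ hx =>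
      obtain ⟨a, ha⟩ := hx
      exact ⟨n • a, by rw [map_zsmul, ha, map_zsmul, map_zsmul, smul_comm]⟩
  choose g hg using hint
  have hinjK : Function.Injective (algebraMap R (FractionRing R)) :=
    IsFractionRing.injective R (FractionRing R)
  have hd0 : (d : R) ≠ 0 := nonZeroDivisors.coe_ne_zero d
  let y : L →+ R :=
    { toFun := g
      map_zero' := hinjK (by rw [hg, map_zero, map_zero, smul_zero, map_zero])
      map_add' := fun a b => hinjK (by rw [hg, map_add, map_add, map_add, hg, hg, smul_add]) }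
  refine ⟨(d : R) • G0, y, ?_, fun lam => ?_⟩
  · intro h
    have h1 := hg lam₀
    have h2 : g lam₀ = 0 := DFunLike.congr_fun h lam₀
    rw [h2, map_zero, Algebra.smul_def, hG0] at h1
    rcases mul_eq_zero.mp h1.symm with h3 | h3
    · exact hd0 (hinjK (by rw [h3, map_zero]))
    · exact hf0 h3
  · change algebraMap R (FractionRing R) (g lam) = _
    rw [hg, LinearMap.smul_apply]

end Functional

/-! ## The kernel condition and the eigen-equations -/

section Ker

variable {p : ℕ} [Fact p.Prime] {J : Type} [AddCommGroup J] (T : TateModel p J)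
  {L : Type*} [AddCommGroup L] [Module.Free ℤ L] [Module.Finite ℤ L]
  (κ : ℕ → (L →+ ℤ) →+ J)
  (h1 : ∀ (n : ℕ) (ξ : L →+ ℤ), p ^ n • κ n ξ = 0)
  (h2 : ∀ (n : ℕ) (ξ : L →+ ℤ), p • κ (n + 1) ξ = κ n ξ)
  {𝔸 : Type*} [CommRing 𝔸] [Algebra ℤ_[p] 𝔸] [Module 𝔸 T.Λ] [IsScalarTower ℤ_[p] 𝔸 T.Λ]
  {I : Type*} (τ : I → 𝔸) (t : I → L →+ L) (u : I → J →+ J)
  (hτ : ∀ (i : I) (n : ℕ) (v : T.Λ), T.proj n (τ i • v) = u i (T.proj n v))
  (hκ : ∀ (i : I) (n : ℕ) (ξ : L →+ ℤ), κ n (ξ.comp (t i)) = u i (κ n ξ))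

omit [Algebra ℤ_[p] 𝔸] [IsScalarTower ℤ_[p] 𝔸 T.Λ] in
include hτ hκ in
/-- `τ i • toLam y = toLam (y ∘ t i)`. -/
theorem smul_toLam (i : I) (y : L →+ ℤ_[p]) :
    τ i • toLam T κ h1 h2 y = toLam T κ h1 h2 (y.comp (t i)) := by
  refine T.ext_proj fun n => ?_
  rw [hτ, proj_toLam_comp T κ h1 h2 (t i) (u i) (hκ i)]

variable {O : Type*} [CommRing O] [Algebra ℤ_[p] O] (χ : I → O) (x0 : L →+ O)
  (hχ : ∀ (i : I) (lam : L), x0 (t i lam) = χ i * x0 lam)

include hτ hκ hχ in
/-- The polynomial induction behind (KER). -/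
theorem aeval_smul_toLam (P : MvPolynomial I ℤ_[p]) :
    ∀ (G : O →ₗ[ℤ_[p]] FractionRing ℤ_[p]) (y : L →+ ℤ_[p]),
      (∀ lam, algebraMap ℤ_[p] (FractionRing ℤ_[p]) (y lam) = G (x0 lam)) →
      ∃ y' : L →+ ℤ_[p],
        (∀ lam, algebraMap ℤ_[p] (FractionRing ℤ_[p]) (y' lam) =
          G (MvPolynomial.aeval χ P * x0 lam)) ∧
        MvPolynomial.aeval τ P • toLam T κ h1 h2 y = toLam T κ h1 h2 y' := by
  induction P using MvPolynomial.induction_on with
  | C a =>
    intro G y hGy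
    refine ⟨a • y, fun lam => ?_, ?_⟩
    · rw [AddMonoidHom.smul_apply, smul_eq_mul, map_mul, hGy, MvPolynomial.aeval_C,
        ← Algebra.smul_def a (x0 lam), map_smul, Algebra.smul_def]
    · rw [MvPolynomial.aeval_C, algebraMap_smul, toLam_smul]
  | add P Q hP hQ =>
    intro G y hGy
    obtain ⟨y1, hy1, e1⟩ := hP G y hGy
    obtain ⟨y2, hy2, e2⟩ := hQ G y hGy
    refine ⟨y1 + y2, fun lam => ?_, ?_⟩
    · rw [AddMonoidHom.add_apply, map_add, hy1, hy2, map_add, add_mul, map_add]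
    · rw [map_add, add_smul, e1, e2, map_add]
  | mul_X P i hP =>
    intro G y hGy
    obtain ⟨y1, hy1, e1⟩ := hP (G.comp (LinearMap.mulLeft ℤ_[p] (χ i))) (y.comp (t i))
      (fun lam => by
        rw [AddMonoidHom.comp_apply, hGy, hχ]
        rfl)
    refine ⟨y1, fun lam => ?_, ?_⟩
    · rw [hy1, LinearMap.comp_apply, LinearMap.mulLeft_apply,
        map_mul (MvPolynomial.aeval χ), MvPolynomial.aeval_X]
      congr 1
      ring
    · rw [map_mul, MvPolynomial.aeval_X, mul_smul, smul_toLam T κ h1 h2 τ t u hτ hκ, e1]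

include hτ hκ hχ in
/-- **(KER)**: `toLam y` is killed by the polynomials in the `τ i` which vanish at the
eigenvalues `χ i` of `x0`. -/
theorem aeval_smul_toLam_eq_zero (G : O →ₗ[ℤ_[p]] FractionRing ℤ_[p]) (y : L →+ ℤ_[p])
    (hGy : ∀ lam, algebraMap ℤ_[p] (FractionRing ℤ_[p]) (y lam) = G (x0 lam))
    (P : MvPolynomial I ℤ_[p]) (hP : MvPolynomial.aeval χ P = 0) :
    MvPolynomial.aeval τ P • toLam T κ h1 h2 y = 0 := by
  obtain ⟨y', hy', e⟩ := aeval_smul_toLam T κ h1 h2 τ t u hτ hκ χ x0 hχ P G y hGy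
  have h0 : y' = 0 := by
    ext lam
    apply IsFractionRing.injective ℤ_[p] (FractionRing ℤ_[p])
    rw [hy', hP, zero_mul, map_zero, AddMonoidHom.zero_apply, map_zero]
  rw [e, h0, map_zero]

omit [Module.Free ℤ L] [Module.Finite ℤ L] in
/-- Integer eigen-equations pass from `x0` to `y = G ∘ x0`. -/
theorem comp_eq_zsmul_of_functional (G : O →ₗ[ℤ_[p]] FractionRing ℤ_[p]) (y : L →+ ℤ_[p])
    (hGy : ∀ lam, algebraMap ℤ_[p] (FractionRing ℤ_[p]) (y lam) = G (x0 lam))
    (s : L →+ L) (c : ℤ) (hs : ∀ lam, x0 (s lam) = c • x0 lam) : y.comp s = c • y := by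
  ext lam
  apply IsFractionRing.injective ℤ_[p] (FractionRing ℤ_[p])
  rw [AddMonoidHom.comp_apply, hGy, hs, map_zsmul, ← hGy, AddMonoidHom.smul_apply, map_zsmul]

/-- An eigen-equation `y ∘ s = c • y`, `c ∈ ℤ`, gives `v (proj n (toLam y)) = c • proj n
(toLam y)` for every `v` such that `(s, v)` is `κ`-compatible. -/
theorem proj_toLam_eigen (s : L →+ L) (v : J →+ J)
    (hsv : ∀ (n : ℕ) (ξ : L →+ ℤ), κ n (ξ.comp s) = v (κ n ξ)) (y : L →+ ℤ_[p]) (c : ℤ)
    (hy : y.comp s = c • y) (n : ℕ) :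
    v (T.proj n (toLam T κ h1 h2 y)) = c • T.proj n (toLam T κ h1 h2 y) := by
  rw [proj_toLam_comp T κ h1 h2 s v hsv, hy, toLam_zsmul, map_zsmul]

end Ker

end Fermat.Agent.T2.helper5

end
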