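import Fermat.Agent.T2.helper76_EigenVecDefs
import Fermat.Agent.P3.helper16_ANInterface
import Fermat.Agent.T2.helper5_ToLam
import Fermat.Agent.T2.helper5_DictEig
import Fermat.Agent.S22

/-!
# T2 [T2-DICT-EIG] (helper5, task 773), part (c): the eigenvector in the Tate module

`helper76.EigenVecStatement D χ U W` (the input `(X)` of S35) from

* a compatible family `κ n : LatChar M → J₀(M)[p^n]` (kernel `p^n`, Hecke equivariant at the good
  primes),
* two pairs `(tU, U)`, `(tW, W)` (an additive endomorphism of the period lattice and an additive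
  endomorphism of `J₀(M)`) compatible with `κ`,
* a nonzero `x0 : perLat M →+ O'` which is an eigenvector of the `hTr (X ℓ)` with eigenvalues
  `χ (T_ℓ)` and of `tU`, `tW` with integer eigenvalues `ε`, `δ`, `ε² = δ² = 1`
  (`eigenVecStatement_of`);

and the instance for a newform `g` of level `N` at any level `M`, `N ∣ M`
(`eigenVecStatement_of_isNewform`): `tU = hTr (X q)`, `tW` any transpose of an Atkin–Lehner
operator at `q ∥ N`, `ε = a_q(g)`, `δ = - a_q(g)`.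
-/

set_option autoImplicit false

open ModularCurve CuspForm CongruenceSubgroup ModularFormClass

noncomputable section

namespace Fermat.Agent.T2.helper5

open Fermat.Agent.P3 Fermat.Agent.P3.helper16 Fermat.Agent.P3.helper1 Fermat.Agent.T2.helper76

section General

variable {p : ℕ} [Fact p.Prime] {N : ℕ} [NeZero N] {S : Finset ℕ} {M : ℕ} [NeZero M]
  {hNM : N ∣ M}

/-- **[T2-DICT-EIG] (c)**, general form. -/
theorem eigenVecStatement_of (D : helper67.TateGeom p N S M hNM)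
    (κ : ℕ → LatChar M →+ JZero M)
    (h1 : ∀ (n : ℕ) (ξ : LatChar M), p ^ n • κ n ξ = 0)
    (h2 : ∀ (n : ℕ) (ξ : LatChar M), p • κ (n + 1) ξ = κ n ξ)
    (h3 : ∀ (n : ℕ) (ξ : LatChar M), κ n ξ = 0 → ∀ lam : perLat M, ((p ^ n : ℕ) : ℤ) ∣ ξ lam)
    (hT : ∀ (n : ℕ) (ℓ : GoodPrime p M S) (ξ : LatChar M),
      κ n (latCharT M ℓ.toPrimes ξ) = heckeOperatorBar M ℓ.toPrimes (κ n ξ))
    {O' : Type} [CommRing O'] [IsDomain O'] [Algebra ℤ_[p] O']
    (hO' : Function.Injective (algebraMap ℤ_[p] O'))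
    (χ : CuspForm.heckeAlgebra N 2 (↑S : Set ℕ) →+* O')
    (U W : JZero M →+ JZero M) (tU tW : perLat M →+ perLat M)
    (hU : ∀ (n : ℕ) (ξ : LatChar M), κ n (ξ.comp tU) = U (κ n ξ))
    (hW : ∀ (n : ℕ) (ξ : LatChar M), κ n (ξ.comp tW) = W (κ n ξ))
    (x0 : perLat M →+ O') (hx0 : x0 ≠ 0)
    (hχ : ∀ (ℓ : GoodPrime p M S) (lam : perLat M),
      x0 (hTr M (MvPolynomial.X ℓ.toPrimes) lam) = χ (goodT hNM ℓ) * x0 lam)
    (ε δ : ℤ) (hε : ε * ε = 1) (hδ : δ * δ = 1)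
    (hxU : ∀ lam, x0 (tU lam) = ε • x0 lam) (hxW : ∀ lam, x0 (tW lam) = δ • x0 lam) :
    EigenVecStatement D χ U W := by
  obtain ⟨G, y, hy, hGy⟩ := exists_functional hO' x0 hx0
  let T : TateModel p (JZero M) := D.toTateModel
  let _ : Module D.𝔸 T.Λ := D.instModule𝔸
  have _ : IsScalarTower ℤ_[p] D.𝔸 T.Λ := D.instTower
  have hyU : y.comp tU = ε • y := comp_eq_zsmul_of_functional x0 G y hGy tU ε hxU
  have hyW : y.comp tW = δ • y := comp_eq_zsmul_of_functional x0 G y hGy tW δ hxW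
  refine ⟨toLam T κ h1 h2 y, ε, δ, ?_, hε, hδ, ?_, fun n => ⟨?_, ?_⟩⟩
  · intro h
    apply hy
    apply toLam_injective T κ h1 h2 h3
    exact h.trans (map_zero (toLam T κ h1 h2)).symm
  · intro P hP
    exact aeval_smul_toLam_eq_zero T κ h1 h2 (𝔸 := D.𝔸) D.τ
      (fun ℓ => hTr M (MvPolynomial.X ℓ.toPrimes))
      (fun ℓ => (heckeOperatorBar M ℓ.toPrimes).toAddMonoidHom)
      (fun ℓ n v => D.proj_τ n ℓ v) (fun ℓ n ξ => hT n ℓ ξ)
      (fun ℓ => χ (goodT hNM ℓ)) x0 hχ G y hGy P hP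
  · exact proj_toLam_eigen T κ h1 h2 tU U hU y ε hyU n
  · exact proj_toLam_eigen T κ h1 h2 tW W hW y δ hyW n

end General

/-! ## The instance for a newform -/

section Newform

/-- A ring homomorphism from `ℤ_p` to a domain of characteristic zero is injective. -/
theorem padicInt_injective_of_domain_charZero {p : ℕ} [Fact p.Prime] {O : Type*} [CommRing O]
    [IsDomain O] [CharZero O] (f : ℤ_[p] →+* O) : Function.Injective f := by
  rw [injective_iff_map_eq_zero]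
  intro x hx
  by_contra hne
  have h1 := PadicInt.unitCoeff_spec hne
  rw [h1, map_mul, map_pow, map_natCast] at hx
  rcases mul_eq_zero.mp hx with h | h
  · exact (RingHom.isUnit_map f (Units.isUnit _)).ne_zero h
  · have h2 : (p : O) = 0 := eq_zero_of_pow_eq_zero h
    exact (Fact.out : p.Prime).ne_zero (Nat.cast_eq_zero.mp h2)

/-- The image of an eigensystem of the Hecke algebra is integral over `ℤ`. -/
theorem isIntegral_range_of_heckeAlgebra {N : ℕ} [NeZero N] (S : Set ℕ)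
    (chig : CuspForm.heckeAlgebra N 2 S →+* ℂ) : Algebra.IsIntegral ℤ chig.range := by
  have hfin : Module.Finite ℤ (CuspForm.heckeAlgebra N 2 S) := Fermat.Agent.S22.result N 2 S
  refine ⟨fun b => ?_⟩
  obtain ⟨a, ha⟩ := chig.rangeRestrict_surjective b
  rw [← ha]
  exact (Algebra.IsIntegral.isIntegral (R := ℤ) a).map chig.rangeRestrict.toIntAlgHom

variable {p : ℕ} [Fact p.Prime] {N : ℕ} [NeZero N] {S : Finset ℕ}

/-- **[T2-DICT-EIG] (c)** for a newform `g` of level `N`, at any level `M` with `N ∣ M`, at a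
prime `q ∥ N`: the eigenvector `(X)` for `χ = ι ∘ χ_g`, for every `U` which is `κ`-compatible
with the transpose `hTr (X q)` of `U_q` and every `W` which is `κ`-compatible with a transpose
`tW` of an Atkin–Lehner operator at `q`. -/
theorem eigenVecStatement_of_isNewform {g : CuspForm (Gamma0 N) 2} (hg : g.IsNewform)
    {M : ℕ} [NeZero M] {hNM : N ∣ M} (D : helper67.TateGeom p N S M hNM)
    (κ : ℕ → LatChar M →+ JZero M)
    (h1 : ∀ (n : ℕ) (ξ : LatChar M), p ^ n • κ n ξ = 0)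
    (h2 : ∀ (n : ℕ) (ξ : LatChar M), p • κ (n + 1) ξ = κ n ξ)
    (h3 : ∀ (n : ℕ) (ξ : LatChar M), κ n ξ = 0 → ∀ lam : perLat M, ((p ^ n : ℕ) : ℤ) ∣ ξ lam)
    (hT : ∀ (n : ℕ) (ℓ : GoodPrime p M S) (ξ : LatChar M),
      κ n (latCharT M ℓ.toPrimes ξ) = heckeOperatorBar M ℓ.toPrimes (κ n ξ))
    {O' : Type} [CommRing O'] [IsDomain O'] [CharZero O'] [Algebra ℤ_[p] O']
    (chig : CuspForm.heckeAlgebra N 2 (↑S : Set ℕ) →+* ℂ)
    (hchig : ∀ (ℓ : ℕ) (hℓ : ℓ.Prime) (hℓN : ¬ ℓ ∣ N) (hℓS : ℓ ∉ (↑S : Set ℕ)),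
      chig (CuspForm.heckeAlgebra.T hℓ hℓN hℓS) = qCoeff g ℓ)
    (iota : chig.range →+* O')
    {q : ℕ} (hq : q.Prime) (hqN : q ∣ N) (hq2 : ¬ q ^ 2 ∣ N)
    (U W : JZero M →+ JZero M)
    (hU : ∀ (n : ℕ) (ξ : LatChar M), κ n (latCharT M ⟨q, hq⟩ ξ) = U (κ n ξ))
    (Wd : ALData M q) (tW : perLat M →+ perLat M)
    (htW : ∀ (lam : perLat M) (F : CuspForm (Gamma0 M) 2),
      ((tW lam : perLat M) : V2 M →ₗ[ℂ] ℂ) (F, 0) = (lam : V2 M →ₗ[ℂ] ℂ) (Wd.atkinLehner F, 0))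
    (hW : ∀ (n : ℕ) (ξ : LatChar M), κ n (ξ.comp tW) = W (κ n ξ)) :
    EigenVecStatement D (iota.comp chig.rangeRestrict) U W := by
  obtain ⟨c, hc⟩ : ∃ c, M = c * N := ⟨M / N, (Nat.div_mul_cancel hNM).symm⟩
  subst hc
  have hint : Algebra.IsIntegral ℤ chig.range := isIntegral_range_of_heckeAlgebra _ chig
  have hι : Function.Injective iota := injective_of_isIntegral_of_charZero iota
  obtain ⟨x0, hx0, hxT, hxU, hxW⟩ := exists_latChar_eigen_of_isNewform c hg chig.range iota hι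
  -- the eigenvalue at `q`
  obtain ⟨ε, hε, hεq⟩ : ∃ ε : ℤ, ε * ε = 1 ∧ qCoeff ⇑g q = (ε : ℂ) := by
    rcases qCoeff_eq_one_or_neg_one hg hq hqN hq2 with h | h
    · exact ⟨1, by norm_num, by rw [h]; norm_num⟩
    · exact ⟨-1, by norm_num, by rw [h]; norm_num⟩
  have haq : qCoeff ⇑g q ∈ chig.range := by
    rw [hεq]
    exact intCast_mem _ ε
  have hιq : iota ⟨qCoeff ⇑g q, haq⟩ = (ε : O') := by
    have e : (⟨qCoeff ⇑g q, haq⟩ : chig.range) = ((ε : ℤ) : chig.range) :=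
      Subtype.ext (hεq.trans (by push_cast; rfl))
    rw [e, map_intCast]
  refine eigenVecStatement_of D κ h1 h2 h3 hT
    (padicInt_injective_of_domain_charZero (algebraMap ℤ_[p] O'))
    (iota.comp chig.rangeRestrict) U W (hTr (c * N) (MvPolynomial.X ⟨q, hq⟩)) tW hU hW x0 hx0
    ?_ ε (-ε) hε (by rw [neg_mul_neg, hε]) ?_ ?_
  · intro ℓ lam
    have hℓN : ¬ (ℓ.toPrimes : ℕ) ∣ c * N := fun h => ℓ.2.2.1 (Dvd.dvd.mul_right h p)
    have ha : qCoeff ⇑g (ℓ.toPrimes : ℕ) ∈ chig.range :=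
      ⟨goodT hNM ℓ, hchig _ _ _ _⟩
    rw [hxT ℓ.toPrimes hℓN ha lam]
    congr 1
    rw [RingHom.comp_apply]
    congr 1
    apply Subtype.ext
    exact (hchig _ _ _ _).symm
  · intro lam
    rw [hxU ⟨q, hq⟩ hqN haq lam, hιq, zsmul_eq_mul]
  · intro lam
    rw [hxW q hq hqN hq2 Wd tW htW haq lam, hιq, zsmul_eq_mul, Int.cast_neg, neg_mul]

end Newform

end Fermat.Agent.T2.helper5

end
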