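import Fermat.Agent.T2.helper48_DictU
import Fermat.Agent.P3.helper20_Surj
import Fermat.Agent.T2.helper5_EigenVec

/-!
# T2 [T2-DICT-EIG] (helper5), instantiation: the eigenvector `(X)` for `U = uJ M q`

* `exists_kappaJ` : the Kummer family `κ n : LatChar M → J₀(M)[p^n]` (`conC ∘ κ n = κC n`, where
  `κC` is the analytic Kummer family of `helper20.exists_kappaC`) with kernel `p^n`,
  compatible with the transition maps, with `T_ℓ` (`ℓ ∤ M`, `helper16.bridge_of_dict`) and with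
  `U_q = uJ M q` (`q ∣ M`, `helper48.bridgeU`);
* `eigenVecStatement_uJ` : `helper76.EigenVecStatement D (ι ∘ χ_g) (uJ M q) W` for a newform
  `g` of level `N ∣ M`, `q ∥ N`, and every additive `W` which satisfies the bridge
  `conC x = κC n ξ → conC (W x) = κC n (ξ ∘ tW)` for a transpose `tW` of an Atkin–Lehner
  operator at `q`.
-/

set_option autoImplicit false

open ModularCurve CuspForm CongruenceSubgroup ModularFormClass

noncomputable section

namespace Fermat.Agent.T2.helper5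

open Fermat.Agent.P3 Fermat.Agent.P3.helper16 Fermat.Agent.P3.helper20
  Fermat.Agent.T2.helper76
open scoped Fermat.Agent.S16.helper26

/-- **The Kummer family on `J₀(M)`** with all its compatibilities. -/
theorem exists_kappaJ (M p : ℕ) [NeZero M] (hp : 0 < p) :
    ∃ (κC : ℕ → LatChar M →+ JC M) (κ : ℕ → LatChar M →+ JZero M),
      (∀ (n : ℕ) (ε : LatChar M),
        IsMonData (Fermat.Agent.P3.helper48.anDictC M) (p ^ n) (κC n ε) (latPsi M p n ε)) ∧
      (∀ (n : ℕ) (ξ : LatChar M), conC M (κ n ξ) = κC n ξ) ∧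
      (∀ (n : ℕ) (ξ : LatChar M), p ^ n • κ n ξ = 0) ∧
      (∀ (n : ℕ) (ξ : LatChar M), p • κ (n + 1) ξ = κ n ξ) ∧
      (∀ (n : ℕ) (ξ : LatChar M), κ n ξ = 0 → ∀ lam : perLat M, ((p ^ n : ℕ) : ℤ) ∣ ξ lam) ∧
      (∀ (n : ℕ) (ℓ : Nat.Primes), ¬ (ℓ : ℕ) ∣ M → ∀ ξ : LatChar M,
        κ n (latCharT M ℓ ξ) = heckeOperatorBar M ℓ (κ n ξ)) ∧
      (∀ (n : ℕ) (q : Nat.Primes), (q : ℕ) ∣ M → ∀ ξ : LatChar M,
        κ n (latCharT M q ξ) = Fermat.Agent.T2.helper48.uJ M q (κ n ξ)) := by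
  obtain ⟨κC, hmon, ha, hb, hc⟩ := exists_kappaC M p hp
  have hex : ∀ (n : ℕ) (ξ : LatChar M), ∃ x : JZero M, conC M x = κC n ξ := fun n ξ =>
    conC_torsion_surj M (κC n ξ) ⟨p ^ n, pow_pos hp n, ha n ξ⟩
  choose f hf using hex
  have hinj := conC_injective M
  let κ : ℕ → LatChar M →+ JZero M := fun n =>
    { toFun := f n
      map_zero' := hinj (by rw [hf, map_zero, map_zero])
      map_add' := fun a b => hinj (by rw [hf, map_add, map_add, hf, hf]) }
  have hκ : ∀ (n : ℕ) (ξ : LatChar M), conC M (κ n ξ) = κC n ξ := fun n ξ => hf n ξ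
  refine ⟨κC, κ, hmon, hκ, ?_, ?_, ?_, ?_, ?_⟩
  · intro n ξ
    apply hinj
    rw [map_nsmul, hκ, ha, map_zero]
  · intro n ξ
    apply hinj
    rw [map_nsmul, hκ, hκ, hc]
  · intro n ξ h0
    exact hb n ξ (by rw [← hκ, h0, map_zero])
  · intro n ℓ hℓ ξ
    apply hinj
    rw [hκ]
    exact (bridge_of_dict M p hp (Fermat.Agent.P3.helper48.anDictC M) κC hmon (conC M)
      (conC_injective M) (iotaFC M) (isKummerRep_conC M)
      (fun ℓ hℓ h _ => normDict M ℓ hℓ h) n ℓ hℓ ξ (κ n ξ) (hκ n ξ)).symm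
  · intro n q hq ξ
    apply hinj
    rw [hκ]
    exact (Fermat.Agent.T2.helper48.bridgeU M q p hp hq κC hmon n ξ (κ n ξ) (hκ n ξ)).symm

variable {p : ℕ} [Fact p.Prime] {N : ℕ} [NeZero N] {S : Finset ℕ}

/-- **[T2-DICT-EIG]**, the eigenvector `(X)` for `U = uJ M q`: for a newform `g` of level `N`,
a level `M` with `N ∣ M`, a prime `q ∥ N` and every additive endomorphism `W` of `J₀(M)` which
corresponds, through EVERY analytic Kummer family `κC` with monodromy `latPsi`, to a transpose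
`tW` of an Atkin–Lehner operator at `q` on the period lattice. -/
theorem eigenVecStatement_uJ {g : CuspForm (Gamma0 N) 2} (hg : g.IsNewform)
    {M : ℕ} [NeZero M] {hNM : N ∣ M} (D : helper67.TateGeom p N S M hNM)
    {O' : Type} [CommRing O'] [IsDomain O'] [CharZero O'] [Algebra ℤ_[p] O']
    (chig : CuspForm.heckeAlgebra N 2 (↑S : Set ℕ) →+* ℂ)
    (hchig : ∀ (ℓ : ℕ) (hℓ : ℓ.Prime) (hℓN : ¬ ℓ ∣ N) (hℓS : ℓ ∉ (↑S : Set ℕ)),
      chig (CuspForm.heckeAlgebra.T hℓ hℓN hℓS) = qCoeff g ℓ)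
    (iota : chig.range →+* O')
    (q : Nat.Primes) (hqN : (q : ℕ) ∣ N) (hq2 : ¬ (q : ℕ) ^ 2 ∣ N)
    (W : JZero M →+ JZero M) (Wd : ALData M q) (tW : perLat M →+ perLat M)
    (htW : ∀ (lam : perLat M) (F : CuspForm (Gamma0 M) 2),
      ((tW lam : perLat M) : V2 M →ₗ[ℂ] ℂ) (F, 0) = (lam : V2 M →ₗ[ℂ] ℂ) (Wd.atkinLehner F, 0))
    (hbW : ∀ κC : ℕ → LatChar M →+ JC M,
      (∀ (n : ℕ) (ε : LatChar M),
        IsMonData (Fermat.Agent.P3.helper48.anDictC M) (p ^ n) (κC n ε) (latPsi M p n ε)) →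
      ∀ (n : ℕ) (ξ : LatChar M) (x : JZero M), conC M x = κC n ξ →
        conC M (W x) = κC n (ξ.comp tW)) :
    EigenVecStatement D (iota.comp chig.rangeRestrict) (Fermat.Agent.T2.helper48.uJ M q) W := by
  have hp : 0 < p := (Fact.out : p.Prime).pos
  obtain ⟨κC, κ, hmon, hκ, h1, h2, h3, hT, hU⟩ := exists_kappaJ M p hp
  refine eigenVecStatement_of_isNewform hg D κ h1 h2 h3
    (fun n ℓ ξ => hT n ℓ.toPrimes (GoodPrime.not_dvd ℓ) ξ) chig hchig iota q.2 hqN hq2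
    (Fermat.Agent.T2.helper48.uJ M q) W (fun n ξ => hU n q (hqN.trans hNM) ξ) Wd tW htW ?_
  intro n ξ
  apply conC_injective M
  rw [hκ]
  exact (hbW κC hmon n ξ (κ n ξ) (hκ n ξ)).symm

end Fermat.Agent.T2.helper5

end
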