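import Fermat.Agent.T2.helper49_Frob
import Fermat.Agent.T2.helper2_FrobDefs
import Fermat.Agent.T2.helper58_ScaleBad

/-!
# Tier 2 (S35), task 854 [T2-T0FROB] (helper67): wiring

`helper49.t0Frob_of` (landed, task 832) proves the Frobenius variant of T0-INERT with the graph
hypothesis in the form `helper49.FrGraphStatement` and the residue field hypothesis `hRed`.
This file restates it in the shape requested by `helper2` (row 854):

* `frGraph_of_graph : helper2.GraphStatement M W A q → helper49.FrGraphStatement M A W q`;
* `t0Frob_of : … → helper2.T0FrobStatement M W A q n` with the hypotheses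
  `ScaleStatement`, `IdealStep2Statement`, `Integrality2Statement`, `RegRed2Statement`,
  `GraphStatement`, `RootEndStatement`.
-/

set_option autoImplicit false

noncomputable section

open HahnSeries IntermediateField AlgebraicCurve ModularCurve
open Fermat.Agent.S18.helper19 Fermat.Agent.P2.helper29 Fermat.Agent.P2.helper93

namespace Fermat.Agent.T2.helper67

open Fermat.Agent.T2

/-- the explicit graph statement of `helper2` gives the graph hypothesis of `helper49` -/
theorem frGraph_of_graph {M : ℕ} [NeZero M] {W : FF M ≃ₐ[Kb] FF M} {A : ValuationSubring Kb}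
    {q : ℕ} [NeZero q] (hGr : helper2.GraphStatement M W A q) :
    helper49.FrGraphStatement M A W q := by
  intro y hy
  obtain ⟨_, h1, -⟩ := hGr ⟨y, hy⟩
  obtain ⟨f, Y₁, Y₂, hf, hrep, e1, e2⟩ := h1
  exact ⟨f, Y₁, Y₂, hf, hrep, e1, e2⟩

/-- **[T2-T0FROB]** (row 854): `φ² u = c vⁿ u^(q²)` on the toric part, in the shape consumed by
`helper2.frobCore_of`. -/
theorem t0Frob_of (M q n : ℕ) [NeZero M] [NeZero q] (hq : q.Prime) (hn : n ≠ 0)
    (W : FF M ≃ₐ[Kb] FF M) (hWW : ∀ f, W (W f) = f)
    (hWgal : ∀ (s : Kb ≃ₐ[ℚ] Kb) (x : FF M), W (galF M s x) = galF M s (W x))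
    (A : ValuationSubring Kb) (hA : A.LiesOverPrime q)
    (hSC : ScaleStatement M A) (hIS : helper22.IdealStep2Statement M A W n)
    (hI2 : helper22.Integrality2Statement M A W) (hRR : helper22.RegRed2Statement M A W)
    (hGr : helper2.GraphStatement M W A q) (hRE : RootEndStatement M W A n) :
    helper2.T0FrobStatement M W A q n :=
  helper49.t0Frob_of hq hA hn hWW hWgal
    (fun _ hY => helper58.red_mem_FFb_of_scale hSC hY) hI2 hRR (frGraph_of_graph hGr) hIS hRE

end Fermat.Agent.T2.helper67

end
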