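/-
TIER 2, [T2-SN-INST] part 5 (helper72): the two graph clauses of the (SN) instance in the
explicit form `helper2.GraphStatement` (`Fr = qExpand (kA A) q`), for the S35 chain (T0-FROB).

* `graphStatement_of`   : from `SurjRedStatement N A` and `RegAlphaStatement`.
* `graphStatement_good` : unconditional at a good level `N`, `q ∤ N`, `A` over `q`.
-/
import Fermat.Agent.T2.helper72_SNGood
import Fermat.Agent.T2.helper2_FrobDefs

set_option autoImplicit false
set_option synthInstance.maxHeartbeats 400000

noncomputable section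

open HahnSeries IntermediateField AlgebraicCurve ModularCurve
open Fermat.Agent.S18.helper19 Fermat.Agent.P2.helper29 Fermat.Agent.P2
open Fermat.Agent.T2.helper36 Fermat.Agent.T2.helper96

namespace Fermat.Agent.T2.helper72

variable (N q : ℕ) [NeZero N] [NeZero q] (hq : q.Prime) (hqN : ¬ q ∣ N)
variable (A : ValuationSubring Kb) (hA : A.LiesOverPrime q)

include hA in
/-- the graph of `Fr = (t ↦ t ^ q)` and its transpose lie in `Rt` (explicit form). -/
theorem graphStatement_of (hSurj : SurjRedStatement N A)
    (hReg : RegAlphaStatement N q (atkinLehner N q hq hqN)) :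
    helper2.GraphStatement (N * q) (atkinLehner N q hq hqN) A q := by
  haveI : Fact q.Prime := ⟨hq⟩
  haveI : CharP (kA A) q := helper93.charP_residueField hq hA
  haveI : IsAlgClosed (kA A) := helper95.isAlgClosed_residueField A
  have hWW : ∀ f, atkinLehner N q hq hqN (atkinLehner N q hq hqN f) = f :=
    atkinLehner_atkinLehner N q hq hqN
  intro y
  obtain ⟨n, hn⟩ := y.2
  have hy : qExpand (kA A) q (y : LaurentSeries (kA A)) ∈ helper22.Bt A (N * q) :=
    ⟨_, inL_qExpand (q := q) hn⟩
  obtain ⟨g, Y₁, Y₂, hg, hrep, h1, h2⟩ := exists_rep_graph N q hq hqN A hA hSurj hReg hn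
  exact ⟨hy, ⟨g, Y₁, Y₂, hg, hrep, h1, h2⟩,
    ⟨atkinLehner N q hq hqN g, Y₂, Y₁, hg.map hWW, hrep.swap hWW, h2, h1⟩⟩

include hA in
/-- the graph clauses, unconditional at a good level. -/
theorem graphStatement_good (hN : 4 ∣ N ∨ 9 ∣ N) :
    helper2.GraphStatement (N * q) (atkinLehner N q hq hqN) A q :=
  graphStatement_of N q hq hqN A hA (surjRed_good hq hqN A hA hN)
    (regAlphaStatement N q hq hqN)

end Fermat.Agent.T2.helper72

end
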