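/-
T2 (helper74): the box **[ROOT-END]** of the S34 chain, unconditional.

* `surjRed_goodPair` : `helper29.SurjRedStatement M A` for good pairs (P2, all leaves on main).
* `sat2_bad`         : `helper22.Sat2Statement (N * q) A (atkinLehner N q)` (helper96's `sat2`).
* `rootEnd_bad_final`: `helper72.RootEndStatement (N * q) (atkinLehner N q) A n` for `q ∤ n`.
* `rootEndBad`       : `helper34.RootEndBadStatement`.
-/
import Mathlib
import Fermat.Agent.T2.helper74_RootEndInst
import Fermat.Agent.T2.helper96_Sat
import Fermat.Agent.T2.helper34_Asm34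
import Fermat.Agent.P2.helper96_GenFinal2
import Fermat.Agent.P2.helper66_TameBase
import Fermat.Agent.P2.helper81_CuspReg

set_option autoImplicit false
set_option synthInstance.maxHeartbeats 400000
set_option linter.unusedSectionVars false
set_option linter.style.haveILetI false

noncomputable section

open HahnSeries IntermediateField AlgebraicCurve ModularCurve
open Fermat.Agent.S18.helper19 Fermat.Agent.P2.helper29 Fermat.Agent.T2.helper36

namespace Fermat.Agent.T2.helper74

/-- **[SURJ]** for good pairs, unconditional (P2). -/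
theorem surjRed_goodPair (M : ℕ) [NeZero M] (A : ValuationSubring Kb) (hG : GoodPair M A) :
    SurjRedStatement M A :=
  Fermat.Agent.P2.helper96.surjRed_of_regRed_tameBase M A hG
    (Fermat.Agent.P2.helper81.regRedStatement M A hG.2) (Fermat.Agent.P2.helper66.tameBase hG)

section Bad

variable (N q : ℕ) [NeZero N] [NeZero q] (hq : q.Prime) (hqN : ¬ q ∣ N)
variable (A : ValuationSubring Kb) (hA : A.LiesOverPrime q)

include hA in
/-- **[T2-SAT]** at the bad level, unconditional for good levels `N`. -/
theorem sat2_bad (hN : 4 ∣ N ∨ 9 ∣ N) :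
    Fermat.Agent.T2.helper22.Sat2Statement (N * q) A (atkinLehner N q hq hqN) :=
  Fermat.Agent.T2.helper96.sat2 N q hq hqN A (surjRed_goodPair N A ⟨hN, q, hq, hqN, hA⟩)

include hA in
/-- **[ROOT-END]** at the bad level `N * q`, unconditional for good levels `N`. -/
theorem rootEnd_bad_final (hN : 4 ∣ N ∨ 9 ∣ N) (n : ℕ) (hn : ¬ q ∣ n) :
    RootEndStatement (N * q) (atkinLehner N q hq hqN) A n :=
  rootEnd_bad_of_sat2 N q hq hqN A hA n hn (sat2_bad N q hq hqN A hA hN)

end Bad

/-- the box **[ROOT-END]** of helper34's assembly of S34. -/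
theorem rootEndBad : Fermat.Agent.T2.helper34.RootEndBadStatement :=
  fun N' q p _ _ hq hqN hN' hp hqp A hA k =>
    rootEnd_bad_final N' q hq hqN A hA hN' (p ^ k) fun h =>
      hqp ((Nat.prime_dvd_prime_iff_eq hq hp).mp (hq.dvd_of_dvd_pow h))

end Fermat.Agent.T2.helper74

end
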