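import Fermat.Agent.T2.helper76_ALMatrix

/-!
# T2 [T2-NEW], part 2: the Atkin–Lehner operator commutes with `T_ℓ`, `ℓ ∤ M`

* `ALData.exists_heckeRep_mul` : `β_x W = g W β_y` with `g ∈ Γ₀(M)`;
* `ALData.heckeT_slash_mat` : `T_ℓ (f ∣ W) = (T_ℓ f) ∣ W` for `Γ₀(M)`-invariant `f` of weight `2`.
-/

set_option autoImplicit false

namespace Fermat.Agent.T2.helper76

open UpperHalfPlane ModularForm CongruenceSubgroup Matrix
open scoped MatrixGroups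
open P2MW.S_ModularForm_heckeT_slash_eq_self_of_mem_Gamma0.ModularForm.HeckeSlashInvariance
open Fermat.Agent.S16.helper26

/-- The entries of the Hecke representatives: upper triangular, integral, determinant `ℓ`. -/
theorem val_heckeRep_int' {ℓ : ℕ} (hℓ : ℓ ≠ 0) (x : OnePoint (ZMod ℓ)) : ∃ a b d : ℤ,
    ((heckeRep ℓ x : GL (Fin 2) ℝ) : Matrix (Fin 2) (Fin 2) ℝ) =
      !![(a : ℝ), (b : ℝ); 0, (d : ℝ)] ∧ a * d = ℓ := by
  induction x using OnePoint.rec with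
  | infty => exact ⟨ℓ, 0, 1, val_heckeDiagMatrix_int hℓ, mul_one _⟩
  | coe j => exact ⟨1, j.val, ℓ, val_heckeMatrix_int hℓ j.val, one_mul _⟩

/-- Moving a Hecke representative past `diag(q, 1)`, `q` prime to `ℓ`. -/
theorem exists_heckeRep_mul_heckeDiagMatrix {ℓ q : ℕ} [Fact ℓ.Prime] (hq : q ≠ 0)
    (hqℓ : Nat.Coprime q ℓ) (x : OnePoint (ZMod ℓ)) :
    ∃ (y : OnePoint (ZMod ℓ)) (t : ℤ),
      heckeRep ℓ x * heckeDiagMatrix q =
        Matrix.SpecialLinearGroup.mapGL ℝ (unip t) * heckeDiagMatrix q * heckeRep ℓ y := by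
  have hℓ : ℓ ≠ 0 := (Fact.out : ℓ.Prime).ne_zero
  induction x using OnePoint.rec with
  | infty =>
    refine ⟨OnePoint.infty, 0, ?_⟩
    apply Matrix.GeneralLinearGroup.ext
    intro a b
    rw [heckeRep_infty, Matrix.GeneralLinearGroup.coe_mul, Matrix.GeneralLinearGroup.coe_mul,
      Matrix.GeneralLinearGroup.coe_mul, val_heckeDiagMatrix hℓ, val_heckeDiagMatrix hq,
      val_mapGL_unip]
    fin_cases a <;> fin_cases b <;> simp [Matrix.mul_apply, Fin.sum_univ_two, mul_comm]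
  | coe j =>
    have hu : IsUnit ((q : ZMod ℓ)) := (ZMod.isUnit_iff_coprime q ℓ).mpr hqℓ
    obtain ⟨u, hu⟩ := hu
    set j' : ZMod ℓ := j * ((u⁻¹ : (ZMod ℓ)ˣ) : ZMod ℓ) with hj'
    obtain ⟨t, ht⟩ : (ℓ : ℤ) ∣ (j.val : ℤ) - (q : ℤ) * (j'.val : ℤ) := by
      rw [← ZMod.intCast_zmod_eq_zero_iff_dvd]
      push_cast
      rw [ZMod.natCast_zmod_val, ZMod.natCast_zmod_val, hj', ← hu]
      have : (u : ZMod ℓ) * (j * ((u⁻¹ : (ZMod ℓ)ˣ) : ZMod ℓ)) = j := by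
        rw [mul_comm, mul_assoc, Units.inv_mul, mul_one]
      rw [this, sub_self]
    refine ⟨(j' : OnePoint (ZMod ℓ)), t, ?_⟩
    apply Matrix.GeneralLinearGroup.ext
    intro a b
    rw [heckeRep_coe, heckeRep_coe, Matrix.GeneralLinearGroup.coe_mul,
      Matrix.GeneralLinearGroup.coe_mul, Matrix.GeneralLinearGroup.coe_mul,
      val_heckeMatrix hℓ, val_heckeMatrix hℓ, val_heckeDiagMatrix hq, val_mapGL_unip]
    have ht' : ((j.val : ℕ) : ℝ) = (q : ℝ) * ((j'.val : ℕ) : ℝ) + (ℓ : ℝ) * (t : ℝ) := by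
      have : (j.val : ℤ) = (q : ℤ) * (j'.val : ℤ) + (ℓ : ℤ) * t := by linear_combination ht
      exact_mod_cast this
    fin_cases a <;> fin_cases b <;> simp [Matrix.mul_apply, Fin.sum_univ_two, ht']
    ring

namespace ALData

variable {M q : ℕ}

/-- `β_x W = g W β_y` for some `g ∈ SL₂(ℤ)` (`ℓ` prime, prime to `q`). -/
theorem exists_heckeRep_mul_mat (W : ALData M q) {ℓ : ℕ} [Fact ℓ.Prime]
    (hqℓ : Nat.Coprime q ℓ) (x : OnePoint (ZMod ℓ)) :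
    ∃ (y : OnePoint (ZMod ℓ)) (g : SL(2, ℤ)),
      heckeRep ℓ x * W.mat = Matrix.SpecialLinearGroup.mapGL ℝ g * W.mat * heckeRep ℓ y := by
  have h1 : ¬ ℓ ∣ 1 := fun h => (Fact.out : ℓ.Prime).one_lt.ne' (Nat.dvd_one.mp h)
  have hδ : W.delta 0 ∈ Gamma0 1 := mem_Gamma0_of_dvd (by simp)
  have hrel := (systemT 1 ℓ h1).rel ⟨W.delta 0, hδ⟩ x
  simp only [systemT_α] at hrel
  obtain ⟨y, t, hy⟩ := exists_heckeRep_mul_heckeDiagMatrix W.hq hqℓ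
    ((systemT 1 ℓ h1).perm ⟨W.delta 0, hδ⟩ x)
  refine ⟨y, ((systemT 1 ℓ h1).step ⟨W.delta 0, hδ⟩ x : SL(2, ℤ)) * unip t * (W.delta 0)⁻¹, ?_⟩
  rw [W.mat_eq_delta_mul, ← mul_assoc, hrel, mul_assoc, hy, map_mul, map_mul, map_inv]
  simp only [mul_assoc, inv_mul_cancel_left]

/-- If `β_x W = g W β_y` with `g ∈ SL₂(ℤ)` and `ℓ ∤ M`, then `g ∈ Γ₀(M)`. -/
theorem mem_Gamma0_of_heckeRep_mul_mat (W : ALData M q) {ℓ : ℕ} [Fact ℓ.Prime]
    (hℓM : Nat.Coprime ℓ M) {x y : OnePoint (ZMod ℓ)} {g : SL(2, ℤ)}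
    (h : heckeRep ℓ x * W.mat = Matrix.SpecialLinearGroup.mapGL ℝ g * W.mat * heckeRep ℓ y) :
    g ∈ Gamma0 M := by
  have hℓ : ℓ ≠ 0 := (Fact.out : ℓ.Prime).ne_zero
  obtain ⟨a₁, b₁, d₁, hx, hxd⟩ := val_heckeRep_int' hℓ x
  obtain ⟨a₂, b₂, d₂, hy, hyd⟩ := val_heckeRep_int' hℓ y
  have h' := congrArg (fun A : GL (Fin 2) ℝ => (A : Matrix (Fin 2) (Fin 2) ℝ)) h
  simp only [Matrix.GeneralLinearGroup.coe_mul, hx, hy, val_mat,
    Fermat.Agent.S16.helper41.val_mapGL] at h'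
  have e10 := congrFun (congrFun h' 1) 0
  have e11 := congrFun (congrFun h' 1) 1
  simp [Matrix.mul_apply, Fin.sum_univ_two] at e10 e11
  have hM1 := W.hM'
  -- integral forms of the two equations
  have E1 : d₁ * ((M : ℤ) * W.z) = (g 1 0 * ((q : ℤ) * W.x) + g 1 1 * ((M : ℤ) * W.z)) * a₂ := by
    exact_mod_cast e10
  have E2 : d₁ * ((q : ℤ) * W.w) =
      (g 1 0 * ((q : ℤ) * W.x) + g 1 1 * ((M : ℤ) * W.z)) * b₂ +
        (g 1 0 * W.y + g 1 1 * ((q : ℤ) * W.w)) * d₂ := by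
    exact_mod_cast e11
  -- coprimality
  have cℓM : IsCoprime (ℓ : ℤ) (M : ℤ) := Nat.isCoprime_iff_coprime.mpr hℓM
  have cℓm : IsCoprime (ℓ : ℤ) (W.m : ℤ) := by
    rw [hM1] at cℓM
    exact cℓM.of_mul_right_right
  have cℓq : IsCoprime (ℓ : ℤ) (q : ℤ) := by
    rw [hM1] at cℓM
    exact cℓM.of_mul_right_left
  have ca₂m : IsCoprime a₂ (W.m : ℤ) := by
    rw [← hyd] at cℓm
    exact cℓm.of_mul_left_left
  have cd₂q : IsCoprime d₂ (q : ℤ) := by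
    rw [← hyd] at cℓq
    exact cℓq.of_mul_left_right
  have cmq : IsCoprime (W.m : ℤ) (q : ℤ) :=
    ⟨-(W.y * W.z), W.x * W.w, by linear_combination W.det_eq⟩
  have cmx : IsCoprime (W.m : ℤ) W.x :=
    ⟨-(W.y * W.z), (q : ℤ) * W.w, by linear_combination W.det_eq⟩
  have cqy : IsCoprime (q : ℤ) W.y :=
    ⟨W.x * W.w, -((W.m : ℤ) * W.z), by linear_combination W.det_eq⟩
  -- `m ∣ g 1 0`
  have hm : (W.m : ℤ) ∣ g 1 0 := by
    have h1 : (W.m : ℤ) ∣ g 1 0 * (a₂ * (q : ℤ) * W.x) := by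
      refine ⟨(q : ℤ) * W.z * (d₁ - g 1 1 * a₂), ?_⟩
      rw [hM1] at E1
      linear_combination -E1
    have h2 : IsCoprime (W.m : ℤ) (a₂ * (q : ℤ) * W.x) :=
      (ca₂m.symm.mul_right cmq).mul_right cmx
    exact h2.dvd_of_dvd_mul_right h1
  -- `q ∣ g 1 0`
  have hq : (q : ℤ) ∣ g 1 0 := by
    have h1 : (q : ℤ) ∣ g 1 0 * (W.y * d₂) := by
      refine ⟨d₁ * W.w - (g 1 0 * W.x + g 1 1 * ((W.m : ℤ) * W.z)) * b₂ - g 1 1 * W.w * d₂, ?_⟩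
      rw [hM1] at E2
      linear_combination -E2
    have h2 : IsCoprime (q : ℤ) (W.y * d₂) := cqy.mul_right cd₂q.symm
    exact h2.dvd_of_dvd_mul_right h1
  apply mem_Gamma0_of_dvd
  rw [hM1]
  exact cmq.symm.mul_dvd hq hm

/-- `β_x W = g W β_y` with `g ∈ Γ₀(M)` (`ℓ` prime, `ℓ ∤ M`). -/
theorem exists_heckeRep_mul_mat' (W : ALData M q) {ℓ : ℕ} [Fact ℓ.Prime]
    (hℓM : Nat.Coprime ℓ M) (x : OnePoint (ZMod ℓ)) :
    ∃ (y : OnePoint (ZMod ℓ)) (g : SL(2, ℤ)), g ∈ Gamma0 M ∧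
      heckeRep ℓ x * W.mat = Matrix.SpecialLinearGroup.mapGL ℝ g * W.mat * heckeRep ℓ y := by
  have hqℓ : Nat.Coprime q ℓ := by
    have h1 : Nat.Coprime ℓ (q * W.m) := by rw [← W.hM]; exact hℓM
    exact (Nat.Coprime.coprime_mul_right_right h1).symm
  obtain ⟨y, g, h⟩ := W.exists_heckeRep_mul_mat hqℓ x
  exact ⟨y, g, W.mem_Gamma0_of_heckeRep_mul_mat hℓM h, h⟩

/-- **The Atkin–Lehner operator commutes with `T_ℓ`**, `ℓ ∤ M` (weight `2`, on `Γ₀(M)`-invariant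
functions). -/
theorem heckeT_slash_mat (W : ALData M q) {ℓ : ℕ} (hℓ : ℓ.Prime) (hℓM : ¬ ℓ ∣ M) {f : ℍ → ℂ}
    (hf : ∀ γ ∈ (Gamma0 M : Subgroup (GL (Fin 2) ℝ)), f ∣[(2 : ℤ)] γ = f) :
    heckeT 2 ℓ (f ∣[(2 : ℤ)] W.mat) = (heckeT 2 ℓ f) ∣[(2 : ℤ)] W.mat := by
  have : Fact ℓ.Prime := ⟨hℓ⟩
  have hcop : Nat.Coprime ℓ M := (Nat.Prime.coprime_iff_not_dvd hℓ).mpr hℓM
  choose π g hg hrel using W.exists_heckeRep_mul_mat' hcop
  have hinj : Function.Injective π := by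
    intro x₁ x₂ h12
    have h1 := hrel x₁
    have h2 := hrel x₂
    rw [h12] at h1
    have h3 : heckeRep ℓ x₁ * W.mat =
        Matrix.SpecialLinearGroup.mapGL ℝ (g x₁ * (g x₂)⁻¹) * heckeRep ℓ x₂ * W.mat := by
      rw [h1, mul_assoc (Matrix.SpecialLinearGroup.mapGL ℝ (g x₁ * (g x₂)⁻¹)), h2, map_mul,
        map_inv]
      simp only [mul_assoc, inv_mul_cancel_left]
    have h4 := mul_right_cancel h3
    exact (systemT M ℓ hℓM).inj x₁ x₂ (g x₁ * (g x₂)⁻¹)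
      (Subgroup.mul_mem _ (hg x₁) (Subgroup.inv_mem _ (hg x₂))) h4
  have hbij : Function.Bijective π := hinj.bijective_of_finite
  rw [heckeT_eq_sum_onePoint, heckeT_eq_sum_onePoint, SlashAction.sum_slash]
  rw [← Equiv.sum_comp (Equiv.ofBijective π hbij)
    (fun y => (f ∣[(2 : ℤ)] W.mat) ∣[(2 : ℤ)] heckeRep ℓ y)]
  refine Finset.sum_congr rfl fun x _ => ?_
  have e1 : (f ∣[(2 : ℤ)] heckeRep ℓ x) ∣[(2 : ℤ)] W.mat =
      f ∣[(2 : ℤ)] (heckeRep ℓ x * W.mat) := (SlashAction.slash_mul _ _ _ _).symm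
  rw [Equiv.ofBijective_apply, e1, hrel x, SlashAction.slash_mul, SlashAction.slash_mul,
    hf _ ⟨g x, hg x, rfl⟩]

end ALData

end Fermat.Agent.T2.helper76
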