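import Mathlib
import Fermat.Agent.S16.helper26_HeckeFun
import Fermat.Agent.S16.helper41_Fricke

/-!
# T2 [T2-NEW], part 1: Atkin–Lehner matrices at a prime `q ∥ M`

An *Atkin–Lehner datum* of level `M = q m` is a quadruple of integers `x y z w` with
`q x w - m y z = 1`; its matrix is `W = [[q x, y], [M z, q w]]` (determinant `q`).

* `ALData.exists_mul_eq` : `W₁ W₂ = q • γ` with `γ ∈ Γ₀(M)`;
* `ALData.exists_eq_mul` : `W₁ = γ W₂` with `γ ∈ Γ₀(M)`;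
* `ALData.exists_mul_mapGL` : `W γ = γ' W` for `γ ∈ Γ₀(M)` (`W` normalises `Γ₀(M)`);
* `ALData.slash_mat_invariant`, `ALData.slash_mat_eq`, `ALData.slash_mat_slash_mat` : the slash
  operator `f ↦ f ∣[2] W` on `Γ₀(M)`-invariant functions is well defined, preserves invariance
  and is an involution;
* `ALData.mat_mul_heckeMatrix` : `W β_j = q • δ_j`, `δ_j ∈ Γ₀(m)`.
-/

set_option autoImplicit false

namespace Fermat.Agent.T2.helper76

open UpperHalfPlane ModularForm CongruenceSubgroup Matrix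
open scoped MatrixGroups

/-- An Atkin–Lehner datum at `q` of level `M = q m`: integers with `q x w - m y z = 1`. -/
structure ALData (M q : ℕ) where
  /-- the prime-to-`q` part of the level -/
  m : ℕ
  /-- upper left entry divided by `q` -/
  x : ℤ
  /-- upper right entry -/
  y : ℤ
  /-- lower left entry divided by `M` -/
  z : ℤ
  /-- lower right entry divided by `q` -/
  w : ℤ
  hq : q ≠ 0
  hM : M = q * m
  det_eq : (q : ℤ) * x * w - (m : ℤ) * y * z = 1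

namespace ALData

variable {M q : ℕ}

theorem hM' (W : ALData M q) : (M : ℤ) = (q : ℤ) * (W.m : ℤ) := by
  have := W.hM
  exact_mod_cast this

theorem hMR (W : ALData M q) : (M : ℝ) = (q : ℝ) * (W.m : ℝ) := by
  have := W.hM
  exact_mod_cast this

theorem det_eqR (W : ALData M q) :
    (q : ℝ) * (W.x : ℝ) * (W.w : ℝ) - (W.m : ℝ) * (W.y : ℝ) * (W.z : ℝ) = 1 := by
  have := W.det_eq
  exact_mod_cast this

theorem m_eq (W₁ W₂ : ALData M q) : W₁.m = W₂.m := by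
  have h := W₁.hM.symm.trans W₂.hM
  exact Nat.eq_of_mul_eq_mul_left (Nat.pos_of_ne_zero W₁.hq) h

theorem det_aux (W : ALData M q) :
    (q : ℝ) * (W.x : ℝ) * ((q : ℝ) * (W.w : ℝ)) - (W.y : ℝ) * ((M : ℝ) * (W.z : ℝ)) = q := by
  rw [W.hMR]
  linear_combination (q : ℝ) * W.det_eqR

/-- The Atkin–Lehner matrix `[[q x, y], [M z, q w]]` in `GL₂(ℝ)`. -/
noncomputable def mat (W : ALData M q) : GL (Fin 2) ℝ :=
  Matrix.GeneralLinearGroup.mkOfDetNeZero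
    !![(q : ℝ) * (W.x : ℝ), (W.y : ℝ); (M : ℝ) * (W.z : ℝ), (q : ℝ) * (W.w : ℝ)]
    (by
      rw [Matrix.det_fin_two_of, W.det_aux]
      exact_mod_cast W.hq)

theorem val_mat (W : ALData M q) :
    ((W.mat : GL (Fin 2) ℝ) : Matrix (Fin 2) (Fin 2) ℝ) =
      !![(q : ℝ) * (W.x : ℝ), (W.y : ℝ); (M : ℝ) * (W.z : ℝ), (q : ℝ) * (W.w : ℝ)] := rfl

theorem det_mat (W : ALData M q) : ((W.mat).det : ℝ) = q := by
  rw [Matrix.GeneralLinearGroup.val_det_apply, val_mat, Matrix.det_fin_two_of, W.det_aux]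

theorem det_mat_pos (W : ALData M q) : 0 < ((W.mat).det : ℝ) := by
  rw [det_mat]
  exact_mod_cast Nat.pos_of_ne_zero W.hq

/-- The adjugate datum: `adj(W) = [[q w, -y], [-M z, q x]]`. -/
def adj (W : ALData M q) : ALData M q where
  m := W.m
  x := W.w
  y := -W.y
  z := -W.z
  w := W.x
  hq := W.hq
  hM := W.hM
  det_eq := by linear_combination W.det_eq

/-- The element `γ ∈ Γ₀(M)` with `W₁ W₂ = q • γ`. -/
def mulSL (W₁ W₂ : ALData M q) : SL(2, ℤ) :=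
  ⟨!![(q : ℤ) * W₁.x * W₂.x + (W₁.m : ℤ) * W₁.y * W₂.z, W₁.x * W₂.y + W₁.y * W₂.w;
      (M : ℤ) * (W₁.z * W₂.x + W₁.w * W₂.z), (W₁.m : ℤ) * W₁.z * W₂.y + (q : ℤ) * W₁.w * W₂.w],
    by
      have h1 := W₁.det_eq
      have h2 := W₂.det_eq
      rw [← m_eq W₁ W₂] at h2
      rw [Matrix.det_fin_two_of, W₁.hM']
      linear_combination ((q : ℤ) * W₂.x * W₂.w - (W₁.m : ℤ) * W₂.y * W₂.z) * h1 + h2⟩

theorem coe_mulSL (W₁ W₂ : ALData M q) :
    (mulSL W₁ W₂ : Matrix (Fin 2) (Fin 2) ℤ) =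
      !![(q : ℤ) * W₁.x * W₂.x + (W₁.m : ℤ) * W₁.y * W₂.z, W₁.x * W₂.y + W₁.y * W₂.w;
        (M : ℤ) * (W₁.z * W₂.x + W₁.w * W₂.z),
        (W₁.m : ℤ) * W₁.z * W₂.y + (q : ℤ) * W₁.w * W₂.w] := rfl

theorem mulSL_mem (W₁ W₂ : ALData M q) : mulSL W₁ W₂ ∈ Gamma0 M := by
  apply Fermat.Agent.S16.helper26.mem_Gamma0_of_dvd
  have : (mulSL W₁ W₂) 1 0 = (M : ℤ) * (W₁.z * W₂.x + W₁.w * W₂.z) := by
    have := congrFun (congrFun (coe_mulSL W₁ W₂) 1) 0
    simpa using this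
  rw [this]
  exact dvd_mul_right _ _

/-- `W₁ W₂ = q • γ` with `γ = mulSL W₁ W₂ ∈ Γ₀(M)`. -/
theorem val_mat_mul_mat (W₁ W₂ : ALData M q) :
    ((W₁.mat * W₂.mat : GL (Fin 2) ℝ) : Matrix (Fin 2) (Fin 2) ℝ) =
      (q : ℝ) • ((Matrix.SpecialLinearGroup.mapGL ℝ (mulSL W₁ W₂) : GL (Fin 2) ℝ) :
        Matrix (Fin 2) (Fin 2) ℝ) := by
  rw [Matrix.GeneralLinearGroup.coe_mul, val_mat, val_mat,
    Fermat.Agent.S16.helper41.val_mapGL, coe_mulSL]
  have hm : (W₂.m : ℝ) = (W₁.m : ℝ) := by rw [m_eq W₁ W₂]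
  have hM1 := W₁.hMR
  ext a b
  fin_cases a <;> fin_cases b <;>
    simp [Matrix.mul_apply, Fin.sum_univ_two, hM1] <;> ring

theorem mulSL_adj_self (W : ALData M q) : mulSL W.adj W = 1 := by
  apply Subtype.ext
  rw [coe_mulSL]
  have h := W.det_eq
  simp only [adj, Matrix.SpecialLinearGroup.coe_one]
  have e00 : (q : ℤ) * W.w * W.x + (W.m : ℤ) * -W.y * W.z = 1 := by linear_combination h
  have e01 : W.w * W.y + -W.y * W.w = 0 := by ring
  have e10 : (M : ℤ) * (-W.z * W.x + W.x * W.z) = 0 := by ring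
  have e11 : (W.m : ℤ) * -W.z * W.y + (q : ℤ) * W.x * W.w = 1 := by linear_combination h
  rw [e00, e01, e10, e11]
  exact Matrix.one_fin_two.symm

/-- In weight `2` scalar matrices act trivially. -/
theorem slash_two_eq_of_val_eq_smul (f : ℍ → ℂ) (A B : GL (Fin 2) ℝ) (c : ℝ) (hc : c ≠ 0)
    (hB : 0 < B.det.val)
    (hAB : (A : Matrix (Fin 2) (Fin 2) ℝ) = c • (B : Matrix (Fin 2) (Fin 2) ℝ)) :
    f ∣[(2 : ℤ)] A = f ∣[(2 : ℤ)] B := by
  rw [Fermat.Agent.S16.helper41.slash_eq_of_val_eq_smul 2 f A B c hc hB hAB]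
  have hc' : (c : ℂ) ≠ 0 := by exact_mod_cast hc
  have h1 : (((|c| : ℝ) : ℂ)) ^ (2 * ((2 : ℤ) - 1)) * (c : ℂ) ^ (-(2 : ℤ)) = 1 := by
    have h2 : (2 : ℤ) * (2 - 1) = 2 := by norm_num
    rw [h2, _root_.zpow_neg, zpow_ofNat, zpow_ofNat]
    have h3 : (((|c| : ℝ) : ℂ)) ^ 2 = (c : ℂ) ^ 2 := by
      have : (|c| : ℝ) ^ 2 = c ^ 2 := sq_abs c
      exact_mod_cast this
    rw [h3]
    exact mul_inv_cancel₀ (pow_ne_zero 2 hc')
  rw [h1, one_smul]

theorem q_ne_zeroR (W : ALData M q) : (q : ℝ) ≠ 0 := by exact_mod_cast W.hq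

/-- `(f ∣ W₁) ∣ W₂ = f ∣ γ` with `γ = mulSL W₁ W₂ ∈ Γ₀(M)` (weight `2`, any function `f`). -/
theorem slash_mat_slash_mat' (W₁ W₂ : ALData M q) (f : ℍ → ℂ) :
    (f ∣[(2 : ℤ)] W₁.mat) ∣[(2 : ℤ)] W₂.mat =
      f ∣[(2 : ℤ)] (Matrix.SpecialLinearGroup.mapGL ℝ (mulSL W₁ W₂) : GL (Fin 2) ℝ) := by
  rw [← SlashAction.slash_mul]
  exact slash_two_eq_of_val_eq_smul f _ _ (q : ℝ) W₁.q_ne_zeroR
    (Fermat.Agent.S16.helper41.det_mapGL_pos _) (val_mat_mul_mat W₁ W₂)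

/-- `(g ∣ adj W) ∣ W = g` for every function `g` (weight `2`). -/
theorem slash_adj_slash (W : ALData M q) (g : ℍ → ℂ) :
    (g ∣[(2 : ℤ)] W.adj.mat) ∣[(2 : ℤ)] W.mat = g := by
  rw [slash_mat_slash_mat', mulSL_adj_self, map_one, SlashAction.slash_one]

theorem adj_adj (W : ALData M q) : W.adj.adj = W := by
  cases W
  simp [adj]

/-- `(g ∣ W) ∣ adj W = g` for every function `g` (weight `2`). -/
theorem slash_slash_adj (W : ALData M q) (g : ℍ → ℂ) :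
    (g ∣[(2 : ℤ)] W.mat) ∣[(2 : ℤ)] W.adj.mat = g := by
  have h := slash_adj_slash W.adj g
  rwa [adj_adj] at h

section Invariant

variable {f : ℍ → ℂ}

/-- On `Γ₀(M)`-invariant functions of weight `2`, `(f ∣ W₁) ∣ W₂ = f`. -/
theorem slash_mat_slash_mat (W₁ W₂ : ALData M q)
    (hf : ∀ γ ∈ (Gamma0 M : Subgroup (GL (Fin 2) ℝ)), f ∣[(2 : ℤ)] γ = f) :
    (f ∣[(2 : ℤ)] W₁.mat) ∣[(2 : ℤ)] W₂.mat = f := by
  rw [slash_mat_slash_mat']
  exact hf _ ⟨_, mulSL_mem W₁ W₂, rfl⟩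

/-- On `Γ₀(M)`-invariant functions of weight `2` the operator `f ↦ f ∣ W` does not depend on the
Atkin–Lehner datum. -/
theorem slash_mat_eq (W₁ W₂ : ALData M q)
    (hf : ∀ γ ∈ (Gamma0 M : Subgroup (GL (Fin 2) ℝ)), f ∣[(2 : ℤ)] γ = f) :
    f ∣[(2 : ℤ)] W₁.mat = f ∣[(2 : ℤ)] W₂.mat := by
  have h1 := slash_adj_slash W₂ (f ∣[(2 : ℤ)] W₁.mat)
  rw [slash_mat_slash_mat W₁ W₂.adj hf] at h1
  exact h1.symm

end Invariant

/-- The datum `W γ` for `γ ∈ Γ₀(M)`, `γ 1 0 = M c'`. -/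
def mulRight (W : ALData M q) (γ : SL(2, ℤ)) (c' : ℤ) (hc' : γ 1 0 = (M : ℤ) * c') :
    ALData M q where
  m := W.m
  x := W.x * γ 0 0 + (W.m : ℤ) * W.y * c'
  y := (q : ℤ) * W.x * γ 0 1 + W.y * γ 1 1
  z := W.z * γ 0 0 + (q : ℤ) * W.w * c'
  w := (W.m : ℤ) * W.z * γ 0 1 + W.w * γ 1 1
  hq := W.hq
  hM := W.hM
  det_eq := by
    have hdet := γ.det_coe
    rw [Matrix.det_fin_two, hc', W.hM'] at hdet
    linear_combination
      (γ 0 0 * γ 1 1 - γ 0 1 * ((q : ℤ) * (W.m : ℤ) * c')) * W.det_eq + hdet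

theorem mat_mul_mapGL (W : ALData M q) (γ : SL(2, ℤ)) (c' : ℤ) (hc' : γ 1 0 = (M : ℤ) * c') :
    W.mat * Matrix.SpecialLinearGroup.mapGL ℝ γ = (W.mulRight γ c' hc').mat := by
  apply Matrix.GeneralLinearGroup.ext
  intro a b
  rw [Matrix.GeneralLinearGroup.coe_mul, val_mat, val_mat,
    Fermat.Agent.S16.helper41.val_mapGL]
  have hc'' : ((γ 1 0 : ℤ) : ℝ) = (M : ℝ) * (c' : ℝ) := by
    rw [hc']; push_cast; ring
  have hM1 := W.hMR
  fin_cases a <;> fin_cases b <;>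
    simp [mulRight, Matrix.mul_apply, Fin.sum_univ_two, hc'', hM1] <;> ring

/-- Slashing with an Atkin–Lehner matrix preserves `Γ₀(M)`-invariance (weight `2`). -/
theorem slash_mat_invariant (W : ALData M q) {f : ℍ → ℂ}
    (hf : ∀ γ ∈ (Gamma0 M : Subgroup (GL (Fin 2) ℝ)), f ∣[(2 : ℤ)] γ = f)
    (γ : GL (Fin 2) ℝ) (hγ : γ ∈ (Gamma0 M : Subgroup (GL (Fin 2) ℝ))) :
    (f ∣[(2 : ℤ)] W.mat) ∣[(2 : ℤ)] γ = f ∣[(2 : ℤ)] W.mat := by
  obtain ⟨g, hg, rfl⟩ := hγ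
  obtain ⟨c', hc'⟩ := Fermat.Agent.S16.helper26.dvd_of_mem_Gamma0 hg
  rw [← SlashAction.slash_mul]
  erw [mat_mul_mapGL W g c' hc']
  exact slash_mat_eq _ _ hf

/-- The representative `δ_j = [[x, x j + y], [m z, m z j + q w]] ∈ Γ₀(m)` with
`W β_j = q • δ_j`. -/
def delta (W : ALData M q) (j : ℤ) : SL(2, ℤ) :=
  ⟨!![W.x, W.x * j + W.y; (W.m : ℤ) * W.z, (W.m : ℤ) * W.z * j + (q : ℤ) * W.w], by
    rw [Matrix.det_fin_two_of]
    linear_combination W.det_eq⟩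

theorem coe_delta (W : ALData M q) (j : ℤ) :
    (W.delta j : Matrix (Fin 2) (Fin 2) ℤ) =
      !![W.x, W.x * j + W.y; (W.m : ℤ) * W.z, (W.m : ℤ) * W.z * j + (q : ℤ) * W.w] := rfl

theorem delta_apply_one_zero (W : ALData M q) (j : ℤ) : (W.delta j) 1 0 = (W.m : ℤ) * W.z := by
  have := congrFun (congrFun (coe_delta W j) 1) 0
  simpa using this

theorem delta_apply_one_one (W : ALData M q) (j : ℤ) :
    (W.delta j) 1 1 = (W.m : ℤ) * W.z * j + (q : ℤ) * W.w := by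
  have := congrFun (congrFun (coe_delta W j) 1) 1
  simpa using this

theorem delta_apply_zero_zero (W : ALData M q) (j : ℤ) : (W.delta j) 0 0 = W.x := by
  have := congrFun (congrFun (coe_delta W j) 0) 0
  simpa using this

theorem delta_apply_zero_one (W : ALData M q) (j : ℤ) : (W.delta j) 0 1 = W.x * j + W.y := by
  have := congrFun (congrFun (coe_delta W j) 0) 1
  simpa using this

theorem delta_mem (W : ALData M q) (j : ℤ) : W.delta j ∈ Gamma0 W.m := by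
  apply Fermat.Agent.S16.helper26.mem_Gamma0_of_dvd
  rw [delta_apply_one_zero]
  exact dvd_mul_right _ _

theorem val_mat_mul_heckeMatrix (W : ALData M q) (j : ℕ) :
    ((W.mat * heckeMatrix q j : GL (Fin 2) ℝ) : Matrix (Fin 2) (Fin 2) ℝ) =
      (q : ℝ) • ((Matrix.SpecialLinearGroup.mapGL ℝ (W.delta j) : GL (Fin 2) ℝ) :
        Matrix (Fin 2) (Fin 2) ℝ) := by
  rw [Matrix.GeneralLinearGroup.coe_mul, val_mat, val_heckeMatrix W.hq,
    Fermat.Agent.S16.helper41.val_mapGL, coe_delta]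
  have hM1 := W.hMR
  ext a b
  fin_cases a <;> fin_cases b <;>
    simp [Matrix.mul_apply, Fin.sum_univ_two, hM1] <;> ring

/-- `(f ∣ W) ∣ β_j = f ∣ δ_j` (weight `2`). -/
theorem slash_mat_heckeMatrix (W : ALData M q) (f : ℍ → ℂ) (j : ℕ) :
    (f ∣[(2 : ℤ)] W.mat) ∣[(2 : ℤ)] heckeMatrix q j = f ∣[(2 : ℤ)] (W.delta j : SL(2, ℤ)) := by
  rw [← SlashAction.slash_mul, ModularForm.SL_slash]
  exact slash_two_eq_of_val_eq_smul f _ _ (q : ℝ) W.q_ne_zeroR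
    (Fermat.Agent.S16.helper41.det_mapGL_pos _) (val_mat_mul_heckeMatrix W j)

/-- `U_q (f ∣ W) = ∑_j f ∣ δ_j` (weight `2`). -/
theorem heckeU_slash_mat (W : ALData M q) (f : ℍ → ℂ) :
    heckeU 2 q (f ∣[(2 : ℤ)] W.mat) =
      ∑ j ∈ Finset.range q, f ∣[(2 : ℤ)] (W.delta (j : ℤ) : SL(2, ℤ)) := by
  rw [heckeU_def]
  exact Finset.sum_congr rfl fun j _ => slash_mat_heckeMatrix W f j

/-- `W = δ₀ · diag(q, 1)` with `δ₀ = δ 0 ∈ Γ₀(m)`. -/
theorem mat_eq_delta_mul (W : ALData M q) :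
    W.mat = Matrix.SpecialLinearGroup.mapGL ℝ (W.delta 0) * heckeDiagMatrix q := by
  apply Matrix.GeneralLinearGroup.ext
  intro a b
  rw [Matrix.GeneralLinearGroup.coe_mul, val_mat, val_heckeDiagMatrix W.hq,
    Fermat.Agent.S16.helper41.val_mapGL, coe_delta]
  have hM1 := W.hMR
  fin_cases a <;> fin_cases b <;>
    simp [Matrix.mul_apply, Fin.sum_univ_two, hM1] <;> ring

/-- An Atkin–Lehner datum from a Bézout relation. -/
def ofCoprime {m : ℕ} (hq : q ≠ 0) (hM : M = q * m) (h : Nat.Coprime q m) : ALData M q where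
  m := m
  x := Nat.gcdA q m
  y := -Nat.gcdB q m
  z := 1
  w := 1
  hq := hq
  hM := hM
  det_eq := by
    have h1 := Nat.gcd_eq_gcd_ab q m
    rw [h] at h1
    push_cast at h1
    linear_combination -h1

/-- Atkin–Lehner data exist at every prime `q ∥ M`. -/
theorem nonempty_of_prime (hq : q.Prime) (hqM : q ∣ M) (hq2 : ¬ q ^ 2 ∣ M) :
    Nonempty (ALData M q) := by
  obtain ⟨m, rfl⟩ := hqM
  refine ⟨ofCoprime hq.ne_zero rfl ?_⟩
  rw [Nat.Prime.coprime_iff_not_dvd hq]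
  intro h
  apply hq2
  rw [pow_two]
  exact Nat.mul_dvd_mul_left q h

/-- An Atkin–Lehner datum of level `c M` is an Atkin–Lehner datum of level `M` (`q ∣ M`), with
the same matrix. -/
def restrict {c : ℕ} (W : ALData (c * M) q) (m' : ℕ) (hM : M = q * m') : ALData M q where
  m := m'
  x := W.x
  y := W.y
  z := (c : ℤ) * W.z
  w := W.w
  hq := W.hq
  hM := hM
  det_eq := by
    have h1 : W.m = c * m' := by
      have h2 : c * M = q * W.m := W.hM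
      have h3 : q * (c * m') = q * W.m := by rw [← h2, hM]; ring
      exact (Nat.eq_of_mul_eq_mul_left (Nat.pos_of_ne_zero W.hq) h3).symm
    have h4 := W.det_eq
    rw [h1] at h4
    push_cast at h4
    linear_combination h4

theorem mat_restrict {c : ℕ} (W : ALData (c * M) q) (m' : ℕ) (hM : M = q * m') :
    (W.restrict m' hM).mat = W.mat := by
  apply Matrix.GeneralLinearGroup.ext
  intro a b
  rw [val_mat, val_mat]
  fin_cases a <;> fin_cases b <;> simp [restrict]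
  ring

end ALData

end Fermat.Agent.T2.helper76
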