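import Fermat.Agent.T2.helper76_ALHecke

/-!
# T2 [T2-NEW], part 3: the trace from level `M = q m` to level `m` (`q ∥ M`)

* `instIsFiniteRelIndexGamma0` : `Γ₀(M)` has finite relative index in `Γ₀(m)`;
* `ALData.cosetEquiv` : `{1} ∪ {δ_j : j < q}` represent `Γ₀(M) \ Γ₀(m)`;
* `ALData.coe_trace_eq` : `Tr^M_m F = F + U_q (F ∣ W)` for `F ∈ S₂(Γ₀(M))`
  (Mathlib's `CuspForm.trace`);
* `ALData.atkinLehner` : the Atkin–Lehner operator as a linear endomorphism of `S₂(Γ₀(M))`.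
-/

set_option autoImplicit false

namespace Fermat.Agent.T2.helper76

open UpperHalfPlane ModularForm CongruenceSubgroup Matrix
open scoped MatrixGroups
open Fermat.Agent.S16.helper26 Fermat.Agent.S16.helper41

/-- `Γ₀(M)` has finite relative index in every `Γ₀(m)`. -/
instance instIsFiniteRelIndexGamma0 (M m : ℕ) [NeZero M] :
    (Gamma0 M : Subgroup (GL (Fin 2) ℝ)).IsFiniteRelIndex
      (Gamma0 m : Subgroup (GL (Fin 2) ℝ)) :=
  Subgroup.isFiniteRelIndex_of_le_right (H := (Gamma0 M : Subgroup (GL (Fin 2) ℝ))) (L := 𝒮ℒ)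
    (Subgroup.map_le_range _ _)

namespace ALData

variable {M q : ℕ}

/-- An element of `Γ₀(m)` as an element of the subgroup of `GL₂(ℝ)`. -/
noncomputable def toH (m : ℕ) (g : Gamma0 m) : (Gamma0 m : Subgroup (GL (Fin 2) ℝ)) :=
  ⟨Matrix.SpecialLinearGroup.mapGL ℝ (g : SL(2, ℤ)), ⟨g, g.2, rfl⟩⟩

theorem coe_toH (m : ℕ) (g : Gamma0 m) :
    ((toH m g : (Gamma0 m : Subgroup (GL (Fin 2) ℝ))) : GL (Fin 2) ℝ) =
      Matrix.SpecialLinearGroup.mapGL ℝ (g : SL(2, ℤ)) := rfl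

theorem exists_toH (m : ℕ) (h : (Gamma0 m : Subgroup (GL (Fin 2) ℝ))) :
    ∃ g : Gamma0 m, toH m g = h := by
  obtain ⟨h, g, hg, rfl⟩ := h
  exact ⟨⟨g, hg⟩, rfl⟩

theorem toH_mul (m : ℕ) (g h : Gamma0 m) : toH m (g * h) = toH m g * toH m h := by
  apply Subtype.ext
  simp [coe_toH]

theorem toH_inv (m : ℕ) (g : Gamma0 m) : toH m g⁻¹ = (toH m g)⁻¹ := by
  apply Subtype.ext
  simp [coe_toH]

theorem toH_one (m : ℕ) : toH m 1 = 1 := by
  apply Subtype.ext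
  simp [coe_toH]

theorem toH_mem_subgroupOf_iff (M m : ℕ) (g : Gamma0 m) :
    toH m g ∈ (Gamma0 M : Subgroup (GL (Fin 2) ℝ)).subgroupOf
        (Gamma0 m : Subgroup (GL (Fin 2) ℝ)) ↔ (g : SL(2, ℤ)) ∈ Gamma0 M := by
  rw [Subgroup.mem_subgroupOf, coe_toH, mapGL_mem_Gamma0_iff]

/-- The quotient `Γ₀(m) / Γ₀(M)` in Mathlib's `NormTrace` form. -/
abbrev QuotAL (M m : ℕ) : Type :=
  (Gamma0 m : Subgroup (GL (Fin 2) ℝ)) ⧸
    ((Gamma0 M : Subgroup (GL (Fin 2) ℝ)).subgroupOf (Gamma0 m : Subgroup (GL (Fin 2) ℝ)))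

theorem mk_toH_eq_iff (M m : ℕ) (g h : Gamma0 m) :
    (QuotientGroup.mk (toH m g) : QuotAL M m) = QuotientGroup.mk (toH m h) ↔
      ((g⁻¹ * h : Gamma0 m) : SL(2, ℤ)) ∈ Gamma0 M := by
  rw [QuotientGroup.eq, ← toH_inv, ← toH_mul, toH_mem_subgroupOf_iff]

/-- `δ_j` as an element of `Γ₀(m)`. -/
def deltaH (W : ALData M q) (j : ℤ) : Gamma0 W.m := ⟨W.delta j, W.delta_mem j⟩

/-- The coset attached to an index: `none ↦ 1`, `some j ↦ δ_j⁻¹`. -/
noncomputable def cosetOf (W : ALData M q) : Option (Fin q) → QuotAL M W.m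
  | none => QuotientGroup.mk (toH W.m 1)
  | some j => QuotientGroup.mk (toH W.m (W.deltaH ((j : ℕ) : ℤ))⁻¹)

theorem isCoprime_q_mz (W : ALData M q) : IsCoprime (q : ℤ) ((W.m : ℤ) * W.z) :=
  ⟨W.x * W.w, -W.y, by linear_combination W.det_eq⟩

theorem isCoprime_q_m (W : ALData M q) : IsCoprime (q : ℤ) (W.m : ℤ) :=
  W.isCoprime_q_mz.of_mul_right_left

theorem isCoprime_q_z (W : ALData M q) : IsCoprime (q : ℤ) W.z :=
  W.isCoprime_q_mz.of_mul_right_right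

/-- `δ_j g ∈ Γ₀(M)` iff `q ∣ g₀₀ + j g₁₀` (`g ∈ Γ₀(m)`). -/
theorem delta_mul_mem_iff (W : ALData M q) (j : ℤ) (g : SL(2, ℤ)) (hg : g ∈ Gamma0 W.m) :
    W.delta j * g ∈ Gamma0 M ↔ (q : ℤ) ∣ g 0 0 + j * g 1 0 := by
  obtain ⟨c, hc⟩ := dvd_of_mem_Gamma0 hg
  have h1 : (W.delta j * g) 1 0 = (W.m : ℤ) * W.z * (g 0 0 + j * g 1 0) + (q : ℤ) * W.w * g 1 0 := by
    rw [mul_apply_one_zero, delta_apply_one_zero, delta_apply_one_one]
    ring
  constructor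
  · intro h
    have h2 := dvd_of_mem_Gamma0 h
    rw [h1, W.hM'] at h2
    have h3 : (q : ℤ) ∣ (W.m : ℤ) * W.z * (g 0 0 + j * g 1 0) := by
      have h4 : (q : ℤ) ∣ (W.m : ℤ) * W.z * (g 0 0 + j * g 1 0) + (q : ℤ) * W.w * g 1 0 :=
        (dvd_mul_right _ _).trans h2
      have h5 : (q : ℤ) ∣ (q : ℤ) * W.w * g 1 0 := ⟨W.w * g 1 0, by ring⟩
      exact (dvd_add_left h5).mp h4
    exact W.isCoprime_q_mz.dvd_of_dvd_mul_left h3
  · rintro ⟨e, he⟩
    apply mem_Gamma0_of_dvd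
    rw [h1, W.hM', he, hc]
    exact ⟨W.z * e + W.w * c, by ring⟩

theorem cosetOf_injective (W : ALData M q) (hq1 : 1 < q) : Function.Injective W.cosetOf := by
  have hnq : ¬ (q : ℤ) ∣ 1 := by
    intro h
    have := Int.le_of_dvd one_pos h
    omega
  rintro (_ | i) (_ | j) h
  · rfl
  · exfalso
    simp only [cosetOf] at h
    rw [mk_toH_eq_iff, inv_one, one_mul, Subgroup.coe_inv, Subgroup.inv_mem_iff] at h
    have h2 := (W.delta_mul_mem_iff ((j : ℕ) : ℤ) 1 (Subgroup.one_mem _)).mp (by simpa [deltaH] using h)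
    simp at h2
    exact hnq h2
  · exfalso
    simp only [cosetOf] at h
    rw [mk_toH_eq_iff, inv_inv, mul_one] at h
    have h2 := (W.delta_mul_mem_iff ((i : ℕ) : ℤ) 1 (Subgroup.one_mem _)).mp (by simpa [deltaH] using h)
    simp at h2
    exact hnq h2
  · simp only [cosetOf] at h
    rw [mk_toH_eq_iff, inv_inv, Subgroup.coe_mul, Subgroup.coe_inv] at h
    have h2 := (W.delta_mul_mem_iff ((i : ℕ) : ℤ) _
      (Subgroup.inv_mem _ (W.delta_mem ((j : ℕ) : ℤ)))).mp h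
    rw [inv_apply_zero_zero, inv_apply_one_zero, delta_apply_one_one, delta_apply_one_zero] at h2
    have h3 : (q : ℤ) ∣ (W.m : ℤ) * W.z * (((j : ℕ) : ℤ) - ((i : ℕ) : ℤ)) := by
      have h4 : (q : ℤ) ∣ (q : ℤ) * W.w := dvd_mul_right _ _
      have h5 := dvd_sub h2 h4
      have e : (W.m : ℤ) * W.z * ((j : ℕ) : ℤ) + (q : ℤ) * W.w +
          ((i : ℕ) : ℤ) * -((W.m : ℤ) * W.z) - (q : ℤ) * W.w =
          (W.m : ℤ) * W.z * (((j : ℕ) : ℤ) - ((i : ℕ) : ℤ)) := by ring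
      rwa [e] at h5
    have h6 := W.isCoprime_q_mz.dvd_of_dvd_mul_left h3
    have h7 : ((j : ℕ) : ℤ) % (q : ℤ) = ((i : ℕ) : ℤ) % (q : ℤ) :=
      Int.emod_eq_emod_iff_emod_sub_eq_zero.mpr (Int.emod_eq_zero_of_dvd h6)
    have hi := i.2
    have hj := j.2
    rw [Int.emod_eq_of_lt (by positivity) (by exact_mod_cast hj),
      Int.emod_eq_of_lt (by positivity) (by exact_mod_cast hi)] at h7
    have h8 : (j : ℕ) = (i : ℕ) := by exact_mod_cast h7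
    exact congrArg some (Fin.ext h8.symm)

theorem cosetOf_surjective (W : ALData M q) (hq : q.Prime) :
    Function.Surjective W.cosetOf := by
  have : Fact q.Prime := ⟨hq⟩
  intro c
  induction c using QuotientGroup.induction_on with
  | H h =>
    obtain ⟨g, rfl⟩ := exists_toH W.m h
    by_cases hc : (((g : SL(2, ℤ)) 1 0 : ℤ) : ZMod q) = 0
    · refine ⟨none, ?_⟩
      simp only [cosetOf]
      rw [mk_toH_eq_iff, inv_one, one_mul]
      apply mem_Gamma0_of_dvd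
      rw [W.hM']
      exact W.isCoprime_q_m.mul_dvd ((ZMod.intCast_zmod_eq_zero_iff_dvd _ _).mp hc)
        (dvd_of_mem_Gamma0 g.2)
    · set j : ZMod q := -(((g : SL(2, ℤ)) 0 0 : ℤ) : ZMod q) *
        ((((g : SL(2, ℤ)) 1 0 : ℤ) : ZMod q))⁻¹ with hj
      refine ⟨some ⟨j.val, ZMod.val_lt j⟩, ?_⟩
      simp only [cosetOf]
      rw [mk_toH_eq_iff, inv_inv, Subgroup.coe_mul]
      refine (W.delta_mul_mem_iff _ _ g.2).mpr ?_
      rw [← ZMod.intCast_zmod_eq_zero_iff_dvd]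
      push_cast
      rw [ZMod.natCast_zmod_val, hj]
      exact add_neg_mul_inv_mul q _ _ hc

/-- The explicit enumeration of the cosets `Γ₀(m) / Γ₀(M)`. -/
noncomputable def cosetEquiv (W : ALData M q) (hq : q.Prime) :
    Option (Fin q) ≃ QuotAL M W.m :=
  Equiv.ofBijective W.cosetOf ⟨W.cosetOf_injective hq.one_lt, W.cosetOf_surjective hq⟩

theorem cosetEquiv_apply (W : ALData M q) (hq : q.Prime) (i : Option (Fin q)) :
    W.cosetEquiv hq i = W.cosetOf i := rfl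

section Trace

variable [NeZero M] (W : ALData M q) (F : CuspForm (Gamma0 M) 2)

omit [NeZero M] in
theorem quotientFunc_cosetOf_none :
    SlashInvariantForm.quotientFunc (ℋ := (Gamma0 W.m : Subgroup (GL (Fin 2) ℝ))) F
      (W.cosetOf none) = ⇑F := by
  simp only [cosetOf]
  erw [SlashInvariantForm.quotientFunc_mk]
  rw [toH_one]
  simp

omit [NeZero M] in
theorem quotientFunc_cosetOf_some (j : Fin q) :
    SlashInvariantForm.quotientFunc (ℋ := (Gamma0 W.m : Subgroup (GL (Fin 2) ℝ))) F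
      (W.cosetOf (some j)) = ⇑F ∣[(2 : ℤ)] (W.delta ((j : ℕ) : ℤ) : SL(2, ℤ)) := by
  simp only [cosetOf]
  erw [SlashInvariantForm.quotientFunc_mk]
  rw [toH_inv, Subgroup.coe_inv, inv_inv, ModularForm.SL_slash]
  rfl

/-- **The trace identity**: `Tr^M_m F = F + U_q (F ∣ W)` for `F ∈ S₂(Γ₀(M))`, `M = q m`. -/
theorem coe_trace_eq' (hq : q.Prime) :
    (CuspForm.trace (Gamma0 W.m : Subgroup (GL (Fin 2) ℝ)) F : ℍ → ℂ) =
      ⇑F + heckeU 2 q ((F : ℍ → ℂ) ∣[(2 : ℤ)] W.mat) := by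
  rw [CuspForm.coe_trace, W.heckeU_slash_mat]
  let _ : Fintype (QuotAL M W.m) := Fintype.ofFinite _
  rw [← Equiv.sum_comp (W.cosetEquiv hq), Fintype.sum_option]
  simp only [cosetEquiv_apply]
  rw [quotientFunc_cosetOf_none]
  simp only [quotientFunc_cosetOf_some]
  rw [Fin.sum_univ_eq_sum_range
    (fun j => (F : ℍ → ℂ) ∣[(2 : ℤ)] (W.delta ((j : ℕ) : ℤ) : SL(2, ℤ))) q]

/-- The trace identity, for an arbitrary name `m` of the cofactor. -/
theorem coe_trace_eq (hq : q.Prime) {m : ℕ} (hM : M = q * m) :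
    (CuspForm.trace (Gamma0 m : Subgroup (GL (Fin 2) ℝ)) F : ℍ → ℂ) =
      ⇑F + heckeU 2 q ((F : ℍ → ℂ) ∣[(2 : ℤ)] W.mat) := by
  have hm : W.m = m :=
    Nat.eq_of_mul_eq_mul_left hq.pos (W.hM.symm.trans hM)
  subst hm
  exact W.coe_trace_eq' F hq

end Trace

/-- `W₁ = γ W₂` with `γ ∈ Γ₀(M)`. -/
theorem exists_eq_mul (W₁ W₂ : ALData M q) :
    ∃ g ∈ Gamma0 M, W₁.mat = Matrix.SpecialLinearGroup.mapGL ℝ g * W₂.mat := by
  refine ⟨mulSL W₁ W₂.adj, mulSL_mem _ _, ?_⟩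
  apply Matrix.GeneralLinearGroup.ext
  intro a b
  rw [Matrix.GeneralLinearGroup.coe_mul, val_mat, val_mat, val_mapGL, coe_mulSL]
  have h2 := W₂.det_eqR
  have hm : (W₂.m : ℝ) = (W₁.m : ℝ) := by rw [m_eq W₁ W₂]
  rw [hm] at h2
  have hM1 := W₁.hMR
  fin_cases a <;> fin_cases b <;>
    simp [adj, Matrix.mul_apply, Fin.sum_univ_two, hM1]
  · linear_combination (-(q : ℝ) * (W₁.x : ℝ)) * h2
  · linear_combination (-(W₁.y : ℝ)) * h2
  · linear_combination (-(q : ℝ) * (W₁.m : ℝ) * (W₁.z : ℝ)) * h2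
  · linear_combination (-(q : ℝ) * (W₁.w : ℝ)) * h2

/-- `W` normalises `Γ₀(M)`: `W γ = γ' W`. -/
theorem exists_mat_mul_mapGL (W : ALData M q) {γ : SL(2, ℤ)} (hγ : γ ∈ Gamma0 M) :
    ∃ γ' ∈ Gamma0 M, W.mat * Matrix.SpecialLinearGroup.mapGL ℝ γ =
      Matrix.SpecialLinearGroup.mapGL ℝ γ' * W.mat := by
  obtain ⟨c', hc'⟩ := dvd_of_mem_Gamma0 hγ
  obtain ⟨g, hg, h⟩ := exists_eq_mul (W.mulRight γ c' hc') W
  exact ⟨g, hg, by rw [mat_mul_mapGL W γ c' hc', h]⟩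

open ConjAct Pointwise in
theorem Gamma0_le_conj_mat (W : ALData M q) :
    (Gamma0 M : Subgroup (GL (Fin 2) ℝ)) ≤
      toConjAct (W.mat)⁻¹ • (Gamma0 M : Subgroup (GL (Fin 2) ℝ)) := by
  rintro γ ⟨g, hg, rfl⟩
  obtain ⟨g', hg', h⟩ := W.exists_mat_mul_mapGL hg
  rw [Subgroup.mem_pointwise_smul_iff_inv_smul_mem]
  refine ⟨g', hg', ?_⟩
  rw [ConjAct.smul_def]
  simp only [map_inv, inv_inv, ConjAct.ofConjAct_toConjAct]
  erw [h]
  rw [mul_inv_cancel_right]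

/-- **The Atkin–Lehner operator** `F ↦ F ∣[2] W` on `S₂(Γ₀(M))`. -/
noncomputable def atkinLehner (W : ALData M q) :
    CuspForm (Gamma0 M) 2 →ₗ[ℂ] CuspForm (Gamma0 M) 2 where
  toFun F :=
    { toFun := (F : ℍ → ℂ) ∣[(2 : ℤ)] W.mat
      slash_action_eq' := fun γ hγ =>
        W.slash_mat_invariant (fun γ hγ => SlashInvariantFormClass.slash_action_eq F γ hγ) γ hγ
      holo' := (CuspFormClass.holo F).slash 2 W.mat
      zero_at_cusps' := fun hc γ hγ =>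
        (CuspForm.translate F W.mat).zero_at_cusps' (hc.mono W.Gamma0_le_conj_mat) γ hγ }
  map_add' F G := DFunLike.coe_injective <|
    show (⇑(F + G) : ℍ → ℂ) ∣[(2 : ℤ)] W.mat =
        (⇑F : ℍ → ℂ) ∣[(2 : ℤ)] W.mat + (⇑G : ℍ → ℂ) ∣[(2 : ℤ)] W.mat by
      rw [FunLike.coe_add, SlashAction.add_slash]
  map_smul' c F := DFunLike.coe_injective <|
    show (⇑(c • F) : ℍ → ℂ) ∣[(2 : ℤ)] W.mat = c • ((⇑F : ℍ → ℂ) ∣[(2 : ℤ)] W.mat) by
      rw [FunLike.coe_smul, ModularForm.smul_slash, UpperHalfPlane.σ, if_pos W.det_mat_pos]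
      rfl

@[simp]
theorem coe_atkinLehner (W : ALData M q) (F : CuspForm (Gamma0 M) 2) :
    (⇑(W.atkinLehner F) : ℍ → ℂ) = (F : ℍ → ℂ) ∣[(2 : ℤ)] W.mat := rfl

theorem atkinLehner_eq (W₁ W₂ : ALData M q) : W₁.atkinLehner = W₂.atkinLehner := by
  ext F : 1
  apply DFunLike.coe_injective
  rw [coe_atkinLehner, coe_atkinLehner]
  exact slash_mat_eq W₁ W₂ (fun γ hγ => SlashInvariantFormClass.slash_action_eq F γ hγ)

theorem atkinLehner_atkinLehner (W₁ W₂ : ALData M q) (F : CuspForm (Gamma0 M) 2) :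
    W₂.atkinLehner (W₁.atkinLehner F) = F := by
  apply DFunLike.coe_injective
  rw [coe_atkinLehner, coe_atkinLehner]
  exact slash_mat_slash_mat W₁ W₂ (fun γ hγ => SlashInvariantFormClass.slash_action_eq F γ hγ)

end ALData

end Fermat.Agent.T2.helper76
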