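import Mathlib

/-!
# Tier 2, [T2-EIG-FUNC] (helper76): from `Hom(L, O)` to `Hom(L, ℤ_p)`

`L` a finitely generated abelian group (the period lattice), `O` a domain which is a
`ℤ_p`-algebra with injective structure map (e.g. a complete discrete valuation ring of
characteristic `0` and residue characteristic `p`), `x₀ : L →+ O` nonzero.

* `exists_padic_functional` : there are a `ℤ_p`-submodule `V ⊆ O` containing the values of `x₀`
  and a `ℤ_p`-linear functional `f` on `V` with `f ∘ x₀ ≠ 0`.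
* `exists_padic_hom` : there is `x₁ : L →+ ℤ_p`, `x₁ ≠ 0`, such that every `ℤ_p`-linear relation
  `∑ i, c i • x₀ (E i lam) = 0` (for all `lam`) between translates of `x₀` by endomorphisms `E i`
  of `L` holds for `x₁` as well.
* `exists_padic_hom_eigen` : eigen-equations with integer eigenvalues pass from `x₀` to `x₁`.
-/

set_option autoImplicit false

namespace Fermat.Agent.T2.helper76

section Functional

variable {p : ℕ} [Fact p.Prime] {L : Type*} [AddCommGroup L] [Module.Finite ℤ L]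
  {O : Type*} [CommRing O] [IsDomain O] [Algebra ℤ_[p] O]

/-- **[T2-EIG-FUNC]** a `ℤ_p`-linear functional on the span of the values of `x₀` which does not
kill `x₀`. -/
theorem exists_padic_functional (hinj : Function.Injective (algebraMap ℤ_[p] O))
    (x₀ : L →+ O) (hx₀ : x₀ ≠ 0) :
    ∃ (V : Submodule ℤ_[p] O) (f : V →ₗ[ℤ_[p]] ℤ_[p]) (hV : ∀ lam : L, x₀ lam ∈ V),
      ∃ lam : L, f ⟨x₀ lam, hV lam⟩ ≠ 0 := by
  classical
  obtain ⟨s, hs⟩ := (Module.finite_def (R := ℤ) (M := L)).mp inferInstance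
  let V : Submodule ℤ_[p] O := Submodule.span ℤ_[p] (x₀ '' (s : Set L))
  have hV : ∀ lam : L, x₀ lam ∈ V := by
    intro lam
    have hmem : lam ∈ Submodule.span ℤ (s : Set L) := by rw [hs]; trivial
    induction hmem using Submodule.span_induction with
    | mem y hy => exact Submodule.subset_span ⟨y, hy, rfl⟩
    | zero => rw [map_zero]; exact V.zero_mem
    | add y z _ _ hy hz => rw [map_add]; exact V.add_mem hy hz
    | smul a y _ hy =>
      rw [map_zsmul]
      exact zsmul_mem hy a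
  haveI : Module.Finite ℤ_[p] V :=
    Module.Finite.of_fg (Submodule.fg_span (Set.Finite.image _ s.finite_toSet))
  haveI : Module.IsTorsionFree ℤ_[p] O := by
    haveI : FaithfulSMul ℤ_[p] O := (faithfulSMul_iff_algebraMap_injective ℤ_[p] O).mpr hinj
    infer_instance
  haveI : Module.Free ℤ_[p] V := Module.free_of_finite_type_torsion_free'
  let b := Module.Free.chooseBasis ℤ_[p] V
  obtain ⟨lam, hlam⟩ : ∃ lam : L, x₀ lam ≠ 0 := by
    by_contra h
    exact hx₀ (AddMonoidHom.ext fun lam => by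
      rw [not_not.mp ((not_exists.mp h) lam)]; rfl)
  have hne : (⟨x₀ lam, hV lam⟩ : V) ≠ 0 := fun h => hlam (congrArg Subtype.val h)
  obtain ⟨i, hi⟩ : ∃ i, b.repr ⟨x₀ lam, hV lam⟩ i ≠ 0 := by
    by_contra h
    apply hne
    apply b.repr.injective
    ext i
    rw [not_not.mp ((not_exists.mp h) i), map_zero, Finsupp.zero_apply]
  exact ⟨V, b.coord i, hV, lam, hi⟩

/-- **[T2-EIG-FUNC]**, packaged: a nonzero `x₁ : L →+ ℤ_p` inheriting every `ℤ_p`-linear
relation between the translates of `x₀`. -/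
theorem exists_padic_hom (hinj : Function.Injective (algebraMap ℤ_[p] O))
    (x₀ : L →+ O) (hx₀ : x₀ ≠ 0) :
    ∃ x₁ : L →+ ℤ_[p], x₁ ≠ 0 ∧
      ∀ (ι : Type) (s : Finset ι) (c : ι → ℤ_[p]) (E : ι → L →+ L),
        (∀ lam : L, ∑ i ∈ s, c i • x₀ (E i lam) = 0) →
          ∀ lam : L, ∑ i ∈ s, c i * x₁ (E i lam) = 0 := by
  obtain ⟨V, f, hV, lam₀, hlam₀⟩ := exists_padic_functional hinj x₀ hx₀
  let x₁ : L →+ ℤ_[p] :=
    { toFun := fun lam => f ⟨x₀ lam, hV lam⟩
      map_zero' := by
        have : (⟨x₀ 0, hV 0⟩ : V) = 0 := Subtype.ext (map_zero x₀)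
        rw [this, map_zero]
      map_add' := fun a b => by
        have : (⟨x₀ (a + b), hV (a + b)⟩ : V) = ⟨x₀ a, hV a⟩ + ⟨x₀ b, hV b⟩ :=
          Subtype.ext (map_add x₀ a b)
        rw [this, map_add] }
  refine ⟨x₁, fun h => hlam₀ ?_, ?_⟩
  · have := congrArg (fun y : L →+ ℤ_[p] => y lam₀) h
    exact this
  · intro ι s c E hrel lam
    have h1 : (∑ i ∈ s, c i • (⟨x₀ (E i lam), hV (E i lam)⟩ : V)) = 0 := by
      apply Subtype.ext
      rw [Submodule.coe_sum]
      simpa using hrel lam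
    have h2 := congrArg f h1
    rw [map_sum, map_zero] at h2
    rw [← h2]
    refine Finset.sum_congr rfl fun i _ => ?_
    rw [map_smul, smul_eq_mul]
    rfl

/-- **[T2-EIG-FUNC]**, eigen-equations: if `x₀ ∘ t = ε • x₀` with an INTEGER `ε`, the same holds
for every `x₁` as in `exists_padic_hom`. -/
theorem eigen_of_relations (x₀ : L →+ O) (x₁ : L →+ ℤ_[p])
    (h : ∀ (ι : Type) (s : Finset ι) (c : ι → ℤ_[p]) (E : ι → L →+ L),
        (∀ lam : L, ∑ i ∈ s, c i • x₀ (E i lam) = 0) →
          ∀ lam : L, ∑ i ∈ s, c i * x₁ (E i lam) = 0)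
    (t : L →+ L) (ε : ℤ) (ht : ∀ lam : L, x₀ (t lam) = (ε : O) * x₀ lam) (lam : L) :
    x₁ (t lam) = (ε : ℤ_[p]) * x₁ lam := by
  have h1 := h Bool Finset.univ (fun b => if b then 1 else -(ε : ℤ_[p]))
    (fun b => if b then t else AddMonoidHom.id L) (fun lam => by
      simp only [Fintype.sum_bool, if_true, Bool.false_eq_true, if_false, one_smul,
        AddMonoidHom.id_apply, neg_smul]
      rw [ht lam, ← sub_eq_add_neg, sub_eq_zero, Algebra.smul_def, map_intCast]) lam
  simp only [Fintype.sum_bool, if_true, Bool.false_eq_true, if_false, one_mul,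
    AddMonoidHom.id_apply, neg_mul] at h1
  exact sub_eq_zero.mp (by rw [sub_eq_add_neg]; exact h1)

/-- **[T2-EIG-FUNC]**, the kernel condition: if `x₀` is an eigenvector of the monomial operators
`T m` with eigenvalues the monomials in `a i`, then every polynomial `P` with `ℤ_p`-coefficients
vanishing at `a` gives a relation for `x₁`. -/
theorem ker_of_relations {I : Type} (x₀ : L →+ O) (x₁ : L →+ ℤ_[p])
    (h : ∀ (ι : Type) (s : Finset ι) (c : ι → ℤ_[p]) (E : ι → L →+ L),
        (∀ lam : L, ∑ i ∈ s, c i • x₀ (E i lam) = 0) →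
          ∀ lam : L, ∑ i ∈ s, c i * x₁ (E i lam) = 0)
    (T : (I →₀ ℕ) → L →+ L) (a : I → O)
    (hT : ∀ (m : I →₀ ℕ) (lam : L), x₀ (T m lam) = (∏ i ∈ m.support, a i ^ m i) * x₀ lam)
    (P : MvPolynomial I ℤ_[p]) (hP : MvPolynomial.aeval a P = 0) (lam : L) :
    ∑ m ∈ P.support, P.coeff m * x₁ (T m lam) = 0 := by
  refine h (I →₀ ℕ) P.support (fun m => P.coeff m) T (fun lam => ?_) lam
  have h1 : ∑ m ∈ P.support, P.coeff m • x₀ (T m lam) =
      (∑ m ∈ P.support, algebraMap ℤ_[p] O (P.coeff m) * ∏ i ∈ m.support, a i ^ m i) *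
        x₀ lam := by
    rw [Finset.sum_mul]
    refine Finset.sum_congr rfl fun m _ => ?_
    rw [hT, Algebra.smul_def, mul_assoc]
  rw [h1, ← MvPolynomial.eval₂_eq, ← MvPolynomial.aeval_def, hP, zero_mul]

end Functional

end Fermat.Agent.T2.helper76
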