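import Fermat.Agent.T2.helper20_Approx
import Fermat.Agent.T2.helper8_FrobAsm

/-!
# TIER 2, [T2-PAIR-APPROX] in helper8's shape (helper93, task 848)

`pairApprox : helper8.PairApproxStatement (N * q) (atkinLehner N q hq hqN) A` for every
`A ∣ q`: for `R ≠ 0` there is `g ≡ 1` for `w₁` with `R · W g ≡ 1` for `w₁`.

This is a wrapper of `helper20.pairApprox_one` (applied to `W⁻¹ R`).
-/

set_option autoImplicit false

noncomputable section

open HahnSeries IntermediateField AlgebraicCurve ModularCurve

namespace Fermat.Agent.T2.helper93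

open Fermat.Agent.S18.helper19 Fermat.Agent.P2.helper29 Fermat.Agent.P2.helper93
open Fermat.Agent.T2 Fermat.Agent.T2.helper36

/-- **[T2-PAIR-APPROX]** (unconditional) in the shape of `helper8.PairApproxStatement`. -/
theorem pairApprox_uncond (N q : ℕ) [NeZero N] [NeZero q] (hq : q.Prime) (hqN : ¬ q ∣ N)
    (A : ValuationSubring Kb) (hA : A.LiesOverPrime q) :
    Fermat.Agent.T2.helper8.PairApproxStatement (N * q) (atkinLehner N q hq hqN) A := by
  intro R hR
  have hR' : (atkinLehner N q hq hqN).symm R ≠ 0 := (map_ne_zero _).mpr hR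
  obtain ⟨g, hg0, hg1, hg2⟩ :=
    Fermat.Agent.T2.helper20.pairApprox_one N q hq hqN (A := A) hA
      ((atkinLehner N q hq hqN).symm R) hR'
  refine ⟨g, hg0, hg1, ?_⟩
  rw [map_mul, AlgEquiv.apply_symm_apply] at hg2
  rw [mul_comm R (atkinLehner N q hq hqN g)]
  exact hg2

/-- **[T2-PAIR-APPROX]**, statement of row 848 verbatim (the hypothesis `hSC` is not needed). -/
theorem pairApprox (N q : ℕ) [NeZero N] [NeZero q] (hq : q.Prime) (hqN : ¬ q ∣ N)
    (A : ValuationSubring Kb) (hA : A.LiesOverPrime q)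
    (_hSC : Fermat.Agent.P2.helper29.ScaleStatement (N * q) A) :
    Fermat.Agent.T2.helper8.PairApproxStatement (N * q) (atkinLehner N q hq hqN) A :=
  pairApprox_uncond N q hq hqN A hA

end Fermat.Agent.T2.helper93
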